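/-
S18 (wave 7): common definitions for the proof that the kernel of reduction mod `ℓ` on
`J_0(N)` has no prime-to-`ℓ` torsion.  Everything here is definitional glue; the mathematical
interfaces are in `Fermat/Agent/S18/Iface.lean`, the proved assembly in
`Fermat/Agent/S18/Assembly.lean`.
-/
import Fermat.Statements.S18
import Fermat.Prelude.Def_AlgebraicCurve_DivisorPushPull
import Fermat.Agent.S20.RRBasic

set_option autoImplicit false
set_option synthInstance.maxHeartbeats 400000

noncomputable section

open HahnSeries IntermediateField AlgebraicCurve ModularCurve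

namespace Fermat.Agent.S18

/-- `ℚ̄`. -/
abbrev Qb : Type := AlgebraicClosure ℚ

/-- The residue field `k` of the valuation ring `A ⊂ ℚ̄`. -/
abbrev Kb (A : ValuationSubring Qb) : Type := IsLocalRing.ResidueField A

/-- `F_N = ℚ̄(X_0(N)) ⊂ ℚ̄((q))`. -/
abbrev FN (N : ℕ) : IntermediateField Qb (LaurentSeries Qb) := modularFunctionFieldBar N

/-- `F̄_N = k(j(q^d), d ∣ N) ⊂ k((q))`. -/
abbrev FbN (A : ValuationSubring Qb) (N : ℕ) : IntermediateField (Kb A) (LaurentSeries (Kb A)) :=
  modularFunctionFieldFullC (Kb A) N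

/-! ### Level inclusions -/

/-- The algebra structure given by an inclusion of intermediate fields. -/
@[reducible] def algOfLE {K E : Type*} [Field K] [Field E] [Algebra K E]
    {S T : IntermediateField K E} (h : S ≤ T) : Algebra S T :=
  (IntermediateField.inclusion h).toRingHom.toAlgebra

theorem algOfLE_algebraMap {K E : Type*} [Field K] [Field E] [Algebra K E]
    {S T : IntermediateField K E} (h : S ≤ T) (x : S) :
    ((@algebraMap S T _ _ (algOfLE h) x : T) : E) = (x : E) := rfl

theorem isScalarTower_algOfLE {K E : Type*} [Field K] [Field E] [Algebra K E]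
    {S T : IntermediateField K E} (h : S ≤ T) :
    @IsScalarTower K S T _ (algOfLE h).toSMul _ :=
  letI := algOfLE h
  IsScalarTower.of_algebraMap_eq fun _ => rfl

theorem full_mono {N M : ℕ} (h : N ∣ M) :
    modularFunctionFieldFull N ≤ modularFunctionFieldFull M := by
  unfold modularFunctionFieldFull
  apply IntermediateField.adjoin.mono
  rintro x ⟨d, hd, hdN, rfl⟩
  exact ⟨d, hd, hdN.trans h, rfl⟩

theorem bar_mono {N M : ℕ} (h : N ∣ M) : FN N ≤ FN M := by
  unfold FN modularFunctionFieldBar laurentBaseChange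
  apply IntermediateField.adjoin.mono
  rintro x ⟨y, hy, rfl⟩
  exact ⟨y, full_mono h hy, rfl⟩

theorem fullC_mono (k : Type*) [Field k] {N M : ℕ} (h : N ∣ M) :
    modularFunctionFieldFullC k N ≤ modularFunctionFieldFullC k M := by
  unfold modularFunctionFieldFullC
  apply IntermediateField.adjoin.mono
  rintro x ⟨d, hd, hdN, rfl⟩
  exact ⟨d, hd, hdN.trans h, rfl⟩

/-- `[F_M : F_N]` for `N ∣ M`. -/
def levelDeg {N M : ℕ} (h : N ∣ M) : ℕ :=
  letI := algOfLE (bar_mono h)
  Module.finrank (FN N) (FN M)

/-! ### Pulled-back Riemann–Roch spaces (no finiteness instances needed) -/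

section Pb

variable {K F F' : Type*} [Field K] [Field F] [Field F'] [Algebra K F] [Algebra K F']
  [Algebra F F']

/-- `x ∈ L(π^* G)`: for every place `w` of `F'` lying over the place `v` of `F`,
`ord_w x ≥ - e(w | v) * G v` (stated without `Place.restrict`, so that no integrality instance is
needed; for an integral extension `v = w.restrict F` is the only place below `w`, and this is
`x ∈ riemannRochSpace (Divisor.pullback F' G)` by `Divisor.pullback_apply`). -/
def MemPb (G : Divisor K F) (x : F') : Prop :=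
  ∀ (w : Place K F') (v : Place K F),
    v.toValuationSubring = w.toValuationSubring.comap (algebraMap F F') →
      x = 0 ∨ -((w.ramificationIndex F : ℤ) * G v) ≤ w.ord x

end Pb

/-- `x ∈ L_M(π^* G)` for `G` a divisor of `F_N`, `N ∣ M` (characteristic zero). -/
def MemPbBar {N M : ℕ} (h : N ∣ M) (G : Divisor Qb (FN N)) (x : FN M) : Prop :=
  letI := algOfLE (bar_mono h)
  MemPb G x

/-- `y ∈ L̄_M(π̄^* Ḡ)` for `Ḡ` a divisor of `F̄_N`, `N ∣ M` (characteristic `ℓ`). -/
def MemPbC (A : ValuationSubring Qb) {N M : ℕ} (h : N ∣ M)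
    (G : Divisor (Kb A) (FbN A N)) (y : FbN A M) : Prop :=
  letI := algOfLE (fullC_mono (Kb A) h)
  MemPb G y

/-! ### Reduction of Laurent series (Gauss valuation) -/

/-- `IsRed A x y`: the series `x ∈ ℚ̄((q))` is Gauss-integral, i.e. a quotient `a / b` of series
with coefficients in `A` and `b̄ ≠ 0`, and `y = ā / b̄ ∈ k((q))` is its reduction. -/
def IsRed (A : ValuationSubring Qb) (x : LaurentSeries Qb) (y : LaurentSeries (Kb A)) : Prop :=
  ∃ a b : LaurentSeries A, coeffMap (IsLocalRing.residue A) b ≠ 0 ∧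
    x * coeffMap A.subtype b = coeffMap A.subtype a ∧
    y * coeffMap (IsLocalRing.residue A) b = coeffMap (IsLocalRing.residue A) a

/-! ### Riemann genus bounds -/

/-- Riemann's inequality with constant `g` ("the genus of `F / K` is at most `g`"). -/
def GenusLE (K F : Type*) [Field K] [Field F] [Algebra K F] (g : ℤ) : Prop :=
  ∀ D : Divisor K F, Divisor.degree D + 1 - g ≤ (S20.RR.ell D : ℤ)

/-- "The genus of `F / K` is at least `g`": `ℓ(D) ≤ deg D + 1 - g` for all large `D`. -/
def GenusGE (K F : Type*) [Field K] [Field F] [Algebra K F] (g : ℤ) : Prop :=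
  ∃ D₀ : Divisor K F, ∀ D : Divisor K F, D₀ ≤ D → (S20.RR.ell D : ℤ) ≤ Divisor.degree D + 1 - g

/-- The genus squeeze at level `M`: one integer `g` bounds the genus of `F_M` from above and the
genus of `F̄_M` from below. -/
def GenusSqueeze (A : ValuationSubring Qb) (M : ℕ) : Prop :=
  ∃ g : ℤ, GenusLE Qb (FN M) g ∧ GenusGE (Kb A) (FbN A M) g

/-! ### The lifting property -/

/-- `LiftProp A h r`: for divisors `G` of `F_N` of large degree, every section of
`L̄_M(π̄^* r_* G)` is the reduction of a Gauss-integral section of `L_M(π^* G)`. -/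
def LiftProp (A : ValuationSubring Qb) {N M : ℕ} (h : N ∣ M)
    (r : Place Qb (FN N) → Place (Kb A) (FbN A N)) : Prop :=
  ∃ c : ℤ, ∀ G : Divisor Qb (FN N), c ≤ Divisor.degree G →
    ∀ y : FbN A M, MemPbC A h (Finsupp.mapDomain r G) y →
      ∃ x : FN M, MemPbBar h G x ∧ IsRed A (x : LaurentSeries Qb) (y : LaurentSeries (Kb A))

/-! ### The torsion statement in divisor form -/

/-- The core statement at level `N`: a degree-zero divisor `D` with `m • D` principal, `ℓ ∤ m`, and
principal reduction is principal. -/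
def TorsionCore (N ℓ : ℕ) (A : ValuationSubring Qb) : Prop :=
  ∀ r : Place Qb (FN N) → Place (Kb A) (FbN A N),
    IsPlaceReductionModL A N r → PrincipalGeneratedByIntegral A (IsLocalRing.residue A) N →
    ∀ m : ℕ, ¬ ℓ ∣ m → ∀ D : Divisor Qb (FN N), Divisor.degree D = 0 →
      Divisor.IsPrincipal (m • D) → Divisor.IsPrincipal (Finsupp.mapDomain r D) →
        Divisor.IsPrincipal D

/-- The weak form: some `ℓ`-power multiple of `D` is principal. -/
def TorsionCoreW (N ℓ : ℕ) (A : ValuationSubring Qb) : Prop :=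
  ∀ r : Place Qb (FN N) → Place (Kb A) (FbN A N),
    IsPlaceReductionModL A N r → PrincipalGeneratedByIntegral A (IsLocalRing.residue A) N →
    ∀ m : ℕ, ¬ ℓ ∣ m → ∀ D : Divisor Qb (FN N), Divisor.degree D = 0 →
      Divisor.IsPrincipal (m • D) → Divisor.IsPrincipal (Finsupp.mapDomain r D) →
        ∃ a : ℕ, Divisor.IsPrincipal ((ℓ ^ a) • D)

end Fermat.Agent.S18
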