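/-
S18 (wave 7): the top-level interface.  Each `def ... : Prop` below is the literal statement of one
chain of the proof; `Fermat/Agent/S18/Assembly.lean` proves the frozen statement from them.

Notation (see `Defs.lean`): `Qb = ℚ̄`, `Kb A = k` the residue field of `A`, `FN N = F_N = ℚ̄(X_0(N))`,
`FbN A N = F̄_N = k(j(q^d), d ∣ N)`, `MemPbBar h G x` : `x ∈ L_M(π^* G)`, `MemPbC A h Ḡ y` :
`y ∈ L̄_M(π̄^* Ḡ)`, `IsRed A x y` : `x` is Gauss-integral with reduction `y`,
`LiftProp A h r` : sections of `L̄_M(π̄^* r_* G)` lift for `deg G` large, `levelDeg h = [F_M : F_N]`.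
-/
import Fermat.Agent.S18.Defs

set_option autoImplicit false
set_option synthInstance.maxHeartbeats 400000

noncomputable section

open HahnSeries IntermediateField AlgebraicCurve ModularCurve

namespace Fermat.Agent.S18

/-- The auxiliary level `M'` is admissible for the residue characteristic `ℓ`: it is prime to `ℓ`
and divisible by `4` (`ℓ` odd) resp. by `9` (`ℓ = 2`), so that `X_0(M') → X_0(4)` resp. `X_0(9)`
is a cover of a curve of genus `0` ramified only over cusps, tamely in characteristic `ℓ`. -/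
def Admissible (ℓ M : ℕ) : Prop :=
  ¬ ℓ ∣ M ∧ (ℓ ≠ 2 → 4 ∣ M) ∧ (ℓ = 2 → 9 ∣ M)

/-- **[chains C0 + CL + SQ]** the genus squeeze at every admissible level. -/
def GenusSqueezeStmt : Prop :=
  ∀ (ℓ : ℕ) [Fact ℓ.Prime] (A : ValuationSubring Qb), A.LiesOverPrime ℓ →
    ∀ (M : ℕ) [NeZero M], Admissible ℓ M → GenusSqueeze A M

/-- **[chain LIFT]** (dimension count) the genus squeeze at level `M` gives the lifting property
for divisors pulled back from any level `N ∣ M` carrying a place reduction `r`. -/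
def LiftOfSqueezeStmt : Prop :=
  ∀ (ℓ : ℕ) [Fact ℓ.Prime] (A : ValuationSubring Qb), A.LiesOverPrime ℓ →
    ∀ (N M : ℕ) [NeZero N] [NeZero M] (h : N ∣ M), ¬ ℓ ∣ M →
    ∀ r : Place Qb (FN N) → Place (Kb A) (FbN A N),
      IsPlaceReductionModL A N r → PrincipalGeneratedByIntegral A (IsLocalRing.residue A) N →
      GenusSqueeze A M → LiftProp A h r

/-- **[chain TR]** (trace descent) the lifting property descends from `M'` to `M` when
`[F_M' : F_M]` is prime to `ℓ`. -/
def TraceDescentStmt : Prop :=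
  ∀ (ℓ : ℕ) [Fact ℓ.Prime] (A : ValuationSubring Qb), A.LiesOverPrime ℓ →
    ∀ (N M M' : ℕ) [NeZero N] [NeZero M] [NeZero M'] (h : N ∣ M) (h' : M ∣ M'), ¬ ℓ ∣ M' →
    ¬ ℓ ∣ levelDeg h' →
    ∀ r : Place Qb (FN N) → Place (Kb A) (FbN A N),
      IsPlaceReductionModL A N r → PrincipalGeneratedByIntegral A (IsLocalRing.residue A) N →
      LiftProp A (h.trans h') r → LiftProp A h r

/-- **[chains U + NORM]** the torsion theorem: under the lifting property at level `M`, a
degree-zero divisor `D` of `F_N` with `m • D` principal, `ℓ ∤ m`, and principal reduction becomes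
principal on `F_M`, hence `[F_M : F_N] • D` is principal. -/
def TorsionOfLiftStmt : Prop :=
  ∀ (ℓ : ℕ) [Fact ℓ.Prime] (A : ValuationSubring Qb), A.LiesOverPrime ℓ →
    ∀ (N M : ℕ) [NeZero N] [NeZero M] (h : N ∣ M), ¬ ℓ ∣ M →
    ∀ r : Place Qb (FN N) → Place (Kb A) (FbN A N),
      IsPlaceReductionModL A N r → PrincipalGeneratedByIntegral A (IsLocalRing.residue A) N →
      LiftProp A h r →
      ∀ m : ℕ, ¬ ℓ ∣ m → ∀ D : Divisor Qb (FN N), Divisor.degree D = 0 →
        Divisor.IsPrincipal (m • D) → Divisor.IsPrincipal (Finsupp.mapDomain r D) →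
          Divisor.IsPrincipal (levelDeg h • D)

/-- **[chain LEVEL]** level bookkeeping: for `ℓ ∤ N` there are levels `N ∣ M ∣ M'` with `M'`
admissible, `[F_M' : F_M]` prime to `ℓ` and `[F_M : F_N]` a power of `ℓ`.
(`ℓ ≥ 5`: `M = N`, `M' = lcm(4, N)`; `ℓ = 3`: `M' = lcm(4, N)`, `M = 2N` if `N` is odd and `M = N`
otherwise; `ℓ = 2`: `M' = lcm(9, N)`, `M = 3N` if `3 ∤ N` and `M = N` otherwise.) -/
def LevelStmt : Prop :=
  ∀ (ℓ N : ℕ) [Fact ℓ.Prime] [NeZero N], ¬ ℓ ∣ N →
    ∃ (M M' : ℕ) (h : N ∣ M) (h' : M ∣ M'), M' ≠ 0 ∧ Admissible ℓ M' ∧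
      ¬ ℓ ∣ levelDeg h' ∧ ∃ a : ℕ, levelDeg h = ℓ ^ a

end Fermat.Agent.S18
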