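/-
S18 (wave 7): proved assembly.  `result_of_iface` derives the frozen statement S18 from the five
interface statements of `Iface.lean`.
-/
import Fermat.Agent.S18.Iface

set_option autoImplicit false
set_option synthInstance.maxHeartbeats 400000

noncomputable section

open HahnSeries IntermediateField AlgebraicCurve ModularCurve

namespace Fermat.Agent.S18

/-- A divisor with two coprime principal multiples is principal. -/
theorem isPrincipal_of_coprime {K F : Type*} [Field K] [Field F] [Algebra K F]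
    {D : Divisor K F} {m n : ℕ} (hmn : Nat.Coprime m n)
    (hm : Divisor.IsPrincipal (m • D)) (hn : Divisor.IsPrincipal (n • D)) :
    Divisor.IsPrincipal D := by
  have hm' : (m • D) ∈ Divisor.principal (K := K) (F := F) := hm
  have hn' : (n • D) ∈ Divisor.principal (K := K) (F := F) := hn
  have key : D = Nat.gcdA m n • (m • D) + Nat.gcdB m n • (n • D) := by
    have h := Nat.gcd_eq_gcd_ab m n
    rw [hmn] at h
    have h1 : ((1 : ℕ) : ℤ) • D = ((m : ℤ) * Nat.gcdA m n + (n : ℤ) * Nat.gcdB m n) • D := by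
      rw [h]
    rw [Nat.cast_one, one_smul, add_smul, mul_comm (m : ℤ), mul_comm (n : ℤ), mul_smul, mul_smul,
      natCast_zsmul, natCast_zsmul] at h1
    exact h1
  have : D ∈ Divisor.principal (K := K) (F := F) := by
    rw [key]
    exact AddSubgroup.add_mem _ (AddSubgroup.zsmul_mem _ hm' _) (AddSubgroup.zsmul_mem _ hn' _)
  exact this

/-- The weak torsion statement implies the strong one. -/
theorem torsionCore_of_weak {N ℓ : ℕ} [Fact ℓ.Prime] {A : ValuationSubring Qb}
    (hW : TorsionCoreW N ℓ A) : TorsionCore N ℓ A := by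
  intro r hr hgen m hm D hD hmD hrD
  obtain ⟨a, ha⟩ := hW r hr hgen m hm D hD hmD hrD
  have hcop : Nat.Coprime m (ℓ ^ a) :=
    Nat.Coprime.pow_right a
      ((Nat.coprime_comm).mp ((Nat.Prime.coprime_iff_not_dvd (Fact.out : ℓ.Prime)).mpr hm))
  exact isPrincipal_of_coprime hcop hmD ha

/-- The frozen statement S18 from the torsion statement in divisor form. -/
theorem result_of_core (N : ℕ) [NeZero N] {ℓ : ℕ} [Fact ℓ.Prime]
    (A : ValuationSubring (AlgebraicClosure ℚ))
    (hcore : TorsionCore N ℓ A)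
    (h : ModularCurve.ReductionInputsModL A N) (m : ℕ) (hm : ¬ ℓ ∣ m) (z : ModularCurve.JZero N)
    (hmz : m • z = 0) (hz : ModularCurve.reductionModL A N z = 0) :
    z = 0 := by
  obtain ⟨D, rfl⟩ := Pic0.mk_surjective z
  have hr := isPlaceReductionModL_placeReductionModL h
  have hgen : PrincipalGeneratedByIntegral A (IsLocalRing.residue A) N := h.choose_spec.2
  -- `m • D` is principal
  have h1 : Divisor.IsPrincipal (m • (D : Divisor Qb (FN N))) := by
    have h2 : (Pic0.mk (m • D) : Pic0 Qb (FN N)) = 0 := hmz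
    have h3 := (QuotientAddGroup.eq_zero_iff (m • D)).mp h2
    rw [AddSubgroup.mem_addSubgroupOf] at h3
    exact Divisor.mem_principal.mp (by simpa using h3)
  -- the reduction of `D` is principal
  have h2 : Divisor.IsPrincipal (Finsupp.mapDomain (placeReductionModL h)
      (D : Divisor Qb (FN N))) := by
    rw [reductionModL_mk h D] at hz
    have h3 := (QuotientAddGroup.eq_zero_iff _).mp hz
    rw [AddSubgroup.mem_addSubgroupOf] at h3
    exact Divisor.mem_principal.mp (by simpa using h3)
  have hD0 : Divisor.degree (D : Divisor Qb (FN N)) = 0 := D.2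
  have h3 := hcore (placeReductionModL h) hr hgen m hm D hD0 h1 h2
  refine (QuotientAddGroup.eq_zero_iff D).mpr ?_
  rw [AddSubgroup.mem_addSubgroupOf]
  exact h3

/-- The weak torsion statement from the five interface statements. -/
theorem torsionCoreW_of_iface (hGS : GenusSqueezeStmt) (hL : LiftOfSqueezeStmt)
    (hT : TraceDescentStmt) (hU : TorsionOfLiftStmt) (hLev : LevelStmt)
    (N : ℕ) [NeZero N] {ℓ : ℕ} [Fact ℓ.Prime] (hℓN : ¬ ℓ ∣ N)
    (A : ValuationSubring Qb) (hA : A.LiesOverPrime ℓ) : TorsionCoreW N ℓ A := by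
  intro r hr hgen m hm D hD hmD hrD
  obtain ⟨M, M', h, h', hM'0, hadm, hdeg', a, ha⟩ := hLev ℓ N hℓN
  haveI : NeZero M' := ⟨hM'0⟩
  haveI : NeZero M := ⟨fun h0 => hM'0 (by rw [h0] at h'; exact Nat.eq_zero_of_zero_dvd h')⟩
  have hℓM' : ¬ ℓ ∣ M' := hadm.1
  have hℓM : ¬ ℓ ∣ M := fun hd => hℓM' (hd.trans h')
  have hsq : GenusSqueeze A M' := hGS ℓ A hA M' hadm
  have hlift' : LiftProp A (h.trans h') r := hL ℓ A hA N M' (h.trans h') hℓM' r hr hgen hsq
  have hlift : LiftProp A h r := hT ℓ A hA N M M' h h' hℓM' hdeg' r hr hgen hlift'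
  have hfin := hU ℓ A hA N M h hℓM r hr hgen hlift m hm D hD hmD hrD
  exact ⟨a, ha ▸ hfin⟩

/-- **S18 from the interface.** -/
theorem result_of_iface (hGS : GenusSqueezeStmt) (hL : LiftOfSqueezeStmt)
    (hT : TraceDescentStmt) (hU : TorsionOfLiftStmt) (hLev : LevelStmt)
    (N : ℕ) [NeZero N] {ℓ : ℕ}
    [Fact ℓ.Prime] (hℓN : ¬ ℓ ∣ N) (A : ValuationSubring (AlgebraicClosure ℚ))
    (hA : A.LiesOverPrime ℓ)
    (h : ModularCurve.ReductionInputsModL A N) (m : ℕ) (hm : ¬ ℓ ∣ m) (z : ModularCurve.JZero N)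
    (hmz : m • z = 0) (hz : ModularCurve.reductionModL A N z = 0) :
    z = 0 :=
  result_of_core N A (torsionCore_of_weak (torsionCoreW_of_iface hGS hL hT hU hLev N hℓN A hA))
    h m hm z hmz hz

end Fermat.Agent.S18
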