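import Mathlib
import Fermat.Prelude.Def_AlgebraicCurve_DivisorClassGroup
import Fermat.Agent.S24.Places
import Fermat.Agent.S24.Alg.Places

/-!
# S18, level bookkeeping: the norm step

`F'/F` a finite extension of function fields over `K`, `D` a divisor of `F`.  An element
`x ≠ 0` of `F'` lies in the relative Riemann–Roch space of `D` (integral form) if for every
place `P` of `F` and every `t : F` with `ord_P t = D P` the product `x * t` is integral over the
valuation ring of `P`.  Then `N_{F'/F}(x)` has divisor `≥ -[F':F]·D`; if `deg D = 0` this forces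
`[F':F]·D` to be principal.  Together with `m·D` principal and `gcd([F':F], m) = 1` we get that
`D` is principal.
-/

set_option autoImplicit false

open AlgebraicCurve

namespace Fermat.Agent.S18.UpN

variable {K F F' : Type*} [Field K] [Field F] [Algebra K F] [Field F'] [Algebra F F']

/-- Membership of `x : F'` in the relative Riemann–Roch space of the divisor `D` of `F`
(integral form, no places of `F'`). -/
def RelIntegral (D : Divisor K F) (x : F') : Prop :=
  ∀ (P : Place K F) (t : F), P.ord t = D P →
    IsIntegral P.toValuationSubring (x * algebraMap F F' t)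

theorem mem_of_isIntegral (P : Place K F) {f : F} (hf : IsIntegral P.toValuationSubring f) :
    f ∈ P.toValuationSubring := by
  obtain ⟨y, hy⟩ := (IsIntegrallyClosed.isIntegral_iff (R := P.toValuationSubring) (K := F)).mp hf
  rw [← hy]
  exact y.2

/-- The norm of an element of the relative Riemann–Roch space of `D` has order `≥ -d·D P`. -/
theorem ord_norm_ge [FiniteDimensional F F'] (D : Divisor K F) {x : F'} (hx0 : x ≠ 0)
    (hx : RelIntegral D x) (P : Place K F) :
    -((Module.finrank F F' : ℤ) * D P) ≤ P.ord (Algebra.norm F x) := by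
  obtain ⟨π, hπ⟩ := Fermat.Agent.S24.Places.exists_uniformizer P
  have hπ0 : π ≠ 0 := by
    rintro rfl
    simp at hπ
  set t : F := π ^ (D P) with ht
  have ht0 : t ≠ 0 := zpow_ne_zero _ hπ0
  have hord : P.ord t = D P := by rw [ht, P.ord_zpow, hπ, mul_one]
  have h1 := hx P t hord
  have h2 : IsIntegral P.toValuationSubring (Algebra.norm F (x * algebraMap F F' t)) :=
    Algebra.isIntegral_norm F h1
  rw [map_mul, Algebra.norm_algebraMap] at h2
  have h3 := mem_of_isIntegral P h2
  have hN0 : Algebra.norm F x ≠ 0 := Algebra.norm_ne_zero_iff.mpr hx0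
  have h4 := (Fermat.Agent.S24.Places.mem_iff_ord_nonneg P
    (mul_ne_zero hN0 (pow_ne_zero _ ht0))).mp h3
  rw [P.ord_mul hN0 (pow_ne_zero _ ht0), Fermat.Agent.S24.Places.ord_pow, hord] at h4
  linarith

/-- An effective divisor of degree `0` is `0` (all places of positive degree). -/
theorem eq_zero_of_nonneg_of_degree_eq_zero (hdeg : ∀ P : Place K F, 0 < P.deg)
    (G : Divisor K F) (hG : ∀ P, 0 ≤ G P) (h0 : Divisor.degree G = 0) : G = 0 := by
  classical
  have hsum : Divisor.degree G = ∑ P ∈ G.support, G P * (P.deg : ℤ) := by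
    simp [Divisor.degree, Finsupp.liftAddHom_apply, Finsupp.sum]
  rw [hsum] at h0
  have hterm : ∀ P ∈ G.support, 0 ≤ G P * (P.deg : ℤ) := fun P _ =>
    mul_nonneg (hG P) (by positivity)
  have hz := (Finset.sum_eq_zero_iff_of_nonneg hterm).mp h0
  ext P
  by_cases hP : P ∈ G.support
  · have h := hz P hP
    have hd : (P.deg : ℤ) ≠ 0 := by exact_mod_cast (hdeg P).ne'
    rcases mul_eq_zero.mp h with h | h
    · simpa using h
    · exact absurd h hd
  · simpa using Finsupp.notMem_support_iff.mp hP

/-- **Norm step.** A nonzero element of the relative Riemann–Roch space of a degree-zero divisor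
`D` of `F` in a finite extension `F'` makes `[F':F]·D` principal. -/
theorem isPrincipal_nsmul_of_relIntegral [FiniteDimensional F F']
    (hdeg : ∀ P : Place K F, 0 < P.deg)
    (hprin : ∀ f : F, f ≠ 0 → ∃ E : Divisor K F, (∀ v, E v = v.ord f) ∧ Divisor.degree E = 0)
    (D : Divisor K F) (hD : Divisor.degree D = 0) {x : F'} (hx0 : x ≠ 0)
    (hx : RelIntegral D x) :
    Divisor.IsPrincipal (Module.finrank F F' • D) := by
  have hN0 : Algebra.norm F x ≠ 0 := Algebra.norm_ne_zero_iff.mpr hx0
  obtain ⟨E, hE, hE0⟩ := hprin _ hN0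
  have hG : E + Module.finrank F F' • D = 0 := by
    apply eq_zero_of_nonneg_of_degree_eq_zero hdeg
    · intro P
      have h := ord_norm_ge D hx0 hx P
      rw [Finsupp.add_apply, Finsupp.smul_apply, hE P, nsmul_eq_mul]
      linarith
    · rw [map_add, map_nsmul, hE0, hD, smul_zero, add_zero]
  refine ⟨(Algebra.norm F x)⁻¹, inv_ne_zero hN0, fun v => ?_⟩
  have h := congrArg (fun G : Divisor K F => G v) hG
  simp only [Finsupp.add_apply, Finsupp.zero_apply] at h
  rw [v.ord_inv, ← hE v]
  linarith

/-- **gcd step.** -/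
theorem isPrincipal_of_coprime (D : Divisor K F) {m d : ℕ} (hcop : Nat.Coprime d m)
    (h1 : Divisor.IsPrincipal (m • D)) (h2 : Divisor.IsPrincipal (d • D)) :
    Divisor.IsPrincipal D := by
  have hb := Nat.gcd_eq_gcd_ab d m
  rw [hcop.gcd_eq_one] at hb
  have hD : D = (Nat.gcdA d m) • (d • D) + (Nat.gcdB d m) • (m • D) := by
    rw [← natCast_zsmul D d, ← natCast_zsmul D m, smul_smul, smul_smul, ← add_smul]
    have : Nat.gcdA d m * (d : ℤ) + Nat.gcdB d m * (m : ℤ) = 1 := by
      push_cast at hb
      linarith
    rw [this, one_smul]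
  rw [hD]
  exact (Divisor.principal (K := K) (F := F)).add_mem
    ((Divisor.principal (K := K) (F := F)).zsmul_mem h2 _)
    ((Divisor.principal (K := K) (F := F)).zsmul_mem h1 _)

/-- **Norm + gcd.** -/
theorem isPrincipal_of_relIntegral [FiniteDimensional F F']
    (hdeg : ∀ P : Place K F, 0 < P.deg)
    (hprin : ∀ f : F, f ≠ 0 → ∃ E : Divisor K F, (∀ v, E v = v.ord f) ∧ Divisor.degree E = 0)
    (D : Divisor K F) (hD : Divisor.degree D = 0) {m : ℕ}
    (hcop : Nat.Coprime (Module.finrank F F') m) (hm : Divisor.IsPrincipal (m • D))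
    {x : F'} (hx0 : x ≠ 0) (hx : RelIntegral D x) :
    Divisor.IsPrincipal D :=
  isPrincipal_of_coprime D hcop hm (isPrincipal_nsmul_of_relIntegral hdeg hprin D hD hx0 hx)

end Fermat.Agent.S18.UpN
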