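/-
S18 (wave 7): the top-level interface in the NATIVE shapes of the chains
(`UpN.RelIntegral` for relative Riemann–Roch spaces, `RGB.V` / `RGB.rho` for the Gauss valuation
ring and its residue map).  `result_of_iface2` proves the frozen statement S18 from
`GenusSqueezeStmt`, `LevelStmt` (both from `Iface.lean`) and the three statements below.
This file supersedes the `MemPb` / `IsRed` forms of `LiftProp` in `Iface.lean`.
-/
import Fermat.Agent.S18.Assembly
import Fermat.Agent.S18.RGaussBar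
import Fermat.Agent.S18.UpNorm

set_option autoImplicit false
set_option synthInstance.maxHeartbeats 400000

noncomputable section

open HahnSeries IntermediateField AlgebraicCurve ModularCurve

namespace Fermat.Agent.S18

/-- `LiftPropV A hA h hℓM r` (native form of the lifting property): for divisors `G` of `F_N` of
large degree, every `y ∈ F̄_M` in the relative Riemann–Roch space of `r_* G` (integral form over
the places of `F̄_N`) is `rho x` for some `x` in the Gauss valuation ring `V_M` lying in the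
relative Riemann–Roch space of `G` (integral form over the places of `F_N`). -/
def LiftPropV (A : ValuationSubring Qb) {ℓ : ℕ} [Fact ℓ.Prime] (hA : A.LiesOverPrime ℓ)
    {N M : ℕ} [NeZero M] (h : N ∣ M) (hℓM : ¬ ℓ ∣ M)
    (r : Place Qb (FN N) → Place (Kb A) (FbN A N)) : Prop :=
  letI := algOfLE (bar_mono h)
  letI := algOfLE (fullC_mono (Kb A) h)
  ∃ c : ℤ, ∀ G : Divisor Qb (FN N), c ≤ Divisor.degree G →
    ∀ y : FbN A M, UpN.RelIntegral (Finsupp.mapDomain r G) y →
      ∃ x : RGB.V M A, UpN.RelIntegral G (x : FN M) ∧ RGB.rho M hℓM A hA x = y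

/-- **[chain LIFT]** the genus squeeze at level `M` gives the lifting property for divisors
pulled back from any level `N ∣ M` carrying a place reduction `r`. -/
def LiftOfSqueezeStmtV : Prop :=
  ∀ (ℓ : ℕ) [Fact ℓ.Prime] (A : ValuationSubring Qb) (hA : A.LiesOverPrime ℓ)
    (N M : ℕ) [NeZero N] [NeZero M] (h : N ∣ M) (hℓM : ¬ ℓ ∣ M)
    (r : Place Qb (FN N) → Place (Kb A) (FbN A N)),
      IsPlaceReductionModL A N r → PrincipalGeneratedByIntegral A (IsLocalRing.residue A) N →
      GenusSqueeze A M → LiftPropV A hA h hℓM r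

/-- **[chain TR]** the lifting property descends from `M'` to `M` when `[F_M' : F_M]` is prime
to `ℓ`. -/
def TraceDescentStmtV : Prop :=
  ∀ (ℓ : ℕ) [Fact ℓ.Prime] (A : ValuationSubring Qb) (hA : A.LiesOverPrime ℓ)
    (N M M' : ℕ) [NeZero N] [NeZero M] [NeZero M'] (h : N ∣ M) (h' : M ∣ M')
    (hℓM : ¬ ℓ ∣ M) (hℓM' : ¬ ℓ ∣ M'), ¬ ℓ ∣ levelDeg h' →
    ∀ r : Place Qb (FN N) → Place (Kb A) (FbN A N),
      IsPlaceReductionModL A N r → PrincipalGeneratedByIntegral A (IsLocalRing.residue A) N →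
      LiftPropV A hA (h.trans h') hℓM' r → LiftPropV A hA h hℓM r

/-- **[chains U + NORM]** the torsion theorem at level `M` relative to `N`. -/
def TorsionOfLiftStmtV : Prop :=
  ∀ (ℓ : ℕ) [Fact ℓ.Prime] (A : ValuationSubring Qb) (hA : A.LiesOverPrime ℓ)
    (N M : ℕ) [NeZero N] [NeZero M] (h : N ∣ M) (hℓM : ¬ ℓ ∣ M)
    (r : Place Qb (FN N) → Place (Kb A) (FbN A N)),
      IsPlaceReductionModL A N r → PrincipalGeneratedByIntegral A (IsLocalRing.residue A) N →
      LiftPropV A hA h hℓM r →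
      ∀ m : ℕ, ¬ ℓ ∣ m → ∀ D : Divisor Qb (FN N), Divisor.degree D = 0 →
        Divisor.IsPrincipal (m • D) → Divisor.IsPrincipal (Finsupp.mapDomain r D) →
          Divisor.IsPrincipal (levelDeg h • D)

/-- The weak torsion statement from the interface in native form. -/
theorem torsionCoreW_of_iface2 (hGS : GenusSqueezeStmt) (hL : LiftOfSqueezeStmtV)
    (hT : TraceDescentStmtV) (hU : TorsionOfLiftStmtV) (hLev : LevelStmt)
    (N : ℕ) [NeZero N] {ℓ : ℕ} [Fact ℓ.Prime] (hℓN : ¬ ℓ ∣ N)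
    (A : ValuationSubring Qb) (hA : A.LiesOverPrime ℓ) : TorsionCoreW N ℓ A := by
  intro r hr hgen m hm D hD hmD hrD
  obtain ⟨M, M', h, h', hM'0, hadm, hdeg', a, ha⟩ := hLev ℓ N hℓN
  haveI : NeZero M' := ⟨hM'0⟩
  haveI : NeZero M := ⟨fun h0 => hM'0 (by rw [h0] at h'; exact Nat.eq_zero_of_zero_dvd h')⟩
  have hℓM' : ¬ ℓ ∣ M' := hadm.1
  have hℓM : ¬ ℓ ∣ M := fun hd => hℓM' (hd.trans h')
  have hsq : GenusSqueeze A M' := hGS ℓ A hA M' hadm
  have hlift' : LiftPropV A hA (h.trans h') hℓM' r :=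
    hL ℓ A hA N M' (h.trans h') hℓM' r hr hgen hsq
  have hlift : LiftPropV A hA h hℓM r := hT ℓ A hA N M M' h h' hℓM hℓM' hdeg' r hr hgen hlift'
  have hfin := hU ℓ A hA N M h hℓM r hr hgen hlift m hm D hD hmD hrD
  exact ⟨a, ha ▸ hfin⟩

/-- **S18 from the interface in native form.** -/
theorem result_of_iface2 (hGS : GenusSqueezeStmt) (hL : LiftOfSqueezeStmtV)
    (hT : TraceDescentStmtV) (hU : TorsionOfLiftStmtV) (hLev : LevelStmt)
    (N : ℕ) [NeZero N] {ℓ : ℕ}
    [Fact ℓ.Prime] (hℓN : ¬ ℓ ∣ N) (A : ValuationSubring (AlgebraicClosure ℚ))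
    (hA : A.LiesOverPrime ℓ)
    (h : ModularCurve.ReductionInputsModL A N) (m : ℕ) (hm : ¬ ℓ ∣ m) (z : ModularCurve.JZero N)
    (hmz : m • z = 0) (hz : ModularCurve.reductionModL A N z = 0) :
    z = 0 :=
  result_of_core N A (torsionCore_of_weak (torsionCoreW_of_iface2 hGS hL hT hU hLev N hℓN A hA))
    h m hm z hmz hz

end Fermat.Agent.S18
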