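/-
S18 (torsion injects under reduction), chain R, piece R1 (helper13).

Setting: `A` a valuation subring of `ℚ̄` over a prime `ℓ ∤ N`, `k` its residue field,
`F = ℚ̄(j(q^d) : d ∣ N) ⊆ ℚ̄((q))` the function field of `X₀(N)` and `F̄ = k(J(q^d) : d ∣ N)`.

* `exists_pivot`, `exists_scale_poly`: finite families in the fraction field of a valuation ring
  can be scaled to integral families with a unit member (no discreteness needed).
* `exists_indep`: `ψ(N)` monomials in the `J(q^d)` whose reductions are linearly independent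
  over `k(J)` (Igusa's degree bound from S28).
* `exists_poly_rel`: any `ψ(N) + 1` elements of `F` satisfy a nontrivial relation with
  coefficients in `ℚ̄[j]` (degree bound from S24).
* `exists_normal_form`: every `x ∈ F` satisfies `x · S(j) = c · ∑ T_i(j) m_i` with `S, T_i ∈ A[X]`,
  `S̄ ≠ 0`, and (`c = 0` or some `T̄_i ≠ 0`).
* `coeffMap_residue_mem`: an element of `F` with `A`-integral `q`-expansion reduces into `F̄`.
-/
import Mathlib
import Fermat.Prelude.Def_ModularCurve_ReductionModL
import Fermat.Prelude.Def_EllipticCurve_FrobeniusTrace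
import Fermat.Agent.S28.IgusaDeg
import Fermat.Agent.S28.A0Final
import Fermat.Agent.S28.Mono
import Fermat.Agent.S28.ValBase
import Fermat.Agent.S28.Deg0

set_option autoImplicit false

noncomputable section

open ModularCurve Polynomial IntermediateField
open scoped MatrixGroups

namespace Fermat.Agent.S18.RN

open Fermat.Agent.S28

/-! ### Pivots in a valuation ring -/

/-- among finitely many elements of the fraction field, not all zero, one divides all others -/
theorem exists_pivot {L : Type*} [Field L] (A : ValuationSubring L) {ι : Type*} (s : Finset ι)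
    (f : ι → L) (h : ∃ i ∈ s, f i ≠ 0) :
    ∃ i₀ ∈ s, f i₀ ≠ 0 ∧ ∀ i ∈ s, f i / f i₀ ∈ A := by
  obtain ⟨i₁, hi₁, hne⟩ := h
  obtain ⟨i₀, hi₀, hmax⟩ := Finset.exists_max_image s (fun i => A.valuation (f i)) ⟨i₁, hi₁⟩
  have h0 : f i₀ ≠ 0 := by
    intro h0
    have h1 := hmax i₁ hi₁
    simp only [h0, map_zero] at h1
    exact hne ((_root_.map_eq_zero _).mp (le_antisymm h1 zero_le))
  refine ⟨i₀, hi₀, h0, fun i hi => ?_⟩
  rw [← A.valuation_le_one_iff, map_div₀]
  have hpos : (0 : A.ValueGroup) < A.valuation (f i₀) :=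
    lt_of_le_of_ne zero_le (Ne.symm ((_root_.map_ne_zero _).mpr h0))
  exact (div_le_one₀ hpos).mpr (hmax i hi)

/-- a finite family of polynomials over the fraction field, not all zero, is a nonzero constant
times an integral family with a member of nonzero reduction -/
theorem exists_scale_poly {L : Type*} [Field L] (A : ValuationSubring L) {ι : Type*} [Fintype ι]
    (T : ι → L[X]) (h : ∃ i, T i ≠ 0) :
    ∃ (c : L) (T' : ι → (↥A)[X]), c ≠ 0 ∧ (∀ i, T i = C c * (T' i).map A.subtype) ∧
      ∃ i, (T' i).map (IsLocalRing.residue A) ≠ 0 := by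
  classical
  obtain ⟨i₁, hi₁⟩ := h
  obtain ⟨n₁, hn₁⟩ : ∃ n, (T i₁).coeff n ≠ 0 := by
    by_contra hcon
    push Not at hcon
    exact hi₁ (Polynomial.ext (by simpa using hcon))
  set M : ℕ := Finset.univ.sup (fun i => (T i).natDegree) with hM
  obtain ⟨⟨i₀, n₀⟩, -, hc0, hpiv⟩ := exists_pivot A
    ((Finset.univ : Finset ι) ×ˢ Finset.range (M + 1)) (fun p => (T p.1).coeff p.2)
    ⟨(i₁, n₁), by
      refine Finset.mem_product.mpr ⟨Finset.mem_univ _, Finset.mem_range.mpr ?_⟩
      have h1 : n₁ ≤ (T i₁).natDegree := le_natDegree_of_ne_zero hn₁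
      have h2 : (T i₁).natDegree ≤ M := Finset.le_sup (f := fun i => (T i).natDegree)
        (Finset.mem_univ i₁)
      omega, hn₁⟩
  set c : L := (T i₀).coeff n₀ with hc
  have hall : ∀ i n, (T i).coeff n / c ∈ A := by
    intro i n
    by_cases hn : n < M + 1
    · exact hpiv (i, n) (Finset.mem_product.mpr ⟨Finset.mem_univ _, Finset.mem_range.mpr hn⟩)
    · have h2 : (T i).natDegree ≤ M := Finset.le_sup (f := fun i => (T i).natDegree)
        (Finset.mem_univ i)
      rw [coeff_eq_zero_of_natDegree_lt (by omega), zero_div]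
      exact A.zero_mem
  have hlift : ∀ i, ∃ q : (↥A)[X], q.map A.subtype = C c⁻¹ * T i := by
    intro i
    rw [← Polynomial.mem_lifts, Polynomial.lifts_iff_coeff_lifts]
    intro n
    rw [coeff_C_mul]
    exact ⟨⟨(T i).coeff n / c, hall i n⟩, by simp [div_eq_inv_mul]⟩
  choose T' hT' using hlift
  refine ⟨c, T', hc0, fun i => ?_, i₀, ?_⟩
  · rw [hT' i, ← mul_assoc, ← C_mul, mul_inv_cancel₀ hc0, C_1, one_mul]
  · intro h0
    have h1 : ((T' i₀).map A.subtype).coeff n₀ = 1 := by
      rw [hT' i₀, coeff_C_mul, ← hc, inv_mul_cancel₀ hc0]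
    rw [coeff_map] at h1
    have h2 : (T' i₀).coeff n₀ = 1 := Subtype.ext h1
    have h3 := congrArg (fun p : (IsLocalRing.ResidueField A)[X] => p.coeff n₀) h0
    simp only [coeff_map, h2, map_one, coeff_zero] at h3
    exact one_ne_zero h3

/-! ### Characteristic zero: the degree bound over a field `L ⊆ ℂ` -/

section CharZero

variable (L : Type*) [Field L] [Algebra ℚ L]

theorem coeffEmb_jq : coeffEmb L jq = jqModC L := by
  rw [← jqModC_rat]
  exact coeffMap_jqModC (algebraMap ℚ L)

theorem coe_jElt (N : ℕ) [NeZero N] :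
    ((Fermat.Agent.S24.jElt L N : ↥(Fermat.Agent.S24.FF L N)) : LaurentSeries L) = jqModC L := by
  show coeffEmb L (Fermat.Agent.S24.jqd (⟨1, one_dvd N⟩ : Fermat.Agent.S24.Dv N)) = jqModC L
  have h : Fermat.Agent.S24.jqd (⟨1, one_dvd N⟩ : Fermat.Agent.S24.Dv N) = jq :=
    qExpand_one_apply jq
  rw [h, coeffEmb_jq]

theorem card_le (ι : L →+* ℂ) (N : ℕ) [NeZero N] {n : ℕ} (f : Fin n → LaurentSeries L)
    (hf : ∀ i, f i ∈ Fermat.Agent.S24.FF L N)
    (hli : LinearIndependent ↥(IntermediateField.adjoin L {jqModC L}) f) :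
    n ≤ dedekindPsi N := by
  have := Fermat.Agent.S24.Degree.finiteDimensional ι N
  have h1 := Fermat.Agent.S24.Degree.finrank_le ι N
  have h2 : Nat.card (SL(2, ℤ) ⧸ CongruenceSubgroup.Gamma0 N) = dedekindPsi N :=
    Fermat.Agent.S24.Comb.index_Gamma0 N
  have hli' : LinearIndependent
      ↥(IntermediateField.adjoin L
        {((Fermat.Agent.S24.jElt L N : ↥(Fermat.Agent.S24.FF L N)) : LaurentSeries L)}) f := by
    rw [coe_jElt]
    exact hli
  have h3 := Deg0.generic_card_le (Fermat.Agent.S24.FF L N) (Fermat.Agent.S24.jElt L N) f hf hli'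
  omega

theorem Jd_mem_FF (N : ℕ) [NeZero N] {d : ℕ} (hd : d ∈ N.divisors) :
    Mono.Jd L d ∈ Fermat.Agent.S24.FF L N := by
  have hd0 : d ≠ 0 := (Nat.pos_of_mem_divisors hd).ne'
  have : NeZero d := ⟨hd0⟩
  have h := coeffEmb_mem_laurentBaseChange L
    (ModularCurve.jqd_mem_full N (Nat.dvd_of_mem_divisors hd))
  have e : coeffEmb L (qExpand ℚ d jq) = qExpand L d (jqModC L) := by
    rw [coeffEmb, coeffMap_qExpand]
    congr 1
    exact coeffEmb_jq L
  rw [Mono.Jd_eq, ← e]
  exact h

theorem mono_mem_FF (N : ℕ) [NeZero N] (e : ℕ → ℕ) :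
    Mono.mono L N e ∈ Fermat.Agent.S24.FF L N :=
  prod_mem fun _ hd => pow_mem (Jd_mem_FF L N hd) _

/-- any `ψ(N) + 1` elements of the function field satisfy a nontrivial linear relation with
coefficients in `L[j]` -/
theorem exists_poly_rel (ι : L →+* ℂ) (N : ℕ) [NeZero N]
    (f : Fin (dedekindPsi N + 1) → LaurentSeries L) (hf : ∀ i, f i ∈ Fermat.Agent.S24.FF L N) :
    ∃ G : Fin (dedekindPsi N + 1) → L[X],
      (∃ i, G i ≠ 0) ∧ ∑ i, aeval (jqModC L) (G i) * f i = 0 := by
  classical
  have hnl : ¬ LinearIndependent ↥(IntermediateField.adjoin L {jqModC L}) f := fun hli =>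
    absurd (card_le L ι N f hf hli) (by omega)
  rw [Fintype.not_linearIndependent_iff] at hnl
  obtain ⟨g, hg, i₀, hi₀⟩ := hnl
  have hrep : ∀ i, ∃ r s : L[X], s ≠ 0 ∧
      (g i : LaurentSeries L) * aeval (jqModC L) s = aeval (jqModC L) r := by
    intro i
    obtain ⟨r, s, hrs⟩ := (IntermediateField.mem_adjoin_simple_iff L _).mp (g i).2
    by_cases hs : aeval (jqModC L) s = 0
    · refine ⟨0, 1, one_ne_zero, ?_⟩
      rw [hrs, hs, div_zero]
      simp
    · refine ⟨r, s, fun h0 => hs (by rw [h0, map_zero]), ?_⟩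
      rw [hrs, div_mul_cancel₀ _ hs]
  choose r s hs hrs using hrep
  have hs' : ∀ i, aeval (jqModC L) (s i) ≠ 0 := fun i h =>
    hs i (ValBase.aeval_jqModC_eq_zero L h)
  refine ⟨fun i => r i * ∏ j ∈ Finset.univ.erase i, s j, ⟨i₀, ?_⟩, ?_⟩
  · intro h0
    rcases mul_eq_zero.mp h0 with h | h
    · have h1 := hrs i₀
      rw [h, map_zero] at h1
      rcases mul_eq_zero.mp h1 with h' | h'
      · exact hi₀ (Subtype.ext h')
      · exact hs' i₀ h'
    · exact (Finset.prod_ne_zero_iff.mpr fun j _ => hs j) h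
  · have hP : ∀ i, aeval (jqModC L) (r i * ∏ j ∈ Finset.univ.erase i, s j) =
        (g i : LaurentSeries L) * aeval (jqModC L) (∏ j, s j) := by
      intro i
      rw [← Finset.mul_prod_erase Finset.univ s (Finset.mem_univ i), map_mul, map_mul,
        ← hrs i]
      ring
    have hsum : ∑ i, (g i : LaurentSeries L) * aeval (jqModC L) (∏ j, s j) * f i =
        aeval (jqModC L) (∏ j, s j) * ∑ i, g i • f i := by
      rw [Finset.mul_sum]
      refine Finset.sum_congr rfl fun i _ => ?_
      rw [Algebra.smul_def]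
      show _ = aeval (jqModC L) (∏ j, s j) * ((g i : LaurentSeries L) * f i)
      ring
    simp only [hP]
    rw [hsum, hg, mul_zero]

end CharZero

/-! ### Numerators `∑ T_i(j) m_i` -/

section Num

variable (N : ℕ)

/-- the Laurent series `∑ i, T_i(j) · m_i` for monomials `m_i = ∏ J(q^d) ^ e i d` -/
def num (e : Fin (dedekindPsi N) → ℕ → ℕ) (R : Type*) [CommRing R]
    (T : Fin (dedekindPsi N) → R[X]) : LaurentSeries R :=
  ∑ i, aeval (jqModC R) (T i) * Mono.mono R N (e i)

theorem coeffMap_num {R S : Type*} [CommRing R] [CommRing S] (f : R →+* S)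
    (e : Fin (dedekindPsi N) → ℕ → ℕ) (T : Fin (dedekindPsi N) → R[X]) :
    coeffMap f (num N e R T) = num N e S (fun i => (T i).map f) := by
  simp only [num, map_sum, map_mul, ValBase.coeffMap_aeval, coeffMap_jqModC, Mono.coeffMap_mono]

theorem aeval_jqModC_mem_adjoin {k : Type*} [Field k] (P : k[X]) :
    aeval (jqModC k) P ∈ k⟮jqModC k⟯ :=
  IntermediateField.algebra_adjoin_le_adjoin k _ (Polynomial.aeval_mem_adjoin_singleton k _)

theorem aeval_jqModC_mem_full {k : Type*} [Field k] (P : k[X]) :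
    aeval (jqModC k) P ∈ modularFunctionFieldFullC k N :=
  (IntermediateField.adjoin_simple_le_iff.mpr (jqModC_mem_full k N)) (aeval_jqModC_mem_adjoin P)

theorem num_mem_full {k : Type*} [Field k] (e : Fin (dedekindPsi N) → ℕ → ℕ)
    (T : Fin (dedekindPsi N) → k[X]) : num N e k T ∈ modularFunctionFieldFullC k N :=
  sum_mem fun i _ => mul_mem (aeval_jqModC_mem_full N (T i)) (Mono.mono_mem_full k N (e i))

/-- residue independence: a numerator with a nonzero coefficient polynomial is nonzero -/
theorem num_ne_zero {k : Type*} [Field k] (e : Fin (dedekindPsi N) → ℕ → ℕ)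
    (he : LinearIndependent ↥(k⟮jqModC k⟯) (fun i => Mono.mono k N (e i)))
    (T : Fin (dedekindPsi N) → k[X]) (hT : ∃ i, T i ≠ 0) : num N e k T ≠ 0 := by
  intro h0
  obtain ⟨i, hi⟩ := hT
  rw [Fintype.linearIndependent_iff] at he
  have key := he (fun i => ⟨aeval (jqModC k) (T i), aeval_jqModC_mem_adjoin (T i)⟩) (by
    rw [← h0, num]
    refine Finset.sum_congr rfl fun i _ => ?_
    rw [Algebra.smul_def]
    rfl) i
  exact hi (ValBase.aeval_jqModC_eq_zero k (congrArg Subtype.val key))

end Num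

/-! ### The main setting -/

section Main

variable (N : ℕ) [NeZero N] {ℓ : ℕ} [Fact ℓ.Prime]
variable (A : ValuationSubring (AlgebraicClosure ℚ))

theorem charP_residueField (hA : A.LiesOverPrime ℓ) : CharP (IsLocalRing.ResidueField A) ℓ := by
  have hmem : ((ℓ : ℕ) : A) ∈ IsLocalRing.maximalIdeal A := by
    rw [IsLocalRing.mem_maximalIdeal, mem_nonunits_iff]
    intro hu
    have h1 : (ℓ : AlgebraicClosure ℚ) ∈ A.nonunits := hA
    rw [ValuationSubring.mem_nonunits_iff_exists_mem_maximalIdeal] at h1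
    obtain ⟨ha, hm⟩ := h1
    rw [IsLocalRing.mem_maximalIdeal, mem_nonunits_iff] at hm
    exact hm hu
  have h2 : ((ℓ : ℕ) : IsLocalRing.ResidueField A) = 0 := by
    rw [← map_natCast (IsLocalRing.residue A) ℓ]
    exact (IsLocalRing.residue_eq_zero_iff _).mpr hmem
  exact (CharP.charP_iff_prime_eq_zero (Fact.out : ℓ.Prime)).mpr h2

/-- **Igusa**: `ψ(N)` monomials in the `J(q^d)`, `d ∣ N`, with reductions linearly independent
over `k(J)`, `k` the residue field of `A`. -/
theorem exists_indep (hℓN : ¬ ℓ ∣ N) (hA : A.LiesOverPrime ℓ) :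
    ∃ e : Fin (dedekindPsi N) → ℕ → ℕ,
      LinearIndependent
        ↥((IsLocalRing.ResidueField A)⟮jqModC (IsLocalRing.ResidueField A)⟯)
        (fun i => Mono.mono (IsLocalRing.ResidueField A) N (e i)) := by
  have := charP_residueField A hA
  have : CharP (AlgebraicClosure (IsLocalRing.ResidueField A)) ℓ :=
    charP_of_injective_algebraMap
      (algebraMap (IsLocalRing.ResidueField A)
        (AlgebraicClosure (IsLocalRing.ResidueField A))).injective ℓ
  have hdeg := IgusaDeg.psi_le_relrank_of_poly ℓ N hℓN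
    (AlgebraicClosure (IsLocalRing.ResidueField A))
    (fun p _ hp hpN h => A0Final.exists_monic_of_mem
      (AlgebraicClosure (IsLocalRing.ResidueField A)) ℓ p hp (fun hpℓ => hℓN (hpℓ ▸ hpN)) h)
  exact Mono.exists_indep_monomials (IsLocalRing.ResidueField A) N hdeg

theorem coeffMap_subtype_injective :
    Function.Injective (coeffMap (A.subtype : ↥A →+* AlgebraicClosure ℚ)) := by
  intro x y hxy
  ext n
  have := congrArg (fun z : LaurentSeries (AlgebraicClosure ℚ) => z.coeff n) hxy
  simp only [coeffMap_coeff] at this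
  exact this

theorem coeffMap_subtype_algebraMap (c : A) :
    coeffMap (A.subtype : ↥A →+* AlgebraicClosure ℚ) (algebraMap A (LaurentSeries A) c) =
      algebraMap (AlgebraicClosure ℚ) (LaurentSeries (AlgebraicClosure ℚ)) (c : AlgebraicClosure ℚ) := by
  have h := congrArg (fun φ : ↥A →+* LaurentSeries (AlgebraicClosure ℚ) => φ c)
    (ValBase.coeffMap_comp_algebraMap (A.subtype : ↥A →+* AlgebraicClosure ℚ))
  exact h

theorem coeffMap_residue_algebraMap (c : A) :
    coeffMap (IsLocalRing.residue A) (algebraMap A (LaurentSeries A) c) =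
      algebraMap (IsLocalRing.ResidueField A) (LaurentSeries (IsLocalRing.ResidueField A))
        (IsLocalRing.residue A c) := by
  have h := congrArg (fun φ : ↥A →+* LaurentSeries (IsLocalRing.ResidueField A) => φ c)
    (ValBase.coeffMap_comp_algebraMap (IsLocalRing.residue A))
  exact h

/-- **Normal form.** With monomials `m_i` of independent reduction, every element `x` of the
function field of `X₀(N)` over `ℚ̄` satisfies `x · S(j) = c · ∑ T_i(j) m_i` with `S, T_i ∈ A[X]`,
`S̄ ≠ 0` and (`c = 0` or some `T̄_i ≠ 0`). -/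
theorem exists_normal_form (e : Fin (dedekindPsi N) → ℕ → ℕ)
    (he : LinearIndependent
      ↥((IsLocalRing.ResidueField A)⟮jqModC (IsLocalRing.ResidueField A)⟯)
      (fun i => Mono.mono (IsLocalRing.ResidueField A) N (e i)))
    (x : LaurentSeries (AlgebraicClosure ℚ)) (hx : x ∈ modularFunctionFieldBar N) :
    ∃ (c : AlgebraicClosure ℚ) (S : (↥A)[X]) (T : Fin (dedekindPsi N) → (↥A)[X]),
      S.map (IsLocalRing.residue A) ≠ 0 ∧
      (c = 0 ∨ ∃ i, (T i).map (IsLocalRing.residue A) ≠ 0) ∧
      x * coeffMap A.subtype (aeval (jqModC A) S) =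
        algebraMap (AlgebraicClosure ℚ) (LaurentSeries (AlgebraicClosure ℚ)) c *
          coeffMap A.subtype (num N e A T) := by
  classical
  obtain ⟨ι, -⟩ : ∃ ι : AlgebraicClosure ℚ →+* ℂ, True := by
    let _ : Algebra ℚ (AlgebraicClosure ℚ) := AlgebraicClosure.instAlgebra ℚ
    have := AlgebraicClosure.isAlgebraic ℚ
    exact ⟨(IsAlgClosed.lift (R := ℚ) (S := AlgebraicClosure ℚ) (M := ℂ)).toRingHom, trivial⟩
  set J := jqModC (AlgebraicClosure ℚ) with hJ
  -- the relation
  obtain ⟨G, ⟨i₁, hi₁⟩, hrel⟩ := exists_poly_rel (AlgebraicClosure ℚ) ι N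
    (Fin.cons x (fun i => Mono.mono (AlgebraicClosure ℚ) N (e i)))
    (fun i => by
      refine Fin.cases ?_ (fun j => ?_) i
      · simpa using hx
      · simpa using mono_mem_FF (AlgebraicClosure ℚ) N (e j))
  rw [Fin.sum_univ_succ] at hrel
  simp only [Fin.cons_zero, Fin.cons_succ] at hrel
  -- transport of numerators
  have hnumL : ∀ T : Fin (dedekindPsi N) → (↥A)[X],
      coeffMap A.subtype (num N e A T) =
        ∑ i, aeval J ((T i).map A.subtype) * Mono.mono (AlgebraicClosure ℚ) N (e i) := by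
    intro T
    rw [coeffMap_num]
    rfl
  have hres : ∀ T : Fin (dedekindPsi N) → (↥A)[X],
      (∃ i, (T i).map (IsLocalRing.residue A) ≠ 0) → coeffMap A.subtype (num N e A T) ≠ 0 := by
    intro T hT h0
    have h1 : num N e A T = 0 := coeffMap_subtype_injective A (by rw [h0, map_zero])
    have h2 := coeffMap_num N (IsLocalRing.residue A) e T
    rw [h1, map_zero] at h2
    exact num_ne_zero N e he _ hT h2.symm
  -- `G 0 ≠ 0`
  have hG0 : G 0 ≠ 0 := by
    intro h0
    have hex : ∃ i : Fin (dedekindPsi N), G i.succ ≠ 0 := by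
      by_contra hcon
      push Not at hcon
      refine hi₁ ?_
      refine Fin.cases ?_ (fun j => ?_) i₁
      · exact h0
      · exact hcon j
    obtain ⟨c, T', hc, hT', hne⟩ := exists_scale_poly A (fun i : Fin (dedekindPsi N) => G i.succ) hex
    rw [h0, map_zero, zero_mul, zero_add] at hrel
    have h1 : algebraMap (AlgebraicClosure ℚ) (LaurentSeries (AlgebraicClosure ℚ)) c *
        coeffMap A.subtype (num N e A T') = 0 := by
      rw [hnumL, Finset.mul_sum, ← hrel]
      refine Finset.sum_congr rfl fun i _ => ?_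
      rw [hT' i, map_mul, aeval_C]
      ring
    rcases mul_eq_zero.mp h1 with h2 | h2
    · exact hc ((map_eq_zero_iff _ (algebraMap (AlgebraicClosure ℚ)
        (LaurentSeries (AlgebraicClosure ℚ))).injective).mp h2)
    · exact hres T' hne h2
  obtain ⟨c₀, S', hc₀, hS', u₀, hSne⟩ := exists_scale_poly A (fun _ : Unit => G 0) ⟨(), hG0⟩
  have hS0 := hS' ()
  have hSL : coeffMap A.subtype (aeval (jqModC A) (S' ())) = aeval J ((S' ()).map A.subtype) := by
    rw [ValBase.coeffMap_aeval, coeffMap_jqModC]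
  by_cases hex : ∃ i : Fin (dedekindPsi N), G i.succ ≠ 0
  · obtain ⟨c₁, T', hc₁, hT', hne⟩ :=
      exists_scale_poly A (fun i : Fin (dedekindPsi N) => G i.succ) hex
    refine ⟨-c₁ / c₀, S' (), T', hSne, Or.inr hne, ?_⟩
    have h1 : ∑ i : Fin (dedekindPsi N), aeval J (G i.succ) * Mono.mono (AlgebraicClosure ℚ) N (e i)
        = algebraMap (AlgebraicClosure ℚ) (LaurentSeries (AlgebraicClosure ℚ)) c₁ *
          coeffMap A.subtype (num N e A T') := by
      rw [hnumL, Finset.mul_sum]
      refine Finset.sum_congr rfl fun i _ => ?_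
      rw [hT' i, map_mul, aeval_C]
      ring
    rw [h1, hS0, map_mul, aeval_C, ← hSL] at hrel
    have hc₀' : algebraMap (AlgebraicClosure ℚ) (LaurentSeries (AlgebraicClosure ℚ)) c₀ ≠ 0 :=
      fun h => hc₀ ((map_eq_zero_iff _ (algebraMap (AlgebraicClosure ℚ)
        (LaurentSeries (AlgebraicClosure ℚ))).injective).mp h)
    rw [map_div₀, map_neg]
    field_simp
    linear_combination hrel
  · push Not at hex
    refine ⟨0, S' (), fun _ => 0, hSne, Or.inl rfl, ?_⟩
    have h1 : ∑ i : Fin (dedekindPsi N), aeval J (G i.succ) * Mono.mono (AlgebraicClosure ℚ) N (e i)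
        = 0 := Finset.sum_eq_zero fun i _ => by rw [hex i, map_zero, zero_mul]
    rw [h1, add_zero] at hrel
    have hG0' : aeval J (G 0) ≠ 0 := fun h => hG0 (ValBase.aeval_jqModC_eq_zero _ h)
    have hx0 : x = 0 := by
      rcases mul_eq_zero.mp hrel with h | h
      · exact absurd h hG0'
      · exact h
    rw [hx0, zero_mul, map_zero, zero_mul]

/-- **R-main**: an element of the function field of `X₀(N)` over `ℚ̄` whose `q`-expansion has
coefficients in `A` reduces into the function field `k(J(q^d) : d ∣ N)`. -/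
theorem coeffMap_residue_mem (hℓN : ¬ ℓ ∣ N) (hA : A.LiesOverPrime ℓ) (y : LaurentSeries A)
    (hy : coeffMap A.subtype y ∈ modularFunctionFieldBar N) :
    coeffMap (IsLocalRing.residue A) y ∈
      modularFunctionFieldFullC (IsLocalRing.ResidueField A) N := by
  obtain ⟨e, he⟩ := exists_indep N A hℓN hA
  obtain ⟨c, S, T, hS, hcT, hrel⟩ := exists_normal_form N A e he _ hy
  have hSk : coeffMap (IsLocalRing.residue A) (aeval (jqModC A) S) =
      aeval (jqModC (IsLocalRing.ResidueField A)) (S.map (IsLocalRing.residue A)) := by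
    rw [ValBase.coeffMap_aeval, coeffMap_jqModC]
  have hSk0 : aeval (jqModC (IsLocalRing.ResidueField A)) (S.map (IsLocalRing.residue A)) ≠ 0 :=
    fun h => hS (ValBase.aeval_jqModC_eq_zero _ h)
  by_cases hcA : c ∈ A
  · -- the identity holds in `A((q))`
    have h1 : y * aeval (jqModC A) S =
        algebraMap A (LaurentSeries A) ⟨c, hcA⟩ * num N e A T := by
      apply coeffMap_subtype_injective A
      rw [map_mul, map_mul, coeffMap_subtype_algebraMap]
      exact hrel
    have h2 := congrArg (coeffMap (IsLocalRing.residue A)) h1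
    rw [map_mul, map_mul, hSk, coeffMap_residue_algebraMap, coeffMap_num] at h2
    have h3 : coeffMap (IsLocalRing.residue A) y =
        algebraMap (IsLocalRing.ResidueField A) (LaurentSeries (IsLocalRing.ResidueField A))
          (IsLocalRing.residue A ⟨c, hcA⟩) *
          num N e (IsLocalRing.ResidueField A) (fun i => (T i).map (IsLocalRing.residue A)) /
          aeval (jqModC (IsLocalRing.ResidueField A)) (S.map (IsLocalRing.residue A)) := by
      rw [eq_div_iff hSk0]
      exact h2
    rw [h3]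
    exact div_mem (mul_mem (IntermediateField.algebraMap_mem _ _) (num_mem_full N e _))
      (aeval_jqModC_mem_full N _)
  · -- impossible: then `c⁻¹` is a non-unit of `A`
    exfalso
    have hc0 : c ≠ 0 := fun h => hcA (h ▸ A.zero_mem)
    have hci : c⁻¹ ∈ A := (A.mem_or_inv_mem c).resolve_left hcA
    have hT : ∃ i, (T i).map (IsLocalRing.residue A) ≠ 0 := hcT.resolve_left hc0
    have h1 : algebraMap A (LaurentSeries A) ⟨c⁻¹, hci⟩ * (y * aeval (jqModC A) S) =
        num N e A T := by
      apply coeffMap_subtype_injective A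
      rw [map_mul, map_mul, coeffMap_subtype_algebraMap, hrel, ← mul_assoc, ← map_mul]
      show algebraMap (AlgebraicClosure ℚ) (LaurentSeries (AlgebraicClosure ℚ)) (c⁻¹ * c) * _ = _
      rw [inv_mul_cancel₀ hc0, map_one, one_mul]
    have hnu : IsLocalRing.residue A ⟨c⁻¹, hci⟩ = 0 := by
      rw [IsLocalRing.residue_eq_zero_iff, IsLocalRing.mem_maximalIdeal, mem_nonunits_iff]
      intro hu
      obtain ⟨u, hu⟩ := hu
      apply hcA
      have h7 : ((u⁻¹ : (↥A)ˣ) : ↥A) * (⟨c⁻¹, hci⟩ : ↥A) = 1 := by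
        rw [← hu]
        exact u.inv_mul
      have h6 : (((u⁻¹ : (↥A)ˣ) : ↥A) : AlgebraicClosure ℚ) * c⁻¹ = 1 := congrArg Subtype.val h7
      have h5 : (((u⁻¹ : (↥A)ˣ) : ↥A) : AlgebraicClosure ℚ) = c := (mul_inv_eq_one₀ hc0).mp h6
      rw [← h5]
      exact ((u⁻¹ : (↥A)ˣ) : ↥A).2
    have h2 := congrArg (coeffMap (IsLocalRing.residue A)) h1
    rw [map_mul, coeffMap_residue_algebraMap, hnu, map_zero, zero_mul, coeffMap_num] at h2
    exact num_ne_zero N e he _ hT h2.symm

end Main

end Fermat.Agent.S18.RN
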