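/-
S18 (torsion injects under reduction), chain R, piece R1c (helper13): consequences of the normal
form of `RNormal.lean` for finite families and for the Gauss valuation.

Setting: `A` a valuation subring of `ℚ̄`, `k` its residue field, `e` a family of `ψ(N)` monomial
exponents whose monomials have `k(J)`-linearly independent reductions (`RN.exists_indep`).

* `exists_common_den`: a finite family of elements of the function field has a common
  denominator `S(j)`, `S ∈ A[X]`, `S̄ ≠ 0`, with numerators `∑ T_i(j) m_i`, `T_i ∈ ℚ̄[X]`.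
* `integral_of_mul_eq`: orthonormality of the monomials: if `(∑ T_i(j) m_i) · b = a` with
  `a, b ∈ A((q))`, `b̄ ≠ 0`, then all `T_i` have coefficients in `A`, and `ā = (∑ T̄_i(J) m̄_i) · b̄`.
* `residue_div_mem`: if `x` lies in the function field and `x · b = a` with `a, b ∈ A((q))`,
  `b̄ ≠ 0`, then `ā / b̄` lies in the function field `k(J(q^d) : d ∣ N)`.
-/
import Fermat.Agent.S18.RNormal

set_option autoImplicit false

noncomputable section

open ModularCurve Polynomial IntermediateField

namespace Fermat.Agent.S18.RF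

open Fermat.Agent.S28 Fermat.Agent.S18

variable (N : ℕ) [NeZero N] (A : ValuationSubring (AlgebraicClosure ℚ))

theorem algebraMap_ne_zero' {c : AlgebraicClosure ℚ} (hc : c ≠ 0) :
    algebraMap (AlgebraicClosure ℚ) (LaurentSeries (AlgebraicClosure ℚ)) c ≠ 0 :=
  fun h => hc ((map_eq_zero_iff _ (algebraMap (AlgebraicClosure ℚ)
    (LaurentSeries (AlgebraicClosure ℚ))).injective).mp h)

theorem coeffMap_subtype_aeval (S : (↥A)[X]) :
    coeffMap A.subtype (aeval (jqModC A) S) =
      aeval (jqModC (AlgebraicClosure ℚ)) (S.map A.subtype) := by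
  rw [ValBase.coeffMap_aeval, coeffMap_jqModC]

theorem coeffMap_residue_aeval (S : (↥A)[X]) :
    coeffMap (IsLocalRing.residue A) (aeval (jqModC A) S) =
      aeval (jqModC (IsLocalRing.ResidueField A)) (S.map (IsLocalRing.residue A)) := by
  rw [ValBase.coeffMap_aeval, coeffMap_jqModC]

/-- a non-unit of `A` has zero residue; stated for the inverse of an element outside `A` -/
theorem residue_inv_eq_zero {c : AlgebraicClosure ℚ} (hcA : c ∉ A) (hci : c⁻¹ ∈ A) :
    IsLocalRing.residue A ⟨c⁻¹, hci⟩ = 0 := by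
  have hc0 : c ≠ 0 := fun h => hcA (h ▸ A.zero_mem)
  rw [IsLocalRing.residue_eq_zero_iff, IsLocalRing.mem_maximalIdeal, mem_nonunits_iff]
  intro hu
  obtain ⟨u, hu⟩ := hu
  apply hcA
  have h7 : ((u⁻¹ : (↥A)ˣ) : ↥A) * (⟨c⁻¹, hci⟩ : ↥A) = 1 := by
    rw [← hu]
    exact u.inv_mul
  have h6 : (((u⁻¹ : (↥A)ˣ) : ↥A) : AlgebraicClosure ℚ) * c⁻¹ = 1 := congrArg Subtype.val h7
  have h5 : (((u⁻¹ : (↥A)ˣ) : ↥A) : AlgebraicClosure ℚ) = c := (mul_inv_eq_one₀ hc0).mp h6
  rw [← h5]
  exact ((u⁻¹ : (↥A)ˣ) : ↥A).2

variable (e : Fin (dedekindPsi N) → ℕ → ℕ)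

/-- **F1: common denominator.** -/
theorem exists_common_den
    (he : LinearIndependent
      ↥((IsLocalRing.ResidueField A)⟮jqModC (IsLocalRing.ResidueField A)⟯)
      (fun i => Mono.mono (IsLocalRing.ResidueField A) N (e i)))
    {ι : Type*} [Fintype ι] (x : ι → LaurentSeries (AlgebraicClosure ℚ))
    (hx : ∀ r, x r ∈ modularFunctionFieldBar N) :
    ∃ (S : (↥A)[X]) (T : ι → Fin (dedekindPsi N) → (AlgebraicClosure ℚ)[X]),
      S.map (IsLocalRing.residue A) ≠ 0 ∧
      ∀ r, x r * coeffMap A.subtype (aeval (jqModC A) S) =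
        ∑ i, aeval (jqModC (AlgebraicClosure ℚ)) (T r i) *
          Mono.mono (AlgebraicClosure ℚ) N (e i) := by
  classical
  choose c S T hS hcT hrel using fun r => RN.exists_normal_form N A e he (x r) (hx r)
  refine ⟨∏ r, S r, fun r i => C (c r) *
    ((∏ r' ∈ Finset.univ.erase r, S r') * T r i).map A.subtype, ?_, fun r => ?_⟩
  · rw [Polynomial.map_prod]
    exact Finset.prod_ne_zero_iff.mpr fun r _ => hS r
  · rw [← Finset.mul_prod_erase Finset.univ S (Finset.mem_univ r), map_mul, map_mul, ← mul_assoc,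
      hrel r, RN.coeffMap_num, RN.num, coeffMap_subtype_aeval, Finset.mul_sum, Finset.sum_mul]
    refine Finset.sum_congr rfl fun i _ => ?_
    rw [map_mul, aeval_C, Polynomial.map_mul, map_mul]
    ring

omit [NeZero N] in
/-- **F2: orthonormality of the monomials.** -/
theorem integral_of_mul_eq
    (he : LinearIndependent
      ↥((IsLocalRing.ResidueField A)⟮jqModC (IsLocalRing.ResidueField A)⟯)
      (fun i => Mono.mono (IsLocalRing.ResidueField A) N (e i)))
    (T : Fin (dedekindPsi N) → (AlgebraicClosure ℚ)[X]) (a b : LaurentSeries A)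
    (hb : coeffMap (IsLocalRing.residue A) b ≠ 0)
    (h : (∑ i, aeval (jqModC (AlgebraicClosure ℚ)) (T i) *
        Mono.mono (AlgebraicClosure ℚ) N (e i)) * coeffMap A.subtype b = coeffMap A.subtype a) :
    ∃ T' : Fin (dedekindPsi N) → (↥A)[X], (∀ i, T i = (T' i).map A.subtype) ∧
      coeffMap (IsLocalRing.residue A) a =
        RN.num N e (IsLocalRing.ResidueField A) (fun i => (T' i).map (IsLocalRing.residue A)) *
          coeffMap (IsLocalRing.residue A) b := by
  classical
  -- integral coefficients give the residue formula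
  have key : ∀ T' : Fin (dedekindPsi N) → (↥A)[X], (∀ i, T i = (T' i).map A.subtype) →
      coeffMap (IsLocalRing.residue A) a =
        RN.num N e (IsLocalRing.ResidueField A) (fun i => (T' i).map (IsLocalRing.residue A)) *
          coeffMap (IsLocalRing.residue A) b := by
    intro T' hT'
    have h1 : RN.num N e A T' * b = a := by
      apply RN.coeffMap_subtype_injective A
      rw [map_mul, RN.coeffMap_num, ← h]
      simp only [RN.num, hT']
    rw [← h1, map_mul, RN.coeffMap_num]
  by_cases hex : ∃ i, T i ≠ 0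
  · obtain ⟨c, T', hc, hT', hne⟩ := RN.exists_scale_poly A T hex
    by_cases hcA : c ∈ A
    · have hT'' : ∀ i, T i = (C (⟨c, hcA⟩ : ↥A) * T' i).map A.subtype := by
        intro i
        rw [hT' i, Polynomial.map_mul, Polynomial.map_C]
        rfl
      exact ⟨fun i => C (⟨c, hcA⟩ : ↥A) * T' i, hT'', key _ hT''⟩
    · exfalso
      have hc0 : c ≠ 0 := hc
      have hci : c⁻¹ ∈ A := (A.mem_or_inv_mem c).resolve_left hcA
      have h1 : RN.num N e A T' * b = algebraMap A (LaurentSeries A) ⟨c⁻¹, hci⟩ * a := by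
        apply RN.coeffMap_subtype_injective A
        rw [map_mul, map_mul, RN.coeffMap_subtype_algebraMap, ← h, RN.coeffMap_num, RN.num,
          ← mul_assoc, Finset.mul_sum]
        congr 1
        refine Finset.sum_congr rfl fun i _ => ?_
        rw [hT' i, map_mul, aeval_C, ← mul_assoc, ← mul_assoc, ← map_mul]
        show _ = algebraMap (AlgebraicClosure ℚ) (LaurentSeries (AlgebraicClosure ℚ)) (c⁻¹ * c) *
          _ * _
        rw [inv_mul_cancel₀ hc0, map_one, one_mul]
      have h2 := congrArg (coeffMap (IsLocalRing.residue A)) h1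
      rw [map_mul, map_mul, RN.coeffMap_residue_algebraMap, residue_inv_eq_zero A hcA hci,
        map_zero, zero_mul, RN.coeffMap_num] at h2
      rcases mul_eq_zero.mp h2 with h3 | h3
      · exact RN.num_ne_zero N e he _ hne h3
      · exact hb h3
  · push Not at hex
    have hT0 : ∀ i, T i = ((fun _ => 0 : Fin (dedekindPsi N) → (↥A)[X]) i).map A.subtype := by
      intro i
      rw [hex i, Polynomial.map_zero]
    exact ⟨fun _ => 0, hT0, key _ hT0⟩

/-- **F3**: the residue `ā / b̄` of an element `x = a / b` of the function field (`a, b ∈ A((q))`,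
`b̄ ≠ 0`) lies in the function field `k(J(q^d) : d ∣ N)`. -/
theorem residue_div_mem {ℓ : ℕ} [Fact ℓ.Prime] (hℓN : ¬ ℓ ∣ N) (hA : A.LiesOverPrime ℓ)
    (x : LaurentSeries (AlgebraicClosure ℚ)) (hx : x ∈ modularFunctionFieldBar N)
    (a b : LaurentSeries A) (hb : coeffMap (IsLocalRing.residue A) b ≠ 0)
    (h : x * coeffMap A.subtype b = coeffMap A.subtype a) :
    coeffMap (IsLocalRing.residue A) a / coeffMap (IsLocalRing.residue A) b ∈
      modularFunctionFieldFullC (IsLocalRing.ResidueField A) N := by
  obtain ⟨e, he⟩ := RN.exists_indep N A hℓN hA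
  obtain ⟨c, S, T, hS, hcT, hrel⟩ := RN.exists_normal_form N A e he x hx
  have hSk0 : aeval (jqModC (IsLocalRing.ResidueField A)) (S.map (IsLocalRing.residue A)) ≠ 0 :=
    fun h => hS (ValBase.aeval_jqModC_eq_zero _ h)
  -- the basic identity `a · S(j) = c · num · b` over `ℚ̄`
  have hbasic : coeffMap A.subtype a * coeffMap A.subtype (aeval (jqModC A) S) =
      algebraMap (AlgebraicClosure ℚ) (LaurentSeries (AlgebraicClosure ℚ)) c *
        coeffMap A.subtype (RN.num N e A T) * coeffMap A.subtype b := by
    rw [← h, mul_right_comm, hrel]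
  by_cases hcA : c ∈ A
  · have h1 : a * aeval (jqModC A) S =
        algebraMap A (LaurentSeries A) ⟨c, hcA⟩ * RN.num N e A T * b := by
      apply RN.coeffMap_subtype_injective A
      rw [map_mul, map_mul, map_mul, RN.coeffMap_subtype_algebraMap]
      exact hbasic
    have h2 := congrArg (coeffMap (IsLocalRing.residue A)) h1
    rw [map_mul, map_mul, map_mul, coeffMap_residue_aeval, RN.coeffMap_residue_algebraMap,
      RN.coeffMap_num] at h2
    have h3 : coeffMap (IsLocalRing.residue A) a / coeffMap (IsLocalRing.residue A) b =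
        algebraMap (IsLocalRing.ResidueField A) (LaurentSeries (IsLocalRing.ResidueField A))
          (IsLocalRing.residue A ⟨c, hcA⟩) *
          RN.num N e (IsLocalRing.ResidueField A) (fun i => (T i).map (IsLocalRing.residue A)) /
          aeval (jqModC (IsLocalRing.ResidueField A)) (S.map (IsLocalRing.residue A)) := by
      rw [div_eq_div_iff hb hSk0, h2]
    rw [h3]
    exact div_mem (mul_mem (IntermediateField.algebraMap_mem _ _) (RN.num_mem_full N e _))
      (RN.aeval_jqModC_mem_full N _)
  · exfalso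
    have hc0 : c ≠ 0 := fun h => hcA (h ▸ A.zero_mem)
    have hci : c⁻¹ ∈ A := (A.mem_or_inv_mem c).resolve_left hcA
    have hT : ∃ i, (T i).map (IsLocalRing.residue A) ≠ 0 := hcT.resolve_left hc0
    have h1 : algebraMap A (LaurentSeries A) ⟨c⁻¹, hci⟩ * (a * aeval (jqModC A) S) =
        RN.num N e A T * b := by
      apply RN.coeffMap_subtype_injective A
      rw [map_mul, map_mul, map_mul, RN.coeffMap_subtype_algebraMap, hbasic, ← mul_assoc,
        ← mul_assoc, ← map_mul]
      show algebraMap (AlgebraicClosure ℚ) (LaurentSeries (AlgebraicClosure ℚ)) (c⁻¹ * c) * _ * _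
        = _
      rw [inv_mul_cancel₀ hc0, map_one, one_mul]
    have h2 := congrArg (coeffMap (IsLocalRing.residue A)) h1
    rw [map_mul, RN.coeffMap_residue_algebraMap, residue_inv_eq_zero A hcA hci, map_zero,
      zero_mul, map_mul, RN.coeffMap_num] at h2
    rcases mul_eq_zero.mp h2.symm with h3 | h3
    · exact RN.num_ne_zero N e he _ hT h3
    · exact hb h3

end Fermat.Agent.S18.RF
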