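/-
S18, chain CL (good reduction input), piece CL-EMB, base file (helper13).

* `exists_hom_of_frac`, `hom_ext_of_frac`: ring homomorphisms out of an intermediate field all of
  whose elements are quotients of polynomials in a family of generators (generic port of
  S24 `Ext.exists_hom`).
* `fullC_frac`: the elements of `modularFunctionFieldFullC k N` are quotients of polynomials in
  the `J(q^d)`, `d ∣ N`.
* `exists_unit_of_pow_eq_one`: roots of unity of `ℂ` are images of units of a valuation subring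
  of `ℚ̄`.
* `fexp_eq`: the cusp expansions of S24 are `qExpand e (twist ξ j)` with `ξ` a root of unity.
-/
import Fermat.Agent.S18.RFamily
import Fermat.Agent.S24.Mod.Cusp
import Fermat.Agent.S28.Phi.Basic

set_option autoImplicit false

noncomputable section

open ModularCurve IntermediateField
open scoped MatrixGroups Real

namespace Fermat.Agent.S18.CLE

open Fermat.Agent.S28 Fermat.Agent.S24 Fermat.Agent.S18

/-! ### Homomorphisms out of a field of fractions of polynomials in generators -/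

section Ext

variable {K M : Type*} [Field K] [Field M] [Algebra K M] {σ : Type*} (g : σ → M)
  (F : IntermediateField K M)

theorem aeval_mem (hg : ∀ s, g s ∈ F) (P : MvPolynomial σ K) : MvPolynomial.aeval g P ∈ F := by
  induction P using MvPolynomial.induction_on with
  | C c =>
    rw [MvPolynomial.aeval_C]
    exact F.algebraMap_mem c
  | add p q hp hq =>
    rw [map_add]
    exact add_mem hp hq
  | mul_X p s hp =>
    rw [map_mul, MvPolynomial.aeval_X]
    exact mul_mem hp (hg s)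

/-- A ring hom on polynomials with the same kernel as the evaluation at the generators descends
to the field of fractions. -/
theorem exists_hom_of_frac (hg : ∀ s, g s ∈ F)
    (hfrac : ∀ x ∈ F, ∃ P Q : MvPolynomial σ K, MvPolynomial.aeval g Q ≠ 0 ∧
      x = MvPolynomial.aeval g P / MvPolynomial.aeval g Q)
    {𝕃 : Type*} [Field 𝕃] (φ : MvPolynomial σ K →+* 𝕃)
    (h : ∀ P, MvPolynomial.aeval g P = 0 ↔ φ P = 0) :
    ∃ τ : ↥F →+* 𝕃, ∀ P, τ ⟨MvPolynomial.aeval g P, aeval_mem g F hg P⟩ = φ P := by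
  classical
  set ev : MvPolynomial σ K → ↥F := fun P => ⟨MvPolynomial.aeval g P, aeval_mem g F hg P⟩ with hev
  have ev_zero : ∀ P, ev P = 0 ↔ MvPolynomial.aeval g P = 0 := fun P => by
    rw [hev]
    exact ⟨fun h0 => congrArg Subtype.val h0, fun h0 => Subtype.ext h0⟩
  have ev_one : ev 1 = 1 := Subtype.ext (map_one _)
  have ev_mul : ∀ P Q, ev (P * Q) = ev P * ev Q := fun P Q => Subtype.ext (map_mul _ P Q)
  have ev_add : ∀ P Q, ev (P + Q) = ev P + ev Q := fun P Q => Subtype.ext (map_add _ P Q)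
  have ev_sub : ∀ P Q, ev (P - Q) = ev P - ev Q := fun P Q => Subtype.ext (map_sub _ P Q)
  have ev_zero' : ev 0 = 0 := Subtype.ext (map_zero _)
  have hfrac' : ∀ f : ↥F, ∃ P Q : MvPolynomial σ K, ev Q ≠ 0 ∧ f = ev P / ev Q := by
    intro f
    obtain ⟨P, Q, hQ, hf⟩ := hfrac f.1 f.2
    refine ⟨P, Q, fun h0 => hQ ((ev_zero Q).mp h0), Subtype.ext ?_⟩
    rw [IntermediateField.coe_div]
    exact hf
  choose Pf Qf hQf hf using hfrac'
  have hφ : ∀ Q, ev Q ≠ 0 → φ Q ≠ 0 := fun Q hQ h0 => hQ ((ev_zero Q).mpr ((h Q).mpr h0))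
  have key : ∀ (f : ↥F) (P Q : MvPolynomial σ K), ev Q ≠ 0 →
      f = ev P / ev Q → φ (Pf f) / φ (Qf f) = φ P / φ Q := by
    intro f P Q hQ hfPQ
    rw [div_eq_div_iff (hφ _ (hQf f)) (hφ _ hQ)]
    have h1 : ev P / ev Q = ev (Pf f) / ev (Qf f) := hfPQ.symm.trans (hf f)
    rw [div_eq_div_iff hQ (hQf f)] at h1
    have e : ev (Pf f * Q - P * Qf f) = 0 := by
      rw [ev_sub, ev_mul, ev_mul, sub_eq_zero, h1]
    have e2 := (h _).mp ((ev_zero _).mp e)
    rw [map_sub, map_mul, map_mul, sub_eq_zero] at e2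
    exact e2
  refine ⟨{ toFun := fun f => φ (Pf f) / φ (Qf f)
            map_one' := ?_
            map_mul' := ?_
            map_zero' := ?_
            map_add' := ?_ }, ?_⟩
  · have := key 1 1 1 (by rw [ev_one]; exact one_ne_zero) (by rw [ev_one, div_one])
    rw [this, map_one, div_one]
  · intro f g'
    have := key (f * g') (Pf f * Pf g') (Qf f * Qf g')
      (by rw [ev_mul]; exact mul_ne_zero (hQf f) (hQf g'))
      (by rw [ev_mul, ev_mul, ← div_mul_div_comm, ← hf f, ← hf g'])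
    rw [this, map_mul, map_mul, div_mul_div_comm]
  · have := key 0 0 1 (by rw [ev_one]; exact one_ne_zero) (by rw [ev_zero', zero_div])
    rw [this, map_zero, zero_div]
  · intro f g'
    have := key (f + g') (Pf f * Qf g' + Qf f * Pf g') (Qf f * Qf g')
      (by rw [ev_mul]; exact mul_ne_zero (hQf f) (hQf g'))
      (by rw [ev_add, ev_mul, ev_mul, ev_mul, ← div_add_div _ _ (hQf f) (hQf g'), ← hf f,
        ← hf g'])
    rw [this, map_add, map_mul, map_mul, map_mul,
      div_add_div _ _ (hφ _ (hQf f)) (hφ _ (hQf g'))]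
  · intro P
    have := key (ev P) P 1 (by rw [ev_one]; exact one_ne_zero) (by rw [ev_one, div_one])
    change φ (Pf (ev P)) / φ (Qf (ev P)) = φ P
    rw [this, map_one, div_one]

theorem hom_ext_of_frac (hg : ∀ s, g s ∈ F)
    (hfrac : ∀ x ∈ F, ∃ P Q : MvPolynomial σ K, MvPolynomial.aeval g Q ≠ 0 ∧
      x = MvPolynomial.aeval g P / MvPolynomial.aeval g Q)
    {𝕃 : Type*} [Field 𝕃] (τ τ' : ↥F →+* 𝕃)
    (h : ∀ P, τ ⟨MvPolynomial.aeval g P, aeval_mem g F hg P⟩ =
      τ' ⟨MvPolynomial.aeval g P, aeval_mem g F hg P⟩) : τ = τ' := by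
  apply RingHom.ext
  intro f
  obtain ⟨P, Q, hQ, hf⟩ := hfrac f.1 f.2
  have hf' : f = (⟨MvPolynomial.aeval g P, aeval_mem g F hg P⟩ : ↥F) /
      ⟨MvPolynomial.aeval g Q, aeval_mem g F hg Q⟩ := by
    apply Subtype.ext
    rw [IntermediateField.coe_div]
    exact hf
  rw [hf', map_div₀, map_div₀, h P, h Q]

end Ext

/-! ### The function field in characteristic `ℓ` as a field of fractions -/

section FullC

variable (k : Type*) [Field k] (N : ℕ) [NeZero N]

/-- the generators `J(q^d)`, `d ∣ N` -/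
def genK (d : Dv N) : LaurentSeries k := Mono.Jd k d.1

theorem genK_eq (d : Dv N) :
    genK k N d = @qExpand k _ d.1 ⟨d.ne_zero⟩ (jqModC k) := by
  have : NeZero d.1 := ⟨d.ne_zero⟩
  exact Mono.Jd_eq k d.1

theorem genK_mem (d : Dv N) : genK k N d ∈ modularFunctionFieldFullC k N := by
  have : NeZero d.1 := ⟨d.ne_zero⟩
  rw [genK_eq]
  exact jqModCd_mem_full k N d.2

theorem fullC_frac {x : LaurentSeries k} (hx : x ∈ modularFunctionFieldFullC k N) :
    ∃ P Q : MvPolynomial (Dv N) k, MvPolynomial.aeval (genK k N) Q ≠ 0 ∧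
      x = MvPolynomial.aeval (genK k N) P / MvPolynomial.aeval (genK k N) Q := by
  unfold modularFunctionFieldFullC at hx
  induction hx using IntermediateField.adjoin_induction with
  | mem x hx =>
    obtain ⟨d, hne, hd, rfl⟩ := hx
    refine ⟨MvPolynomial.X (⟨d, hd⟩ : Dv N), 1, by simp, ?_⟩
    rw [MvPolynomial.aeval_X, map_one, div_one, genK_eq]
  | algebraMap c =>
    refine ⟨MvPolynomial.C c, 1, by simp, ?_⟩
    rw [MvPolynomial.aeval_C, map_one, div_one]
  | add x y _ _ hx hy =>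
    obtain ⟨P, Q, hQ, rfl⟩ := hx
    obtain ⟨P', Q', hQ', rfl⟩ := hy
    refine ⟨P * Q' + Q * P', Q * Q', ?_, ?_⟩
    · rw [map_mul]
      exact mul_ne_zero hQ hQ'
    · rw [div_add_div _ _ hQ hQ']
      simp only [map_add, map_mul]
  | inv x _ hx =>
    obtain ⟨P, Q, hQ, rfl⟩ := hx
    by_cases hP : MvPolynomial.aeval (genK k N) P = 0
    · refine ⟨0, 1, by simp, ?_⟩
      rw [hP]
      simp
    · exact ⟨Q, P, hP, by rw [inv_div]⟩
  | mul x y _ _ hx hy =>
    obtain ⟨P, Q, hQ, rfl⟩ := hx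
    obtain ⟨P', Q', hQ', rfl⟩ := hy
    refine ⟨P * P', Q * Q', ?_, ?_⟩
    · rw [map_mul]
      exact mul_ne_zero hQ hQ'
    · rw [div_mul_div_comm]
      simp only [map_mul]

end FullC

/-! ### Roots of unity -/

section Roots

theorem mem_of_pow_eq_one {L : Type*} [Field L] (A : ValuationSubring L) {x : L} {n : ℕ}
    (hn : 0 < n) (hx : x ^ n = 1) : x ∈ A := by
  rcases A.mem_or_inv_mem x with h | h
  · exact h
  · have hx0 : x ≠ 0 := fun h0 => by
      rw [h0, zero_pow hn.ne'] at hx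
      exact zero_ne_one hx
    have h1 : x = x⁻¹ ^ (n - 1) := by
      have h2 : x ^ (n - 1) * x = 1 := by
        rw [← pow_succ, Nat.sub_add_cancel hn, hx]
      rw [inv_pow]
      exact eq_inv_of_mul_eq_one_right h2
    rw [h1]
    exact pow_mem h _

/-- a root of unity of `L`, as a unit of the valuation subring -/
theorem exists_unit_eq {L : Type*} [Field L] (A : ValuationSubring L) {x : L} {n : ℕ}
    (hn : 0 < n) (hx : x ^ n = 1) : ∃ u : (↥A)ˣ, ((u : ↥A) : L) = x ∧ u ^ n = 1 := by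
  have hx0 : x ≠ 0 := fun h0 => by
    rw [h0, zero_pow hn.ne'] at hx
    exact zero_ne_one hx
  have hxi : x⁻¹ ^ n = 1 := by rw [inv_pow, hx, inv_one]
  refine ⟨⟨⟨x, mem_of_pow_eq_one A hn hx⟩, ⟨x⁻¹, mem_of_pow_eq_one A hn hxi⟩,
    Subtype.ext (mul_inv_cancel₀ hx0), Subtype.ext (inv_mul_cancel₀ hx0)⟩, rfl, ?_⟩
  apply Units.ext
  apply Subtype.ext
  simp only [Units.val_pow_eq_pow_val, Units.val_one, SubmonoidClass.coe_pow, OneMemClass.coe_one]
  exact hx

/-- roots of unity of `ℂ` come from units of `A` -/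
theorem exists_unit_of_pow_eq_one (A : ValuationSubring (AlgebraicClosure ℚ))
    (ι : AlgebraicClosure ℚ →+* ℂ) {n : ℕ} (hn : 0 < n) {ξ : ℂ} (hξ : ξ ^ n = 1) :
    ∃ u : (↥A)ˣ, ι ((u : ↥A) : AlgebraicClosure ℚ) = ξ ∧ u ^ n = 1 := by
  have : NeZero n := ⟨hn.ne'⟩
  have : NeZero ((n : ℕ) : AlgebraicClosure ℚ) := ⟨by exact_mod_cast hn.ne'⟩
  obtain ⟨ζ, hζ⟩ := IsAlgClosed.exists_root (Polynomial.cyclotomic n (AlgebraicClosure ℚ))
    (Polynomial.degree_cyclotomic_pos n _ hn).ne'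
  have hprim : IsPrimitiveRoot ζ n := Polynomial.isRoot_cyclotomic_iff.mp hζ
  have hprimC : IsPrimitiveRoot (ι ζ) n := hprim.map_of_injective ι.injective
  obtain ⟨i, -, hi⟩ := hprimC.eq_pow_of_pow_eq_one hξ
  have hpow : (ζ ^ i) ^ n = 1 := by
    rw [← pow_mul, mul_comm, pow_mul, hprim.pow_eq_one, one_pow]
  obtain ⟨u, hu, hun⟩ := exists_unit_eq A hn hpow
  exact ⟨u, by rw [hu, map_pow, hi], hun⟩

end Roots

/-! ### Twists -/

theorem twist_eq_twistU (ξ : ℂ) (hξ : ξ ≠ 0) (x : LaurentSeries ℂ) :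
    Cusp.twist ξ hξ x = Phi.twistU (Units.mk0 ξ hξ) x := by
  ext k
  rw [Cusp.twist_coeff, Phi.twistU_coeff, Units.val_zpow_eq_zpow_val, Units.val_mk0]

/-! ### The cusp expansions -/

section Fexp

open UpperHalfPlane Fermat.Agent.S23 Fermat.Agent.S23.QCalc

/-- the expansion of `z ↦ j (d (γ (N z)))` is `qExpand e (twist ξ j)`, `ξ` a root of unity -/
theorem fexp_eq (N : ℕ) [NeZero N] (γ : SL(2, ℤ)) (d : Dv N) :
    ∃ (e : ℕ) (_ : NeZero e) (D : ℕ) (ξ : ℂ) (hξ : ξ ≠ 0), 0 < D ∧ D ∣ N ∧ ξ ^ D = 1 ∧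
      Cusp.fexp N γ d = qExpand ℂ e (Cusp.twist ξ hξ (coeffEmb ℂ jq)) := by
  have : NeZero d.1 := ⟨d.ne_zero⟩
  obtain ⟨A, D, B, -, hA, hD, hAD, -, hz⟩ := JN.exists_aff_of_smul d.1 γ
  have hDN : D ∣ N := (Dvd.intro_left A hAD).trans d.2
  obtain ⟨E', hE'⟩ := hDN
  have hE'pos : 0 < E' := by
    rcases Nat.eq_zero_or_pos E' with h0 | h0
    · rw [h0, mul_zero] at hE'
      exact absurd hE' (NeZero.ne N)
    · exact h0
  have hne : NeZero (A * E') := ⟨(Nat.mul_pos hA hE'pos).ne'⟩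
  refine ⟨A * E', hne, D, Complex.exp (2 * π * Complex.I * (((B : ℝ) / D : ℝ) : ℂ)),
    Complex.exp_ne_zero _, hD, ⟨E', hE'⟩, ?_, ?_⟩
  · rw [← Complex.exp_nat_mul, Complex.exp_eq_one_iff]
    refine ⟨B, ?_⟩
    have hDC : (D : ℂ) ≠ 0 := by exact_mod_cast hD.ne'
    push_cast
    field_simp
  · refine (Cusp.hasU_fexp N γ d).unique_series
      (((Cusp.hasU_jFun.comp_vadd ((B : ℝ) / D)).comp_dil (A * E')).congr fun z => ?_)
    rw [hz]
    congr 1
    apply UpperHalfPlane.ext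
    have hDR : (0 : ℝ) < (D : ℝ) := by exact_mod_cast hD
    have hAR : (0 : ℝ) < (A : ℝ) := by exact_mod_cast hA
    have hDC : (D : ℂ) ≠ 0 := by exact_mod_cast hD.ne'
    rw [coe_vadd, JN.coe_dil, JN.coe_aff (div_pos hAR hDR), JN.coe_dil, hE']
    push_cast
    field_simp
    ring

end Fexp

section FexpA

variable (N : ℕ) [NeZero N] (A : ValuationSubring (AlgebraicClosure ℚ))
  (ι : AlgebraicClosure ℚ →+* ℂ)

/-- the coefficient embedding `A((u)) → ℂ((u))` -/
def incC : LaurentSeries A →+* LaurentSeries ℂ := coeffMap (ι.comp A.subtype)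

theorem incC_injective : Function.Injective (incC A ι) := by
  intro x y hxy
  ext n
  have := congrArg (fun z : LaurentSeries ℂ => z.coeff n) hxy
  simp only [incC, coeffMap_coeff, RingHom.comp_apply] at this
  exact ι.injective this

theorem exists_fexpA (γ : SL(2, ℤ)) (d : Dv N) :
    ∃ f : LaurentSeries A, incC A ι f = Cusp.fexp N γ d ∧
      ∃ (e : ℕ) (_ : NeZero e) (u : (↥A)ˣ), u ^ N = 1 ∧
        f = qExpand A e (Phi.twistU u (jqModC A)) := by
  obtain ⟨e, he, D, ξ, hξ, hD, hDN, hξD, hf⟩ := fexp_eq N γ d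
  obtain ⟨u, hu, huD⟩ := exists_unit_of_pow_eq_one A ι hD hξD
  refine ⟨qExpand A e (Phi.twistU u (jqModC A)), ?_, e, he, u, ?_, rfl⟩
  · rw [hf, incC, coeffMap_qExpand, Phi.coeffMap_twistU, coeffMap_jqModC, twist_eq_twistU,
      RN.coeffEmb_jq]
    have hu' : Units.map (↑(ι.comp A.subtype) : ↥A →* ℂ) u = Units.mk0 ξ hξ :=
      Units.ext (by simpa using hu)
    rw [hu']
  · obtain ⟨m, rfl⟩ := hDN
    rw [pow_mul, huD, one_pow]

/-- the cusp expansions with coefficients in `A` -/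
def fexpA (γ : SL(2, ℤ)) (d : Dv N) : LaurentSeries A := (exists_fexpA N A ι γ d).choose

theorem incC_fexpA (γ : SL(2, ℤ)) (d : Dv N) : incC A ι (fexpA N A ι γ d) = Cusp.fexp N γ d :=
  (exists_fexpA N A ι γ d).choose_spec.1

theorem fexpA_eq (γ : SL(2, ℤ)) (d : Dv N) :
    ∃ (e : ℕ) (_ : NeZero e) (u : (↥A)ˣ), u ^ N = 1 ∧
      fexpA N A ι γ d = qExpand A e (Phi.twistU u (jqModC A)) :=
  (exists_fexpA N A ι γ d).choose_spec.2

theorem fexpA_one (γ : SL(2, ℤ)) :
    fexpA N A ι γ ⟨1, one_dvd N⟩ = qExpand A N (jqModC A) := by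
  apply incC_injective A ι
  rw [incC_fexpA, Cusp.fexp_one, incC, coeffMap_qExpand, coeffMap_jqModC, RN.coeffEmb_jq]

/-- the reduced cusp expansions, in `k((u))` -/
def fexpK (γ : SL(2, ℤ)) (d : Dv N) : LaurentSeries (IsLocalRing.ResidueField A) :=
  coeffMap (IsLocalRing.residue A) (fexpA N A ι γ d)

theorem fexpK_eq (γ : SL(2, ℤ)) (d : Dv N) :
    ∃ (e : ℕ) (_ : NeZero e) (ξ : (IsLocalRing.ResidueField A)ˣ), ξ ^ N = 1 ∧
      fexpK N A ι γ d = qExpand (IsLocalRing.ResidueField A) e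
        (Phi.twistU ξ (jqModC (IsLocalRing.ResidueField A))) := by
  obtain ⟨e, he, u, hu, hf⟩ := fexpA_eq N A ι γ d
  refine ⟨e, he, Units.map (IsLocalRing.residue A : ↥A →* IsLocalRing.ResidueField A) u, ?_, ?_⟩
  · rw [← map_pow, hu, map_one]
  · rw [fexpK, hf, coeffMap_qExpand, Phi.coeffMap_twistU, coeffMap_jqModC]

theorem fexpK_one (γ : SL(2, ℤ)) :
    fexpK N A ι γ ⟨1, one_dvd N⟩ =
      qExpand (IsLocalRing.ResidueField A) N (jqModC (IsLocalRing.ResidueField A)) := by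
  rw [fexpK, fexpA_one, coeffMap_qExpand, coeffMap_jqModC]

end FexpA

end Fermat.Agent.S18.CLE
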