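/-
S18, chain CL (good reduction input), piece CL-EMB (helper13): the reduced conjugate embeddings.

For `ℓ ∤ N`, `A` a valuation subring of `ℚ̄` over `ℓ` with residue field `k`, and `γ ∈ SL₂(ℤ)`:

* `redEmb γ : F̄_N →+* k((u))`, the reduction of the expansion embedding `tauG γ` of S24
  (`f ↦ (f ∘ γ)(u)`, `u = q^{1/N}`): `redEmb_aeval`, `redEmb_gen`, `redEmb_algebraMap`.

The construction is direct: `F̄_N = Frac k[J̄_d : d ∣ N]` and the polynomial relations between
the `J̄_d` are the same as those between the reduced cusp expansions `fexpK γ d`, by the normal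
form `x · S(j) = c · ∑ T_i(j) m_i` of `RNormal.lean`.
-/
import Fermat.Agent.S18.CLEmbBase

set_option autoImplicit false

noncomputable section

open ModularCurve IntermediateField
open scoped MatrixGroups Real

namespace Fermat.Agent.S18.CLE

open Fermat.Agent.S28 Fermat.Agent.S24 Fermat.Agent.S18

/-! ### Generic lemmas on evaluations -/

section Generic

variable {R S : Type*} [CommRing R] [CommRing S]

theorem coeffMap_algebraMap' (f : R →+* S) (c : R) :
    coeffMap f (algebraMap R (LaurentSeries R) c) = algebraMap S (LaurentSeries S) (f c) :=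
  congrArg (fun φ : R →+* LaurentSeries S => φ c) (ValBase.coeffMap_comp_algebraMap f)

/-- coefficient maps commute with the evaluation of multivariate polynomials -/
theorem coeffMap_mvAeval (f : R →+* S) {σ : Type*} (g : σ → LaurentSeries R)
    (P : MvPolynomial σ R) :
    coeffMap f (MvPolynomial.aeval g P) =
      MvPolynomial.aeval (fun s => coeffMap f (g s)) (MvPolynomial.map f P) := by
  induction P using MvPolynomial.induction_on with
  | C c =>
    rw [MvPolynomial.aeval_C, MvPolynomial.map_C, MvPolynomial.aeval_C, coeffMap_algebraMap']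
  | add p q hp hq =>
    rw [map_add, map_add, map_add, map_add, hp, hq]
  | mul_X p s hp =>
    rw [map_mul, map_mul, map_mul, map_mul, MvPolynomial.aeval_X, MvPolynomial.map_X,
      MvPolynomial.aeval_X, hp]

/-- a ring endomorphism fixing the constants commutes with evaluation -/
theorem map_mvAeval_of_const (φ : LaurentSeries R →+* LaurentSeries R)
    (hφ : ∀ c : R, φ (algebraMap R (LaurentSeries R) c) = algebraMap R (LaurentSeries R) c)
    {σ : Type*} (g : σ → LaurentSeries R) (P : MvPolynomial σ R) :
    φ (MvPolynomial.aeval g P) = MvPolynomial.aeval (fun s => φ (g s)) P := by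
  induction P using MvPolynomial.induction_on with
  | C c =>
    rw [MvPolynomial.aeval_C, MvPolynomial.aeval_C, hφ]
  | add p q hp hq =>
    rw [map_add, map_add, map_add, hp, hq]
  | mul_X p s hp =>
    rw [map_mul, map_mul, map_mul, MvPolynomial.aeval_X, MvPolynomial.aeval_X, hp]

end Generic

/-! ### Generators, and `S(j)`, `∑ T_i(j) m_i` as polynomials in the generators -/

section Gens

variable (N : ℕ) [NeZero N] (R : Type*) [CommRing R]

/-- the generators `J(q^d)`, `d ∣ N`, over any ring -/
def genR (d : Dv N) : LaurentSeries R := Mono.Jd R d.1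

theorem genK_eq_genR (k : Type*) [Field k] : genK k N = genR N k := rfl

variable {R} in
theorem coeffMap_genR {S : Type*} [CommRing S] (f : R →+* S) (d : Dv N) :
    coeffMap f (genR N R d) = genR N S d :=
  Mono.coeffMap_Jd f d.1

theorem genR_one : genR N R ⟨1, one_dvd N⟩ = jqModC R := by
  rw [genR, Mono.Jd_eq, qExpand_one_apply]

/-- `S(X_1)` as a multivariate polynomial -/
def SMv (S : Polynomial R) : MvPolynomial (Dv N) R :=
  Polynomial.aeval (MvPolynomial.X (⟨1, one_dvd N⟩ : Dv N)) S

variable {R} in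
theorem aeval_SMv {B : Type*} [CommRing B] [Algebra R B] (g : Dv N → B) (S : Polynomial R) :
    MvPolynomial.aeval g (SMv N R S) = Polynomial.aeval (g ⟨1, one_dvd N⟩) S := by
  rw [SMv, ← Polynomial.aeval_algHom_apply, MvPolynomial.aeval_X]

/-- the monomial `∏ X_d ^ e d` -/
def monoMv (e : ℕ → ℕ) : MvPolynomial (Dv N) R :=
  ∏ d ∈ N.divisors.attach,
    MvPolynomial.X (⟨d.1, Nat.dvd_of_mem_divisors d.2⟩ : Dv N) ^ e d.1

theorem aeval_genR_monoMv (e : ℕ → ℕ) :
    MvPolynomial.aeval (genR N R) (monoMv N R e) = Mono.mono R N e := by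
  rw [monoMv, map_prod, Mono.mono, ← Finset.prod_attach N.divisors (fun d => Mono.Jd R d ^ e d)]
  refine Finset.prod_congr rfl fun d _ => ?_
  rw [map_pow, MvPolynomial.aeval_X, genR]

/-- `∑ T_i(X_1) m_i` as a multivariate polynomial -/
def numMv (e : Fin (dedekindPsi N) → ℕ → ℕ) (T : Fin (dedekindPsi N) → Polynomial R) :
    MvPolynomial (Dv N) R :=
  ∑ i, SMv N R (T i) * monoMv N R (e i)

theorem aeval_genR_numMv (e : Fin (dedekindPsi N) → ℕ → ℕ)
    (T : Fin (dedekindPsi N) → Polynomial R) :
    MvPolynomial.aeval (genR N R) (numMv N R e T) = RN.num N e R T := by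
  rw [numMv, map_sum, RN.num]
  refine Finset.sum_congr rfl fun i _ => ?_
  rw [map_mul, aeval_SMv, aeval_genR_monoMv, genR_one]

end Gens

/-! ### Characteristic zero: the link with S24 -/

section Zero

variable (N : ℕ) [NeZero N] (A : ValuationSubring (AlgebraicClosure ℚ))
  (ι : AlgebraicClosure ℚ →+* ℂ)

theorem genR_eq_genS (L : Type*) [Field L] [Algebra ℚ L] (d : Dv N) :
    genR N L d = Ext.genS L N d := by
  have : NeZero d.1 := ⟨d.ne_zero⟩
  rw [genR, Mono.Jd_eq]
  show qExpand L d.1 (jqModC L) = coeffEmb L (qExpand ℚ d.1 jq)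
  rw [coeffEmb, coeffMap_qExpand]
  congr 1
  exact (RN.coeffEmb_jq L).symm

/-- integral polynomials in the generators, seen in the function field of S24 -/
theorem coeffMap_subtype_mvAeval (P : MvPolynomial (Dv N) A) :
    coeffMap A.subtype (MvPolynomial.aeval (genR N A) P) =
      ((evalL (AlgebraicClosure ℚ) N (MvPolynomial.map A.subtype P) :
        ↥(FF (AlgebraicClosure ℚ) N)) : LaurentSeries (AlgebraicClosure ℚ)) := by
  rw [coeffMap_mvAeval, Ext.coe_evalL]
  congr 2
  funext d
  rw [coeffMap_genR, genR_eq_genS]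

theorem coeffMap_subtype_mvAeval_mem (P : MvPolynomial (Dv N) A) :
    coeffMap A.subtype (MvPolynomial.aeval (genR N A) P) ∈ modularFunctionFieldBar N := by
  rw [coeffMap_subtype_mvAeval]
  exact (evalL (AlgebraicClosure ℚ) N (MvPolynomial.map A.subtype P)).2

/-- evaluation at the integral cusp expansions is the `phi` of S24 -/
theorem incC_evA (γ : SL(2, ℤ)) (P : MvPolynomial (Dv N) A) :
    incC A ι (MvPolynomial.aeval (fexpA N A ι γ) P) =
      Cusp.phi ι N γ (MvPolynomial.map A.subtype P) := by
  induction P using MvPolynomial.induction_on with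
  | C c =>
    rw [MvPolynomial.aeval_C, MvPolynomial.map_C, incC, coeffMap_algebraMap', Cusp.phi,
      MvPolynomial.coe_eval₂Hom, MvPolynomial.eval₂_C, RingHom.comp_apply, RingHom.comp_apply,
      ValBase.algebraMap_eq_single]
    rfl
  | add p q hp hq =>
    rw [map_add, map_add, map_add, map_add, hp, hq]
  | mul_X p s hp =>
    rw [map_mul, map_mul, map_mul, map_mul, hp, MvPolynomial.aeval_X, MvPolynomial.map_X,
      incC_fexpA]
    congr 1
    rw [Cusp.phi, MvPolynomial.coe_eval₂Hom, MvPolynomial.eval₂_X]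

/-- **Kernel transfer**: an integral polynomial relation between the generators holds between
the integral cusp expansions. -/
theorem evA_eq_zero (γ : SL(2, ℤ)) (Q : MvPolynomial (Dv N) A)
    (h : MvPolynomial.aeval (genR N A) Q = 0) :
    MvPolynomial.aeval (fexpA N A ι γ) Q = 0 := by
  apply incC_injective A ι
  rw [map_zero, incC_evA, ← Cusp.phi_eq_zero_iff]
  apply Subtype.ext
  rw [← coeffMap_subtype_mvAeval, h, map_zero]
  rfl

end Zero

/-! ### The kernel condition in characteristic `ℓ` -/

section Kernel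

variable (N : ℕ) [NeZero N] {ℓ : ℕ} [Fact ℓ.Prime]
variable (A : ValuationSubring (AlgebraicClosure ℚ)) (ι : AlgebraicClosure ℚ →+* ℂ)

theorem algebraMap_residue_ne_zero {c : IsLocalRing.ResidueField A} (hc : c ≠ 0) :
    algebraMap (IsLocalRing.ResidueField A) (LaurentSeries (IsLocalRing.ResidueField A)) c ≠ 0 :=
  fun h => hc ((map_eq_zero_iff _ (algebraMap (IsLocalRing.ResidueField A)
    (LaurentSeries (IsLocalRing.ResidueField A))).injective).mp h)

/-- the normal form of an element with `A`-integral expansion: the constant lies in `A` -/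
theorem exists_normal_form_int (e : Fin (dedekindPsi N) → ℕ → ℕ)
    (he : LinearIndependent
      ↥((IsLocalRing.ResidueField A)⟮jqModC (IsLocalRing.ResidueField A)⟯)
      (fun i => Mono.mono (IsLocalRing.ResidueField A) N (e i)))
    (y : LaurentSeries A) (hy : coeffMap A.subtype y ∈ modularFunctionFieldBar N) :
    ∃ (c : ↥A) (S : Polynomial ↥A) (T : Fin (dedekindPsi N) → Polynomial ↥A),
      S.map (IsLocalRing.residue A) ≠ 0 ∧
      (c = 0 ∨ ∃ i, (T i).map (IsLocalRing.residue A) ≠ 0) ∧
      y * Polynomial.aeval (jqModC A) S = algebraMap A (LaurentSeries A) c * RN.num N e A T := by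
  obtain ⟨c, S, T, hS, hcT, hrel⟩ := RN.exists_normal_form N A e he _ hy
  by_cases hcA : c ∈ A
  · refine ⟨⟨c, hcA⟩, S, T, hS, ?_, ?_⟩
    · rcases hcT with h | h
      · exact Or.inl (Subtype.ext h)
      · exact Or.inr h
    · apply RN.coeffMap_subtype_injective A
      rw [map_mul, map_mul, RN.coeffMap_subtype_algebraMap]
      exact hrel
  · exfalso
    have hc0 : c ≠ 0 := fun h => hcA (h ▸ A.zero_mem)
    have hci : c⁻¹ ∈ A := (A.mem_or_inv_mem c).resolve_left hcA
    have hT : ∃ i, (T i).map (IsLocalRing.residue A) ≠ 0 := hcT.resolve_left hc0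
    have h1 : algebraMap A (LaurentSeries A) ⟨c⁻¹, hci⟩ * (y * Polynomial.aeval (jqModC A) S) =
        RN.num N e A T := by
      apply RN.coeffMap_subtype_injective A
      rw [map_mul, map_mul, RN.coeffMap_subtype_algebraMap, hrel, ← mul_assoc, ← map_mul]
      show algebraMap (AlgebraicClosure ℚ) (LaurentSeries (AlgebraicClosure ℚ)) (c⁻¹ * c) * _ = _
      rw [inv_mul_cancel₀ hc0, map_one, one_mul]
    have h2 := congrArg (coeffMap (IsLocalRing.residue A)) h1
    rw [map_mul, RN.coeffMap_residue_algebraMap, RF.residue_inv_eq_zero A hcA hci, map_zero,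
      zero_mul, RN.coeffMap_num] at h2
    exact RN.num_ne_zero N e he _ hT h2.symm

theorem coeffMap_residue_evA (γ : SL(2, ℤ)) (P : MvPolynomial (Dv N) A) :
    coeffMap (IsLocalRing.residue A) (MvPolynomial.aeval (fexpA N A ι γ) P) =
      MvPolynomial.aeval (fexpK N A ι γ) (MvPolynomial.map (IsLocalRing.residue A) P) :=
  coeffMap_mvAeval _ _ _

theorem coeffMap_residue_genR (P : MvPolynomial (Dv N) A) :
    coeffMap (IsLocalRing.residue A) (MvPolynomial.aeval (genR N A) P) =
      MvPolynomial.aeval (genK (IsLocalRing.ResidueField A) N)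
        (MvPolynomial.map (IsLocalRing.residue A) P) := by
  rw [coeffMap_mvAeval]
  congr 2
  funext d
  rw [coeffMap_genR]
  rfl

/-- `S̄(J̄(u^N)) ≠ 0` for `S̄ ≠ 0` -/
theorem aeval_qExpand_jqModC_ne_zero {k : Type*} [Field k] {S : Polynomial k} (hS : S ≠ 0) :
    Polynomial.aeval (qExpand k N (jqModC k)) S ≠ 0 := by
  intro h
  have h1 : Polynomial.aeval (qExpandAlgHomC k N (jqModC k)) S = 0 := h
  rw [Polynomial.aeval_algHom_apply, qExpandAlgHomC_apply] at h1
  have h2 : Polynomial.aeval (jqModC k) S = 0 := qExpand_injective N (by rw [h1, map_zero])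
  exact hS (ValBase.aeval_jqModC_eq_zero k h2)

/-- **The kernel condition**: the polynomial relations between the generators `J̄(q^d)` of
`F̄_N` are exactly those between the reduced cusp expansions. -/
theorem evK_eq_zero_iff (hℓN : ¬ ℓ ∣ N) (hA : A.LiesOverPrime ℓ) (γ : SL(2, ℤ))
    (P : MvPolynomial (Dv N) (IsLocalRing.ResidueField A)) :
    MvPolynomial.aeval (genK (IsLocalRing.ResidueField A) N) P = 0 ↔
      MvPolynomial.aeval (fexpK N A ι γ) P = 0 := by
  obtain ⟨e, he⟩ := RN.exists_indep N A hℓN hA
  obtain ⟨P₀, rfl⟩ := MvPolynomial.map_surjective (IsLocalRing.residue A)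
    IsLocalRing.residue_surjective P
  set y : LaurentSeries A := MvPolynomial.aeval (genR N A) P₀ with hy
  have hyF : coeffMap A.subtype y ∈ modularFunctionFieldBar N := coeffMap_subtype_mvAeval_mem N A P₀
  rw [← coeffMap_residue_genR, ← hy]
  constructor
  · intro h0
    obtain ⟨c, S, T, hS, hcT, hrel⟩ := exists_normal_form_int N A e he y hyF
    -- the constant reduces to zero
    have hc0 : IsLocalRing.residue A c = 0 := by
      rcases hcT with h | hT
      · rw [h, map_zero]
      · have h2 := congrArg (coeffMap (IsLocalRing.residue A)) hrel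
        rw [map_mul, map_mul, h0, zero_mul, RN.coeffMap_residue_algebraMap, RN.coeffMap_num] at h2
        by_contra hne
        rcases mul_eq_zero.mp h2.symm with h3 | h3
        · exact algebraMap_residue_ne_zero A hne h3
        · exact RN.num_ne_zero N e he _ hT h3
    -- the relation, transported to the cusp expansions
    have hQ : MvPolynomial.aeval (genR N A)
        (P₀ * SMv N A S - MvPolynomial.C c * numMv N A e T) = 0 := by
      rw [map_sub, map_mul, map_mul, aeval_SMv, genR_one, MvPolynomial.aeval_C, aeval_genR_numMv,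
        ← hy, hrel, sub_self]
    have hK := evA_eq_zero N A ι γ _ hQ
    rw [map_sub, map_mul, map_mul, aeval_SMv, fexpA_one, MvPolynomial.aeval_C, sub_eq_zero] at hK
    have h3 := congrArg (coeffMap (IsLocalRing.residue A)) hK
    rw [map_mul, map_mul, RN.coeffMap_residue_algebraMap, hc0, map_zero, zero_mul,
      coeffMap_residue_evA, ValBase.coeffMap_aeval, coeffMap_qExpand, coeffMap_jqModC] at h3
    rcases mul_eq_zero.mp h3 with h4 | h4
    · exact h4
    · exact absurd h4 (aeval_qExpand_jqModC_ne_zero N hS)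
  · intro h0
    by_contra hne
    have hy0 : y ≠ 0 := fun h => hne (by rw [h, map_zero])
    have hx0 : coeffMap A.subtype y ≠ 0 := fun h =>
      hy0 (RN.coeffMap_subtype_injective A (by rw [h, map_zero]))
    obtain ⟨c, S, T, hS, hcT, hrel⟩ :=
      RN.exists_normal_form N A e he (coeffMap A.subtype y)⁻¹ (inv_mem hyF)
    have hS0 : Polynomial.aeval (jqModC A) S ≠ 0 := fun h => hS (by
      rw [ValBase.aeval_jqModC_eq_zero A h, Polynomial.map_zero])
    have hSx0 : coeffMap A.subtype (Polynomial.aeval (jqModC A) S) ≠ 0 := fun h =>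
      hS0 (RN.coeffMap_subtype_injective A (by rw [h, map_zero]))
    have h1 : coeffMap A.subtype (Polynomial.aeval (jqModC A) S) =
        algebraMap (AlgebraicClosure ℚ) (LaurentSeries (AlgebraicClosure ℚ)) c *
          coeffMap A.subtype (RN.num N e A T) * coeffMap A.subtype y := by
      rw [← hrel, mul_comm _ (coeffMap A.subtype y), ← mul_assoc, mul_inv_cancel₀ hx0, one_mul]
    have hc0 : c ≠ 0 := fun h => hSx0 (by rw [h1, h, map_zero, zero_mul, zero_mul])
    have hT : ∃ i, (T i).map (IsLocalRing.residue A) ≠ 0 := hcT.resolve_left hc0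
    by_cases hcA : c ∈ A
    · have h2 : Polynomial.aeval (jqModC A) S =
          algebraMap A (LaurentSeries A) ⟨c, hcA⟩ * RN.num N e A T * y := by
        apply RN.coeffMap_subtype_injective A
        rw [map_mul, map_mul, RN.coeffMap_subtype_algebraMap]
        exact h1
      have hQ : MvPolynomial.aeval (genR N A)
          (SMv N A S - MvPolynomial.C ⟨c, hcA⟩ * numMv N A e T * P₀) = 0 := by
        rw [map_sub, map_mul, map_mul, aeval_SMv, genR_one, MvPolynomial.aeval_C,
          aeval_genR_numMv, ← hy, h2, sub_self]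
      have hK := evA_eq_zero N A ι γ _ hQ
      rw [map_sub, map_mul, map_mul, aeval_SMv, fexpA_one, MvPolynomial.aeval_C, sub_eq_zero]
        at hK
      have h3 := congrArg (coeffMap (IsLocalRing.residue A)) hK
      rw [map_mul, map_mul, coeffMap_residue_evA N A ι γ P₀, h0, mul_zero,
        ValBase.coeffMap_aeval, coeffMap_qExpand, coeffMap_jqModC] at h3
      exact aeval_qExpand_jqModC_ne_zero N hS h3
    · have hci : c⁻¹ ∈ A := (A.mem_or_inv_mem c).resolve_left hcA
      have h2 : algebraMap A (LaurentSeries A) ⟨c⁻¹, hci⟩ * Polynomial.aeval (jqModC A) S =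
          RN.num N e A T * y := by
        apply RN.coeffMap_subtype_injective A
        rw [map_mul, map_mul, RN.coeffMap_subtype_algebraMap, h1, ← mul_assoc, ← mul_assoc,
          ← map_mul]
        show algebraMap (AlgebraicClosure ℚ) (LaurentSeries (AlgebraicClosure ℚ)) (c⁻¹ * c) * _ * _
          = _
        rw [inv_mul_cancel₀ hc0, map_one, one_mul]
      have h3 := congrArg (coeffMap (IsLocalRing.residue A)) h2
      rw [map_mul, map_mul, RN.coeffMap_residue_algebraMap, RF.residue_inv_eq_zero A hcA hci,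
        map_zero, zero_mul, RN.coeffMap_num] at h3
      rcases mul_eq_zero.mp h3.symm with h4 | h4
      · exact RN.num_ne_zero N e he _ hT h4
      · exact hne h4

end Kernel

/-! ### The reduced embeddings -/

section RedEmb

variable (N : ℕ) [NeZero N] {ℓ : ℕ} [Fact ℓ.Prime] (hℓN : ¬ ℓ ∣ N)
variable (A : ValuationSubring (AlgebraicClosure ℚ)) (hA : A.LiesOverPrime ℓ)
  (ι : AlgebraicClosure ℚ →+* ℂ)

include hℓN hA in
theorem exists_redEmb (γ : SL(2, ℤ)) :
    ∃ τ : ↥(modularFunctionFieldFullC (IsLocalRing.ResidueField A) N) →+*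
        LaurentSeries (IsLocalRing.ResidueField A),
      ∀ P : MvPolynomial (Dv N) (IsLocalRing.ResidueField A),
        τ ⟨MvPolynomial.aeval (genK (IsLocalRing.ResidueField A) N) P,
          aeval_mem (genK (IsLocalRing.ResidueField A) N) _
            (genK_mem (IsLocalRing.ResidueField A) N) P⟩ =
        MvPolynomial.aeval (fexpK N A ι γ) P :=
  exists_hom_of_frac (genK (IsLocalRing.ResidueField A) N)
    (modularFunctionFieldFullC (IsLocalRing.ResidueField A) N)
    (genK_mem (IsLocalRing.ResidueField A) N)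
    (fun _ hx => fullC_frac (IsLocalRing.ResidueField A) N hx)
    (MvPolynomial.aeval (fexpK N A ι γ)).toRingHom
    (fun P => evK_eq_zero_iff N A ι hℓN hA γ P)

/-- **The reduced conjugate embedding** `σ̄_γ : F̄_N → k((u))`, the reduction of the expansion
embedding `f ↦ (f ∘ γ)(u)`, `u = q^{1/N}`, of the function field of `X₀(N)`. -/
def redEmb (γ : SL(2, ℤ)) :
    ↥(modularFunctionFieldFullC (IsLocalRing.ResidueField A) N) →+*
      LaurentSeries (IsLocalRing.ResidueField A) :=
  (exists_redEmb N hℓN A hA ι γ).choose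

theorem redEmb_aeval (γ : SL(2, ℤ)) (P : MvPolynomial (Dv N) (IsLocalRing.ResidueField A)) :
    redEmb N hℓN A hA ι γ ⟨MvPolynomial.aeval (genK (IsLocalRing.ResidueField A) N) P,
      aeval_mem (genK (IsLocalRing.ResidueField A) N) _
        (genK_mem (IsLocalRing.ResidueField A) N) P⟩ =
      MvPolynomial.aeval (fexpK N A ι γ) P :=
  (exists_redEmb N hℓN A hA ι γ).choose_spec P

theorem redEmb_apply (γ : SL(2, ℤ))
    (x : ↥(modularFunctionFieldFullC (IsLocalRing.ResidueField A) N))
    (P : MvPolynomial (Dv N) (IsLocalRing.ResidueField A))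
    (hx : (x : LaurentSeries (IsLocalRing.ResidueField A)) =
      MvPolynomial.aeval (genK (IsLocalRing.ResidueField A) N) P) :
    redEmb N hℓN A hA ι γ x = MvPolynomial.aeval (fexpK N A ι γ) P := by
  rw [← redEmb_aeval N hℓN A hA ι γ P]
  congr 1
  exact Subtype.ext hx

theorem redEmb_gen (γ : SL(2, ℤ)) (d : Dv N) :
    redEmb N hℓN A hA ι γ ⟨genK (IsLocalRing.ResidueField A) N d,
      genK_mem (IsLocalRing.ResidueField A) N d⟩ = fexpK N A ι γ d := by
  rw [redEmb_apply N hℓN A hA ι γ _ (MvPolynomial.X d) (by rw [MvPolynomial.aeval_X]),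
    MvPolynomial.aeval_X]

theorem redEmb_algebraMap (γ : SL(2, ℤ)) (c : IsLocalRing.ResidueField A) :
    redEmb N hℓN A hA ι γ (algebraMap (IsLocalRing.ResidueField A) _ c) = HahnSeries.C c := by
  have h2 : (algebraMap (IsLocalRing.ResidueField A)
      (LaurentSeries (IsLocalRing.ResidueField A))) c = HahnSeries.C c := by
    rw [ValBase.algebraMap_eq_single]
    rfl
  rw [redEmb_apply N hℓN A hA ι γ _ (MvPolynomial.C c) (by rw [MvPolynomial.aeval_C]; rfl),
    MvPolynomial.aeval_C, h2]

theorem redEmb_jq (γ : SL(2, ℤ)) :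
    redEmb N hℓN A hA ι γ ⟨jqModC (IsLocalRing.ResidueField A),
      jqModC_mem_full (IsLocalRing.ResidueField A) N⟩ =
      qExpand (IsLocalRing.ResidueField A) N (jqModC (IsLocalRing.ResidueField A)) := by
  rw [← fexpK_one N A ι γ, ← redEmb_gen N hℓN A hA ι γ]
  congr 1
  apply Subtype.ext
  exact (genR_one N (IsLocalRing.ResidueField A)).symm

end RedEmb

end Fermat.Agent.S18.CLE
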