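/-
S18, chain CL: the explicit shape of the cusp expansions `S24.Cusp.fexp N γ d` of the generators
`j(d z)` of the function field of `X₀(N)`: each is `j(ξ u ^ e)` for a root of unity `ξ` with
`ξ ^ N = 1`.
-/
import Fermat.Agent.S24.Mod.Cusp
import Fermat.Agent.S28.Kummer

set_option autoImplicit false

noncomputable section

open scoped MatrixGroups Real
open UpperHalfPlane ModularCurve HahnSeries

namespace Fermat.Agent.S18.CLF

open Fermat.Agent.S23 Fermat.Agent.S24 Fermat.Agent.S24.Cusp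

/-- The explicit shape of `fexp N γ d`, with all the arithmetic data. -/
theorem fexp_eq (N : ℕ) [NeZero N] (γ : SL(2, ℤ)) (d : Dv N) :
    ∃ (A D E' : ℕ) (B : ℤ), 0 < A ∧ 0 < D ∧ 0 < E' ∧ A * D = d.1 ∧ D * E' = N ∧
      A = Int.gcd (d.1 : ℤ) (γ 1 0) ∧ ∃ (_ : NeZero (A * E')),
      fexp N γ d = qExpand ℂ (A * E')
        (twist (Complex.exp (2 * π * Complex.I * ((B : ℝ) / D : ℝ))) (Complex.exp_ne_zero _)
          (coeffEmb ℂ jq)) := by
  have : NeZero d.1 := ⟨d.ne_zero⟩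
  obtain ⟨A, D, B, hAgcd, hA, hD, hAD, -, hz⟩ := JN.exists_aff_of_smul d.1 γ
  have hDN : D ∣ N := (Dvd.intro_left A hAD).trans d.2
  obtain ⟨E', hE'⟩ := hDN
  have hE'pos : 0 < E' := by
    rcases Nat.eq_zero_or_pos E' with h0 | h0
    · rw [h0, mul_zero] at hE'
      exact absurd hE' (NeZero.ne N)
    · exact h0
  have hne : NeZero (A * E') := ⟨(Nat.mul_pos hA hE'pos).ne'⟩
  refine ⟨A, D, E', B, hA, hD, hE'pos, hAD, hE'.symm, hAgcd, hne, ?_⟩
  refine (hasU_fexp N γ d).unique_series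
    (((hasU_jFun.comp_vadd ((B : ℝ) / D)).comp_dil (A * E')).congr fun z => ?_)
  rw [hz]
  congr 1
  apply UpperHalfPlane.ext
  have hDR : (0 : ℝ) < (D : ℝ) := by exact_mod_cast hD
  have hAR : (0 : ℝ) < (A : ℝ) := by exact_mod_cast hA
  have hDC : (D : ℂ) ≠ 0 := by exact_mod_cast hD.ne'
  rw [coe_vadd, JN.coe_dil, JN.coe_aff (div_pos hAR hDR), JN.coe_dil, hE']
  push_cast
  field_simp
  ring

/-- The twist of `S24.Cusp` is the twist of `S28.Kummer`. -/
theorem twist_eq_kummer (ξ : ℂˣ) (x : LaurentSeries ℂ) :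
    twist (ξ : ℂ) ξ.ne_zero x = S28.Kummer.twist ξ x := by
  ext k
  rw [twist_coeff, S28.Kummer.twist_coeff]

/-- The explicit shape of `fexp N γ d`: `j(ξ u ^ e)` with `ξ ^ N = 1`. -/
theorem fexp_eq_twist (N : ℕ) [NeZero N] (γ : SL(2, ℤ)) (d : Dv N) :
    ∃ (e : ℕ) (_ : NeZero e) (ξ : ℂˣ), (ξ : ℂ) ^ N = 1 ∧
      fexp N γ d = qExpand ℂ e (S28.Kummer.twist ξ (coeffEmb ℂ jq)) := by
  obtain ⟨A, D, E', B, hA, hD, hE', hAD, hDE, -, hne, h⟩ := fexp_eq N γ d
  refine ⟨A * E', hne,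
    Units.mk0 (Complex.exp (2 * π * Complex.I * ((B : ℝ) / D : ℝ))) (Complex.exp_ne_zero _), ?_, ?_⟩
  · rw [Units.val_mk0, ← Complex.exp_nat_mul, ← hDE]
    have hDC : (D : ℂ) ≠ 0 := by exact_mod_cast hD.ne'
    have h1 : ((D * E' : ℕ) : ℂ) * (2 * π * Complex.I * (((B : ℝ) / D : ℝ) : ℂ))
        = ((E' * B : ℤ) : ℂ) * (2 * π * Complex.I) := by
      push_cast
      field_simp
    rw [h1, Complex.exp_int_mul_two_pi_mul_I]
  · rw [h, ← twist_eq_kummer]
    rfl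


theorem coeffEmb_jq (L : Type*) [Field L] [Algebra ℚ L] : coeffEmb L jq = jqModC L := by
  rw [← jqModC_rat, coeffEmb, coeffMap_jqModC]

/-- The explicit shape of `fexp N γ d`, in terms of the uniform `j`-series `jqModC ℂ`. -/
theorem fexp_eq_twist' (N : ℕ) [NeZero N] (γ : SL(2, ℤ)) (d : Dv N) :
    ∃ (e : ℕ) (_ : NeZero e) (ξ : ℂˣ), (ξ : ℂ) ^ N = 1 ∧
      fexp N γ d = qExpand ℂ e (S28.Kummer.twist ξ (jqModC ℂ)) := by
  obtain ⟨e, he, ξ, hξ, h⟩ := fexp_eq_twist N γ d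
  exact ⟨e, he, ξ, hξ, by rw [h, coeffEmb_jq]⟩

/-! ### Order and leading coefficient of `j(ξ u ^ e)` over any field -/

theorem coeff_qExpand_twist_self (K : Type*) [Field K] (e : ℕ) [NeZero e] (ξ : Kˣ) :
    (qExpand K e (S28.Kummer.twist ξ (jqModC K))).coeff (-(e : ℤ)) = ((ξ⁻¹ : Kˣ) : K) := by
  have h := qExpand_coeff_mul (R := K) e (S28.Kummer.twist ξ (jqModC K)) (-1)
  rw [mul_neg_one] at h
  rw [h, S28.Kummer.twist_coeff, coeff_jqModC_neg_one, mul_one, zpow_neg_one, Units.val_inv_eq_inv_val]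

theorem coeff_qExpand_twist_of_lt (K : Type*) [Field K] (e : ℕ) [NeZero e] (ξ : Kˣ) {k : ℤ}
    (hk : k < -(e : ℤ)) : (qExpand K e (S28.Kummer.twist ξ (jqModC K))).coeff k = 0 := by
  by_cases hdvd : (e : ℤ) ∣ k
  · obtain ⟨m, rfl⟩ := hdvd
    have he : (0 : ℤ) < e := by exact_mod_cast Nat.pos_of_ne_zero (NeZero.ne e)
    have hm : m < -1 := by nlinarith
    rw [qExpand_coeff_mul, S28.Kummer.twist_coeff, coeff_jqModC_of_lt K hm, mul_zero]
  · exact qExpand_coeff_of_not_dvd e _ hdvd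

theorem qExpand_twist_ne_zero (K : Type*) [Field K] (e : ℕ) [NeZero e] (ξ : Kˣ) :
    qExpand K e (S28.Kummer.twist ξ (jqModC K)) ≠ 0 := fun h => by
  have hc := coeff_qExpand_twist_self K e ξ
  rw [h, HahnSeries.coeff_zero] at hc
  exact Units.ne_zero _ hc.symm

theorem order_qExpand_twist (K : Type*) [Field K] (e : ℕ) [NeZero e] (ξ : Kˣ) :
    (qExpand K e (S28.Kummer.twist ξ (jqModC K))).order = -(e : ℤ) := by
  apply le_antisymm
  · exact HahnSeries.order_le_of_coeff_ne_zero (by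
      rw [coeff_qExpand_twist_self]
      exact Units.ne_zero _)
  · rw [HahnSeries.le_order_iff_forall (qExpand_twist_ne_zero K e ξ)]
    intro k hk
    exact coeff_qExpand_twist_of_lt K e ξ hk

/-- Two series `j(ξ u ^ e)`, `j(ξ' u ^ e')` coincide only if `e = e'` and `ξ = ξ'`. -/
theorem qExpand_twist_inj (K : Type*) [Field K] (e e' : ℕ) [NeZero e] [NeZero e'] (ξ ξ' : Kˣ)
    (h : qExpand K e (S28.Kummer.twist ξ (jqModC K))
      = qExpand K e' (S28.Kummer.twist ξ' (jqModC K))) : e = e' ∧ ξ = ξ' := by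
  have ho := congrArg HahnSeries.order h
  rw [order_qExpand_twist, order_qExpand_twist] at ho
  have hee : e = e' := by omega
  subst hee
  refine ⟨rfl, ?_⟩
  have hc := congrArg (fun x : LaurentSeries K => x.coeff (-(e : ℤ))) h
  simp only [coeff_qExpand_twist_self] at hc
  exact inv_injective (Units.ext hc)

end Fermat.Agent.S18.CLF

end
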