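/-
S18, chain CL (good reduction input), piece E2 (last step on the `redEmb` route, helper25):
the complete family of reduced conjugate embeddings of `F̄_N`.

For `ℓ ∤ N`, `A` a valuation subring of `ℚ̄` over `ℓ` with residue field `k`, the reduced
embeddings `σ i := redEmb (out i)⁻¹`, `i ∈ SL₂(ℤ)/Γ₀(N)`, of `CLEmb.lean` are `k`-linear, pairwise
distinct, send `J̄` to `J̄(u^N)`, and are permuted by `T⁻¹` like the rotation `u ↦ ζ̄ u`, `ζ̄` a
primitive `N`-th root of unity of `k` (`hasSigma`).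
-/
import Fermat.Agent.S18.CLEmb
import Fermat.Agent.S18.CLFexp

set_option autoImplicit false

noncomputable section

open ModularCurve IntermediateField
open scoped MatrixGroups Real

namespace Fermat.Agent.S18.CLSE

open Fermat.Agent.S28 Fermat.Agent.S24 Fermat.Agent.S18 Fermat.Agent.S18.CLE

/-! ### Roots of unity modulo the maximal ideal -/

section Roots

variable {R : Type*} [CommRing R] [IsLocalRing R]

/-- a root of unity of order prime to the residue characteristic which reduces to `1` is `1` -/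
theorem eq_one_of_residue_eq_one {n : ℕ} (hn : (n : IsLocalRing.ResidueField R) ≠ 0) (u : R)
    (hu : u ^ n = 1) (hres : IsLocalRing.residue R u = 1) : u = 1 := by
  have h1 : (u - 1) * ∑ i ∈ Finset.range n, u ^ i = 0 := by
    rw [mul_geom_sum, hu, sub_self]
  have h2 : IsUnit (∑ i ∈ Finset.range n, u ^ i) := by
    by_contra hnu
    have hm : (∑ i ∈ Finset.range n, u ^ i) ∈ IsLocalRing.maximalIdeal R := by
      rw [IsLocalRing.mem_maximalIdeal, mem_nonunits_iff]
      exact hnu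
    have h3 := (IsLocalRing.residue_eq_zero_iff _).mpr hm
    rw [map_sum] at h3
    simp only [map_pow, hres, one_pow, Finset.sum_const, Finset.card_range, nsmul_eq_mul,
      mul_one] at h3
    exact hn h3
  obtain ⟨v, hv⟩ := h2
  rw [← hv] at h1
  exact sub_eq_zero.mp ((Units.mul_left_eq_zero v).mp h1)

theorem unit_eq_of_residue_eq {n : ℕ} (hn : (n : IsLocalRing.ResidueField R) ≠ 0) (u u' : Rˣ)
    (hu : u ^ n = 1) (hu' : u' ^ n = 1)
    (hres : IsLocalRing.residue R (u : R) = IsLocalRing.residue R (u' : R)) : u = u' := by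
  have h1 : ((u * u'⁻¹ : Rˣ) : R) = 1 := by
    apply eq_one_of_residue_eq_one hn
    · rw [← Units.val_pow_eq_pow_val, mul_pow, inv_pow, hu, hu', inv_one, one_mul, Units.val_one]
    · rw [Units.val_mul, map_mul, hres, ← map_mul, ← Units.val_mul, mul_inv_cancel, Units.val_one,
        map_one]
  have h2 : u * u'⁻¹ = 1 := Units.ext h1
  exact mul_inv_eq_one.mp h2

end Roots

section Sigma

variable (N : ℕ) [NeZero N] {ℓ : ℕ} [Fact ℓ.Prime] (hℓN : ¬ ℓ ∣ N)
variable (A : ValuationSubring (AlgebraicClosure ℚ)) (hA : A.LiesOverPrime ℓ)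
  (ι : AlgebraicClosure ℚ →+* ℂ)

include hA in
theorem natCast_residue_ne_zero {n : ℕ} (hn : ¬ ℓ ∣ n) :
    (n : IsLocalRing.ResidueField A) ≠ 0 := by
  haveI := RN.charP_residueField A hA
  intro h
  exact hn ((CharP.cast_eq_zero_iff (IsLocalRing.ResidueField A) ℓ n).mp h)

include hℓN hA in
/-- a unit of `A` lifting `exp (2 π i / N)`, with primitive reduction -/
theorem exists_zeta :
    ∃ u : (↥A)ˣ, ι ((u : ↥A) : AlgebraicClosure ℚ) =
        Complex.exp (2 * π * Complex.I * ((1 / N : ℝ) : ℂ)) ∧ u ^ N = 1 ∧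
      IsPrimitiveRoot (IsLocalRing.residue A (u : ↥A)) N := by
  have hNpos : 0 < N := Nat.pos_of_ne_zero (NeZero.ne N)
  have hprim : IsPrimitiveRoot (Complex.exp (2 * π * Complex.I * ((1 / N : ℝ) : ℂ))) N := by
    have h := Complex.isPrimitiveRoot_exp N (NeZero.ne N)
    have e : 2 * (π : ℂ) * Complex.I * ((1 / N : ℝ) : ℂ) = 2 * π * Complex.I / N := by
      push_cast
      ring
    rw [e]
    exact h
  obtain ⟨u, hu, huN⟩ := exists_unit_of_pow_eq_one A ι hNpos hprim.pow_eq_one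
  refine ⟨u, hu, huN, ?_⟩
  have huN' : (u : ↥A) ^ N = 1 := by
    rw [← Units.val_pow_eq_pow_val, huN, Units.val_one]
  refine IsPrimitiveRoot.mk_of_lt _ hNpos (by rw [← map_pow, huN', map_one]) ?_
  intro l hl0 hlN h
  have h1 : (u : ↥A) ^ l = 1 := by
    apply eq_one_of_residue_eq_one (natCast_residue_ne_zero A hA hℓN)
    · rw [← pow_mul, mul_comm, pow_mul, huN', one_pow]
    · rw [map_pow]
      exact h
  have h2 : (Complex.exp (2 * π * Complex.I * ((1 / N : ℝ) : ℂ))) ^ l = 1 := by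
    rw [← hu, ← map_pow, ← SubmonoidClass.coe_pow, h1]
    simp
  exact hprim.pow_ne_one_of_pos_of_lt hl0.ne' hlN h2

/-- the rotation fixes the constants -/
theorem twistU_algebraMap {R : Type*} [CommRing R] (ξ : Rˣ) (c : R) :
    Phi.twistU ξ (algebraMap R (LaurentSeries R) c) = algebraMap R (LaurentSeries R) c := by
  ext k
  rw [Phi.twistU_coeff, ValBase.algebraMap_eq_single]
  by_cases hk : k = 0
  · subst hk
    simp
  · rw [HahnSeries.coeff_single_of_ne hk, mul_zero]

theorem twistU_eq_kummer {K : Type*} [Field K] (ξ : Kˣ) (x : LaurentSeries K) :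
    Phi.twistU ξ x = S28.Kummer.twist ξ x := by
  ext k
  rw [Phi.twistU_coeff, S28.Kummer.twist_coeff, Units.val_zpow_eq_zpow_val]

/-- the reduced cusp expansions are rotated by `T⁻¹` -/
theorem fexpK_rot (u : (↥A)ˣ)
    (hu : ι ((u : ↥A) : AlgebraicClosure ℚ) = Complex.exp (2 * π * Complex.I * ((1 / N : ℝ) : ℂ)))
    (i : SL(2, ℤ) ⧸ CongruenceSubgroup.Gamma0 N) (d : Dv N) :
    fexpK N A ι (Quotient.out (cosetPerm N ModularGroup.T⁻¹ i))⁻¹ d =
      Phi.twistU (Units.map (IsLocalRing.residue A : ↥A →* IsLocalRing.ResidueField A) u)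
        (fexpK N A ι (Quotient.out i)⁻¹ d) := by
  have h1 : Cusp.fexp N (Quotient.out (cosetPerm N ModularGroup.T⁻¹ i))⁻¹ d =
      Cusp.twist (Complex.exp (2 * π * Complex.I * ((1 / N : ℝ) : ℂ))) (Complex.exp_ne_zero _)
        (Cusp.fexp N (Quotient.out i)⁻¹ d) := by
    have h := congrArg
      (fun τ : ↥(FF (AlgebraicClosure ℚ) N) →+* LaurentSeries ℂ =>
        τ (gen (AlgebraicClosure ℚ) N d)) (Cusp.tauG_rot ι N i)
    simp only [RingHom.comp_apply, Cusp.tauG_gen] at h
    exact h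
  have h2 : fexpA N A ι (Quotient.out (cosetPerm N ModularGroup.T⁻¹ i))⁻¹ d =
      Phi.twistU u (fexpA N A ι (Quotient.out i)⁻¹ d) := by
    apply incC_injective A ι
    rw [incC_fexpA, h1, twist_eq_twistU, ← incC_fexpA N A ι, incC, Phi.coeffMap_twistU]
    have hu' : Units.map (↑(ι.comp A.subtype) : ↥A →* ℂ) u =
        Units.mk0 (Complex.exp (2 * π * Complex.I * ((1 / N : ℝ) : ℂ))) (Complex.exp_ne_zero _) :=
      Units.ext (by simpa using hu)
    rw [hu']
  rw [fexpK, h2, Phi.coeffMap_twistU]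
  rfl

include hℓN hA in
/-- the reduced embeddings are rotated by `T⁻¹` -/
theorem redEmb_rot (u : (↥A)ˣ)
    (hu : ι ((u : ↥A) : AlgebraicClosure ℚ) = Complex.exp (2 * π * Complex.I * ((1 / N : ℝ) : ℂ)))
    (i : SL(2, ℤ) ⧸ CongruenceSubgroup.Gamma0 N) :
    redEmb N hℓN A hA ι (Quotient.out (cosetPerm N ModularGroup.T⁻¹ i))⁻¹ =
      (Phi.twistU (Units.map (IsLocalRing.residue A : ↥A →* IsLocalRing.ResidueField A) u)).comp
        (redEmb N hℓN A hA ι (Quotient.out i)⁻¹) := by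
  apply hom_ext_of_frac (genK (IsLocalRing.ResidueField A) N)
    (modularFunctionFieldFullC (IsLocalRing.ResidueField A) N)
    (genK_mem (IsLocalRing.ResidueField A) N)
    (fun _ hx => fullC_frac (IsLocalRing.ResidueField A) N hx)
  intro P
  rw [RingHom.comp_apply, redEmb_aeval, redEmb_aeval,
    map_mvAeval_of_const _ (twistU_algebraMap _)]
  congr 2
  funext d
  exact fexpK_rot N A ι u hu i d

include hℓN hA in
/-- distinct cosets give distinct reduced embeddings -/
theorem redEmb_out_injective :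
    Function.Injective fun i : SL(2, ℤ) ⧸ CongruenceSubgroup.Gamma0 N =>
      redEmb N hℓN A hA ι (Quotient.out i)⁻¹ := by
  intro i j hij
  have hij' : redEmb N hℓN A hA ι (Quotient.out i)⁻¹ = redEmb N hℓN A hA ι (Quotient.out j)⁻¹ :=
    hij
  apply Cusp.tauG_out_injective ι N
  show Cusp.tauG ι N (Quotient.out i)⁻¹ = Cusp.tauG ι N (Quotient.out j)⁻¹
  have hfexp : ∀ d, Cusp.fexp N (Quotient.out i)⁻¹ d = Cusp.fexp N (Quotient.out j)⁻¹ d := by
    intro d
    have hK : fexpK N A ι (Quotient.out i)⁻¹ d = fexpK N A ι (Quotient.out j)⁻¹ d := by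
      rw [← redEmb_gen N hℓN A hA ι, ← redEmb_gen N hℓN A hA ι, hij']
    obtain ⟨e, he, u, hu, hf⟩ := fexpA_eq N A ι (Quotient.out i)⁻¹ d
    obtain ⟨e', he', u', hu', hf'⟩ := fexpA_eq N A ι (Quotient.out j)⁻¹ d
    rw [fexpK, fexpK, hf, hf', coeffMap_qExpand, coeffMap_qExpand, Phi.coeffMap_twistU,
      Phi.coeffMap_twistU, coeffMap_jqModC, twistU_eq_kummer, twistU_eq_kummer] at hK
    obtain ⟨hee, hξ⟩ := CLF.qExpand_twist_inj _ e e' _ _ hK
    subst hee
    have huu : u = u' := unit_eq_of_residue_eq (natCast_residue_ne_zero A hA hℓN) u u' hu hu'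
      (congrArg Units.val hξ)
    rw [← incC_fexpA N A ι, ← incC_fexpA N A ι, hf, hf', huu]
  apply Ext.hom_ext (AlgebraicClosure ℚ) N
  intro P
  rw [Cusp.tauG_evalL, Cusp.tauG_evalL]
  unfold Cusp.phi
  rw [funext hfexp]

/-- **E2.**  The complete family of reduced conjugate embeddings of `F̄_N`. -/
theorem hasSigma (N : ℕ) [NeZero N] {ℓ : ℕ} [Fact ℓ.Prime] (hℓN : ¬ ℓ ∣ N)
    (A : ValuationSubring (AlgebraicClosure ℚ)) (hA : A.LiesOverPrime ℓ) :
    ∃ (σ : SL(2, ℤ) ⧸ CongruenceSubgroup.Gamma0 N →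
        ↥(modularFunctionFieldFullC (IsLocalRing.ResidueField A) N) →+*
          LaurentSeries (IsLocalRing.ResidueField A)) (ζ : IsLocalRing.ResidueField A),
      IsPrimitiveRoot ζ N ∧
      (∀ i (c : IsLocalRing.ResidueField A),
        σ i (algebraMap (IsLocalRing.ResidueField A)
          ↥(modularFunctionFieldFullC (IsLocalRing.ResidueField A) N) c) = HahnSeries.C c) ∧
      Function.Injective σ ∧
      (∀ i (f : ↥(modularFunctionFieldFullC (IsLocalRing.ResidueField A) N)) (n : ℤ),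
        (σ (cosetPerm N ModularGroup.T⁻¹ i) f).coeff n = ζ ^ n * (σ i f).coeff n) ∧
      (∀ i, σ i ⟨jqModC (IsLocalRing.ResidueField A),
          jqModC_mem_full (IsLocalRing.ResidueField A) N⟩ =
        qExpand (IsLocalRing.ResidueField A) N (jqModC (IsLocalRing.ResidueField A))) := by
  obtain ⟨ι, -⟩ : ∃ ι : AlgebraicClosure ℚ →+* ℂ, True := by
    haveI : Algebra.IsAlgebraic ℚ (AlgebraicClosure ℚ) := AlgebraicClosure.isAlgebraic ℚ
    exact ⟨(IsAlgClosed.lift (R := ℚ) (S := AlgebraicClosure ℚ) (M := ℂ)).toRingHom, trivial⟩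
  obtain ⟨u, hu, -, hprim⟩ := exists_zeta N hℓN A hA ι
  refine ⟨fun i => redEmb N hℓN A hA ι (Quotient.out i)⁻¹, IsLocalRing.residue A (u : ↥A),
    hprim, fun i c => redEmb_algebraMap N hℓN A hA ι _ c, redEmb_out_injective N hℓN A hA ι,
    ?_, fun i => redEmb_jq N hℓN A hA ι _⟩
  intro i f n
  show (redEmb N hℓN A hA ι (Quotient.out (cosetPerm N ModularGroup.T⁻¹ i))⁻¹ f).coeff n = _
  rw [redEmb_rot N hℓN A hA ι u hu i, RingHom.comp_apply, Phi.twistU_coeff,
    Units.val_zpow_eq_zpow_val]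
  rfl

end Sigma

end Fermat.Agent.S18.CLSE

end
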