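import Mathlib
import Fermat.Agent.S20.RRLite.Bases
import Fermat.Agent.S20.RRLite.Wrap
import Fermat.Agent.S20.LB.Val
import Fermat.Agent.S20.LB.ValTame
import Fermat.Agent.S20.LB.AdaptInf
import Fermat.Agent.S24.PlacesMore
import Fermat.Agent.S24.PlaceDict
import Fermat.Agent.S20.RRBasic

set_option autoImplicit false

noncomputable section

open AlgebraicCurve IntermediateField Polynomial Module

namespace Fermat.Agent.S18.C0L

open Fermat.Agent.S20.RRLite Fermat.Agent.S20 Fermat.Agent.S24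

section Lattice

variable (K : Type*) {F : Type*} [Field K] [Field F] [Algebra K F] [Algebra K[X] F]
  [Algebra (RatFunc K) F] [IsScalarTower K K[X] F] [IsScalarTower K[X] (RatFunc K) F]
  [IsScalarTower K (RatFunc K) F]

variable {ι ι' : Type*}

/-- The basis `X ^ l • u`. -/
def scaleX (l : ℕ) (u : Basis ι (RatFunc K) F) : Basis ι (RatFunc K) F :=
  scale K (RatFunc.X ^ l) (pow_ne_zero _ RatFunc.X_ne_zero) u

omit [Algebra K[X] F] [IsScalarTower K K[X] F] [IsScalarTower K[X] (RatFunc K) F] in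
theorem mem_Linf_scaleX {l : ℕ} {u : Basis ι (RatFunc K) F} {f : F} :
    f ∈ Linf K (scaleX K l u) ↔ ∀ i, (RatFunc.X : RatFunc K)⁻¹ ^ l * u.repr f i ∈ Oinf K := by
  rw [mem_Linf]
  refine forall_congr' fun i => ?_
  rw [scaleX, scale_repr, inv_pow]

omit [Algebra K[X] F] [IsScalarTower K K[X] F] [IsScalarTower K[X] (RatFunc K) F] in
theorem Linf_le_scaleX (l : ℕ) (u : Basis ι (RatFunc K) F) :
    Linf K u ≤ Linf K (scaleX K l u) := by
  intro f hf
  rw [mem_Linf] at hf
  rw [mem_Linf_scaleX]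
  intro i
  exact (Oinf K).mul_mem (X_inv_pow_mem_Oinf K l) (hf i)

omit [Algebra K[X] F] [IsScalarTower K K[X] F] [IsScalarTower K[X] (RatFunc K) F] in
theorem inv_pow_smul_mem_Linf {l : ℕ} {u : Basis ι (RatFunc K) F} {f : F}
    (hf : f ∈ Linf K (scaleX K l u)) : ((RatFunc.X : RatFunc K)⁻¹ ^ l) • f ∈ Linf K u := by
  rw [mem_Linf_scaleX] at hf
  rw [mem_Linf]
  intro i
  rw [map_smul, Finsupp.smul_apply, smul_eq_mul]
  exact hf i

omit [Field F] [Algebra K F] [Algebra K[X] F] [Algebra (RatFunc K) F] [IsScalarTower K K[X] F]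
  [IsScalarTower K[X] (RatFunc K) F] [IsScalarTower K (RatFunc K) F] in
theorem X_inv_pow_mul_X_pow {l m : ℕ} (h : m ≤ l) :
    (RatFunc.X : RatFunc K)⁻¹ ^ l * RatFunc.X ^ m = (RatFunc.X : RatFunc K)⁻¹ ^ (l - m) := by
  obtain ⟨d, rfl⟩ := Nat.exists_eq_add_of_le h
  rw [Nat.add_sub_cancel_left, pow_add, mul_comm (_ ^ m), mul_assoc, ← mul_pow,
    inv_mul_cancel₀ RatFunc.X_ne_zero, one_pow, mul_one]

omit [Algebra K[X] F] [IsScalarTower K K[X] F] [IsScalarTower K[X] (RatFunc K) F] in
/-- `dim_K (X ^ l Binf / Binf) ≥ l n`. -/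
theorem le_relDim_scaleX [Fintype ι] [DecidableEq ι] (l : ℕ) (u : Basis ι (RatFunc K) F)
    [Module.Finite K (↥(Linf K (scaleX K l u)) ⧸ (Linf K u).submoduleOf (Linf K (scaleX K l u)))] :
    l * Fintype.card ι ≤ relDim (Linf K u) (Linf K (scaleX K l u)) := by
  have key := card_le_relDim (Linf K u) (Linf K (scaleX K l u))
    (J := Fin l × ι) (fun j => ((RatFunc.X : RatFunc K) ^ ((j.1 : ℕ) + 1)) • u j.2) ?_ ?_
  · simpa [Fintype.card_prod] using key
  · rintro ⟨k, i⟩
    rw [mem_Linf_scaleX]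
    intro j
    rw [map_smul, Basis.repr_self, Finsupp.smul_apply, Finsupp.single_apply, smul_eq_mul]
    split_ifs
    · rw [mul_one]
      have h1 : (RatFunc.X : RatFunc K)⁻¹ ^ l * RatFunc.X ^ ((k : ℕ) + 1) =
          (RatFunc.X : RatFunc K)⁻¹ ^ (l - ((k : ℕ) + 1)) :=
        X_inv_pow_mul_X_pow K (by have := k.2; omega)
      rw [h1]
      exact X_inv_pow_mem_Oinf K _
    · rw [mul_zero, mul_zero]
      exact (Oinf K).zero_mem
  · intro c hc
    -- the polynomials of coefficients
    set p : ι → K[X] := fun i => ∑ k : Fin l, Polynomial.C (c (k, i)) * Polynomial.X ^ ((k : ℕ) + 1)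
      with hp
    have hsum : ∑ j : Fin l × ι, c j • (((RatFunc.X : RatFunc K) ^ ((j.1 : ℕ) + 1)) • u j.2) =
        ∑ i, algebraMap K[X] (RatFunc K) (p i) • u i := by
      rw [Fintype.sum_prod_type, Finset.sum_comm]
      refine Finset.sum_congr rfl fun i _ => ?_
      rw [hp, map_sum, Finset.sum_smul]
      refine Finset.sum_congr rfl fun k _ => ?_
      rw [← algebraMap_smul (RatFunc K) (c (k, i)), smul_smul, map_mul, map_pow,
        RatFunc.algebraMap_X, RatFunc.algebraMap_C, RatFunc.algebraMap_eq_C]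
    rw [hsum, mem_Linf] at hc
    funext ⟨k, i⟩
    have h1 := hc i
    rw [Basis.repr_sum_self] at h1
    have h2 := (mem_Oinf_iff K).mp h1 (-(((k : ℕ) + 1 : ℕ) : ℤ)) (by omega)
    rw [expInf_algebraMap, coeff_polyInf, hp, Polynomial.finsetSum_coeff] at h2
    rw [Finset.sum_eq_single k] at h2
    · rw [Polynomial.coeff_C_mul_X_pow, if_pos rfl] at h2
      exact h2
    · intro k' _ hk'
      rw [Polynomial.coeff_C_mul_X_pow, if_neg]
      intro h
      apply hk'
      apply Fin.ext
      omega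
    · intro h
      exact absurd (Finset.mem_univ k) h

omit [Algebra K[X] F] [IsScalarTower K K[X] F] [IsScalarTower K[X] (RatFunc K) F] in
/-- `dim_K (X ^ l Binf / Binf) ≤ l n`. -/
theorem relDim_scaleX_le [Fintype ι] (l : ℕ) (u : Basis ι (RatFunc K) F) :
    relDim (Linf K u) (Linf K (scaleX K l u)) ≤ l * Fintype.card ι := by
  let ψ : ↥(Linf K (scaleX K l u)) →ₗ[K] (ι → Fin l → K) :=
    (LinearMap.pi fun i => (LinearMap.pi fun k : Fin l =>
        coeffInf K (-(((k : ℕ) + 1 : ℕ) : ℤ))) ∘ₗ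
      ((Finsupp.lapply i ∘ₗ u.repr.toLinearMap).restrictScalars K)) ∘ₗ
        (Linf K (scaleX K l u)).subtype
  have hψ : ∀ (f : Linf K (scaleX K l u)) (i : ι) (k : Fin l), ψ f i k =
      (expInf K (u.repr (f : F) i)).coeff (-(((k : ℕ) + 1 : ℕ) : ℤ)) := fun f i k => rfl
  have := (relDim_le_of_ker_le (Linf K u) (Linf K (scaleX K l u)) ψ (by
    intro f hf
    rw [mem_Linf]
    intro i
    rw [mem_Oinf_iff]
    intro m hm
    have hf' := (mem_Linf_scaleX K).mp f.2 i
    by_cases hml : m < -(l : ℤ)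
    · have := (mem_Oinf_iff K).mp hf' (m + l) (by omega)
      rwa [coeff_expInf_X_inv_pow_mul, add_sub_cancel_right] at this
    · obtain ⟨k, hk⟩ : ∃ k : Fin l, m = -(((k : ℕ) + 1 : ℕ) : ℤ) :=
        ⟨⟨(-m - 1).toNat, by omega⟩, by
          show m = -((((-m - 1).toNat : ℕ) + 1 : ℕ) : ℤ)
          omega⟩
      rw [hk, ← hψ, hf]
      rfl)).2
  rw [Module.finrank_pi_fintype] at this
  simpa [mul_comm] using this

variable (F) in
/-- `X ^ l Binf`: the elements `f` of `F` with `X⁻ˡ f` integral over the valuation ring at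
infinity, as a `K`-subspace. -/
def BinfPow (l : ℕ) : Submodule K F where
  carrier := {f | IsIntegral (Oinf K) (((RatFunc.X : RatFunc K)⁻¹ ^ l) • f)}
  add_mem' := by
    intro a b ha hb
    simp only [Set.mem_ofPred_eq, smul_add] at ha hb ⊢
    exact ha.add hb
  zero_mem' := by
    simp only [Set.mem_ofPred_eq, smul_zero]
    exact isIntegral_zero
  smul_mem' c b hb := by
    simp only [Set.mem_ofPred_eq] at hb ⊢
    rw [smul_comm]
    exact (BinfK K F).smul_mem c hb

omit [Algebra K[X] F] [IsScalarTower K K[X] F] [IsScalarTower K[X] (RatFunc K) F] in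
theorem mem_BinfPow {l : ℕ} {f : F} :
    f ∈ BinfPow K F l ↔ IsIntegral (Oinf K) (((RatFunc.X : RatFunc K)⁻¹ ^ l) • f) := Iff.rfl

theorem Linf_scaleX_eq (u : Basis ι (RatFunc K) F) (hu : Linf K u = BinfK K F) (l : ℕ) :
    Linf K (scaleX K l u) = BinfPow K F l := by
  ext f
  rw [mem_BinfPow, ← mem_BinfK, ← hu]
  constructor
  · exact inv_pow_smul_mem_Linf K
  · intro h
    rw [mem_Linf_scaleX]
    rw [mem_Linf] at h
    intro i
    have := h i
    rwa [map_smul, Finsupp.smul_apply, smul_eq_mul] at this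

section Main

variable [FiniteDimensional (RatFunc K) F] [Algebra.IsSeparable (RatFunc K) F]
variable [Fintype ι] [DecidableEq ι] [Fintype ι'] [DecidableEq ι']

/-- The exact lattice Riemann–Roch identity for the pair `(B0, X ^ l Binf)`, in terms of bases. -/
theorem lattice_identity [IsAlgClosed K] (e : Basis ι (RatFunc K) F) (u : Basis ι' (RatFunc K) F)
    (he : L0 K e = B0K K F) (hu : Linf K u = BinfK K F) (l : ℕ) :
    Module.Finite K ↥(L0 K e ⊓ Linf K (scaleX K l u)) ∧
    Module.Finite K (F ⧸ (L0 K e ⊔ Linf K (scaleX K l u))) ∧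
    Module.Finite K (Omega K F) ∧
    finrank K ↥(L0 K e ⊓ Linf K (scaleX K l u)) + finrank K (Omega K F) =
      1 + finrank K (F ⧸ (L0 K e ⊔ Linf K (scaleX K l u))) + l * Fintype.card ι' := by
  obtain ⟨f1, f1', D1⟩ := duality K e u
  obtain ⟨f2, -, -⟩ := duality K e (scaleX K l u)
  obtain ⟨-, f3, -⟩ := duality K e.traceDual (twist K (scaleX K l u))
  rw [Basis.traceDual_traceDual, Linf_twist_twist] at f3
  obtain ⟨g, U⟩ := chi_add' (L0 K e) (Linf K u) (Linf K (scaleX K l u)) (Linf_le_scaleX K l u)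
  have a1 : finrank K ↥(L0 K e ⊓ Linf K u) = 1 := by
    rw [he, hu]; exact finrank_B0K_inf_BinfK K F
  have b1 := le_relDim_scaleX K l u
  have b2 := relDim_scaleX_le K l u
  rw [Omega_eq e u he hu]
  refine ⟨f3, f2, f1', ?_⟩
  omega

variable (F) in
/-- **C0-L (L1), exact form.** The lattice Riemann–Roch identity for `(B0, X ^ l Binf)`:
`dim (B0 ⊓ X^l Binf) + dim Omega = 1 + dim F/(B0 + X^l Binf) + l n`. -/
theorem lattice_riemann_eq [IsAlgClosed K] (l : ℕ) :
    Module.Finite K ↥(B0K K F ⊓ BinfPow K F l) ∧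
    Module.Finite K (F ⧸ (B0K K F ⊔ BinfPow K F l)) ∧
    Module.Finite K (Omega K F) ∧
    finrank K ↥(B0K K F ⊓ BinfPow K F l) + finrank K (Omega K F) =
      1 + finrank K (F ⧸ (B0K K F ⊔ BinfPow K F l)) + l * finrank (RatFunc K) F := by
  obtain ⟨n, e, he⟩ := exists_basis_B0 K F
  obtain ⟨m, u, hu⟩ := exists_basis_Binf K F
  have key := lattice_identity K e u he hu l
  rw [he, Linf_scaleX_eq K u hu l, Fintype.card_fin] at key
  have hm : finrank (RatFunc K) F = m := by
    rw [Module.finrank_eq_card_basis u, Fintype.card_fin]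
  rw [hm]
  exact key

variable (F) in
/-- **C0-L (L1).** `l n + 1 ≤ dim (B0 ⊓ X^l Binf) + dim Omega`. -/
theorem lattice_riemann [IsAlgClosed K] (l : ℕ) :
    Module.Finite K ↥(B0K K F ⊓ BinfPow K F l) ∧ Module.Finite K (Omega K F) ∧
    l * finrank (RatFunc K) F + 1 ≤
      finrank K ↥(B0K K F ⊓ BinfPow K F l) + finrank K (Omega K F) := by
  obtain ⟨h1, -, h3, h4⟩ := lattice_riemann_eq K F l
  exact ⟨h1, h3, by omega⟩

end Main

end Lattice

section PlacesGeneric

variable {K F : Type*} [Field K] [Field F] [Algebra K F] [Algebra K[X] F] [Algebra (RatFunc K) F]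
  [IsScalarTower K K[X] F] [IsScalarTower K[X] (RatFunc K) F] [IsScalarTower K (RatFunc K) F]

omit [Algebra (RatFunc K) F] [IsScalarTower K[X] (RatFunc K) F] [IsScalarTower K (RatFunc K) F] in
/-- Elements integral over `K[X]` are regular at every place at which `x` is regular. -/
theorem mem_of_isIntegral_poly (v : Place K F)
    (hxv : algebraMap K[X] F X ∈ v.toValuationSubring) {b : F} (hb : IsIntegral K[X] b) :
    b ∈ v.toValuationSubring := by
  rw [PlaceDict.mem_iff_adicValuation_le_one] at hxv ⊢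
  refine LB.ValTame.val_le_one_of_isIntegral (A := K[X]) (RingHom.id F) v.adicValuation
    (fun p => ?_) hb
  rw [RingHom.id_apply]
  exact LB.Val.val_poly_le_one K F v.adicValuation (LB.AdaptInf.adicValuation_algebraMap v) hxv p

omit [IsScalarTower K (RatFunc K) F] in
/-- Elements integral over the valuation ring at infinity are regular at every pole of `x`. -/
theorem mem_of_isIntegral_Oinf (v : Place K F)
    (hxv : algebraMap K[X] F X ∉ v.toValuationSubring) {b : F} (hb : IsIntegral (Oinf K) b) :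
    b ∈ v.toValuationSubring := by
  rw [PlaceDict.mem_iff_adicValuation_le_one] at hxv ⊢
  have hgt : 1 < v.adicValuation (algebraMap K[X] F X) := not_le.mp hxv
  refine LB.ValTame.val_le_one_of_isIntegral (A := Oinf K) (RingHom.id F) v.adicValuation
    (fun u => ?_) hb
  rw [RingHom.id_apply, IsScalarTower.algebraMap_apply (Oinf K) (RatFunc K) F,
    LB.Val.algebraMap_rat_eq_eval₂]
  exact LB.ValTame.val_ratfunc_le_one (algebraMap K F) v.adicValuation
    (LB.AdaptInf.adicValuation_algebraMap v) hgt (RatFunc.denom_ne_zero _)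
    (LB.Val.natDegree_le_of_mem_Oinf K u.2)

/-- **C0-L (L2), instance form.** `B0 ⊓ X^l Binf ≤ L(l • J)` for the pole divisor `J` of `x`. -/
theorem inf_le_riemannRochSpace (J : Divisor K F)
    (hJ : ∀ v : Place K F, J v = max (-(v.ord (algebraMap K[X] F X))) 0) (l : ℕ) :
    B0K K F ⊓ BinfPow K F l ≤ riemannRochSpace (l • J) := by
  rintro f ⟨h0, hinf⟩
  rw [mem_riemannRochSpace_iff]
  intro v
  by_cases hf : f = 0
  · exact Or.inl hf
  right
  rw [Finsupp.smul_apply, hJ v, nsmul_eq_mul]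
  by_cases hxv : algebraMap K[X] F X ∈ v.toValuationSubring
  · have h1 : f ∈ v.toValuationSubring := mem_of_isIntegral_poly v hxv h0
    have h2 : 0 ≤ v.ord f := (Places.mem_iff_ord_nonneg v hf).mp h1
    have h3 : (0 : ℤ) ≤ (l : ℤ) * max (-(v.ord (algebraMap K[X] F X))) 0 := by positivity
    omega
  · have hx0 : algebraMap K[X] F X ≠ 0 := by
      intro h
      exact hxv (h ▸ zero_mem _)
    have h1 : ((RatFunc.X : RatFunc K)⁻¹ ^ l) • f ∈ v.toValuationSubring :=
      mem_of_isIntegral_Oinf v hxv hinf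
    have h2 : ((RatFunc.X : RatFunc K)⁻¹ ^ l) • f = ((algebraMap K[X] F X)⁻¹) ^ (l : ℤ) * f := by
      rw [Algebra.smul_def, map_pow, map_inv₀, ← RatFunc.algebraMap_X,
        ← IsScalarTower.algebraMap_apply, zpow_natCast]
    rw [h2] at h1
    have hne : ((algebraMap K[X] F X)⁻¹) ^ (l : ℤ) ≠ 0 := zpow_ne_zero _ (inv_ne_zero hx0)
    have h3 := (Places.mem_iff_ord_nonneg v (mul_ne_zero hne hf)).mp h1
    rw [v.ord_mul hne hf, v.ord_zpow, v.ord_inv] at h3
    have h4 : v.ord (algebraMap K[X] F X) < 0 := by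
      by_contra h
      exact hxv ((Places.mem_iff_ord_nonneg v hx0).mpr (not_lt.mp h))
    rw [max_eq_left (by omega)]
    linarith

end PlacesGeneric

section WrapForm

variable {K F : Type*} [Field K] [Field F] [Algebra K F]

/-- The lattice `B0 ⊓ X ^ l Binf` for the `RRLite.Wrap` instances attached to `x`. -/
def LX (x : F) (hx : Transcendental K x) (l : ℕ) : Submodule K F :=
  letI := Wrap.polyAlgebra (K := K) x
  letI := Wrap.ratAlgebra x hx
  haveI := Wrap.tower_poly (K := K) x
  haveI := (Wrap.tower_rat x hx).1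
  haveI := (Wrap.tower_rat x hx).2
  B0K K F ⊓ BinfPow K F l

/-- **C0-L (L2), wrap form.** -/
theorem LX_le_riemannRochSpace (x : F) (hx : Transcendental K x) (J : Divisor K F)
    (hJ : ∀ v : Place K F, J v = max (-(v.ord x)) 0) (l : ℕ) :
    LX x hx l ≤ riemannRochSpace (l • J) := by
  let _ := Wrap.polyAlgebra (K := K) x
  let _ := Wrap.ratAlgebra x hx
  have := Wrap.tower_poly (K := K) x
  have := (Wrap.tower_rat x hx).1
  have := (Wrap.tower_rat x hx).2
  have hX : algebraMap K[X] F X = x := Polynomial.aeval_X x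
  exact inf_le_riemannRochSpace J (fun v => by rw [hX]; exact hJ v) l

/-- **C0-L (L1), wrap form**, any characteristic: `F / K(x)` finite separable. -/
theorem LX_riemann [IsAlgClosed K] (x : F) (hx : Transcendental K x) [FiniteDimensional K⟮x⟯ F]
    (hsep : @Algebra.IsSeparable (RatFunc K) F _ _ (Wrap.ratAlgebra x hx)) (l : ℕ) :
    Module.Finite K ↥(LX x hx l) ∧ Module.Finite K ↥(LB.Val.OmegaX x hx) ∧
    l * finrank K⟮x⟯ F + 1 ≤ finrank K ↥(LX x hx l) + finrank K ↥(LB.Val.OmegaX x hx) := by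
  let _ := Wrap.polyAlgebra (K := K) x
  let _ := Wrap.ratAlgebra x hx
  have := Wrap.tower_poly (K := K) x
  have := (Wrap.tower_rat x hx).1
  have := (Wrap.tower_rat x hx).2
  obtain ⟨hfd, hn⟩ := Wrap.finrank_eq x hx
  have := hfd
  have := hsep
  have key := lattice_riemann K F l
  rw [hn] at key
  exact key

/-- **C0-L (L3)**, any characteristic: Riemann's inequality for the multiples of the pole divisor
`J` of `x`, with `dim Omega` in the role of the genus. -/
theorem riemann_pole_of [IsAlgClosed K] (x : F) (hx : Transcendental K x)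
    [FiniteDimensional K⟮x⟯ F]
    (hsep : @Algebra.IsSeparable (RatFunc K) F _ _ (Wrap.ratAlgebra x hx))
    (J : Divisor K F) (hJ : ∀ v : Place K F, J v = max (-(v.ord x)) 0) (l : ℕ)
    [Module.Finite K ↥(riemannRochSpace (l • J))] :
    (l : ℤ) * (finrank K⟮x⟯ F : ℤ) + 1 - (finrank K ↥(LB.Val.OmegaX x hx) : ℤ) ≤
      (finrank K ↥(riemannRochSpace (l • J)) : ℤ) := by
  obtain ⟨h1, h2, h3⟩ := LX_riemann x hx hsep l
  have h4 : finrank K ↥(LX x hx l) ≤ finrank K ↥(riemannRochSpace (l • J)) :=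
    Submodule.finrank_mono (LX_le_riemannRochSpace x hx J hJ l)
  have h5 : ((l * finrank K⟮x⟯ F + 1 : ℕ) : ℤ) ≤
      ((finrank K ↥(riemannRochSpace (l • J)) + finrank K ↥(LB.Val.OmegaX x hx) : ℕ) : ℤ) := by
    exact_mod_cast h3.trans (Nat.add_le_add_right h4 _)
  push_cast at h5
  linarith

/-- A divisor with the values of the pole divisor of `x` is effective. -/
theorem pole_nonneg {x : F} {J : Divisor K F} (hJ : ∀ v : Place K F, J v = max (-(v.ord x)) 0) :
    0 ≤ J := by
  rw [Finsupp.le_def]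
  intro v
  rw [hJ v]
  exact le_max_right _ _

/-- The degree of the pole divisor, from the sum formula for the poles. -/
theorem degree_pole {x : F} {n : ℕ} (hdeg : ∀ v : Place K F, v.deg = 1)
    (hfin : {v : Place K F | v.ord x < 0}.Finite)
    (hsum : ∑ᶠ v ∈ {v : Place K F | v.ord x < 0}, v.ord x = -(n : ℤ))
    {J : Divisor K F} (hJ : ∀ v : Place K F, J v = max (-(v.ord x)) 0) :
    Divisor.degree J = n := by
  classical
  have hsupp : J.support = hfin.toFinset := by
    ext v
    rw [Finsupp.mem_support_iff, hJ v, Set.Finite.mem_toFinset, Set.mem_ofPred_eq]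
    constructor
    · intro h
      by_contra h'
      exact h (max_eq_right (by omega))
    · intro h h'
      have := le_max_left (-(v.ord x)) 0
      omega
  have h1 : Divisor.degree J = ∑ v ∈ J.support, J v * (v.deg : ℤ) := by
    show (Finsupp.liftAddHom fun v : Place K F => AddMonoidHom.mulRight (v.deg : ℤ)) J = _
    rw [Finsupp.liftAddHom_apply]
    rfl
  rw [h1, hsupp]
  have h2 : ∑ v ∈ hfin.toFinset, J v * (v.deg : ℤ) = ∑ v ∈ hfin.toFinset, -(v.ord x) := by
    refine Finset.sum_congr rfl fun v hv => ?_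
    rw [Set.Finite.mem_toFinset, Set.mem_ofPred_eq] at hv
    rw [hJ v, hdeg v, max_eq_left (by omega)]
    simp
  rw [h2, Finset.sum_neg_distrib, ← finsum_mem_eq_finite_toFinset_sum _ hfin, hsum, neg_neg]

section CharZero

variable [IsAlgClosed K] [CharZero K]

/-- The basic hypotheses of `S20.RR` for a function field of one variable over an algebraically
closed field of characteristic zero. -/
theorem hyp0 (x : F) [FiniteDimensional K⟮x⟯ F] : RR.Hyp0 K F where
  deg_one := fun v => Places.deg_one x v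
  principal := fun _ hf => Places.exists_principal_divisor x hf
  const := fun _ h => Places.exists_const_of_ord_nonneg x h

/-- The pole divisor of `x` exists. -/
theorem exists_pole (x : F) (hx : Transcendental K x) [FiniteDimensional K⟮x⟯ F] :
    ∃ J : Divisor K F, ∀ v : Place K F, J v = max (-(v.ord x)) 0 := by
  classical
  have hx0 : x ≠ 0 := fun h0 => hx (h0 ▸ isAlgebraic_zero)
  obtain ⟨D, hD, -⟩ := Places.exists_principal_divisor (K := K) x hx0
  refine ⟨(-D) ⊔ 0, fun v => ?_⟩
  rw [Finsupp.sup_apply, Finsupp.neg_apply, hD v]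
  rfl

/-- The pole divisor of `x` has degree `[F : K(x)]`. -/
theorem degree_pole_eq (x : F) (hx : Transcendental K x) [FiniteDimensional K⟮x⟯ F]
    {J : Divisor K F} (hJ : ∀ v : Place K F, J v = max (-(v.ord x)) 0) :
    Divisor.degree J = (finrank K⟮x⟯ F : ℤ) := by
  obtain ⟨hfin, hsum⟩ := Places.sum_ord_poles x hx
  exact degree_pole (fun v => Places.deg_one x v) hfin hsum hJ

/-- **C0-L (L3)**, characteristic zero: for the pole divisor `J` of `x`,
`l n + 1 - dim Omega ≤ ℓ(l J)`. -/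
theorem riemann_pole (x : F) (hx : Transcendental K x) [FiniteDimensional K⟮x⟯ F]
    (J : Divisor K F) (hJ : ∀ v : Place K F, J v = max (-(v.ord x)) 0) (l : ℕ) :
    (l : ℤ) * (finrank K⟮x⟯ F : ℤ) + 1 - (finrank K ↥(LB.Val.OmegaX x hx) : ℤ) ≤
      (finrank K ↥(riemannRochSpace (l • J)) : ℤ) := by
  have := RR.finite (hyp0 (K := K) x) (l • J)
  exact riemann_pole_of x hx (Wrap.isSeparable x hx) J hJ l

/-- **C0-L, in the shape of `S20.RR.Hyp.bound`**: the pole divisor `J` of `x` is effective of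
positive degree `n = [F : K(x)]` and `l deg J - (dim Omega - 1) ≤ ℓ(l J)`. -/
theorem bound_pole (x : F) (hx : Transcendental K x) [FiniteDimensional K⟮x⟯ F]
    (J : Divisor K F) (hJ : ∀ v : Place K F, J v = max (-(v.ord x)) 0) :
    0 ≤ J ∧ 0 < Divisor.degree J ∧ ∀ l : ℕ, (l : ℤ) * Divisor.degree J -
      ((finrank K ↥(LB.Val.OmegaX x hx) : ℤ) - 1) ≤
        (finrank K ↥(riemannRochSpace (l • J)) : ℤ) := by
  have hdeg := degree_pole_eq x hx hJ
  have hpos : 0 < finrank K⟮x⟯ F := Module.finrank_pos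
  refine ⟨pole_nonneg hJ, by rw [hdeg]; exact_mod_cast hpos, fun l => ?_⟩
  have := riemann_pole x hx J hJ l
  rw [hdeg]
  linarith

end CharZero

end WrapForm

end Fermat.Agent.S18.C0L
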