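/-
S18, chain C0 (char-0 Riemann inequality with the classical genus), slice C0-N:
the REVERSE point counts.  `S20/LB` proves `r_a ≤ #{places over x = a}` and
`r_∞ ≤ #{poles of x}`; here we prove the opposite inequalities (distinct places over `a` give
distinct maximal ideals of the integral closure, and the Chinese remainder theorem produces
a family of integral elements which is independent modulo the radical), hence equalities, and
instantiate them for the function field `FF L N` of `X₀(N)`.
-/
import Mathlib
import Fermat.Agent.S20.LB.AdaptFin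
import Fermat.Agent.S20.LB.AdaptInf
import Fermat.Agent.S24.Mod.Data
import Fermat.Agent.S24.Mod.Degree
import Fermat.Agent.S24.Alg.LocalCount
import Fermat.Agent.S24.Comb.Count

set_option autoImplicit false
set_option linter.style.haveILetI false

noncomputable section

open AlgebraicCurve IntermediateField Polynomial Module IsDedekindDomain
open scoped MatrixGroups

namespace Fermat.Agent.S18.C0N

open Fermat.Agent.S20.RRLite Fermat.Agent.S24 Fermat.Agent.S20.LB

section Generic

variable {K F : Type*} [Field K] [Field F] [Algebra K F]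

/-- **Generic reverse count.**  `B = integralClosure A F` a Dedekind domain with fraction field
`F` containing the constants, `t : A` non-zero in `F`, `M` the `K`-space of integral elements,
`R` a `K`-subspace contained in the radical of `t B`, and `B` contained in the valuation ring of
every place where `t` vanishes.  Then the number of places where `t` vanishes is at most
`dim_K M / R`. -/
theorem card_le_relDim_of_places {A : Type*} [CommRing A] [Algebra A F]
    [IsDedekindDomain (integralClosure A F)] [IsFractionRing (integralClosure A F) F]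
    (hK : ∀ a : K, ∃ b : integralClosure A F,
      algebraMap (integralClosure A F) F b = algebraMap K F a)
    (t : A) (ht : algebraMap A F t ≠ 0)
    (R M : Submodule K F) (hM : ∀ b : F, b ∈ M ↔ IsIntegral A b)
    (hR : ∀ b : F, b ∈ R → IsNilMod F A t b)
    (hB : ∀ v : Place K F, 0 < v.ord (algebraMap A F t) → ∀ b ∈ M, b ∈ v.toValuationSubring)
    [Module.Finite K (↥M ⧸ R.submoduleOf M)]
    [Finite {v : Place K F // 0 < v.ord (algebraMap A F t)}] :
    Nat.card {v : Place K F // 0 < v.ord (algebraMap A F t)} ≤ relDim R M := by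
  classical
  have := Fintype.ofFinite {v : Place K F // 0 < v.ord (algebraMap A F t)}
  -- the primes of the places
  have hP : ∀ v : {v : Place K F // 0 < v.ord (algebraMap A F t)},
      ∃ P : HeightOneSpectrum (integralClosure A F), v.1 = Places.ofPrime hK P := fun v =>
    Places.exists_eq_ofPrime hK v.1 (fun b => hB v.1 v.2 _ ((hM _).mpr b.2))
  choose P hP using hP
  have hPinj : Function.Injective P := by
    intro v w h
    apply Subtype.ext
    rw [hP v, hP w, h]
  set t' : integralClosure A F := algebraMap A (integralClosure A F) t with ht'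
  have ht'F : algebraMap (integralClosure A F) F t' = algebraMap A F t := rfl
  have ht'0 : t' ≠ 0 := by
    intro h0
    apply ht
    rw [← ht'F, h0, map_zero]
  have htP : ∀ v, t' ∈ (P v).asIdeal := fun v =>
    (Places.ord_pos_iff_mem hK (P v) ht'0).mp (by rw [← hP v, ht'F]; exact v.2)
  -- the Chinese remainder theorem
  have hcrt : ∀ j : {v : Place K F // 0 < v.ord (algebraMap A F t)},
      ∃ y : integralClosure A F, ∀ i, y - (if i = j then 1 else 0) ∈ (P i).asIdeal := by
    intro j
    obtain ⟨y, hy⟩ := IsDedekindDomain.exists_forall_sub_mem_ideal (s := Finset.univ)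
      (fun i => (P i).asIdeal) (fun _ => 1) (fun i _ => (P i).prime)
      (fun i _ i' _ hii' h => hii' (hPinj (HeightOneSpectrum.ext h)))
      (fun i => if i.1 = j then 1 else 0)
    refine ⟨y, fun i => ?_⟩
    have := hy i (Finset.mem_univ i)
    simpa using this
  choose y hy using hcrt
  rw [Nat.card_eq_fintype_card]
  refine card_le_relDim R M (fun j => ((y j : integralClosure A F) : F))
    (fun j => (hM _).mpr (y j).2) ?_
  intro c hc
  funext i
  by_contra hci
  have hci : c i ≠ 0 := hci
  obtain ⟨-, k, c', hc', hk⟩ := hR _ hc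
  set val := (P i).valuation F with hval
  -- constants have valuation one
  have hconst : ∀ a : K, a ≠ 0 → val (algebraMap K F a) = 1 := by
    intro a ha
    have h1 : val (algebraMap K F a) ≤ 1 := by
      obtain ⟨b, hb⟩ := hK a
      rw [← hb]
      exact (P i).valuation_le_one b
    have h2 : val (algebraMap K F a⁻¹) ≤ 1 := by
      obtain ⟨b, hb⟩ := hK a⁻¹
      rw [← hb]
      exact (P i).valuation_le_one b
    rw [map_inv₀, map_inv₀] at h2
    have hne : val (algebraMap K F a) ≠ 0 :=
      (Valuation.ne_zero_iff _).mpr (by simpa using ha)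
    have h3 : 1 ≤ val (algebraMap K F a) := (inv_le_one₀ (zero_lt_iff.mpr hne)).mp h2
    exact le_antisymm h1 h3
  have hconst_le : ∀ a : K, val (algebraMap K F a) ≤ 1 := by
    intro a
    obtain ⟨b, hb⟩ := hK a
    rw [← hb]
    exact (P i).valuation_le_one b
  set z : F := ∑ j, c j • ((y j : integralClosure A F) : F) with hz
  -- `z` has valuation `< 1`
  have hz1 : val z < 1 := by
    have h1 : val (z ^ k) < 1 := by
      rw [hk, map_mul]
      have ht1 : val (algebraMap A F t) < 1 := by
        rw [← ht'F]
        exact (HeightOneSpectrum.valuation_lt_one_iff_mem (K := F) (P i) t').mpr (htP i)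
      have hc1 : val c' ≤ 1 := (P i).valuation_le_one (⟨c', hc'⟩ : integralClosure A F)
      calc val (algebraMap A F t) * val c' ≤ val (algebraMap A F t) * 1 :=
            mul_le_mul_right hc1 _
        _ = val (algebraMap A F t) := mul_one _
        _ < 1 := ht1
    by_contra hge
    rw [not_lt] at hge
    rw [map_pow] at h1
    exact absurd (one_le_pow₀ hge) (not_le.mpr h1)
  -- `z - c i` has valuation `< 1`
  have hz2 : val (z - algebraMap K F (c i)) < 1 := by
    have e : z - algebraMap K F (c i) =
        ∑ j, algebraMap K F (c j) *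
          algebraMap (integralClosure A F) F (y j - (if i = j then 1 else 0)) := by
      rw [hz]
      have : algebraMap K F (c i) = ∑ j, algebraMap K F (c j) *
          algebraMap (integralClosure A F) F (if i = j then 1 else 0) := by
        rw [Finset.sum_eq_single i]
        · simp
        · intro j _ hji
          rw [if_neg (Ne.symm hji), map_zero, mul_zero]
        · intro h
          exact absurd (Finset.mem_univ i) h
      rw [this, ← Finset.sum_sub_distrib]
      refine Finset.sum_congr rfl fun j _ => ?_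
      rw [Algebra.smul_def, map_sub, mul_sub]
      rfl
    rw [e]
    refine Valuation.map_sum_lt val one_ne_zero fun j _ => ?_
    rw [map_mul]
    have h1 : val (algebraMap (integralClosure A F) F (y j - (if i = j then 1 else 0))) < 1 :=
      (HeightOneSpectrum.valuation_lt_one_iff_mem (K := F) (P i) _).mpr (hy j i)
    calc val (algebraMap K F (c j)) *
          val (algebraMap (integralClosure A F) F (y j - (if i = j then 1 else 0)))
        ≤ 1 * val (algebraMap (integralClosure A F) F (y j - (if i = j then 1 else 0))) :=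
          mul_le_mul_left (hconst_le (c j)) _
      _ = val (algebraMap (integralClosure A F) F (y j - (if i = j then 1 else 0))) := one_mul _
      _ < 1 := h1
  have h3 : val (algebraMap K F (c i)) < 1 := by
    have e : algebraMap K F (c i) = z - (z - algebraMap K F (c i)) := by ring
    rw [e]
    exact lt_of_le_of_lt (Valuation.map_sub _ _ _) (max_lt hz1 hz2)
  rw [hconst (c i) hci] at h3
  exact lt_irrefl _ h3

end Generic

section Wrapped

variable (K F : Type*) [Field K] [Field F] [Algebra K F]

/-- **C0-N1**: the number of zeros of `x - a` is at most `r_a`. -/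
theorem zeroCount_le_rFin [IsAlgClosed K] [CharZero K] (x : F) (hx : Transcendental K x)
    [FiniteDimensional K⟮x⟯ F] (a : K) :
    letI := Wrap.polyAlgebra (K := K) x
    letI := Wrap.ratAlgebra x hx
    haveI := Wrap.tower_poly (K := K) x
    haveI := (Wrap.tower_rat x hx).1
    haveI := (Wrap.tower_rat x hx).2
    zeroCount K (x - algebraMap K F a) ≤ rFin K F a := by
  letI := Wrap.polyAlgebra (K := K) x
  letI := Wrap.ratAlgebra x hx
  haveI := Wrap.tower_poly (K := K) x
  haveI := (Wrap.tower_rat x hx).1
  haveI := (Wrap.tower_rat x hx).2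
  obtain ⟨hfd, -⟩ := Wrap.finrank_eq x hx
  haveI := hfd
  haveI := Wrap.isSeparable x hx
  haveI : IsDedekindDomain (integralClosure K[X] F) :=
    integralClosure.isDedekindDomain K[X] (RatFunc K) F
  haveI : IsFractionRing (integralClosure K[X] F) F :=
    integralClosure.isFractionRing_of_finite_extension (RatFunc K) F
  have hK : ∀ c : K, ∃ b : integralClosure K[X] F,
      algebraMap (integralClosure K[X] F) F b = algebraMap K F c := fun c =>
    ⟨algebraMap K[X] (integralClosure K[X] F) (C c), by
      show algebraMap K[X] F (C c) = algebraMap K F c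
      rw [Wrap.algebraMap_poly_eq, aeval_C]⟩
  have ht : algebraMap K[X] F (X - C a) = x - algebraMap K F a := by
    rw [Wrap.algebraMap_poly_eq, map_sub, aeval_X, aeval_C]
  have ht0 : algebraMap K[X] F (X - C a) ≠ 0 := by
    rw [ht]
    intro h0
    apply hx
    rw [sub_eq_zero.mp h0]
    exact isAlgebraic_algebraMap a
  have hB : ∀ v : Place K F, 0 < v.ord (algebraMap K[X] F (X - C a)) →
      ∀ b ∈ B0K K F, b ∈ v.toValuationSubring := by
    intro v hv b hb
    rw [ht] at hv
    have hxa : x - algebraMap K F a ∈ v.toValuationSubring := Places.mem_of_ord_pos v hv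
    have hxv : x ∈ v.toValuationSubring := by
      have := add_mem hxa (v.algebraMap_mem' a)
      simpa using this
    have hp : ∀ p : K[X], algebraMap K[X] F p ∈ v.toValuationSubring := by
      intro p
      rw [Wrap.algebraMap_poly_eq]
      induction p using Polynomial.induction_on' with
      | add p q hp hq =>
        rw [map_add]
        exact add_mem hp hq
      | monomial n c =>
        rw [aeval_monomial]
        exact mul_mem (v.algebraMap_mem' c) (pow_mem hxv n)
    have hint : IsIntegral v.toValuationSubring b :=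
      IsIntegral.map_of_comp_eq
        ((algebraMap K[X] F).codRestrict v.toValuationSubring.toSubring hp) (RingHom.id F)
        (RingHom.ext fun p => rfl) ((mem_B0K K F).mp hb)
    obtain ⟨y, hy⟩ :=
      (IsIntegrallyClosed.isIntegral_iff (R := v.toValuationSubring) (K := F)).mp hint
    rw [← hy]
    exact y.2
  obtain ⟨φ, hφ⟩ := Adapt.exists_linearMap (K := K) (F := F) (A := K[X]) hK (X - C a) ht0
    (fun v => Places.algebraMap_residueField_surjective x v) (B0K K F) (fun b => Iff.rfl) hB
  haveI hfin : Finite {v : Place K F // 0 < v.ord (algebraMap K[X] F (X - C a))} := by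
    rw [ht]
    exact (Places.sum_ord_zeros_sub x hx a).1.to_subtype
  haveI : Module.Finite K (↥(B0K K F) ⧸ (Rad0 K F a).submoduleOf (B0K K F)) :=
    (relDim_le_of_ker_le (Rad0 K F a) (B0K K F) φ (fun b hb => hφ b hb)).1
  have h1 := card_le_relDim_of_places (K := K) (F := F) (A := K[X]) hK (X - C a) ht0
    (Rad0 K F a) (B0K K F) (fun b => Iff.rfl) (fun b hb => hb) hB
  have h2 : Nat.card {v : Place K F // 0 < v.ord (algebraMap K[X] F (X - C a))}
      = zeroCount K (x - algebraMap K F a) := by
    unfold zeroCount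
    rw [ht]
  rw [← h2]
  exact h1

/-- **C0-N1, equality form**: `r_a` is the number of zeros of `x - a`. -/
theorem rFin_eq_zeroCount [IsAlgClosed K] [CharZero K] (x : F) (hx : Transcendental K x)
    [FiniteDimensional K⟮x⟯ F] (a : K) :
    letI := Wrap.polyAlgebra (K := K) x
    letI := Wrap.ratAlgebra x hx
    haveI := Wrap.tower_poly (K := K) x
    haveI := (Wrap.tower_rat x hx).1
    haveI := (Wrap.tower_rat x hx).2
    rFin K F a = zeroCount K (x - algebraMap K F a) :=
  le_antisymm (rFin_le_zeroCount K F x hx a) (zeroCount_le_rFin K F x hx a)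

section Inst

variable [Algebra K[X] F] [Algebra (RatFunc K) F]
  [IsScalarTower K K[X] F] [IsScalarTower K[X] (RatFunc K) F] [IsScalarTower K (RatFunc K) F]

/-- **C0-N2**, instance form. -/
theorem zeroCount_le_rInf_aux [IsAlgClosed K] [CharZero K] [FiniteDimensional (RatFunc K) F]
    [Algebra.IsSeparable (RatFunc K) F] (x : F) (hxX : algebraMap K[X] F X = x)
    (hx : Transcendental K x) [FiniteDimensional K⟮x⟯ F] :
    zeroCount K x⁻¹ ≤ rInf K F := by
  have hx0 : x ≠ 0 := fun h0 => hx (h0 ▸ isAlgebraic_zero)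
  have hXinv : algebraMap (Oinf K) F (XinvO K) = x⁻¹ := by
    rw [IsScalarTower.algebraMap_apply (Oinf K) (RatFunc K) F]
    show algebraMap (RatFunc K) F (RatFunc.X)⁻¹ = _
    rw [map_inv₀, ← RatFunc.algebraMap_X, ← IsScalarTower.algebraMap_apply, hxX]
  haveI hDed : IsDedekindDomain (integralClosure (Oinf K) F) :=
    integralClosure.isDedekindDomain (Oinf K) (RatFunc K) F
  haveI hFrac : IsFractionRing (integralClosure (Oinf K) F) F :=
    integralClosure.isFractionRing_of_finite_extension (RatFunc K) F
  have hK : ∀ a : K, IsIntegral (Oinf K) (algebraMap K F a) := by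
    intro a
    rw [IsScalarTower.algebraMap_apply K (Oinf K) F]
    exact isIntegral_algebraMap
  have hK' : ∀ a : K, ∃ b : integralClosure (Oinf K) F,
      algebraMap (integralClosure (Oinf K) F) F b = algebraMap K F a := fun a => ⟨⟨_, hK a⟩, rfl⟩
  have ht0 : algebraMap (Oinf K) F (XinvO K) ≠ 0 := by
    rw [hXinv]
    exact inv_ne_zero hx0
  have hB : ∀ v : Place K F, 0 < v.ord (algebraMap (Oinf K) F (XinvO K)) →
      ∀ b ∈ BinfK K F, b ∈ v.toValuationSubring := by
    intro v hv b hb
    rw [hXinv] at hv
    have hlt := ((PlaceDict.ord_pos_iff v x⁻¹).mp hv).2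
    have hgt : 1 < v.adicValuation (algebraMap K[X] F X) := by
      rw [hxX]
      rw [map_inv₀] at hlt
      exact (inv_lt_one₀ (zero_lt_iff.mpr (v.adicValuation_ne_zero hx0))).mp hlt
    rw [PlaceDict.mem_iff_adicValuation_le_one]
    refine ValTame.val_le_one_of_isIntegral (A := Oinf K) (RingHom.id F) v.adicValuation
      (fun u => ?_) hb
    rw [RingHom.id_apply, IsScalarTower.algebraMap_apply (Oinf K) (RatFunc K) F,
      Val.algebraMap_rat_eq_eval₂]
    exact ValTame.val_ratfunc_le_one (algebraMap K F) v.adicValuation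
      (AdaptInf.adicValuation_algebraMap v) hgt (RatFunc.denom_ne_zero _)
      (Val.natDegree_le_of_mem_Oinf K u.2)
  haveI hfin : Finite {v : Place K F // 0 < v.ord (algebraMap (Oinf K) F (XinvO K))} := by
    rw [hXinv]
    exact (Places.sum_ord_zeros_of_eq x⁻¹ K⟮x⟯ (Places.adjoin_inv_eq x)
      (Places.transcendental_inv hx)).1.to_subtype
  obtain ⟨φ, hφ⟩ := Adapt.exists_linearMap (K := K) (F := F) (A := Oinf K) hK' (XinvO K) ht0
    (fun v => Places.algebraMap_residueField_surjective x v) (BinfK K F) (fun b => Iff.rfl) hB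
  haveI : Module.Finite K (↥(BinfK K F) ⧸ (RadInf K F).submoduleOf (BinfK K F)) :=
    (relDim_le_of_ker_le (RadInf K F) (BinfK K F) φ (fun b hb => hφ b hb)).1
  have h1 := card_le_relDim_of_places (K := K) (F := F) (A := Oinf K) hK' (XinvO K) ht0
    (RadInf K F) (BinfK K F) (fun b => Iff.rfl) (fun b hb => hb) hB
  have h2 : Nat.card {v : Place K F // 0 < v.ord (algebraMap (Oinf K) F (XinvO K))}
      = zeroCount K x⁻¹ := by
    unfold zeroCount
    rw [hXinv]
  rw [← h2]
  exact h1

end Inst

/-- **C0-N2**: the number of poles of `x` is at most `r_∞`. -/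
theorem zeroCount_le_rInf [IsAlgClosed K] [CharZero K] (x : F) (hx : Transcendental K x)
    [FiniteDimensional K⟮x⟯ F] :
    letI := Wrap.polyAlgebra (K := K) x
    letI := Wrap.ratAlgebra x hx
    haveI := Wrap.tower_poly (K := K) x
    haveI := (Wrap.tower_rat x hx).1
    haveI := (Wrap.tower_rat x hx).2
    zeroCount K x⁻¹ ≤ rInf K F := by
  let _ := Wrap.polyAlgebra (K := K) x
  let _ := Wrap.ratAlgebra x hx
  have := Wrap.tower_poly (K := K) x
  have := (Wrap.tower_rat x hx).1
  have := (Wrap.tower_rat x hx).2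
  have := (Wrap.finrank_eq x hx).1
  have := Wrap.isSeparable x hx
  exact zeroCount_le_rInf_aux K F x (Polynomial.aeval_X x) hx

/-- **C0-N2, equality form**: `r_∞` is the number of poles of `x`. -/
theorem rInf_eq_zeroCount [IsAlgClosed K] [CharZero K] (x : F) (hx : Transcendental K x)
    [FiniteDimensional K⟮x⟯ F] :
    letI := Wrap.polyAlgebra (K := K) x
    letI := Wrap.ratAlgebra x hx
    haveI := Wrap.tower_poly (K := K) x
    haveI := (Wrap.tower_rat x hx).1
    haveI := (Wrap.tower_rat x hx).2
    rInf K F = zeroCount K x⁻¹ :=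
  le_antisymm (rInf_le_zeroCount K F x hx) (zeroCount_le_rInf K F x hx)

end Wrapped

/-! ### The modular function field `FF L N` -/

section Modular

open CongruenceSubgroup

variable {L : Type*} [Field L] [Algebra ℚ L] [IsAlgClosed L]

private theorem count_aux (ι : L →+* ℂ) (N : ℕ) [NeZero N] {Ω : Type} [Field Ω]
    (w : Valuation Ω (WithZero (Multiplicative ℤ))) (y : ↥(FF L N))
    (hy : L⟮jElt L N⟯ = L⟮y⟯) (σ : Equiv.Perm (SL(2, ℤ) ⧸ Gamma0 N)) (m : ℕ)
    (dat : Nonempty (ValDatum L w y σ m)) :
    Module.finrank L⟮jElt L N⟯ ↥(FF L N) = Nat.card (SL(2, ℤ) ⧸ Gamma0 N) ∧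
      zeroCount L y = cyc σ := by
  obtain ⟨dat⟩ := dat
  haveI : CharZero L := algebraRat.charZero L
  have : Finite (SL(2, ℤ) ⧸ Gamma0 N) := Subgroup.finite_quotient_of_finiteIndex
  have hfin0 : FiniteDimensional L⟮jElt L N⟯ ↥(FF L N) := Degree.finiteDimensional ι N
  have hfin : FiniteDimensional L⟮y⟯ ↥(FF L N) := hy ▸ hfin0
  have e : Module.finrank L⟮y⟯ ↥(FF L N) = Module.finrank L⟮jElt L N⟯ ↥(FF L N) := by
    rw [hy]
  have hle : Module.finrank L⟮y⟯ ↥(FF L N) ≤ Nat.card (SL(2, ℤ) ⧸ Gamma0 N) := by
    rw [e]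
    exact Degree.finrank_le ι N
  have h := LocalCount.local_count w y hle σ m dat
  refine ⟨?_, h.2.1⟩
  rw [← e]
  exact h.1

/-- The degree of `FF L N` over `L(j)` is the index of `Γ₀(N)`. -/
theorem finrank_jElt (ι : L →+* ℂ) (N : ℕ) [NeZero N] :
    Module.finrank L⟮jElt L N⟯ ↥(FF L N) = Nat.card (SL(2, ℤ) ⧸ Gamma0 N) := by
  obtain ⟨Ω, _, w, winf, -, -, -, hinf⟩ := Data.exists_valDatum ι N
  exact (count_aux ι N winf (jElt L N)⁻¹ (Places.adjoin_inv_eq _) _ _ hinf).1

theorem zeroCount_zero (ι : L →+* ℂ) (N : ℕ) [NeZero N] :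
    zeroCount L (jElt L N - algebraMap L ↥(FF L N) 0) =
      cyc (cosetPerm N (ModularGroup.S * ModularGroup.T)) := by
  obtain ⟨Ω, _, w, winf, -, h0, -, -⟩ := Data.exists_valDatum ι N
  rw [(count_aux ι N (w 0) _ (Places.adjoin_sub_eq _ _) _ _ h0).2, Comb.cosetPerm_inv,
    Comb.cyc_inv]

theorem zeroCount_1728 (ι : L →+* ℂ) (N : ℕ) [NeZero N] :
    zeroCount L (jElt L N - algebraMap L ↥(FF L N) 1728) = cyc (cosetPerm N ModularGroup.S) := by
  obtain ⟨Ω, _, w, winf, -, -, h1, -⟩ := Data.exists_valDatum ι N
  rw [(count_aux ι N (w 1728) _ (Places.adjoin_sub_eq _ _) _ _ h1).2, Comb.cosetPerm_inv,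
    Comb.cyc_inv]

theorem zeroCount_inf (ι : L →+* ℂ) (N : ℕ) [NeZero N] :
    zeroCount L (jElt L N)⁻¹ = cyc (cosetPerm N ModularGroup.T) := by
  obtain ⟨Ω, _, w, winf, -, -, -, hinf⟩ := Data.exists_valDatum ι N
  rw [(count_aux ι N winf _ (Places.adjoin_inv_eq _) _ _ hinf).2, Comb.cosetPerm_inv,
    Comb.cyc_inv]

theorem zeroCount_generic (ι : L →+* ℂ) (N : ℕ) [NeZero N] (a : L) (h0 : a ≠ 0)
    (h1 : a ≠ 1728) :
    zeroCount L (jElt L N - algebraMap L ↥(FF L N) a) = Nat.card (SL(2, ℤ) ⧸ Gamma0 N) := by
  obtain ⟨Ω, _, w, winf, hgen, -, -, -⟩ := Data.exists_valDatum ι N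
  rw [(count_aux ι N (w a) _ (Places.adjoin_sub_eq _ _) _ _ (hgen a h0 h1)).2, Comb.cyc_one]

/-- **C0-N3**: the point counts of RR-lite for `FF L N` with coordinate `j`. -/
theorem rr_counts (ι : L →+* ℂ) (N : ℕ) [NeZero N] :
    letI := Wrap.polyAlgebra (K := L) (jElt L N)
    letI := Wrap.ratAlgebra (jElt L N) (DegreeCore.transcendental_jElt N)
    haveI := Wrap.tower_poly (K := L) (jElt L N)
    haveI := (Wrap.tower_rat (jElt L N) (DegreeCore.transcendental_jElt N)).1
    haveI := (Wrap.tower_rat (jElt L N) (DegreeCore.transcendental_jElt N)).2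
    Module.finrank (RatFunc L) ↥(FF L N) = Nat.card (SL(2, ℤ) ⧸ Gamma0 N) ∧
    (∀ a : L, a ≠ 0 → a ≠ 1728 →
      rFin L ↥(FF L N) a = Module.finrank (RatFunc L) ↥(FF L N)) ∧
    rFin L ↥(FF L N) 0 = cyc (cosetPerm N (ModularGroup.S * ModularGroup.T)) ∧
    rFin L ↥(FF L N) 1728 = cyc (cosetPerm N ModularGroup.S) ∧
    rInf L ↥(FF L N) = cyc (cosetPerm N ModularGroup.T) := by
  haveI : CharZero L := algebraRat.charZero L
  haveI : FiniteDimensional L⟮jElt L N⟯ ↥(FF L N) := Degree.finiteDimensional ι N
  have hx : Transcendental L (jElt L N) := DegreeCore.transcendental_jElt N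
  have hn := (Wrap.finrank_eq (jElt L N) hx).2
  refine ⟨?_, ?_, ?_, ?_, ?_⟩
  · rw [hn]
    exact finrank_jElt ι N
  · intro a h0 h1
    rw [hn, finrank_jElt ι N, ← zeroCount_generic ι N a h0 h1]
    exact rFin_eq_zeroCount L ↥(FF L N) (jElt L N) hx a
  · rw [← zeroCount_zero ι N]
    exact rFin_eq_zeroCount L ↥(FF L N) (jElt L N) hx 0
  · rw [← zeroCount_1728 ι N]
    exact rFin_eq_zeroCount L ↥(FF L N) (jElt L N) hx 1728
  · rw [← zeroCount_inf ι N]
    exact rInf_eq_zeroCount L ↥(FF L N) (jElt L N) hx

end Modular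

end Fermat.Agent.S18.C0N

end
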