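import Fermat.Agent.S20.RRLite.Main
import Fermat.Agent.S20.LB.Tame

/-!
# RR-lite, upper bound ("Theorem B") in the tame case

Same setting as `Fermat.Agent.S20.RRLite.theoremA`: `K` algebraically closed, `F` a finite
separable extension of `RatFunc K`.  If `K` has characteristic zero and `T` contains every
`a : K` over which `F` is ramified (`rFin K F a < n`), then

`2 dim_K Omega + 2 n + ∑_{a ∈ T} r_a + r_∞ ≤ 2 + (#T + 1) n`.

Together with `theoremA` this is the Riemann–Hurwitz formula for `dim_K Omega`.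
-/

set_option autoImplicit false
set_option linter.unusedSectionVars false

namespace Fermat.Agent.S18.RRU

open Polynomial Module Fermat.Agent.S20 Fermat.Agent.S20.RRLite

noncomputable section

/-! ### Generic facts on relative dimensions -/

section Generic

variable {K V : Type*} [Field K] [AddCommGroup V] [Module K V]

/-- Monotonicity of the relative dimension in the larger subspace. -/
theorem relDim_mono (M M' M₂ : Submodule K V) (h2 : M' ≤ M₂)
    [Module.Finite K (↥M₂ ⧸ M.submoduleOf M₂)] :
    Module.Finite K (↥M' ⧸ M.submoduleOf M') ∧ relDim M M' ≤ relDim M M₂ :=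
  relDim_le_relDim M M' M M₂ LinearMap.id (fun _ hf => h2 hf) (fun _ _ hf => hf)

/-- Additivity of the relative dimension along a chain `M ≤ M' ≤ M₂`. -/
theorem relDim_add (M M' M₂ : Submodule K V) (h1 : M ≤ M') (h2 : M' ≤ M₂)
    [Module.Finite K (↥M₂ ⧸ M.submoduleOf M₂)] :
    relDim M M₂ = relDim M M' + relDim M' M₂ := by
  have hle : M.submoduleOf M₂ ≤ M'.submoduleOf M₂ := fun f hf => h1 hf
  let φ : (↥M₂ ⧸ M.submoduleOf M₂) →ₗ[K] (↥M₂ ⧸ M'.submoduleOf M₂) :=
    Submodule.mapQ _ _ LinearMap.id hle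
  let θ : (↥M' ⧸ M.submoduleOf M') →ₗ[K] (↥M₂ ⧸ M.submoduleOf M₂) :=
    Submodule.mapQ _ _ (Submodule.inclusion h2) (fun f hf => hf)
  have hφs : Function.Surjective φ := by
    intro q
    obtain ⟨f, rfl⟩ := (M'.submoduleOf M₂).mkQ_surjective q
    exact ⟨(M.submoduleOf M₂).mkQ f, rfl⟩
  have hθi : Function.Injective θ := by
    rw [← LinearMap.ker_eq_bot, LinearMap.ker_eq_bot']
    intro q hq
    obtain ⟨f, rfl⟩ := (M.submoduleOf M').mkQ_surjective q
    change (M.submoduleOf M₂).mkQ (Submodule.inclusion h2 f) = 0 at hq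
    rw [Submodule.mkQ_apply, Submodule.Quotient.mk_eq_zero, mem_submoduleOf_iff] at hq
    rw [Submodule.mkQ_apply, Submodule.Quotient.mk_eq_zero, mem_submoduleOf_iff]
    exact hq
  have hker : LinearMap.ker φ = LinearMap.range θ := by
    apply le_antisymm
    · intro q hq
      obtain ⟨f, rfl⟩ := (M.submoduleOf M₂).mkQ_surjective q
      rw [LinearMap.mem_ker] at hq
      change (M'.submoduleOf M₂).mkQ f = 0 at hq
      rw [Submodule.mkQ_apply, Submodule.Quotient.mk_eq_zero, mem_submoduleOf_iff] at hq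
      exact ⟨(M.submoduleOf M').mkQ ⟨f, hq⟩, rfl⟩
    · rintro _ ⟨q, rfl⟩
      obtain ⟨f, rfl⟩ := (M.submoduleOf M').mkQ_surjective q
      rw [LinearMap.mem_ker]
      change (M'.submoduleOf M₂).mkQ (Submodule.inclusion h2 f) = 0
      rw [Submodule.mkQ_apply, Submodule.Quotient.mk_eq_zero, mem_submoduleOf_iff]
      exact f.2
  have e1 := LinearMap.finrank_range_add_finrank_ker φ
  have e2 : finrank K (LinearMap.range φ) = finrank K (↥M₂ ⧸ M'.submoduleOf M₂) := by
    rw [LinearMap.range_eq_top.mpr hφs, finrank_top]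
  have e3 : finrank K (LinearMap.range θ) = finrank K (↥M' ⧸ M.submoduleOf M') :=
    LinearMap.finrank_range_of_inj hθi
  rw [hker] at e1
  unfold relDim
  omega

/-- A vanishing relative dimension forces an inclusion. -/
theorem le_of_relDim_eq_zero (M M' : Submodule K V)
    [Module.Finite K (↥M' ⧸ M.submoduleOf M')] (h : relDim M M' = 0) : M' ≤ M := by
  intro y hy
  have hsub : Subsingleton (↥M' ⧸ M.submoduleOf M') := Module.finrank_zero_iff.mp h
  have h0 : (M.submoduleOf M').mkQ ⟨y, hy⟩ = 0 := Subsingleton.elim _ _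
  rwa [Submodule.mkQ_apply, Submodule.Quotient.mk_eq_zero, mem_submoduleOf_iff] at h0

/-- An ideal of `K[X]` having, for every point, an element not vanishing there, is the unit
ideal. -/
theorem ideal_eq_top_of_forall_eval_ne [IsAlgClosed K] (I : Ideal K[X])
    (h : ∀ b : K, ∃ s ∈ I, s.eval b ≠ 0) : I = ⊤ := by
  obtain ⟨g, rfl⟩ : ∃ g : K[X], I = Ideal.span {g} :=
    ⟨_, (Ideal.span_singleton_generator I).symm⟩
  by_cases hdeg : g.degree = 0
  · rw [Ideal.span_singleton_eq_top]
    exact Polynomial.isUnit_iff_degree_eq_zero.mpr hdeg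
  · exfalso
    obtain ⟨b, hb⟩ := IsAlgClosed.exists_root g hdeg
    obtain ⟨s, hs, hsb⟩ := h b
    rw [Ideal.mem_span_singleton] at hs
    obtain ⟨q, rfl⟩ := hs
    apply hsb
    rw [eval_mul, hb.eq_zero, zero_mul]

end Generic

/-! ### The sublattice `t B` -/

section SmulInt

variable (K F : Type*) [Field K] [Field F] [Algebra K F]

/-- `t B`, for `B` the integral closure of `A` in `F`, as a `K`-subspace of `F`. -/
def smulInt (A : Type*) [CommRing A] [Algebra K A] [Algebra A F] [IsScalarTower K A F] (t : A) :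
    Submodule K F where
  carrier := {y | ∃ z : F, IsIntegral A z ∧ y = algebraMap A F t * z}
  add_mem' := by
    rintro _ _ ⟨z₁, h₁, rfl⟩ ⟨z₂, h₂, rfl⟩
    exact ⟨z₁ + z₂, h₁.add h₂, by ring⟩
  zero_mem' := ⟨0, isIntegral_zero, by simp⟩
  smul_mem' := by
    rintro c _ ⟨z, hz, rfl⟩
    refine ⟨algebraMap A F (algebraMap K A c) * z, isIntegral_algebraMap.mul hz, ?_⟩
    rw [Algebra.smul_def, IsScalarTower.algebraMap_apply K A F]
    ring

variable {K F}

theorem mem_smulInt {A : Type*} [CommRing A] [Algebra K A] [Algebra A F] [IsScalarTower K A F]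
    {t : A} {y : F} :
    y ∈ smulInt K F A t ↔ ∃ z : F, IsIntegral A z ∧ y = algebraMap A F t * z := Iff.rfl

theorem isNilMod_of_mem_smulInt {A : Type*} [CommRing A] [Algebra K A] [Algebra A F]
    [IsScalarTower K A F] {t : A} {y : F} (hy : y ∈ smulInt K F A t) : IsNilMod F A t y := by
  obtain ⟨z, hz, rfl⟩ := hy
  exact ⟨isIntegral_algebraMap.mul hz, 1, z, hz, by rw [pow_one]⟩

variable (K F)

/-- `dim_K B / t B = [F : Frac A]` when `(t)` is maximal with residue field `K`. -/
theorem relDim_smulInt_eq (A E : Type*) [CommRing A] [IsDedekindDomain A] [Field E] [Algebra A E]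
    [IsFractionRing A E] [Algebra E F] [Algebra K A] [Algebra A F] [IsScalarTower K A F]
    [IsScalarTower A E F] [FiniteDimensional E F] [Algebra.IsSeparable E F]
    (t : A) [hmax : (Ideal.span {t}).IsMaximal]
    (hres : ∀ a : A, ∃ c : K, a - algebraMap K A c ∈ Ideal.span {t})
    (BK : Submodule K F) (hB : ∀ b, b ∈ BK ↔ IsIntegral A b) :
    Module.Finite K (↥BK ⧸ (smulInt K F A t).submoduleOf BK) ∧
      relDim (smulInt K F A t) BK = finrank E F := by
  let ψ : ↥BK →ₗ[K] (↥(integralClosure A F) ⧸
      (Ideal.span {t}).map (algebraMap A (integralClosure A F))) :=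
    { toFun := fun b => Ideal.Quotient.mk _ ⟨(b : F), (hB _).mp b.2⟩
      map_add' := fun b c => by
        rw [← map_add]; rfl
      map_smul' := fun c b => by
        have h : (⟨((c • b : BK) : F), (hB _).mp (c • b).2⟩ : integralClosure A F) =
            c • (⟨(b : F), (hB _).mp b.2⟩ : integralClosure A F) := Subtype.ext rfl
        rw [RingHom.id_apply, h]
        rfl }
  have hs : Function.Surjective ψ := by
    intro q
    obtain ⟨b, rfl⟩ := Ideal.Quotient.mk_surjective q
    exact ⟨⟨(b : F), (hB _).mpr b.2⟩, rfl⟩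
  have hk : ∀ f : BK, ψ f = 0 ↔ (f : F) ∈ smulInt K F A t := by
    intro f
    change Ideal.Quotient.mk _ (⟨(f : F), (hB _).mp f.2⟩ : integralClosure A F) = 0 ↔ _
    rw [Ideal.Quotient.eq_zero_iff_mem, Ideal.map_span, Set.image_singleton,
      Ideal.mem_span_singleton', mem_smulInt]
    constructor
    · rintro ⟨z, hz⟩
      refine ⟨(z : F), z.2, ?_⟩
      have := congrArg (fun w : integralClosure A F => (w : F)) hz
      simp only [MulMemClass.coe_mul] at this
      rw [← this, mul_comm]
      rfl
    · rintro ⟨z, hz, hfz⟩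
      refine ⟨⟨z, hz⟩, ?_⟩
      apply Subtype.ext
      simp only [MulMemClass.coe_mul]
      rw [hfz, mul_comm]
      rfl
  have h1 := relDim_eq_of_surjective (smulInt K F A t) BK ψ hs hk
  have h2 := LB.Radical.finrank_quotient_map_eq K A E F (integralClosure A F) (Ideal.span {t}) hres
  rw [h2] at h1
  refine ⟨?_, h1⟩
  apply Module.finite_of_finrank_pos
  change 0 < relDim (smulInt K F A t) BK
  rw [h1]
  exact Module.finrank_pos

end SmulInt

/-! ### The function-field setting -/

section Main

variable (K F : Type*) [Field K] [Field F] [Algebra K F] [Algebra K[X] F] [Algebra (RatFunc K) F]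
  [IsScalarTower K K[X] F] [IsScalarTower K[X] (RatFunc K) F] [IsScalarTower K (RatFunc K) F]

variable {K F} in
omit [Algebra K[X] F] [IsScalarTower K K[X] F] [IsScalarTower K[X] (RatFunc K) F] in
/-- `dim_K (Binf / X⁻² Binf) = 2 n`. -/
theorem relDim_shift_eq {ι : Type*} [Fintype ι] [DecidableEq ι] (u : Basis ι (RatFunc K) F) :
    relDim (Linf K (shift u)) (Linf K u) = 2 * Fintype.card ι := by
  let ψ : ↥(Linf K u) →ₗ[K] (ι → K × K) :=
    (LinearMap.pi fun i => ((coeffInf K 0).prod (coeffInf K 1)) ∘ₗ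
      ((Finsupp.lapply i ∘ₗ u.repr.toLinearMap).restrictScalars K)) ∘ₗ (Linf K u).subtype
  have hψ : ∀ (f : Linf K u) (i : ι), ψ f i =
      ((expInf K (u.repr (f : F) i)).coeff 0, (expInf K (u.repr (f : F) i)).coeff 1) :=
    fun f i => rfl
  have hC : ∀ c : K, RatFunc.C c ∈ Oinf K := fun c => by
    rw [← RatFunc.algebraMap_eq_C]
    exact (Oinf K).algebraMap_mem c
  have hs : Function.Surjective ψ := by
    intro w
    let c : ι → RatFunc K := fun i =>
      RatFunc.C (w i).1 + RatFunc.C (w i).2 * (RatFunc.X)⁻¹ ^ 1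
    have hc : ∀ i, u.repr (u.equivFun.symm c) i = c i := by
      intro i
      have h := congrFun (u.equivFun.apply_symm_apply c) i
      rwa [Basis.equivFun_apply] at h
    have hmem : u.equivFun.symm c ∈ Linf K u := by
      rw [mem_Linf]
      intro i
      rw [hc]
      exact (Oinf K).add_mem (hC _) ((Oinf K).mul_mem (hC _) (X_inv_pow_mem_Oinf K 1))
    refine ⟨⟨_, hmem⟩, ?_⟩
    funext i
    rw [hψ]
    change ((expInf K (u.repr (u.equivFun.symm c) i)).coeff 0,
      (expInf K (u.repr (u.equivFun.symm c) i)).coeff 1) = w i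
    rw [hc]
    have e : expInf K (c i) = HahnSeries.single (0 : ℤ) (w i).1 +
        HahnSeries.single (1 : ℤ) (w i).2 := by
      change expInf K (RatFunc.C (w i).1 + RatFunc.C (w i).2 * (RatFunc.X)⁻¹ ^ 1) = _
      rw [map_add, expInf_C, expInf_C_mul_X_inv_pow, HahnSeries.C_apply]
      rfl
    rw [e]
    apply Prod.ext
    · simp
    · simp
  have hk : ∀ f : Linf K u, ψ f = 0 ↔ (f : F) ∈ Linf K (shift u) := by
    intro f
    rw [mem_Linf_shift]
    constructor
    · intro hf i
      rw [X_pow_mul_mem_Oinf_iff]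
      intro m hm
      have hi := congrFun hf i
      rw [hψ] at hi
      have hf' := (mem_Linf K).mp f.2 i
      rcases lt_trichotomy m 0 with h | h | h
      · exact hf' m h
      · subst h; exact (Prod.ext_iff.mp hi).1
      · have : m = 1 := by push_cast at hm; omega
        subst this; exact (Prod.ext_iff.mp hi).2
    · intro hf
      funext i
      rw [hψ]
      have h2 := (X_pow_mul_mem_Oinf_iff K 2 _).mp (hf i)
      rw [h2 0 (by norm_num), h2 1 (by norm_num)]
      rfl
  rw [relDim_eq_of_surjective _ _ ψ hs hk, Module.finrank_pi_fintype]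
  simp [mul_comm]

section Chain

variable [FiniteDimensional (RatFunc K) F] [Algebra.IsSeparable (RatFunc K) F]

omit [Algebra K F] [Algebra K[X] F] [Algebra (RatFunc K) F] [IsScalarTower K K[X] F]
  [IsScalarTower K[X] (RatFunc K) F] [IsScalarTower K (RatFunc K) F]
  [FiniteDimensional (RatFunc K) F] [Algebra.IsSeparable (RatFunc K) F] in
theorem span_X_sub_C_isMaximal (a : K) : (Ideal.span {(X - C a : K[X])}).IsMaximal :=
  PrincipalIdealRing.isMaximal_of_irreducible (Polynomial.irreducible_X_sub_C a)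

omit [Algebra K F] [Algebra K[X] F] [Algebra (RatFunc K) F] [IsScalarTower K K[X] F]
  [IsScalarTower K[X] (RatFunc K) F] [IsScalarTower K (RatFunc K) F]
  [FiniteDimensional (RatFunc K) F] [Algebra.IsSeparable (RatFunc K) F] in
theorem span_XinvO_isMaximal : (Ideal.span {XinvO K}).IsMaximal :=
  PrincipalIdealRing.isMaximal_of_irreducible (irreducible_XinvO K)

/-- `dim rad((X-a)B0) / (X-a)B0 + r_a = n`. -/
theorem relDim_fin_add (a : K) :
    Module.Finite K (↥(Rad0 K F a) ⧸ (smulInt K F K[X] (X - C a)).submoduleOf (Rad0 K F a)) ∧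
    relDim (smulInt K F K[X] (X - C a)) (Rad0 K F a) + rFin K F a = finrank (RatFunc K) F := by
  have := span_X_sub_C_isMaximal (K := K) a
  obtain ⟨hfin, hn⟩ := relDim_smulInt_eq K F K[X] (RatFunc K) (X - C a) (fun p => ⟨p.eval a, by
      rw [Ideal.mem_span_singleton, Polynomial.dvd_iff_isRoot]
      simp⟩) (B0K K F) (fun _ => Iff.rfl)
  have h1 : smulInt K F K[X] (X - C a) ≤ Rad0 K F a := fun y hy => isNilMod_of_mem_smulInt hy
  have h2 : Rad0 K F a ≤ B0K K F := fun y hy => hy.1
  have h3 := relDim_add _ _ _ h1 h2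
  rw [hn] at h3
  refine ⟨(relDim_mono _ _ _ h2).1, ?_⟩
  rw [rFin]
  omega

/-- `dim rad(X⁻¹Binf) / X⁻¹Binf + r_∞ = n`. -/
theorem relDim_inf_add :
    Module.Finite K (↥(RadInf K F) ⧸
      (smulInt K F (Oinf K) (XinvO K)).submoduleOf (RadInf K F)) ∧
    relDim (smulInt K F (Oinf K) (XinvO K)) (RadInf K F) + rInf K F = finrank (RatFunc K) F := by
  have := span_XinvO_isMaximal K
  obtain ⟨hfin, hn⟩ := relDim_smulInt_eq K F (Oinf K) (RatFunc K) (XinvO K)
    (fun a => exists_sub_mem_span_XinvO K a) (BinfK K F) (fun _ => Iff.rfl)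
  have h1 : smulInt K F (Oinf K) (XinvO K) ≤ RadInf K F := fun y hy => isNilMod_of_mem_smulInt hy
  have h2 : RadInf K F ≤ BinfK K F := fun y hy => hy.1
  have h3 := relDim_add _ _ _ h1 h2
  rw [hn] at h3
  refine ⟨(relDim_mono _ _ _ h2).1, ?_⟩
  rw [rInf]
  omega

end Chain

section Tame

variable [FiniteDimensional (RatFunc K) F] [Algebra.IsSeparable (RatFunc K) F] [CharZero K]

variable {K F} {ι : Type*} [Fintype ι] [DecidableEq ι]

theorem algebraMap_poly_ne_zero {p : K[X]} (hp : p ≠ 0) : algebraMap K[X] F p ≠ 0 := by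
  rw [IsScalarTower.algebraMap_apply K[X] (RatFunc K) F]
  intro h
  have h1 := (algebraMap (RatFunc K) F).injective (h.trans (map_zero _).symm)
  exact hp (IsFractionRing.injective K[X] (RatFunc K) (h1.trans (map_zero _).symm))

/-- Tameness at a finite point: for `h` in the trace dual of `B0` there is `s` with `s(b) ≠ 0`
and `s (X - b) h ∈ rad((X - b) B0)`. -/
theorem exists_mul_mem_Rad0 (e : Basis ι (RatFunc K) F) (he : L0 K e = B0K K F) {h : F}
    (hh : h ∈ L0 K e.traceDual) (b : K) :
    ∃ s : K[X], s.eval b ≠ 0 ∧ algebraMap K[X] F (s * (X - C b)) * h ∈ Rad0 K F b := by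
  set p : Ideal K[X] := Ideal.span {X - C b} with hp
  have hmax : p.IsMaximal := span_X_sub_C_isMaximal K b
  have hp0 : p ≠ ⊥ := by
    rw [hp, Ne, Ideal.span_singleton_eq_bot]
    exact Polynomial.X_sub_C_ne_zero b
  have hchar : ∀ n : ℕ, n ≠ 0 → (n : K[X]) ∉ p := by
    intro n hn hmem
    have hunit : IsUnit (n : K[X]) := by
      have : (n : K[X]) = C (n : K) := by simp
      rw [this]
      exact Polynomial.isUnit_C.mpr (IsUnit.mk0 _ (Nat.cast_ne_zero.mpr hn))
    exact hmax.ne_top (Ideal.eq_top_of_isUnit_mem _ hmem hunit)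
  have htame := LB.Tame.exists_smul_mem_radical K[X] (RatFunc K) F
    (integralClosure K[X] F) p hp0 hchar h (fun β => by
      have hβ : (β : F) ∈ L0 K e := by
        rw [he]
        exact β.2
      obtain ⟨q, hq⟩ := trace_mem_of_mem_L0 K e hh hβ
      exact ⟨q, hq⟩)
  obtain ⟨s, hs, hsπ⟩ := htame
  refine ⟨s, fun h0 => hs ?_, ?_⟩
  · rw [hp, Ideal.mem_span_singleton, Polynomial.dvd_iff_isRoot]
    exact h0
  · obtain ⟨β, hβ, hβe⟩ := hsπ (X - C b) (Ideal.mem_span_singleton_self _)
    rw [mem_Rad0, isNilMod_iff]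
    refine ⟨β, hβe.symm, ?_⟩
    rwa [hp, Ideal.map_span, Set.image_singleton] at hβ

/-- Tameness at infinity: `X g ∈ rad(X⁻¹ Binf)` for `g` in `X⁻²` times the trace dual of
`Binf`. -/
theorem X_mul_mem_RadInf (u : Basis ι (RatFunc K) F) (hu : Linf K u = BinfK K F) {g : F}
    (hg : g ∈ Linf K (twist K u)) : algebraMap (RatFunc K) F RatFunc.X * g ∈ RadInf K F := by
  set p : Ideal (Oinf K) := Ideal.span {XinvO K} with hp
  have hmax : p.IsMaximal := span_XinvO_isMaximal K
  have hp0 : p ≠ ⊥ := by
    rw [hp, Ne, Ideal.span_singleton_eq_bot]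
    exact XinvO_ne_zero K
  have hchar : ∀ n : ℕ, n ≠ 0 → (n : Oinf K) ∉ p := by
    intro n hn hmem
    have hunit : IsUnit (n : Oinf K) := by
      have : (n : Oinf K) = algebraMap K (Oinf K) (n : K) := by simp
      rw [this]
      exact (IsUnit.mk0 _ (Nat.cast_ne_zero.mpr hn)).map _
    exact hmax.ne_top (Ideal.eq_top_of_isUnit_mem _ hmem hunit)
  have htr : ∀ β : integralClosure (Oinf K) F,
      Algebra.trace (RatFunc K) F (algebraMap (RatFunc K) F (RatFunc.X ^ 2) * g *
        algebraMap (integralClosure (Oinf K) F) F β) ∈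
          (algebraMap (Oinf K) (RatFunc K)).range := by
    intro β
    have hβ : (β : F) ∈ Linf K u := by
      rw [hu]
      exact β.2
    have h1 := X_sq_mul_trace_mem_of_mem_Linf K u hg hβ
    refine ⟨⟨_, h1⟩, ?_⟩
    change RatFunc.X ^ 2 * Algebra.trace (RatFunc K) F (g * β) = _
    rw [mul_assoc, ← Algebra.smul_def, map_smul, smul_eq_mul]
    rfl
  have htame := LB.Tame.exists_smul_mem_radical (Oinf K) (RatFunc K) F
    (integralClosure (Oinf K) F) p hp0 hchar (algebraMap (RatFunc K) F (RatFunc.X ^ 2) * g) htr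
  obtain ⟨s, hs, hsπ⟩ := htame
  obtain ⟨β, hβ, hβe⟩ := hsπ (XinvO K) (Ideal.mem_span_singleton_self _)
  have hsu : IsUnit s := by
    by_contra hns
    apply hs
    rw [IsLocalRing.eq_maximalIdeal hmax]
    exact (IsLocalRing.mem_maximalIdeal s).mpr hns
  obtain ⟨t, ht⟩ := hsu.exists_left_inv
  rw [mem_RadInf, isNilMod_iff]
  refine ⟨algebraMap (Oinf K) (integralClosure (Oinf K) F) t * β, ?_,
    Ideal.mul_mem_left _ _ (by rwa [hp, Ideal.map_span, Set.image_singleton] at hβ)⟩
  have hX : algebraMap (Oinf K) F (XinvO K) = algebraMap (RatFunc K) F (RatFunc.X)⁻¹ := by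
    rw [IsScalarTower.algebraMap_apply (Oinf K) (RatFunc K) F]
    rfl
  have hts : algebraMap (Oinf K) F t * algebraMap (Oinf K) F s = 1 := by
    rw [← map_mul, ht, map_one]
  have hXX : algebraMap (RatFunc K) F (RatFunc.X)⁻¹ * algebraMap (RatFunc K) F (RatFunc.X ^ 2) =
      algebraMap (RatFunc K) F RatFunc.X := by
    rw [← map_mul]
    congr 1
    field_simp
  change algebraMap (Oinf K) F t * algebraMap (integralClosure (Oinf K) F) F β = _
  rw [← hβe, map_mul, hX]
  calc algebraMap (Oinf K) F t * (algebraMap (Oinf K) F s * algebraMap (RatFunc K) F (RatFunc.X)⁻¹ *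
        (algebraMap (RatFunc K) F (RatFunc.X ^ 2) * g))
      = (algebraMap (Oinf K) F t * algebraMap (Oinf K) F s) *
        (algebraMap (RatFunc K) F (RatFunc.X)⁻¹ * algebraMap (RatFunc K) F (RatFunc.X ^ 2)) * g := by
        ring
    _ = algebraMap (RatFunc K) F RatFunc.X * g := by rw [hts, hXX, one_mul]

/-- The different at infinity is at most tame. -/
theorem relDim_shift_twist_le (u : Basis ι (RatFunc K) F) (hu : Linf K u = BinfK K F) :
    relDim (Linf K (shift u)) (Linf K (twist K u)) ≤
      relDim (smulInt K F (Oinf K) (XinvO K)) (RadInf K F) := by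
  have hfin := (relDim_inf_add K F).1
  let ψ : F →ₗ[K] F := LinearMap.mulLeft K (algebraMap (RatFunc K) F RatFunc.X)
  refine (relDim_le_relDim (Linf K (shift u)) (Linf K (twist K u))
    (smulInt K F (Oinf K) (XinvO K)) (RadInf K F) ψ ?_ ?_).2
  · intro f hf
    exact X_mul_mem_RadInf u hu hf
  · intro f _ hf
    obtain ⟨z, hz, hfz⟩ := hf
    have hzL : z ∈ Linf K u := by
      rw [hu]
      exact hz
    have hX : algebraMap (Oinf K) F (XinvO K) = algebraMap (RatFunc K) F (RatFunc.X)⁻¹ := by
      rw [IsScalarTower.algebraMap_apply (Oinf K) (RatFunc K) F]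
      rfl
    have hinv : algebraMap (RatFunc K) F (RatFunc.X)⁻¹ * algebraMap (RatFunc K) F RatFunc.X = 1 := by
      rw [← map_mul, inv_mul_cancel₀ RatFunc.X_ne_zero, map_one]
    have hfz' : algebraMap (RatFunc K) F RatFunc.X * f =
        algebraMap (RatFunc K) F (RatFunc.X)⁻¹ * z := by
      rw [← hX]
      exact hfz
    have hf2 : f = ((RatFunc.X : RatFunc K)⁻¹ ^ 2) • z := by
      rw [Algebra.smul_def, map_pow, pow_two, mul_assoc, ← hfz', ← mul_assoc, hinv, one_mul]
    have hXX : (RatFunc.X : RatFunc K) ^ 2 * (RatFunc.X)⁻¹ ^ 2 = 1 := by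
      rw [← mul_pow, mul_inv_cancel₀ RatFunc.X_ne_zero, one_pow]
    rw [mem_Linf_shift]
    intro i
    rw [hf2, map_smul, Finsupp.smul_apply, smul_eq_mul, ← mul_assoc, hXX, one_mul]
    exact (mem_Linf K).mp hzL i

variable (K F) in
/-- The quotient `rad((X - a) B0) / (X - a) B0`, bundled as a type so that products of these
quotients over a finite set of points are handled smoothly by instance search. -/
def QRad (a : K) : Type _ :=
  ↥(Rad0 K F a) ⧸ (smulInt K F K[X] (X - C a)).submoduleOf (Rad0 K F a)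

instance QRad.instAddCommGroup (a : K) : AddCommGroup (QRad K F a) :=
  Submodule.Quotient.addCommGroup _

instance QRad.instModule (a : K) : Module K (QRad K F a) :=
  Submodule.Quotient.module _

instance QRad.instFinite (a : K) : Module.Finite K (QRad K F a) :=
  (relDim_fin_add K F a).1

theorem QRad.finrank_eq (a : K) :
    finrank K (QRad K F a) = relDim (smulInt K F K[X] (X - C a)) (Rad0 K F a) := rfl

/-- The finite different is at most tame: if `T` contains all ramified points then
`dim B0^∨ / B0 ≤ ∑_{a ∈ T} dim rad((X-a)B0) / (X-a)B0`. -/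
theorem relDim_L0_traceDual_le [IsAlgClosed K] (e : Basis ι (RatFunc K) F)
    (he : L0 K e = B0K K F) (T : Finset K)
    (hT : ∀ a : K, a ∉ T → rFin K F a = finrank (RatFunc K) F) :
    relDim (L0 K e) (L0 K e.traceDual) ≤
      ∑ a ∈ T, relDim (smulInt K F K[X] (X - C a)) (Rad0 K F a) := by
  classical
  set P : K[X] := ∏ a ∈ T, (X - C a) with hP
  have hPa : ∀ a ∈ T, P = (X - C a) * ∏ c ∈ T.erase a, (X - C c) := fun a ha =>
    (Finset.mul_prod_erase T (fun c => X - C c) ha).symm
  have hint : ∀ q : K[X], IsIntegral K[X] (algebraMap K[X] F q) := fun q => isIntegral_algebraMap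
  have hsm : ∀ (a : K) (q : K[X]) (z : F), IsIntegral K[X] z →
      algebraMap K[X] F ((X - C a) * q) * z ∈ Rad0 K F a := by
    intro a q z hz
    apply isNilMod_of_mem_smulInt (K := K)
    exact ⟨algebraMap K[X] F q * z, (hint q).mul hz, by rw [map_mul, mul_assoc]⟩
  -- key claim: `P h` lies in `B0` and in every `rad((X - a) B0)`, `a ∈ T`
  have key : ∀ h ∈ L0 K e.traceDual, IsIntegral K[X] (algebraMap K[X] F P * h) ∧
      ∀ a ∈ T, algebraMap K[X] F P * h ∈ Rad0 K F a := by
    intro h hh
    let I : Ideal K[X] :=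
      { carrier := {s | IsIntegral K[X] (algebraMap K[X] F (s * P) * h) ∧
          ∀ a ∈ T, algebraMap K[X] F (s * P) * h ∈ Rad0 K F a}
        add_mem' := by
          rintro s₁ s₂ ⟨h1, h1'⟩ ⟨h2, h2'⟩
          have e0 : algebraMap K[X] F ((s₁ + s₂) * P) * h =
              algebraMap K[X] F (s₁ * P) * h + algebraMap K[X] F (s₂ * P) * h := by
            rw [add_mul, map_add, add_mul]
          refine ⟨?_, fun a ha => ?_⟩
          · rw [e0]
            exact h1.add h2
          · rw [e0]
            exact (Rad0 K F a).add_mem (h1' a ha) (h2' a ha)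
        zero_mem' := by
          have e0 : algebraMap K[X] F (0 * P) * h = 0 := by rw [zero_mul, map_zero, zero_mul]
          refine ⟨?_, fun a _ => ?_⟩
          · rw [e0]
            exact isIntegral_zero
          · rw [e0]
            exact (Rad0 K F a).zero_mem
        smul_mem' := by
          rintro c s ⟨h1, h1'⟩
          have e0 : algebraMap K[X] F (c • s * P) * h =
              algebraMap K[X] F c * (algebraMap K[X] F (s * P) * h) := by
            rw [smul_eq_mul, mul_assoc, map_mul, mul_assoc]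
          refine ⟨?_, fun a ha => ?_⟩
          · rw [e0]
            exact (hint c).mul h1
          · rw [e0]
            exact (mem_Rad0 K F).mpr (IsNilMod.mul_left F ((mem_Rad0 K F).mp (h1' a ha)) (hint c)) }
    have hItop : I = ⊤ := by
      apply ideal_eq_top_of_forall_eval_ne
      intro b
      obtain ⟨s, hsb, hsR⟩ := exists_mul_mem_Rad0 e he hh b
      refine ⟨s, ?_, hsb⟩
      by_cases hbT : b ∈ T
      · have e0 : s * P = (∏ c ∈ T.erase b, (X - C c)) * (s * (X - C b)) := by
          rw [hPa b hbT]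
          ring
        have e1 : algebraMap K[X] F (s * P) * h = algebraMap K[X] F (∏ c ∈ T.erase b, (X - C c)) *
            (algebraMap K[X] F (s * (X - C b)) * h) := by
          rw [e0, map_mul, mul_assoc]
        refine ⟨?_, fun a ha => ?_⟩
        · rw [e1]
          exact (hint _).mul ((mem_Rad0 K F).mp hsR).1
        · rw [e1]
          by_cases hab : a = b
          · subst hab
            exact (mem_Rad0 K F).mpr (IsNilMod.mul_left F ((mem_Rad0 K F).mp hsR) (hint _))
          · obtain ⟨q, hq⟩ := Finset.dvd_prod_of_mem (fun c => X - C c)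
              (Finset.mem_erase.mpr ⟨hab, ha⟩)
            rw [hq]
            exact hsm a q _ ((mem_Rad0 K F).mp hsR).1
      · have hfinb := (relDim_fin_add K F b).1
        have hzero : relDim (smulInt K F K[X] (X - C b)) (Rad0 K F b) = 0 := by
          have h3 := (relDim_fin_add K F b).2
          rw [hT b hbT] at h3
          omega
        obtain ⟨z, hz, hzβ⟩ := le_of_relDim_eq_zero _ _ hzero hsR
        have hsz : algebraMap K[X] F s * h = z := by
          have hne : algebraMap K[X] F (X - C b) ≠ 0 :=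
            algebraMap_poly_ne_zero (Polynomial.X_sub_C_ne_zero b)
          apply mul_left_cancel₀ hne
          rw [← hzβ, map_mul]
          ring
        have e1 : algebraMap K[X] F (s * P) * h = algebraMap K[X] F P * z := by
          rw [← hsz, map_mul]
          ring
        refine ⟨?_, fun a ha => ?_⟩
        · rw [e1]
          exact (hint _).mul hz
        · rw [e1, hPa a ha]
          exact hsm a _ z hz
    have h1 : (1 : K[X]) ∈ I := by
      rw [hItop]
      trivial
    obtain ⟨h1a, h1b⟩ := h1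
    rw [one_mul] at h1a
    refine ⟨h1a, fun a ha => ?_⟩
    have h2 := h1b a ha
    rwa [one_mul] at h2
  let μ : ↥(L0 K e.traceDual) →ₗ[K] F :=
    (LinearMap.mulLeft K (algebraMap K[X] F P)).comp (L0 K e.traceDual).subtype
  have hμ : ∀ (a : T) (h : ↥(L0 K e.traceDual)), μ h ∈ Rad0 K F (a : K) :=
    fun a h => (key (h : F) h.2).2 (a : K) a.2
  let fa : (a : T) → (↥(L0 K e.traceDual) →ₗ[K] QRad K F (a : K)) := fun a =>
    ((smulInt K F K[X] (X - C (a : K))).submoduleOf (Rad0 K F (a : K))).mkQ.comp
      (LinearMap.codRestrict (Rad0 K F (a : K)) μ (hμ a))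
  let ψ : ↥(L0 K e.traceDual) →ₗ[K] ((a : T) → QRad K F (a : K)) := LinearMap.pi fa
  have hker : ∀ h : ↥(L0 K e.traceDual), ψ h = 0 → (h : F) ∈ L0 K e := by
    intro h hh0
    have hmem : ∀ a ∈ T, algebraMap K[X] F P * (h : F) ∈ smulInt K F K[X] (X - C a) := by
      intro a ha
      have h3 := congrFun hh0 ⟨a, ha⟩
      change ((smulInt K F K[X] (X - C a)).submoduleOf (Rad0 K F a)).mkQ
        ⟨algebraMap K[X] F P * (h : F), (key (h : F) h.2).2 a ha⟩ = 0 at h3
      rwa [Submodule.mkQ_apply, Submodule.Quotient.mk_eq_zero, mem_submoduleOf_iff] at h3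
    rw [he, mem_B0K]
    let J : Ideal K[X] :=
      { carrier := {s | IsIntegral K[X] (algebraMap K[X] F s * (h : F))}
        add_mem' := by
          intro s₁ s₂ h1 h2
          change IsIntegral K[X] (algebraMap K[X] F (s₁ + s₂) * (h : F))
          rw [map_add, add_mul]
          exact h1.add h2
        zero_mem' := by
          change IsIntegral K[X] (algebraMap K[X] F 0 * (h : F))
          rw [map_zero, zero_mul]
          exact isIntegral_zero
        smul_mem' := by
          intro c s h1
          change IsIntegral K[X] (algebraMap K[X] F (c • s) * (h : F))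
          rw [smul_eq_mul, map_mul, mul_assoc]
          exact (hint c).mul h1 }
    have hJ : J = ⊤ := by
      apply ideal_eq_top_of_forall_eval_ne
      intro b
      by_cases hbT : b ∈ T
      · refine ⟨∏ c ∈ T.erase b, (X - C c), ?_, ?_⟩
        · obtain ⟨z, hz, hzP⟩ := hmem b hbT
          have h4 : algebraMap K[X] F (∏ c ∈ T.erase b, (X - C c)) * (h : F) = z := by
            apply mul_left_cancel₀ (algebraMap_poly_ne_zero (F := F)
              (Polynomial.X_sub_C_ne_zero b))
            rw [← hzP, hPa b hbT, map_mul]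
            ring
          change IsIntegral K[X] (algebraMap K[X] F (∏ c ∈ T.erase b, (X - C c)) * (h : F))
          rw [h4]
          exact hz
        · rw [Polynomial.eval_prod, Finset.prod_ne_zero_iff]
          intro c hc
          simp only [eval_sub, eval_X, eval_C]
          exact sub_ne_zero.mpr (Finset.ne_of_mem_erase hc).symm
      · refine ⟨P, (key h h.2).1, ?_⟩
        rw [hP, Polynomial.eval_prod, Finset.prod_ne_zero_iff]
        intro c hc
        simp only [eval_sub, eval_X, eval_C]
        exact sub_ne_zero.mpr (fun hbc => hbT (hbc ▸ hc))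
    have h1 : (1 : K[X]) ∈ J := by
      rw [hJ]
      trivial
    have h1' : IsIntegral K[X] (algebraMap K[X] F 1 * (h : F)) := h1
    rwa [map_one, one_mul] at h1'
  have hψ := relDim_le_of_ker_le (L0 K e) (L0 K e.traceDual) ψ hker
  have h2 := hψ.2
  rw [Module.finrank_pi_fintype] at h2
  rw [← Finset.sum_coe_sort T (fun a => relDim (smulInt K F K[X] (X - C a)) (Rad0 K F a))]
  exact h2

end Tame

section Final

variable [FiniteDimensional (RatFunc K) F] [Algebra.IsSeparable (RatFunc K) F]

/-- **THEOREM B** (RR-lite upper bound, tame case): if `T` contains every point of `K` over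
which `F` is ramified, then `2 dim Omega + 2 n + ∑_{a ∈ T} r_a + r_∞ ≤ 2 + (#T + 1) n`. -/
theorem theoremB [IsAlgClosed K] [CharZero K] (T : Finset K)
    (hT : ∀ a : K, a ∉ T → rFin K F a = finrank (RatFunc K) F) :
    2 * finrank K (Omega K F) + 2 * finrank (RatFunc K) F + ∑ a ∈ T, rFin K F a + rInf K F
      ≤ 2 + (T.card + 1) * finrank (RatFunc K) F := by
  obtain ⟨n, e, he⟩ := exists_basis_B0 K F
  obtain ⟨m, u, hu⟩ := exists_basis_Binf K F
  obtain ⟨hΩ, g1, g3, hid⟩ := main_identity e u he hu
  have hm : finrank (RatFunc K) F = m := by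
    rw [Module.finrank_eq_card_basis u, Fintype.card_fin]
  have hshift := relDim_shift_eq u
  rw [Fintype.card_fin] at hshift
  have hb := relDim_L0_traceDual_le e he T hT
  have hc := relDim_shift_twist_le u hu
  have hinf := (relDim_inf_add K F).2
  have hsum : ∑ a ∈ T, relDim (smulInt K F K[X] (X - C a)) (Rad0 K F a) + ∑ a ∈ T, rFin K F a =
      T.card * finrank (RatFunc K) F := by
    rw [← Finset.sum_add_distrib, Finset.sum_congr rfl (fun a _ => (relDim_fin_add K F a).2),
      Finset.sum_const, smul_eq_mul]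
  have hmul : (T.card + 1) * finrank (RatFunc K) F =
      T.card * finrank (RatFunc K) F + finrank (RatFunc K) F := by ring
  rw [hmul]
  omega

end Final

end Main

end

end Fermat.Agent.S18.RRU
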