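import Fermat.Agent.S18.C0H
import Fermat.Agent.S18.C0L
import Fermat.Agent.S18.C0N
import Fermat.Agent.S18.RRUpper
import Fermat.Agent.S24.Comb.Count

/-!
# S18, chain C0, piece F: Riemann's inequality with the classical genus (characteristic zero)

For the function field `FF L N` of `X₀(N)` over an algebraically closed field `L` of
characteristic zero embedded in `ℂ` (in particular for `modularFunctionFieldBar N` over `ℚ̄`):

* `omega_le`: `dim_L Omega ≤ genusFormula N` (tame upper bound `RRU.theoremB` for `T = {0, 1728}`,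
  point counts `C0N.rr_counts`, numerics of `S24.Comb`);
* `riemann_omega`: `deg D + 1 - dim_L Omega ≤ ℓ(D)` for every divisor `D` (lattice Riemann
  `C0L.riemann_pole` + `C0H.riemann_of_lattice`);
* **`riemann_FF`, `riemann_char0`**: `deg D + 1 - genusFormula N ≤ ℓ(D)`;
* `exists_genusLE`, `exists_genusLE_bar`: the same with an integer constant `g ≤ genusFormula N`
  (the shape of `S18.GenusLE`).
-/

set_option autoImplicit false

noncomputable section

namespace Fermat.Agent.S18.C0F

open AlgebraicCurve Module ModularCurve IntermediateField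
open scoped MatrixGroups
open Fermat.Agent.S20.RR Fermat.Agent.S20.RRLite Fermat.Agent.S20 Fermat.Agent.S24

/-- Numerics of the genus bound. -/
theorem genus_le_of_counts (N : ℕ) [NeZero N] (g n r0 r1728 rinf : ℕ)
    (hn : n ≤ Nat.card (SL(2, ℤ) ⧸ CongruenceSubgroup.Gamma0 N))
    (hB : 2 * g + 2 * n + (r0 + r1728) + rinf ≤ 2 + 3 * n)
    (h0 : cyc (cosetPerm N (ModularGroup.S * ModularGroup.T)) ≤ r0)
    (h1728 : cyc (cosetPerm N ModularGroup.S) ≤ r1728)
    (hinf : cyc (cosetPerm N ModularGroup.T) ≤ rinf) :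
    (g : ℚ) ≤ genusFormula N := by
  have hS := Comb.cyc_S N
  have hST := Comb.cyc_ST N
  have hT := Comb.cyc_T N
  rw [Comb.card_coset N] at hn
  set cS := cyc (cosetPerm N ModularGroup.S) with hcS
  set cT := cyc (cosetPerm N ModularGroup.T) with hcT
  set cST := cyc (cosetPerm N (ModularGroup.S * ModularGroup.T)) with hcST
  have hk : 2 * g + cST + cS + cT ≤ 2 + dedekindPsi N := by omega
  have e1 : (2 : ℚ) * g + cST + cS + cT ≤ 2 + dedekindPsi N := by exact_mod_cast hk
  have e2 : (2 : ℚ) * cS = dedekindPsi N + nuTwo N := by exact_mod_cast hS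
  have e3 : (3 : ℚ) * cST = dedekindPsi N + 2 * nuThree N := by exact_mod_cast hST
  have e4 : (cT : ℚ) = cuspCount N := by exact_mod_cast hT
  unfold genusFormula
  rw [← e4]
  linarith

variable {L : Type*} [Field L] [Algebra ℚ L] [IsAlgClosed L]

/-- The space of regular differentials of `FF L N` (with respect to the coordinate `j`) has
dimension at most `genusFormula N`. -/
theorem omega_le (ι : L →+* ℂ) (N : ℕ) [NeZero N] :
    (finrank L ↥(LB.Val.OmegaX (jElt L N) (DegreeCore.transcendental_jElt N)) : ℚ)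
      ≤ genusFormula N := by
  classical
  have : CharZero L := algebraRat.charZero L
  have : FiniteDimensional L⟮jElt L N⟯ ↥(FF L N) := Degree.finiteDimensional ι N
  have hx : Transcendental L (jElt L N) := DegreeCore.transcendental_jElt N
  let _ := Wrap.polyAlgebra (K := L) (jElt L N)
  let _ := Wrap.ratAlgebra (jElt L N) hx
  have := Wrap.tower_poly (K := L) (jElt L N)
  have := (Wrap.tower_rat (jElt L N) hx).1
  have := (Wrap.tower_rat (jElt L N) hx).2
  have := (Wrap.finrank_eq (jElt L N) hx).1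
  have := Wrap.isSeparable (jElt L N) hx
  obtain ⟨hn, hgen, h0, h1728, hinf⟩ := C0N.rr_counts ι N
  have h1728ne : (0 : L) ≠ 1728 := by norm_num
  have hB := RRU.theoremB L ↥(FF L N) ({0, 1728} : Finset L) (by
    intro a ha
    simp only [Finset.mem_insert, Finset.mem_singleton, not_or] at ha
    exact hgen a ha.1 ha.2)
  rw [Finset.sum_pair h1728ne, Finset.card_pair h1728ne] at hB
  exact genus_le_of_counts N (finrank L ↥(Omega L ↥(FF L N))) (finrank (RatFunc L) ↥(FF L N))
    (rFin L ↥(FF L N) 0) (rFin L ↥(FF L N) 1728) (rInf L ↥(FF L N)) (le_of_eq hn) hB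
    (le_of_eq h0.symm) (le_of_eq h1728.symm) (le_of_eq hinf.symm)

/-- Riemann's inequality for `FF L N` with the constant `dim_L Omega`. -/
theorem riemann_omega (ι : L →+* ℂ) (N : ℕ) [NeZero N] (D : Divisor L ↥(FF L N)) :
    Divisor.degree D + 1
        - (finrank L ↥(LB.Val.OmegaX (jElt L N) (DegreeCore.transcendental_jElt N)) : ℤ)
      ≤ (ell D : ℤ) := by
  have : CharZero L := algebraRat.charZero L
  have : FiniteDimensional L⟮jElt L N⟯ ↥(FF L N) := Degree.finiteDimensional ι N
  have hx : Transcendental L (jElt L N) := DegreeCore.transcendental_jElt N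
  obtain ⟨J, hJ⟩ := C0L.exists_pole (jElt L N) hx
  have hpos : 0 < finrank L⟮jElt L N⟯ ↥(FF L N) := Module.finrank_pos
  exact C0H.riemann_of_lattice (C0H.hyp0_FF ι N) (finrank L⟮jElt L N⟯ ↥(FF L N))
    (finrank L ↥(LB.Val.OmegaX (jElt L N) hx)) hpos J (C0L.pole_nonneg hJ)
    (le_of_eq (C0L.degree_pole_eq (jElt L N) hx hJ)) (C0L.riemann_pole (jElt L N) hx J hJ) D

/-- **C0**, integer form: Riemann's inequality for `FF L N` with an integer constant
`g ≤ genusFormula N`. -/
theorem exists_genusLE (ι : L →+* ℂ) (N : ℕ) [NeZero N] :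
    ∃ g : ℕ, (g : ℚ) ≤ genusFormula N ∧
      ∀ D : Divisor L ↥(FF L N), Divisor.degree D + 1 - (g : ℤ) ≤ (ell D : ℤ) :=
  ⟨_, omega_le ι N, riemann_omega ι N⟩

/-- **C0**: Riemann's inequality for `FF L N` with the classical genus. -/
theorem riemann_FF (ι : L →+* ℂ) (N : ℕ) [NeZero N] (D : Divisor L ↥(FF L N)) :
    (Divisor.degree D : ℚ) + 1 - genusFormula N
      ≤ (Module.finrank L (riemannRochSpace D) : ℚ) := by
  obtain ⟨g, hg, h⟩ := exists_genusLE ι N
  have h3 : ((Divisor.degree D + 1 - g : ℤ) : ℚ) ≤ ((ell D : ℤ) : ℚ) := by exact_mod_cast h D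
  have h4 : ((ell D : ℕ) : ℚ) = (Module.finrank L (riemannRochSpace D) : ℚ) := rfl
  push_cast at h3
  linarith

/-- **C0**, integer form, for the frozen function field `modularFunctionFieldBar N` over `ℚ̄`
(this is `S18.GenusLE Qb (FN N) g` for a natural number `g ≤ genusFormula N`). -/
theorem exists_genusLE_bar (N : ℕ) [NeZero N] :
    ∃ g : ℕ, (g : ℚ) ≤ genusFormula N ∧
      ∀ D : Divisor (AlgebraicClosure ℚ) ↥(modularFunctionFieldBar N),
        Divisor.degree D + 1 - (g : ℤ) ≤ (ell D : ℤ) := by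
  obtain ⟨ι, -⟩ := C0H.exists_embedding
  exact exists_genusLE ι N

/-- **C0**: Riemann's inequality with the classical genus for `modularFunctionFieldBar N`. -/
theorem riemann_char0 (N : ℕ) [NeZero N]
    (D : Divisor (AlgebraicClosure ℚ) ↥(modularFunctionFieldBar N)) :
    (Divisor.degree D : ℚ) + 1 - genusFormula N
      ≤ (Module.finrank (AlgebraicClosure ℚ) (riemannRochSpace D) : ℚ) := by
  obtain ⟨ι, -⟩ := C0H.exists_embedding
  exact riemann_FF ι N D

end Fermat.Agent.S18.C0F

end
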