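import Mathlib

/-!
# S18, chain CL, piece CL1 (abstract core): Gauss-type valuations on a rational function field

Setting: a field `L` with a valuation subring `A` and a ring map `res : A → k` to a field `k`
(the residue map), a field extension `E / L` with a valuation subring `V` such that `V ∩ L = A`,
and a ring homomorphism `rho : V → K'` into a field `K'` over `k`, compatible with `res` and
killing exactly the non-units of `V` (so `rho` is "the" residue map of `V`).

* `rho_mem_adjoin` : if `y ∈ V` has `rho y` transcendental over `k`, then the residue of every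
  element of `L(y) ∩ V` lies in `k(rho y)`.
* `exists_transcendental_generator` : if `L` is algebraically closed, `E = L(x)`, every nonzero
  element of `E` has a scalar multiple which is a unit of `V`, and some `w ∈ V` has transcendental
  residue, then there are `a, c ∈ L`, `c ≠ 0`, such that `y = c (x - a) ∈ V` has transcendental
  residue; in particular `rho V ⊆ k(rho y)`: the residue field of `V` is rational.

Mathlib only.
-/

set_option autoImplicit false

namespace Fermat.Agent.S18.CLRat

open Polynomial IntermediateField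

variable {L E k K' : Type*} [Field L] [Field E] [Algebra L E] [Field k] [Field K'] [Algebra k K']

/-- A nonzero polynomial over the fraction field of a valuation ring is a constant times a
polynomial over the valuation ring with a coefficient equal to `1`. -/
theorem exists_normalised (A : ValuationSubring L) (P : L[X]) (hP : P ≠ 0) :
    ∃ (c : L) (p : Polynomial A) (n : ℕ), c ≠ 0 ∧ P = C c * p.map A.subtype ∧ p.coeff n = 1 := by
  classical
  obtain ⟨n, hn, hmax⟩ := P.support.exists_max_image (fun m => A.valuation (P.coeff m))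
    (by rwa [Polynomial.support_nonempty])
  have hc : P.coeff n ≠ 0 := Polynomial.mem_support_iff.mp hn
  have hmem : ∀ m, (C (P.coeff n)⁻¹ * P).coeff m ∈ A := by
    intro m
    rw [Polynomial.coeff_C_mul, ← A.valuation_le_one_iff, map_mul, map_inv₀]
    by_cases hm : m ∈ P.support
    · exact inv_mul_le_one_of_le₀ (hmax m hm) zero_le
    · rw [Polynomial.notMem_support_iff.mp hm, map_zero, mul_zero]
      exact zero_le
  have hl : C (P.coeff n)⁻¹ * P ∈ Polynomial.lifts A.subtype := by
    rw [Polynomial.lifts_iff_coeff_lifts]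
    intro m
    exact ⟨⟨_, hmem m⟩, rfl⟩
  obtain ⟨p, hp⟩ := hl
  refine ⟨P.coeff n, p, n, hc, ?_, ?_⟩
  · have hp' : p.map A.subtype = C (P.coeff n)⁻¹ * P := hp
    rw [hp', ← mul_assoc, ← C_mul, mul_inv_cancel₀ hc, C_1, one_mul]
  · apply Subtype.ext
    have hp' : p.map A.subtype = C (P.coeff n)⁻¹ * P := hp
    have h1 : A.subtype (p.coeff n) = (p.map A.subtype).coeff n := (Polynomial.coeff_map _ _).symm
    rw [hp', Polynomial.coeff_C_mul, inv_mul_cancel₀ hc] at h1
    exact h1

section Main

variable (A : ValuationSubring L) (res : A →+* k) (V : ValuationSubring E)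
  (hVA : ∀ c : L, algebraMap L E c ∈ V ↔ c ∈ A) (rho : V →+* K')

/-- The inclusion `A → V`. -/
def toV : A →+* V :=
  RingHom.codRestrict ((algebraMap L E).comp A.subtype) V (fun a => (hVA a).mpr a.2)

omit [Field k] in
theorem coe_toV (a : A) : ((toV A V hVA a : V) : E) = algebraMap L E (a : L) := rfl

omit [Field k] in
theorem coe_eval₂_toV (p : Polynomial A) (y : V) :
    ((p.eval₂ (toV A V hVA) y : V) : E) = aeval (y : E) (p.map A.subtype) := by
  have h := Polynomial.hom_eval₂ p (toV A V hVA) V.subtype y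
  have h2 : V.subtype.comp (toV A V hVA) = (algebraMap L E).comp A.subtype := rfl
  rw [h2] at h
  rw [Polynomial.aeval_def, Polynomial.eval₂_map]
  exact h

variable (hrho : ∀ a : A, rho (toV A V hVA a) = algebraMap k K' (res a))

include hrho in
theorem rho_eval₂_toV (p : Polynomial A) (y : V) :
    rho (p.eval₂ (toV A V hVA) y) = aeval (rho y) (p.map res) := by
  have h2 : rho.comp (toV A V hVA) = (algebraMap k K').comp res := RingHom.ext hrho
  rw [Polynomial.hom_eval₂, h2, Polynomial.aeval_def, Polynomial.eval₂_map]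

include hrho in
/-- A normalised polynomial in an element with transcendental residue has nonzero residue. -/
theorem rho_eval₂_ne_zero (p : Polynomial A) (n : ℕ) (hn : p.coeff n = 1) (y : V)
    (hy : Transcendental k (rho y)) : rho (p.eval₂ (toV A V hVA) y) ≠ 0 := by
  rw [rho_eval₂_toV A res V hVA rho hrho]
  intro h0
  have hne : p.map res ≠ 0 := by
    intro h
    have := congrArg (fun q => q.coeff n) h
    simp only [Polynomial.coeff_map, hn, map_one, Polynomial.coeff_zero] at this
    exact one_ne_zero this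
  exact hy ⟨p.map res, hne, h0⟩

variable (hunit : ∀ x : V, rho x ≠ 0 → IsUnit x)

include hrho hunit in
/-- **Gauss valuation of a rational function field**: if `rho y` is transcendental over `k`, the
residue of every element of `L(y) ∩ V` lies in `k(rho y)`. -/
theorem rho_mem_adjoin (y : V) (hy : Transcendental k (rho y)) (f : V)
    (hf : (f : E) ∈ L⟮(y : E)⟯) : rho f ∈ k⟮rho y⟯ := by
  obtain ⟨P, Q, hPQ⟩ := (IntermediateField.mem_adjoin_simple_iff L (f : E)).mp hf
  by_cases hP : P = 0
  · have hf0 : f = 0 := by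
      apply Subtype.ext
      rw [hPQ, hP, map_zero, zero_div]; rfl
    rw [hf0, map_zero]; exact zero_mem _
  by_cases hQ : aeval (y : E) Q = 0
  · have hf0 : f = 0 := by
      apply Subtype.ext
      rw [hPQ, hQ, div_zero]; rfl
    rw [hf0, map_zero]; exact zero_mem _
  have hQ0 : Q ≠ 0 := by
    rintro rfl
    exact hQ (map_zero _)
  obtain ⟨cP, p, n, hcP, hPp, hn⟩ := exists_normalised A P hP
  obtain ⟨cQ, q, m, hcQ, hQq, hm⟩ := exists_normalised A Q hQ0
  set zP : V := p.eval₂ (toV A V hVA) y with hzP
  set zQ : V := q.eval₂ (toV A V hVA) y with hzQ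
  have hzP0 : rho zP ≠ 0 := rho_eval₂_ne_zero A res V hVA rho hrho p n hn y hy
  have hzQ0 : rho zQ ≠ 0 := rho_eval₂_ne_zero A res V hVA rho hrho q m hm y hy
  obtain ⟨uP, huP⟩ := hunit zP hzP0
  have hPy : aeval (y : E) P = algebraMap L E cP * (zP : E) := by
    rw [hzP, coe_eval₂_toV, hPp, map_mul, Polynomial.aeval_C]
  have hQy : aeval (y : E) Q = algebraMap L E cQ * (zQ : E) := by
    rw [hzQ, coe_eval₂_toV, hQq, map_mul, Polynomial.aeval_C]
  have hzQE : (zQ : E) ≠ 0 := by
    intro h
    apply hQ
    rw [hQy, h, mul_zero]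
  have hzPE : (zP : E) ≠ 0 := by
    intro h
    apply hzP0
    have : zP = 0 := Subtype.ext h
    rw [this, map_zero]
  have hcQE : algebraMap L E cQ ≠ 0 := by
    rw [Ne, map_eq_zero_iff _ (algebraMap L E).injective]; exact hcQ
  -- the key relation in `E`
  have hrel : (f : E) * (zQ : E) = algebraMap L E (cP / cQ) * (zP : E) := by
    rw [hPQ, hPy, hQy, map_div₀]
    field_simp
  -- the constant lies in `A`
  have hcA : cP / cQ ∈ A := by
    rw [← hVA]
    have h1 : algebraMap L E (cP / cQ) = ((f * zQ * (↑uP⁻¹ : V) : V) : E) := by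
      have h2 : ((zP * (↑uP⁻¹ : V) : V) : E) = 1 := by
        rw [← huP, Units.mul_inv]; rfl
      have h3 : (zP : E) * ((↑uP⁻¹ : V) : E) = 1 := h2
      calc algebraMap L E (cP / cQ) = algebraMap L E (cP / cQ) * ((zP : E) * ((↑uP⁻¹ : V) : E)) := by
            rw [h3, mul_one]
        _ = ((f : E) * (zQ : E)) * ((↑uP⁻¹ : V) : E) := by rw [hrel]; ring
        _ = ((f * zQ * (↑uP⁻¹ : V) : V) : E) := rfl
    rw [h1]
    exact (f * zQ * (↑uP⁻¹ : V)).2
  have hrelV : f * zQ = toV A V hVA ⟨cP / cQ, hcA⟩ * zP := Subtype.ext hrel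
  have hrho' : rho f * rho zQ = algebraMap k K' (res ⟨cP / cQ, hcA⟩) * rho zP := by
    rw [← map_mul, hrelV, map_mul, hrho]
  have hfin : rho f = algebraMap k K' (res ⟨cP / cQ, hcA⟩) * rho zP / rho zQ := by
    rw [eq_div_iff hzQ0, hrho']
  rw [hfin, hzP, hzQ, rho_eval₂_toV A res V hVA rho hrho, rho_eval₂_toV A res V hVA rho hrho]
  refine div_mem (mul_mem (IntermediateField.algebraMap_mem _ _) ?_) ?_
  · rw [IntermediateField.mem_adjoin_simple_iff]
    exact ⟨p.map res, 1, by simp⟩
  · rw [IntermediateField.mem_adjoin_simple_iff]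
    exact ⟨q.map res, 1, by simp⟩

end Main

section Generator

variable (A : ValuationSubring L) (res : A →+* k) (V : ValuationSubring E)
  (hVA : ∀ c : L, algebraMap L E c ∈ V ↔ c ∈ A) (rho : V →+* K')
  (hrho : ∀ a : A, rho (toV A V hVA a) = algebraMap k K' (res a))
  (hunit : ∀ x : V, rho x ≠ 0 → IsUnit x)

include hrho in
/-- Constants have algebraic residues. -/
theorem isAlgebraic_rho_of_mem_bot (w : V)
    (hw : (w : E) ∈ (⊥ : IntermediateField L E)) : IsAlgebraic k (rho w) := by
  obtain ⟨b, hb⟩ := IntermediateField.mem_bot.mp hw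
  have hbA : b ∈ A := by
    rw [← hVA, hb]; exact w.2
  have hwb : w = toV A V hVA ⟨b, hbA⟩ := Subtype.ext hb.symm
  rw [hwb, hrho]
  exact isAlgebraic_algebraMap _

include hrho in
/-- If `z₁ * w = C * z₂` with `z₁, z₂` units of `V` with algebraic residues and `C ∈ L`, then the
residue of `w` is algebraic. -/
theorem isAlgebraic_rho_of_rel (w z₁ z₂ : V) (hz₁ : IsUnit z₁) (hz₂ : IsUnit z₂)
    (ha₁ : IsAlgebraic k (rho z₁)) (ha₂ : IsAlgebraic k (rho z₂)) (c : L)
    (hrel : (w : E) * (z₁ : E) = algebraMap L E c * (z₂ : E)) : IsAlgebraic k (rho w) := by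
  obtain ⟨u₂, hu₂⟩ := hz₂
  have hcA : c ∈ A := by
    rw [← hVA]
    have h3 : (z₂ : E) * ((↑u₂⁻¹ : V) : E) = 1 := by
      have h2 : ((z₂ * (↑u₂⁻¹ : V) : V) : E) = 1 := by
        rw [← hu₂, Units.mul_inv]; rfl
      exact h2
    have h1 : algebraMap L E c = ((w * z₁ * (↑u₂⁻¹ : V) : V) : E) := by
      calc algebraMap L E c = algebraMap L E c * ((z₂ : E) * ((↑u₂⁻¹ : V) : E)) := by
            rw [h3, mul_one]
        _ = ((w : E) * (z₁ : E)) * ((↑u₂⁻¹ : V) : E) := by rw [hrel]; ring
        _ = ((w * z₁ * (↑u₂⁻¹ : V) : V) : E) := rfl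
    rw [h1]
    exact (w * z₁ * (↑u₂⁻¹ : V)).2
  have hrelV : w * z₁ = toV A V hVA ⟨c, hcA⟩ * z₂ := Subtype.ext hrel
  have hz₁0 : rho z₁ ≠ 0 := (hz₁.map rho).ne_zero
  have hrho' : rho w * rho z₁ = algebraMap k K' (res ⟨c, hcA⟩) * rho z₂ := by
    rw [← map_mul, hrelV, map_mul, hrho]
  have hfin : rho w = algebraMap k K' (res ⟨c, hcA⟩) * rho z₂ * (rho z₁)⁻¹ := by
    rw [eq_mul_inv_iff_mul_eq₀ hz₁0, hrho']
  rw [hfin]
  exact ((isAlgebraic_algebraMap _).mul ha₂).mul ha₁.inv

variable (hscale : ∀ g : E, g ≠ 0 → ∃ c : L, c ≠ 0 ∧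
  ∃ h : algebraMap L E c * g ∈ V, rho ⟨algebraMap L E c * g, h⟩ ≠ 0)

include hunit hscale in
/-- A product of linear factors `x - a` is a constant times a unit of `V` with algebraic residue,
as soon as every normalised linear factor has algebraic residue. -/
theorem exists_prod_eq (x : E) (hxL : ∀ a : L, x - algebraMap L E a ≠ 0)
    (halg : ∀ (a c : L) (h : algebraMap L E c * (x - algebraMap L E a) ∈ V), c ≠ 0 →
      IsAlgebraic k (rho ⟨algebraMap L E c * (x - algebraMap L E a), h⟩))
    (s : Multiset L) :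
    ∃ (d : L) (z : V), d ≠ 0 ∧ IsUnit z ∧ IsAlgebraic k (rho z) ∧
      (s.map (fun a => x - algebraMap L E a)).prod = algebraMap L E d * (z : E) := by
  induction s using Multiset.induction_on with
  | empty =>
    refine ⟨1, 1, one_ne_zero, isUnit_one, ?_, ?_⟩
    · rw [map_one]; exact isAlgebraic_one
    · simp
  | cons a s ih =>
    obtain ⟨d, z, hd, hz, hza, hprod⟩ := ih
    obtain ⟨c, hc, h, hne⟩ := hscale (x - algebraMap L E a) (hxL a)
    set t : V := ⟨algebraMap L E c * (x - algebraMap L E a), h⟩ with ht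
    refine ⟨c⁻¹ * d, t * z, mul_ne_zero (inv_ne_zero hc) hd, (hunit t hne).mul hz, ?_, ?_⟩
    · rw [map_mul]
      exact (halg a c h hc).mul hza
    · rw [Multiset.map_cons, Multiset.prod_cons, hprod]
      have hcE : algebraMap L E c ≠ 0 := by
        rw [Ne, map_eq_zero_iff _ (algebraMap L E).injective]; exact hc
      have htE : ((t * z : V) : E) = algebraMap L E c * (x - algebraMap L E a) * (z : E) := rfl
      rw [htE, map_mul, map_inv₀]
      field_simp

include hrho hunit hscale in
/-- **Normalisation**: if `L` is algebraically closed, `E = L(x)` and some element of `V` has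
transcendental residue, then a scalar multiple `c (x - a)` of a linear polynomial in `x` lies in
`V` and has transcendental residue. -/
theorem exists_transcendental_linear [IsAlgClosed L] (x : E) (hx : L⟮x⟯ = ⊤) (w : V)
    (hw : Transcendental k (rho w)) :
    ∃ (a c : L) (h : algebraMap L E c * (x - algebraMap L E a) ∈ V), c ≠ 0 ∧
      Transcendental k (rho ⟨algebraMap L E c * (x - algebraMap L E a), h⟩) := by
  by_contra hcon
  have halg : ∀ (a c : L) (h : algebraMap L E c * (x - algebraMap L E a) ∈ V), c ≠ 0 →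
      IsAlgebraic k (rho ⟨algebraMap L E c * (x - algebraMap L E a), h⟩) := by
    intro a c h hc
    by_contra hna
    exact hcon ⟨a, c, h, hc, hna⟩
  apply hw
  -- `x` is not a constant
  have hxL : ∀ a : L, x - algebraMap L E a ≠ 0 := by
    intro a ha
    have hxa : x = algebraMap L E a := sub_eq_zero.mp ha
    have hbot : L⟮x⟯ = ⊥ := by
      rw [IntermediateField.adjoin_simple_eq_bot_iff, hxa]
      exact IntermediateField.algebraMap_mem _ a
    have hwbot : (w : E) ∈ (⊥ : IntermediateField L E) := by
      rw [← hbot, hx]; exact IntermediateField.mem_top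
    exact hw (isAlgebraic_rho_of_mem_bot A res V hVA rho hrho w hwbot)
  have hwx : (w : E) ∈ L⟮x⟯ := by rw [hx]; exact IntermediateField.mem_top
  obtain ⟨P, Q, hPQ⟩ := (IntermediateField.mem_adjoin_simple_iff L (w : E)).mp hwx
  have hw0 : rho w ≠ 0 := by
    intro h0
    apply hw
    rw [h0]; exact isAlgebraic_zero
  have hwE : (w : E) ≠ 0 := by
    intro h
    apply hw0
    have : w = 0 := Subtype.ext h
    rw [this, map_zero]
  have hP : P ≠ 0 := by
    rintro rfl
    apply hwE
    rw [hPQ, map_zero, zero_div]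
  have hQx : aeval x Q ≠ 0 := by
    intro h
    apply hwE
    rw [hPQ, h, div_zero]
  have hQ : Q ≠ 0 := by
    rintro rfl
    exact hQx (map_zero _)
  have hsplit : ∀ R : L[X], R ≠ 0 → ∃ (d : L) (z : V), d ≠ 0 ∧ IsUnit z ∧ IsAlgebraic k (rho z) ∧
      aeval x R = algebraMap L E d * (z : E) := by
    intro R hR
    obtain ⟨d, z, hd, hz, hza, hprod⟩ := exists_prod_eq V rho hunit hscale x hxL halg R.roots
    refine ⟨R.leadingCoeff * d, z, mul_ne_zero (Polynomial.leadingCoeff_ne_zero.mpr hR) hd, hz, hza,
      ?_⟩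
    have h1 := (IsAlgClosed.splits R).eq_prod_roots
    have h2 : aeval x R = algebraMap L E R.leadingCoeff *
        (R.roots.map (fun a => x - algebraMap L E a)).prod := by
      conv_lhs => rw [h1]
      rw [map_mul, Polynomial.aeval_C, map_multiset_prod, Multiset.map_map]
      congr 2
      apply Multiset.map_congr rfl
      intro a _
      simp
    rw [h2, hprod, map_mul, mul_assoc]
  obtain ⟨dP, zP, hdP, hzP, hzPa, hPx⟩ := hsplit P hP
  obtain ⟨dQ, zQ, hdQ, hzQ, hzQa, hQx'⟩ := hsplit Q hQ
  refine isAlgebraic_rho_of_rel A res V hVA rho hrho w zQ zP hzQ hzP hzQa hzPa (dP / dQ) ?_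
  have hdQE : algebraMap L E dQ ≠ 0 := by
    rw [Ne, map_eq_zero_iff _ (algebraMap L E).injective]; exact hdQ
  have hzQE : (zQ : E) ≠ 0 := by
    intro h
    apply hQx
    rw [hQx', h, mul_zero]
  rw [hPQ, hPx, hQx', map_div₀]
  field_simp

include hrho hunit hscale in
/-- **CL1, abstract form**: under the hypotheses of `exists_transcendental_linear`, the residue
field of `V` is generated over `k` by the (transcendental) residue of a generator `y` of `E / L`. -/
theorem exists_generator [IsAlgClosed L] (x : E) (hx : L⟮x⟯ = ⊤) (w : V)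
    (hw : Transcendental k (rho w)) :
    ∃ y : V, L⟮(y : E)⟯ = ⊤ ∧ Transcendental k (rho y) ∧ ∀ f : V, rho f ∈ k⟮rho y⟯ := by
  obtain ⟨a, c, h, hc, htr⟩ :=
    exists_transcendental_linear A res V hVA rho hrho hunit hscale x hx w hw
  set y : V := ⟨algebraMap L E c * (x - algebraMap L E a), h⟩ with hy
  have hcE : algebraMap L E c ≠ 0 := by
    rw [Ne, map_eq_zero_iff _ (algebraMap L E).injective]; exact hc
  have htop : L⟮(y : E)⟯ = ⊤ := by
    rw [eq_top_iff, ← hx, IntermediateField.adjoin_simple_le_iff]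
    have hxy : x = algebraMap L E c⁻¹ * (y : E) + algebraMap L E a := by
      have : (y : E) = algebraMap L E c * (x - algebraMap L E a) := rfl
      rw [this, map_inv₀]
      field_simp
      ring
    rw [hxy]
    exact add_mem (mul_mem (IntermediateField.algebraMap_mem _ _)
      (IntermediateField.mem_adjoin_simple_self L _)) (IntermediateField.algebraMap_mem _ _)
  refine ⟨y, htop, htr, fun f => ?_⟩
  exact rho_mem_adjoin A res V hVA rho hrho hunit y htr f (by rw [htop]; exact IntermediateField.mem_top)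

end Generator

end Fermat.Agent.S18.CLRat
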