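import Mathlib
import Fermat.Agent.S20.RRBasic
import Fermat.Agent.S24.PlacesMore

/-!
# S18, chain P, slice P2: Riemann's inequality from a separating element

`K` algebraically closed, `F / K` a field with a transcendental `x` such that `F / K(x)` is finite
and separable.  Then the basic hypotheses `RR.Hyp0 K F` (places of degree one, principal divisors
of degree zero, no poles ⇒ constant) imply the full hypotheses `RR.Hyp K F` of the Riemann–Roch
development of `S20/RRBasic.lean`, i.e. Riemann's inequality `ℓ(l B) ≥ l deg B - c` for the pole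
divisor `B` of `x`.
-/

set_option autoImplicit false

open AlgebraicCurve IsDedekindDomain IntermediateField
open scoped IntermediateField.algebraAdjoinAdjoin

namespace Fermat.Agent.S18.PBound

open Fermat.Agent.S20 Fermat.Agent.S24

noncomputable section

/-! ### The sum formulas of `S24/PlacesInt.lean`, `S24/PlacesMore.lean` for a separating element -/

section Sep

variable {K F : Type*} [Field K] [Field F] [Algebra K F]

theorem isDedekindDomain_intRing_sep (x : F) [FiniteDimensional K⟮x⟯ F]
    [Algebra.IsSeparable K⟮x⟯ F] : IsDedekindDomain (Places.intRing (K := K) x) :=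
  integralClosure.isDedekindDomain (Places.polyRing (K := K) x) K⟮x⟯ F

theorem finite_intRing_sep (x : F) [FiniteDimensional K⟮x⟯ F] [Algebra.IsSeparable K⟮x⟯ F] :
    Module.Finite (Places.polyRing (K := K) x) (Places.intRing (K := K) x) :=
  IsIntegralClosure.finite (Places.polyRing (K := K) x) K⟮x⟯ F (Places.intRing (K := K) x)

set_option synthInstance.maxHeartbeats 400000 in
set_option maxHeartbeats 1600000 in
/-- **Sum formula for zeros** (separating element). -/
theorem sum_ord_zeros_sep [IsAlgClosed K] (x : F) [FiniteDimensional K⟮x⟯ F]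
    [Algebra.IsSeparable K⟮x⟯ F] (hx : Transcendental K x) :
    {v : Place K F | 0 < v.ord x}.Finite ∧
      ∑ᶠ v ∈ {v : Place K F | 0 < v.ord x}, v.ord x = (Module.finrank K⟮x⟯ F : ℤ) := by
  have := isDedekindDomain_intRing_sep (K := K) x
  have := Places.isFractionRing_intRing (K := K) x
  have := finite_intRing_sep (K := K) x
  have hmax : (Ideal.span {Places.gen (K := K) x}).IsMaximal := Places.span_gen_isMaximal x hx
  have h := Places.sum_ord_zeros_abstract (K := K) (F := F) (A := Places.polyRing (K := K) x)
    (B := Places.intRing (K := K) x) (Places.gen (K := K) x) (Places.gen_ne_zero x hx)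
    (Places.exists_const_sub_mem x) (Places.hK x) (fun v hv b => Places.intRing_le x v hv b)
  rw [IsFractionRing.finrank_eq (Places.polyRing (K := K) x) K⟮x⟯ (Places.intRing (K := K) x) F]
  exact h

theorem sum_ord_zeros_sep_of_eq [IsAlgClosed K] (x : F) (E : IntermediateField K F)
    [FiniteDimensional E F] [Algebra.IsSeparable E F] (hE : E = K⟮x⟯) (hx : Transcendental K x) :
    {v : Place K F | 0 < v.ord x}.Finite ∧
      ∑ᶠ v ∈ {v : Place K F | 0 < v.ord x}, v.ord x = (Module.finrank E F : ℤ) := by
  subst hE
  exact sum_ord_zeros_sep x hx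

/-- **Sum formula for poles** (separating element). -/
theorem sum_ord_poles_sep [IsAlgClosed K] (x : F) [FiniteDimensional K⟮x⟯ F]
    [Algebra.IsSeparable K⟮x⟯ F] (hx : Transcendental K x) :
    {v : Place K F | v.ord x < 0}.Finite ∧
      ∑ᶠ v ∈ {v : Place K F | v.ord x < 0}, v.ord x = -(Module.finrank K⟮x⟯ F : ℤ) := by
  have h := sum_ord_zeros_sep_of_eq x⁻¹ K⟮x⟯ (Places.adjoin_inv_eq x) (Places.transcendental_inv hx)
  have hset : {v : Place K F | 0 < v.ord x⁻¹} = {v : Place K F | v.ord x < 0} := by
    ext v
    simp only [Set.mem_setOf_eq, Place.ord_inv]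
    omega
  rw [hset] at h
  refine ⟨h.1, ?_⟩
  rw [← h.2]
  have : ∀ v : Place K F, v.ord x⁻¹ = - v.ord x := fun v => v.ord_inv x
  simp_rw [this]
  rw [finsum_mem_neg_distrib _ h.1, neg_neg]

end Sep

/-! ### Riemann's inequality for the pole divisor of a separating element -/

section Bound

variable {K F : Type*} [Field K] [Field F] [Algebra K F]

/-- The powers of a transcendental element are linearly independent. -/
theorem linearIndependent_pow_of_transcendental {A : Type*} [CommRing A] [Algebra K A] {x : A}
    (hx : Transcendental K x) : LinearIndependent K (fun j : ℕ => x ^ j) := by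
  have hinj : Function.Injective (Polynomial.aeval (R := K) x) :=
    transcendental_iff_injective.mp hx
  have h := (Polynomial.basisMonomials K).linearIndependent.map'
    (Polynomial.aeval (R := K) x).toLinearMap (LinearMap.ker_eq_bot.mpr hinj)
  have heq : (fun j : ℕ => x ^ j) =
      ⇑(Polynomial.aeval (R := K) x).toLinearMap ∘ ⇑(Polynomial.basisMonomials K) := by
    funext j
    simp
  rw [heq]
  exact h

variable [IsAlgClosed K]

/-- **Slice P2.** A separating element turns the basic hypotheses `RR.Hyp0` into the full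
hypotheses `RR.Hyp` (Riemann's inequality for the multiples of the pole divisor of `x`). -/
theorem hyp_of_hyp0 (x : F) (hx : Transcendental K x) [FiniteDimensional K⟮x⟯ F]
    [Algebra.IsSeparable K⟮x⟯ F] (h0 : RR.Hyp0 K F) : RR.Hyp K F := by
  classical
  have hx0 : x ≠ 0 := fun h => hx (h ▸ isAlgebraic_zero)
  obtain ⟨hP, hPsum⟩ := sum_ord_poles_sep x hx
  set n := Module.finrank K⟮x⟯ F with hn
  -- the pole divisor of `x`
  let B : Divisor K F := Finsupp.onFinset hP.toFinset (fun v => max (-(v.ord x)) 0)
    (fun v hv => by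
      simp only [Set.Finite.mem_toFinset, Set.mem_setOf_eq]
      by_contra h
      apply hv
      omega)
  have hBv : ∀ v, B v = max (-(v.ord x)) 0 := fun v => rfl
  have hB0 : 0 ≤ B := by
    intro v
    rw [hBv]
    exact le_max_right _ _
  have hBdeg : Divisor.degree B = n := by
    have hdeg : Divisor.degree B = ∑ v ∈ hP.toFinset, max (-(v.ord x)) 0 := by
      show (Finsupp.liftAddHom fun v : Place K F => AddMonoidHom.mulRight (v.deg : ℤ)) B = _
      rw [Finsupp.liftAddHom_apply, Finsupp.onFinset_sum _ (fun v => by simp)]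
      refine Finset.sum_congr rfl fun v _ => ?_
      simp [h0.deg_one v]
    rw [hdeg]
    have : ∑ v ∈ hP.toFinset, max (-(v.ord x)) 0 = ∑ v ∈ hP.toFinset, -(v.ord x) := by
      refine Finset.sum_congr rfl fun v hv => ?_
      simp only [Set.Finite.mem_toFinset, Set.mem_setOf_eq] at hv
      omega
    rw [this, Finset.sum_neg_distrib, ← finsum_mem_eq_finite_toFinset_sum _ hP, hPsum, neg_neg]
  have hnpos : 0 < n := Module.finrank_pos
  -- a basis of `F / K(x)` consisting of elements integral over `K[x]`
  obtain ⟨s, b, hb⟩ :=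
    FiniteDimensional.exists_is_basis_integral (Places.polyRing (K := K) x) K⟮x⟯ F
  have hcard : Fintype.card s = n := (Module.finrank_eq_card_basis b).symm
  have hbne : ∀ i, b i ≠ 0 := fun i => b.ne_zero i
  -- no poles outside the poles of `x`
  have hfin : ∀ (i : s) (v : Place K F), ¬ v.ord x < 0 → 0 ≤ v.ord (b i) := by
    intro i v hv
    have hxv : x ∈ v.toValuationSubring := (Places.mem_iff_ord_nonneg v hx0).mpr (by omega)
    have := Places.intRing_le x v hxv ⟨b i, hb i⟩
    exact (Places.mem_iff_ord_nonneg v (hbne i)).mp this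
  -- bounded poles at the poles of `x`
  set c₀ : ℕ := ∑ i : s, ∑ v ∈ hP.toFinset, (v.ord (b i)).natAbs with hc₀
  have hpole : ∀ (i : s) (v : Place K F), v.ord x < 0 → -(c₀ : ℤ) ≤ v.ord (b i) := by
    intro i v hv
    have h1 : (v.ord (b i)).natAbs ≤ ∑ w ∈ hP.toFinset, (w.ord (b i)).natAbs :=
      Finset.single_le_sum (f := fun w : Place K F => (w.ord (b i)).natAbs)
        (fun _ _ => Nat.zero_le _) (by simpa using hv)
    have h2 : ∑ w ∈ hP.toFinset, (w.ord (b i)).natAbs ≤ c₀ :=
      Finset.single_le_sum (f := fun i : s => ∑ w ∈ hP.toFinset, (w.ord (b i)).natAbs)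
        (fun _ _ => Nat.zero_le _) (Finset.mem_univ i)
    omega
  -- `x ^ j * b i ∈ L((c₀ + j) B)`
  have hmem : ∀ (i : s) (j : ℕ), x ^ j * b i ∈ riemannRochSpace ((c₀ + j) • B) := by
    intro i j
    rw [mem_riemannRochSpace_iff]
    intro v
    right
    have hpow : v.ord (x ^ j) = j * v.ord x := by
      have h := v.ord_zpow x (j : ℤ)
      rwa [zpow_natCast] at h
    rw [Finsupp.smul_apply, nsmul_eq_mul, hBv, v.ord_mul (pow_ne_zero j hx0) (hbne i), hpow]
    by_cases hv : v.ord x < 0
    · have h1 := hpole i v hv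
      rw [max_eq_left (by omega)]
      push_cast
      have h2 : (c₀ : ℤ) ≤ c₀ * (-(v.ord x)) := by
        have : (0 : ℤ) ≤ c₀ := Int.natCast_nonneg _
        nlinarith
      nlinarith
    · have h1 := hfin i v hv
      rw [max_eq_right (by omega)]
      have : (0 : ℤ) ≤ (j : ℤ) * v.ord x := by
        have : (0 : ℤ) ≤ j := Int.natCast_nonneg _
        nlinarith
      simp only [mul_zero, neg_zero]
      omega
  -- the independent family
  have hgen : Transcendental K (IntermediateField.AdjoinSimple.gen K x) := by
    intro h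
    apply hx
    have := h.algebraMap (A := F)
    simpa using this
  have hli : ∀ m : ℕ, LinearIndependent K
      (fun p : Fin m × s => x ^ (p.1 : ℕ) * b p.2) := by
    intro m
    have h1 : LinearIndependent K
        (fun j : Fin m => (IntermediateField.AdjoinSimple.gen K x) ^ (j : ℕ)) :=
      (linearIndependent_pow_of_transcendental hgen).comp _ Fin.val_injective
    have h2 := linearIndependent_smul h1 b.linearIndependent
    have heq : (fun p : Fin m × s => x ^ (p.1 : ℕ) * b p.2) =
        fun p : Fin m × s => (IntermediateField.AdjoinSimple.gen K x) ^ (p.1 : ℕ) • b p.2 := by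
      funext p
      rw [Algebra.smul_def]
      simp
    rw [heq]
    exact h2
  -- the bound
  refine { h0 with bound := ⟨B, (n : ℤ) * c₀, hB0, by rw [hBdeg]; exact_mod_cast hnpos, ?_⟩ }
  intro l
  rw [hBdeg]
  by_cases hl : c₀ ≤ l
  · set m := l - c₀ + 1 with hm
    have hsub : ∀ p : Fin m × s, x ^ (p.1 : ℕ) * b p.2 ∈ riemannRochSpace (l • B) := by
      intro p
      have hle : ((c₀ + (p.1 : ℕ)) • B : Divisor K F) ≤ l • B :=
        nsmul_le_nsmul_left hB0 (by have := p.1.2; omega)
      exact RR.riemannRochSpace_mono hle (hmem p.2 p.1)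
    have hli' : LinearIndependent K
        (fun p : Fin m × s => (⟨x ^ (p.1 : ℕ) * b p.2, hsub p⟩ : riemannRochSpace (l • B))) := by
      apply LinearIndependent.of_comp (riemannRochSpace (l • B)).subtype
      exact hli m
    haveI := RR.finite h0 (l • B)
    have hcard' := hli'.fintype_card_le_finrank
    rw [Fintype.card_prod, Fintype.card_fin, hcard] at hcard'
    have h3 : ((m * n : ℕ) : ℤ) ≤ (Module.finrank K (riemannRochSpace (l • B)) : ℤ) := by
      exact_mod_cast hcard'
    have h4 : ((m * n : ℕ) : ℤ) = ((l : ℤ) - c₀ + 1) * n := by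
      rw [hm]
      push_cast [Nat.cast_sub hl]
      ring
    have h5 : (0 : ℤ) ≤ n := Int.natCast_nonneg _
    nlinarith
  · have h5 : (0 : ℤ) ≤ (Module.finrank K (riemannRochSpace (l • B)) : ℤ) := Int.natCast_nonneg _
    have h6 : (l : ℤ) + 1 ≤ c₀ := by exact_mod_cast (not_le.mp hl)
    have h7 : (0 : ℤ) < n := by exact_mod_cast hnpos
    nlinarith

end Bound

/-! ### Riemann's theorem in the form "equality for all divisors of large degree" -/

section Genus

variable {K F : Type*} [Field K] [Field F] [Algebra K F]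

/-- Riemann's theorem: there is a genus `g` with `ℓ(D) ≥ deg D + 1 - g` for all divisors and
equality for all divisors of large degree. -/
theorem exists_genus_eq (h : RR.Hyp K F) :
    ∃ (g : ℤ) (c : ℤ), (∀ D : Divisor K F, Divisor.degree D + 1 - g ≤ RR.ell D) ∧
      ∀ D : Divisor K F, c ≤ Divisor.degree D → (RR.ell D : ℤ) = Divisor.degree D + 1 - g := by
  obtain ⟨g, hge, D₀, hD₀⟩ := RR.exists_genus h
  have h0 := h.toHyp0
  refine ⟨g, Divisor.degree D₀ + g, hge, fun D hD => ?_⟩
  -- a nonzero element of `L(D - D₀)`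
  have h1 := hge (D - D₀)
  rw [map_sub] at h1
  have hpos : 0 < Module.finrank K (riemannRochSpace (D - D₀)) := by
    have : (0 : ℤ) < RR.ell (D - D₀) := by omega
    exact_mod_cast this
  have hfin := RR.finite h0 (D - D₀)
  have hnt : Nontrivial (riemannRochSpace (D - D₀)) :=
    Module.nontrivial_of_finrank_pos (R := K) hpos
  obtain ⟨⟨z, hz⟩, hz0⟩ := exists_ne (0 : riemannRochSpace (D - D₀))
  have hz0' : z ≠ 0 := fun hh => hz0 (Subtype.ext hh)
  obtain ⟨Dz, hDz, -⟩ := h0.principal z hz0'
  set D' : Divisor K F := D + Dz with hD'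
  have hD'v : ∀ v, D' v = D v + v.ord z := by
    intro v
    rw [hD', Finsupp.add_apply, hDz v]
  have hle : D₀ ≤ D' := by
    rw [Finsupp.le_def]
    intro v
    have h3 := ((mem_riemannRochSpace_iff.mp hz) v).resolve_left hz0'
    rw [Finsupp.sub_apply] at h3
    rw [hD'v]
    omega
  have e1 := RR.ell_congr hz0' hD'v
  have e2 := RR.degree_congr h0 hz0' hD'v
  have e3 := hD₀ D' hle
  rw [e1, e2] at e3
  exact e3

/-- Riemann's genus is nonnegative (`ℓ(0) = 1`). -/
theorem genus_nonneg (h : RR.Hyp K F) {g : ℤ}
    (hg : ∀ D : Divisor K F, Divisor.degree D + 1 - g ≤ RR.ell D) : 0 ≤ g := by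
  have h1 := hg 0
  rw [map_zero, RR.ell_zero h.toHyp0] at h1
  push_cast at h1
  omega

end Genus

end

end Fermat.Agent.S18.PBound
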