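import Fermat.Agent.S24.PlacesMore
import Fermat.Agent.S20.RRBasic

/-!
# S18, chain P, part 1: function fields with a separating element, any characteristic

For an algebraically closed field `K` and a field `F ⊇ K` which is finite and separable over
`K(x)` for some transcendental `x`, the basic hypotheses `RR.Hyp0 K F` hold: every place has
degree one, every nonzero function has a divisor, of degree zero, and functions without poles are
constant.

The characteristic-zero proof of `S24/PlacesMore.lean` applies the sum formula to `K(f)` for an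
arbitrary `f`; in characteristic `ℓ` this is only allowed for separating `f`, and we use that
for a transcendental `f` either `f` or `f * x` is separating (Kähler differentials).
-/

set_option autoImplicit false

open AlgebraicCurve IsDedekindDomain IntermediateField
open scoped IntermediateField.algebraAdjoinAdjoin

namespace Fermat.Agent.S18.PSep

open Fermat.Agent.S24.Places

noncomputable section

variable {K F : Type*} [Field K] [Field F] [Algebra K F]

section Sum

variable (x : F) [FiniteDimensional K⟮x⟯ F] [Algebra.IsSeparable K⟮x⟯ F]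

theorem isDedekindDomain_intRing : IsDedekindDomain (intRing (K := K) x) :=
  integralClosure.isDedekindDomain (polyRing (K := K) x) K⟮x⟯ F

theorem finite_intRing : Module.Finite (polyRing (K := K) x) (intRing (K := K) x) :=
  IsIntegralClosure.finite (polyRing (K := K) x) K⟮x⟯ F (intRing (K := K) x)

attribute [local instance] isDedekindDomain_intRing isFractionRing_intRing finite_intRing

set_option synthInstance.maxHeartbeats 400000 in
set_option maxHeartbeats 1600000 in
/-- **Sum formula for zeros** of a separating element: the places where `x` vanishes are finite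
in number and the orders of vanishing add up to `[F : K(x)]`. -/
theorem sum_ord_zeros [IsAlgClosed K] (hx : Transcendental K x) :
    {v : Place K F | 0 < v.ord x}.Finite ∧
      ∑ᶠ v ∈ {v : Place K F | 0 < v.ord x}, v.ord x = (Module.finrank K⟮x⟯ F : ℤ) := by
  have hmax : (Ideal.span {gen (K := K) x}).IsMaximal := span_gen_isMaximal x hx
  have h := sum_ord_zeros_abstract (K := K) (F := F) (A := polyRing (K := K) x)
    (B := intRing (K := K) x) (gen (K := K) x) (gen_ne_zero x hx) (exists_const_sub_mem x)
    (hK x) (fun v hv b => intRing_le x v hv b)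
  rw [IsFractionRing.finrank_eq (polyRing (K := K) x) K⟮x⟯ (intRing (K := K) x) F]
  exact h

end Sum

section Kaehler

open KaehlerDifferential

/-- If `F / K(x)` is finite separable, every Kähler differential of `F / K` is a multiple of
`dx`. -/
theorem exists_smul_D_of_sep (x : F) [FiniteDimensional K⟮x⟯ F] [Algebra.IsSeparable K⟮x⟯ F]
    (ω : Ω[F⁄K]) : ∃ c : F, ω = c • D K F x := by
  have : Algebra.FormallyUnramified K⟮x⟯ F := Algebra.FormallyUnramified.of_isSeparable _ _
  have : Subsingleton Ω[F⁄K⟮x⟯] := Algebra.FormallyUnramified.subsingleton_kaehlerDifferential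
  set S : Submodule F Ω[F⁄K] := Submodule.span F {D K F x} with hS
  -- the derivative of every element of `K(x)` is a multiple of `dx`
  have hsub : ∀ e : F, e ∈ K⟮x⟯ → D K F e ∈ S := by
    intro e he
    induction he using IntermediateField.adjoin_induction with
    | mem y hy =>
      rw [Set.mem_singleton_iff] at hy
      subst hy
      exact Submodule.mem_span_singleton_self _
    | algebraMap a =>
      rw [Derivation.map_algebraMap]
      exact S.zero_mem
    | add y z _ _ hy hz =>
      rw [map_add]
      exact S.add_mem hy hz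
    | inv y _ hy =>
      rw [Derivation.leibniz_inv]
      exact S.smul_mem _ hy
    | mul y z _ _ hy hz =>
      rw [Derivation.leibniz]
      exact S.add_mem (S.smul_mem _ hz) (S.smul_mem _ hy)
  -- hence the image of `F ⊗ Ω[K(x)/K]` lies in `F dx`
  have hmap : ∀ y : Ω[K⟮x⟯⁄K], KaehlerDifferential.map K K K⟮x⟯ F y ∈ S := by
    intro y
    have hy : y ∈ Submodule.span K⟮x⟯ (Set.range (D K K⟮x⟯)) := by
      rw [KaehlerDifferential.span_range_derivation]
      exact Submodule.mem_top
    induction hy using Submodule.span_induction with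
    | mem z hz =>
      obtain ⟨e, rfl⟩ := hz
      rw [KaehlerDifferential.map_D]
      exact hsub _ e.2
    | zero =>
      rw [map_zero]
      exact S.zero_mem
    | add y z _ _ hy hz =>
      rw [map_add]
      exact S.add_mem hy hz
    | smul a y _ hy =>
      rw [map_smul, ← algebraMap_smul F a]
      exact S.smul_mem _ hy
  have hrange : ∀ z : TensorProduct K⟮x⟯ F Ω[K⟮x⟯⁄K],
      KaehlerDifferential.mapBaseChange K K⟮x⟯ F z ∈ S := by
    intro z
    induction z using TensorProduct.induction_on with
    | zero =>
      rw [map_zero]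
      exact S.zero_mem
    | tmul b y =>
      rw [KaehlerDifferential.mapBaseChange_tmul]
      exact S.smul_mem _ (hmap y)
    | add y z hy hz =>
      rw [map_add]
      exact S.add_mem hy hz
  have hω : ω ∈ LinearMap.ker (KaehlerDifferential.map K K⟮x⟯ F F) := by
    rw [LinearMap.mem_ker]
    exact Subsingleton.elim _ _
  rw [← KaehlerDifferential.range_mapBaseChange] at hω
  obtain ⟨z, rfl⟩ := hω
  obtain ⟨c, hc⟩ := Submodule.mem_span_singleton.mp (hrange z)
  exact ⟨c, hc.symm⟩

/-- If every Kähler differential of `F / K` is a multiple of `dt` and `F / K(t)` is finite, then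
`F / K(t)` is separable. -/
theorem sep_of_forall_smul_D (t : F) [FiniteDimensional K⟮t⟯ F]
    (h : ∀ ω : Ω[F⁄K], ∃ c : F, ω = c • D K F t) : Algebra.IsSeparable K⟮t⟯ F := by
  have hsub : Subsingleton Ω[F⁄K⟮t⟯] := by
    refine ⟨fun η η' => ?_⟩
    have h0 : ∀ η : Ω[F⁄K⟮t⟯], η = 0 := by
      intro η
      obtain ⟨ω, rfl⟩ := KaehlerDifferential.map_surjective K K⟮t⟯ F η
      obtain ⟨c, rfl⟩ := h ω
      have h1 : D K⟮t⟯ F t = 0 :=
        Derivation.map_algebraMap (D K⟮t⟯ F) ⟨t, IntermediateField.mem_adjoin_simple_self K t⟩
      rw [map_smul, KaehlerDifferential.map_D, Algebra.algebraMap_self, RingHom.id_apply, h1,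
        smul_zero]
    rw [h0 η, h0 η']
  have : Algebra.FormallyUnramified K⟮t⟯ F := (Algebra.formallyUnramified_iff _ _).mpr hsub
  exact Algebra.FormallyUnramified.isSeparable K⟮t⟯ F

end Kaehler

section Principal

open KaehlerDifferential

variable [IsAlgClosed K]

/-- Sum formula for zeros, with the field `K(t)` given up to equality. -/
theorem sum_ord_zeros_of_eq (t : F) (E : IntermediateField K F) [FiniteDimensional E F]
    [Algebra.IsSeparable E F] (hE : E = K⟮t⟯) (ht : Transcendental K t) :
    {v : Place K F | 0 < v.ord t}.Finite ∧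
      ∑ᶠ v ∈ {v : Place K F | 0 < v.ord t}, v.ord t = (Module.finrank E F : ℤ) := by
  subst hE
  exact sum_ord_zeros t ht

/-- **Sum formula for poles** of a separating element. -/
theorem sum_ord_poles (t : F) [FiniteDimensional K⟮t⟯ F] [Algebra.IsSeparable K⟮t⟯ F]
    (ht : Transcendental K t) :
    {v : Place K F | v.ord t < 0}.Finite ∧
      ∑ᶠ v ∈ {v : Place K F | v.ord t < 0}, v.ord t = -(Module.finrank K⟮t⟯ F : ℤ) := by
  have h := sum_ord_zeros_of_eq t⁻¹ K⟮t⟯ (adjoin_inv_eq t) (transcendental_inv ht)
  have hset : {v : Place K F | 0 < v.ord t⁻¹} = {v : Place K F | v.ord t < 0} := by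
    ext v
    simp only [Set.mem_ofPred_eq, Place.ord_inv]
    omega
  rw [hset] at h
  refine ⟨h.1, ?_⟩
  rw [← h.2]
  have : ∀ v : Place K F, v.ord t⁻¹ = - v.ord t := fun v => v.ord_inv t
  simp_rw [this]
  rw [finsum_mem_neg_distrib _ h.1, neg_neg]

/-- The divisor of a separating element exists and has degree zero. -/
theorem exists_divisor_of_sep (f : F) [FiniteDimensional K⟮f⟯ F] [Algebra.IsSeparable K⟮f⟯ F]
    (htr : Transcendental K f) :
    ∃ D : Divisor K F, (∀ v : Place K F, D v = v.ord f) ∧ Divisor.degree D = 0 := by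
  obtain ⟨hZ, hZsum⟩ := sum_ord_zeros f htr
  obtain ⟨hP, hPsum⟩ := sum_ord_poles f htr
  classical
  let D : Divisor K F := Finsupp.onFinset (hZ.toFinset ∪ hP.toFinset) (fun v => v.ord f)
    (fun v hv => by
      simp only [Finset.mem_union, Set.Finite.mem_toFinset, Set.mem_ofPred_eq]
      omega)
  refine ⟨D, fun v => rfl, ?_⟩
  have hdeg : Divisor.degree D = ∑ v ∈ hZ.toFinset ∪ hP.toFinset, v.ord f := by
    show (Finsupp.liftAddHom fun v : Place K F => AddMonoidHom.mulRight (v.deg : ℤ)) D = _
    rw [Finsupp.liftAddHom_apply, Finsupp.onFinset_sum _ (fun v => by simp)]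
    refine Finset.sum_congr rfl fun v _ => ?_
    simp [deg_one f v]
  have hdisj : Disjoint hZ.toFinset hP.toFinset := by
    rw [Finset.disjoint_left]
    intro v h1 h2
    simp only [Set.Finite.mem_toFinset, Set.mem_ofPred_eq] at h1 h2
    omega
  rw [hdeg, Finset.sum_union hdisj, ← finsum_mem_eq_finite_toFinset_sum _ hZ,
    ← finsum_mem_eq_finite_toFinset_sum _ hP, hZsum, hPsum]
  ring

/-- **Principal divisors have degree zero** (any characteristic, `x` a separating element). -/
theorem exists_principal_divisor (x : F) (hx : Transcendental K x) [FiniteDimensional K⟮x⟯ F]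
    [Algebra.IsSeparable K⟮x⟯ F] {f : F} (hf : f ≠ 0) :
    ∃ D : Divisor K F, (∀ v : Place K F, D v = v.ord f) ∧ Divisor.degree D = 0 := by
  by_cases halg : IsAlgebraic K f
  · obtain ⟨c, rfl⟩ := exists_algebraMap_eq_of_isAlgebraic halg
    exact ⟨0, fun v => by rw [ord_algebraMap]; rfl, map_zero _⟩
  have htr : Transcendental K f := halg
  have hfin : FiniteDimensional K⟮f⟯ F := finiteDimensional_of_transcendental x htr
  have hx0 : x ≠ 0 := by
    rintro rfl
    exact hx isAlgebraic_zero
  obtain ⟨c, hc⟩ := exists_smul_D_of_sep (K := K) x (D K F f)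
  by_cases hc0 : c = 0
  · -- `df = 0`
    have hDf : D K F f = 0 := by rw [hc, hc0, zero_smul]
    by_cases halg2 : IsAlgebraic K (f * x)
    · -- then `dx = 0`, all differentials vanish and `f` is separating
      obtain ⟨a, ha⟩ := exists_algebraMap_eq_of_isAlgebraic halg2
      have hDx : D K F x = 0 := by
        have h1 : D K F (f * x) = 0 := by rw [← ha, Derivation.map_algebraMap]
        rw [Derivation.leibniz, hDf, smul_zero, add_zero] at h1
        exact (smul_eq_zero.mp h1).resolve_left hf
      have : Algebra.IsSeparable K⟮f⟯ F := sep_of_forall_smul_D f (fun ω => by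
        obtain ⟨b, hb⟩ := exists_smul_D_of_sep (K := K) x ω
        exact ⟨0, by rw [hb, hDx, smul_zero, zero_smul]⟩)
      exact exists_divisor_of_sep f htr
    · -- `f x` is separating
      have htr2 : Transcendental K (f * x) := halg2
      have hfin2 : FiniteDimensional K⟮f * x⟯ F := finiteDimensional_of_transcendental x htr2
      have : Algebra.IsSeparable K⟮f * x⟯ F := sep_of_forall_smul_D (f * x) (fun ω => by
        obtain ⟨b, hb⟩ := exists_smul_D_of_sep (K := K) x ω
        refine ⟨b * f⁻¹, ?_⟩
        rw [Derivation.leibniz, hDf, smul_zero, add_zero, smul_smul, mul_assoc,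
          inv_mul_cancel₀ hf, mul_one, hb])
      obtain ⟨D1, hD1, hdeg1⟩ := exists_divisor_of_sep (f * x) htr2
      obtain ⟨D2, hD2, hdeg2⟩ := exists_divisor_of_sep x hx
      refine ⟨D1 - D2, fun v => ?_, by rw [map_sub, hdeg1, hdeg2, sub_zero]⟩
      rw [Finsupp.sub_apply, hD1, hD2, v.ord_mul hf hx0]
      ring
  · -- `dx` is a multiple of `df`: `f` is separating
    have : Algebra.IsSeparable K⟮f⟯ F := sep_of_forall_smul_D f (fun ω => by
      obtain ⟨b, hb⟩ := exists_smul_D_of_sep (K := K) x ω
      refine ⟨b * c⁻¹, ?_⟩
      rw [hc, smul_smul, mul_assoc, inv_mul_cancel₀ hc0, mul_one, hb])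
    exact exists_divisor_of_sep f htr

/-- A function without poles is constant (any characteristic, `x` a separating element). -/
theorem exists_const_of_ord_nonneg (x : F) (hx : Transcendental K x) [FiniteDimensional K⟮x⟯ F]
    [Algebra.IsSeparable K⟮x⟯ F] {f : F} (h : ∀ v : Place K F, 0 ≤ v.ord f) :
    ∃ c : K, f = algebraMap K F c := by
  -- a place exists
  obtain ⟨hZ, hZsum⟩ := sum_ord_zeros x hx
  have hpos : 0 < Module.finrank K⟮x⟯ F := Module.finrank_pos
  have hne : {v : Place K F | 0 < v.ord x}.Nonempty := by
    by_contra hempty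
    rw [Set.not_nonempty_iff_eq_empty] at hempty
    rw [hempty, finsum_mem_empty] at hZsum
    omega
  obtain ⟨v₀, -⟩ := hne
  by_cases hf0 : f = 0
  · exact ⟨0, by rw [hf0, map_zero]⟩
  have hmem : f ∈ v₀.toValuationSubring := (mem_iff_ord_nonneg v₀ hf0).mpr (h v₀)
  obtain ⟨c, hc | hc⟩ := residue x v₀ hmem
  · exact ⟨c, hc⟩
  · exfalso
    have hg0 : f - algebraMap K F c ≠ 0 := by
      intro h0
      rw [h0] at hc
      simp at hc
    obtain ⟨D, hD, hdeg⟩ := exists_principal_divisor x hx hg0
    have hDnn : ∀ v, 0 ≤ D v := by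
      intro v
      rw [hD v]
      have h1 : f ∈ v.toValuationSubring := (mem_iff_ord_nonneg v hf0).mpr (h v)
      have h2 : f - algebraMap K F c ∈ v.toValuationSubring := sub_mem h1 (v.algebraMap_mem' c)
      exact (mem_iff_ord_nonneg v hg0).mp h2
    have hdeg' : Divisor.degree D = ∑ v ∈ D.support, D v := by
      show (Finsupp.liftAddHom fun v : Place K F => AddMonoidHom.mulRight (v.deg : ℤ)) D = _
      rw [Finsupp.liftAddHom_apply, Finsupp.sum]
      refine Finset.sum_congr rfl fun v _ => ?_
      simp [deg_one x v]
    have hv₀ : v₀ ∈ D.support := by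
      rw [Finsupp.mem_support_iff, hD v₀]
      omega
    have hsum : 0 < ∑ v ∈ D.support, D v :=
      Finset.sum_pos' (fun v _ => hDnn v) ⟨v₀, hv₀, by rw [hD v₀]; exact hc⟩
    omega

/-- **Chain P, part 1**: the basic hypotheses of Riemann–Roch for a function field with a
separating element over an algebraically closed field of any characteristic. -/
theorem hyp0_of_sep (x : F) (hx : Transcendental K x) [FiniteDimensional K⟮x⟯ F]
    [Algebra.IsSeparable K⟮x⟯ F] : Fermat.Agent.S20.RR.Hyp0 K F where
  deg_one := fun v => deg_one x v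
  principal := fun _ hf => exists_principal_divisor x hx hf
  const := fun _ h => exists_const_of_ord_nonneg x hx h

end Principal

end

end Fermat.Agent.S18.PSep
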