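/-
S18, chain P, piece P4 (first half): the basic hypotheses `RR.Hyp0` (all places of degree one,
principal divisors exist and have degree zero, functions without poles are constant)

* for every field `F` finite over `K(x)`, `x` transcendental, `K` algebraically closed of ANY
  characteristic (no separability hypothesis: a separating element exists, `PFrob`);
* for the function field of `X₀(N)` in characteristic zero (`S24.FF L N`, in particular the
  frozen `modularFunctionFieldBar N`).
-/
import Fermat.Agent.S18.PSep
import Fermat.Agent.S18.PFrob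
import Fermat.Agent.S24.Mod.Degree

set_option autoImplicit false
set_option linter.style.haveILetI false

noncomputable section

namespace Fermat.Agent.S18.PHyp

open AlgebraicCurve IntermediateField ModularCurve
open Fermat.Agent.S20

/-- `RR.Hyp0` for every function field of one variable over an algebraically closed field. -/
theorem hyp0_of_finite {K F : Type*} [Field K] [Field F] [Algebra K F] [IsAlgClosed K] (x : F)
    (hx : Transcendental K x) [FiniteDimensional K⟮x⟯ F] : RR.Hyp0 K F := by
  obtain ⟨g, hg, _, _⟩ := PFrob.exists_separating x hx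
  exact PSep.hyp0_of_sep g hg

/-- Principal divisors exist and have degree zero (any characteristic). -/
theorem exists_principal_divisor {K F : Type*} [Field K] [Field F] [Algebra K F] [IsAlgClosed K]
    (x : F) (hx : Transcendental K x) [FiniteDimensional K⟮x⟯ F] {f : F} (hf : f ≠ 0) :
    ∃ D : Divisor K F, (∀ v, D v = v.ord f) ∧ Divisor.degree D = 0 :=
  (hyp0_of_finite x hx).principal f hf

/-- `RR.Hyp0` for the function field of `X₀(N)` over an algebraically closed field of
characteristic zero embedded in `ℂ`. -/
theorem hyp0_FF {L : Type*} [Field L] [Algebra ℚ L] [IsAlgClosed L] (ι : L →+* ℂ) (N : ℕ)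
    [NeZero N] : RR.Hyp0 L ↥(S24.FF L N) := by
  haveI := S24.Degree.finiteDimensional ι N
  exact hyp0_of_finite (S24.jElt L N) (S24.DegreeCore.transcendental_jElt N)

/-- An embedding of `ℚ̄` into `ℂ`. -/
theorem exists_embedding : ∃ _ι : AlgebraicClosure ℚ →+* ℂ, True := by
  letI : Algebra ℚ (AlgebraicClosure ℚ) := AlgebraicClosure.instAlgebra ℚ
  haveI := AlgebraicClosure.isAlgebraic ℚ
  exact ⟨(IsAlgClosed.lift (R := ℚ) (S := AlgebraicClosure ℚ) (M := ℂ)).toRingHom, trivial⟩

/-- `RR.Hyp0` for the frozen function field `modularFunctionFieldBar N` of `X₀(N)` over `ℚ̄`. -/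
theorem hyp0_bar (N : ℕ) [NeZero N] :
    RR.Hyp0 (AlgebraicClosure ℚ) ↥(modularFunctionFieldBar N) := by
  obtain ⟨ι, -⟩ := exists_embedding
  exact hyp0_FF ι N

/-- `j` is transcendental and the function field is finite over `ℚ̄(j)` (frozen field). -/
theorem finiteDimensional_bar (N : ℕ) [NeZero N] :
    FiniteDimensional (AlgebraicClosure ℚ)⟮S24.jElt (AlgebraicClosure ℚ) N⟯
      ↥(modularFunctionFieldBar N) := by
  obtain ⟨ι, -⟩ := exists_embedding
  exact S24.Degree.finiteDimensional ι N

end Fermat.Agent.S18.PHyp

end
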