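/-
S18, chain P, piece P4 (second half): the Riemann–Roch hypotheses `RR.Hyp` and the RIEMANN GENUS

* `PHyp.hyp_of_finite`: `RR.Hyp K F` for every field `F` finite over `K(x)`, `x` transcendental,
  `K` algebraically closed of any characteristic;
* `PHyp.hyp_FF`, `PHyp.hyp_bar`: the function field of `X₀(N)` in characteristic zero;
* `PHyp.genusR K F : ℤ`: the Riemann genus (the unique `g` with `ℓ(D) = deg D + 1 - g` for all
  divisors of large degree), with Riemann's inequality, nonnegativity, uniqueness and the two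
  comparison lemmas used to bound it from above / below.
-/
import Fermat.Agent.S18.PHyp0
import Fermat.Agent.S18.PBound

set_option autoImplicit false
set_option linter.style.haveILetI false

noncomputable section

namespace Fermat.Agent.S18.PHyp

open AlgebraicCurve IntermediateField ModularCurve
open Fermat.Agent.S20

section Generic

variable {K F : Type*} [Field K] [Field F] [Algebra K F]

/-- `RR.Hyp` for every function field of one variable over an algebraically closed field. -/
theorem hyp_of_finite [IsAlgClosed K] (x : F) (hx : Transcendental K x)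
    [FiniteDimensional K⟮x⟯ F] : RR.Hyp K F := by
  obtain ⟨g, hg, _, _⟩ := PFrob.exists_separating x hx
  exact PBound.hyp_of_hyp0 g hg (PSep.hyp0_of_sep g hg)

open Classical in
/-- The Riemann genus of `F / K`: the integer `g` such that `ℓ(D) = deg D + 1 - g` for all
divisors of large degree (`0` if there is no such integer). -/
def genusR (K F : Type*) [Field K] [Field F] [Algebra K F] : ℤ :=
  if h : ∃ g c : ℤ, (∀ D : Divisor K F, Divisor.degree D + 1 - g ≤ RR.ell D) ∧
      ∀ D : Divisor K F, c ≤ Divisor.degree D → (RR.ell D : ℤ) = Divisor.degree D + 1 - g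
  then h.choose else 0

/-- Riemann's theorem for `genusR`. -/
theorem genusR_spec (h : RR.Hyp K F) :
    (∀ D : Divisor K F, Divisor.degree D + 1 - genusR K F ≤ RR.ell D) ∧
      ∃ c : ℤ, ∀ D : Divisor K F, c ≤ Divisor.degree D →
        (RR.ell D : ℤ) = Divisor.degree D + 1 - genusR K F := by
  have hex := PBound.exists_genus_eq h
  have hdef : genusR K F = hex.choose := by
    unfold genusR
    rw [dif_pos hex]
  rw [hdef]
  obtain ⟨c, h1, h2⟩ := hex.choose_spec
  exact ⟨h1, c, h2⟩

/-- Riemann's inequality. -/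
theorem le_ell (h : RR.Hyp K F) (D : Divisor K F) :
    Divisor.degree D + 1 - genusR K F ≤ RR.ell D :=
  (genusR_spec h).1 D

theorem genusR_nonneg (h : RR.Hyp K F) : 0 ≤ genusR K F :=
  PBound.genus_nonneg h (genusR_spec h).1

/-- There are divisors of arbitrarily large degree. -/
theorem exists_degree_ge (h : RR.Hyp K F) (c : ℤ) : ∃ D : Divisor K F, c ≤ Divisor.degree D := by
  obtain ⟨B, -, -, hB, -⟩ := h.bound
  refine ⟨c.toNat • B, ?_⟩
  rw [map_nsmul, nsmul_eq_mul]
  have h1 : c ≤ (c.toNat : ℤ) := Int.self_le_toNat c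
  have h2 : (0 : ℤ) ≤ (c.toNat : ℤ) := Int.natCast_nonneg _
  nlinarith

/-- Upper bound for the Riemann genus: a Riemann inequality with constant `g'` for divisors of
large degree forces `genusR ≤ g'`. -/
theorem genusR_le_of (h : RR.Hyp K F) {g' c : ℤ}
    (hg' : ∀ D : Divisor K F, c ≤ Divisor.degree D → Divisor.degree D + 1 - g' ≤ RR.ell D) :
    genusR K F ≤ g' := by
  obtain ⟨-, c₀, h2⟩ := genusR_spec h
  obtain ⟨D, hD⟩ := exists_degree_ge h (max c c₀)
  have e1 := h2 D ((le_max_right _ _).trans hD)
  have e2 := hg' D ((le_max_left _ _).trans hD)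
  omega

/-- Lower bound for the Riemann genus: `ℓ(D) ≤ deg D + 1 - g'` for some divisors of arbitrarily
large degree forces `g' ≤ genusR`. -/
theorem le_genusR_of (h : RR.Hyp K F) {g' : ℤ}
    (hg' : ∀ c : ℤ, ∃ D : Divisor K F, c ≤ Divisor.degree D ∧
      (RR.ell D : ℤ) ≤ Divisor.degree D + 1 - g') :
    g' ≤ genusR K F := by
  obtain ⟨-, c₀, h2⟩ := genusR_spec h
  obtain ⟨D, hD, e2⟩ := hg' c₀
  have e1 := h2 D hD
  omega

/-- Uniqueness of the Riemann genus. -/
theorem genusR_eq_of (h : RR.Hyp K F) {g' c : ℤ}
    (hg' : ∀ D : Divisor K F, c ≤ Divisor.degree D →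
      (RR.ell D : ℤ) = Divisor.degree D + 1 - g') :
    genusR K F = g' := by
  apply le_antisymm
  · exact genusR_le_of h (c := c) fun D hD => (hg' D hD).ge
  · refine le_genusR_of h fun c' => ?_
    obtain ⟨D, hD⟩ := exists_degree_ge h (max c c')
    exact ⟨D, (le_max_right _ _).trans hD, (hg' D ((le_max_left _ _).trans hD)).le⟩

end Generic

/-- `RR.Hyp` for the function field of `X₀(N)` over an algebraically closed field of
characteristic zero embedded in `ℂ`. -/
theorem hyp_FF {L : Type*} [Field L] [Algebra ℚ L] [IsAlgClosed L] (ι : L →+* ℂ) (N : ℕ)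
    [NeZero N] : RR.Hyp L ↥(S24.FF L N) := by
  haveI := S24.Degree.finiteDimensional ι N
  exact hyp_of_finite (S24.jElt L N) (S24.DegreeCore.transcendental_jElt N)

/-- `RR.Hyp` for the frozen function field `modularFunctionFieldBar N` of `X₀(N)` over `ℚ̄`. -/
theorem hyp_bar (N : ℕ) [NeZero N] :
    RR.Hyp (AlgebraicClosure ℚ) ↥(modularFunctionFieldBar N) := by
  obtain ⟨ι, -⟩ := exists_embedding
  exact hyp_FF ι N

end Fermat.Agent.S18.PHyp

end
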