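/-
S18: genus zero implies rational.

If Riemann's inequality holds with genus `0` (`ℓ(D) ≥ deg D + 1` for all `D`) in a function field
`F / K` of one variable over an algebraically closed field of any characteristic, then
`F = K(x)`: for a place `P`, `ℓ(P) ≥ 2` gives a function `x` with exactly one pole, of order one;
such an `x` is a separating element (its order at `P` is prime to the characteristic), and
`[F : K(x)] = 1` by the sum formula for the poles.
-/
import Fermat.Agent.S18.PHyp

set_option autoImplicit false
set_option linter.style.haveILetI false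

noncomputable section

namespace Fermat.Agent.S18.GZ

open AlgebraicCurve IntermediateField ModularCurve
open Fermat.Agent.S20

variable {K F : Type*} [Field K] [Field F] [Algebra K F]

/-- A function with exactly one pole, of order one, generates the function field. -/
theorem adjoin_eq_top_of_simple_pole [IsAlgClosed K] (x₀ : F) [FiniteDimensional K⟮x₀⟯ F]
    (x : F) (P : Place K F) (hP : P.ord x = -1) (hreg : ∀ v : Place K F, v ≠ P → 0 ≤ v.ord x) :
    K⟮x⟯ = ⊤ := by
  have hxK : x ∉ Set.range (algebraMap K F) := by
    rintro ⟨c, rfl⟩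
    rw [S24.Places.ord_algebraMap] at hP
    omega
  have hxt : Transcendental K x := fun halg => by
    obtain ⟨c, hc⟩ := S24.Places.exists_algebraMap_eq_of_isAlgebraic halg
    exact hxK ⟨c, hc⟩
  haveI hfin : FiniteDimensional K⟮x⟯ F := S24.Places.finiteDimensional_of_transcendental x₀ hxt
  haveI hsep : Algebra.IsSeparable K⟮x⟯ F := by
    obtain ⟨q, hq⟩ := ExpChar.exists F
    cases hq with
    | zero =>
      haveI : CharZero K⟮x⟯ := RingHom.charZero (algebraMap K⟮x⟯ F)
      infer_instance
    | prime hq' =>
      haveI := Fact.mk hq'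
      refine PFrob.isSeparable_of_not_mem q x ?_
      intro hmem
      obtain ⟨z, hz⟩ := (PFrob.mem_Fpn q).mp hmem
      rw [pow_one] at hz
      have h1 := P.ord_zpow z (q : ℤ)
      rw [zpow_natCast, hz, hP] at h1
      have hq2 : (2 : ℤ) ≤ q := by exact_mod_cast hq'.two_le
      have h2 : (q : ℤ) ∣ 1 := ⟨-P.ord z, by linarith⟩
      have h3 := Int.le_of_dvd one_pos h2
      omega
  obtain ⟨-, hsum⟩ := PSep.sum_ord_poles x hxt
  have hset : {v : Place K F | v.ord x < 0} = {P} := by
    ext v
    simp only [Set.mem_ofPred_eq, Set.mem_singleton_iff]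
    constructor
    · intro hv
      by_contra hne
      have := hreg v hne
      omega
    · rintro rfl
      omega
  rw [hset, finsum_mem_singleton, hP] at hsum
  have h1 : Module.finrank K⟮x⟯ F = 1 := by omega
  exact IntermediateField.finrank_eq_one_iff_eq_top.mp h1

/-- **Genus zero implies rational** (any characteristic). -/
theorem exists_generator [IsAlgClosed K] (x₀ : F) (hx₀ : Transcendental K x₀)
    [FiniteDimensional K⟮x₀⟯ F]
    (hR : ∀ D : Divisor K F, Divisor.degree D + 1 ≤ RR.ell D) : ∃ x : F, K⟮x⟯ = ⊤ := by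
  have h := PHyp.hyp_of_finite x₀ hx₀
  have h0 := h.toHyp0
  -- a place
  obtain ⟨B, c, -, hBdeg, -⟩ := h.bound
  have hBne : B ≠ 0 := by
    rintro rfl
    simp at hBdeg
  obtain ⟨P, -⟩ : ∃ P, B P ≠ 0 := by
    by_contra hall
    push Not at hall
    exact hBne (Finsupp.ext hall)
  set D : Divisor K F := Finsupp.single P 1 with hD
  have hdeg : Divisor.degree D = 1 := by
    rw [hD, Divisor.degree_single, h0.deg_one P]
    simp
  have hell : 2 ≤ RR.ell D := by
    have := hR D
    rw [hdeg] at this
    omega
  -- a nonconstant element of `L(P)`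
  haveI hfinD := RR.finite h0 D
  obtain ⟨x, hxD, hxK⟩ : ∃ x ∈ riemannRochSpace D, x ∉ Set.range (algebraMap K F) := by
    by_contra hall
    push Not at hall
    have hle : riemannRochSpace D ≤ Submodule.span K {(1 : F)} := by
      intro y hy
      obtain ⟨c, rfl⟩ := hall y hy
      rw [Submodule.mem_span_singleton]
      exact ⟨c, by rw [Algebra.smul_def, mul_one]⟩
    have h1 := Submodule.finrank_mono hle
    have h2 : Module.finrank K (Submodule.span K {(1 : F)}) = 1 :=
      finrank_span_singleton one_ne_zero
    unfold RR.ell at hell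
    omega
  have hx0 : x ≠ 0 := by
    rintro rfl
    exact hxK ⟨0, by simp⟩
  have hord : ∀ v, -D v ≤ v.ord x := fun v =>
    ((mem_riemannRochSpace_iff.mp hxD) v).resolve_left hx0
  have hreg : ∀ v, v ≠ P → 0 ≤ v.ord x := by
    intro v hv
    have h1 := hord v
    rw [hD, Finsupp.single_eq_of_ne hv] at h1
    omega
  have hP1 : -1 ≤ P.ord x := by
    have h1 := hord P
    rw [hD, Finsupp.single_eq_same] at h1
    omega
  have hPneg : P.ord x < 0 := by
    by_contra hge
    push Not at hge
    obtain ⟨c, hc⟩ := h0.const x (fun v => by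
      by_cases hv : v = P
      · rw [hv]
        exact hge
      · exact hreg v hv)
    exact hxK ⟨c, hc.symm⟩
  exact ⟨x, adjoin_eq_top_of_simple_pole x₀ x P (by omega) hreg⟩

/-- Riemann genus zero implies rational. -/
theorem exists_generator_of_genusR [IsAlgClosed K] (x₀ : F) (hx₀ : Transcendental K x₀)
    [FiniteDimensional K⟮x₀⟯ F] (hg : PHyp.genusR K F = 0) : ∃ x : F, K⟮x⟯ = ⊤ :=
  exists_generator x₀ hx₀ fun D => by
    have := PHyp.le_ell (PHyp.hyp_of_finite x₀ hx₀) D
    rw [hg] at this
    linarith

/-- **Level `M₀` of genus zero (`M₀ = 4, 9`) in characteristic zero**: the function field of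
`X₀(M₀)` is rational, given Riemann's inequality with the classical genus. -/
theorem exists_generator_FF {L : Type*} [Field L] [Algebra ℚ L] [IsAlgClosed L] (ι : L →+* ℂ)
    (M₀ : ℕ) [NeZero M₀] (hg : genusFormula M₀ = 0)
    (hR : ∀ D : Divisor L ↥(S24.FF L M₀), (Divisor.degree D : ℚ) + 1 - genusFormula M₀ ≤
      (Module.finrank L (riemannRochSpace D) : ℚ)) :
    ∃ x : ↥(S24.FF L M₀), L⟮x⟯ = ⊤ := by
  haveI := S24.Degree.finiteDimensional ι M₀
  refine exists_generator (S24.jElt L M₀) (S24.DegreeCore.transcendental_jElt M₀) fun D => ?_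
  have h1 := hR D
  rw [hg, sub_zero] at h1
  unfold RR.ell
  exact_mod_cast h1

end Fermat.Agent.S18.GZ

end
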