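/-
S18, numerics: the genus formula at levels divisible by 4 or 9, the arithmetic of the
Riemann–Hurwitz inequality over `X₀(4)` / `X₀(9)`, and the auxiliary levels `N ∣ M ∣ M'`.
-/
import Mathlib
import Fermat.Prelude.Def_ModularCurve_GenusNumerics
import Fermat.Agent.S24.CombIndex

set_option autoImplicit false

namespace Fermat.Agent.S18.Num

open ModularCurve

/-! ### Elliptic points -/

theorem nuTwo_eq_zero_of_four_dvd {N : ℕ} (h : 4 ∣ N) : nuTwo N = 0 := by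
  unfold nuTwo
  rw [Nat.card_eq_zero]
  left
  refine ⟨?_⟩
  rintro ⟨x, hx⟩
  have h1 := congrArg (ZMod.castHom h (ZMod 4)) hx
  simp only [map_add, map_pow, map_one, map_zero] at h1
  revert h1
  generalize ZMod.castHom h (ZMod 4) x = y
  revert y
  decide

theorem nuTwo_eq_zero_of_three_dvd {N : ℕ} (h : 3 ∣ N) : nuTwo N = 0 := by
  unfold nuTwo
  rw [Nat.card_eq_zero]
  left
  refine ⟨?_⟩
  rintro ⟨x, hx⟩
  have h1 := congrArg (ZMod.castHom h (ZMod 3)) hx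
  simp only [map_add, map_pow, map_one, map_zero] at h1
  revert h1
  generalize ZMod.castHom h (ZMod 3) x = y
  revert y
  decide

theorem nuThree_eq_zero_of_two_dvd {N : ℕ} (h : 2 ∣ N) : nuThree N = 0 := by
  unfold nuThree
  rw [Nat.card_eq_zero]
  left
  refine ⟨?_⟩
  rintro ⟨x, hx⟩
  have h1 := congrArg (ZMod.castHom h (ZMod 2)) hx
  simp only [map_add, map_pow, map_one, map_zero] at h1
  revert h1
  generalize ZMod.castHom h (ZMod 2) x = y
  revert y
  decide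

theorem nuThree_eq_zero_of_nine_dvd {N : ℕ} (h : 9 ∣ N) : nuThree N = 0 := by
  unfold nuThree
  rw [Nat.card_eq_zero]
  left
  refine ⟨?_⟩
  rintro ⟨x, hx⟩
  have h1 := congrArg (ZMod.castHom h (ZMod 9)) hx
  simp only [map_add, map_pow, map_one, map_zero] at h1
  revert h1
  generalize ZMod.castHom h (ZMod 9) x = y
  revert y
  decide

/-! ### The genus formula without elliptic points -/

theorem genusFormula_of_four_dvd {N : ℕ} (h : 4 ∣ N) :
    genusFormula N = 1 + (dedekindPsi N : ℚ) / 12 - (cuspCount N : ℚ) / 2 := by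
  unfold genusFormula
  rw [nuTwo_eq_zero_of_four_dvd h, nuThree_eq_zero_of_two_dvd ((by norm_num : 2 ∣ 4).trans h)]
  simp

theorem genusFormula_of_nine_dvd {N : ℕ} (h : 9 ∣ N) :
    genusFormula N = 1 + (dedekindPsi N : ℚ) / 12 - (cuspCount N : ℚ) / 2 := by
  unfold genusFormula
  rw [nuThree_eq_zero_of_nine_dvd h, nuTwo_eq_zero_of_three_dvd ((by norm_num : 3 ∣ 9).trans h)]
  simp

theorem dedekindPsi_four : dedekindPsi 4 = 6 := by
  have h1 : dedekindPsi (1 * 2) = dedekindPsi 1 * (2 + 1) :=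
    Fermat.Agent.S24.Comb.dedekindPsi_mul_of_not_dvd one_ne_zero Nat.prime_two (by decide)
  have h2 : dedekindPsi (1 * 2 * 2) = dedekindPsi (1 * 2) * 2 :=
    Fermat.Agent.S24.Comb.dedekindPsi_mul_of_dvd (by norm_num) Nat.prime_two (by norm_num)
  rw [h1, dedekindPsi_one] at h2
  exact h2

theorem dedekindPsi_nine : dedekindPsi 9 = 12 := by
  have h1 : dedekindPsi (1 * 3) = dedekindPsi 1 * (3 + 1) :=
    Fermat.Agent.S24.Comb.dedekindPsi_mul_of_not_dvd one_ne_zero Nat.prime_three (by decide)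
  have h2 : dedekindPsi (1 * 3 * 3) = dedekindPsi (1 * 3) * 3 :=
    Fermat.Agent.S24.Comb.dedekindPsi_mul_of_dvd (by norm_num) Nat.prime_three (by norm_num)
  rw [h1, dedekindPsi_one] at h2
  exact h2

theorem cuspCount_four : cuspCount 4 = 3 := by decide

theorem cuspCount_nine : cuspCount 9 = 4 := by decide

theorem genusFormula_four : genusFormula 4 = 0 := by
  rw [genusFormula_of_four_dvd dvd_rfl, dedekindPsi_four, cuspCount_four]
  norm_num

theorem genusFormula_nine : genusFormula 9 = 0 := by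
  rw [genusFormula_of_nine_dvd dvd_rfl, dedekindPsi_nine, cuspCount_nine]
  norm_num

/-! ### Arithmetic of the Riemann–Hurwitz inequality (`RRLite.theoremA`) -/

/-- Bookkeeping for `RRLite.theoremA`: `s`, `sinf` are the (truncated) deficiencies
`∑_{a ∈ T} (n - r_a)`, `n - r_∞`; `r₁`, `r₂` the numbers of points over the finite base cusps and
over `∞`; `c₁ + c₂` the number of base cusps. -/
theorem two_add_le {n Ω c s sinf r₁ r₂ c₁ c₂ : ℕ} (hA : 2 + s + sinf ≤ 2 * Ω + 2 * n)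
    (hs : c₁ * n ≤ s + r₁) (hsinf : c₂ * n ≤ sinf + r₂) (hr : r₁ + r₂ ≤ c) :
    2 + (c₁ + c₂) * n ≤ 2 * Ω + 2 * n + c := by
  rw [add_mul]
  omega

/-- Truncated subtraction over a finite set of base points. -/
theorem card_mul_le_sum_sub_add_sum {ι : Type*} (T : Finset ι) (n : ℕ) (r : ι → ℕ) :
    T.card * n ≤ ∑ a ∈ T, (n - r a) + ∑ a ∈ T, r a := by
  rw [← Finset.sum_add_distrib, Finset.card_eq_sum_ones, Finset.sum_mul]
  refine Finset.sum_le_sum fun a _ => ?_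
  omega

/-- Over `X₀(4)` (three cusps, degree `n = ψ(N) / 6`): the Riemann–Hurwitz inequality gives
`genusFormula N ≤ dim Ω`. -/
theorem genusFormula_le_of_four {N n Ω : ℕ} (h4 : 4 ∣ N) (hn : 6 * n = dedekindPsi N)
    (h : 2 + 3 * n ≤ 2 * Ω + 2 * n + cuspCount N) : genusFormula N ≤ Ω := by
  rw [genusFormula_of_four_dvd h4, ← hn]
  have h' : (2 : ℚ) + 3 * n ≤ 2 * Ω + 2 * n + cuspCount N := by exact_mod_cast h
  push_cast
  linarith

/-- Over `X₀(9)` (four cusps, degree `n = ψ(N) / 12`): the Riemann–Hurwitz inequality gives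
`genusFormula N ≤ dim Ω`. -/
theorem genusFormula_le_of_nine {N n Ω : ℕ} (h9 : 9 ∣ N) (hn : 12 * n = dedekindPsi N)
    (h : 2 + 4 * n ≤ 2 * Ω + 2 * n + cuspCount N) : genusFormula N ≤ Ω := by
  rw [genusFormula_of_nine_dvd h9, ← hn]
  have h' : (2 : ℚ) + 4 * n ≤ 2 * Ω + 2 * n + cuspCount N := by exact_mod_cast h
  push_cast
  linarith

/-! ### Auxiliary levels -/

open Fermat.Agent.S24.Comb in
/-- **Level bookkeeping.** For a prime `ℓ ∤ N` there are levels `N ∣ M ∣ M'` prime to `ℓ` with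
`4 ∣ M'` (`ℓ` odd) resp. `9 ∣ M'` (`ℓ = 2`), `ψ(M) / ψ(N)` a power of `ℓ` and `ψ(M') / ψ(M)`
prime to `ℓ`. -/
theorem exists_levels (ℓ N : ℕ) (hℓ : ℓ.Prime) (hN : N ≠ 0) (hℓN : ¬ ℓ ∣ N) :
    ∃ M M' : ℕ, N ∣ M ∧ M ∣ M' ∧ ¬ ℓ ∣ M' ∧ (ℓ ≠ 2 → 4 ∣ M') ∧ (ℓ = 2 → 9 ∣ M') ∧
      (∃ e : ℕ, dedekindPsi M = ℓ ^ e * dedekindPsi N) ∧
      ∃ d : ℕ, dedekindPsi M' = d * dedekindPsi M ∧ ¬ ℓ ∣ d := by
  have h2 : Nat.Prime 2 := Nat.prime_two
  have h3 : Nat.Prime 3 := Nat.prime_three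
  have hdvd_mul : ∀ {a b : ℕ}, ℓ ∣ a * b → ℓ ∣ a ∨ ℓ ∣ b := fun h => (hℓ.dvd_mul).mp h
  by_cases hℓ2 : ℓ = 2
  · -- `ℓ = 2`, `N` odd: work with the prime `3`
    subst hℓ2
    have hn3 : ¬ (2 ∣ 3) := by decide
    by_cases h9 : 9 ∣ N
    · exact ⟨N, N, dvd_rfl, dvd_rfl, hℓN, fun h => absurd rfl h, fun _ => h9,
        ⟨0, by simp⟩, 1, by simp, by decide⟩
    by_cases h3N : 3 ∣ N
    · refine ⟨N, N * 3, dvd_rfl, Dvd.intro _ rfl, ?_, fun h => absurd rfl h, fun _ => ?_,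
        ⟨0, by simp⟩, 3, ?_, hn3⟩
      · intro h
        rcases hdvd_mul h with h | h
        exacts [hℓN h, hn3 h]
      · obtain ⟨k, rfl⟩ := h3N
        exact ⟨k, by ring⟩
      · rw [dedekindPsi_mul_of_dvd hN h3 h3N, mul_comm]
    · have hN3 : N * 3 ≠ 0 := Nat.mul_ne_zero hN (by norm_num)
      refine ⟨N * 3, N * 3 * 3, Dvd.intro _ rfl, Dvd.intro _ rfl, ?_, fun h => absurd rfl h,
        fun _ => ⟨N, by ring⟩, ⟨2, ?_⟩, 3, ?_, hn3⟩
      · intro h
        rcases hdvd_mul h with h | h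
        · rcases hdvd_mul h with h | h
          exacts [hℓN h, hn3 h]
        · exact hn3 h
      · rw [dedekindPsi_mul_of_not_dvd hN h3 h3N]
        ring
      · rw [dedekindPsi_mul_of_dvd hN3 h3 (Dvd.intro_left _ rfl), mul_comm]
  · -- `ℓ` odd: work with the prime `2`
    have hn2 : ¬ (ℓ ∣ 2) := fun h => hℓ2 ((Nat.prime_dvd_prime_iff_eq hℓ h2).mp h)
    by_cases h4 : 4 ∣ N
    · exact ⟨N, N, dvd_rfl, dvd_rfl, hℓN, fun _ => h4, fun h => absurd h hℓ2,
        ⟨0, by simp⟩, 1, by simp, fun h => hℓ.one_lt.ne' (Nat.dvd_one.mp h)⟩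
    by_cases h2N : 2 ∣ N
    · refine ⟨N, N * 2, dvd_rfl, Dvd.intro _ rfl, ?_, fun _ => ?_, fun h => absurd h hℓ2,
        ⟨0, by simp⟩, 2, ?_, hn2⟩
      · intro h
        rcases hdvd_mul h with h | h
        exacts [hℓN h, hn2 h]
      · obtain ⟨k, rfl⟩ := h2N
        exact ⟨k, by ring⟩
      · rw [dedekindPsi_mul_of_dvd hN h2 h2N, mul_comm]
    · have hN2 : N * 2 ≠ 0 := Nat.mul_ne_zero hN (by norm_num)
      have hnot : ¬ ℓ ∣ N * 2 * 2 := by
        intro h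
        rcases hdvd_mul h with h | h
        · rcases hdvd_mul h with h | h
          exacts [hℓN h, hn2 h]
        · exact hn2 h
      by_cases hℓ3 : ℓ = 3
      · -- `ℓ = 3`: `M = 2N`, `M' = 4N`
        subst hℓ3
        refine ⟨N * 2, N * 2 * 2, Dvd.intro _ rfl, Dvd.intro _ rfl, hnot, fun _ => ⟨N, by ring⟩,
          fun h => absurd h hℓ2, ⟨1, ?_⟩, 2, ?_, hn2⟩
        · rw [dedekindPsi_mul_of_not_dvd hN h2 h2N]
          ring
        · rw [dedekindPsi_mul_of_dvd hN2 h2 (Dvd.intro_left _ rfl), mul_comm]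
      · -- `ℓ ≥ 5`: `M = N`, `M' = 4N`
        refine ⟨N, N * 2 * 2, dvd_rfl, ⟨4, by ring⟩, hnot, fun _ => ⟨N, by ring⟩,
          fun h => absurd h hℓ2, ⟨0, by simp⟩, 6, ?_, ?_⟩
        · rw [dedekindPsi_mul_of_dvd hN2 h2 (Dvd.intro_left _ rfl),
            dedekindPsi_mul_of_not_dvd hN h2 h2N]
          ring
        · intro h
          have h6 : ℓ ∣ 2 * 3 := by simpa using h
          rcases hdvd_mul h6 with h | h
          · exact hn2 h
          · exact hℓ3 ((Nat.prime_dvd_prime_iff_eq hℓ h3).mp h)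

end Fermat.Agent.S18.Num
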