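/-
S18, chain R, piece R2a (content lemma; abstract: Mathlib + the frozen `coeffMap` only).

`A` is an arbitrary valuation subring of an arbitrary field `L` (no discreteness, no completeness).

* `toA`, `liftA`, `coeffMap_subtype_liftA`: restriction of the coefficients of a Laurent series
  over `L` to `A`;
* `exists_content`: a nonzero element `x` of the `L`-span of the Laurent series with *integer*
  coefficients is `c • y` with `c ≠ 0` and `y` a Laurent series over `A` one of whose coefficients
  is `1`.  (The coefficient vectors of `x = Σ cᵢ μᵢ` span a finitely generated `ℤ`-module, so the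
  maximal absolute value of the coefficients of `x` is attained on a finite generating set.)
* `intAlg`: the `L`-subalgebra generated by the integer series; it coincides with the span, so
  the content lemma applies to all polynomial expressions over `L` in integer series
  (`exists_content_of_mem_intAlg`).
-/
import Mathlib
import Fermat.Prelude.Def_ModularCurve_LaurentCoeff

set_option autoImplicit false

noncomputable section

namespace Fermat.Agent.S18.RC

open ModularCurve

variable {L : Type*} [Field L] (A : ValuationSubring L)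

/-- Restriction of a coefficient to `A` (junk value `0` outside `A`). -/
def toA : ZeroHom L A where
  toFun x := by
    classical
    exact if h : x ∈ A then ⟨x, h⟩ else 0
  map_zero' := by
    classical
    rw [dif_pos A.zero_mem]
    rfl

theorem toA_of_mem {x : L} (hx : x ∈ A) : toA A x = ⟨x, hx⟩ := by
  classical
  show (if h : x ∈ A then (⟨x, h⟩ : A) else 0) = _
  rw [dif_pos hx]

theorem coe_toA_of_mem {x : L} (hx : x ∈ A) : ((toA A x : A) : L) = x := by
  rw [toA_of_mem A hx]

/-- Restriction of the coefficients of a Laurent series to `A`. -/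
def liftA (x : LaurentSeries L) : LaurentSeries A := x.map (toA A)

theorem liftA_coeff (x : LaurentSeries L) (k : ℤ) : (liftA A x).coeff k = toA A (x.coeff k) :=
  rfl

theorem coeffMap_subtype_liftA {x : LaurentSeries L} (hx : ∀ k, x.coeff k ∈ A) :
    coeffMap A.subtype (liftA A x) = x := by
  ext k
  rw [coeffMap_coeff, liftA_coeff]
  exact coe_toA_of_mem A (hx k)

theorem coeffMap_subtype_injective : Function.Injective (coeffMap A.subtype) := by
  intro a b h
  ext k
  have := congrArg (fun x => HahnSeries.coeff x k) h
  simpa using this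

theorem coeffMap_subtype_coeff_mem (y : LaurentSeries A) (k : ℤ) :
    (coeffMap A.subtype y).coeff k ∈ A := by
  rw [coeffMap_coeff]
  exact (y.coeff k).2

theorem liftA_coeffMap_subtype (y : LaurentSeries A) : liftA A (coeffMap A.subtype y) = y :=
  coeffMap_subtype_injective A
    (coeffMap_subtype_liftA A (coeffMap_subtype_coeff_mem A y))

theorem algebraMap_eq_C (c : L) : algebraMap L (LaurentSeries L) c = HahnSeries.C c := by
  rw [algebraMap_laurentSeries_eq_single]
  rfl

theorem coeff_C_mul (c : L) (x : LaurentSeries L) (k : ℤ) :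
    (HahnSeries.C c * x).coeff k = c * x.coeff k := by
  rw [HahnSeries.C_mul_eq_smul, HahnSeries.coeff_smul, smul_eq_mul]

/-- **Content lemma** (explicit form).  A nonzero `L`-linear combination of Laurent series with
integer coefficients is a nonzero constant times a Laurent series over `A` having a
coefficient `1`. -/
theorem exists_content_of_sum {x : LaurentSeries L} {n : ℕ} (f : Fin n → L)
    (μ : Fin n → LaurentSeries ℤ)
    (hfg : x = ∑ i, HahnSeries.C (f i) * coeffMap (Int.castRingHom L) (μ i)) (hx0 : x ≠ 0) :
    ∃ (c : L) (y : LaurentSeries A) (k : ℤ),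
      c ≠ 0 ∧ x = HahnSeries.C c * coeffMap A.subtype y ∧ y.coeff k = 1 := by
  classical
  -- coefficient vectors
  set lam : ℤ → (Fin n → ℤ) := fun k i => (μ i).coeff k with hlam
  -- the evaluation functional
  let φ : (Fin n → ℤ) →+ L :=
    { toFun := fun v => ∑ i, (v i : L) * f i
      map_zero' := by simp
      map_add' := fun v w => by
        simp only [Pi.add_apply, Int.cast_add, add_mul, Finset.sum_add_distrib] }
  have hφ : ∀ v, φ v = ∑ i, (v i : L) * f i := fun v => rfl
  have hcoeff : ∀ k, x.coeff k = φ (lam k) := by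
    intro k
    rw [hfg, hφ]
    have h1 : (∑ i, HahnSeries.C (f i) * coeffMap (Int.castRingHom L) (μ i)).coeff k
        = ∑ i, (HahnSeries.C (f i) * coeffMap (Int.castRingHom L) (μ i)).coeff k := by
      have := map_sum (HahnSeries.coeff.addMonoidHom k : LaurentSeries L →+ L)
        (fun i => HahnSeries.C (f i) * coeffMap (Int.castRingHom L) (μ i)) Finset.univ
      exact this
    rw [h1]
    refine Finset.sum_congr rfl fun i _ => ?_
    rw [coeff_C_mul, coeffMap_coeff, mul_comm]
    rfl
  -- finite generation
  have hfg' : (Submodule.span ℤ (Set.range lam)).FG := IsNoetherian.noetherian _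
  obtain ⟨T, hT, hspan⟩ := (Submodule.fg_span_iff_fg_span_finset_subset (Set.range lam)).mp hfg'
  -- some generator has nonzero value
  have hex : ∃ t ∈ T, φ t ≠ 0 := by
    by_contra hcon
    push Not at hcon
    apply hx0
    have hker : Submodule.span ℤ (Set.range lam) ≤ (φ.ker).toIntSubmodule := by
      rw [hspan, Submodule.span_le]
      intro t ht
      exact hcon t ht
    ext k
    rw [hcoeff k]
    exact hker (Submodule.subset_span ⟨k, rfl⟩)
  obtain ⟨t₁, ht₁, ht₁0⟩ := hex
  obtain ⟨t₀, ht₀, hmax⟩ := Finset.exists_max_image T (fun t => A.valuation (φ t)) ⟨t₁, ht₁⟩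
  have hc0 : φ t₀ ≠ 0 := by
    intro h0
    have h1 := hmax t₁ ht₁
    rw [h0, map_zero] at h1
    exact ht₁0 ((Valuation.zero_iff _).mp (le_antisymm h1 zero_le))
  set c : L := φ t₀ with hc
  -- all values divided by `c` lie in `A`
  let P : AddSubgroup (Fin n → ℤ) :=
    { carrier := {v | c⁻¹ * φ v ∈ A}
      zero_mem' := by
        show c⁻¹ * φ 0 ∈ A
        rw [map_zero, mul_zero]; exact A.zero_mem
      add_mem' := fun {v w} hv hw => by
        show c⁻¹ * φ (v + w) ∈ A
        rw [map_add, mul_add]; exact A.add_mem _ _ hv hw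
      neg_mem' := fun {v} hv => by
        show c⁻¹ * φ (-v) ∈ A
        rw [map_neg, mul_neg]; exact A.neg_mem _ hv }
  have hTP : ∀ t ∈ T, t ∈ P := by
    intro t ht
    show c⁻¹ * φ t ∈ A
    rw [← ValuationSubring.valuation_le_one_iff, map_mul, map_inv₀]
    have h1 := hmax t ht
    have hv0 : A.valuation c ≠ 0 := (Valuation.ne_zero_iff _).mpr hc0
    rw [inv_mul_le_iff₀ (zero_lt_iff.mpr hv0), mul_one]
    exact h1
  have hall : ∀ k, c⁻¹ * x.coeff k ∈ A := by
    intro k
    have hle : Submodule.span ℤ (Set.range lam) ≤ P.toIntSubmodule := by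
      rw [hspan, Submodule.span_le]
      exact hTP
    rw [hcoeff k]
    exact hle (Submodule.subset_span ⟨k, rfl⟩)
  obtain ⟨k₀, hk₀⟩ : ∃ k₀, lam k₀ = t₀ := hT ht₀
  have hall' : ∀ k, (HahnSeries.C c⁻¹ * x).coeff k ∈ A := by
    intro k
    rw [coeff_C_mul]
    exact hall k
  refine ⟨c, liftA A (HahnSeries.C c⁻¹ * x), k₀, hc0, ?_, ?_⟩
  · rw [coeffMap_subtype_liftA A hall', ← mul_assoc, ← map_mul, mul_inv_cancel₀ hc0, map_one,
      one_mul]
  · apply Subtype.ext
    rw [liftA_coeff, coe_toA_of_mem A (hall' k₀), coeff_C_mul, hcoeff k₀,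
      hk₀, inv_mul_cancel₀ hc0]
    rfl

/-- The `L`-subalgebra of `L((q))` generated by the Laurent series with integer coefficients. -/
def intAlg (L : Type*) [Field L] : Subalgebra L (LaurentSeries L) :=
  Algebra.adjoin L (Set.range (coeffMap (Int.castRingHom L)))

theorem coeffMap_intCast_mem_intAlg (μ : LaurentSeries ℤ) :
    coeffMap (Int.castRingHom L) μ ∈ intAlg L :=
  Algebra.subset_adjoin ⟨μ, rfl⟩

theorem exists_sum_of_mem_intAlg {x : LaurentSeries L} (hx : x ∈ intAlg L) :
    ∃ (n : ℕ) (f : Fin n → L) (μ : Fin n → LaurentSeries ℤ),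
      x = ∑ i, HahnSeries.C (f i) * coeffMap (Int.castRingHom L) (μ i) := by
  have h := Algebra.adjoin_eq_span L (Set.range (coeffMap (Int.castRingHom L)))
  have h2 : Set.range (coeffMap (Int.castRingHom L))
      = (((coeffMap (Int.castRingHom L)).rangeS.toSubmonoid : Submonoid (LaurentSeries L)) :
          Set (LaurentSeries L)) := by
    ext z
    rfl
  rw [h2, Submonoid.closure_eq, ← h2] at h
  have h3 : x ∈ Subalgebra.toSubmodule (intAlg L) := hx
  rw [intAlg, h] at h3
  obtain ⟨n, f, g, hfg⟩ := (@Submodule.mem_span_set' L (LaurentSeries L) _ _ Algebra.toModule x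
    (Set.range (coeffMap (Int.castRingHom L)))).mp h3
  choose μ hμ using fun i => (g i).2
  refine ⟨n, f, μ, ?_⟩
  rw [← hfg]
  refine Finset.sum_congr rfl fun i _ => ?_
  rw [Algebra.smul_def, algebraMap_eq_C, hμ i]

/-- **Content lemma.**  A nonzero element of the `L`-algebra generated by the Laurent series
with integer coefficients is a nonzero constant times a Laurent series over `A` having a
coefficient `1`. -/
theorem exists_content {x : LaurentSeries L} (hx : x ∈ intAlg L) (hx0 : x ≠ 0) :
    ∃ (c : L) (y : LaurentSeries A) (k : ℤ),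
      c ≠ 0 ∧ x = HahnSeries.C c * coeffMap A.subtype y ∧ y.coeff k = 1 := by
  obtain ⟨n, f, μ, hfg⟩ := exists_sum_of_mem_intAlg hx
  exact exists_content_of_sum A f μ hfg hx0

end Fermat.Agent.S18.RC

end
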