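/-
S18, chain R, piece R2: the Gauss valuation ring.

`A` is a valuation subring of a field `L`, `k = A/𝔪` its residue field.

* abstract part (any field `L`): `Lam A` (quotients `a/b` of Laurent series over `A` with `b` nonzero
  modulo `𝔪`, a subring of `L((q))`) and its residue homomorphism `resL A : Lam A →+* k((q))`;
  Gauss's lemma `mem_of_C_mul_eq`.
* modular part (`[Algebra ℚ L]`, level `N`): the valuation subring `V A N = F ∩ Lam A` of the
  function field `F = FF L N` of `X₀(N)` over `L`, its residue map `rhoL A N : V A N →+* k((q))`,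
  the normal form `exists_unit_form` of the nonzero elements of `F`, and the facts (i)–(v) listed
  at the end of the file, together with the extension of the frozen reduction property
  `IsPlaceReductionAlong` to all units of `V A N`.
-/
import Mathlib
import Fermat.Prelude.Def_ModularCurve_ReductionModL
import Fermat.Agent.S24.Mod.Ext
import Fermat.Agent.S18.RContent

set_option autoImplicit false

noncomputable section

namespace Fermat.Agent.S18.RG

open ModularCurve AlgebraicCurve Fermat.Agent.S24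

section Abstract

variable {L : Type*} [Field L] (A : ValuationSubring L)

local notation "incl" => coeffMap (ValuationSubring.subtype A)
local notation "red" => coeffMap (IsLocalRing.residue A)

theorem coeffMap_C {R S : Type*} [CommRing R] [CommRing S] (f : R →+* S) (r : R) :
    coeffMap f (HahnSeries.C r : LaurentSeries R) = HahnSeries.C (f r) := by
  rw [HahnSeries.C_apply, HahnSeries.C_apply, coeffMap_single]

theorem incl_injective : Function.Injective incl := RC.coeffMap_subtype_injective A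

theorem red_ne_zero_of_coeff_eq_one {y : LaurentSeries A} {k : ℤ} (h : y.coeff k = 1) :
    red y ≠ 0 := by
  intro h0
  have h1 := congrArg (fun z => HahnSeries.coeff z k) h0
  simp only [coeffMap_coeff, h, map_one, HahnSeries.coeff_zero] at h1
  exact one_ne_zero h1

theorem red_C_of_not_isUnit {c : A} (hc : ¬ IsUnit c) :
    red (HahnSeries.C c : LaurentSeries A) = 0 := by
  rw [coeffMap_C]
  have : IsLocalRing.residue A c = 0 :=
    (IsLocalRing.residue_eq_zero_iff c).mpr ((IsLocalRing.mem_maximalIdeal c).mpr hc)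
  rw [this, map_zero]

/-- **Gauss's lemma.**  If `c • a = b` with `a`, `b` Laurent series over `A` and `a` nonzero
modulo the maximal ideal, then `c ∈ A`. -/
theorem mem_of_C_mul_eq {c : L} {a b : LaurentSeries A} (ha : red a ≠ 0)
    (h : HahnSeries.C c * incl a = incl b) : c ∈ A := by
  by_contra hc
  have hc0 : c ≠ 0 := fun h0 => hc (h0 ▸ A.zero_mem)
  have hci : c⁻¹ ∈ A := (A.mem_or_inv_mem c).resolve_left hc
  have hnu : ¬ IsUnit (⟨c⁻¹, hci⟩ : A) := by
    intro hu
    obtain ⟨d, hd⟩ := hu.exists_right_inv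
    have hd' : c⁻¹ * (d : L) = 1 := by
      have := congrArg Subtype.val hd
      simpa using this
    have : (d : L) = c := by
      field_simp at hd'
      exact hd'
    exact hc (this ▸ d.2)
  have h2 : incl a = incl (HahnSeries.C (⟨c⁻¹, hci⟩ : A) * b) := by
    rw [map_mul, coeffMap_C, ← h, ← mul_assoc, ← map_mul]
    show incl a = HahnSeries.C (c⁻¹ * c) * incl a
    rw [inv_mul_cancel₀ hc0, map_one, one_mul]
  have h3 := incl_injective A h2
  apply ha
  rw [h3, map_mul, red_C_of_not_isUnit A hnu, zero_mul]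

theorem red_eq_of_C_mul_eq {c : L} (hc : c ∈ A) {a b : LaurentSeries A}
    (h : HahnSeries.C c * incl a = incl b) :
    red b = HahnSeries.C (IsLocalRing.residue A ⟨c, hc⟩) * red a := by
  have h2 : incl b = incl (HahnSeries.C (⟨c, hc⟩ : A) * a) := by
    rw [map_mul, coeffMap_C, ← h]
    rfl
  rw [incl_injective A h2, map_mul, coeffMap_C]

/-- Quotients `a / b` of Laurent series over `A` with `b` nonzero modulo the maximal ideal. -/
def Lam : Subring (LaurentSeries L) where
  carrier := {x | ∃ a b : LaurentSeries A, red b ≠ 0 ∧ x * incl b = incl a}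
  mul_mem' := by
    rintro x y ⟨a, b, hb, hx⟩ ⟨a', b', hb', hy⟩
    refine ⟨a * a', b * b', ?_, ?_⟩
    · rw [map_mul]; exact mul_ne_zero hb hb'
    · rw [map_mul, map_mul, ← hx, ← hy]; ring
  one_mem' := ⟨1, 1, by rw [map_one]; exact one_ne_zero, by rw [map_one, mul_one]⟩
  add_mem' := by
    rintro x y ⟨a, b, hb, hx⟩ ⟨a', b', hb', hy⟩
    refine ⟨a * b' + a' * b, b * b', ?_, ?_⟩
    · rw [map_mul]; exact mul_ne_zero hb hb'
    · rw [map_mul, map_add, map_mul, map_mul, ← hx, ← hy]; ring
  zero_mem' := ⟨0, 1, by rw [map_one]; exact one_ne_zero, by rw [map_zero, zero_mul]⟩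
  neg_mem' := by
    rintro x ⟨a, b, hb, hx⟩
    exact ⟨-a, b, hb, by rw [map_neg, ← hx]; ring⟩

theorem mem_Lam {x : LaurentSeries L} :
    x ∈ Lam A ↔ ∃ a b : LaurentSeries A, red b ≠ 0 ∧ x * incl b = incl a := Iff.rfl

theorem incl_mem_Lam (a : LaurentSeries A) : incl a ∈ Lam A :=
  ⟨a, 1, by rw [map_one]; exact one_ne_zero, by rw [map_one, mul_one]⟩

/-- numerator of a chosen representation -/
def num (x : Lam A) : LaurentSeries A := x.2.choose
/-- denominator of a chosen representation -/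
def den (x : Lam A) : LaurentSeries A := x.2.choose_spec.choose

theorem red_den_ne_zero (x : Lam A) : red (den A x) ≠ 0 := x.2.choose_spec.choose_spec.1

theorem mul_den (x : Lam A) : (x : LaurentSeries L) * incl (den A x) = incl (num A x) :=
  x.2.choose_spec.choose_spec.2

theorem red_div_eq {x : LaurentSeries L} {a b a' b' : LaurentSeries A} (hb : red b ≠ 0)
    (hb' : red b' ≠ 0) (h : x * incl b = incl a) (h' : x * incl b' = incl a') :
    red a / red b = red a' / red b' := by
  rw [div_eq_div_iff hb hb', ← map_mul, ← map_mul]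
  congr 1
  apply incl_injective A
  rw [map_mul, map_mul, ← h, ← h']
  ring

/-- The residue homomorphism `Lam A → k((q))`, `a / b ↦ ā / b̄`. -/
def resL : Lam A →+* LaurentSeries (IsLocalRing.ResidueField A) where
  toFun x := red (num A x) / red (den A x)
  map_one' := by
    rw [red_div_eq A (red_den_ne_zero A 1) (b' := 1) (a' := 1)
      (by rw [map_one]; exact one_ne_zero) (mul_den A 1)
      (by rw [map_one, mul_one]; rfl), map_one, div_one]
  map_mul' x y := by
    rw [div_mul_div_comm, ← map_mul, ← map_mul]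
    refine red_div_eq A (red_den_ne_zero A _) ?_ (mul_den A _) ?_
    · rw [map_mul]; exact mul_ne_zero (red_den_ne_zero A x) (red_den_ne_zero A y)
    · rw [map_mul, map_mul, ← mul_den A x, ← mul_den A y]
      push_cast
      ring
  map_zero' := by
    rw [red_div_eq A (red_den_ne_zero A 0) (b' := 1) (a' := 0)
      (by rw [map_one]; exact one_ne_zero) (mul_den A 0)
      (by rw [map_zero]; simp), map_zero, zero_div]
  map_add' x y := by
    rw [div_add_div _ _ (red_den_ne_zero A x) (red_den_ne_zero A y), ← map_mul, ← map_mul,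
      ← map_mul, ← map_add]
    refine red_div_eq A (red_den_ne_zero A _) ?_ (mul_den A _) ?_
    · rw [map_mul]; exact mul_ne_zero (red_den_ne_zero A x) (red_den_ne_zero A y)
    · rw [map_mul, map_add, map_mul, map_mul, ← mul_den A x, ← mul_den A y]
      push_cast
      ring

theorem resL_eq (x : Lam A) {a b : LaurentSeries A} (hb : red b ≠ 0)
    (h : (x : LaurentSeries L) * incl b = incl a) : resL A x = red a / red b :=
  red_div_eq A (red_den_ne_zero A x) hb (mul_den A x) h

theorem resL_incl (a : LaurentSeries A) : resL A ⟨incl a, incl_mem_Lam A a⟩ = red a := by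
  rw [resL_eq A ⟨incl a, incl_mem_Lam A a⟩ (b := 1) (a := a)
    (by rw [map_one]; exact one_ne_zero) (by rw [map_one, mul_one]), map_one, div_one]

end Abstract

section Modular

variable {L : Type*} [Field L] [Algebra ℚ L] (A : ValuationSubring L) (N : ℕ) [NeZero N]

local notation "incl" => coeffMap (ValuationSubring.subtype A)
local notation "red" => coeffMap (IsLocalRing.residue A)
local notation "kA" => IsLocalRing.ResidueField A

/-- The `q`-expansion of `j(d z)` over an arbitrary commutative ring. -/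
def jR (R : Type*) [CommRing R] (d : ℕ) [NeZero d] : LaurentSeries R := qExpand R d (jqModC R)

theorem coeffMap_jR {R S : Type*} [CommRing R] [CommRing S] (f : R →+* S) (d : ℕ) [NeZero d] :
    coeffMap f (jR R d) = jR S d := by
  rw [jR, coeffMap_qExpand, coeffMap_jqModC, jR]

theorem genS_eq (d : Dv N) [NeZero d.1] : Ext.genS L N d = jR L d.1 := by
  show coeffMap (algebraMap ℚ L) (qExpand ℚ d.1 jq) = _
  rw [← jqModC_rat]
  exact coeffMap_jR (algebraMap ℚ L) d.1

theorem incl_jR (d : Dv N) [NeZero d.1] : incl (jR A d.1) = Ext.genS L N d := by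
  rw [genS_eq, coeffMap_jR]

theorem genS_mem_intAlg (d : Dv N) : Ext.genS L N d ∈ RC.intAlg L := by
  have : NeZero d.1 := ⟨d.ne_zero⟩
  rw [genS_eq, ← coeffMap_jR (Int.castRingHom L)]
  exact RC.coeffMap_intCast_mem_intAlg _

theorem coe_evalL_mem_intAlg (P : MvPolynomial (Dv N) L) :
    ((evalL L N P : ↥(FF L N)) : LaurentSeries L) ∈ RC.intAlg L := by
  rw [Ext.coe_evalL]
  induction P using MvPolynomial.induction_on with
  | C c =>
    rw [MvPolynomial.aeval_C]
    exact Subalgebra.algebraMap_mem _ c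
  | add p q hp hq =>
    rw [map_add]
    exact add_mem hp hq
  | mul_X p d hp =>
    rw [map_mul, MvPolynomial.aeval_X]
    exact mul_mem hp (genS_mem_intAlg N d)

omit [NeZero N] in
theorem C_mem_FF (c : L) : (HahnSeries.C c : LaurentSeries L) ∈ FF L N := by
  rw [← RC.algebraMap_eq_C]
  exact (FF L N).algebraMap_mem c

/-- **Normal form.**  Every nonzero element of the function field is `c • a / b` with `c ≠ 0` a
constant and `a`, `b` elements of the function field whose `q`-expansions have coefficients in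
`A`, one of them equal to `1`. -/
theorem exists_unit_form (f : ↥(FF L N)) (hf : f ≠ 0) :
    ∃ (c : L) (a b : LaurentSeries A), c ≠ 0 ∧ incl a ∈ FF L N ∧ incl b ∈ FF L N ∧
      (∃ k, a.coeff k = 1) ∧ (∃ k, b.coeff k = 1) ∧
      (f : LaurentSeries L) * incl b = HahnSeries.C c * incl a := by
  obtain ⟨P, Q, hQ, hfPQ⟩ := Ext.exists_eq_div L N f
  have hP : evalL L N P ≠ 0 := by
    intro h0
    apply hf
    rw [hfPQ, h0, zero_div]
  have hP' : ((evalL L N P : ↥(FF L N)) : LaurentSeries L) ≠ 0 := fun h => hP (Subtype.ext h)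
  have hQ' : ((evalL L N Q : ↥(FF L N)) : LaurentSeries L) ≠ 0 := fun h => hQ (Subtype.ext h)
  obtain ⟨c₁, y₁, k₁, hc₁, hy₁, hk₁⟩ := RC.exists_content A (coe_evalL_mem_intAlg N P) hP'
  obtain ⟨c₂, y₂, k₂, hc₂, hy₂, hk₂⟩ := RC.exists_content A (coe_evalL_mem_intAlg N Q) hQ'
  have hmem : ∀ (c : L) (y : LaurentSeries A) (R : MvPolynomial (Dv N) L), c ≠ 0 →
      ((evalL L N R : ↥(FF L N)) : LaurentSeries L) = HahnSeries.C c * incl y →
      incl y ∈ FF L N := by
    intro c y R hc h
    have h2 : incl y = HahnSeries.C c⁻¹ * ((evalL L N R : ↥(FF L N)) : LaurentSeries L) := by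
      rw [h, ← mul_assoc, ← map_mul, inv_mul_cancel₀ hc, map_one, one_mul]
    rw [h2]
    exact mul_mem (C_mem_FF N c⁻¹) (evalL L N R).2
  refine ⟨c₁ / c₂, y₁, y₂, div_ne_zero hc₁ hc₂, hmem c₁ y₁ P hc₁ hy₁, hmem c₂ y₂ Q hc₂ hy₂,
    ⟨k₁, hk₁⟩, ⟨k₂, hk₂⟩, ?_⟩
  have h1 : (f : LaurentSeries L) * ((evalL L N Q : ↥(FF L N)) : LaurentSeries L)
      = ((evalL L N P : ↥(FF L N)) : LaurentSeries L) := by
    have h2 : f * evalL L N Q = evalL L N P := by
      rw [hfPQ, div_mul_cancel₀ _ hQ]
    have h3 := congrArg (Subtype.val) h2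
    exact h3
  rw [hy₁, hy₂] at h1
  have hC2 : (HahnSeries.C c₂ : LaurentSeries L) ≠ 0 := by
    intro h0
    apply hc₂
    have := congrArg (fun z => HahnSeries.coeff z 0) h0
    simpa using this
  apply mul_left_cancel₀ hC2
  rw [div_eq_mul_inv, map_mul, ← mul_assoc (HahnSeries.C c₂), ← mul_assoc (HahnSeries.C c₂),
    mul_comm (HahnSeries.C c₂) (HahnSeries.C c₁ * _), mul_assoc (HahnSeries.C c₁), ← map_mul,
    inv_mul_cancel₀ hc₂, map_one, mul_one, ← h1]
  ring

/-- The Gauss valuation subring of the function field of `X₀(N)` over `L`. -/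
def V : ValuationSubring ↥(FF L N) :=
  { (Lam A).comap ((FF L N).val : ↥(FF L N) →+* LaurentSeries L) with
    mem_or_inv_mem' := by
      intro x
      by_cases hx : x = 0
      · left
        rw [hx]
        exact Subring.zero_mem _
      obtain ⟨c, a, b, hc, -, -, ⟨ka, hka⟩, ⟨kb, hkb⟩, h⟩ := exists_unit_form A N x hx
      by_cases hcA : c ∈ A
      · left
        refine ⟨HahnSeries.C (⟨c, hcA⟩ : A) * a, b, red_ne_zero_of_coeff_eq_one A hkb, ?_⟩
        rw [map_mul, coeffMap_C]
        exact h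
      · right
        have hci : c⁻¹ ∈ A := (A.mem_or_inv_mem c).resolve_left hcA
        refine ⟨HahnSeries.C (⟨c⁻¹, hci⟩ : A) * b, a, red_ne_zero_of_coeff_eq_one A hka, ?_⟩
        rw [map_mul, coeffMap_C]
        show ((x⁻¹ : ↥(FF L N)) : LaurentSeries L) * incl a = HahnSeries.C c⁻¹ * incl b
        have hx' : (x : LaurentSeries L) ≠ 0 := fun h0 => hx (Subtype.ext h0)
        have hC : (HahnSeries.C c : LaurentSeries L) ≠ 0 := by
          intro h0
          apply hc
          have := congrArg (fun z => HahnSeries.coeff z 0) h0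
          simpa using this
        rw [IntermediateField.coe_inv]
        apply mul_left_cancel₀ hx'
        apply mul_left_cancel₀ hC
        rw [← mul_assoc (x : LaurentSeries L), mul_inv_cancel₀ hx', one_mul,
          ← mul_assoc (x : LaurentSeries L), ← mul_assoc (HahnSeries.C c),
          mul_comm (HahnSeries.C c) ((x : LaurentSeries L) * _), mul_assoc (x : LaurentSeries L),
          ← map_mul, inv_mul_cancel₀ hc, map_one, mul_one, h] }

theorem mem_V {x : ↥(FF L N)} : x ∈ V A N ↔ (x : LaurentSeries L) ∈ Lam A := Iff.rfl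

/-- The inclusion `V A N → Lam A`. -/
def toLam : ↥(V A N) →+* ↥(Lam A) where
  toFun x := ⟨((x : ↥(FF L N)) : LaurentSeries L), x.2⟩
  map_one' := rfl
  map_mul' _ _ := rfl
  map_zero' := rfl
  map_add' _ _ := rfl

/-- The residue map of the Gauss valuation ring, with values in `k((q))`. -/
def rhoL : ↥(V A N) →+* LaurentSeries kA := (resL A).comp (toLam A N)

theorem rhoL_eq (x : ↥(V A N)) {a b : LaurentSeries A} (hb : red b ≠ 0)
    (h : ((x : ↥(FF L N)) : LaurentSeries L) * incl b = incl a) :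
    rhoL A N x = red a / red b :=
  resL_eq A (toLam A N x) hb h

theorem incl_mem_V {y : LaurentSeries A} (hy : incl y ∈ FF L N) :
    (⟨incl y, hy⟩ : ↥(FF L N)) ∈ V A N :=
  incl_mem_Lam A y

theorem rhoL_incl {y : LaurentSeries A} (hy : incl y ∈ FF L N) :
    rhoL A N ⟨⟨incl y, hy⟩, incl_mem_V A N hy⟩ = red y := by
  rw [rhoL_eq A N _ (b := 1) (a := y) (by rw [map_one]; exact one_ne_zero)
    (by rw [map_one, mul_one]), map_one, div_one]

omit [NeZero N] in
theorem coe_algebraMap_FF (c : L) :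
    ((algebraMap L ↥(FF L N) c : ↥(FF L N)) : LaurentSeries L) = HahnSeries.C c := by
  rw [← RC.algebraMap_eq_C]
  rfl

/-- Every element of `V A N` is `a / b` with `a`, `b` in the function field, with `A`-integral
`q`-expansions, `b` having a coefficient `1`. -/
theorem exists_integral_rep (x : ↥(FF L N)) (hx : x ∈ V A N) :
    ∃ a b : LaurentSeries A, incl a ∈ FF L N ∧ incl b ∈ FF L N ∧ (∃ k, b.coeff k = 1) ∧
      (x : LaurentSeries L) * incl b = incl a := by
  by_cases hx0 : x = 0
  · refine ⟨0, 1, ?_, ?_, ⟨0, ?_⟩, ?_⟩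
    · rw [map_zero]; exact (FF L N).zero_mem
    · rw [map_one]; exact (FF L N).one_mem
    · rw [HahnSeries.coeff_one, if_pos rfl]
    · rw [hx0, map_zero]
      show (0 : LaurentSeries L) * _ = 0
      rw [zero_mul]
  obtain ⟨c, a, b, hc, ha, hb, ⟨ka, hka⟩, ⟨kb, hkb⟩, h⟩ := exists_unit_form A N x hx0
  obtain ⟨a', b', hb', h'⟩ := (mem_V A N).mp hx
  have hcA : c ∈ A := by
    refine mem_of_C_mul_eq A (a := a * b') (b := a' * b) ?_ ?_
    · rw [map_mul]; exact mul_ne_zero (red_ne_zero_of_coeff_eq_one A hka) hb'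
    · rw [map_mul, map_mul, ← mul_assoc, ← h, ← h']; ring
  refine ⟨HahnSeries.C (⟨c, hcA⟩ : A) * a, b, ?_, hb, ⟨kb, hkb⟩, ?_⟩
  · rw [map_mul, coeffMap_C]; exact mul_mem (C_mem_FF N c) ha
  · rw [map_mul, coeffMap_C]; exact h

/-- (v) Every element of `V A N` with nonzero residue is `a / b` with `a`, `b` in the function
field, with `A`-integral `q`-expansions and nonzero reductions. -/
theorem exists_integral_div (x : ↥(V A N)) (hx : rhoL A N x ≠ 0) :
    ∃ a b : LaurentSeries A, incl a ∈ FF L N ∧ incl b ∈ FF L N ∧ red a ≠ 0 ∧ red b ≠ 0 ∧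
      ((x : ↥(FF L N)) : LaurentSeries L) * incl b = incl a ∧ rhoL A N x = red a / red b := by
  obtain ⟨a, b, ha, hb, ⟨k, hk⟩, h⟩ := exists_integral_rep A N x x.2
  have hb0 := red_ne_zero_of_coeff_eq_one A hk
  have hr := rhoL_eq A N x hb0 h
  refine ⟨a, b, ha, hb, ?_, hb0, h, hr⟩
  intro ha0
  apply hx
  rw [hr, ha0, zero_div]

theorem algebraMap_mem_V (c : A) : algebraMap L ↥(FF L N) (c : L) ∈ V A N := by
  refine (mem_V A N).mpr ⟨HahnSeries.C c, 1, by rw [map_one]; exact one_ne_zero, ?_⟩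
  rw [map_one, mul_one, coeffMap_C, coe_algebraMap_FF]
  rfl

/-- (iv) The Gauss valuation ring meets the constants in `A`. -/
theorem algebraMap_mem_V_iff (c : L) : algebraMap L ↥(FF L N) c ∈ V A N ↔ c ∈ A := by
  constructor
  · intro h
    obtain ⟨a, b, hb, h'⟩ := (mem_V A N).mp h
    rw [coe_algebraMap_FF] at h'
    exact mem_of_C_mul_eq A hb h'
  · intro hc
    exact algebraMap_mem_V A N ⟨c, hc⟩

/-- (iv) On constants the residue map is the residue map of `A`. -/
theorem rhoL_algebraMap (c : A) :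
    rhoL A N ⟨algebraMap L ↥(FF L N) (c : L), algebraMap_mem_V A N c⟩
      = HahnSeries.C (IsLocalRing.residue A c) := by
  rw [rhoL_eq A N _ (b := 1) (a := HahnSeries.C c) (by rw [map_one]; exact one_ne_zero)
    (by rw [map_one, mul_one, coeffMap_C, coe_algebraMap_FF]; rfl), map_one, div_one, coeffMap_C]

theorem C_ne_zero {R : Type*} [CommRing R] {c : R} (hc : c ≠ 0) :
    (HahnSeries.C c : LaurentSeries R) ≠ 0 := by
  intro h0
  apply hc
  have := congrArg (fun z => HahnSeries.coeff z 0) h0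
  simpa using this

/-- (i) Every nonzero element of the function field is a constant times a unit of `V A N`. -/
theorem exists_smul_mem (x : ↥(FF L N)) (hx : x ≠ 0) :
    ∃ (c : L) (h : algebraMap L ↥(FF L N) c * x ∈ V A N), c ≠ 0 ∧ rhoL A N ⟨_, h⟩ ≠ 0 := by
  obtain ⟨c, a, b, hc, -, -, ⟨ka, hka⟩, ⟨kb, hkb⟩, h⟩ := exists_unit_form A N x hx
  have hrep : ((algebraMap L ↥(FF L N) c⁻¹ * x : ↥(FF L N)) : LaurentSeries L) * incl b
      = incl a := by
    rw [IntermediateField.coe_mul, coe_algebraMap_FF, mul_assoc, h, ← mul_assoc, ← map_mul,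
      inv_mul_cancel₀ hc, map_one, one_mul]
  have hb0 := red_ne_zero_of_coeff_eq_one A hkb
  have hmem : algebraMap L ↥(FF L N) c⁻¹ * x ∈ V A N := (mem_V A N).mpr ⟨a, b, hb0, hrep⟩
  refine ⟨c⁻¹, hmem, inv_ne_zero hc, ?_⟩
  rw [rhoL_eq A N ⟨_, hmem⟩ hb0 hrep]
  exact div_ne_zero (red_ne_zero_of_coeff_eq_one A hka) hb0

/-- The units of `V A N` are the elements with nonzero residue. -/
theorem isUnit_iff (x : ↥(V A N)) : IsUnit x ↔ rhoL A N x ≠ 0 := by
  constructor
  · intro hu
    exact (hu.map (rhoL A N)).ne_zero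
  · intro hx
    obtain ⟨a, b, -, -, ha0, hb0, h, -⟩ := exists_integral_div A N x hx
    have hx0 : (x : ↥(FF L N)) ≠ 0 := by
      intro h0
      rw [h0] at h
      have h1 : incl a = 0 := by
        rw [← h]
        show (0 : LaurentSeries L) * _ = 0
        rw [zero_mul]
      apply ha0
      rw [incl_injective A (h1.trans (map_zero _).symm), map_zero]
    have hx0' : ((x : ↥(FF L N)) : LaurentSeries L) ≠ 0 := fun h0 => hx0 (Subtype.ext h0)
    have hinv : (x : ↥(FF L N))⁻¹ ∈ V A N := by
      refine (mem_V A N).mpr ⟨b, a, ha0, ?_⟩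
      rw [IntermediateField.coe_inv, ← h, ← mul_assoc, inv_mul_cancel₀ hx0', one_mul]
    exact IsUnit.of_mul_eq_one (⟨(x : ↥(FF L N))⁻¹, hinv⟩ : ↥(V A N))
      (Subtype.ext (mul_inv_cancel₀ hx0))

theorem rhoL_eq_zero_iff_not_isUnit (x : ↥(V A N)) : rhoL A N x = 0 ↔ ¬ IsUnit x := by
  rw [isUnit_iff, not_not]

theorem rhoL_eq_zero_iff_mem_maximalIdeal (x : ↥(V A N)) :
    rhoL A N x = 0 ↔ x ∈ IsLocalRing.maximalIdeal ↥(V A N) := by
  rw [IsLocalRing.mem_maximalIdeal, mem_nonunits_iff, rhoL_eq_zero_iff_not_isUnit]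

/-- (ii) The kernel of the residue map consists of the multiples of elements of the maximal
ideal of `A`: the Gauss valuation has the value group of `A`. -/
theorem rhoL_eq_zero_iff (x : ↥(V A N)) :
    rhoL A N x = 0 ↔ ∃ (c : A) (x' : ↥(V A N)), c ∈ IsLocalRing.maximalIdeal A ∧
      (x : ↥(FF L N)) = algebraMap L ↥(FF L N) (c : L) * (x' : ↥(FF L N)) := by
  constructor
  · intro hx
    by_cases hx0 : (x : ↥(FF L N)) = 0
    · exact ⟨0, 0, Ideal.zero_mem _, by rw [hx0]; simp⟩
    obtain ⟨c, hmem, hc, hne⟩ := exists_smul_mem A N (x : ↥(FF L N)) hx0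
    -- `c⁻¹ ∈ A`, and it is not a unit
    have hcx : (x : ↥(FF L N)) = algebraMap L ↥(FF L N) c⁻¹ * (algebraMap L ↥(FF L N) c * x) := by
      rw [← mul_assoc, ← map_mul, inv_mul_cancel₀ hc, map_one, one_mul]
    have hu : IsUnit (⟨_, hmem⟩ : ↥(V A N)) := (isUnit_iff A N _).mpr hne
    obtain ⟨w, hw⟩ := hu.exists_right_inv
    have hw' : algebraMap L ↥(FF L N) c * x * (w : ↥(FF L N)) = 1 := congrArg Subtype.val hw
    have hci : algebraMap L ↥(FF L N) c⁻¹ ∈ V A N := by
      have : algebraMap L ↥(FF L N) c⁻¹ = (x : ↥(FF L N)) * (w : ↥(FF L N)) := by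
        have h1 : algebraMap L ↥(FF L N) c⁻¹ * (algebraMap L ↥(FF L N) c * x * (w : ↥(FF L N)))
            = (x : ↥(FF L N)) * (w : ↥(FF L N)) := by
          rw [← mul_assoc, ← mul_assoc, ← map_mul, inv_mul_cancel₀ hc, map_one, one_mul]
        rw [← h1, hw', mul_one]
      rw [this]
      exact (V A N).mul_mem _ _ x.2 w.2
    have hciA : c⁻¹ ∈ A := (algebraMap_mem_V_iff A N c⁻¹).mp hci
    refine ⟨⟨c⁻¹, hciA⟩, ⟨_, hmem⟩, ?_, hcx⟩
    rw [IsLocalRing.mem_maximalIdeal, mem_nonunits_iff]
    intro hunit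
    apply hne
    have hxe : x = (⟨algebraMap L ↥(FF L N) ((⟨c⁻¹, hciA⟩ : A) : L),
        algebraMap_mem_V A N ⟨c⁻¹, hciA⟩⟩ : ↥(V A N)) * ⟨_, hmem⟩ := Subtype.ext hcx
    rw [hxe, map_mul, rhoL_algebraMap] at hx
    rcases mul_eq_zero.mp hx with h1 | h1
    · exfalso
      have h2 : IsLocalRing.residue A ⟨c⁻¹, hciA⟩ ≠ 0 := by
        rw [Ne, IsLocalRing.residue_eq_zero_iff, IsLocalRing.mem_maximalIdeal, mem_nonunits_iff,
          not_not]
        exact hunit
      exact C_ne_zero h2 h1
    · exact h1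
  · rintro ⟨c, x', hc, hx⟩
    have hxe : x = (⟨algebraMap L ↥(FF L N) (c : L), algebraMap_mem_V A N c⟩ : ↥(V A N)) * x' :=
      Subtype.ext hx
    rw [hxe, map_mul, rhoL_algebraMap, (IsLocalRing.residue_eq_zero_iff c).mpr hc, map_zero,
      zero_mul]

section Rho

variable (hR1 : ∀ y : LaurentSeries A, coeffMap (ValuationSubring.subtype A) y ∈ FF L N →
  coeffMap (IsLocalRing.residue A) y ∈ modularFunctionFieldFullC (IsLocalRing.ResidueField A) N)

include hR1 in
/-- Given R1b (reductions of `A`-integral elements of the function field lie in the function field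
in characteristic `ℓ`), the residue map takes values in `modularFunctionFieldFullC k N`. -/
theorem rhoL_mem (x : ↥(V A N)) : rhoL A N x ∈ modularFunctionFieldFullC kA N := by
  obtain ⟨a, b, ha, hb, ⟨k, hk⟩, h⟩ := exists_integral_rep A N x x.2
  rw [rhoL_eq A N x (red_ne_zero_of_coeff_eq_one A hk) h]
  exact div_mem (hR1 a ha) (hR1 b hb)

/-- The residue map of the Gauss valuation ring onto the function field in characteristic `ℓ`. -/
def rho : ↥(V A N) →+* ↥(modularFunctionFieldFullC kA N) :=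
  (rhoL A N).codRestrict (modularFunctionFieldFullC kA N) (rhoL_mem A N hR1)

theorem coe_rho (x : ↥(V A N)) : ((rho A N hR1 x : ↥(modularFunctionFieldFullC kA N)) :
    LaurentSeries kA) = rhoL A N x := rfl

/-- (iii) Every element of the function field in characteristic `ℓ` is a residue. -/
theorem exists_rhoL_eq {z : LaurentSeries kA} (hz : z ∈ modularFunctionFieldFullC kA N) :
    ∃ x : ↥(V A N), rhoL A N x = z := by
  unfold modularFunctionFieldFullC at hz
  induction hz using IntermediateField.adjoin_induction with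
  | mem z hz =>
    obtain ⟨d, hd0, hd, rfl⟩ := hz
    have hmem : incl (jR A d) ∈ FF L N := by
      have h1 := incl_jR A N (⟨d, hd⟩ : Dv N)
      rw [h1]
      exact (gen L N ⟨d, hd⟩).2
    refine ⟨⟨⟨incl (jR A d), hmem⟩, incl_mem_V A N hmem⟩, ?_⟩
    rw [rhoL_incl A N hmem, coeffMap_jR]
    rfl
  | algebraMap c =>
    obtain ⟨c', rfl⟩ := IsLocalRing.residue_surjective c
    refine ⟨⟨algebraMap L ↥(FF L N) (c' : L), algebraMap_mem_V A N c'⟩, ?_⟩
    rw [rhoL_algebraMap, RC.algebraMap_eq_C]
  | add z w _ _ hz hw =>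
    obtain ⟨x, rfl⟩ := hz
    obtain ⟨y, rfl⟩ := hw
    exact ⟨x + y, map_add _ _ _⟩
  | inv z _ hz =>
    obtain ⟨x, rfl⟩ := hz
    by_cases hx : rhoL A N x = 0
    · exact ⟨0, by rw [hx, inv_zero, map_zero]⟩
    · obtain ⟨w, hw⟩ := ((isUnit_iff A N x).mpr hx).exists_right_inv
      refine ⟨w, ?_⟩
      have h1 : rhoL A N x * rhoL A N w = 1 := by rw [← map_mul, hw, map_one]
      exact eq_inv_of_mul_eq_one_right h1
  | mul z w _ _ hz hw =>
    obtain ⟨x, rfl⟩ := hz
    obtain ⟨y, rfl⟩ := hw
    exact ⟨x * y, map_mul _ _ _⟩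

theorem rho_surjective : Function.Surjective (rho A N hR1) := by
  rintro ⟨z, hz⟩
  obtain ⟨x, hx⟩ := exists_rhoL_eq A N hz
  exact ⟨x, Subtype.ext hx⟩

theorem rho_eq_zero_iff (x : ↥(V A N)) : rho A N hR1 x = 0 ↔ rhoL A N x = 0 := by
  constructor
  · intro h
    have := congrArg Subtype.val h
    exact this
  · intro h
    exact Subtype.ext h

/-- **Extended reduction property.**  The frozen property `IsPlaceReductionAlong` (stated for
elements with `A`-integral `q`-expansion and nonzero reduction) extends to all units of the Gauss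
valuation ring: the reduction of the divisor of a unit is the divisor of its residue. -/
theorem mapDomain_eq_ord_rho
    {r : Place L ↥(laurentBaseChange L (modularFunctionFieldFull N)) →
      Place (IsLocalRing.ResidueField A)
        ↥(modularFunctionFieldFullC (IsLocalRing.ResidueField A) N)}
    (hr : IsPlaceReductionAlong A (IsLocalRing.residue A) N r)
    (hdiv : ∀ f : ↥(FF L N), f ≠ 0 → ∃ D : Divisor L ↥(FF L N), ∀ P, D P = P.ord f)
    (x : ↥(V A N)) (hx : rhoL A N x ≠ 0) (D : Divisor L ↥(FF L N))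
    (hD : ∀ P, D P = P.ord (x : ↥(FF L N)))
    (Q : Place (IsLocalRing.ResidueField A)
      ↥(modularFunctionFieldFullC (IsLocalRing.ResidueField A) N)) :
    Finsupp.mapDomain r D Q = Q.ord (rho A N hR1 x) := by
  obtain ⟨a, b, ha, hb, ha0, hb0, h, hrho⟩ := exists_integral_div A N x hx
  have hane : (⟨incl a, ha⟩ : ↥(FF L N)) ≠ 0 := by
    intro h0
    apply ha0
    have h1 : incl a = 0 := congrArg Subtype.val h0
    rw [incl_injective A (h1.trans (map_zero _).symm), map_zero]
  have hbne : (⟨incl b, hb⟩ : ↥(FF L N)) ≠ 0 := by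
    intro h0
    apply hb0
    have h1 : incl b = 0 := congrArg Subtype.val h0
    rw [incl_injective A (h1.trans (map_zero _).symm), map_zero]
  have hxab : (x : ↥(FF L N)) = (⟨incl a, ha⟩ : ↥(FF L N)) * (⟨incl b, hb⟩ : ↥(FF L N))⁻¹ := by
    rw [eq_mul_inv_iff_mul_eq₀ hbne]
    exact Subtype.ext h
  obtain ⟨Da, hDa⟩ := hdiv _ hane
  obtain ⟨Db, hDb⟩ := hdiv _ hbne
  have hDab : D = Da - Db := by
    ext P
    rw [Finsupp.sub_apply, hD P, hDa P, hDb P, hxab, P.ord_mul hane (inv_ne_zero hbne),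
      P.ord_inv]
    ring
  have hra := hr.2 a ha (hR1 a ha) ha0 Da hDa Q
  have hrb := hr.2 b hb (hR1 b hb) hb0 Db hDb Q
  have hane' : (⟨red a, hR1 a ha⟩ : ↥(modularFunctionFieldFullC kA N)) ≠ 0 :=
    fun h0 => ha0 (congrArg Subtype.val h0)
  have hbne' : (⟨red b, hR1 b hb⟩ : ↥(modularFunctionFieldFullC kA N)) ≠ 0 :=
    fun h0 => hb0 (congrArg Subtype.val h0)
  have hrhoab : rho A N hR1 x = (⟨red a, hR1 a ha⟩ : ↥(modularFunctionFieldFullC kA N)) *
      (⟨red b, hR1 b hb⟩ : ↥(modularFunctionFieldFullC kA N))⁻¹ := by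
    apply Subtype.ext
    rw [coe_rho, hrho, div_eq_mul_inv]
    rfl
  rw [hDab, Finsupp.mapDomain_sub, Finsupp.sub_apply, hra, hrb, hrhoab,
    Q.ord_mul hane' (inv_ne_zero hbne'), Q.ord_inv]
  ring

end Rho

end Modular

end Fermat.Agent.S18.RG

end
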