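/-
S18, chain R, piece R2 (wrappers over `ℚ̄`): the Gauss valuation ring `V` of the function field
`modularFunctionFieldBar N` of `X₀(N)` over `ℚ̄`, attached to a valuation subring `A` of `ℚ̄` over
a prime `ℓ ∤ N`, with its residue map `rho` ONTO the function field
`modularFunctionFieldFullC k N` in characteristic `ℓ` (`k` the residue field of `A`).

Everything here is `RGauss` with the hypothesis `hR1` discharged by `RN.coeffMap_residue_mem`
(piece R1b) and the existence of principal divisors discharged by `PHyp.hyp0_bar`.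
-/
import Fermat.Agent.S18.RGauss
import Fermat.Agent.S18.RNormal
import Fermat.Agent.S18.PHyp0

set_option autoImplicit false

noncomputable section

namespace Fermat.Agent.S18.RGB

open ModularCurve AlgebraicCurve Fermat.Agent.S24

variable (N : ℕ) [NeZero N] {ℓ : ℕ} [Fact ℓ.Prime] (hℓN : ¬ ℓ ∣ N)
  (A : ValuationSubring (AlgebraicClosure ℚ)) (hA : A.LiesOverPrime ℓ)

/-- The Gauss valuation ring of the function field of `X₀(N)` over `ℚ̄`. -/
abbrev V : ValuationSubring ↥(modularFunctionFieldBar N) := RG.V A N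

/-- The residue map of the Gauss valuation ring onto the function field in characteristic `ℓ`. -/
def rho : ↥(V N A) →+* ↥(modularFunctionFieldFullC (IsLocalRing.ResidueField ↥A) N) :=
  RG.rho A N (RN.coeffMap_residue_mem N A hℓN hA)

theorem coe_rho (x : ↥(V N A)) :
    ((rho N hℓN A hA x : ↥(modularFunctionFieldFullC (IsLocalRing.ResidueField ↥A) N)) :
      LaurentSeries (IsLocalRing.ResidueField ↥A)) = RG.rhoL A N x := rfl

theorem rho_surjective : Function.Surjective (rho N hℓN A hA) :=
  RG.rho_surjective A N _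

theorem rho_eq_zero_iff_rhoL (x : ↥(V N A)) : rho N hℓN A hA x = 0 ↔ RG.rhoL A N x = 0 :=
  RG.rho_eq_zero_iff A N _ x

/-- The units of `V` are the elements with nonzero residue. -/
theorem isUnit_iff (x : ↥(V N A)) : IsUnit x ↔ rho N hℓN A hA x ≠ 0 := by
  rw [RG.isUnit_iff, Ne, Ne, rho_eq_zero_iff_rhoL]

theorem rho_eq_zero_iff_mem_maximalIdeal (x : ↥(V N A)) :
    rho N hℓN A hA x = 0 ↔ x ∈ IsLocalRing.maximalIdeal ↥(V N A) := by
  rw [rho_eq_zero_iff_rhoL, RG.rhoL_eq_zero_iff_mem_maximalIdeal]

/-- The kernel of `rho` consists of the multiples of elements of the maximal ideal of `A`. -/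
theorem rho_eq_zero_iff (x : ↥(V N A)) :
    rho N hℓN A hA x = 0 ↔ ∃ (c : ↥A) (x' : ↥(V N A)), c ∈ IsLocalRing.maximalIdeal ↥A ∧
      (x : ↥(modularFunctionFieldBar N))
        = algebraMap (AlgebraicClosure ℚ) ↥(modularFunctionFieldBar N) (c : AlgebraicClosure ℚ)
          * (x' : ↥(modularFunctionFieldBar N)) := by
  rw [rho_eq_zero_iff_rhoL]
  exact RG.rhoL_eq_zero_iff A N x

/-- On constants `rho` is the residue map of `A`. -/
theorem rho_algebraMap (c : ↥A) :
    rho N hℓN A hA ⟨algebraMap (AlgebraicClosure ℚ) ↥(modularFunctionFieldBar N)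
        (c : AlgebraicClosure ℚ), RG.algebraMap_mem_V A N c⟩
      = algebraMap (IsLocalRing.ResidueField ↥A)
          ↥(modularFunctionFieldFullC (IsLocalRing.ResidueField ↥A) N)
          (IsLocalRing.residue ↥A c) := by
  apply Subtype.ext
  rw [coe_rho, RG.rhoL_algebraMap, ← RC.algebraMap_eq_C]
  rfl

/-- Every nonzero element of the function field is a constant times a unit of `V`. -/
theorem exists_smul_mem (x : ↥(modularFunctionFieldBar N)) (hx : x ≠ 0) :
    ∃ (c : AlgebraicClosure ℚ)
      (h : algebraMap (AlgebraicClosure ℚ) ↥(modularFunctionFieldBar N) c * x ∈ V N A),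
      c ≠ 0 ∧ rho N hℓN A hA ⟨_, h⟩ ≠ 0 := by
  obtain ⟨c, h, hc, hne⟩ := RG.exists_smul_mem A N x hx
  exact ⟨c, h, hc, fun h0 => hne ((rho_eq_zero_iff_rhoL N hℓN A hA _).mp h0)⟩

/-- Elements of the function field with `A`-integral `q`-expansion lie in `V`, and `rho` is the
coefficientwise reduction on them. -/
theorem rho_incl {y : LaurentSeries ↥A}
    (hy : coeffMap A.subtype y ∈ modularFunctionFieldBar N) :
    rho N hℓN A hA ⟨⟨coeffMap A.subtype y, hy⟩, RG.incl_mem_V A N hy⟩
      = ⟨coeffMap (IsLocalRing.residue ↥A) y, RN.coeffMap_residue_mem N A hℓN hA y hy⟩ := by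
  apply Subtype.ext
  rw [coe_rho, RG.rhoL_incl]

/-- **Extended reduction property** over `ℚ̄`: for a place reduction `r` in the frozen sense and a
unit `x` of the Gauss valuation ring, the reduction of the divisor of `x` is the divisor of
`rho x`. -/
theorem mapDomain_eq_ord_rho
    {r : Place (AlgebraicClosure ℚ) ↥(modularFunctionFieldBar N) →
      Place (IsLocalRing.ResidueField ↥A)
        ↥(modularFunctionFieldFullC (IsLocalRing.ResidueField ↥A) N)}
    (hr : IsPlaceReductionModL A N r)
    (x : ↥(V N A)) (hx : rho N hℓN A hA x ≠ 0)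
    (D : Divisor (AlgebraicClosure ℚ) ↥(modularFunctionFieldBar N))
    (hD : ∀ P, D P = P.ord (x : ↥(modularFunctionFieldBar N)))
    (Q : Place (IsLocalRing.ResidueField ↥A)
      ↥(modularFunctionFieldFullC (IsLocalRing.ResidueField ↥A) N)) :
    Finsupp.mapDomain r D Q = Q.ord (rho N hℓN A hA x) := by
  have hdiv : ∀ f : ↥(modularFunctionFieldBar N), f ≠ 0 →
      ∃ D : Divisor (AlgebraicClosure ℚ) ↥(modularFunctionFieldBar N), ∀ P, D P = P.ord f := by
    intro f hf
    obtain ⟨D, hD, -⟩ := (PHyp.hyp0_bar N).principal f hf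
    exact ⟨D, hD⟩
  exact RG.mapDomain_eq_ord_rho A N (RN.coeffMap_residue_mem N A hℓN hA) hr hdiv x
    (fun h0 => hx ((rho_eq_zero_iff_rhoL N hℓN A hA x).mpr h0)) D hD Q

end Fermat.Agent.S18.RGB

end
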