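/-
S18, chain CL, piece R (concrete CL1): the function field `F̄_{M₀}` of `X₀(M₀)` in characteristic
`ℓ ∤ M₀` is rational as soon as the function field `F_{M₀}` in characteristic zero is
(`M₀ = 4, 9`: genus zero).

No Hauptmodul identity is used: a generator `x` of `F_{M₀} / ℚ̄` (from Riemann's inequality with
genus `0`, `GZ.exists_generator_FF`) is normalised to `y = c (x - a)` in the Gauss valuation ring
`V` with transcendental residue (`CLRat.exists_generator`); since the residue map
`rho : V → F̄_{M₀}` is onto, `F̄_{M₀} = k(ȳ)`.  Finally `ȳ` is replaced by `1 / (ȳ - ȳ(0))` if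
necessary, so that the generator has a pole at `q = 0`.
-/
import Fermat.Agent.S18.CLRat
import Fermat.Agent.S18.RGaussBar
import Fermat.Agent.S18.GenusZero
import Fermat.Agent.S18.Num

set_option autoImplicit false
set_option synthInstance.maxHeartbeats 400000

noncomputable section

namespace Fermat.Agent.S18.CLHaupt

open ModularCurve AlgebraicCurve IntermediateField Fermat.Agent.S24

/-! ### Generic: moving the pole of a generator to `q = 0` -/

section Pole

variable {k : Type*} [Field k]

/-- A transcendental Laurent series can be replaced, without changing the field it generates, by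
one with a pole at `q = 0`. -/
theorem exists_neg_order (y : LaurentSeries k) (hy : Transcendental k y) :
    ∃ z : LaurentSeries k, z.order < 0 ∧ Transcendental k z ∧ k⟮z⟯ = k⟮y⟯ := by
  by_cases h : y.order < 0
  · exact ⟨y, h, hy, rfl⟩
  rw [not_lt] at h
  set c : k := y.coeff 0 with hc
  set w : LaurentSeries k := y - algebraMap k (LaurentSeries k) c with hw
  have hw0 : w ≠ 0 := by
    intro h0
    apply hy
    have : y = algebraMap k (LaurentSeries k) c := sub_eq_zero.mp h0
    rw [this]
    exact isAlgebraic_algebraMap c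
  have hword : 1 ≤ w.order := by
    rw [HahnSeries.le_order_iff_forall hw0]
    intro n hn
    rw [hw, HahnSeries.coeff_sub, algebraMap_laurentSeries_eq_single]
    rcases lt_or_eq_of_le (show n ≤ 0 by omega) with hn0 | hn0
    · rw [HahnSeries.coeff_eq_zero_of_lt_order (lt_of_lt_of_le hn0 h),
        HahnSeries.coeff_single_of_ne hn0.ne, sub_zero]
    · rw [hn0, HahnSeries.coeff_single_same, hc, sub_self]
  have hinv : (w⁻¹).order < 0 := by
    have h1 := HahnSeries.order_mul hw0 (inv_ne_zero hw0)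
    rw [mul_inv_cancel₀ hw0, HahnSeries.order_one] at h1
    omega
  have hyw : y = (w⁻¹)⁻¹ + algebraMap k (LaurentSeries k) c := by
    rw [inv_inv, hw]
    ring
  refine ⟨w⁻¹, hinv, ?_, le_antisymm ?_ ?_⟩
  · intro halg
    apply hy
    rw [hyw]
    exact (halg.inv).add (isAlgebraic_algebraMap c)
  · rw [IntermediateField.adjoin_simple_le_iff]
    exact inv_mem (sub_mem (IntermediateField.mem_adjoin_simple_self k y)
      (IntermediateField.algebraMap_mem _ c))
  · rw [IntermediateField.adjoin_simple_le_iff, hyw]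
    exact add_mem (inv_mem (IntermediateField.mem_adjoin_simple_self k _))
      (IntermediateField.algebraMap_mem _ c)

/-- A simple extension inside an intermediate field, seen in the ambient field. -/
theorem adjoin_coe_eq_of_adjoin_eq_top {E : Type*} [Field E] [Algebra k E]
    (F : IntermediateField k E) (y : ↥F) (h : k⟮y⟯ = ⊤) : k⟮(y : E)⟯ = F := by
  have h1 : (k⟮y⟯).map F.val = k⟮(y : E)⟯ := by
    rw [IntermediateField.adjoin_map]
    simp
  rw [← h1, h, ← AlgHom.fieldRange_eq_map, IntermediateField.fieldRange_val]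

end Pole

/-! ### The concrete statement -/

section Concrete

variable (M₀ : ℕ) [NeZero M₀] {ℓ : ℕ} [Fact ℓ.Prime] (hℓ : ¬ ℓ ∣ M₀)
  (A : ValuationSubring (AlgebraicClosure ℚ)) (hA : A.LiesOverPrime ℓ)

/-- `j` as an element of the Gauss valuation ring; its residue is `J̄`. -/
theorem jqModC_mem_bar :
    coeffMap A.subtype (jqModC ↥A) ∈ modularFunctionFieldBar M₀ := by
  rw [coeffMap_jqModC, ← RN.coe_jElt (L := AlgebraicClosure ℚ) M₀]
  exact (jElt (AlgebraicClosure ℚ) M₀).2

include hℓ hA in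
/-- **CL1 in `V`-form**: if `F_{M₀} = ℚ̄(x)`, then `F̄_{M₀} = k(ȳ)` for a transcendental `ȳ`. -/
theorem exists_generator_of_char0 (x : ↥(modularFunctionFieldBar M₀))
    (hx : (AlgebraicClosure ℚ)⟮x⟯ = ⊤) :
    ∃ yb : ↥(modularFunctionFieldFullC (IsLocalRing.ResidueField ↥A) M₀),
      Transcendental (IsLocalRing.ResidueField ↥A) yb ∧
        (IsLocalRing.ResidueField ↥A)⟮yb⟯ = ⊤ := by
  -- `j ∈ V` has transcendental residue
  set w : ↥(RGB.V M₀ A) :=
    ⟨⟨coeffMap A.subtype (jqModC ↥A), jqModC_mem_bar M₀ A⟩,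
      RG.incl_mem_V A M₀ (jqModC_mem_bar M₀ A)⟩ with hw
  have hwrho : ((RGB.rho M₀ hℓ A hA w :
      ↥(modularFunctionFieldFullC (IsLocalRing.ResidueField ↥A) M₀)) :
      LaurentSeries (IsLocalRing.ResidueField ↥A)) = jqModC (IsLocalRing.ResidueField ↥A) := by
    rw [hw, RGB.rho_incl M₀ hℓ A hA (jqModC_mem_bar M₀ A)]
    exact coeffMap_jqModC _
  have hwtr : Transcendental (IsLocalRing.ResidueField ↥A) (RGB.rho M₀ hℓ A hA w) := by
    rw [← transcendental_algebraMap_iff
      (algebraMap ↥(modularFunctionFieldFullC (IsLocalRing.ResidueField ↥A) M₀)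
        (LaurentSeries (IsLocalRing.ResidueField ↥A))).injective]
    show Transcendental _ ((RGB.rho M₀ hℓ A hA w :
      ↥(modularFunctionFieldFullC (IsLocalRing.ResidueField ↥A) M₀)) :
      LaurentSeries (IsLocalRing.ResidueField ↥A))
    rw [hwrho]
    exact S28.LevelData.transcendental_jqModC _
  obtain ⟨y, -, hytr, hy⟩ := CLRat.exists_generator A (IsLocalRing.residue ↥A) (RGB.V M₀ A)
    (RG.algebraMap_mem_V_iff A M₀) (RGB.rho M₀ hℓ A hA)
    (fun a => RGB.rho_algebraMap M₀ hℓ A hA a)
    (fun z hz => (RGB.isUnit_iff M₀ hℓ A hA z).mpr hz)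
    (fun g hg => by
      obtain ⟨c, h, hc, hne⟩ := RGB.exists_smul_mem M₀ hℓ A hA g hg
      exact ⟨c, hc, h, hne⟩)
    x hx w hwtr
  refine ⟨RGB.rho M₀ hℓ A hA y, hytr, ?_⟩
  rw [eq_top_iff]
  intro f _
  obtain ⟨z, rfl⟩ := RGB.rho_surjective M₀ hℓ A hA f
  exact hy z

include hℓ hA in
/-- **Piece R**, subtype form: a generator of `F̄_{M₀} / k` with a pole at `q = 0`. -/
theorem exists_generator_sub (hg : genusFormula M₀ = 0)
    (hC0 : ∀ D : Divisor (AlgebraicClosure ℚ) ↥(FF (AlgebraicClosure ℚ) M₀),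
      (Divisor.degree D : ℚ) + 1 - genusFormula M₀ ≤
        (Module.finrank (AlgebraicClosure ℚ) ↥(riemannRochSpace D) : ℚ)) :
    ∃ yb : ↥(modularFunctionFieldFullC (IsLocalRing.ResidueField ↥A) M₀),
      ((yb : ↥(modularFunctionFieldFullC (IsLocalRing.ResidueField ↥A) M₀)) :
        LaurentSeries (IsLocalRing.ResidueField ↥A)).order < 0 ∧
      Transcendental (IsLocalRing.ResidueField ↥A) yb ∧
      (IsLocalRing.ResidueField ↥A)⟮yb⟯ = ⊤ := by
  obtain ⟨ι, -⟩ := PHyp.exists_embedding
  obtain ⟨x, hx⟩ := GZ.exists_generator_FF ι M₀ hg hC0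
  obtain ⟨yb, hytr, hyb⟩ := exists_generator_of_char0 M₀ hℓ A hA x hx
  have hytr' : Transcendental (IsLocalRing.ResidueField ↥A)
      ((yb : ↥(modularFunctionFieldFullC (IsLocalRing.ResidueField ↥A) M₀)) :
        LaurentSeries (IsLocalRing.ResidueField ↥A)) :=
    (transcendental_algebraMap_iff
      (algebraMap ↥(modularFunctionFieldFullC (IsLocalRing.ResidueField ↥A) M₀)
        (LaurentSeries (IsLocalRing.ResidueField ↥A))).injective).mpr hytr
  obtain ⟨z, hz, hztr, hzy⟩ := exists_neg_order _ hytr'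
  have hzF : (IsLocalRing.ResidueField ↥A)⟮z⟯
      = modularFunctionFieldFullC (IsLocalRing.ResidueField ↥A) M₀ :=
    hzy.trans (adjoin_coe_eq_of_adjoin_eq_top _ yb hyb)
  have hzmem : z ∈ modularFunctionFieldFullC (IsLocalRing.ResidueField ↥A) M₀ := by
    rw [← hzF]
    exact IntermediateField.mem_adjoin_simple_self _ z
  refine ⟨⟨z, hzmem⟩, hz, ?_, ?_⟩
  · rw [← transcendental_algebraMap_iff
      (algebraMap ↥(modularFunctionFieldFullC (IsLocalRing.ResidueField ↥A) M₀)
        (LaurentSeries (IsLocalRing.ResidueField ↥A))).injective]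
    exact hztr
  · apply IntermediateField.map_injective
      (modularFunctionFieldFullC (IsLocalRing.ResidueField ↥A) M₀).val
    rw [IntermediateField.adjoin_map, ← AlgHom.fieldRange_eq_map,
      IntermediateField.fieldRange_val]
    simpa using hzF

include hℓ hA in
/-- **Piece R** (helper16's cut): `F̄_{M₀}` is generated over `k` by one Laurent series with a
pole at `q = 0`, given Riemann's inequality with genus `0` for `F_{M₀}` in characteristic zero. -/
theorem exists_generator (hg : genusFormula M₀ = 0)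
    (hC0 : ∀ D : Divisor (AlgebraicClosure ℚ) ↥(FF (AlgebraicClosure ℚ) M₀),
      (Divisor.degree D : ℚ) + 1 - genusFormula M₀ ≤
        (Module.finrank (AlgebraicClosure ℚ) ↥(riemannRochSpace D) : ℚ)) :
    ∃ y : LaurentSeries (IsLocalRing.ResidueField ↥A), y.order < 0 ∧
      IntermediateField.adjoin (IsLocalRing.ResidueField ↥A) {y}
        = modularFunctionFieldFullC (IsLocalRing.ResidueField ↥A) M₀ := by
  obtain ⟨yb, hord, -, htop⟩ := exists_generator_sub M₀ hℓ A hA hg hC0
  exact ⟨yb, hord, adjoin_coe_eq_of_adjoin_eq_top _ yb htop⟩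

end Concrete

/-- Level `4`, `ℓ` odd. -/
theorem exists_generator_four {ℓ : ℕ} [Fact ℓ.Prime] (hℓ : ¬ ℓ ∣ 4)
    (A : ValuationSubring (AlgebraicClosure ℚ)) (hA : A.LiesOverPrime ℓ)
    (hC0 : ∀ D : Divisor (AlgebraicClosure ℚ) ↥(FF (AlgebraicClosure ℚ) 4),
      (Divisor.degree D : ℚ) + 1 - genusFormula 4 ≤
        (Module.finrank (AlgebraicClosure ℚ) ↥(riemannRochSpace D) : ℚ)) :
    ∃ y : LaurentSeries (IsLocalRing.ResidueField ↥A), y.order < 0 ∧
      IntermediateField.adjoin (IsLocalRing.ResidueField ↥A) {y}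
        = modularFunctionFieldFullC (IsLocalRing.ResidueField ↥A) 4 :=
  exists_generator 4 hℓ A hA Num.genusFormula_four hC0

/-- Level `9`, `ℓ ≠ 3`. -/
theorem exists_generator_nine {ℓ : ℕ} [Fact ℓ.Prime] (hℓ : ¬ ℓ ∣ 9)
    (A : ValuationSubring (AlgebraicClosure ℚ)) (hA : A.LiesOverPrime ℓ)
    (hC0 : ∀ D : Divisor (AlgebraicClosure ℚ) ↥(FF (AlgebraicClosure ℚ) 9),
      (Divisor.degree D : ℚ) + 1 - genusFormula 9 ≤
        (Module.finrank (AlgebraicClosure ℚ) ↥(riemannRochSpace D) : ℚ)) :
    ∃ y : LaurentSeries (IsLocalRing.ResidueField ↥A), y.order < 0 ∧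
      IntermediateField.adjoin (IsLocalRing.ResidueField ↥A) {y}
        = modularFunctionFieldFullC (IsLocalRing.ResidueField ↥A) 9 :=
  exists_generator 9 hℓ A hA Num.genusFormula_nine hC0

end Fermat.Agent.S18.CLHaupt

end
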