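/-
S18, chain CL, piece R (concrete CL1), unconditional form: `CLHaupt.exists_generator` with the
characteristic-zero Riemann inequality discharged by chain C0 (`C0F.riemann_FF`).

For `M₀ = 4` (`ℓ` odd) and `M₀ = 9` (`ℓ ≠ 3`) the function field `F̄_{M₀}` of `X₀(M₀)` in
characteristic `ℓ` is `k(y)` for a Laurent series `y` with a pole at `q = 0`.
-/
import Fermat.Agent.S18.CLHaupt
import Fermat.Agent.S18.C0F

set_option autoImplicit false
set_option synthInstance.maxHeartbeats 400000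

noncomputable section

namespace Fermat.Agent.S18.CLHaupt

open ModularCurve AlgebraicCurve IntermediateField Fermat.Agent.S24

/-- **Piece R, unconditional**: for a level `M₀` of genus zero prime to `ℓ`, `F̄_{M₀} = k(y)` with
`y` having a pole at `q = 0`. -/
theorem exists_generator_of_genus_zero (M₀ : ℕ) [NeZero M₀] {ℓ : ℕ} [Fact ℓ.Prime]
    (hℓ : ¬ ℓ ∣ M₀) (A : ValuationSubring (AlgebraicClosure ℚ)) (hA : A.LiesOverPrime ℓ)
    (hg : genusFormula M₀ = 0) :
    ∃ y : LaurentSeries (IsLocalRing.ResidueField ↥A), y.order < 0 ∧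
      IntermediateField.adjoin (IsLocalRing.ResidueField ↥A) {y}
        = modularFunctionFieldFullC (IsLocalRing.ResidueField ↥A) M₀ := by
  obtain ⟨ι, -⟩ := PHyp.exists_embedding
  exact exists_generator M₀ hℓ A hA hg (fun D => C0F.riemann_FF ι M₀ D)

/-- Subtype form of `exists_generator_of_genus_zero`. -/
theorem exists_generator_sub_of_genus_zero (M₀ : ℕ) [NeZero M₀] {ℓ : ℕ} [Fact ℓ.Prime]
    (hℓ : ¬ ℓ ∣ M₀) (A : ValuationSubring (AlgebraicClosure ℚ)) (hA : A.LiesOverPrime ℓ)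
    (hg : genusFormula M₀ = 0) :
    ∃ yb : ↥(modularFunctionFieldFullC (IsLocalRing.ResidueField ↥A) M₀),
      ((yb : ↥(modularFunctionFieldFullC (IsLocalRing.ResidueField ↥A) M₀)) :
        LaurentSeries (IsLocalRing.ResidueField ↥A)).order < 0 ∧
      Transcendental (IsLocalRing.ResidueField ↥A) yb ∧
      (IsLocalRing.ResidueField ↥A)⟮yb⟯ = ⊤ := by
  obtain ⟨ι, -⟩ := PHyp.exists_embedding
  exact exists_generator_sub M₀ hℓ A hA hg (fun D => C0F.riemann_FF ι M₀ D)

/-- Level `4`, `ℓ` odd: `F̄_4 = k(y)`, `y` with a pole at `q = 0`. -/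
theorem exists_generator_four' {ℓ : ℕ} [Fact ℓ.Prime] (hℓ : ¬ ℓ ∣ 4)
    (A : ValuationSubring (AlgebraicClosure ℚ)) (hA : A.LiesOverPrime ℓ) :
    ∃ y : LaurentSeries (IsLocalRing.ResidueField ↥A), y.order < 0 ∧
      IntermediateField.adjoin (IsLocalRing.ResidueField ↥A) {y}
        = modularFunctionFieldFullC (IsLocalRing.ResidueField ↥A) 4 :=
  exists_generator_of_genus_zero 4 hℓ A hA Num.genusFormula_four

/-- Level `9`, `ℓ ≠ 3`: `F̄_9 = k(y)`, `y` with a pole at `q = 0`. -/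
theorem exists_generator_nine' {ℓ : ℕ} [Fact ℓ.Prime] (hℓ : ¬ ℓ ∣ 9)
    (A : ValuationSubring (AlgebraicClosure ℚ)) (hA : A.LiesOverPrime ℓ) :
    ∃ y : LaurentSeries (IsLocalRing.ResidueField ↥A), y.order < 0 ∧
      IntermediateField.adjoin (IsLocalRing.ResidueField ↥A) {y}
        = modularFunctionFieldFullC (IsLocalRing.ResidueField ↥A) 9 :=
  exists_generator_of_genus_zero 9 hℓ A hA Num.genusFormula_nine

end Fermat.Agent.S18.CLHaupt

end
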