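/-
S18, chain P, the characteristic-`ℓ` instance (helper21).

For a field `k` of characteristic `ℓ` and the function field
`F̄ = modularFunctionFieldFullC k M = k(J(q^d) : d ∣ M) ⊆ k((q))`, with `xJ = J̄ ∈ F̄`:

* `transcendental_xJ` : `J̄` is transcendental over `k`;
* `finiteDimensional_xJ` : `F̄` is finite over `k(J̄)` (degree `≤ ψ(M)`, `finrank_le_psi`);
* `pow_ne_jqModC`, `xJ_not_pow` : `J̄` is not an `ℓ`-th power in `k((q))`, a fortiori not in `F̄`;
* `isSeparable_xJ` : for `k` perfect, `F̄ / k(J̄)` is separable;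
* `hyp0_modC`, `hyp_modC` : for `k` algebraically closed, the Riemann–Roch hypotheses
  `RR.Hyp0 k F̄`, `RR.Hyp k F̄` (via `PHyp.hyp_of_finite`), and the Riemann genus
  statement `genusR_spec_modC`.

The separability statement is an instance of an abstract lemma (`separable_of_derivation`): if
`D` is a `k`-derivation of a field `L ⊇ E = k(x)` with `D x ≠ 0` and `k` is perfect of
characteristic `p`, then every element of `L` algebraic over `E` is separable over `E`.  It is
applied to `L = k((q))` and `D = θ = q d/dq` (S28's `A0Theta.theta`).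
-/
import Mathlib
import Fermat.Prelude.Def_ModularCurve_X0ModL
import Fermat.Agent.S28.Upper0
import Fermat.Agent.S28.LevelData
import Fermat.Agent.S28.A0Theta
import Fermat.Agent.S18.PHyp

set_option autoImplicit false

noncomputable section

namespace Fermat.Agent.S18.PModC

open ModularCurve IntermediateField Polynomial
open Fermat.Agent.S28

universe u

/-! ### The abstract separability lemma -/

section Abstract

variable {k E L : Type*} [Field k] [Field E] [Field L] [Algebra k E] [Algebra E L] [Algebra k L]
  [IsScalarTower k E L]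

/-- a derivation in characteristic `p` kills `p`-th powers -/
theorem derivation_pow_char {k L : Type*} [Field k] [Field L] [Algebra k L] (p : ℕ) [CharP k p]
    (D : Derivation k L L) (y : L) : D (y ^ p) = 0 := by
  have : CharP L p := charP_of_injective_algebraMap (algebraMap k L).injective p
  rw [Derivation.leibniz_pow, ← Nat.cast_smul_eq_nsmul L, CharP.cast_eq_zero, zero_smul]

/-- a derivation in characteristic `p` kills `(y ^ p) ^ i` -/
theorem derivation_pow_pow_char {k L : Type*} [Field k] [Field L] [Algebra k L] (p : ℕ)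
    [CharP k p] (D : Derivation k L L) (y : L) (i : ℕ) : D ((y ^ p) ^ i) = 0 := by
  rw [← pow_mul, mul_comm, pow_mul]
  exact derivation_pow_char p D _

/-- the derivation (for the module structure `Algebra.toModule` on `L`) given by an additive
Leibniz map killing the constants -/
def derivationOfLeibniz {k L : Type*} [Field k] [Field L] [Algebra k L] (D : L → L)
    (hadd : ∀ a b, D (a + b) = D a + D b) (hmul : ∀ a b, D (a * b) = a * D b + b * D a)
    (hk : ∀ c : k, D (algebraMap k L c) = 0) : Derivation k L L :=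
  Derivation.mk'
    { toFun := D
      map_add' := hadd
      map_smul' := fun r a => by
        rw [Algebra.smul_def, hmul, hk, mul_zero, add_zero, RingHom.id_apply, Algebra.smul_def] }
    (fun a b => by
      show D (a * b) = a • D b + b • D a
      rw [hmul, smul_eq_mul, smul_eq_mul])

@[simp] theorem derivationOfLeibniz_apply {k L : Type*} [Field k] [Field L] [Algebra k L]
    (D : L → L) (hadd : ∀ a b, D (a + b) = D a + D b)
    (hmul : ∀ a b, D (a * b) = a * D b + b * D a) (hk : ∀ c : k, D (algebraMap k L c) = 0)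
    (a : L) : derivationOfLeibniz D hadd hmul hk a = D a := rfl

/-- `D` maps `E = k(x)` into `E · D x` -/
theorem exists_derivation_eq (D : Derivation k L L) (x : E) (hgen : ∀ c : E, ∃ r s : k[X], c = aeval x r / aeval x s) (c : E) :
    ∃ c' : E, D (algebraMap E L c) = algebraMap E L c' * D (algebraMap E L x) := by
  obtain ⟨r, s, rfl⟩ := hgen c
  refine ⟨(aeval x s)⁻¹ ^ 2 * (aeval x s * aeval x (derivative r)
    - aeval x r * aeval x (derivative s)), ?_⟩
  rw [map_div₀, Derivation.leibniz_div, ← aeval_algebraMap_apply, ← aeval_algebraMap_apply,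
    Derivation.map_aeval, Derivation.map_aeval]
  simp only [smul_eq_mul, map_mul, map_pow, map_inv₀, map_sub, ← aeval_algebraMap_apply]
  ring

/-- **Key fact.**  Elements of `E = k(x)` killed by `D` are `p`-th powers (`k` perfect,
`D x ≠ 0`, `x` transcendental). -/
theorem exists_pow_eq_of_derivation_eq_zero (p : ℕ) [Fact p.Prime] [CharP k p] [PerfectField k]
    (D : Derivation k L L) (x : E) (hx : Transcendental k x)
    (hgen : ∀ c : E, ∃ r s : k[X], c = aeval x r / aeval x s)
    (hD : D (algebraMap E L x) ≠ 0) (c : E) (hc : D (algebraMap E L c) = 0) :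
    ∃ d : E, d ^ p = c := by
  have hp : p.Prime := Fact.out
  obtain ⟨r, s, rfl⟩ := hgen c
  by_cases hs : aeval x s = 0
  · exact ⟨0, by rw [hs, div_zero, zero_pow hp.ne_zero]⟩
  -- the numerator `R = r * s ^ (p - 1)`
  set R : k[X] := r * s ^ (p - 1) with hR
  have hcR : aeval x r / aeval x s * aeval x s ^ p = aeval x R := by
    rw [hR, map_mul, map_pow]
    have h1 : aeval x s ^ p = aeval x s ^ (p - 1) * aeval x s := by
      rw [← pow_succ, Nat.sub_add_cancel hp.one_le]
    rw [h1]
    field_simp
  have hDR : D (algebraMap E L (aeval x R)) = 0 := by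
    rw [← hcR, map_mul, map_pow, Derivation.leibniz, hc, derivation_pow_char p D, smul_zero,
      smul_zero, add_zero]
  rw [← aeval_algebraMap_apply, Derivation.map_aeval, smul_eq_mul, aeval_algebraMap_apply] at hDR
  have hR' : derivative R = 0 := by
    by_contra hne
    rcases mul_eq_zero.mp hDR with h | h
    · exact hx ⟨derivative R, hne, (algebraMap E L).injective (by rw [h, map_zero])⟩
    · exact hD h
  have hexp : expand k p (contract p R) = R := expand_contract p hR' hp.ne_zero
  obtain ⟨T, hT⟩ := Polynomial.map_surjective (frobenius k p) (surjective_frobenius k p)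
    (contract p R)
  have hRT : R = T ^ p := by
    rw [← hexp, ← hT, ← map_expand, map_frobenius_expand]
  refine ⟨aeval x T / aeval x s, ?_⟩
  rw [div_pow, ← map_pow, ← hRT, ← hcR]
  field_simp

omit [Algebra k E] [IsScalarTower k E L] in
/-- `D` of a polynomial expression in an element killed by `D` -/
theorem derivation_aeval_of_eq_zero (D : Derivation k L L) (h : E[X]) (β : L) (hβ : ∀ i : ℕ, D (β ^ i) = 0) :
    D (aeval β h) = ∑ i ∈ Finset.range (h.natDegree + 1), D (algebraMap E L (h.coeff i)) * β ^ i := by
  rw [aeval_eq_sum_range, map_sum]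
  refine Finset.sum_congr rfl fun i _ => ?_
  rw [Algebra.smul_def, Derivation.leibniz, hβ i, smul_zero, zero_add, smul_eq_mul, mul_comm]

/-- **Abstract separability lemma.**  Let `k` be a perfect field of characteristic `p`,
`E = k(x)` with `x` transcendental, `L ⊇ E` a field with a `k`-derivation `D` such that
`D x ≠ 0`.  Then every element of `L` which is integral over `E` is separable over `E`. -/
theorem separable_of_derivation (p : ℕ) [Fact p.Prime] [CharP k p] [PerfectField k]
    (D : Derivation k L L) (x : E) (hx : Transcendental k x)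
    (hgen : ∀ c : E, ∃ r s : k[X], c = aeval x r / aeval x s)
    (hD : D (algebraMap E L x) ≠ 0) (α : L) (hα : IsIntegral E α) :
    (minpoly E α).Separable := by
  classical
  have hp : p.Prime := Fact.out
  have : CharP E p := charP_of_injective_algebraMap (algebraMap k E).injective p
  have : CharP L p := charP_of_injective_algebraMap (algebraMap k L).injective p
  rcases separable_or p (minpoly.irreducible hα) with hsep | ⟨-, h, hirr, hexp⟩
  · exact hsep
  exfalso
  -- `h` is monic of positive degree, `h (α ^ p) = 0`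
  have hmonic : h.Monic := (monic_expand_iff hp.pos).mp (hexp ▸ minpoly.monic hα)
  have hroot : aeval (α ^ p) h = 0 := by
    rw [← expand_aeval, hexp, minpoly.aeval]
  have hβ : ∀ i : ℕ, D ((α ^ p) ^ i) = 0 := fun i => derivation_pow_pow_char p D α i
  choose δ hδ using exists_derivation_eq D x hgen
  have hδ0 : ∀ c : E, D (algebraMap E L c) = 0 → δ c = 0 := by
    intro c hc
    have h1 := hδ c
    rw [hc] at h1
    rcases mul_eq_zero.mp h1.symm with h2 | h2
    · exact (algebraMap E L).injective (by rw [h2, map_zero])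
    · exact absurd h2 hD
  -- the polynomial of the `δ (h_i)`
  set hd : E[X] := ∑ i ∈ Finset.range (h.natDegree + 1), C (δ (h.coeff i)) * X ^ i with hhd
  have hdcoeff : ∀ j, hd.coeff j = if j < h.natDegree + 1 then δ (h.coeff j) else 0 := by
    intro j
    rw [hhd, finsetSum_coeff]
    simp only [coeff_C_mul_X_pow]
    rw [Finset.sum_ite_eq (Finset.range (h.natDegree + 1)) j (fun i => δ (h.coeff i))]
    simp only [Finset.mem_range]
  have hdroot : aeval (α ^ p) hd = 0 := by
    have h1 := derivation_aeval_of_eq_zero D h (α ^ p) hβ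
    rw [hroot, map_zero] at h1
    have h2 : (∑ i ∈ Finset.range (h.natDegree + 1),
        algebraMap E L (δ (h.coeff i)) * (α ^ p) ^ i) * D (algebraMap E L x) = 0 := by
      rw [h1, Finset.sum_mul]
      refine Finset.sum_congr rfl fun i _ => ?_
      rw [hδ (h.coeff i)]
      ring
    rcases mul_eq_zero.mp h2 with h3 | h3
    · rw [hhd, map_sum, ← h3]
      refine Finset.sum_congr rfl fun i _ => ?_
      rw [map_mul, aeval_C, map_pow, aeval_X]
    · exact absurd h3 hD
  -- `hd = 0` by minimality
  have hd0 : hd = 0 := by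
    by_contra hne
    have hne' : expand E p hd ≠ 0 := fun h0 => hne ((expand_eq_zero hp.pos).mp h0)
    have h1 : aeval α (expand E p hd) = 0 := by rw [expand_aeval, hdroot]
    have h2 := natDegree_le_natDegree (minpoly.degree_le_of_ne_zero E α hne' h1)
    rw [← hexp, natDegree_expand, natDegree_expand] at h2
    have h3 : h.natDegree ≤ hd.natDegree := Nat.le_of_mul_le_mul_right h2 hp.pos
    have h4 : hd.coeff hd.natDegree ≠ 0 := by
      rw [coeff_natDegree]
      exact leadingCoeff_ne_zero.mpr hne
    rw [hdcoeff] at h4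
    split_ifs at h4 with h5
    · have h6 : hd.natDegree = h.natDegree := le_antisymm (Nat.lt_succ_iff.mp h5) h3
      rw [h6, coeff_natDegree, hmonic.leadingCoeff] at h4
      exact h4 (hδ0 1 (by rw [map_one, Derivation.map_one_eq_zero]))
    · exact h4 rfl
  -- so all coefficients of `h` are killed by `D`, hence `p`-th powers
  have hDcoeff : ∀ i, D (algebraMap E L (h.coeff i)) = 0 := by
    intro i
    by_cases hi : i < h.natDegree + 1
    · have h1 := hdcoeff i
      rw [if_pos hi, hd0, coeff_zero] at h1
      rw [hδ (h.coeff i), ← h1, map_zero, zero_mul]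
    · rw [coeff_eq_zero_of_natDegree_lt (by omega), map_zero, map_zero]
  have hlift : h ∈ lifts (frobenius E p) := by
    rw [lifts_iff_coeff_lifts]
    intro i
    obtain ⟨d, hd⟩ := exists_pow_eq_of_derivation_eq_zero p D x hx hgen hD (h.coeff i) (hDcoeff i)
    exact ⟨d, by rw [frobenius_def, hd]⟩
  obtain ⟨d, hd⟩ := (mem_lifts _).mp hlift
  have hpow : minpoly E α = d ^ p := by
    rw [← hexp, ← hd, ← map_expand, map_frobenius_expand]
  have hirr' := minpoly.irreducible hα
  rw [hpow] at hirr'
  exact not_irreducible_pow hp.ne_one hirr'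

end Abstract

/-! ### The function field `k(J(q^d) : d ∣ M)` over `k(J)` in characteristic `ℓ` -/

section Concrete

variable (k : Type u) [Field k] (M : ℕ) [NeZero M]

/-- the element `J̄` of the function field `modularFunctionFieldFullC k M` -/
def xJ : ↥(modularFunctionFieldFullC k M) := ⟨jqModC k, jqModC_mem_full k M⟩

omit [NeZero M] in
@[simp] theorem coe_xJ : ((xJ k M : ↥(modularFunctionFieldFullC k M)) : LaurentSeries k) = jqModC k :=
  rfl

omit [NeZero M] in
/-- **(a)** `J̄` is transcendental over `k`. -/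
theorem transcendental_xJ : Transcendental k (xJ k M) := fun h =>
  LevelData.transcendental_jqModC k
    ((isAlgebraic_algHom_iff (modularFunctionFieldFullC k M).val Subtype.val_injective).mpr h)

omit [NeZero M] in
theorem comap_adjoin_jqModC :
    (k⟮jqModC k⟯).comap (modularFunctionFieldFullC k M).val = k⟮xJ k M⟯ := by
  have h : (k⟮xJ k M⟯).map (modularFunctionFieldFullC k M).val = k⟮jqModC k⟯ := by
    rw [adjoin_map, Set.image_singleton]
    rfl
  rw [← h, comap_map]

/-- `[F̄ : k(J̄)] ≤ ψ(M)`, as a rank. -/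
theorem rank_le_psi (ℓ : ℕ) [Fact ℓ.Prime] [CharP k ℓ] :
    Module.rank ↥(k⟮xJ k M⟯) ↥(modularFunctionFieldFullC k M) ≤ (dedekindPsi M : Cardinal.{u}) := by
  have h := rank_comap (k⟮jqModC k⟯) (modularFunctionFieldFullC k M).val
  rw [fieldRange_val, comap_adjoin_jqModC] at h
  rw [h]
  exact Upper0.relrank_le_psi k ℓ M

/-- **(b)** `F̄` is finite over `k(J̄)`. -/
theorem finiteDimensional_xJ (ℓ : ℕ) [Fact ℓ.Prime] [CharP k ℓ] :
    FiniteDimensional ↥(k⟮xJ k M⟯) ↥(modularFunctionFieldFullC k M) :=
  haveI : Module.Free ↥(k⟮xJ k M⟯) ↥(modularFunctionFieldFullC k M) :=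
    Module.Free.of_divisionRing _ _
  Module.rank_lt_aleph0_iff.mp ((rank_le_psi k M ℓ).trans_lt Cardinal.natCast_lt_aleph0)

/-- `[F̄ : k(J̄)] ≤ ψ(M)`. -/
theorem finrank_le_psi (ℓ : ℕ) [Fact ℓ.Prime] [CharP k ℓ] :
    Module.finrank ↥(k⟮xJ k M⟯) ↥(modularFunctionFieldFullC k M) ≤ dedekindPsi M := by
  have hfd := finiteDimensional_xJ k M ℓ
  have hfree : Module.Free ↥(k⟮xJ k M⟯) ↥(modularFunctionFieldFullC k M) :=
    Module.Free.of_divisionRing _ _
  have h := rank_le_psi k M ℓ
  rw [← Module.finrank_eq_rank] at h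
  exact_mod_cast h

/-- `θ(J̄) ≠ 0` -/
theorem theta_jqModC_ne_zero : A0Theta.theta (jqModC k) ≠ 0 := by
  intro h
  have h2 := congrArg (fun f => HahnSeries.coeff f (-1)) h
  simp only [A0Theta.theta_coeff, coeff_jqModC_neg_one, HahnSeries.coeff_zero] at h2
  simp at h2

/-- `θ = q d/dq` as a derivation of the field `k((q))` for the module structure
`Algebra.toModule` (S28's `A0Theta.theta` is a derivation for `HahnSeries.instModule`). -/
def thetaA :=
  derivationOfLeibniz (k := k) (L := LaurentSeries k) (fun f => A0Theta.theta f)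
    (fun a b => map_add _ a b)
    (fun a b => by
      show A0Theta.theta (a * b) = a * A0Theta.theta b + b * A0Theta.theta a
      rw [Derivation.leibniz, smul_eq_mul, smul_eq_mul])
    (fun c => Derivation.map_algebraMap _ c)

@[simp] theorem thetaA_apply (f : LaurentSeries k) : thetaA k f = A0Theta.theta f := rfl

/-- **(c1)** `J̄` is not an `ℓ`-th power in `k((q))`. -/
theorem pow_ne_jqModC (ℓ : ℕ) [CharP k ℓ] (y : LaurentSeries k) : y ^ ℓ ≠ jqModC k := by
  intro h
  refine theta_jqModC_ne_zero k ?_
  rw [← h, ← thetaA_apply]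
  exact derivation_pow_char (k := k) ℓ (thetaA k) y

omit [NeZero M] in
/-- **(c1)** `J̄` is not an `ℓ`-th power in the function field. -/
theorem xJ_not_pow (ℓ : ℕ) [CharP k ℓ] (y : ↥(modularFunctionFieldFullC k M)) :
    y ^ ℓ ≠ xJ k M := by
  intro h
  exact pow_ne_jqModC k ℓ (y : LaurentSeries k) (by rw [← coe_xJ k M, ← h]; rfl)

omit [NeZero M] in
/-- every element of `k(J̄)` is a quotient of polynomials in the generator -/
theorem exists_eq_div_gen (c : ↥(k⟮xJ k M⟯)) :
    ∃ r s : k[X], c = aeval (AdjoinSimple.gen k (xJ k M)) r / aeval (AdjoinSimple.gen k (xJ k M)) s := by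
  obtain ⟨r, s, h⟩ := (mem_adjoin_simple_iff k (c : ↥(modularFunctionFieldFullC k M))).mp c.2
  refine ⟨r, s, Subtype.ext ?_⟩
  rw [h]
  push_cast
  rw [AdjoinSimple.coe_aeval_gen_apply, AdjoinSimple.coe_aeval_gen_apply]

/-- **(c2)** for `k` perfect of characteristic `ℓ`, `F̄ / k(J̄)` is separable. -/
theorem isSeparable_xJ (ℓ : ℕ) [Fact ℓ.Prime] [CharP k ℓ] [PerfectField k] :
    Algebra.IsSeparable ↥(k⟮xJ k M⟯) ↥(modularFunctionFieldFullC k M) := by
  have hfd := finiteDimensional_xJ k M ℓ
  refine ⟨fun α => ?_⟩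
  have hint : IsIntegral ↥(k⟮xJ k M⟯) α := IsIntegral.of_finite _ α
  have hinj : Function.Injective
      (algebraMap ↥(modularFunctionFieldFullC k M) (LaurentSeries k)) := Subtype.val_injective
  have hxt : Transcendental k (AdjoinSimple.gen k (xJ k M)) := fun h =>
    transcendental_xJ k M
      ((isAlgebraic_algHom_iff (k⟮xJ k M⟯).val Subtype.val_injective).mpr h)
  have h := separable_of_derivation (k := k) (E := ↥(k⟮xJ k M⟯)) (L := LaurentSeries k) ℓ
    (thetaA k) (AdjoinSimple.gen k (xJ k M)) hxt (exists_eq_div_gen k M)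
    (theta_jqModC_ne_zero k) (algebraMap ↥(modularFunctionFieldFullC k M) (LaurentSeries k) α)
    (hint.algebraMap)
  rw [minpoly.algebraMap_eq hinj] at h
  exact h

/-- **(d)** `RR.Hyp0` for the function field `k(J(q^d) : d ∣ M)` in characteristic `ℓ`. -/
theorem hyp0_modC (ℓ : ℕ) [Fact ℓ.Prime] [CharP k ℓ] [IsAlgClosed k] :
    Fermat.Agent.S20.RR.Hyp0 k ↥(modularFunctionFieldFullC k M) := by
  have hfd := finiteDimensional_xJ k M ℓ
  exact PHyp.hyp0_of_finite (xJ k M) (transcendental_xJ k M)

/-- **(d)** `RR.Hyp` for the function field `k(J(q^d) : d ∣ M)` in characteristic `ℓ`. -/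
theorem hyp_modC (ℓ : ℕ) [Fact ℓ.Prime] [CharP k ℓ] [IsAlgClosed k] :
    Fermat.Agent.S20.RR.Hyp k ↥(modularFunctionFieldFullC k M) := by
  have hfd := finiteDimensional_xJ k M ℓ
  exact PHyp.hyp_of_finite (xJ k M) (transcendental_xJ k M)

end Concrete

end Fermat.Agent.S18.PModC
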