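/-
S18: the residue field of a valuation subring of an algebraically closed field is algebraically
closed (in particular the residue field of a valuation subring of `AlgebraicClosure ℚ`).
-/
import Mathlib

set_option autoImplicit false

noncomputable section

open Polynomial

namespace Fermat.Agent.S18.ResAC

/-- An element of an algebraically closed field which is integral over a valuation subring lies
in it. -/
theorem mem_of_isIntegral {L : Type*} [Field L] (A : ValuationSubring L) {x : L}
    (hx : IsIntegral ↥A x) : x ∈ A := by
  obtain ⟨y, rfl⟩ := IsIntegrallyClosed.isIntegral_iff.mp hx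
  exact y.2

/-- Every monic polynomial over a valuation subring of an algebraically closed field, of nonzero
degree, has a root in the valuation subring. -/
theorem exists_root_of_monic {L : Type*} [Field L] [IsAlgClosed L] (A : ValuationSubring L)
    (P : (↥A)[X]) (hP : P.Monic) (hdeg : P.degree ≠ 0) : ∃ y : ↥A, P.eval y = 0 := by
  have hdeg' : (P.map (algebraMap ↥A L)).degree ≠ 0 := by
    rw [hP.degree_map]
    exact hdeg
  obtain ⟨x, hx⟩ := IsAlgClosed.exists_root (P.map (algebraMap ↥A L)) hdeg'
  have hxint : IsIntegral ↥A x := ⟨P, hP, by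
    rw [← Polynomial.eval_map]
    exact hx⟩
  refine ⟨⟨x, mem_of_isIntegral A hxint⟩, ?_⟩
  apply Subtype.ext
  have h1 : (P.map (algebraMap ↥A L)).eval x
      = algebraMap ↥A L (P.eval ⟨x, mem_of_isIntegral A hxint⟩) := by
    rw [Polynomial.eval_map]
    exact Polynomial.eval₂_at_apply (algebraMap ↥A L) ⟨x, mem_of_isIntegral A hxint⟩
  have h2 : algebraMap ↥A L (P.eval ⟨x, mem_of_isIntegral A hxint⟩) = 0 := by
    rw [← h1]
    exact hx
  exact h2

/-- The residue field of a valuation subring of an algebraically closed field is algebraically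
closed. -/
theorem isAlgClosed_residueField {L : Type*} [Field L] [IsAlgClosed L] (A : ValuationSubring L) :
    IsAlgClosed (IsLocalRing.ResidueField ↥A) := by
  apply IsAlgClosed.of_exists_root
  intro p hpm hpirr
  have hsurj : Function.Surjective (IsLocalRing.residue ↥A) := IsLocalRing.residue_surjective
  obtain ⟨P₀, hP₀⟩ := Polynomial.map_surjective (IsLocalRing.residue ↥A) hsurj p
  obtain ⟨P, hP, hPdeg, hPm⟩ := Polynomial.lifts_and_degree_eq_and_monic
    ((Polynomial.mem_lifts p).mpr ⟨P₀, hP₀⟩) hpm
  have hdeg : P.degree ≠ 0 := by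
    rw [hPdeg]
    exact fun h0 => hpirr.not_isUnit (Polynomial.isUnit_iff_degree_eq_zero.mpr h0)
  obtain ⟨y, hy⟩ := exists_root_of_monic A P hPm hdeg
  refine ⟨IsLocalRing.residue ↥A y, ?_⟩
  rw [← hP, Polynomial.eval_map, Polynomial.eval₂_at_apply, hy, map_zero]

/-- The residue field of a valuation subring of `AlgebraicClosure ℚ` is algebraically closed. -/
theorem isAlgClosed_residueField_ratBar (A : ValuationSubring (AlgebraicClosure ℚ)) :
    IsAlgClosed (IsLocalRing.ResidueField ↥A) :=
  isAlgClosed_residueField A

end Fermat.Agent.S18.ResAC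

end
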