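/-
S18 (wave 7), chain GS: the top-level genus squeeze `GenusSqueezeStmt` of `Iface.lean` reduced to
ONE remaining statement, the lower bound for the Riemann genus of the special fibre
(chain CL + SQ).  Everything else is discharged here:

* characteristic zero: `C0F.riemann_char0` (Riemann's inequality with the genus-formula constant);
* the special fibre satisfies `RR.Hyp` (`PModC.hyp_modC`, residue field algebraically closed of
  characteristic `ℓ`);
* the adapter `GSA.genusSqueeze_of`.

Main statements: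
* `GST.SQStmt` : `genusFormula M ≤ genusR (Kb A) (FbN A M)` for every admissible level `M`;
* `GST.genusSqueezeStmt_of_sq : SQStmt → GenusSqueezeStmt`;
* `GST.hyp_Kb`, `GST.hyp0_Kb`, `GST.isAlgClosed_Kb`, `GST.charP_Kb` : the standing facts about the
  special fibre in the notation of `Defs.lean`;
* helpers for consumers of `GenusSqueeze`: `GST.exists_bound_of_genusGE`, `GST.exists_bound_Kb`
  (the `GenusGE` half for ALL divisors of large degree) and `GST.genusR_le_of_genusLE`.
-/
import Fermat.Agent.S18.GSAdapt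
import Fermat.Agent.S18.C0F
import Fermat.Agent.S18.PModC
import Fermat.Agent.S18.ResAlgClosed
import Fermat.Agent.S18.RNormal

set_option autoImplicit false
set_option linter.style.haveILetI false

noncomputable section

namespace Fermat.Agent.S18.GST

open AlgebraicCurve IntermediateField ModularCurve
open Fermat.Agent.S20

/-! ### Standing facts about the special fibre -/

/-- The residue field of `A ⊂ ℚ̄` is algebraically closed. -/
theorem isAlgClosed_Kb (A : ValuationSubring Qb) : IsAlgClosed (Kb A) :=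
  ResAC.isAlgClosed_residueField A

/-- The residue field of `A ⊂ ℚ̄` over `ℓ` has characteristic `ℓ`. -/
theorem charP_Kb {ℓ : ℕ} [Fact ℓ.Prime] (A : ValuationSubring Qb) (hA : A.LiesOverPrime ℓ) :
    CharP (Kb A) ℓ :=
  RN.charP_residueField A hA

/-- `RR.Hyp0` for the special fibre `F̄_M` (any level `M ≠ 0`). -/
theorem hyp0_Kb {ℓ : ℕ} [Fact ℓ.Prime] (A : ValuationSubring Qb) (hA : A.LiesOverPrime ℓ)
    (M : ℕ) [NeZero M] : RR.Hyp0 (Kb A) ↥(FbN A M) := by
  haveI := isAlgClosed_Kb A
  haveI := charP_Kb A hA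
  exact PModC.hyp0_modC (Kb A) M ℓ

/-- `RR.Hyp` for the special fibre `F̄_M` (any level `M ≠ 0`). -/
theorem hyp_Kb {ℓ : ℕ} [Fact ℓ.Prime] (A : ValuationSubring Qb) (hA : A.LiesOverPrime ℓ)
    (M : ℕ) [NeZero M] : RR.Hyp (Kb A) ↥(FbN A M) := by
  haveI := isAlgClosed_Kb A
  haveI := charP_Kb A hA
  exact PModC.hyp_modC (Kb A) M ℓ

/-! ### Consumers of `GenusGE` / `GenusLE` -/

section Generic

variable {K F : Type*} [Field K] [Field F] [Algebra K F]

/-- The `GenusGE` bound holds for ALL divisors of large degree (not only those above `D₀`). -/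
theorem exists_bound_of_genusGE (h : RR.Hyp K F) {g : ℤ} (hg : GenusGE K F g) :
    ∃ c : ℤ, ∀ D : Divisor K F, c ≤ Divisor.degree D →
      (RR.ell D : ℤ) ≤ Divisor.degree D + 1 - g := by
  have h1 := GSA.le_genusR_of_genusGE h hg
  obtain ⟨-, c, hc⟩ := PHyp.genusR_spec h
  exact ⟨c, fun D hD => by have := hc D hD; omega⟩

/-- A `GenusLE` bound is an upper bound for the Riemann genus. -/
theorem genusR_le_of_genusLE (h : RR.Hyp K F) {g : ℤ} (hg : GenusLE K F g) :
    PHyp.genusR K F ≤ g :=
  PHyp.genusR_le_of h (c := 0) fun D _ => hg D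

end Generic

/-- For the special fibre: the `GenusGE` half of a genus squeeze for all divisors of large
degree. -/
theorem exists_bound_Kb {ℓ : ℕ} [Fact ℓ.Prime] (A : ValuationSubring Qb) (hA : A.LiesOverPrime ℓ)
    (M : ℕ) [NeZero M] {g : ℤ} (hg : GenusGE (Kb A) ↥(FbN A M) g) :
    ∃ c : ℤ, ∀ D : Divisor (Kb A) ↥(FbN A M), c ≤ Divisor.degree D →
      (RR.ell D : ℤ) ≤ Divisor.degree D + 1 - g :=
  exists_bound_of_genusGE (hyp_Kb A hA M) hg

/-! ### The top-level statement -/

/-- **[chain CL + SQ]** the one remaining input of the genus squeeze: at every admissible level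
the genus formula is a lower bound for the Riemann genus of the special fibre. -/
def SQStmt : Prop :=
  ∀ (ℓ : ℕ) [Fact ℓ.Prime] (A : ValuationSubring Qb), A.LiesOverPrime ℓ →
    ∀ (M : ℕ) [NeZero M], Admissible ℓ M →
      (genusFormula M : ℚ) ≤ (PHyp.genusR (Kb A) ↥(FbN A M) : ℚ)

/-- The genus squeeze at every level `M ≠ 0` at which the SQ bound holds. -/
theorem genusSqueeze_of_sq {ℓ : ℕ} [Fact ℓ.Prime] (A : ValuationSubring Qb)
    (hA : A.LiesOverPrime ℓ) (M : ℕ) [NeZero M]
    (h : (genusFormula M : ℚ) ≤ (PHyp.genusR (Kb A) ↥(FbN A M) : ℚ)) : GenusSqueeze A M :=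
  GSA.genusSqueeze_of A M (hyp_Kb A hA M) (genusFormula M) (C0F.riemann_char0 M) h

/-- **`GenusSqueezeStmt` from the SQ bound.** -/
theorem genusSqueezeStmt_of_sq (hSQ : SQStmt) : GenusSqueezeStmt :=
  fun ℓ _ A hA M _ hadm => genusSqueeze_of_sq A hA M (hSQ ℓ A hA M hadm)

end Fermat.Agent.S18.GST

end
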