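/-
S18 (torsion injects under reduction), chain CL+SQ, piece C of helper16's cut (helper15):
counting the centres of a rotation-stable family of embeddings of a rational function field.

Setting: `K` algebraically closed (any characteristic), `F₀ = K(y)`, `J ∈ F₀` with `F₀/K(J)` finite
separable of degree `#I`, and pairwise distinct `K`-embeddings `σ i : F₀ →+* K((u))` (`i : I`), all
sending `J` to the same series of order `-m < 0`, permuted by `ρ` through the substitution
`u ↦ ζ u` (`ζ` a primitive `m`-th root of unity).  The centre of `σ i` (w.r.t. `y`) is the point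
`c ∈ P¹(K) = Option K` with `ord (σ i y) < 0` (`c = none`) resp. `0 < ord (σ i (y - a))`
(`c = some a`).

* `exists_centres` (pole form, helper16's literal): at least `cyc ρ` distinct centres occur.
* `exists_finite_centres`: at least `cyc ρ - 1` distinct finite centres.
* `exists_centres_of_datum` (zero form): the same for an S24 `LocalDatum (RingHom.id K) x ρ m`.
* `val_lt_one_iff_of_centre`, `val_lt_one_iff_of_centre_top`: two valuations of `K(y)` trivial on
  `K` with the same centre have the same maximal ideal (generic).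

Proof: the abstract orbit theorem (S24 `Orbit.card_primesOver_eq_card_orbits`, characteristic
free) gives `#primes of the integral closure of K[1/J] over (1/J) = cyc ρ`; every such prime is
cut out by an embedding, and embeddings with the same centre cut out the same prime.
-/
import Mathlib
import Fermat.Agent.S24.Defs
import Fermat.Agent.S24.Orbit
import Fermat.Agent.S24.PlaceDict
import Fermat.Agent.S24.Alg.LocalCount

set_option autoImplicit false
set_option linter.unusedSectionVars false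

noncomputable section

namespace Fermat.Agent.S18.CLCentre

open Polynomial IntermediateField WithZero Fermat.Agent.S24
open scoped IntermediateField.algebraAdjoinAdjoin

section Val

variable {K F₀ Γ : Type*} [Field K] [Field F₀] [Algebra K F₀]
  [LinearOrderedCommGroupWithZero Γ]

/-- a valuation trivial on `K` with `w y ≤ 1` is `≤ 1` on `K[y]` -/
theorem val_aeval_le_one (w : Valuation F₀ Γ) (hw : ∀ c : K, w (algebraMap K F₀ c) ≤ 1)
    (y : F₀) (hy : w y ≤ 1) (p : K[X]) : w (aeval y p) ≤ 1 := by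
  induction p using Polynomial.induction_on' with
  | add p q hp hq =>
    rw [map_add]
    exact le_trans (w.map_add _ _) (max_le hp hq)
  | monomial n c =>
    rw [aeval_monomial, map_mul, map_pow]
    exact mul_le_one' (hw c) (pow_le_one' hy n)

/-- the valuation of `p(y)` at a valuation centred at `y = a` -/
theorem val_aeval_eq_pow (w : Valuation F₀ Γ) (hw : ∀ c : K, c ≠ 0 → w (algebraMap K F₀ c) = 1)
    (y : F₀) (a : K) (ha : w (y - algebraMap K F₀ a) < 1) {p : K[X]} (hp : p ≠ 0) :
    w (aeval y p) = w (y - algebraMap K F₀ a) ^ (rootMultiplicity a p) := by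
  have hw' : ∀ c : K, w (algebraMap K F₀ c) ≤ 1 := by
    intro c
    rcases eq_or_ne c 0 with rfl | hc
    · simp
    · exact (hw c hc).le
  have hy1 : w y ≤ 1 := by
    have : y = (y - algebraMap K F₀ a) + algebraMap K F₀ a := by ring
    rw [this]
    exact le_trans (w.map_add _ _) (max_le ha.le (hw' a))
  obtain ⟨q, hq, hndvd⟩ := exists_eq_pow_rootMultiplicity_mul_and_not_dvd p hp a
  have hqa : q.eval a ≠ 0 := fun h => hndvd (dvd_iff_isRoot.mpr h)
  obtain ⟨q', hq'⟩ := X_sub_C_dvd_sub_C_eval (a := a) (p := q)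
  have hq2 : q = (X - C a) * q' + C (q.eval a) := by rw [← hq']; ring
  have h1 : aeval y q = (y - algebraMap K F₀ a) * aeval y q' + algebraMap K F₀ (q.eval a) := by
    conv_lhs => rw [hq2]
    simp [aeval_C]
  have h2 : w ((y - algebraMap K F₀ a) * aeval y q') < 1 := by
    rw [map_mul]
    calc w (y - algebraMap K F₀ a) * w (aeval y q') ≤ w (y - algebraMap K F₀ a) * 1 := by
          gcongr
          exact val_aeval_le_one w hw' y hy1 q'
      _ < 1 := by rwa [mul_one]
  have h3 : w (aeval y q) = 1 := by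
    rw [h1, ← hw _ hqa]
    apply Valuation.map_add_eq_of_lt_right
    rw [hw _ hqa]
    exact h2
  conv_lhs => rw [hq]
  rw [map_mul, map_pow, map_sub, aeval_X, aeval_C, map_mul, map_pow, h3, mul_one]

/-- **Two valuations of `K(y)` trivial on `K` with the same finite centre have the same
maximal ideal.** -/
theorem val_lt_one_iff_of_centre (w₁ w₂ : Valuation F₀ Γ)
    (h₁ : ∀ c : K, c ≠ 0 → w₁ (algebraMap K F₀ c) = 1)
    (h₂ : ∀ c : K, c ≠ 0 → w₂ (algebraMap K F₀ c) = 1)
    (y : F₀) (hy : K⟮y⟯ = ⊤) (a : K) (hya : y ≠ algebraMap K F₀ a)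
    (ha₁ : w₁ (y - algebraMap K F₀ a) < 1) (ha₂ : w₂ (y - algebraMap K F₀ a) < 1) (b : F₀) :
    w₁ b < 1 ↔ w₂ b < 1 := by
  have hb : b ∈ K⟮y⟯ := by rw [hy]; exact IntermediateField.mem_top
  obtain ⟨r, s, rfl⟩ := (IntermediateField.mem_adjoin_simple_iff K b).mp hb
  have hne : y - algebraMap K F₀ a ≠ 0 := sub_ne_zero.mpr hya
  rcases eq_or_ne r 0 with rfl | hr
  · simp
  rcases eq_or_ne s 0 with rfl | hs
  · simp
  have key : ∀ w : Valuation F₀ Γ, (∀ c : K, c ≠ 0 → w (algebraMap K F₀ c) = 1) →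
      w (y - algebraMap K F₀ a) < 1 →
      (w (aeval y r / aeval y s) < 1 ↔ rootMultiplicity a s < rootMultiplicity a r) := by
    intro w hw ha
    have hg0 : 0 < w (y - algebraMap K F₀ a) := by
      rw [zero_lt_iff, Valuation.ne_zero_iff]; exact hne
    rw [map_div₀, val_aeval_eq_pow w hw y a ha hr, val_aeval_eq_pow w hw y a ha hs,
      div_lt_one₀ (pow_pos hg0 _), pow_lt_pow_iff_right_of_lt_one₀ hg0 ha]
  rw [key w₁ h₁ ha₁, key w₂ h₂ ha₂]

/-- the same at the infinite centre -/
theorem val_lt_one_iff_of_centre_top (w₁ w₂ : Valuation F₀ Γ)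
    (h₁ : ∀ c : K, c ≠ 0 → w₁ (algebraMap K F₀ c) = 1)
    (h₂ : ∀ c : K, c ≠ 0 → w₂ (algebraMap K F₀ c) = 1)
    (y : F₀) (hy : K⟮y⟯ = ⊤) (ha₁ : 1 < w₁ y) (ha₂ : 1 < w₂ y) (b : F₀) :
    w₁ b < 1 ↔ w₂ b < 1 := by
  have hy0 : y ≠ 0 := by
    rintro rfl
    simp at ha₁
  have hy' : K⟮y⁻¹⟯ = ⊤ := by
    rw [eq_top_iff, ← hy, IntermediateField.adjoin_simple_le_iff]
    have h := inv_mem (IntermediateField.mem_adjoin_simple_self K y⁻¹)
    rwa [inv_inv] at h
  have hinv : ∀ w : Valuation F₀ Γ, 1 < w y → w (y⁻¹ - algebraMap K F₀ 0) < 1 := by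
    intro w hw
    rw [map_zero, sub_zero, map_inv₀]
    exact inv_lt_one_of_one_lt₀ hw
  exact val_lt_one_iff_of_centre w₁ w₂ h₁ h₂ y⁻¹ hy' 0
    (by rw [map_zero]; exact inv_ne_zero hy0) (hinv w₁ ha₁) (hinv w₂ ha₂) b

end Val


section Centre

variable {K F₀ : Type*} [Field K] [Field F₀] [Algebra K F₀]

/-- the centre in `P¹(K) = Option K` of an embedding `τ : K(y) → K((u))` -/
def centre (τ : F₀ →+* LaurentSeries K) (y : F₀) : Option K :=
  if (τ y).order < 0 then none else some ((τ y).coeff 0)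

theorem centre_eq_none_iff (τ : F₀ →+* LaurentSeries K) (y : F₀) :
    centre τ y = none ↔ (τ y).order < 0 := by
  unfold centre
  split_ifs with h <;> simp [h]

/-- valuation form of "the centre is `∞`" -/
theorem one_lt_val_of_order_neg (g : LaurentSeries K) (hg : g.order < 0) :
    (1 : ℤᵐ⁰) < Valued.v g := by
  have hg0 : g ≠ 0 := by
    rintro rfl
    simp at hg
  rw [LocalCount.laurent_valuation_eq g hg0, ← exp_zero, exp_lt_exp]
  omega

/-- valuation form of "the centre is `a`" -/
theorem val_sub_lt_one_of_centre (τ : F₀ →+* LaurentSeries K)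
    (hK : ∀ c, τ (algebraMap K F₀ c) = HahnSeries.C c) (y : F₀) {a : K}
    (h : centre τ y = some a) : (Valued.v (τ (y - algebraMap K F₀ a)) : ℤᵐ⁰) < 1 := by
  unfold centre at h
  split_ifs at h with h0
  have ha : (τ y).coeff 0 = a := Option.some.inj h
  have h1 : (Valued.v (τ (y - algebraMap K F₀ a)) : ℤᵐ⁰) ≤ exp (-(1 : ℤ)) := by
    rw [LaurentSeries.valuation_le_iff_coeff_lt_eq_zero]
    intro n hn
    rw [map_sub, hK, HahnSeries.coeff_sub]
    rcases lt_or_eq_of_le (show n ≤ 0 by omega) with hn0 | rfl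
    · rw [HahnSeries.coeff_eq_zero_of_lt_order (by omega), HahnSeries.C_apply,
        HahnSeries.coeff_single_of_ne hn0.ne, sub_zero]
    · rw [ha, HahnSeries.C_apply, HahnSeries.coeff_single_same, sub_self]
  refine lt_of_le_of_lt h1 ?_
  rw [← exp_zero, exp_lt_exp]
  omega

theorem order_sub_pos_of_centre (τ : F₀ →+* LaurentSeries K)
    (hK : ∀ c, τ (algebraMap K F₀ c) = HahnSeries.C c) (y : F₀) {a : K}
    (hya : y ≠ algebraMap K F₀ a) (h : centre τ y = some a) :
    0 < (τ (y - algebraMap K F₀ a)).order := by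
  have h1 := val_sub_lt_one_of_centre τ hK y h
  have h0 : τ (y - algebraMap K F₀ a) ≠ 0 := (_root_.map_ne_zero τ).mpr (sub_ne_zero.mpr hya)
  rw [LocalCount.laurent_valuation_eq _ h0, ← exp_zero, exp_lt_exp] at h1
  omega

end Centre

section Main

variable {K F₀ : Type*} [Field K] [IsAlgClosed K] [Field F₀] [Algebra K F₀]
  {I : Type*} [Fintype I]

/-- **Piece C, zero form.**  A local datum for a function `x` (all embeddings agree on `x`, of
order `m > 0`, rotation by a primitive `m`-th root of unity) on a rational function field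
`F₀ = K(y)` with `#I = [F₀ : K(x)]`, `F₀/K(x)` separable: the embeddings have at least `cyc ρ`
distinct centres in `P¹(K)` (w.r.t. the coordinate `y`). -/
theorem exists_centres_of_datum (ρ : Equiv.Perm I) (m : ℕ) (x : F₀)
    (dat : LocalDatum (RingHom.id K) x ρ m)
    [FiniteDimensional K⟮x⟯ F₀] [Algebra.IsSeparable K⟮x⟯ F₀]
    (hcard : Fintype.card I = Module.finrank K⟮x⟯ F₀)
    (y : F₀) (hy : K⟮y⟯ = ⊤) :
    ∃ S : Finset (Option K), cyc ρ ≤ S.card ∧ ∀ c ∈ S, ∃ i,
      (c = none ∧ (dat.τ i y).order < 0) ∨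
        ∃ a, c = some a ∧ 0 < (dat.τ i (y - algebraMap K F₀ a)).order := by
  classical
  set w : Valuation (LaurentSeries K) ℤᵐ⁰ := Valued.v with hw_def
  have hpos : 0 < Module.finrank K⟮x⟯ F₀ := Module.finrank_pos
  have hne : Nonempty I := by
    have h1 : 0 < Fintype.card I := by rw [hcard]; exact hpos
    exact Fintype.card_pos_iff.mp h1
  have w_const : ∀ i (c : K), c ≠ 0 → w (dat.τ i (algebraMap K F₀ c)) = 1 :=
    LocalCount.datum_w_const (RingHom.id K) x ρ m dat
  have w_y : ∀ i, w (dat.τ i x) = exp (-(m : ℤ)) := LocalCount.datum_w_y (RingHom.id K) x ρ m dat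
  have w_σ : ∀ i (f : F₀), w (dat.τ (ρ i) f) = w (dat.τ i f) :=
    LocalCount.datum_w_σ (RingHom.id K) x ρ m dat
  have dvd : ∀ i (d : ℕ), (ρ ^ d) i = i → ∀ f : F₀, f ≠ 0 →
      ((m / Nat.gcd m d : ℕ) : ℤ) ∣ log (w (dat.τ i f)) :=
    LocalCount.datum_dvd (RingHom.id K) x ρ m dat
  have m_pos := dat.m_pos
  have hx : Transcendental K x := LocalCount.transcendental_of_val w x m dat.τ w_const m_pos w_y
  have hPIR : IsPrincipalIdealRing (Algebra.adjoin K {x}) :=
    PlaceDict.isPrincipalIdealRing_adjoin K x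
  -- the embeddings agree on `K(x)`
  have hagree : ∀ i j (z : K⟮x⟯), dat.τ i (algebraMap K⟮x⟯ F₀ z) =
      dat.τ j (algebraMap K⟮x⟯ F₀ z) := by
    intro i j z
    obtain ⟨z, hz⟩ := z
    show dat.τ i z = dat.τ j z
    induction hz using IntermediateField.adjoin_induction with
    | mem x hx =>
      rw [Set.mem_singleton_iff] at hx
      rw [hx]
      exact dat.τ_y i j
    | algebraMap c => rw [dat.τ_algebraMap, dat.τ_algebraMap]
    | add a b _ _ ha hb => rw [map_add, map_add, ha, hb]
    | inv a _ ha => rw [map_inv₀, map_inv₀, ha]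
    | mul a b _ _ ha hb => rw [map_mul, map_mul, ha, hb]
  -- `w ≤ 1` on `K[x]`
  have hA : ∀ i (a : Algebra.adjoin K {x}),
      w (dat.τ i (algebraMap (Algebra.adjoin K {x}) F₀ a)) ≤ 1 := by
    intro i a
    obtain ⟨a, ha⟩ := a
    show w (dat.τ i a) ≤ 1
    induction ha using Algebra.adjoin_induction with
    | mem z hz =>
      rw [Set.mem_singleton_iff] at hz
      rw [hz, w_y i, ← exp_zero, exp_le_exp]
      omega
    | algebraMap c =>
      rcases eq_or_ne c 0 with rfl | hc
      · simp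
      · exact (w_const i c hc).le
    | add a b _ _ ha hb =>
      rw [map_add]
      exact le_trans (w.map_add _ _) (max_le ha hb)
    | mul a b _ _ ha hb =>
      rw [map_mul, map_mul]
      exact mul_le_one' ha hb
  have hw : ∀ i, w (dat.τ i (algebraMap (Algebra.adjoin K {x}) F₀ (PlaceDict.gen K x))) =
      exp (-(m : ℤ)) := fun i => w_y i
  have hw1 : ∀ i, w (dat.τ i (algebraMap (Algebra.adjoin K {x}) F₀ (PlaceDict.gen K x))) < 1 := by
    intro i
    rw [hw i, ← exp_zero, exp_lt_exp]
    omega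
  have hmax := PlaceDict.span_gen_isMaximal hx
  have hgen0 := PlaceDict.gen_ne_zero hx
  have hf : ∀ P : Ideal (integralClosure (Algebra.adjoin K {x}) F₀), P.IsPrime →
      P.LiesOver (Ideal.span {PlaceDict.gen K x}) → P.inertiaDeg (Algebra.adjoin K {x}) = 1 :=
    fun P hP1 hP2 => PlaceDict.inertiaDeg_eq_one (Ideal.span {PlaceDict.gen K x}) P
      (PlaceDict.exists_sub_mem_span_gen K x)
  -- invariance under the cyclic group
  have hzpow : ∀ (n : ℤ) (i : I) (f : F₀), w (dat.τ ((ρ ^ n) i) f) = w (dat.τ i f) := by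
    intro n
    induction n using Int.induction_on with
    | zero => intro i f; simp
    | succ n ih =>
      intro i f
      rw [zpow_add_one, Equiv.Perm.mul_apply, ih, w_σ]
    | pred n ih =>
      intro i f
      rw [zpow_sub_one, Equiv.Perm.mul_apply, ih]
      have h := w_σ (ρ⁻¹ i) f
      have h2 : ρ (ρ⁻¹ i) = i := by simp
      rw [h2] at h
      exact h.symm
  have hinv : ∀ (g : Subgroup.zpowers ρ) (i : I) (f : F₀), w (dat.τ (g • i) f) = w (dat.τ i f) := by
    rintro ⟨g, hg⟩ i f
    obtain ⟨n, rfl⟩ := Subgroup.mem_zpowers_iff.mp hg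
    exact hzpow n i f
  have hdiv : ∀ i : I, ∃ c : ℕ, m ∣ c * (MulAction.orbit (Subgroup.zpowers ρ) i).ncard ∧
      ∀ f : F₀, f ≠ 0 → (c : ℤ) ∣ log (w (dat.τ i f)) := by
    intro i
    have hs : (MulAction.orbit (Subgroup.zpowers ρ) i).ncard =
        Function.minimalPeriod (ρ • ·) i := by
      rw [MulAction.minimalPeriod_eq_card, ← Nat.card_eq_fintype_card, Nat.card_coe_set_eq]
    set s := Function.minimalPeriod (ρ • ·) i with hs_def
    have hfix : (ρ ^ s) i = i :=
      (MulAction.pow_smul_eq_iff_minimalPeriod_dvd (a := ρ) (b := i) (n := s)).mpr dvd_rfl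
    refine ⟨m / Nat.gcd m s, ?_, dvd i s hfix⟩
    rw [hs]
    obtain ⟨a, ha⟩ := Nat.gcd_dvd_left m s
    obtain ⟨b, hb⟩ := Nat.gcd_dvd_right m s
    have hg : 0 < Nat.gcd m s := Nat.gcd_pos_of_pos_left s m_pos
    have hga : m / Nat.gcd m s = a := Nat.div_eq_of_eq_mul_right hg ha
    refine ⟨b, ?_⟩
    rw [hga]
    calc a * s = a * (Nat.gcd m s * b) := congrArg (a * ·) hb
      _ = Nat.gcd m s * a * b := by ring
      _ = m * b := by rw [← ha]
  -- the orbit theorem: `#primes over (x) = cyc ρ`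
  have hcnt : Nat.card ((Ideal.span {PlaceDict.gen K x}).primesOver
      (integralClosure (Algebra.adjoin K {x}) F₀)) = cyc ρ :=
    Orbit.card_primesOver_eq_card_orbits (K := K⟮x⟯) w dat.τ dat.τ_injective hcard hagree hA
      (PlaceDict.gen K x) hmax hgen0 m m_pos hw hf hinv hdiv
  set hint := Orbit.val_le_one_of_mem (B := integralClosure (Algebra.adjoin K {x}) F₀) w dat.τ hA
  -- `y` is not a constant
  have hyK : ∀ a : K, y ≠ algebraMap K F₀ a := by
    rintro a rfl
    apply hx
    have hxm : x ∈ K⟮algebraMap K F₀ a⟯ := by rw [hy]; exact IntermediateField.mem_top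
    have hbot : K⟮algebraMap K F₀ a⟯ = ⊥ :=
      IntermediateField.adjoin_simple_eq_bot_iff.mpr (IntermediateField.algebraMap_mem ⊥ a)
    rw [hbot, IntermediateField.mem_bot] at hxm
    obtain ⟨c, rfl⟩ := hxm
    exact isAlgebraic_algebraMap c
  -- the centre determines the prime
  have hcen : ∀ i j, centre (dat.τ i) y = centre (dat.τ j) y →
      Orbit.primeOf w dat.τ hint i = Orbit.primeOf w dat.τ hint j := by
    intro i j hij
    have hK : ∀ i c, dat.τ i (algebraMap K F₀ c) = HahnSeries.C c := fun i c =>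
      dat.τ_algebraMap i c
    have key : ∀ b : F₀, (w.comap (dat.τ i)) b < 1 ↔ (w.comap (dat.τ j)) b < 1 := by
      rcases hc : centre (dat.τ i) y with _ | a
      · have hi := (centre_eq_none_iff _ _).mp hc
        have hj := (centre_eq_none_iff _ _).mp (hij ▸ hc)
        exact val_lt_one_iff_of_centre_top (w.comap (dat.τ i)) (w.comap (dat.τ j))
          (w_const i) (w_const j) y hy (one_lt_val_of_order_neg _ hi)
          (one_lt_val_of_order_neg _ hj)
      · have hi := val_sub_lt_one_of_centre (dat.τ i) (hK i) y hc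
        have hj := val_sub_lt_one_of_centre (dat.τ j) (hK j) y (hij ▸ hc)
        exact val_lt_one_iff_of_centre (w.comap (dat.τ i)) (w.comap (dat.τ j))
          (w_const i) (w_const j) y hy a (hyK a) hi hj
    ext b
    rw [Orbit.mem_primeOf, Orbit.mem_primeOf]
    exact key _
  -- every prime over `(x)` comes from an embedding
  have hsurj : ∀ q : (Ideal.span {PlaceDict.gen K x}).primesOver
      (integralClosure (Algebra.adjoin K {x}) F₀), ∃ i, Orbit.primeOf w dat.τ hint i = q.1 := by
    rintro ⟨P, hP1, hP2⟩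
    exact Orbit.exists_primeOf_eq (K := K⟮x⟯) w dat.τ hint dat.τ_injective hcard hagree
      (PlaceDict.gen K x) hgen0 hw1 P
  -- count
  refine ⟨Finset.univ.image (fun i => centre (dat.τ i) y), ?_, ?_⟩
  · rw [← hcnt]
    have hmem : ∀ c : (Finset.univ.image (fun i => centre (dat.τ i) y) : Finset (Option K)),
        ∃ i, centre (dat.τ i) y = c.1 := by
      rintro ⟨c, hc⟩
      obtain ⟨i, -, hi⟩ := Finset.mem_image.mp hc
      exact ⟨i, hi⟩
    choose rep hrep using hmem
    have hΦ : ∀ i, Orbit.primeOf w dat.τ hint i ∈ (Ideal.span {PlaceDict.gen K x}).primesOver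
        (integralClosure (Algebra.adjoin K {x}) F₀) := fun i =>
      ⟨Orbit.primeOf_isPrime w dat.τ hint i,
        Orbit.primeOf_liesOver w dat.τ hint (PlaceDict.gen K x) hmax hw1 i⟩
    let g : (Finset.univ.image (fun i => centre (dat.τ i) y) : Finset (Option K)) →
        (Ideal.span {PlaceDict.gen K x}).primesOver
          (integralClosure (Algebra.adjoin K {x}) F₀) := fun c =>
      ⟨Orbit.primeOf w dat.τ hint (rep c), hΦ (rep c)⟩
    have hg : Function.Surjective g := by
      intro q
      obtain ⟨i, hi⟩ := hsurj q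
      refine ⟨⟨centre (dat.τ i) y, Finset.mem_image_of_mem _ (Finset.mem_univ i)⟩, ?_⟩
      apply Subtype.ext
      show Orbit.primeOf w dat.τ hint (rep _) = q.1
      rw [← hi]
      exact hcen _ _ (hrep _)
    have := Nat.card_le_card_of_surjective g hg
    rwa [Nat.card_eq_finsetCard] at this
  · intro c hc
    obtain ⟨i, -, hi⟩ := Finset.mem_image.mp hc
    refine ⟨i, ?_⟩
    rcases c with _ | a
    · exact Or.inl ⟨rfl, (centre_eq_none_iff _ _).mp hi⟩
    · exact Or.inr ⟨a, rfl, order_sub_pos_of_centre (dat.τ i)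
        (fun c => dat.τ_algebraMap i c) y (hyK a) hi⟩

omit [IsAlgClosed K] in
/-- order of the inverse of a Laurent series -/
theorem order_inv (g : LaurentSeries K) : g⁻¹.order = -g.order := by
  rcases eq_or_ne g 0 with rfl | hg
  · simp
  have h1 := LocalCount.laurent_valuation_eq g hg
  have h2 := LocalCount.laurent_valuation_eq g⁻¹ (inv_ne_zero hg)
  rw [map_inv₀, h1, ← exp_neg, exp_inj] at h2
  omega

omit [IsAlgClosed K] in
theorem adjoin_inv_eq (J : F₀) : K⟮J⁻¹⟯ = K⟮J⟯ := by
  apply le_antisymm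
  · rw [IntermediateField.adjoin_simple_le_iff]
    exact inv_mem (IntermediateField.mem_adjoin_simple_self K J)
  · rw [IntermediateField.adjoin_simple_le_iff]
    have h := inv_mem (IntermediateField.mem_adjoin_simple_self K J⁻¹)
    rwa [inv_inv] at h

/-- **Piece C, pole form.**  `F₀ = K(y)` rational, `J ∈ F₀` with `F₀/K(J)` finite separable of
degree `#I`; `σ i` pairwise distinct `K`-embeddings of `F₀` into `K((u))`, all sending `J` to the
same series of order `-m < 0`, rotated by `ρ` (`u ↦ ζ u`, `ζ` a primitive `m`-th root of unity).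
Then the embeddings have at least `cyc ρ` distinct centres in `P¹(K) = Option K`. -/
theorem exists_centres (σ : I → F₀ →+* LaurentSeries K) (hσ : Function.Injective σ)
    (hK : ∀ i c, σ i (algebraMap K F₀ c) = HahnSeries.C c)
    (ρ : Equiv.Perm I) (ζ : K) (m : ℕ) (hm : 0 < m) (hζ : IsPrimitiveRoot ζ m)
    (hrot : ∀ i f (n : ℤ), (σ (ρ i) f).coeff n = ζ ^ n * (σ i f).coeff n)
    (y J : F₀) (hy : K⟮y⟯ = ⊤)
    (hagree : ∀ i j, σ i J = σ j J) (hord : ∀ i, (σ i J).order = -(m : ℤ))
    [FiniteDimensional K⟮J⟯ F₀] [Algebra.IsSeparable K⟮J⟯ F₀]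
    (hcard : Fintype.card I = Module.finrank K⟮J⟯ F₀) :
    ∃ S : Finset (Option K), cyc ρ ≤ S.card ∧ ∀ c ∈ S, ∃ i,
      (c = none ∧ (σ i y).order < 0) ∨
        ∃ a, c = some a ∧ 0 < (σ i (y - algebraMap K F₀ a)).order := by
  have h := adjoin_inv_eq (K := K) J
  have hfd : FiniteDimensional K⟮J⁻¹⟯ F₀ := by rw [h]; infer_instance
  have hsep : Algebra.IsSeparable K⟮J⁻¹⟯ F₀ := by rw [h]; infer_instance
  let dat : LocalDatum (RingHom.id K) J⁻¹ ρ m :=
    { τ := σ
      τ_algebraMap := fun i c => hK i c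
      τ_injective := hσ
      τ_y := fun i j => by rw [map_inv₀, map_inv₀, hagree i j]
      m_pos := hm
      order_y := fun i => by rw [map_inv₀, order_inv, hord i, neg_neg]
      ζ := ζ
      ζ_prim := hζ
      rot := hrot }
  exact exists_centres_of_datum ρ m J⁻¹ dat (by rw [hcard, h]) y hy

/-- **Piece C, finite-centre form.**  Same hypotheses: there are at least `cyc ρ - 1` distinct
finite centres (`a ∈ K` with `σ i (y - a)` of positive order for some `i`). -/
theorem exists_finite_centres (σ : I → F₀ →+* LaurentSeries K) (hσ : Function.Injective σ)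
    (hK : ∀ i c, σ i (algebraMap K F₀ c) = HahnSeries.C c)
    (ρ : Equiv.Perm I) (ζ : K) (m : ℕ) (hm : 0 < m) (hζ : IsPrimitiveRoot ζ m)
    (hrot : ∀ i f (n : ℤ), (σ (ρ i) f).coeff n = ζ ^ n * (σ i f).coeff n)
    (y J : F₀) (hy : K⟮y⟯ = ⊤)
    (hagree : ∀ i j, σ i J = σ j J) (hord : ∀ i, (σ i J).order = -(m : ℤ))
    [FiniteDimensional K⟮J⟯ F₀] [Algebra.IsSeparable K⟮J⟯ F₀]
    (hcard : Fintype.card I = Module.finrank K⟮J⟯ F₀) :
    ∃ T : Finset K, cyc ρ ≤ T.card + 1 ∧
      ∀ a ∈ T, ∃ i, 0 < (σ i (y - algebraMap K F₀ a)).order := by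
  obtain ⟨S, hS, hc⟩ := exists_centres σ hσ hK ρ ζ m hm hζ hrot y J hy hagree hord hcard
  refine ⟨S.eraseNone, ?_, ?_⟩
  · by_cases hn : none ∈ S
    · rw [Finset.card_eraseNone_of_mem hn]
      omega
    · rw [Finset.card_eraseNone_of_not_mem hn]
      omega
  · intro a ha
    obtain ⟨i, hi⟩ := hc (some a) (Finset.mem_eraseNone.mp ha)
    rcases hi with ⟨h0, -⟩ | ⟨a', ha', hpos⟩
    · exact absurd h0 (Option.some_ne_none a)
    · rw [Option.some.inj ha']
      exact ⟨i, hpos⟩

end Main

end Fermat.Agent.S18.CLCentre
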