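/-
S18 (torsion injects under reduction), chain CL+SQ, piece C of helper16's cut, all-finite form
(helper15).

Same setting as `CLCentre.exists_centres`: after the change of coordinate `y' = 1 / (y - b)`
(`b ∈ K` not a centre) all the `cyc ρ` centres found there are FINITE.

* `exists_centres_finite`: `∃ (y' : F₀) (S : Finset K), K⟮y'⟯ = ⊤ ∧ cyc ρ ≤ S.card ∧
  ∀ a ∈ S, ∃ i, 0 < (σ i (y' - algebraMap K F₀ a)).order`.
* `order_neg_iff`, `order_pos_iff`: order of a Laurent series versus its valuation.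
-/
import Fermat.Agent.S18.CLCentre

set_option autoImplicit false

noncomputable section

namespace Fermat.Agent.S18.CLCentre

open Polynomial IntermediateField WithZero Fermat.Agent.S24

section

variable {K : Type*} [Field K]

theorem order_neg_iff (g : LaurentSeries K) : g.order < 0 ↔ (1 : ℤᵐ⁰) < Valued.v g := by
  constructor
  · exact one_lt_val_of_order_neg g
  · intro h
    have hg0 : g ≠ 0 := by
      rintro rfl
      simp at h
    rw [LocalCount.laurent_valuation_eq g hg0, ← exp_zero, exp_lt_exp] at h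
    omega

theorem order_pos_iff (g : LaurentSeries K) :
    0 < g.order ↔ g ≠ 0 ∧ (Valued.v g : ℤᵐ⁰) < 1 := by
  constructor
  · intro h
    have hg0 : g ≠ 0 := by
      rintro rfl
      simp at h
    refine ⟨hg0, ?_⟩
    rw [LocalCount.laurent_valuation_eq g hg0, ← exp_zero, exp_lt_exp]
    omega
  · rintro ⟨hg0, h⟩
    rw [LocalCount.laurent_valuation_eq g hg0, ← exp_zero, exp_lt_exp] at h
    omega

theorem val_C_eq_one {c : K} (hc : c ≠ 0) :
    (Valued.v (HahnSeries.C c : LaurentSeries K) : ℤᵐ⁰) = 1 := by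
  rw [LocalCount.laurent_valuation_eq _ (HahnSeries.C_ne_zero hc), HahnSeries.order_C, neg_zero,
    exp_zero]

theorem val_C_le_one (c : K) : (Valued.v (HahnSeries.C c : LaurentSeries K) : ℤᵐ⁰) ≤ 1 := by
  rcases eq_or_ne c 0 with rfl | hc
  · simp
  · exact (val_C_eq_one hc).le

end

variable {K F₀ : Type*} [Field K] [IsAlgClosed K] [Field F₀] [Algebra K F₀]
  {I : Type*} [Fintype I]

/-- **Piece C, all-finite form.**  In the setting of `exists_centres` there is a generator `y'`
of `F₀ / K` for which at least `cyc ρ` distinct FINITE centres occur. -/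
theorem exists_centres_finite (σ : I → F₀ →+* LaurentSeries K) (hσ : Function.Injective σ)
    (hK : ∀ i c, σ i (algebraMap K F₀ c) = HahnSeries.C c)
    (ρ : Equiv.Perm I) (ζ : K) (m : ℕ) (hm : 0 < m) (hζ : IsPrimitiveRoot ζ m)
    (hrot : ∀ i f (n : ℤ), (σ (ρ i) f).coeff n = ζ ^ n * (σ i f).coeff n)
    (y J : F₀) (hy : K⟮y⟯ = ⊤)
    (hagree : ∀ i j, σ i J = σ j J) (hord : ∀ i, (σ i J).order = -(m : ℤ))
    [FiniteDimensional K⟮J⟯ F₀] [Algebra.IsSeparable K⟮J⟯ F₀]
    (hcard : Fintype.card I = Module.finrank K⟮J⟯ F₀) :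
    ∃ (y' : F₀) (S : Finset K), K⟮y'⟯ = ⊤ ∧ cyc ρ ≤ S.card ∧
      ∀ a ∈ S, ∃ i, 0 < (σ i (y' - algebraMap K F₀ a)).order := by
  classical
  obtain ⟨S, hS, hc⟩ := exists_centres σ hσ hK ρ ζ m hm hζ hrot y J hy hagree hord hcard
  obtain ⟨b, hb⟩ := Infinite.exists_notMem_finset S.eraseNone
  have hbS : ∀ a, some a ∈ S → a ≠ b := by
    rintro a ha rfl
    exact hb (Finset.mem_eraseNone.mpr ha)
  -- the new coordinate
  have htop : K⟮(y - algebraMap K F₀ b)⁻¹⟯ = ⊤ := by
    rw [adjoin_inv_eq, eq_top_iff, ← hy, IntermediateField.adjoin_simple_le_iff]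
    have h1 := IntermediateField.mem_adjoin_simple_self K (y - algebraMap K F₀ b)
    have h2 := add_mem h1 (IntermediateField.algebraMap_mem K⟮y - algebraMap K F₀ b⟯ b)
    rwa [sub_add_cancel] at h2
  let φ : Option K → K := fun c => Option.elim c 0 (fun a => (a - b)⁻¹)
  have hφ : Set.InjOn φ (S : Set (Option K)) := by
    intro c hc c' hc' hcc
    rcases c with _ | a <;> rcases c' with _ | a'
    · rfl
    · exfalso
      have h1 : (a' - b)⁻¹ = 0 := hcc.symm
      exact sub_ne_zero.mpr (hbS a' hc') (inv_eq_zero.mp h1)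
    · exfalso
      have h1 : (a - b)⁻¹ = 0 := hcc
      exact sub_ne_zero.mpr (hbS a hc) (inv_eq_zero.mp h1)
    · have h1 : (a - b)⁻¹ = (a' - b)⁻¹ := hcc
      have h2 := inv_injective h1
      rw [sub_left_inj] at h2
      rw [h2]
  refine ⟨(y - algebraMap K F₀ b)⁻¹, S.image φ, htop, ?_, ?_⟩
  · rwa [Finset.card_image_of_injOn hφ]
  · intro a' ha'
    obtain ⟨c, hcS, rfl⟩ := Finset.mem_image.mp ha'
    obtain ⟨i, hi⟩ := hc c hcS
    refine ⟨i, ?_⟩
    rcases hi with ⟨rfl, hneg⟩ | ⟨a, rfl, hpos⟩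
    · -- centre `∞`
      show 0 < (σ i ((y - algebraMap K F₀ b)⁻¹ - algebraMap K F₀ 0)).order
      rw [map_zero, sub_zero, map_inv₀, order_inv]
      have h1 : (1 : ℤᵐ⁰) < Valued.v (σ i y) := (order_neg_iff _).mp hneg
      have h2 : (Valued.v (σ i (y - algebraMap K F₀ b)) : ℤᵐ⁰) = Valued.v (σ i y) := by
        rw [map_sub, hK]
        exact Valuation.map_sub_eq_of_lt_left _ (lt_of_le_of_lt (val_C_le_one b) h1)
      have h3 : (σ i (y - algebraMap K F₀ b)).order < 0 := by
        rw [order_neg_iff, h2]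
        exact h1
      omega
    · -- centre `a ≠ b`
      show 0 < (σ i ((y - algebraMap K F₀ b)⁻¹ - algebraMap K F₀ ((a - b)⁻¹))).order
      have hab : a - b ≠ 0 := sub_ne_zero.mpr (hbS a hcS)
      obtain ⟨h0, hlt⟩ := (order_pos_iff _).mp hpos
      have hya : y - algebraMap K F₀ a ≠ 0 := fun h => h0 (by rw [h, map_zero])
      have h2 : (Valued.v (σ i (y - algebraMap K F₀ b)) : ℤᵐ⁰) = 1 := by
        have : y - algebraMap K F₀ b = (y - algebraMap K F₀ a) + algebraMap K F₀ (a - b) := by
          rw [map_sub]; ring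
        rw [this, map_add, hK, ← val_C_eq_one hab]
        apply Valuation.map_add_eq_of_lt_right
        rw [val_C_eq_one hab]
        exact hlt
      have hyb : y - algebraMap K F₀ b ≠ 0 := by
        intro h
        rw [h, map_zero, map_zero] at h2
        exact zero_ne_one h2
      have hcalc : (y - algebraMap K F₀ b)⁻¹ - algebraMap K F₀ ((a - b)⁻¹) =
          -(y - algebraMap K F₀ a) * ((y - algebraMap K F₀ b)⁻¹ * algebraMap K F₀ ((a - b)⁻¹)) := by
        have hab' : algebraMap K F₀ (a - b) ≠ 0 := (_root_.map_ne_zero _).mpr hab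
        rw [map_inv₀]
        field_simp
        rw [map_sub]
        ring
      rw [order_pos_iff]
      constructor
      · rw [hcalc]
        refine (_root_.map_ne_zero _).mpr (mul_ne_zero (neg_ne_zero.mpr hya) (mul_ne_zero
          (inv_ne_zero hyb) ((_root_.map_ne_zero _).mpr (inv_ne_zero hab))))
      · rw [hcalc, map_mul, map_mul, map_neg, map_mul, map_mul, Valuation.map_neg, map_inv₀,
          map_inv₀, h2, hK, val_C_eq_one (inv_ne_zero hab), inv_one, mul_one, mul_one]
        exact hlt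

end Fermat.Agent.S18.CLCentre
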