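/-
S18, chain LIFT, piece LD: the degrees of the level coverings agree in characteristic `0` and
in characteristic `ℓ`.

* `relrank_fullC` / `relfinrank_fullC` (LD1): over any field `k` of characteristic `ℓ ∤ M`,
  `[k(X₀(M)) : k(j)] = ψ(M)`.
* `relfinrank_fullC_zero` / `relfinrank_bar` (LD2): over an algebraically closed field `L` of
  characteristic zero embedded in `ℂ` (e.g. `L = AlgebraicClosure ℚ`),
  `[L(X₀(M)) : L(j)] = ψ(M)`.
* `FF_eq_fullC`: `laurentBaseChange L (modularFunctionFieldFull N) = modularFunctionFieldFullC L N`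
  (the characteristic-zero field is the uniform field `L(j(q^d) : d ∣ N)`).
* `relfinrank_bar_eq_relfinrank_fullC` (LD3): for `N ∣ M`, `ℓ ∤ M`,
  `[F̄_M : F̄_N] = [k(X₀(M)) : k(X₀(N))]`.
-/
import Fermat.Agent.S28.IgusaDeg
import Fermat.Agent.S28.A0Final
import Fermat.Agent.S28.Upper0
import Fermat.Agent.S28.Mono
import Fermat.Agent.S24.Mod.Degree
import Fermat.Agent.S24.Mod.Data
import Fermat.Agent.S24.Alg.RamSum
import Fermat.Agent.S24.Comb.Count
import Fermat.Prelude.Def_ModularCurve_ArithmeticGalois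

set_option autoImplicit false

noncomputable section

open scoped MatrixGroups
open IntermediateField ModularCurve

namespace Fermat.Agent.S18.LiftD

universe u

/-! ### Generic facts on relative ranks -/

/-- A family of `n` elements of `B`, linearly independent over `A ≤ B`, bounds `[B : A]` below. -/
theorem le_relrank_of_linearIndependent {F : Type*} {E : Type u} [Field F] [Field E] [Algebra F E]
    (A B : IntermediateField F E) (hAB : A ≤ B) {n : ℕ} (f : Fin n → E) (hf : ∀ i, f i ∈ B)
    (hli : LinearIndependent ↥A f) : (n : Cardinal.{u}) ≤ relrank A B := by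
  rw [relrank_eq_rank_of_le hAB]
  have hli' : LinearIndependent ↥A (fun i => (⟨f i, hf i⟩ : ↥(extendScalars hAB))) := by
    refine LinearIndependent.of_comp ((extendScalars hAB).val.toLinearMap) ?_
    exact hli
  have h := hli'.cardinal_lift_le_rank
  simpa using h

/-- `[B : K(x)]` for `x : B` computed inside `B` is the relative degree computed in the ambient
field. -/
theorem finrank_adjoin_eq_relfinrank {K E : Type*} [Field K] [Field E] [Algebra K E]
    (B : IntermediateField K E) (x : ↥B) :
    Module.finrank ↥(K⟮x⟯) ↥B = relfinrank K⟮(x : E)⟯ B := by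
  have h1 : (K⟮x⟯).map B.val = K⟮(x : E)⟯ := by
    rw [IntermediateField.adjoin_map]
    simp
  have h2 : (⊤ : IntermediateField K ↥B).map B.val = B := by
    rw [← AlgHom.fieldRange_eq_map, IntermediateField.fieldRange_val]
  rw [← relfinrank_top_right, ← relfinrank_map_map _ _ B.val, h1, h2]

/-- For ANY algebra structure of `A` on `B` compatible with the inclusions into the ambient field,
`Module.finrank A B` is the relative degree. -/
theorem finrank_eq_relfinrank_of_algebra {K E : Type*} [Field K] [Field E] [Algebra K E]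
    (A B : IntermediateField K E) [Algebra ↥A ↥B]
    (hc : ∀ a : ↥A, ((algebraMap ↥A ↥B a : ↥B) : E) = (a : E)) :
    Module.finrank ↥A ↥B = relfinrank A B := by
  have hle : A ≤ B := fun a ha => by
    have := hc ⟨a, ha⟩
    simp only at this
    rw [← this]
    exact (algebraMap ↥A ↥B ⟨a, ha⟩).2
  rw [relfinrank_eq_finrank_of_le hle]
  let j : ↥B ≃+* ↥(extendScalars hle) :=
    { toFun := fun b => ⟨b.1, b.2⟩
      invFun := fun b => ⟨b.1, b.2⟩
      left_inv := fun _ => rfl
      right_inv := fun _ => rfl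
      map_mul' := fun _ _ => rfl
      map_add' := fun _ _ => rfl }
  refine Algebra.finrank_eq_of_equiv_equiv (RingEquiv.refl ↥A) j ?_
  ext a
  exact (hc a).symm

theorem le_of_algebra {K E : Type*} [Field K] [Field E] [Algebra K E]
    (A B : IntermediateField K E) [Algebra ↥A ↥B]
    (hc : ∀ a : ↥A, ((algebraMap ↥A ↥B a : ↥B) : E) = (a : E)) : A ≤ B := fun a ha => by
  have := hc ⟨a, ha⟩
  simp only at this
  rw [← this]
  exact (algebraMap ↥A ↥B ⟨a, ha⟩).2

/-! ### (LD1) characteristic `ℓ` -/

/-- **(LD1)** Over any field `k` of characteristic `ℓ ∤ M`, the function field of `X₀(M)` has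
degree `ψ(M)` over `k(j)`. -/
theorem relrank_fullC (k : Type u) [Field k] (ℓ : ℕ) [Fact ℓ.Prime] [CharP k ℓ] (M : ℕ) [NeZero M]
    (hℓM : ¬ ℓ ∣ M) :
    relrank k⟮jqModC k⟯ (modularFunctionFieldFullC k M) = (dedekindPsi M : Cardinal.{u}) := by
  refine le_antisymm (S28.Upper0.relrank_le_psi k ℓ M) ?_
  have : CharP (AlgebraicClosure k) ℓ :=
    charP_of_injective_algebraMap (algebraMap k (AlgebraicClosure k)).injective ℓ
  have hdeg := S28.IgusaDeg.psi_le_relrank_of_poly ℓ M hℓM (AlgebraicClosure k)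
    (fun p _ hp hpN h => S28.A0Final.exists_monic_of_mem (AlgebraicClosure k) ℓ p hp
      (fun hpℓ => hℓM (hpℓ ▸ hpN)) h)
  obtain ⟨e, hli⟩ := S28.Mono.exists_indep_monomials k (κ := AlgebraicClosure k) M hdeg
  exact le_relrank_of_linearIndependent _ _ (adjoin_simple_le_iff.mpr (jqModC_mem_full k M)) _
    (fun i => S28.Mono.mono_mem_full k M (e i)) hli

theorem relfinrank_fullC (k : Type u) [Field k] (ℓ : ℕ) [Fact ℓ.Prime] [CharP k ℓ] (M : ℕ)
    [NeZero M] (hℓM : ¬ ℓ ∣ M) :
    relfinrank k⟮jqModC k⟯ (modularFunctionFieldFullC k M) = dedekindPsi M := by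
  rw [relfinrank_eq_toNat_relrank, relrank_fullC k ℓ M hℓM, Cardinal.toNat_natCast]

/-! ### The characteristic-zero field is the uniform field -/

theorem coeffEmb_jqd (L : Type*) [Field L] [Algebra ℚ L] (d : ℕ) [NeZero d] :
    coeffEmb L (qExpand ℚ d jq) = qExpand L d (jqModC L) := by
  rw [coeffEmb, S24.QL.coeffMap_qExpand, ← jqModC_rat, coeffMap_jqModC]

/-- The function field of `X₀(N)` over a field `L` of characteristic zero is generated over `L`
by the `j(q^d)`, `d ∣ N`. -/
theorem FF_eq_fullC (L : Type*) [Field L] [Algebra ℚ L] (N : ℕ) [NeZero N] :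
    S24.FF L N = modularFunctionFieldFullC L N := by
  apply le_antisymm
  · show laurentBaseChange L (modularFunctionFieldFull N) ≤ _
    rw [laurentBaseChange, adjoin_le_iff]
    rintro _ ⟨x, hx, rfl⟩
    -- the preimage of the uniform field under `coeffEmb` is a subfield containing the generators
    have hle : modularFunctionFieldFull N ≤
        ((modularFunctionFieldFullC L N).toSubfield.comap (coeffEmb L)).toIntermediateField
          (fun c => by
            show coeffEmb L (algebraMap ℚ (LaurentSeries ℚ) c) ∈ modularFunctionFieldFullC L N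
            have : coeffEmb L (algebraMap ℚ (LaurentSeries ℚ) c)
                = algebraMap L (LaurentSeries L) (algebraMap ℚ L c) := by
              rw [algebraMap_laurentSeries_eq_single, algebraMap_laurentSeries_eq_single,
                coeffEmb, coeffMap_single]
            rw [this]
            exact (modularFunctionFieldFullC L N).algebraMap_mem _) := by
      rw [modularFunctionFieldFull, adjoin_le_iff]
      rintro y ⟨d, hne, hdvd, rfl⟩
      have := hne
      show coeffEmb L (qExpand ℚ d jq) ∈ modularFunctionFieldFullC L N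
      rw [coeffEmb_jqd]
      exact jqModCd_mem_full L N hdvd
    exact hle hx
  · rw [modularFunctionFieldFullC, adjoin_le_iff]
    rintro y ⟨d, hne, hdvd, rfl⟩
    have := hne
    rw [← coeffEmb_jqd]
    exact coeffEmb_mem_laurentBaseChange L (jqd_mem_full N hdvd)

theorem bar_eq_fullC (N : ℕ) [NeZero N] :
    modularFunctionFieldBar N = modularFunctionFieldFullC (AlgebraicClosure ℚ) N :=
  FF_eq_fullC (AlgebraicClosure ℚ) N

theorem coe_jElt (L : Type*) [Field L] [Algebra ℚ L] (N : ℕ) [NeZero N] :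
    ((S24.jElt L N : ↥(S24.FF L N)) : LaurentSeries L) = jqModC L := by
  show coeffEmb L (S24.jqd (⟨1, one_dvd N⟩ : S24.Dv N)) = jqModC L
  have h : S24.jqd (⟨1, one_dvd N⟩ : S24.Dv N) = jq := qExpand_one_apply jq
  rw [h, ← jqModC_rat, coeffEmb, coeffMap_jqModC]

/-! ### (LD2) characteristic zero -/

/-- The exact degree `[L(X₀(N)) : L(j)] = ψ(N)` over an algebraically closed field of
characteristic zero embedded in `ℂ`. -/
theorem finrank_FF (L : Type*) [Field L] [Algebra ℚ L] [IsAlgClosed L] (ι : L →+* ℂ) (N : ℕ)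
    [NeZero N] : Module.finrank L⟮S24.jElt L N⟯ ↥(S24.FF L N) = dedekindPsi N := by
  have : CharZero L := algebraRat.charZero L
  have : Finite (SL(2, ℤ) ⧸ CongruenceSubgroup.Gamma0 N) :=
    Subgroup.finite_quotient_of_finiteIndex
  have := S24.Degree.finiteDimensional ι N
  obtain ⟨Ω, _, w, winf, -, -, -, ⟨dinf⟩⟩ := S24.Data.exists_valDatum ι N
  rw [S24.RamSum.finrank_eq_card_inf (S24.jElt L N) (S24.Degree.finrank_le ι N) winf _ N dinf,
    S24.Comb.card_coset]

/-- **(LD2)**, general form. -/
theorem relfinrank_FF (L : Type*) [Field L] [Algebra ℚ L] [IsAlgClosed L] (ι : L →+* ℂ) (N : ℕ)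
    [NeZero N] : relfinrank L⟮jqModC L⟯ (S24.FF L N) = dedekindPsi N := by
  rw [← coe_jElt L N, ← finrank_adjoin_eq_relfinrank, finrank_FF L ι N]

theorem relfinrank_fullC_zero (L : Type*) [Field L] [Algebra ℚ L] [IsAlgClosed L] (ι : L →+* ℂ)
    (N : ℕ) [NeZero N] :
    relfinrank L⟮jqModC L⟯ (modularFunctionFieldFullC L N) = dedekindPsi N := by
  rw [← FF_eq_fullC, relfinrank_FF L ι N]

/-- **(LD2)** `[F̄_N : ℚ̄(j)] = ψ(N)`. -/
theorem relfinrank_bar (N : ℕ) [NeZero N] :
    relfinrank (AlgebraicClosure ℚ)⟮jqModC (AlgebraicClosure ℚ)⟯ (modularFunctionFieldBar N)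
      = dedekindPsi N := by
  obtain ⟨ι, -⟩ : ∃ ι : AlgebraicClosure ℚ →+* ℂ, True := by
    let _ : Algebra ℚ (AlgebraicClosure ℚ) := AlgebraicClosure.instAlgebra ℚ
    have := AlgebraicClosure.isAlgebraic ℚ
    exact ⟨(IsAlgClosed.lift (R := ℚ) (S := AlgebraicClosure ℚ) (M := ℂ)).toRingHom, trivial⟩
  exact relfinrank_FF (AlgebraicClosure ℚ) ι N

/-! ### (LD3) the relative degrees of the level coverings -/

theorem bar_mono {N M : ℕ} [NeZero N] [NeZero M] (h : N ∣ M) :
    modularFunctionFieldBar N ≤ modularFunctionFieldBar M := by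
  rw [bar_eq_fullC, bar_eq_fullC]
  exact full_degeneracyC_le (AlgebraicClosure ℚ) h

theorem jqModC_le_bar (N : ℕ) [NeZero N] :
    (AlgebraicClosure ℚ)⟮jqModC (AlgebraicClosure ℚ)⟯ ≤ modularFunctionFieldBar N := by
  rw [bar_eq_fullC]
  exact adjoin_simple_le_iff.mpr (jqModC_mem_full _ N)

theorem dedekindPsi_pos (N : ℕ) [NeZero N] : 0 < dedekindPsi N := by
  unfold dedekindPsi
  refine lt_of_lt_of_le (Nat.pos_of_ne_zero (NeZero.ne N)) ?_
  have h1 : (1 : ℕ) ∈ N.divisors.filter (fun d => Squarefree d) := by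
    simp [NeZero.ne N]
  calc N = N / 1 := (Nat.div_one N).symm
    _ ≤ _ := Finset.single_le_sum (f := fun d => N / d) (fun _ _ => Nat.zero_le _) h1

/-- `[F̄_M : F̄_N] · ψ(N) = ψ(M)` in characteristic zero. -/
theorem relfinrank_bar_mul {N M : ℕ} [NeZero N] [NeZero M] (h : N ∣ M) :
    dedekindPsi N * relfinrank (modularFunctionFieldBar N) (modularFunctionFieldBar M)
      = dedekindPsi M := by
  rw [← relfinrank_bar N, ← relfinrank_bar M]
  exact relfinrank_mul_relfinrank (jqModC_le_bar N) (bar_mono h)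

/-- `[k(X₀(M)) : k(X₀(N))] · ψ(N) = ψ(M)` in characteristic `ℓ ∤ M`. -/
theorem relfinrank_fullC_mul (k : Type u) [Field k] (ℓ : ℕ) [Fact ℓ.Prime] [CharP k ℓ]
    {N M : ℕ} [NeZero N] [NeZero M] (h : N ∣ M) (hℓM : ¬ ℓ ∣ M) :
    dedekindPsi N * relfinrank (modularFunctionFieldFullC k N) (modularFunctionFieldFullC k M)
      = dedekindPsi M := by
  rw [← relfinrank_fullC k ℓ N (fun hℓN => hℓM (hℓN.trans h)), ← relfinrank_fullC k ℓ M hℓM]
  exact relfinrank_mul_relfinrank (adjoin_simple_le_iff.mpr (jqModC_mem_full k N))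
    (full_degeneracyC_le k h)

/-- **(LD3)** For `N ∣ M` and `ℓ ∤ M`, the degree of `X₀(M) → X₀(N)` is the same in
characteristic zero and over any field `k` of characteristic `ℓ`. -/
theorem relfinrank_bar_eq_relfinrank_fullC (k : Type u) [Field k] (ℓ : ℕ) [Fact ℓ.Prime]
    [CharP k ℓ] {N M : ℕ} [NeZero N] [NeZero M] (h : N ∣ M) (hℓM : ¬ ℓ ∣ M) :
    relfinrank (modularFunctionFieldBar N) (modularFunctionFieldBar M)
      = relfinrank (modularFunctionFieldFullC k N) (modularFunctionFieldFullC k M) :=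
  Nat.eq_of_mul_eq_mul_left (dedekindPsi_pos N)
    ((relfinrank_bar_mul h).trans (relfinrank_fullC_mul k ℓ h hℓM).symm)

theorem relfinrank_bar_pos {N M : ℕ} [NeZero N] [NeZero M] (h : N ∣ M) :
    0 < relfinrank (modularFunctionFieldBar N) (modularFunctionFieldBar M) := by
  have h1 := relfinrank_bar_mul h
  have h2 := dedekindPsi_pos M
  rcases Nat.eq_zero_or_pos (relfinrank (modularFunctionFieldBar N) (modularFunctionFieldBar M))
    with h0 | h0
  · rw [h0, mul_zero] at h1
    omega
  · exact h0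

theorem relfinrank_fullC_pos (k : Type u) [Field k] (ℓ : ℕ) [Fact ℓ.Prime] [CharP k ℓ]
    {N M : ℕ} [NeZero N] [NeZero M] (h : N ∣ M) (hℓM : ¬ ℓ ∣ M) :
    0 < relfinrank (modularFunctionFieldFullC k N) (modularFunctionFieldFullC k M) := by
  have h1 := relfinrank_fullC_mul k ℓ h hℓM
  have h2 := dedekindPsi_pos M
  rcases Nat.eq_zero_or_pos
    (relfinrank (modularFunctionFieldFullC k N) (modularFunctionFieldFullC k M)) with h0 | h0
  · rw [h0, mul_zero] at h1
    omega
  · exact h0

/-- **(LD3)**, `Module.finrank` form, for arbitrary algebra structures compatible with the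
inclusions into the Laurent series fields. -/
theorem finrank_bar_eq_finrank_fullC (k : Type u) [Field k] (ℓ : ℕ) [Fact ℓ.Prime]
    [CharP k ℓ] {N M : ℕ} [NeZero N] [NeZero M] (h : N ∣ M) (hℓM : ¬ ℓ ∣ M)
    [Algebra ↥(modularFunctionFieldBar N) ↥(modularFunctionFieldBar M)]
    (hc : ∀ a : ↥(modularFunctionFieldBar N),
      ((algebraMap ↥(modularFunctionFieldBar N) ↥(modularFunctionFieldBar M) a :
        ↥(modularFunctionFieldBar M)) : LaurentSeries (AlgebraicClosure ℚ)) = a)
    [Algebra ↥(modularFunctionFieldFullC k N) ↥(modularFunctionFieldFullC k M)]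
    (hck : ∀ a : ↥(modularFunctionFieldFullC k N),
      ((algebraMap ↥(modularFunctionFieldFullC k N) ↥(modularFunctionFieldFullC k M) a :
        ↥(modularFunctionFieldFullC k M)) : LaurentSeries k) = a) :
    Module.finrank ↥(modularFunctionFieldBar N) ↥(modularFunctionFieldBar M)
      = Module.finrank ↥(modularFunctionFieldFullC k N) ↥(modularFunctionFieldFullC k M) := by
  rw [finrank_eq_relfinrank_of_algebra _ _ hc, finrank_eq_relfinrank_of_algebra _ _ hck]
  exact relfinrank_bar_eq_relfinrank_fullC k ℓ h hℓM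

/-- Finiteness of `F̄_M / F̄_N` for any compatible algebra structure. -/
theorem finite_bar {N M : ℕ} [NeZero N] [NeZero M] (h : N ∣ M)
    [Algebra ↥(modularFunctionFieldBar N) ↥(modularFunctionFieldBar M)]
    (hc : ∀ a : ↥(modularFunctionFieldBar N),
      ((algebraMap ↥(modularFunctionFieldBar N) ↥(modularFunctionFieldBar M) a :
        ↥(modularFunctionFieldBar M)) : LaurentSeries (AlgebraicClosure ℚ)) = a) :
    Module.Finite ↥(modularFunctionFieldBar N) ↥(modularFunctionFieldBar M) :=
  Module.finite_of_finrank_pos (by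
    rw [finrank_eq_relfinrank_of_algebra _ _ hc]
    exact relfinrank_bar_pos h)

/-- Finiteness of `k(X₀(M)) / k(X₀(N))` for any compatible algebra structure. -/
theorem finite_fullC (k : Type u) [Field k] (ℓ : ℕ) [Fact ℓ.Prime] [CharP k ℓ]
    {N M : ℕ} [NeZero N] [NeZero M] (h : N ∣ M) (hℓM : ¬ ℓ ∣ M)
    [Algebra ↥(modularFunctionFieldFullC k N) ↥(modularFunctionFieldFullC k M)]
    (hck : ∀ a : ↥(modularFunctionFieldFullC k N),
      ((algebraMap ↥(modularFunctionFieldFullC k N) ↥(modularFunctionFieldFullC k M) a :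
        ↥(modularFunctionFieldFullC k M)) : LaurentSeries k) = a) :
    Module.Finite ↥(modularFunctionFieldFullC k N) ↥(modularFunctionFieldFullC k M) :=
  Module.finite_of_finrank_pos (by
    rw [finrank_eq_relfinrank_of_algebra _ _ hck]
    exact relfinrank_fullC_pos k ℓ h hℓM)

end Fermat.Agent.S18.LiftD

end
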