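/-
S18, chain P, piece P0 (SEP): separating elements of a function field of one variable in
characteristic `p`.

`K` algebraically closed, `F / K` a field extension of characteristic `p`, `x ∈ F` with `F / K(x)`
finite.  Then `[F : F^p] ≤ p`; and if `x` is not a `p`-th power, every `g ∉ F^p` is transcendental
with `F / K(g)` finite and SEPARABLE, and every non-constant `f` is `g ^ (p ^ m)` with `g ∉ F^p`.
-/
import Mathlib
import Fermat.Agent.S24.PlacesMore

set_option autoImplicit false
set_option linter.unusedSectionVars false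
set_option linter.style.haveILetI false

noncomputable section

namespace Fermat.Agent.S18.PFrob

open IntermediateField Polynomial

variable {K F : Type*} [Field K] [Field F] [Algebra K F] (p : ℕ) [Fact p.Prime] [CharP F p]

/-- The subfield `F^(p^n)` of `p^n`-th powers. -/
def Fpn (F : Type*) [Field F] (p : ℕ) [Fact p.Prime] [CharP F p] (n : ℕ) : Subfield F :=
  (iterateFrobenius F p n).fieldRange

theorem mem_Fpn {n : ℕ} {y : F} : y ∈ Fpn F p n ↔ ∃ z : F, z ^ p ^ n = y := by
  simp [Fpn, RingHom.mem_fieldRange, iterateFrobenius_def]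

theorem pow_mem_Fpn (n : ℕ) (z : F) : z ^ p ^ n ∈ Fpn F p n := (mem_Fpn p).mpr ⟨z, rfl⟩

theorem Fpn_zero : Fpn F p 0 = ⊤ := by
  rw [eq_top_iff]
  intro y _
  exact (mem_Fpn p).mpr ⟨y, by simp⟩

theorem Fpn_eq_map (n : ℕ) : Fpn F p n = (⊤ : Subfield F).map (iterateFrobenius F p n) := by
  rw [Fpn, RingHom.fieldRange_eq_map]

theorem Fpn_succ (n : ℕ) : Fpn F p (n + 1) = (Fpn F p 1).map (iterateFrobenius F p n) := by
  ext y
  simp only [mem_Fpn, Subfield.mem_map, iterateFrobenius_def]
  constructor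
  · rintro ⟨z, rfl⟩
    exact ⟨z ^ p ^ 1, ⟨z, rfl⟩, by rw [← pow_mul, pow_one, pow_succ']⟩
  · rintro ⟨w, ⟨z, rfl⟩, rfl⟩
    exact ⟨z, by rw [← pow_mul, pow_one, pow_succ']⟩

theorem Fpn_succ_le (n : ℕ) : Fpn F p (n + 1) ≤ Fpn F p n := by
  intro y hy
  obtain ⟨z, rfl⟩ := (mem_Fpn p).mp hy
  exact (mem_Fpn p).mpr ⟨z ^ p, by rw [← pow_mul, pow_succ']⟩

theorem pow_injective (n : ℕ) : Function.Injective (fun y : F => y ^ p ^ n) := by
  intro a b hab
  have := (iterateFrobenius F p n).injective (a₁ := a) (a₂ := b)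
  exact this (by simpa [iterateFrobenius_def] using hab)

theorem algebraMap_mem_Fpn [IsAlgClosed K] (n : ℕ) (a : K) : algebraMap K F a ∈ Fpn F p n := by
  obtain ⟨b, hb⟩ := IsAlgClosed.exists_pow_nat_eq a (pow_pos (Fact.out : p.Prime).pos n)
  exact (mem_Fpn p).mpr ⟨algebraMap K F b, by rw [← map_pow, hb]⟩

/-- The image of `K(x)` under the `n`-th Frobenius is `K(x^(p^n))`. -/
theorem map_adjoin [IsAlgClosed K] (n : ℕ) (x : F) :
    (K⟮x⟯.toSubfield).map (iterateFrobenius F p n) = K⟮x ^ p ^ n⟯.toSubfield := by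
  rw [adjoin_toSubfield, adjoin_toSubfield, RingHom.map_field_closure]
  congr 1
  ext y
  simp only [Set.mem_image, Set.mem_union, Set.mem_range, Set.mem_singleton_iff]
  constructor
  · rintro ⟨z, (⟨a, rfl⟩ | rfl), rfl⟩
    · left
      exact ⟨a ^ p ^ n, by simp [iterateFrobenius_def]⟩
    · right
      simp [iterateFrobenius_def]
  · rintro (⟨a, rfl⟩ | rfl)
    · obtain ⟨b, rfl⟩ := IsAlgClosed.exists_pow_nat_eq a (pow_pos (Fact.out : p.Prime).pos n)
      exact ⟨algebraMap K F b, Or.inl ⟨b, rfl⟩, by simp [iterateFrobenius_def]⟩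
    · exact ⟨x, Or.inr rfl, by simp [iterateFrobenius_def]⟩

/-- `[K(x) : K(x^p)]` is finite, between `1` and `p`. -/
theorem relfinrank_adjoin_pow (x : F) :
    1 ≤ (K⟮x ^ p⟯.toSubfield).relfinrank K⟮x⟯.toSubfield ∧
      (K⟮x ^ p⟯.toSubfield).relfinrank K⟮x⟯.toSubfield ≤ p := by
  have hp : p.Prime := Fact.out
  have hle : K⟮x ^ p⟯ ≤ K⟮x⟯ := by
    rw [adjoin_simple_le_iff]
    exact pow_mem (mem_adjoin_simple_self K x) p
  have h0 : (K⟮x ^ p⟯.toSubfield).relfinrank K⟮x⟯.toSubfield = K⟮x ^ p⟯.relfinrank K⟮x⟯ := rfl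
  rw [h0, relfinrank_eq_finrank_of_le hle]
  set A : IntermediateField K F := K⟮x ^ p⟯ with hA
  have hxp : x ^ p ∈ A := mem_adjoin_simple_self K _
  set q : A[X] := X ^ p - C (⟨x ^ p, hxp⟩ : A) with hq
  have hqm : q.Monic := monic_X_pow_sub_C _ hp.ne_zero
  have hroot : aeval x q = 0 := by
    simp only [hq, map_sub, map_pow, aeval_X, aeval_C]
    exact sub_self _
  have hint : IsIntegral A x := ⟨q, hqm, hroot⟩
  have hle2 : extendScalars hle ≤ A⟮x⟯ := by
    rw [extendScalars_le_iff]
    rw [adjoin_simple_le_iff]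
    exact mem_adjoin_simple_self A x
  haveI : FiniteDimensional A A⟮x⟯ := adjoin.finiteDimensional hint
  have hfin : FiniteDimensional A (extendScalars hle) :=
    Module.Finite.of_injective (inclusion hle2).toLinearMap (inclusion hle2).injective
  have h1 : Module.finrank A (extendScalars hle) ≤ Module.finrank A A⟮x⟯ :=
    LinearMap.finrank_le_finrank_of_injective (f := (inclusion hle2).toLinearMap)
      (inclusion hle2).injective
  have h2 : Module.finrank A A⟮x⟯ ≤ p := by
    rw [adjoin.finrank hint]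
    have := natDegree_le_natDegree (minpoly.min A x hqm hroot)
    rwa [hq, natDegree_X_pow_sub_C] at this
  exact ⟨Module.finrank_pos, h1.trans h2⟩

/-- `F` is finite over `F^p`, of degree at most `p`. -/
theorem finrank_Fp_le [IsAlgClosed K] (x : F) [FiniteDimensional K⟮x⟯ F] :
    Module.Finite (Fpn F p 1) F ∧ Module.finrank (Fpn F p 1) F ≤ p ∧
      Module.finrank (Fpn F p 1) F = (K⟮x ^ p⟯.toSubfield).relfinrank K⟮x⟯.toSubfield := by
  set A : Subfield F := K⟮x⟯.toSubfield with hA
  set A' : Subfield F := K⟮x ^ p⟯.toSubfield with hA'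
  have hA'A : A' ≤ A := by
    have hle : K⟮x ^ p⟯ ≤ K⟮x⟯ := by
      rw [adjoin_simple_le_iff]
      exact pow_mem (mem_adjoin_simple_self K x) p
    exact hle
  have hmap : A.map (iterateFrobenius F p 1) = A' := by
    rw [hA, map_adjoin p 1 x, pow_one]
  have hA'Fp : A' ≤ Fpn F p 1 := by
    rw [← hmap, Fpn_eq_map]
    exact (Subfield.gc_map_comap _).monotone_l le_top
  have h1 : A'.relfinrank A * A.relfinrank ⊤ = A'.relfinrank ⊤ :=
    Subfield.relfinrank_mul_relfinrank hA'A le_top
  have h2 : A'.relfinrank (Fpn F p 1) * (Fpn F p 1).relfinrank ⊤ = A'.relfinrank ⊤ :=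
    Subfield.relfinrank_mul_relfinrank hA'Fp le_top
  have h3 : A'.relfinrank (Fpn F p 1) = A.relfinrank ⊤ := by
    rw [← hmap, Fpn_eq_map, Subfield.relfinrank_map_map]
  have hn : 0 < A.relfinrank ⊤ := by
    rw [Subfield.relfinrank_top_right]
    have : FiniteDimensional K⟮x⟯ F := inferInstance
    exact Module.finrank_pos (R := K⟮x⟯) (M := F)
  obtain ⟨h4, h4'⟩ := relfinrank_adjoin_pow (K := K) p x
  have h5 : (Fpn F p 1).relfinrank ⊤ = A'.relfinrank A := by
    have : A.relfinrank ⊤ * (Fpn F p 1).relfinrank ⊤ = A.relfinrank ⊤ * A'.relfinrank A := by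
      calc A.relfinrank ⊤ * (Fpn F p 1).relfinrank ⊤
          = A'.relfinrank (Fpn F p 1) * (Fpn F p 1).relfinrank ⊤ := by rw [h3]
        _ = A'.relfinrank ⊤ := h2
        _ = A'.relfinrank A * A.relfinrank ⊤ := h1.symm
        _ = A.relfinrank ⊤ * A'.relfinrank A := mul_comm _ _
    exact Nat.eq_of_mul_eq_mul_left hn this
  rw [Subfield.relfinrank_top_right] at h5
  refine ⟨Module.finite_of_finrank_pos (by rw [h5]; exact h4), by rw [h5]; exact h4', h5⟩

/-- If `g` is not a `p`-th power then `F = F^p(g)`, and `[F : F^p] = p`. -/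
theorem adjoin_Fp_eq_top (hfin : Module.Finite (Fpn F p 1) F)
    (hle : Module.finrank (Fpn F p 1) F ≤ p) {g : F} (hg : g ∉ Fpn F p 1) :
    IntermediateField.adjoin (Fpn F p 1) {g} = ⊤ ∧ Module.finrank (Fpn F p 1) F = p := by
  have hp : p.Prime := Fact.out
  have hgp : g ^ p ∈ Fpn F p 1 := (mem_Fpn p).mpr ⟨g, by rw [pow_one]⟩
  set a : Fpn F p 1 := ⟨g ^ p, hgp⟩ with ha
  have hirr : Irreducible (X ^ p - C a : (Fpn F p 1)[X]) := by
    rw [X_pow_sub_C_irreducible_iff_of_prime hp]
    intro b hb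
    have h1 : (b : F) ^ p = g ^ p := congrArg Subtype.val hb
    have h2 : (b : F) = g := by
      have := pow_injective (F := F) p 1
      exact this (by simpa using h1)
    exact hg (h2 ▸ b.2)
  have hroot : aeval g (X ^ p - C a : (Fpn F p 1)[X]) = 0 := by
    simp only [map_sub, map_pow, aeval_X, aeval_C]
    exact sub_self _
  have hmon : (X ^ p - C a : (Fpn F p 1)[X]).Monic := monic_X_pow_sub_C a hp.ne_zero
  have hmin := minpoly.eq_of_irreducible_of_monic hirr hroot hmon
  have hint : IsIntegral (Fpn F p 1) g := ⟨_, hmon, hroot⟩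
  have hdeg : Module.finrank (Fpn F p 1) (Fpn F p 1)⟮g⟯ = p := by
    rw [adjoin.finrank hint, ← hmin, natDegree_X_pow_sub_C]
  have hle' : Module.finrank (Fpn F p 1) (Fpn F p 1)⟮g⟯ ≤ Module.finrank (Fpn F p 1) F :=
    Submodule.finrank_le (Fpn F p 1)⟮g⟯.toSubalgebra.toSubmodule
  refine ⟨?_, by omega⟩
  haveI : FiniteDimensional (Fpn F p 1) (⊤ : IntermediateField (Fpn F p 1) F) :=
    Module.Finite.equiv (IntermediateField.topEquiv (F := Fpn F p 1) (E := F)).symm.toLinearEquiv
  apply IntermediateField.eq_of_le_of_finrank_le le_top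
  rw [IntermediateField.finrank_top', hdeg]
  exact hle

theorem closure_pow_union_eq_top {g : F} (hg : IntermediateField.adjoin (Fpn F p 1) {g} = ⊤)
    (n : ℕ) : Subfield.closure ((Fpn F p n : Set F) ∪ {g}) = ⊤ := by
  have h1 : Subfield.closure ((Fpn F p 1 : Set F) ∪ {g}) = ⊤ := by
    have := adjoin_toSubfield (Fpn F p 1) ({g} : Set F)
    rw [hg, IntermediateField.top_toSubfield] at this
    rw [this]
    congr 2
    ext y
    constructor
    · intro hy
      exact ⟨⟨y, hy⟩, rfl⟩
    · rintro ⟨⟨a, ha⟩, rfl⟩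
      exact ha
  induction n with
  | zero =>
    rw [eq_top_iff]
    intro y _
    exact Subfield.subset_closure (Or.inl (by rw [Fpn_zero]; trivial))
  | succ n ih =>
    rw [eq_top_iff, ← ih, Subfield.closure_le]
    rintro y (hy | rfl)
    · obtain ⟨z, rfl⟩ := (mem_Fpn p).mp hy
      have hz : z ∈ Subfield.closure ((Fpn F p 1 : Set F) ∪ {g}) := h1 ▸ Subfield.mem_top z
      have hz' : iterateFrobenius F p n z ∈
          (Subfield.closure ((Fpn F p 1 : Set F) ∪ {g})).map (iterateFrobenius F p n) :=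
        Subfield.mem_map.mpr ⟨z, hz, rfl⟩
      rw [RingHom.map_field_closure, iterateFrobenius_def] at hz'
      refine (Subfield.closure_le.mpr ?_) hz'
      rintro w ⟨u, (hu | rfl), rfl⟩
      · obtain ⟨t, rfl⟩ := (mem_Fpn p).mp hu
        refine Subfield.subset_closure (Or.inl ((mem_Fpn p).mpr ⟨t, ?_⟩))
        rw [iterateFrobenius_def, ← pow_mul, pow_one, pow_succ']
      · rw [iterateFrobenius_def]
        have hgcl : u ∈ Subfield.closure ((Fpn F p (n + 1) : Set F) ∪ {u}) :=
          Subfield.subset_closure (Or.inr rfl)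
        exact pow_mem hgcl _
    · exact Subfield.subset_closure (Or.inr rfl)

/-- **Separating elements**: if `F / K(x)` is finite, every `g ∉ F^p` with `F / K(g)` finite is a
separating element. -/
theorem isSeparable_of_not_mem [IsAlgClosed K] (x : F) [FiniteDimensional K⟮x⟯ F] {g : F}
    (hg : g ∉ Fpn F p 1) [FiniteDimensional K⟮g⟯ F] : Algebra.IsSeparable K⟮g⟯ F := by
  obtain ⟨hfin, hle, -⟩ := finrank_Fp_le (K := K) p x
  have h2 := (adjoin_Fp_eq_top p hfin hle hg).1
  rw [← separableClosure.eq_top_iff]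
  set S := separableClosure K⟮g⟯ F with hS
  haveI : IsPurelyInseparable S F := separableClosure.isPurelyInseparable K⟮g⟯ F
  haveI : FiniteDimensional S F := Module.Finite.right K⟮g⟯ S F
  haveI : IsPurelyInseparable.HasExponent S F :=
    IsPurelyInseparable.hasExponent_of_finiteDimensional
  set e := IsPurelyInseparable.exponent S F with he
  have hpow : ∀ y : F, y ^ p ^ e ∈ S := fun y => by
    obtain ⟨s, hs⟩ := IsPurelyInseparable.exponent_def' S p y
    rw [← hs]
    exact s.2
  have hgS : g ∈ S := S.algebraMap_mem ⟨g, mem_adjoin_simple_self K g⟩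
  have htop := closure_pow_union_eq_top p h2 e
  rw [eq_top_iff]
  intro y _
  have hy : y ∈ Subfield.closure ((Fpn F p e : Set F) ∪ {g}) := htop ▸ Subfield.mem_top y
  have hcl : Subfield.closure ((Fpn F p e : Set F) ∪ {g}) ≤ S.toSubfield := by
    rw [Subfield.closure_le]
    rintro w (hw | rfl)
    · obtain ⟨t, rfl⟩ := (mem_Fpn p).mp hw
      exact hpow t
    · exact hgS
  exact hcl hy

/-- Elements outside `F^p` are transcendental. -/
theorem transcendental_of_not_mem [IsAlgClosed K] {g : F} (hg : g ∉ Fpn F p 1) :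
    Transcendental K g := by
  intro halg
  obtain ⟨c, rfl⟩ := Fermat.Agent.S24.Places.exists_algebraMap_eq_of_isAlgebraic halg
  exact hg (algebraMap_mem_Fpn p 1 c)

/-- `[F^(p^n) : F^(p^(n+1))] = [F : F^p]`. -/
theorem relfinrank_Fpn_succ (n : ℕ) :
    (Fpn F p (n + 1)).relfinrank (Fpn F p n) = Module.finrank (Fpn F p 1) F := by
  rw [Fpn_succ, Fpn_eq_map p n, Subfield.relfinrank_map_map, Subfield.relfinrank_top_right]

theorem Fpn_le_of_le {m n : ℕ} (h : m ≤ n) : Fpn F p n ≤ Fpn F p m := by
  induction n, h using Nat.le_induction with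
  | base => exact le_rfl
  | succ n _ ih => exact (Fpn_succ_le p n).trans ih

theorem finrank_Fpn (n : ℕ) :
    (Fpn F p n).relfinrank ⊤ = Module.finrank (Fpn F p 1) F ^ n := by
  induction n with
  | zero => rw [Fpn_zero, Subfield.relfinrank_self, pow_zero]
  | succ n ih =>
    rw [← Subfield.relfinrank_mul_relfinrank (Fpn_succ_le p n) le_top, relfinrank_Fpn_succ, ih,
      pow_succ']

/-- A transcendental element is a `p^m`-th power only for bounded `m`. -/
theorem lt_of_mem_Fpn [IsAlgClosed K] (x : F) [FiniteDimensional K⟮x⟯ F] (hx : x ∉ Fpn F p 1)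
    {f : F} (hf : Transcendental K f) {m : ℕ} (hm : f ∈ Fpn F p m) :
    m < Module.finrank K⟮f⟯ F := by
  have hp : p.Prime := Fact.out
  obtain ⟨hfin, hle, -⟩ := finrank_Fp_le (K := K) p x
  have hdeg := (adjoin_Fp_eq_top p hfin hle hx).2
  haveI : FiniteDimensional K⟮f⟯ F := Fermat.Agent.S24.Places.finiteDimensional_of_transcendental x hf
  have hle' : K⟮f⟯.toSubfield ≤ Fpn F p m := by
    rw [adjoin_toSubfield, Subfield.closure_le]
    rintro y (⟨a, rfl⟩ | rfl)
    · exact algebraMap_mem_Fpn p m a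
    · exact hm
  have h1 := Subfield.relfinrank_mul_relfinrank hle' (le_top : Fpn F p m ≤ ⊤)
  rw [finrank_Fpn, hdeg, Subfield.relfinrank_top_right] at h1
  have hpos : 0 < Module.finrank K⟮f⟯ F := Module.finrank_pos
  have h2 : p ^ m ∣ Module.finrank K⟮f⟯ F := ⟨_, by
    have : Module.finrank (↥K⟮f⟯.toSubfield) F = Module.finrank K⟮f⟯ F := rfl
    rw [← this, ← h1, mul_comm]⟩
  have h3 : p ^ m ≤ Module.finrank K⟮f⟯ F := Nat.le_of_dvd hpos h2
  exact (Nat.lt_pow_self hp.one_lt).trans_le h3

/-- **P0, main statement**: if `F / K(x)` is finite and `x` is not a `p`-th power, then every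
non-constant `f` is a `p^m`-th power of a separating element. -/
theorem exists_sep_root [IsAlgClosed K] (x : F) [FiniteDimensional K⟮x⟯ F] (hx : x ∉ Fpn F p 1)
    (f : F) (hf : f ∉ Set.range (algebraMap K F)) :
    ∃ (g : F) (n : ℕ), 0 < n ∧ f = g ^ n ∧ Transcendental K g ∧ FiniteDimensional K⟮g⟯ F ∧
      Algebra.IsSeparable K⟮g⟯ F := by
  classical
  have hp : p.Prime := Fact.out
  have hft : Transcendental K f := fun halg => by
    obtain ⟨c, hc⟩ := Fermat.Agent.S24.Places.exists_algebraMap_eq_of_isAlgebraic halg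
    exact hf ⟨c, hc⟩
  have hex : ∃ m, f ∉ Fpn F p (m + 1) :=
    ⟨Module.finrank K⟮f⟯ F, fun h => by
      have := lt_of_mem_Fpn p x hx hft h
      omega⟩
  set m := Nat.find hex with hm
  have hm1 : f ∉ Fpn F p (m + 1) := Nat.find_spec hex
  have hm0 : f ∈ Fpn F p m := by
    rcases Nat.eq_zero_or_pos m with h0 | hpos
    · rw [h0, Fpn_zero]
      trivial
    · have := Nat.find_min hex (m := m - 1) (by omega)
      rw [not_not] at this
      rwa [Nat.sub_add_cancel hpos] at this
  obtain ⟨g, hg⟩ := (mem_Fpn p).mp hm0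
  have hgp : g ∉ Fpn F p 1 := by
    intro h
    obtain ⟨z, hz⟩ := (mem_Fpn p).mp h
    apply hm1
    refine (mem_Fpn p).mpr ⟨z, ?_⟩
    rw [← hg, ← hz, ← pow_mul, pow_one, pow_succ']
  have hgt := transcendental_of_not_mem (K := K) p hgp
  haveI hgfin : FiniteDimensional K⟮g⟯ F :=
    Fermat.Agent.S24.Places.finiteDimensional_of_transcendental x hgt
  exact ⟨g, p ^ m, pow_pos hp.pos m, hg.symm, hgt, hgfin, isSeparable_of_not_mem p x hgp⟩

/-! ### Hypothesis-free forms -/

/-- A transcendental `x` does not lie in `K(x^p)`. -/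
theorem not_mem_adjoin_pow {x : F} (hx : Transcendental K x) : x ∉ K⟮x ^ p⟯ := by
  have hp : p.Prime := Fact.out
  haveI : CharP K p := RingHom.charP (algebraMap K F) (algebraMap K F).injective p
  intro hmem
  obtain ⟨r, s, hrs⟩ := (IntermediateField.mem_adjoin_simple_iff K x).mp hmem
  have hx0 : x ≠ 0 := fun h => hx (h ▸ isAlgebraic_zero)
  have hs0 : aeval (x ^ p) s ≠ 0 := by
    intro h
    rw [h, div_zero] at hrs
    exact hx0 hrs
  have h1 : x * aeval (x ^ p) s = aeval (x ^ p) r := by
    rw [eq_div_iff hs0] at hrs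
    exact hrs
  have h2 : aeval x (X * expand K p s - expand K p r) = 0 := by
    rw [map_sub, map_mul, aeval_X, expand_aeval, expand_aeval, h1, sub_self]
  have h3 : X * expand K p s - expand K p r = 0 := (transcendental_iff.mp hx) _ h2
  have hd : ∀ t : K[X], derivative (expand K p t) = 0 := fun t => by
    rw [derivative_expand, CharP.cast_eq_zero, zero_mul, mul_zero]
  have h4 := congrArg derivative h3
  rw [derivative_sub, derivative_mul, derivative_X, one_mul, hd, hd, mul_zero, add_zero,
    sub_zero, derivative_zero] at h4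
  have h5 : s = 0 := (expand_eq_zero hp.pos).mp h4
  exact hs0 (by rw [h5, map_zero])

/-- `[K(x) : K(x^p)] = p` for transcendental `x`. -/
theorem relfinrank_adjoin_pow_eq {x : F} (hx : Transcendental K x) :
    (K⟮x ^ p⟯.toSubfield).relfinrank K⟮x⟯.toSubfield = p := by
  have hp : p.Prime := Fact.out
  have hle : K⟮x ^ p⟯ ≤ K⟮x⟯ := by
    rw [adjoin_simple_le_iff]
    exact pow_mem (mem_adjoin_simple_self K x) p
  have h0 : (K⟮x ^ p⟯.toSubfield).relfinrank K⟮x⟯.toSubfield = K⟮x ^ p⟯.relfinrank K⟮x⟯ := rfl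
  rw [h0, relfinrank_eq_finrank_of_le hle]
  have hnot := not_mem_adjoin_pow (K := K) p hx
  set A : IntermediateField K F := K⟮x ^ p⟯ with hA
  have hxp : x ^ p ∈ A := mem_adjoin_simple_self K _
  set q : A[X] := X ^ p - C (⟨x ^ p, hxp⟩ : A) with hq
  have hqm : q.Monic := monic_X_pow_sub_C _ hp.ne_zero
  have hroot : aeval x q = 0 := by
    simp only [hq, map_sub, map_pow, aeval_X, aeval_C]
    exact sub_self _
  have hint : IsIntegral A x := ⟨q, hqm, hroot⟩
  have hirr : Irreducible q := by
    rw [hq, X_pow_sub_C_irreducible_iff_of_prime hp]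
    intro b hb
    have h1 : (b : F) ^ p = x ^ p := congrArg Subtype.val hb
    have h2 : (b : F) = x := by
      have := pow_injective (F := F) p 1
      exact this (by simpa using h1)
    exact hnot (h2 ▸ b.2)
  have hmin := minpoly.eq_of_irreducible_of_monic hirr hroot hqm
  have heq : extendScalars hle = A⟮x⟯ := by
    apply le_antisymm
    · rw [extendScalars_le_iff, adjoin_simple_le_iff]
      exact mem_adjoin_simple_self A x
    · rw [adjoin_simple_le_iff]
      exact (mem_extendScalars hle).mpr (mem_adjoin_simple_self K x)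
  rw [heq, adjoin.finrank hint, ← hmin, hq, natDegree_X_pow_sub_C]

/-- `[F : F^p] = p` for a function field of one variable. -/
theorem finrank_Fp_eq [IsAlgClosed K] (x : F) (hx : Transcendental K x)
    [FiniteDimensional K⟮x⟯ F] : Module.finrank (Fpn F p 1) F = p := by
  obtain ⟨-, -, h⟩ := finrank_Fp_le (K := K) p x
  rw [h, relfinrank_adjoin_pow_eq p hx]

/-- A function field of one variable is not perfect. -/
theorem exists_not_mem_Fp [IsAlgClosed K] (x : F) (hx : Transcendental K x)
    [FiniteDimensional K⟮x⟯ F] : ∃ y : F, y ∉ Fpn F p 1 := by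
  have hp : p.Prime := Fact.out
  by_contra hall
  push Not at hall
  have htop : Fpn F p 1 = ⊤ := eq_top_iff.mpr fun y _ => hall y
  have h1 := finrank_Fp_eq (K := K) p x hx
  rw [← Subfield.relfinrank_top_right, htop, Subfield.relfinrank_self] at h1
  exact hp.one_lt.ne h1

include p in
/-- Non-constant functions are `p`-power powers of separating elements (characteristic `p`). -/
theorem exists_sep_root_of_transcendental [IsAlgClosed K] (x : F) (hx : Transcendental K x)
    [FiniteDimensional K⟮x⟯ F] (f : F) (hf : f ∉ Set.range (algebraMap K F)) :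
    ∃ (g : F) (n : ℕ), 0 < n ∧ f = g ^ n ∧ Transcendental K g ∧ FiniteDimensional K⟮g⟯ F ∧
      Algebra.IsSeparable K⟮g⟯ F := by
  obtain ⟨y, hy⟩ := exists_not_mem_Fp (K := K) p x hx
  have hyt := transcendental_of_not_mem (K := K) p hy
  haveI : FiniteDimensional K⟮y⟯ F :=
    Fermat.Agent.S24.Places.finiteDimensional_of_transcendental x hyt
  exact exists_sep_root p y hy f hf

end Fermat.Agent.S18.PFrob

namespace Fermat.Agent.S18.PFrob

open IntermediateField Polynomial

/-- **P0, characteristic-free form**: in a function field of one variable over an algebraically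
closed field (any characteristic), every non-constant function is a power of a separating
element. -/
theorem exists_sep_root' {K F : Type*} [Field K] [Field F] [Algebra K F] [IsAlgClosed K] (x : F)
    (hx : Transcendental K x) [FiniteDimensional K⟮x⟯ F] (f : F)
    (hf : f ∉ Set.range (algebraMap K F)) :
    ∃ (g : F) (n : ℕ), 0 < n ∧ f = g ^ n ∧ Transcendental K g ∧ FiniteDimensional K⟮g⟯ F ∧
      Algebra.IsSeparable K⟮g⟯ F := by
  obtain ⟨q, hq⟩ := ExpChar.exists F
  cases hq with
  | zero =>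
    have hft : Transcendental K f := fun halg => by
      obtain ⟨c, hc⟩ := Fermat.Agent.S24.Places.exists_algebraMap_eq_of_isAlgebraic halg
      exact hf ⟨c, hc⟩
    haveI hfin : FiniteDimensional K⟮f⟯ F :=
      Fermat.Agent.S24.Places.finiteDimensional_of_transcendental x hft
    haveI : CharZero K⟮f⟯ := RingHom.charZero (algebraMap K⟮f⟯ F)
    exact ⟨f, 1, one_pos, (pow_one f).symm, hft, hfin, inferInstance⟩
  | prime hq' =>
    haveI := Fact.mk hq'
    exact exists_sep_root_of_transcendental q x hx f hf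

/-- The existence of a separating element. -/
theorem exists_separating {K F : Type*} [Field K] [Field F] [Algebra K F] [IsAlgClosed K] (x : F)
    (hx : Transcendental K x) [FiniteDimensional K⟮x⟯ F] :
    ∃ g : F, Transcendental K g ∧ FiniteDimensional K⟮g⟯ F ∧ Algebra.IsSeparable K⟮g⟯ F := by
  have hxK : x ∉ Set.range (algebraMap K F) := by
    rintro ⟨c, rfl⟩
    exact hx (isAlgebraic_algebraMap c)
  obtain ⟨g, n, -, -, h1, h2, h3⟩ := exists_sep_root' x hx x hxK
  exact ⟨g, h1, h2, h3⟩

end Fermat.Agent.S18.PFrob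

end
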