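/-
S18 (torsion injects under reduction), chain CL+SQ, piece C instantiated at a level `M` prime to
`ℓ` (helper15): all side conditions of `CLCentre.exists_centres` discharged for
`F₀ = F̄_M = modularFunctionFieldFullC k M`, `J = J̄`, `I = SL(2, ℤ) ⧸ Γ₀(M)`,
`ρ = cosetPerm M T⁻¹`, against the literal shape of the reduced conjugate embeddings (E2).

* `exists_centres_level` (Option form), `exists_finite_centres_level` (`T.card + 1 ≥ cuspCount M`),
  `exists_centres_finite_level` (all-finite form with a new generator `y'`).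
* side conditions: `finrank_Jb` (`[F̄_M : k(J̄)] = ψ(M)`), `finiteDimensional_Jb`,
  `isSeparable_Jb` (`J̄` is not an `ℓ`-th power: its order is `-1`), `card_eq_finrank_Jb`,
  `cyc_T_inv` (`cyc (cosetPerm M T⁻¹) = cuspCount M`), `order_jqModC`, `adjoin_eq_top_of_coe`.
-/
import Fermat.Agent.S18.CLCentreFin
import Fermat.Agent.S18.LiftDeg
import Fermat.Agent.S18.PFrob
import Fermat.Agent.S24.Comb.Count
import Fermat.Agent.S28.A0Poly

set_option autoImplicit false
set_option linter.unusedSectionVars false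
set_option linter.style.haveILetI false

noncomputable section

open scoped MatrixGroups
open IntermediateField ModularCurve HahnSeries

namespace Fermat.Agent.S18.CLCentreM0

open Fermat.Agent.S24

universe u

/-- `cyc` of the inverse permutation -/
theorem cyc_inv {I : Type*} (ρ : Equiv.Perm I) : cyc ρ⁻¹ = cyc ρ := by
  unfold cyc
  rw [Subgroup.zpowers_inv]

theorem cosetPerm_inv (N : ℕ) (g : SL(2, ℤ)) : cosetPerm N g⁻¹ = (cosetPerm N g)⁻¹ := by
  unfold cosetPerm
  exact map_inv (MulAction.toPermHom SL(2, ℤ) (SL(2, ℤ) ⧸ CongruenceSubgroup.Gamma0 N)) g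

/-- the number of cycles of `T⁻¹` on `SL(2, ℤ) ⧸ Γ₀(N)` is the number of cusps -/
theorem cyc_T_inv (N : ℕ) [NeZero N] : cyc (cosetPerm N ModularGroup.T⁻¹) = cuspCount N := by
  rw [cosetPerm_inv, cyc_inv, Comb.cyc_T]

section

variable (k : Type u) [Field k]

/-- the order of the `j`-series -/
theorem order_jqModC : (jqModC k).order = -1 := by
  have h := S28.A0Poly.order_aeval_jqModC k (P := Polynomial.X) Polynomial.X_ne_zero
  rwa [Polynomial.aeval_X, Polynomial.natDegree_X, Nat.cast_one] at h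

variable (ℓ : ℕ) [Fact ℓ.Prime] [CharP k ℓ] (M : ℕ) [NeZero M]

/-- `J̄` as an element of `F̄_M` -/
def Jb : ↥(modularFunctionFieldFullC k M) := ⟨jqModC k, jqModC_mem_full k M⟩

theorem finrank_Jb (hℓM : ¬ ℓ ∣ M) :
    Module.finrank ↥(k⟮Jb k M⟯) ↥(modularFunctionFieldFullC k M) = dedekindPsi M := by
  rw [LiftD.finrank_adjoin_eq_relfinrank]
  exact LiftD.relfinrank_fullC k ℓ M hℓM

theorem finiteDimensional_Jb (hℓM : ¬ ℓ ∣ M) :
    FiniteDimensional ↥(k⟮Jb k M⟯) ↥(modularFunctionFieldFullC k M) := by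
  apply FiniteDimensional.of_finrank_pos
  rw [finrank_Jb k ℓ M hℓM]
  exact LiftD.dedekindPsi_pos M

include ℓ in
/-- `J̄` is not an `ℓ`-th power in `F̄_M` -/
theorem Jb_not_pow (z : ↥(modularFunctionFieldFullC k M)) : z ^ ℓ ≠ Jb k M := by
  intro h
  have h1 : ((z : LaurentSeries k)) ^ ℓ = jqModC k := congrArg Subtype.val h
  have h2 := congrArg HahnSeries.order h1
  rw [HahnSeries.order_pow, order_jqModC, nsmul_eq_mul] at h2
  have hℓ : 2 ≤ ℓ := (Fact.out : ℓ.Prime).two_le
  have h3 : (ℓ : ℤ) ∣ -1 := ⟨_, h2.symm⟩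
  have h4 : (ℓ : ℤ) ∣ 1 := (dvd_neg).mp h3
  have h5 : ℓ ∣ 1 := by exact_mod_cast h4
  have := Nat.le_of_dvd one_pos h5
  omega

theorem isSeparable_Jb [IsAlgClosed k] (hℓM : ¬ ℓ ∣ M) :
    Algebra.IsSeparable ↥(k⟮Jb k M⟯) ↥(modularFunctionFieldFullC k M) := by
  haveI : CharP ↥(modularFunctionFieldFullC k M) ℓ :=
    charP_of_injective_algebraMap (algebraMap k ↥(modularFunctionFieldFullC k M)).injective ℓ
  haveI := finiteDimensional_Jb k ℓ M hℓM
  refine PFrob.isSeparable_of_not_mem (K := k) ℓ (Jb k M) (g := Jb k M) ?_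
  intro hmem
  obtain ⟨z, hz⟩ := (PFrob.mem_Fpn ℓ).mp hmem
  rw [pow_one] at hz
  exact Jb_not_pow k ℓ M z hz

end

/-- a generator in the ambient field is a generator inside the subfield -/
theorem adjoin_eq_top_of_coe {K E : Type*} [Field K] [Field E] [Algebra K E]
    (B : IntermediateField K E) (y : ↥B) (hy : K⟮(y : E)⟯ = B) : K⟮y⟯ = ⊤ := by
  have h1 : (K⟮y⟯).map B.val = K⟮(y : E)⟯ := by
    rw [IntermediateField.adjoin_map]
    simp
  have h2 : (⊤ : IntermediateField K ↥B).map B.val = B := by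
    rw [← AlgHom.fieldRange_eq_map, IntermediateField.fieldRange_val]
  apply IntermediateField.map_injective B.val
  rw [h1, h2, hy]

section Main

variable (k : Type u) [Field k] [IsAlgClosed k] (ℓ : ℕ) [Fact ℓ.Prime] [CharP k ℓ]
  (M : ℕ) [NeZero M] [Fintype (SL(2, ℤ) ⧸ CongruenceSubgroup.Gamma0 M)]

include ℓ in
theorem card_eq_finrank_Jb (hℓM : ¬ ℓ ∣ M) :
    Fintype.card (SL(2, ℤ) ⧸ CongruenceSubgroup.Gamma0 M) =
      Module.finrank ↥(k⟮Jb k M⟯) ↥(modularFunctionFieldFullC k M) := by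
  rw [finrank_Jb k ℓ M hℓM, ← Nat.card_eq_fintype_card, Comb.card_coset]

variable {k M}
variable (σ : SL(2, ℤ) ⧸ CongruenceSubgroup.Gamma0 M →
    ↥(modularFunctionFieldFullC k M) →+* LaurentSeries k)

include ℓ in
/-- **Piece C at level `M`** (`ℓ ∤ M`), Option form: a family of reduced conjugate embeddings
`σ i : F̄_M → k((u))` in the shape of E2 and a generator `y` of `F̄_M / k` have at least
`cuspCount M` distinct centres. -/
theorem exists_centres_level (hℓM : ¬ ℓ ∣ M) (ζ : k) (hζ : IsPrimitiveRoot ζ M)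
    (hK : ∀ i c, σ i (algebraMap k ↥(modularFunctionFieldFullC k M) c) = HahnSeries.C c)
    (hσ : Function.Injective σ)
    (hrot : ∀ i f (n : ℤ),
      (σ (cosetPerm M ModularGroup.T⁻¹ i) f).coeff n = ζ ^ n * (σ i f).coeff n)
    (hJ : ∀ i, σ i (Jb k M) = qExpand k M (jqModC k))
    (y : ↥(modularFunctionFieldFullC k M))
    (hy : k⟮(y : LaurentSeries k)⟯ = modularFunctionFieldFullC k M) :
    ∃ S : Finset (Option k), cuspCount M ≤ S.card ∧ ∀ c ∈ S, ∃ i,
      (c = none ∧ (σ i y).order < 0) ∨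
        ∃ a, c = some a ∧
          0 < (σ i (y - algebraMap k ↥(modularFunctionFieldFullC k M) a)).order := by
  haveI := finiteDimensional_Jb k ℓ M hℓM
  haveI := isSeparable_Jb k ℓ M hℓM
  have h := CLCentre.exists_centres σ hσ hK (cosetPerm M ModularGroup.T⁻¹) ζ M
    (Nat.pos_of_ne_zero (NeZero.ne M)) hζ hrot y (Jb k M) (adjoin_eq_top_of_coe _ y hy)
    (fun i j => by rw [hJ, hJ]) (fun i => by rw [hJ, S28.A0Poly.order_qExpand_jqModC])
    (card_eq_finrank_Jb k ℓ M hℓM)
  rwa [cyc_T_inv] at h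

include ℓ in
/-- **Piece C at level `M`**, finite-centre form: at least `cuspCount M - 1` finite centres. -/
theorem exists_finite_centres_level (hℓM : ¬ ℓ ∣ M) (ζ : k) (hζ : IsPrimitiveRoot ζ M)
    (hK : ∀ i c, σ i (algebraMap k ↥(modularFunctionFieldFullC k M) c) = HahnSeries.C c)
    (hσ : Function.Injective σ)
    (hrot : ∀ i f (n : ℤ),
      (σ (cosetPerm M ModularGroup.T⁻¹ i) f).coeff n = ζ ^ n * (σ i f).coeff n)
    (hJ : ∀ i, σ i (Jb k M) = qExpand k M (jqModC k))
    (y : ↥(modularFunctionFieldFullC k M))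
    (hy : k⟮(y : LaurentSeries k)⟯ = modularFunctionFieldFullC k M) :
    ∃ T : Finset k, cuspCount M ≤ T.card + 1 ∧ ∀ a ∈ T, ∃ i,
      0 < (σ i (y - algebraMap k ↥(modularFunctionFieldFullC k M) a)).order := by
  haveI := finiteDimensional_Jb k ℓ M hℓM
  haveI := isSeparable_Jb k ℓ M hℓM
  have h := CLCentre.exists_finite_centres σ hσ hK (cosetPerm M ModularGroup.T⁻¹) ζ M
    (Nat.pos_of_ne_zero (NeZero.ne M)) hζ hrot y (Jb k M) (adjoin_eq_top_of_coe _ y hy)
    (fun i j => by rw [hJ, hJ]) (fun i => by rw [hJ, S28.A0Poly.order_qExpand_jqModC])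
    (card_eq_finrank_Jb k ℓ M hℓM)
  rwa [cyc_T_inv] at h

include ℓ in
/-- **Piece C at level `M`**, all-finite form: for a suitable generator `y'` of `F̄_M / k` at
least `cuspCount M` distinct finite centres occur. -/
theorem exists_centres_finite_level (hℓM : ¬ ℓ ∣ M) (ζ : k) (hζ : IsPrimitiveRoot ζ M)
    (hK : ∀ i c, σ i (algebraMap k ↥(modularFunctionFieldFullC k M) c) = HahnSeries.C c)
    (hσ : Function.Injective σ)
    (hrot : ∀ i f (n : ℤ),
      (σ (cosetPerm M ModularGroup.T⁻¹ i) f).coeff n = ζ ^ n * (σ i f).coeff n)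
    (hJ : ∀ i, σ i (Jb k M) = qExpand k M (jqModC k))
    (y : ↥(modularFunctionFieldFullC k M))
    (hy : k⟮(y : LaurentSeries k)⟯ = modularFunctionFieldFullC k M) :
    ∃ (y' : ↥(modularFunctionFieldFullC k M)) (S : Finset k),
      k⟮(y' : LaurentSeries k)⟯ = modularFunctionFieldFullC k M ∧ cuspCount M ≤ S.card ∧
        ∀ a ∈ S, ∃ i,
          0 < (σ i (y' - algebraMap k ↥(modularFunctionFieldFullC k M) a)).order := by
  haveI := finiteDimensional_Jb k ℓ M hℓM
  haveI := isSeparable_Jb k ℓ M hℓM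
  obtain ⟨y', S, hy', hS, hc⟩ := CLCentre.exists_centres_finite σ hσ hK
    (cosetPerm M ModularGroup.T⁻¹) ζ M
    (Nat.pos_of_ne_zero (NeZero.ne M)) hζ hrot y (Jb k M) (adjoin_eq_top_of_coe _ y hy)
    (fun i j => by rw [hJ, hJ]) (fun i => by rw [hJ, S28.A0Poly.order_qExpand_jqModC])
    (card_eq_finrank_Jb k ℓ M hℓM)
  rw [cyc_T_inv] at hS
  refine ⟨y', S, ?_, hS, hc⟩
  have h1 : (k⟮y'⟯).map (modularFunctionFieldFullC k M).val = k⟮(y' : LaurentSeries k)⟯ := by
    rw [IntermediateField.adjoin_map]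
    simp
  have h2 : (⊤ : IntermediateField k ↥(modularFunctionFieldFullC k M)).map
      (modularFunctionFieldFullC k M).val = modularFunctionFieldFullC k M := by
    rw [← AlgHom.fieldRange_eq_map, IntermediateField.fieldRange_val]
  rw [← h1, hy', h2]

end Main

end Fermat.Agent.S18.CLCentreM0
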