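/-
S18 (wave 7), chain CL, piece O (helper16): the cusp count for Theorem A from a complete,
rotation-stable family of embeddings into Laurent series.

Setting (that of `Fermat.Agent.S20.RRLite`): `K` algebraically closed, `F` a finite separable
extension of `RatFunc K`.  A finite family `σ i : F →+* K((u))` of embeddings, fixing `K`,
complete over `K(J)` for some `J ∈ K(X)` and permuted by the substitution `u ↦ ζ u` according to
a permutation `ρ`.  Then the numbers of points of `F` over the centres of the `σ i` add up to at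
most the number of cycles of `ρ`.
-/
import Fermat.Agent.S20.RRLite.Main
import Fermat.Agent.S24.Orbit
import Fermat.Agent.S24.Defs
import Fermat.Agent.S24.Alg.LocalCount

set_option autoImplicit false

namespace Fermat.Agent.S18.CLO

open Polynomial Module WithZero Fermat.Agent.S20.RRLite Fermat.Agent.S24

noncomputable section

/-! ### Valuations of Laurent series -/

section Laurent

variable {K : Type*} [Field K]

/-- the `u`-adic valuation on `K((u))` -/
abbrev wL : Valuation (LaurentSeries K) ℤᵐ⁰ := Valued.v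

theorem wL_le_one_iff (g : LaurentSeries K) : wL g ≤ 1 ↔ ∀ n : ℤ, n < 0 → g.coeff n = 0 := by
  have h := LaurentSeries.valuation_le_iff_coeff_lt_eq_zero K (D := 0) (f := g)
  rw [neg_zero, exp_zero] at h
  exact h

theorem wL_lt_one_iff (g : LaurentSeries K) : wL g < 1 ↔ ∀ n : ℤ, n < 1 → g.coeff n = 0 := by
  have h := LaurentSeries.valuation_le_iff_coeff_lt_eq_zero K (D := 1) (f := g)
  rw [← h]
  by_cases hg : g = 0
  · subst hg
    simp
  · have h0 : (wL g : ℤᵐ⁰) ≠ 0 := (Valuation.ne_zero_iff _).mpr hg
    rw [← exp_log h0, ← exp_zero, exp_lt_exp, exp_le_exp]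
    omega

theorem wL_lt_one_of_coeff_zero {g : LaurentSeries K} (h1 : wL g ≤ 1) (h0 : g.coeff 0 = 0) :
    wL g < 1 := by
  rw [wL_lt_one_iff]
  rw [wL_le_one_iff] at h1
  intro n hn
  rcases lt_or_eq_of_le (show n ≤ 0 by omega) with h | h
  · exact h1 n h
  · rw [h, h0]

theorem coeff_zero_of_wL_lt_one {g : LaurentSeries K} (h : wL g < 1) : g.coeff 0 = 0 :=
  (wL_lt_one_iff g).mp h 0 (by norm_num)

theorem wL_C_le_one (c : K) : wL (HahnSeries.C c : LaurentSeries K) ≤ 1 := by
  rw [wL_le_one_iff]
  intro n hn
  rw [HahnSeries.C_apply, HahnSeries.coeff_single_of_ne (by omega)]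

theorem wL_lt_one_of_order {g : LaurentSeries K} (h : 0 < g.order) : wL g < 1 := by
  rw [wL_lt_one_iff]
  intro n hn
  exact HahnSeries.coeff_eq_zero_of_lt_order (by omega)

theorem one_lt_wL_of_order {g : LaurentSeries K} (h : g.order < 0) : 1 < wL g := by
  have hg : g ≠ 0 := by
    rintro rfl
    simp at h
  rw [wL, LocalCount.laurent_valuation_eq g hg, ← exp_zero, exp_lt_exp]
  omega

/-- two series with the same vanishing pattern of coefficients have the same valuation -/
theorem wL_eq_of_coeff {g h : LaurentSeries K} (H : ∀ n : ℤ, g.coeff n = 0 ↔ h.coeff n = 0) :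
    wL g = wL h := by
  have key : ∀ D : ℤ, wL g ≤ exp (-D) ↔ wL h ≤ exp (-D) := by
    intro D
    rw [LaurentSeries.valuation_le_iff_coeff_lt_eq_zero,
      LaurentSeries.valuation_le_iff_coeff_lt_eq_zero]
    exact forall_congr' fun n => imp_congr_right fun _ => H n
  by_cases hg : wL g = 0
  · by_cases hh : wL h = 0
    · rw [hg, hh]
    · exfalso
      have h1 := (key (-(log (wL h)) + 1)).mp (by rw [hg]; exact zero_le)
      conv_lhs at h1 => rw [← exp_log hh]
      rw [exp_le_exp] at h1
      omega
  · by_cases hh : wL h = 0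
    · exfalso
      have h1 := (key (-(log (wL g)) + 1)).mpr (by rw [hh]; exact zero_le)
      conv_lhs at h1 => rw [← exp_log hg]
      rw [exp_le_exp] at h1
      omega
    · have h1 := (key (-(log (wL g)))).mp (by rw [neg_neg, exp_log hg])
      have h2 := (key (-(log (wL h)))).mpr (by rw [neg_neg, exp_log hh])
      rw [neg_neg] at h1 h2
      conv_lhs at h1 => rw [← exp_log hh]
      conv_lhs at h2 => rw [← exp_log hg]
      rw [exp_le_exp] at h1 h2
      rw [← exp_log hg, ← exp_log hh, le_antisymm h2 h1]

end Laurent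


/-! ### The kernel lemma -/

section Kernel

variable (K F : Type*) [Field K] [Field F] [Algebra (RatFunc K) F]
  [FiniteDimensional (RatFunc K) F] [Algebra.IsSeparable (RatFunc K) F]

/-- **Kernel lemma.**  `A` a Dedekind domain with fraction field `K(X)`, `(ϖ)` a maximal ideal,
and `[F : K(X)]` distinct embeddings of `F` into `K((u))` agreeing on `K(X)`, integral on `A` and
centred at `ϖ`.  An element of `F` integral over `A` whose images all have vanishing constant
term is nilpotent modulo `ϖ`. -/
theorem isNilMod_of_coeff (A : Type*) [CommRing A] [IsDedekindDomain A] [Algebra A (RatFunc K)]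
    [IsFractionRing A (RatFunc K)] [Algebra A F] [IsScalarTower A (RatFunc K) F]
    (ϖ : A) (hϖ : (Ideal.span {ϖ}).IsMaximal) (hϖ0 : ϖ ≠ 0)
    {J : Type*} [Fintype J] (τ : J → F →+* LaurentSeries K) (hτ : Function.Injective τ)
    (hcard : Fintype.card J = finrank (RatFunc K) F)
    (hagree : ∀ i j (y : RatFunc K),
      τ i (algebraMap (RatFunc K) F y) = τ j (algebraMap (RatFunc K) F y))
    (hA : ∀ i (a : A), wL (τ i (algebraMap A F a)) ≤ 1)
    (hw1 : ∀ i, wL (τ i (algebraMap A F ϖ)) < 1)
    (b : F) (hb : IsIntegral A b) (h0 : ∀ i, (τ i b).coeff 0 = 0) :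
    IsNilMod F A ϖ b := by
  rw [isNilMod_iff]
  refine ⟨⟨b, hb⟩, rfl, ?_⟩
  rw [Ideal.radical_eq_sInf, Ideal.mem_sInf]
  rintro P ⟨hP, hPprime⟩
  have hint := Orbit.val_le_one_of_mem (B := integralClosure A F) wL τ hA
  have hlies : P.LiesOver (Ideal.span {ϖ}) := by
    constructor
    have hle : Ideal.span {ϖ} ≤ P.under A := by
      rw [Ideal.span_le, Set.singleton_subset_iff]
      show algebraMap A (integralClosure A F) ϖ ∈ P
      exact hP (Ideal.subset_span rfl)
    have hne : P.under A ≠ ⊤ := (Ideal.IsPrime.under A P).ne_top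
    exact hϖ.eq_of_le hne hle
  obtain ⟨i, hi⟩ := Orbit.exists_primeOf_eq (K := RatFunc K) wL τ hint hτ hcard hagree ϖ hϖ0
    hw1 P
  rw [← hi, Orbit.mem_primeOf]
  exact wL_lt_one_of_coeff_zero (hint i ⟨b, hb⟩) (h0 i)

end Kernel


/-! ### Complete families of embeddings -/

section Complete

open IntermediateField

variable {K F : Type*} [Field K] [Field F] [Algebra K F]
  {I : Type*} [Fintype I] (σ : I → F →+* LaurentSeries K)

/-- embeddings agreeing on `K` and at `J` agree on `K(J)` -/
theorem agree_on_adjoin (hK : ∀ i (c : K), σ i (algebraMap K F c) = HahnSeries.C c)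
    (J : F) (hagree : ∀ i j, σ i J = σ j J) (i j : I) {a : F} (ha : a ∈ K⟮J⟯) :
    σ i a = σ j a := by
  induction ha using IntermediateField.adjoin_induction with
  | mem x hx =>
    rw [Set.mem_singleton_iff] at hx
    rw [hx]
    exact hagree i j
  | algebraMap c => rw [hK, hK]
  | add x y _ _ hx hy => rw [map_add, map_add, hx, hy]
  | inv x _ hx => rw [map_inv₀, map_inv₀, hx]
  | mul x y _ _ hx hy => rw [map_mul, map_mul, hx, hy]

/-- **Completeness.**  Every ring embedding of `F` into the algebraic closure of `K((u))` which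
agrees with the family on `K` and at `J` is a member of the family. -/
theorem exists_eq_of_ringHom (hσ : Function.Injective σ)
    (hK : ∀ i (c : K), σ i (algebraMap K F c) = HahnSeries.C c)
    (J : F) (hagree : ∀ i j, σ i J = σ j J)
    [FiniteDimensional K⟮J⟯ F] [Algebra.IsSeparable K⟮J⟯ F]
    (hcard : Fintype.card I = finrank K⟮J⟯ F) (i₀ : I)
    (ψ : F →+* AlgebraicClosure (LaurentSeries K))
    (hψK : ∀ c : K, ψ (algebraMap K F c) =
      algebraMap (LaurentSeries K) (AlgebraicClosure (LaurentSeries K)) (HahnSeries.C c))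
    (hψJ : ψ J = algebraMap (LaurentSeries K) (AlgebraicClosure (LaurentSeries K)) (σ i₀ J)) :
    ∃ i, ∀ f : F, ψ f = algebraMap (LaurentSeries K) (AlgebraicClosure (LaurentSeries K))
      (σ i f) := by
  classical
  let Ω := AlgebraicClosure (LaurentSeries K)
  let : Algebra K⟮J⟯ Ω :=
    (((algebraMap (LaurentSeries K) Ω).comp (σ i₀)).comp (algebraMap K⟮J⟯ F)).toAlgebra
  let s : I → (F →ₐ[K⟮J⟯] Ω) := fun i =>
    { toRingHom := (algebraMap (LaurentSeries K) Ω).comp (σ i)
      commutes' := fun a => by
        show algebraMap (LaurentSeries K) Ω (σ i (a : F)) =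
          algebraMap (LaurentSeries K) Ω (σ i₀ (a : F))
        rw [agree_on_adjoin σ hK J hagree i i₀ a.2] }
  have hs : Function.Injective s := by
    intro i j hij
    apply hσ
    ext x : 1
    have h1 : s i x = s j x := by rw [hij]
    exact (algebraMap (LaurentSeries K) Ω).injective h1
  have hbij : Function.Bijective s := by
    rw [Fintype.bijective_iff_injective_and_card]
    exact ⟨hs, by rw [hcard, AlgHom.card]⟩
  have hψa : ∀ a : F, a ∈ K⟮J⟯ → ψ a = algebraMap (LaurentSeries K) Ω (σ i₀ a) := by
    intro a ha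
    induction ha using IntermediateField.adjoin_induction with
    | mem x hx =>
      rw [Set.mem_singleton_iff] at hx
      rw [hx]
      exact hψJ
    | algebraMap c => rw [hψK, hK]
    | add x y _ _ hx hy => rw [map_add, map_add, map_add, hx, hy]
    | inv x _ hx => rw [map_inv₀, map_inv₀, map_inv₀, hx]
    | mul x y _ _ hx hy => rw [map_mul, map_mul, map_mul, hx, hy]
  let ψ' : F →ₐ[K⟮J⟯] Ω :=
    { toRingHom := ψ
      commutes' := fun a => hψa (a : F) a.2 }
  obtain ⟨i, hi⟩ := hbij.2 ψ'
  refine ⟨i, fun f => ?_⟩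
  have h1 : ψ' f = s i f := by rw [hi]
  exact h1

end Complete

end

end Fermat.Agent.S18.CLO
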