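/-
S18 (wave 7), chain CL, piece O, part 2 (helper16): the cusp count for Theorem A.

Setting (that of `Fermat.Agent.S20.RRLite`): `K` algebraically closed, `F` a finite separable
extension of `RatFunc K`.  A finite family `σ i : F →+* K((u))` of embeddings, fixing `K`,
complete over `K(J)` for some `J ∈ K(X)` and permuted by the substitution `u ↦ ζ u` according to
a permutation `ρ`.  Then the numbers of points of `F` over the (finite) centres of the `σ i` add
up to at most the number of cycles of `ρ` (`CLO.sum_rFin_le`), and Theorem A of RR-lite gives the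
Riemann–Hurwitz inequality `CLO.two_add_card_mul_le`.
-/
import Fermat.Agent.S18.CLOrbit

set_option autoImplicit false

namespace Fermat.Agent.S18.CLO

open Polynomial Module WithZero Fermat.Agent.S20.RRLite Fermat.Agent.S24 IntermediateField

noncomputable section

/-! ### Classes of a complete family over an intermediate rational function field -/

section Class

variable {K F : Type*} [Field K] [Field F] [Algebra K F] [Algebra (RatFunc K) F]
  [IsScalarTower K (RatFunc K) F]
  [FiniteDimensional (RatFunc K) F] [Algebra.IsSeparable (RatFunc K) F]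
  {I : Type*} [Fintype I] (σ : I → F →+* LaurentSeries K)

omit [Algebra.IsSeparable (RatFunc K) F] in
/-- **Extension lemma.**  Every embedding of `K(X)` into `K((u))` which fixes `K` and agrees with
the family at `J` is the restriction of a member of the family. -/
theorem exists_of_hom (hσ : Function.Injective σ)
    (hK : ∀ i (c : K), σ i (algebraMap K F c) = HahnSeries.C c)
    (J : F) (x₀ : RatFunc K) (hJ : algebraMap (RatFunc K) F x₀ = J)
    (hagree : ∀ i j, σ i J = σ j J)
    [FiniteDimensional K⟮J⟯ F] [Algebra.IsSeparable K⟮J⟯ F]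
    (hcard : Fintype.card I = finrank K⟮J⟯ F) (i₀ : I)
    (τ₀ : RatFunc K →+* LaurentSeries K)
    (hτK : ∀ c : K, τ₀ (algebraMap K (RatFunc K) c) = HahnSeries.C c)
    (hτJ : τ₀ x₀ = σ i₀ J) :
    ∃ i, ∀ y : RatFunc K, σ i (algebraMap (RatFunc K) F y) = τ₀ y := by
  classical
  let : Algebra (RatFunc K) (AlgebraicClosure (LaurentSeries K)) :=
    ((algebraMap (LaurentSeries K) (AlgebraicClosure (LaurentSeries K))).comp τ₀).toAlgebra
  have halg : Algebra.IsAlgebraic (RatFunc K) F := Algebra.IsAlgebraic.of_finite _ _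
  let ψ : F →ₐ[RatFunc K] AlgebraicClosure (LaurentSeries K) := IsAlgClosed.lift
  have hψ : ∀ y : RatFunc K, ψ (algebraMap (RatFunc K) F y) =
      algebraMap (LaurentSeries K) (AlgebraicClosure (LaurentSeries K)) (τ₀ y) :=
    fun y => ψ.commutes y
  obtain ⟨i, hi⟩ := exists_eq_of_ringHom σ hσ hK J hagree hcard i₀
    (ψ : F →+* AlgebraicClosure (LaurentSeries K))
    (fun c => by
      rw [IsScalarTower.algebraMap_apply K (RatFunc K) F]
      show ψ (algebraMap (RatFunc K) F _) = _
      rw [hψ, hτK])
    (by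
      rw [← hJ]
      show ψ (algebraMap (RatFunc K) F x₀) = _
      rw [hψ, hτJ, hJ])
  refine ⟨i, fun y => ?_⟩
  apply (algebraMap (LaurentSeries K) (AlgebraicClosure (LaurentSeries K))).injective
  have h1 := hi (algebraMap (RatFunc K) F y)
  rw [← hψ y]
  exact h1.symm

/-- **Class lemma.**  The members of the family agreeing with `σ i₀` on `K(X)` are exactly
`[F : K(X)]` in number. -/
theorem exists_class (hσ : Function.Injective σ)
    (hK : ∀ i (c : K), σ i (algebraMap K F c) = HahnSeries.C c)
    (J : F) (hJ : J ∈ Set.range (algebraMap (RatFunc K) F))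
    (hagree : ∀ i j, σ i J = σ j J)
    [FiniteDimensional K⟮J⟯ F] [Algebra.IsSeparable K⟮J⟯ F]
    (hcard : Fintype.card I = finrank K⟮J⟯ F) (i₀ : I) :
    ∃ S : Finset I, i₀ ∈ S ∧ S.card = finrank (RatFunc K) F ∧
      ∀ i ∈ S, ∀ y : RatFunc K,
        σ i (algebraMap (RatFunc K) F y) = σ i₀ (algebraMap (RatFunc K) F y) := by
  classical
  let : Algebra (RatFunc K) (AlgebraicClosure (LaurentSeries K)) :=
    ((algebraMap (LaurentSeries K) (AlgebraicClosure (LaurentSeries K))).comp
      ((σ i₀).comp (algebraMap (RatFunc K) F))).toAlgebra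
  let S : Finset I := Finset.univ.filter
    (fun i => ∀ y : RatFunc K, σ i (algebraMap (RatFunc K) F y) = σ i₀ (algebraMap (RatFunc K) F y))
  have hS : ∀ i, i ∈ S ↔ ∀ y : RatFunc K,
      σ i (algebraMap (RatFunc K) F y) = σ i₀ (algebraMap (RatFunc K) F y) := by
    intro i
    simp only [S, Finset.mem_filter, Finset.mem_univ, true_and]
  refine ⟨S, (hS i₀).mpr fun _ => rfl, ?_, fun i hi => (hS i).mp hi⟩
  let s : ↥S → (F →ₐ[RatFunc K] AlgebraicClosure (LaurentSeries K)) := fun i =>
    { toRingHom := (algebraMap (LaurentSeries K) (AlgebraicClosure (LaurentSeries K))).comp (σ i)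
      commutes' := fun y => by
        show algebraMap (LaurentSeries K) (AlgebraicClosure (LaurentSeries K))
            (σ i (algebraMap (RatFunc K) F y)) =
          algebraMap (LaurentSeries K) (AlgebraicClosure (LaurentSeries K))
            (σ i₀ (algebraMap (RatFunc K) F y))
        rw [(hS i).mp i.2 y] }
  have hs_inj : Function.Injective s := by
    intro i j hij
    apply Subtype.ext
    apply hσ
    ext x : 1
    have h1 : s i x = s j x := by rw [hij]
    exact (algebraMap (LaurentSeries K) (AlgebraicClosure (LaurentSeries K))).injective h1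
  have hs_surj : Function.Surjective s := by
    intro ψ
    obtain ⟨x₀, hx₀⟩ := hJ
    have hψ : ∀ y : RatFunc K, ψ (algebraMap (RatFunc K) F y) =
        algebraMap (LaurentSeries K) (AlgebraicClosure (LaurentSeries K))
          (σ i₀ (algebraMap (RatFunc K) F y)) :=
      fun y => ψ.commutes y
    obtain ⟨i, hi⟩ := exists_eq_of_ringHom σ hσ hK J hagree hcard i₀
      (ψ : F →+* AlgebraicClosure (LaurentSeries K))
      (fun c => by
        rw [IsScalarTower.algebraMap_apply K (RatFunc K) F]
        show ψ (algebraMap (RatFunc K) F _) = _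
        rw [hψ, ← IsScalarTower.algebraMap_apply K (RatFunc K) F, hK])
      (by
        rw [← hx₀]
        show ψ (algebraMap (RatFunc K) F x₀) = _
        rw [hψ])
    have hiS : i ∈ S := by
      rw [hS]
      intro y
      apply (algebraMap (LaurentSeries K) (AlgebraicClosure (LaurentSeries K))).injective
      exact (hi _).symm.trans (hψ y)
    refine ⟨⟨i, hiS⟩, ?_⟩
    apply AlgHom.ext
    intro f
    exact (hi f).symm
  have h1 : Fintype.card ↥S =
      Fintype.card (F →ₐ[RatFunc K] AlgebraicClosure (LaurentSeries K)) :=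
    Fintype.card_of_bijective ⟨hs_inj, hs_surj⟩
  rw [← Fintype.card_coe, h1, AlgHom.card]

end Class

/-! ### Rotation -/

section Rotation

variable {I α : Type*}

/-- A function invariant under `ρ` is constant on the orbits of the cyclic group generated by
`ρ`. -/
theorem eq_of_orbitRel (ρ : Equiv.Perm I) (g : I → α) (hg : ∀ i, g (ρ i) = g i) {i j : I}
    (h : MulAction.orbitRel (Subgroup.zpowers ρ) I i j) : g i = g j := by
  let H : Subgroup (Equiv.Perm I) :=
    { carrier := {p | ∀ j, g (p j) = g j}
      mul_mem' := fun {a b} ha hb j => by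
        show g ((a * b) j) = g j
        rw [Equiv.Perm.mul_apply, ha, hb]
      one_mem' := fun j => rfl
      inv_mem' := fun {p} hp j => by
        have h1 := hp (p⁻¹ j)
        have h2 : p (p⁻¹ j) = j := by
          rw [← Equiv.Perm.mul_apply, mul_inv_cancel, Equiv.Perm.one_apply]
        rw [h2] at h1
        exact h1.symm }
  have hle : Subgroup.zpowers ρ ≤ H := (Subgroup.zpowers_le).mpr hg
  rw [MulAction.orbitRel_apply] at h
  obtain ⟨⟨p, hp⟩, rfl⟩ := h
  exact hle hp j

end Rotation

/-! ### The count -/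

section Count

variable {K F : Type*} [Field K] [Field F] [Algebra K F] [Algebra K[X] F] [Algebra (RatFunc K) F]
  [IsScalarTower K K[X] F] [IsScalarTower K[X] (RatFunc K) F] [IsScalarTower K (RatFunc K) F]
  [FiniteDimensional (RatFunc K) F] [Algebra.IsSeparable (RatFunc K) F]
  {I : Type*} [Fintype I] (σ : I → F →+* LaurentSeries K)

omit [Algebra (RatFunc K) F] [IsScalarTower K[X] (RatFunc K) F] [IsScalarTower K (RatFunc K) F]
  [FiniteDimensional (RatFunc K) F] [Algebra.IsSeparable (RatFunc K) F] [Fintype I] in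
/-- An embedding centred at a finite point is integral on `K[X]`. -/
theorem wL_poly_le_one (hK : ∀ i (c : K), σ i (algebraMap K F c) = HahnSeries.C c) (i : I)
    (a : K) (hi : wL (σ i (algebraMap K[X] F (X - C a))) < 1) (p : K[X]) :
    wL (σ i (algebraMap K[X] F p)) ≤ 1 := by
  have hC : ∀ c : K, σ i (algebraMap K[X] F (C c)) = HahnSeries.C c := by
    intro c
    rw [← Polynomial.algebraMap_eq, ← IsScalarTower.algebraMap_apply K K[X] F, hK]
  have hX : wL (σ i (algebraMap K[X] F X)) ≤ 1 := by
    have h1 : (X : K[X]) = (X - C a) + C a := by ring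
    rw [h1, map_add, map_add]
    refine (Valuation.map_add _ _ _).trans (max_le hi.le ?_)
    rw [hC]
    exact wL_C_le_one a
  induction p using Polynomial.induction_on' with
  | add p q hp hq =>
    rw [map_add, map_add]
    exact (Valuation.map_add _ _ _).trans (max_le hp hq)
  | monomial n c =>
    rw [← C_mul_X_pow_eq_monomial, map_mul, map_mul, map_pow, map_pow, map_mul, map_pow, hC]
    exact mul_le_one' (wL_C_le_one c) (pow_le_one' hX n)

/-- **The number of points over a finite centre** is at most the number of rotation classes of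
embeddings with that centre. -/
theorem rFin_le_card [IsAlgClosed K] (hσ : Function.Injective σ)
    (hK : ∀ i (c : K), σ i (algebraMap K F c) = HahnSeries.C c)
    (ρ : Equiv.Perm I) (ζ : K) (hζ : ζ ≠ 0)
    (hrot : ∀ (i : I) (f : F) (n : ℤ), (σ (ρ i) f).coeff n = ζ ^ n * (σ i f).coeff n)
    (J : F) (hJ : J ∈ Set.range (algebraMap (RatFunc K) F))
    (hagree : ∀ i j, σ i J = σ j J)
    [FiniteDimensional K⟮J⟯ F] [Algebra.IsSeparable K⟮J⟯ F]
    (hcard : Fintype.card I = finrank K⟮J⟯ F)
    (a : K) (i₀ : I) (ha : wL (σ i₀ (algebraMap K[X] F (X - C a))) < 1) :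
    rFin K F a ≤ Nat.card {q : MulAction.orbitRel.Quotient (Subgroup.zpowers ρ) I //
      wL (σ q.out (algebraMap K[X] F (X - C a))) < 1} := by
  classical
  have hw : ∀ (f : F) (i : I), wL (σ (ρ i) f) = wL (σ i f) := fun f i =>
    wL_eq_of_coeff fun n => by
      rw [hrot, mul_eq_zero]
      exact ⟨fun h => h.resolve_left (zpow_ne_zero n hζ), Or.inr⟩
  have hc0 : ∀ (f : F) (i : I), (σ (ρ i) f).coeff 0 = (σ i f).coeff 0 := fun f i => by
    rw [hrot, zpow_zero, one_mul]
  have hwq : ∀ (f : F) (i : I),
      wL (σ (Quotient.mk (MulAction.orbitRel (Subgroup.zpowers ρ) I) i).out f) = wL (σ i f) :=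
    fun f i => eq_of_orbitRel ρ (fun i => wL (σ i f)) (hw f) (Quotient.mk_out i)
  have hcq : ∀ (f : F) (i : I),
      (σ (Quotient.mk (MulAction.orbitRel (Subgroup.zpowers ρ) I) i).out f).coeff 0
        = (σ i f).coeff 0 :=
    fun f i => eq_of_orbitRel ρ (fun i => (σ i f).coeff 0) (hc0 f) (Quotient.mk_out i)
  haveI : Fintype {q : MulAction.orbitRel.Quotient (Subgroup.zpowers ρ) I //
      wL (σ q.out (algebraMap K[X] F (X - C a))) < 1} := Fintype.ofFinite _
  let φ : ↥(B0K K F) →ₗ[K] ({q : MulAction.orbitRel.Quotient (Subgroup.zpowers ρ) I //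
      wL (σ q.out (algebraMap K[X] F (X - C a))) < 1} → K) :=
    { toFun := fun b q => (σ q.1.out (b : F)).coeff 0
      map_add' := fun b c => by
        ext q
        show (σ q.1.out ((b : F) + (c : F))).coeff 0 = _
        rw [map_add, HahnSeries.coeff_add]
        rfl
      map_smul' := fun c b => by
        ext q
        show (σ q.1.out (c • (b : F))).coeff 0 = c • (σ q.1.out (b : F)).coeff 0
        rw [Algebra.smul_def, map_mul, hK, HahnSeries.C_mul_eq_smul, HahnSeries.coeff_smul] }
  have h1 := rFin_le (K := K) (F := F) a φ ?_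
  · rw [Module.finrank_fintype_fun_eq_card] at h1
    rw [Nat.card_eq_fintype_card]
    exact h1
  · intro b hb
    rw [mem_Rad0]
    obtain ⟨S, -, hScard, hSagree⟩ := exists_class σ hσ hK J hJ hagree hcard i₀
    have hSa : ∀ i ∈ S, wL (σ i (algebraMap K[X] F (X - C a))) < 1 := by
      intro i hi
      rw [IsScalarTower.algebraMap_apply K[X] (RatFunc K) F, hSagree i hi,
        ← IsScalarTower.algebraMap_apply K[X] (RatFunc K) F]
      exact ha
    refine isNilMod_of_coeff K F K[X] (X - C a)
      (PrincipalIdealRing.isMaximal_of_irreducible (irreducible_X_sub_C a)) (X_sub_C_ne_zero a)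
      (fun j : ↥S => σ j) (fun i j hij => Subtype.ext (hσ hij))
      (by rw [Fintype.card_coe, hScard])
      (fun i j y => by rw [hSagree i i.2, hSagree j j.2])
      (fun i p => wL_poly_le_one σ hK i a (hSa i i.2) p)
      (fun i => hSa i i.2) (b : F) b.2 ?_
    intro i
    have hP : wL (σ (Quotient.mk (MulAction.orbitRel (Subgroup.zpowers ρ) I) (i : I)).out
        (algebraMap K[X] F (X - C a))) < 1 := by
      rw [hwq]
      exact hSa i i.2
    have h2 := congrFun hb ⟨_, hP⟩
    rw [← hcq]
    exact h2

/-- **The cusp count**: the numbers of points of `F` over the finite centres of the embeddings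
add up to at most the number of cycles of the rotation. -/
theorem sum_rFin_le [IsAlgClosed K] (hσ : Function.Injective σ)
    (hK : ∀ i (c : K), σ i (algebraMap K F c) = HahnSeries.C c)
    (ρ : Equiv.Perm I) (ζ : K) (hζ : ζ ≠ 0)
    (hrot : ∀ (i : I) (f : F) (n : ℤ), (σ (ρ i) f).coeff n = ζ ^ n * (σ i f).coeff n)
    (J : F) (hJ : J ∈ Set.range (algebraMap (RatFunc K) F))
    (hagree : ∀ i j, σ i J = σ j J)
    [FiniteDimensional K⟮J⟯ F] [Algebra.IsSeparable K⟮J⟯ F]
    (hcard : Fintype.card I = finrank K⟮J⟯ F)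
    (T : Finset K)
    (hT : ∀ a ∈ T, ∃ i, 0 < (σ i (algebraMap K[X] F (X - C a))).order) :
    ∑ a ∈ T, rFin K F a ≤ cyc ρ := by
  classical
  haveI : Fintype (MulAction.orbitRel.Quotient (Subgroup.zpowers ρ) I) := Fintype.ofFinite _
  let Zq : K → Finset (MulAction.orbitRel.Quotient (Subgroup.zpowers ρ) I) := fun a =>
    Finset.univ.filter (fun q => wL (σ q.out (algebraMap K[X] F (X - C a))) < 1)
  have h1 : ∀ a ∈ T, rFin K F a ≤ (Zq a).card := by
    intro a ha
    obtain ⟨i, hi⟩ := hT a ha
    have h2 := rFin_le_card σ hσ hK ρ ζ hζ hrot J hJ hagree hcard a i (wL_lt_one_of_order hi)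
    rw [Nat.card_eq_fintype_card, Fintype.card_subtype] at h2
    exact h2
  have hdisj : ∀ a ∈ T, ∀ a' ∈ T, a ≠ a' → Disjoint (Zq a) (Zq a') := by
    intro a _ a' _ hne
    rw [Finset.disjoint_left]
    intro q hq hq'
    rw [Finset.mem_filter] at hq hq'
    have h2 : wL (σ q.out (algebraMap K[X] F (C (a' - a)))) < 1 := by
      have h3 : (C (a' - a) : K[X]) = (X - C a) - (X - C a') := by
        rw [C_sub]
        ring
      rw [h3, map_sub, map_sub]
      exact lt_of_le_of_lt (Valuation.map_sub _ _ _) (max_lt hq.2 hq'.2)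
    have h4 := coeff_zero_of_wL_lt_one h2
    rw [← Polynomial.algebraMap_eq, ← IsScalarTower.algebraMap_apply K K[X] F, hK,
      HahnSeries.C_apply, HahnSeries.coeff_single_same] at h4
    exact hne (sub_eq_zero.mp h4).symm
  calc ∑ a ∈ T, rFin K F a ≤ ∑ a ∈ T, (Zq a).card := Finset.sum_le_sum h1
    _ = (T.biUnion Zq).card := (Finset.card_biUnion hdisj).symm
    _ ≤ Fintype.card (MulAction.orbitRel.Quotient (Subgroup.zpowers ρ) I) :=
        Finset.card_le_univ _
    _ = cyc ρ := by rw [cyc, Nat.card_eq_fintype_card]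

/-- **CL-O, final form**: the Riemann–Hurwitz inequality of RR-lite Theorem A with the cusp
count. -/
theorem two_add_card_mul_le [IsAlgClosed K] (hσ : Function.Injective σ)
    (hK : ∀ i (c : K), σ i (algebraMap K F c) = HahnSeries.C c)
    (ρ : Equiv.Perm I) (ζ : K) (hζ : ζ ≠ 0)
    (hrot : ∀ (i : I) (f : F) (n : ℤ), (σ (ρ i) f).coeff n = ζ ^ n * (σ i f).coeff n)
    (J : F) (hJ : J ∈ Set.range (algebraMap (RatFunc K) F))
    (hagree : ∀ i j, σ i J = σ j J)
    [FiniteDimensional K⟮J⟯ F] [Algebra.IsSeparable K⟮J⟯ F]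
    (hcard : Fintype.card I = finrank K⟮J⟯ F)
    (T : Finset K)
    (hT : ∀ a ∈ T, ∃ i, 0 < (σ i (algebraMap K[X] F (X - C a))).order) :
    2 + T.card * finrank (RatFunc K) F
      ≤ 2 * finrank K (Omega K F) + 2 * finrank (RatFunc K) F + cyc ρ := by
  have hA := (theoremA K F T).2
  have hs := sum_rFin_le σ hσ hK ρ ζ hζ hrot J hJ hagree hcard T hT
  have h3 : T.card * finrank (RatFunc K) F
      ≤ ∑ a ∈ T, (finrank (RatFunc K) F - rFin K F a) + ∑ a ∈ T, rFin K F a := by
    rw [← Finset.sum_add_distrib, Finset.card_eq_sum_ones, Finset.sum_mul]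
    refine Finset.sum_le_sum fun a _ => ?_
    omega
  omega

end Count

end

end Fermat.Agent.S18.CLO
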