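import Fermat.Agent.S20.RRLite.Main
import Fermat.Agent.S20.RRLite.Wrap
import Fermat.Agent.S18.PSep

/-!
# S18, chain SQ: the Riemann genus is at least `dim_K Omega` (any characteristic)

`K` algebraically closed, `F` finite separable over `K(x)`.  On the lattice side (RR-lite,
`S20/RRLite`) the space `Omega K F` of regular differentials `h dX` has dimension
`h¹(B0, Binf)`.  We prove that for `l` large the Riemann–Roch space of `l` times the pole divisor
of `x` has dimension at most `l n + 1 - dim Omega` (`n = [F : K(x)]`), so that every "Riemann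
genus" `g` of `F` (a constant with `ℓ(D) = deg D + 1 - g` for all divisors of large degree)
satisfies `dim_K Omega ≤ g`.
-/

set_option autoImplicit false

open Polynomial Module AlgebraicCurve IsDedekindDomain IntermediateField

namespace Fermat.Agent.S18.SQO

open Fermat.Agent.S20.RRLite Fermat.Agent.S24

noncomputable section

/-! ### Lattice side -/

section Lattice

variable (K : Type*) {F : Type*} [Field K] [Field F] [Algebra K F] [Algebra K[X] F]
  [Algebra (RatFunc K) F] [IsScalarTower K K[X] F] [IsScalarTower K[X] (RatFunc K) F]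
  [IsScalarTower K (RatFunc K) F]

variable {ι ι' : Type*}

/-- The basis `X ^ l • u`. -/
def up (l : ℕ) (u : Basis ι (RatFunc K) F) : Basis ι (RatFunc K) F :=
  scale K (RatFunc.X ^ l) (pow_ne_zero _ RatFunc.X_ne_zero) u

omit [Algebra K[X] F] [IsScalarTower K K[X] F] [IsScalarTower K[X] (RatFunc K) F] in
theorem mem_Linf_up {l : ℕ} {u : Basis ι (RatFunc K) F} {f : F} :
    f ∈ Linf K (up K l u) ↔ ∀ i, (RatFunc.X : RatFunc K)⁻¹ ^ l * u.repr f i ∈ Oinf K := by
  rw [mem_Linf]
  refine forall_congr' fun i => ?_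
  rw [up, scale_repr, inv_pow]

omit [Algebra K[X] F] [IsScalarTower K K[X] F] [IsScalarTower K[X] (RatFunc K) F] in
theorem mem_Linf_up_iff {l : ℕ} {u : Basis ι (RatFunc K) F} {f : F} :
    f ∈ Linf K (up K l u) ↔ ((RatFunc.X : RatFunc K)⁻¹ ^ l) • f ∈ Linf K u := by
  rw [mem_Linf_up, mem_Linf]
  refine forall_congr' fun i => ?_
  rw [map_smul, Finsupp.smul_apply, smul_eq_mul]

omit [Algebra K[X] F] [IsScalarTower K K[X] F] [IsScalarTower K[X] (RatFunc K) F] in
theorem Linf_le_up (l : ℕ) (u : Basis ι (RatFunc K) F) : Linf K u ≤ Linf K (up K l u) := by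
  intro f hf
  rw [mem_Linf_up_iff]
  exact smul_mem_Linf K hf (X_inv_pow_mem_Oinf K l)

omit [Algebra K[X] F] [IsScalarTower K K[X] F] [IsScalarTower K[X] (RatFunc K) F] in
/-- `dim_K (X ^ l Binf / Binf) ≤ l n`. -/
theorem relDim_up_le [Fintype ι] (l : ℕ) (u : Basis ι (RatFunc K) F) :
    relDim (Linf K u) (Linf K (up K l u)) ≤ l * Fintype.card ι := by
  let ψ : ↥(Linf K (up K l u)) →ₗ[K] (ι → (Fin l → K)) :=
    (LinearMap.pi fun i => (LinearMap.pi fun k : Fin l => coeffInf K (-((k : ℕ) : ℤ) - 1)) ∘ₗ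
      ((Finsupp.lapply i ∘ₗ u.repr.toLinearMap).restrictScalars K)) ∘ₗ
        (Linf K (up K l u)).subtype
  have hψ : ∀ (f : Linf K (up K l u)) (i : ι) (k : Fin l), ψ f i k =
      (expInf K (u.repr (f : F) i)).coeff (-((k : ℕ) : ℤ) - 1) := fun f i k => rfl
  have := (relDim_le_of_ker_le (Linf K u) (Linf K (up K l u)) ψ (by
    intro f hf
    rw [mem_Linf]
    intro i
    rw [mem_Oinf_iff]
    intro m hm
    have hf' := (mem_Linf_up K).mp f.2 i
    by_cases h : m < -(l : ℤ)
    · have := (mem_Oinf_iff K).mp hf' (m + l) (by omega)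
      rwa [coeff_expInf_X_inv_pow_mul, add_sub_cancel_right] at this
    · have hk : (-m - 1).toNat < l := by omega
      have hi := congrFun (congrFun hf i) ⟨(-m - 1).toNat, hk⟩
      rw [hψ] at hi
      have hm' : -(((⟨(-m - 1).toNat, hk⟩ : Fin l) : ℕ) : ℤ) - 1 = m := by
        show -(((-m - 1).toNat : ℕ) : ℤ) - 1 = m
        omega
      rw [hm'] at hi
      exact hi)).2
  rw [Module.finrank_pi_fintype] at this
  simpa [mul_comm] using this

section Final

variable [FiniteDimensional (RatFunc K) F] [Algebra.IsSeparable (RatFunc K) F]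

variable [Fintype ι] [DecidableEq ι] [Fintype ι'] [DecidableEq ι']

omit [FiniteDimensional (RatFunc K) F] [Algebra.IsSeparable (RatFunc K) F] [DecidableEq ι']
  [DecidableEq ι] in
/-- For `l` large, `B0 + X ^ l Binf = F`. -/
theorem exists_sup_up_eq_top (e : Basis ι (RatFunc K) F) (u : Basis ι' (RatFunc K) F) :
    ∃ b : ℕ, ∀ l, b ≤ l → L0 K e ⊔ Linf K (up K l u) = ⊤ := by
  classical
  obtain ⟨b, hb⟩ := Fermat.Agent.S20.RRLite.exists_bound K e u
  refine ⟨b, fun l hl => ?_⟩
  have hb0 : ∀ i, ((RatFunc.X : RatFunc K)⁻¹ ^ 0) • e i ∈ Linf K (up K l u) := by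
    intro i
    rw [pow_zero, one_smul, mem_Linf_up_iff]
    obtain ⟨d, rfl⟩ := Nat.exists_eq_add_of_le hl
    rw [pow_add, mul_comm, mul_smul]
    exact smul_mem_Linf K (hb i) (X_inv_pow_mem_Oinf K d)
  rw [eq_top_iff]
  intro f _
  have := sub_mem_sup K e (up K l u) 0 hb0 f
  simpa using this

/-- **Lattice Riemann, upper bound**: for `l` large,
`dim (B0 ∩ X ^ l Binf) + dim Omega ≤ l n + 1`. -/
theorem exists_finrank_inf_up_le [IsAlgClosed K] (e : Basis ι (RatFunc K) F)
    (u : Basis ι' (RatFunc K) F) (he : L0 K e = B0K K F) (hu : Linf K u = BinfK K F) :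
    ∃ b : ℕ, ∀ l, b ≤ l → Module.Finite K ↥(L0 K e ⊓ Linf K (up K l u)) ∧
      finrank K ↥(L0 K e ⊓ Linf K (up K l u)) + finrank K (Omega K F)
        ≤ l * Fintype.card ι' + 1 := by
  obtain ⟨b, hb⟩ := exists_sup_up_eq_top K e u
  refine ⟨b, fun l hl => ?_⟩
  obtain ⟨f1, f1', D1⟩ := duality K e u
  obtain ⟨-, f2', -⟩ := duality K e.traceDual (twist K (up K l u))
  rw [Basis.traceDual_traceDual, Linf_twist_twist] at f2'
  obtain ⟨g, U⟩ := chi_add' (L0 K e) (Linf K u) (Linf K (up K l u)) (Linf_le_up K l u)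
  have a1 : finrank K ↥(L0 K e ⊓ Linf K u) = 1 := by
    rw [he, hu]; exact finrank_B0K_inf_BinfK K F
  have a0 : finrank K (F ⧸ (L0 K e ⊔ Linf K (up K l u))) = 0 := by
    have hsub : Subsingleton (F ⧸ (L0 K e ⊔ Linf K (up K l u))) := by
      rw [Submodule.Quotient.subsingleton_iff]
      exact hb l hl
    exact finrank_zero_of_subsingleton
  have hΩ : finrank K (Omega K F) = finrank K (F ⧸ (L0 K e ⊔ Linf K u)) := by
    rw [Omega_eq e u he hu]; exact D1
  have hrel := relDim_up_le K l u
  refine ⟨f2', ?_⟩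
  omega

end Final

end Lattice

/-! ### Dictionary: Riemann–Roch spaces of multiples of the pole divisor of `x` -/

section Dict

variable (K F : Type*) [Field K] [Field F] [Algebra K F] [Algebra K[X] F] [Algebra (RatFunc K) F]
  [IsScalarTower K K[X] F] [IsScalarTower K[X] (RatFunc K) F] [IsScalarTower K (RatFunc K) F]
  [FiniteDimensional (RatFunc K) F] [Algebra.IsSeparable (RatFunc K) F]

omit [IsScalarTower K (RatFunc K) F] in
/-- An element which is regular at every place where `x` is regular is integral over `K[X]`. -/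
theorem isIntegral_poly_of_forall_mem (x : F) (hxX : algebraMap K[X] F X = x) {f : F}
    (h : ∀ v : Place K F, x ∈ v.toValuationSubring → f ∈ v.toValuationSubring) :
    IsIntegral K[X] f := by
  have : IsDedekindDomain (integralClosure K[X] F) :=
    integralClosure.isDedekindDomain K[X] (RatFunc K) F
  have : IsFractionRing (integralClosure K[X] F) F :=
    integralClosure.isFractionRing_of_finite_extension (RatFunc K) F
  have hK : ∀ c : K, ∃ b : integralClosure K[X] F,
      algebraMap (integralClosure K[X] F) F b = algebraMap K F c := fun c =>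
    ⟨algebraMap K[X] (integralClosure K[X] F) (algebraMap K K[X] c), by
      rw [IsScalarTower.algebraMap_apply K K[X] F]
      rfl⟩
  have hmem : ∀ P : HeightOneSpectrum (integralClosure K[X] F), P.valuation F f ≤ 1 := by
    intro P
    have hx : x ∈ (Places.ofPrime hK P).toValuationSubring := by
      rw [Places.mem_ofPrime_iff, ← hxX]
      exact P.valuation_le_one (algebraMap K[X] (integralClosure K[X] F) X)
    exact (Places.mem_ofPrime_iff hK P f).mp (h _ hx)
  obtain ⟨b, hb⟩ := HeightOneSpectrum.mem_integers_of_valuation_le_one F f hmem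
  rw [← hb]
  exact b.2

omit [IsScalarTower K K[X] F] in
/-- An element which is regular at every pole of `x` is integral over the valuation ring at
infinity. -/
theorem isIntegral_Oinf_of_forall_mem (x : F) (hxX : algebraMap K[X] F X = x) (hx0 : x ≠ 0)
    {g : F} (h : ∀ v : Place K F, v.ord x < 0 → g ∈ v.toValuationSubring) :
    IsIntegral (Oinf K) g := by
  have hXinv : algebraMap (Oinf K) F (XinvO K) = x⁻¹ := by
    rw [IsScalarTower.algebraMap_apply (Oinf K) (RatFunc K) F]
    show algebraMap (RatFunc K) F (RatFunc.X)⁻¹ = _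
    rw [map_inv₀, ← RatFunc.algebraMap_X, ← IsScalarTower.algebraMap_apply, hxX]
  have hDed : IsDedekindDomain (integralClosure (Oinf K) F) :=
    integralClosure.isDedekindDomain (Oinf K) (RatFunc K) F
  have hFrac : IsFractionRing (integralClosure (Oinf K) F) F :=
    integralClosure.isFractionRing_of_finite_extension (RatFunc K) F
  have hK0 : ∀ a : K, IsIntegral (Oinf K) (algebraMap K F a) := by
    intro a
    rw [IsScalarTower.algebraMap_apply K (Oinf K) F]
    exact isIntegral_algebraMap
  have hK : ∀ a : K, ∃ b : integralClosure (Oinf K) F,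
      algebraMap (integralClosure (Oinf K) F) F b = algebraMap K F a := fun a =>
    ⟨⟨_, hK0 a⟩, rfl⟩
  have hmem : ∀ P : HeightOneSpectrum (integralClosure (Oinf K) F), P.valuation F g ≤ 1 := by
    intro P
    set t' : integralClosure (Oinf K) F :=
      algebraMap (Oinf K) (integralClosure (Oinf K) F) (XinvO K) with ht'
    have ht'F : algebraMap (integralClosure (Oinf K) F) F t' = x⁻¹ :=
      (show algebraMap (integralClosure (Oinf K) F) F t' = algebraMap (Oinf K) F (XinvO K)
        from rfl).trans hXinv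
    have ht'0 : t' ≠ 0 := by
      intro h0
      rw [h0, map_zero] at ht'F
      exact inv_ne_zero hx0 ht'F.symm
    have htP : t' ∈ P.asIdeal := by
      -- the contraction of `P` is the maximal ideal of `Oinf`
      obtain ⟨y, hyP, hy0⟩ := Submodule.exists_mem_ne_zero_of_ne_bot P.ne_bot
      have hne : P.asIdeal.comap (algebraMap (Oinf K) (integralClosure (Oinf K) F)) ≠ ⊥ :=
        Ideal.comap_ne_bot_of_integral_mem hy0 hyP (Algebra.IsIntegral.isIntegral y)
      have hprime :
          (P.asIdeal.comap (algebraMap (Oinf K) (integralClosure (Oinf K) F))).IsPrime :=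
        Ideal.comap_isPrime _ _
      have hmax := hprime.isMaximal hne
      have heq := IsLocalRing.eq_maximalIdeal hmax
      have : XinvO K ∈ P.asIdeal.comap (algebraMap (Oinf K) (integralClosure (Oinf K) F)) := by
        rw [heq, (irreducible_XinvO K).maximalIdeal_eq]
        exact Ideal.mem_span_singleton_self _
      exact this
    have hv : (Places.ofPrime hK P).ord x < 0 := by
      have h1 := (Places.ord_pos_iff_mem hK P ht'0).mpr htP
      rw [ht'F, Place.ord_inv] at h1
      omega
    exact (Places.mem_ofPrime_iff hK P g).mp (h _ hv)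
  obtain ⟨b, hb⟩ := HeightOneSpectrum.mem_integers_of_valuation_le_one F g hmem
  rw [← hb]
  exact b.2

/-- **Reverse dictionary**, element form: an element of the Riemann–Roch space of `l` times the
pole divisor of `x` is integral over `K[X]`, and `x⁻ˡ` times it is integral over `Oinf`. -/
theorem isIntegral_of_mem_rr (x : F) (hxX : algebraMap K[X] F X = x) (hx0 : x ≠ 0) (l : ℕ)
    (D : Divisor K F) (hD : ∀ v : Place K F, D v = l * max (-v.ord x) 0) {f : F}
    (hf : f ∈ riemannRochSpace D) :
    IsIntegral K[X] f ∧ IsIntegral (Oinf K) ((x⁻¹) ^ l * f) := by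
  rw [mem_riemannRochSpace_iff] at hf
  by_cases hf0 : f = 0
  · rw [hf0, mul_zero]
    exact ⟨isIntegral_zero, isIntegral_zero⟩
  refine ⟨?_, ?_⟩
  · apply isIntegral_poly_of_forall_mem K F x hxX
    intro v hxv
    have h1 : 0 ≤ v.ord x := (Places.mem_iff_ord_nonneg v hx0).mp hxv
    have h0 := (hf v).resolve_left hf0
    rw [hD v, max_eq_right (by omega), mul_zero, neg_zero] at h0
    exact (Places.mem_iff_ord_nonneg v hf0).mpr h0
  · apply isIntegral_Oinf_of_forall_mem K F x hxX hx0
    intro v hv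
    have hne : (x⁻¹) ^ l * f ≠ 0 := mul_ne_zero (pow_ne_zero _ (inv_ne_zero hx0)) hf0
    rw [Places.mem_iff_ord_nonneg v hne, v.ord_mul (pow_ne_zero _ (inv_ne_zero hx0)) hf0,
      ← zpow_natCast, v.ord_zpow, v.ord_inv]
    have h0 := (hf v).resolve_left hf0
    rw [hD v, max_eq_left (by omega)] at h0
    linarith

/-- **Reverse dictionary**: the Riemann–Roch space of `l` times the pole divisor of `x` lies in
`B0 ∩ X ^ l Binf`. -/
theorem rr_le_inf_up (x : F) (hxX : algebraMap K[X] F X = x) (hx0 : x ≠ 0) {ι' : Type*}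
    (u : Basis ι' (RatFunc K) F) (hu : Linf K u = BinfK K F) (l : ℕ) (D : Divisor K F)
    (hD : ∀ v : Place K F, D v = l * max (-v.ord x) 0) :
    riemannRochSpace D ≤ B0K K F ⊓ Linf K (up K l u) := by
  intro f hf
  obtain ⟨h1, h2⟩ := isIntegral_of_mem_rr K F x hxX hx0 l D hD hf
  refine Submodule.mem_inf.mpr ⟨h1, ?_⟩
  rw [mem_Linf_up_iff, hu, mem_BinfK]
  have hsm : ((RatFunc.X : RatFunc K)⁻¹ ^ l) • f = (x⁻¹) ^ l * f := by
    rw [Algebra.smul_def, map_pow, map_inv₀, ← RatFunc.algebraMap_X,
      ← IsScalarTower.algebraMap_apply, hxX]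
  rw [hsm]
  exact h2

/-- **Riemann–Roch spaces of large multiples of the pole divisor of `x`**, instance form:
for `l` large, `ℓ(l (x)_∞) + dim Omega ≤ l n + 1`. -/
theorem exists_finrank_rr_le_aux [IsAlgClosed K] (x : F) (hxX : algebraMap K[X] F X = x)
    (hx0 : x ≠ 0) :
    ∃ b : ℕ, ∀ l, b ≤ l → ∀ D : Divisor K F, (∀ v : Place K F, D v = l * max (-v.ord x) 0) →
      finrank K (riemannRochSpace D) + finrank K (Omega K F)
        ≤ l * finrank (RatFunc K) F + 1 := by
  classical
  obtain ⟨n, e, he⟩ := exists_basis_B0 K F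
  obtain ⟨m, u, hu⟩ := exists_basis_Binf K F
  obtain ⟨b, hb⟩ := exists_finrank_inf_up_le K e u he hu
  have hm : finrank (RatFunc K) F = m := by
    rw [Module.finrank_eq_card_basis u, Fintype.card_fin]
  refine ⟨b, fun l hl D hD => ?_⟩
  obtain ⟨hfin, hle⟩ := hb l hl
  have hsub := rr_le_inf_up K F x hxX hx0 u hu l D hD
  rw [← he] at hsub
  have h1 : finrank K (riemannRochSpace D) ≤ finrank K ↥(L0 K e ⊓ Linf K (up K l u)) :=
    Submodule.finrank_mono hsub
  rw [Fintype.card_fin] at hle
  rw [hm]
  omega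

end Dict

/-! ### The statements for a transcendental `x` (RR-lite `Wrap` instances) -/

section Wrapped

variable {K F : Type*} [Field K] [Field F] [Algebra K F]

/-- Separability of `F / K(X)` from separability of `F / K(x)`. -/
theorem isSeparable_rat (x : F) (hx : Transcendental K x) [Algebra.IsSeparable K⟮x⟯ F] :
    letI := Wrap.ratAlgebra x hx
    Algebra.IsSeparable (RatFunc K) F := by
  let _ := Wrap.ratAlgebra x hx
  have hc' : (algebraMap (RatFunc K) F).comp
      (RatFunc.algEquivOfTranscendental x hx).symm.toRingEquiv.toRingHom =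
      (RingEquiv.refl F).toRingHom.comp (algebraMap K⟮x⟯ F) := by
    ext u
    show Wrap.ratHom x hx ((RatFunc.algEquivOfTranscendental x hx).symm u) = (u : F)
    rw [Wrap.ratHom_eq_algEquiv, AlgEquiv.apply_symm_apply]
  exact Algebra.IsSeparable.of_equiv_equiv
    (RatFunc.algEquivOfTranscendental x hx).symm.toRingEquiv (RingEquiv.refl F) hc'

/-- The pole divisor of a separating element; its degree is `[F : K(x)]`. -/
theorem exists_poleDivisor [IsAlgClosed K] (x : F) (hx : Transcendental K x)
    [FiniteDimensional K⟮x⟯ F] [Algebra.IsSeparable K⟮x⟯ F] :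
    ∃ J : Divisor K F, (∀ v : Place K F, J v = max (-v.ord x) 0) ∧
      Divisor.degree J = (finrank K⟮x⟯ F : ℤ) := by
  classical
  obtain ⟨hP, hPsum⟩ := PSep.sum_ord_poles x hx
  let J : Divisor K F := Finsupp.onFinset hP.toFinset (fun v => max (-v.ord x) 0)
    (fun v hv => by
      simp only [Set.Finite.mem_toFinset, Set.mem_ofPred_eq]
      by_contra h
      exact hv (max_eq_right (by omega)))
  refine ⟨J, fun v => rfl, ?_⟩
  have hdeg : Divisor.degree J = ∑ v ∈ hP.toFinset, max (-v.ord x) 0 := by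
    show (Finsupp.liftAddHom fun v : Place K F => AddMonoidHom.mulRight (v.deg : ℤ)) J = _
    rw [Finsupp.liftAddHom_apply, Finsupp.onFinset_sum _ (fun v => by simp)]
    refine Finset.sum_congr rfl fun v _ => ?_
    simp [Places.deg_one x v]
  have h2 : ∑ v ∈ hP.toFinset, max (-v.ord x) 0 = ∑ v ∈ hP.toFinset, -v.ord x := by
    refine Finset.sum_congr rfl fun v hv => ?_
    rw [Set.Finite.mem_toFinset] at hv
    have hv' : v.ord x < 0 := hv
    exact max_eq_left (by omega)
  rw [hdeg, h2, Finset.sum_neg_distrib, ← finsum_mem_eq_finite_toFinset_sum _ hP, hPsum, neg_neg]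

/-- **Riemann–Roch spaces of large multiples of the pole divisor of `x`** (any characteristic):
for `l` large, `ℓ(l (x)_∞) + dim_K Omega ≤ l [F : K(x)] + 1`. -/
theorem exists_finrank_rr_le [IsAlgClosed K] (x : F) (hx : Transcendental K x)
    [FiniteDimensional K⟮x⟯ F] [Algebra.IsSeparable K⟮x⟯ F] :
    letI := Wrap.polyAlgebra (K := K) x
    letI := Wrap.ratAlgebra x hx
    haveI := Wrap.tower_poly (K := K) x
    haveI := (Wrap.tower_rat x hx).1
    haveI := (Wrap.tower_rat x hx).2
    ∃ b : ℕ, ∀ l, b ≤ l → ∀ D : Divisor K F, (∀ v : Place K F, D v = l * max (-v.ord x) 0) →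
      finrank K (riemannRochSpace D) + finrank K (Omega K F) ≤ l * finrank K⟮x⟯ F + 1 := by
  let _ := Wrap.polyAlgebra (K := K) x
  let _ := Wrap.ratAlgebra x hx
  have := Wrap.tower_poly (K := K) x
  have := (Wrap.tower_rat x hx).1
  have := (Wrap.tower_rat x hx).2
  obtain ⟨hfd, hrank⟩ := Wrap.finrank_eq x hx
  have := isSeparable_rat x hx
  have hx0 : x ≠ 0 := fun h0 => hx (h0 ▸ isAlgebraic_zero)
  rw [← hrank]
  exact exists_finrank_rr_le_aux K F x (Polynomial.aeval_X x) hx0

/-- **The Riemann genus is at least `dim_K Omega`** (any characteristic): if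
`ℓ(D) = deg D + 1 - g` for all divisors of degree at least `c`, then `dim_K Omega ≤ g`. -/
theorem omega_le_genus [IsAlgClosed K] (x : F) (hx : Transcendental K x)
    [FiniteDimensional K⟮x⟯ F] [Algebra.IsSeparable K⟮x⟯ F] (g c : ℤ)
    (h : ∀ D : Divisor K F, c ≤ Divisor.degree D →
      (Fermat.Agent.S20.RR.ell D : ℤ) = Divisor.degree D + 1 - g) :
    letI := Wrap.polyAlgebra (K := K) x
    letI := Wrap.ratAlgebra x hx
    haveI := Wrap.tower_poly (K := K) x
    haveI := (Wrap.tower_rat x hx).1
    haveI := (Wrap.tower_rat x hx).2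
    (finrank K (Omega K F) : ℤ) ≤ g := by
  let _ := Wrap.polyAlgebra (K := K) x
  let _ := Wrap.ratAlgebra x hx
  have := Wrap.tower_poly (K := K) x
  have := (Wrap.tower_rat x hx).1
  have := (Wrap.tower_rat x hx).2
  obtain ⟨b, hb⟩ := exists_finrank_rr_le x hx
  obtain ⟨J, hJ, hJdeg⟩ := exists_poleDivisor x hx
  have hn : 0 < finrank K⟮x⟯ F := Module.finrank_pos
  set l : ℕ := max b c.toNat with hl
  have hD : ∀ v : Place K F, (l • J) v = l * max (-v.ord x) 0 := fun v => by
    rw [Finsupp.smul_apply, hJ v, nsmul_eq_mul]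
  have hdeg : Divisor.degree (l • J) = l * finrank K⟮x⟯ F := by
    rw [map_nsmul, hJdeg, nsmul_eq_mul]
  have h1 := hb l (le_max_left _ _) (l • J) hD
  have hcl : c ≤ (l : ℤ) :=
    le_trans (Int.self_le_toNat c) (by exact_mod_cast le_max_right b c.toNat)
  have hc : c ≤ Divisor.degree (l • J) := by
    rw [hdeg]
    have hn' : (1 : ℤ) ≤ (finrank K⟮x⟯ F : ℤ) := by exact_mod_cast hn
    have hl0 : (0 : ℤ) ≤ (l : ℤ) := Int.natCast_nonneg l
    nlinarith
  have h2 := h (l • J) hc
  rw [hdeg] at h2
  unfold Fermat.Agent.S20.RR.ell at h2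
  have h1' : (finrank K (riemannRochSpace (l • J)) : ℤ) + finrank K (Omega K F)
      ≤ l * finrank K⟮x⟯ F + 1 := by exact_mod_cast h1
  linarith

end Wrapped

end

end Fermat.Agent.S18.SQO
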