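/-
S18 (wave 7), chains CL + SQ: the generic transfer of centres (helper16).

Setting: `K` algebraically closed, `F₀ ⊆ F` function fields over `K` (`inc : F₀ →ₐ[K] F`), `F₀`
rational with generator `y`.  Two families of embeddings into `K((u))`: `σ₀` on `F₀` and a
complete rotation-stable family `σ` on `F` (complete over `K(J)`, `J = inc J₀`), related by
`σ i J = (σ₀ i₀ J₀)(u^d)`.  Then every centre of a `σ₀ i₀` in the coordinate `y` is the centre of
some `σ i` in the coordinate `inc y` (`SQA.exists_centre`), and RR-lite Theorem A over `K(inc y)`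
together with the cusp count `CLO.two_add_card_mul_le` and `SQO.omega_le_genus` bounds the
Riemann genus of `F` from below (`SQA.transfer`).
-/
import Fermat.Agent.S18.CLOrbit2
import Fermat.Agent.S18.SQOmega
import Fermat.Prelude.Def_ModularCurve_X0

set_option autoImplicit false

namespace Fermat.Agent.S18.SQA

open Polynomial Module IntermediateField AlgebraicCurve ModularCurve
open Fermat.Agent.S20 Fermat.Agent.S20.RRLite Fermat.Agent.S24

noncomputable section

/-- The substitution `u ↦ u^d` preserves positivity of the order. -/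
theorem order_qExpand_pos {K : Type*} [Field K] (d : ℕ) [NeZero d] {g : LaurentSeries K}
    (hg : 0 < g.order) : 0 < (qExpand K d g).order := by
  have hg0 : g ≠ 0 := by
    rintro rfl
    simp at hg
  have hq0 : qExpand K d g ≠ 0 := fun h => hg0 (qExpand_injective d (by rw [h, map_zero]))
  by_contra hcon
  rw [not_lt] at hcon
  have hc : (qExpand K d g).coeff (qExpand K d g).order ≠ 0 :=
    fun h => hq0 (HahnSeries.coeff_order_eq_zero.mp h)
  by_cases hdvd : (d : ℤ) ∣ (qExpand K d g).order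
  · obtain ⟨m, hm⟩ := hdvd
    rw [hm, qExpand_coeff_mul] at hc
    have hd : (0 : ℤ) < d := by exact_mod_cast Nat.pos_of_ne_zero (NeZero.ne d)
    have hm0 : m ≤ 0 := by
      by_contra h
      rw [not_le] at h
      have : 0 < (d : ℤ) * m := mul_pos hd h
      omega
    exact hc (HahnSeries.coeff_eq_zero_of_lt_order (by omega))
  · exact hc (qExpand_coeff_of_not_dvd d g hdvd)

variable {K F₀ F : Type*} [Field K] [Field F₀] [Field F] [Algebra K F₀] [Algebra K F]

/-- `inc` commutes with the evaluation of rational functions. -/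
theorem inc_ratHom (inc : F₀ →ₐ[K] F) (y : F₀) (hy : Transcendental K y)
    (hx : Transcendental K (inc y)) (r : RatFunc K) :
    inc (Wrap.ratHom y hy r) = Wrap.ratHom (inc y) hx r := by
  rw [Wrap.ratHom_apply, Wrap.ratHom_apply, map_div₀, ← Polynomial.aeval_algHom_apply,
    ← Polynomial.aeval_algHom_apply]

/-- **Transfer of centres and the genus bound.**  See the header of this file. -/
theorem transfer [IsAlgClosed K] (inc : F₀ →ₐ[K] F) (y : F₀) (hy : K⟮y⟯ = ⊤) (J₀ : F₀) (J : F)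
    (hJinc : inc J₀ = J) (hJ : Transcendental K J)
    [FiniteDimensional K⟮J⟯ F] [Algebra.IsSeparable K⟮J⟯ F]
    {I₀ I : Type*} [Fintype I]
    (σ₀ : I₀ → F₀ →+* LaurentSeries K)
    (hK₀ : ∀ i c, σ₀ i (algebraMap K F₀ c) = HahnSeries.C c)
    (σ : I → F →+* LaurentSeries K) (hσ : Function.Injective σ)
    (hK : ∀ i c, σ i (algebraMap K F c) = HahnSeries.C c)
    (ρ : Equiv.Perm I) (ζ : K) (hζ : ζ ≠ 0)
    (hrot : ∀ (i : I) (f : F) (n : ℤ), (σ (ρ i) f).coeff n = ζ ^ n * (σ i f).coeff n)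
    (d : ℕ) [NeZero d] (jm : LaurentSeries K)
    (hJσ : ∀ i, σ i J = qExpand K d jm) (hJσ₀ : ∀ i₀, σ₀ i₀ J₀ = jm)
    (hcard : Fintype.card I = finrank K⟮J⟯ F)
    (S : Finset K) (hS : ∀ a ∈ S, ∃ i₀, 0 < (σ₀ i₀ (y - algebraMap K F₀ a)).order)
    (g c : ℤ)
    (hgc : ∀ D : Divisor K F, c ≤ Divisor.degree D →
      (RR.ell D : ℤ) = Divisor.degree D + 1 - g) :
    (2 : ℤ) + S.card * finrank K⟮inc y⟯ F ≤ 2 * g + 2 * finrank K⟮inc y⟯ F + cyc ρ := by
  classical
  -- `J ∈ K(x)`, `x = inc y`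
  have hJmem : J ∈ K⟮inc y⟯ := by
    have h1 : J₀ ∈ K⟮y⟯ := by
      rw [hy]
      exact IntermediateField.mem_top
    have h2 : inc J₀ ∈ (K⟮y⟯).map inc := ⟨J₀, h1, rfl⟩
    rw [IntermediateField.adjoin_map, Set.image_singleton] at h2
    rwa [hJinc] at h2
  -- `x` is transcendental
  have hx : Transcendental K (inc y) := by
    intro halg
    apply hJ
    have h1 : Algebra.IsAlgebraic K K⟮inc y⟯ :=
      IntermediateField.isAlgebraic_adjoin_simple halg.isIntegral
    have h2 : IsAlgebraic K (⟨J, hJmem⟩ : K⟮inc y⟯) := Algebra.IsAlgebraic.isAlgebraic _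
    exact IntermediateField.isAlgebraic_iff.mp h2
  have hy₀ : Transcendental K y := fun halg : IsAlgebraic K y => hx (halg.algHom inc)
  -- finiteness and separability over `K(x)`
  have hle : K⟮J⟯ ≤ K⟮inc y⟯ := adjoin_simple_le_iff.mpr hJmem
  letI : Algebra K⟮J⟯ K⟮inc y⟯ := (IntermediateField.inclusion hle).toRingHom.toAlgebra
  haveI : IsScalarTower K⟮J⟯ K⟮inc y⟯ F := IsScalarTower.of_algebraMap_eq (fun _ => rfl)
  haveI hfin : FiniteDimensional K⟮inc y⟯ F :=
    Module.Finite.of_restrictScalars_finite K⟮J⟯ K⟮inc y⟯ F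
  haveI hsep : Algebra.IsSeparable K⟮inc y⟯ F :=
    Algebra.isSeparable_tower_top_of_isSeparable K⟮J⟯ K⟮inc y⟯ F
  -- the RR-lite instances for `x`
  letI := Wrap.polyAlgebra (K := K) (inc y)
  letI := Wrap.ratAlgebra (inc y) hx
  haveI := Wrap.tower_poly (K := K) (inc y)
  haveI := (Wrap.tower_rat (inc y) hx).1
  haveI := (Wrap.tower_rat (inc y) hx).2
  obtain ⟨hfd, hrank⟩ := Wrap.finrank_eq (inc y) hx
  haveI := hfd
  haveI := SQO.isSeparable_rat (inc y) hx
  -- `J` is a rational function of `x`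
  have hJrange : ∃ x₀ : RatFunc K, algebraMap (RatFunc K) F x₀ = J := by
    refine ⟨(RatFunc.algEquivOfTranscendental (inc y) hx).symm ⟨J, hJmem⟩, ?_⟩
    show Wrap.ratHom (inc y) hx _ = J
    rw [Wrap.ratHom_eq_algEquiv, AlgEquiv.apply_symm_apply]
  obtain ⟨x₀, hx₀⟩ := hJrange
  have hagree : ∀ i j, σ i J = σ j J := fun i j => by rw [hJσ, hJσ]
  haveI : Nonempty I := by
    have h1 : 0 < Fintype.card I := by
      rw [hcard]
      exact Module.finrank_pos
    exact Fintype.card_pos_iff.mp h1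
  -- transfer of the centres
  have hT : ∀ a ∈ S, ∃ i, 0 < (σ i (algebraMap K[X] F (X - C a))).order := by
    intro a ha
    obtain ⟨i₀, hi₀⟩ := hS a ha
    let τ₀ : RatFunc K →+* LaurentSeries K :=
      (qExpand K d).comp ((σ₀ i₀).comp (Wrap.ratHom y hy₀ : RatFunc K →+* F₀))
    have h1 : Wrap.ratHom y hy₀ x₀ = J₀ := by
      apply (inc : F₀ →+* F).injective
      show inc (Wrap.ratHom y hy₀ x₀) = inc J₀
      rw [inc_ratHom inc y hy₀ hx, hJinc]
      exact hx₀
    obtain ⟨i, hi⟩ := CLO.exists_of_hom σ hσ hK J x₀ hx₀ hagree hcard (Classical.arbitrary I) τ₀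
      (fun c => by
        show qExpand K d (σ₀ i₀ (Wrap.ratHom y hy₀ (algebraMap K (RatFunc K) c))) = _
        rw [AlgHom.commutes, hK₀, qExpand_C])
      (by
        show qExpand K d (σ₀ i₀ (Wrap.ratHom y hy₀ x₀)) = _
        rw [h1, hJσ₀, hJσ])
    refine ⟨i, ?_⟩
    have h2 := hi (algebraMap K[X] (RatFunc K) (X - C a))
    rw [← IsScalarTower.algebraMap_apply K[X] (RatFunc K) F] at h2
    rw [h2]
    show 0 < (qExpand K d (σ₀ i₀ (Wrap.ratHom y hy₀
      (algebraMap K[X] (RatFunc K) (X - C a))))).order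
    rw [Wrap.ratHom_algebraMap, map_sub, aeval_X, aeval_C]
    exact order_qExpand_pos d hi₀
  have hO := CLO.two_add_card_mul_le σ hσ hK ρ ζ hζ hrot J ⟨x₀, hx₀⟩ hagree hcard S hT
  have hΩ : (finrank K (Omega K F) : ℤ) ≤ g := SQO.omega_le_genus (inc y) hx g c hgc
  rw [hrank] at hO
  have hO' : (2 : ℤ) + S.card * finrank K⟮inc y⟯ F
      ≤ 2 * finrank K (Omega K F) + 2 * finrank K⟮inc y⟯ F + cyc ρ := by
    exact_mod_cast hO
  linarith

end

end Fermat.Agent.S18.SQA
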