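/-
S18 (wave 7), chains CL + SQ, piece SQ-A (helper16): the lower bound for the Riemann genus of the
reduced function field `F̄_M = k(J(q^d), d ∣ M)` over an algebraically closed field `k` of
characteristic `ℓ ∤ M`, at a level `M` divisible by `M₀ = 4` or `M₀ = 9`:
`genusFormula M ≤ genusR k F̄_M` (`SQA.genusFormula_le_genusR`).

Inputs: the reduced conjugate embeddings at the levels `M₀` and `M` (`SQA.HasSigma`, chain E2)
and a generator of the rational function field `F̄_{M₀}` (chain R).  Proof: piece C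
(`CLCentreM0.exists_centres_finite_level`) gives `cuspCount M₀` finite centres at level `M₀`;
`SQA.transfer` moves them to level `M` and applies RR-lite Theorem A with the cusp count and
`SQO.omega_le_genus`; the numerics are `ψ(M₀) [F̄_M : F̄_{M₀}] = ψ(M)` and the genus formula without
elliptic points.
-/
import Fermat.Agent.S18.SQTransfer
import Fermat.Agent.S18.CLCentreM0
import Fermat.Agent.S18.PModC
import Fermat.Agent.S18.Num

set_option autoImplicit false
set_option linter.style.haveILetI false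

noncomputable section

open scoped MatrixGroups
open IntermediateField AlgebraicCurve ModularCurve Module
open Fermat.Agent.S20 Fermat.Agent.S24

namespace Fermat.Agent.S18.SQA

universe u

/-- **[E2]** the reduced conjugate embeddings at level `N` over the field `k`: a family of
`ψ(N)` distinct embeddings `σ i : F̄_N → k((u))` (`u = q^{1/N}`) indexed by the cosets of `Γ₀(N)`,
fixing `k`, sending `J̄` to `J(u^N)`, and permuted by `u ↦ ζ u` according to the action of
`T⁻¹` on the cosets. -/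
def HasSigma (k : Type*) [Field k] (N : ℕ) [NeZero N] : Prop :=
  ∃ (σ : SL(2, ℤ) ⧸ CongruenceSubgroup.Gamma0 N →
      ↥(modularFunctionFieldFullC k N) →+* LaurentSeries k) (ζ : k),
    IsPrimitiveRoot ζ N ∧
    (∀ i (c : k), σ i (algebraMap k ↥(modularFunctionFieldFullC k N) c) = HahnSeries.C c) ∧
    Function.Injective σ ∧
    (∀ i (f : ↥(modularFunctionFieldFullC k N)) (n : ℤ),
      (σ (cosetPerm N ModularGroup.T⁻¹ i) f).coeff n = ζ ^ n * (σ i f).coeff n) ∧
    (∀ i, σ i ⟨jqModC k, jqModC_mem_full k N⟩ = qExpand k N (jqModC k))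

/-- The Riemann–Hurwitz inequality over the rational curve of level `M₀`, with the cusp count:
`2 + cuspCount M₀ · n ≤ 2 g + 2 n + cuspCount M`, `n = [F̄_M : F̄_{M₀}]`. -/
theorem two_add_cusp_mul_le (k : Type u) [Field k] [IsAlgClosed k] (ℓ : ℕ) [Fact ℓ.Prime]
    [CharP k ℓ] (M0 M : ℕ) [NeZero M0] [NeZero M] (h0 : M0 ∣ M) (hℓM : ¬ ℓ ∣ M)
    (hσ0 : HasSigma k M0) (hσ : HasSigma k M)
    (hR : ∃ y : LaurentSeries k, k⟮y⟯ = modularFunctionFieldFullC k M0) :
    (2 : ℤ) + cuspCount M0 *
        relfinrank (modularFunctionFieldFullC k M0) (modularFunctionFieldFullC k M)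
      ≤ 2 * PHyp.genusR k ↥(modularFunctionFieldFullC k M)
        + 2 * relfinrank (modularFunctionFieldFullC k M0) (modularFunctionFieldFullC k M)
        + cuspCount M := by
  classical
  have hℓM0 : ¬ ℓ ∣ M0 := fun h => hℓM (h.trans h0)
  haveI : Finite (SL(2, ℤ) ⧸ CongruenceSubgroup.Gamma0 M0) :=
    Subgroup.finite_quotient_of_finiteIndex
  haveI : Finite (SL(2, ℤ) ⧸ CongruenceSubgroup.Gamma0 M) :=
    Subgroup.finite_quotient_of_finiteIndex
  haveI : Fintype (SL(2, ℤ) ⧸ CongruenceSubgroup.Gamma0 M0) := Fintype.ofFinite _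
  haveI : Fintype (SL(2, ℤ) ⧸ CongruenceSubgroup.Gamma0 M) := Fintype.ofFinite _
  obtain ⟨σ₀, ζ₀, hζ₀, hK₀, hinj₀, hrot₀, hJ₀⟩ := hσ0
  obtain ⟨σ, ζ, hζ, hK, hinj, hrot, hJσ⟩ := hσ
  obtain ⟨y, hy⟩ := hR
  have hymem : y ∈ modularFunctionFieldFullC k M0 := by
    rw [← hy]
    exact mem_adjoin_simple_self k y
  obtain ⟨y', S, hy', hScard, hS⟩ := CLCentreM0.exists_centres_finite_level ℓ σ₀ hℓM0 ζ₀ hζ₀
    hK₀ hinj₀ hrot₀ hJ₀ ⟨y, hymem⟩ hy
  haveI := CLCentreM0.finiteDimensional_Jb k ℓ M hℓM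
  haveI := CLCentreM0.isSeparable_Jb k ℓ M hℓM
  have hd : M / M0 * M0 = M := Nat.div_mul_cancel h0
  haveI : NeZero (M / M0) := ⟨by
    intro h
    rw [h, zero_mul] at hd
    exact NeZero.ne M hd.symm⟩
  have hk : RR.Hyp k ↥(modularFunctionFieldFullC k M) := PModC.hyp_modC k M ℓ
  obtain ⟨-, c, hc⟩ := PHyp.genusR_spec hk
  have key := transfer (IntermediateField.inclusion (full_degeneracyC_le k h0)) y'
    (CLCentreM0.adjoin_eq_top_of_coe _ y' hy') (CLCentreM0.Jb k M0) (CLCentreM0.Jb k M) rfl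
    (PModC.transcendental_xJ k M) σ₀ hK₀ σ hinj hK (cosetPerm M ModularGroup.T⁻¹) ζ
    (hζ.ne_zero (NeZero.ne M)) hrot (M / M0) (qExpand k M0 (jqModC k))
    (fun i => by
      refine (hJσ i).trans ?_
      rw [qExpand_qExpand]
      exact qExpand_congr hd.symm _)
    hJ₀ (CLCentreM0.card_eq_finrank_Jb k ℓ M hℓM) S hS (PHyp.genusR k _) c hc
  rw [CLCentreM0.cyc_T_inv] at key
  have hn : finrank
      k⟮IntermediateField.inclusion (full_degeneracyC_le k h0) y'⟯
        ↥(modularFunctionFieldFullC k M)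
      = relfinrank (modularFunctionFieldFullC k M0) (modularFunctionFieldFullC k M) := by
    rw [LiftD.finrank_adjoin_eq_relfinrank]
    have h1 : ((IntermediateField.inclusion (full_degeneracyC_le k h0) y' :
        ↥(modularFunctionFieldFullC k M)) : LaurentSeries k) = (y' : LaurentSeries k) := rfl
    rw [h1, hy']
  rw [hn] at key
  have h3 : (cuspCount M0 : ℤ) *
      relfinrank (modularFunctionFieldFullC k M0) (modularFunctionFieldFullC k M)
      ≤ (S.card : ℤ) *
        relfinrank (modularFunctionFieldFullC k M0) (modularFunctionFieldFullC k M) := by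
    exact_mod_cast Nat.mul_le_mul_right _ hScard
  linarith

/-- **[SQ-A]** the Riemann genus of the reduced function field of level `M` is at least
`genusFormula M`, for `4 ∣ M` or `9 ∣ M` and `ℓ ∤ M`. -/
theorem genusFormula_le_genusR (k : Type u) [Field k] [IsAlgClosed k] (ℓ : ℕ) [Fact ℓ.Prime]
    [CharP k ℓ] (M0 M : ℕ) [NeZero M0] [NeZero M] (h0 : M0 ∣ M) (hℓM : ¬ ℓ ∣ M)
    (hM0 : M0 = 4 ∨ M0 = 9) (hσ0 : HasSigma k M0) (hσ : HasSigma k M)
    (hR : ∃ y : LaurentSeries k, k⟮y⟯ = modularFunctionFieldFullC k M0) :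
    genusFormula M ≤ (PHyp.genusR k ↥(modularFunctionFieldFullC k M) : ℚ) := by
  have key := two_add_cusp_mul_le k ℓ M0 M h0 hℓM hσ0 hσ hR
  have hmul := LiftD.relfinrank_fullC_mul k ℓ h0 hℓM
  have keyQ : (2 : ℚ) + cuspCount M0 *
        relfinrank (modularFunctionFieldFullC k M0) (modularFunctionFieldFullC k M)
      ≤ 2 * PHyp.genusR k ↥(modularFunctionFieldFullC k M)
        + 2 * relfinrank (modularFunctionFieldFullC k M0) (modularFunctionFieldFullC k M)
        + cuspCount M := by
    exact_mod_cast key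
  have hmulQ : (dedekindPsi M0 : ℚ) *
      relfinrank (modularFunctionFieldFullC k M0) (modularFunctionFieldFullC k M)
      = dedekindPsi M := by
    exact_mod_cast hmul
  rcases hM0 with rfl | rfl
  · rw [Num.genusFormula_of_four_dvd h0, ← hmulQ, Num.dedekindPsi_four]
    rw [Num.cuspCount_four] at keyQ
    push_cast at keyQ ⊢
    linarith
  · rw [Num.genusFormula_of_nine_dvd h0, ← hmulQ, Num.dedekindPsi_nine]
    rw [Num.cuspCount_nine] at keyQ
    push_cast at keyQ ⊢
    linarith

end Fermat.Agent.S18.SQA
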