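/-
S18 (wave 7), TOP-GS (helper16): the genus squeeze `GenusSqueezeStmt` reduced to ONE remaining
statement, the existence of the reduced conjugate embeddings (chain E2, `SQA.HasSigma`) at every
level prime to `ℓ` over the residue field of `A ⊂ ℚ̄`:

* `SQTop.SigmaStmt` : `HasSigma (Kb A) N` for all `ℓ ∤ N`;
* `SQTop.sqStmt_of : SigmaStmt → GST.SQStmt` (`SQA.genusFormula_le_genusR` at `M₀ = 4` (`ℓ` odd)
  resp. `M₀ = 9` (`ℓ = 2`), the generator of `F̄_{M₀}` from `CLHaupt`);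
* `SQTop.genusSqueezeStmt_of : SigmaStmt → GenusSqueezeStmt`.
-/
import Fermat.Agent.S18.SQAsm
import Fermat.Agent.S18.GSTop
import Fermat.Agent.S18.CLHauptC0

set_option autoImplicit false
set_option linter.style.haveILetI false
set_option synthInstance.maxHeartbeats 400000

noncomputable section

open IntermediateField AlgebraicCurve ModularCurve
open Fermat.Agent.S20

namespace Fermat.Agent.S18.SQTop

/-- **[E2]** the reduced conjugate embeddings exist at every level prime to `ℓ`. -/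
def SigmaStmt : Prop :=
  ∀ (ℓ : ℕ) [Fact ℓ.Prime] (A : ValuationSubring Qb), A.LiesOverPrime ℓ →
    ∀ (N : ℕ) [NeZero N], ¬ ℓ ∣ N → SQA.HasSigma (Kb A) N

/-- **[CL + SQ]** the lower bound for the Riemann genus of the special fibre at every admissible
level, from the reduced conjugate embeddings. -/
theorem sqStmt_of (hE2 : SigmaStmt) : GST.SQStmt := by
  intro ℓ _ A hA M _ hadm
  obtain ⟨hℓM, h4, h9⟩ := hadm
  haveI := GST.isAlgClosed_Kb A
  haveI := GST.charP_Kb A hA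
  by_cases hℓ2 : ℓ = 2
  · have h9' := h9 hℓ2
    haveI : NeZero 9 := ⟨by norm_num⟩
    have hℓ9 : ¬ ℓ ∣ 9 := fun h => hℓM (h.trans h9')
    obtain ⟨y, -, hy⟩ := CLHaupt.exists_generator_nine' hℓ9 A hA
    exact SQA.genusFormula_le_genusR (Kb A) ℓ 9 M h9' hℓM (Or.inr rfl) (hE2 ℓ A hA 9 hℓ9)
      (hE2 ℓ A hA M hℓM) ⟨y, hy⟩
  · have h4' := h4 hℓ2
    haveI : NeZero 4 := ⟨by norm_num⟩
    have hℓ4 : ¬ ℓ ∣ 4 := fun h => hℓM (h.trans h4')
    obtain ⟨y, -, hy⟩ := CLHaupt.exists_generator_four' hℓ4 A hA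
    exact SQA.genusFormula_le_genusR (Kb A) ℓ 4 M h4' hℓM (Or.inl rfl) (hE2 ℓ A hA 4 hℓ4)
      (hE2 ℓ A hA M hℓM) ⟨y, hy⟩

/-- **TOP-GS from E2.** -/
theorem genusSqueezeStmt_of (hE2 : SigmaStmt) : GenusSqueezeStmt :=
  GST.genusSqueezeStmt_of_sq (sqStmt_of hE2)

end Fermat.Agent.S18.SQTop
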