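/-
S18 (wave 7), TOP-GS (helper16): the genus squeeze at every admissible level,
`genusSqueezeStmt : GenusSqueezeStmt` (interface statement of `Iface.lean`).

Chain: C0 (`C0F.riemann_char0`, Riemann's inequality with the constant `genusFormula M` in
characteristic zero) and CL + SQ (`SQA.genusFormula_le_genusR`: the Riemann genus of the special
fibre is at least `genusFormula M`, from the reduced conjugate embeddings `CLSE.hasSigma`, the
cusp count `CLO.two_add_card_mul_le`, RR-lite Theorem A and `SQO.omega_le_genus`), assembled by
`SQTop.genusSqueezeStmt_of` / `GST.genusSqueezeStmt_of_sq`.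
-/
import Fermat.Agent.S18.SQTop
import Fermat.Agent.S18.CLSigmaE

set_option autoImplicit false
set_option synthInstance.maxHeartbeats 400000

noncomputable section

namespace Fermat.Agent.S18

/-- **[E2]** the reduced conjugate embeddings exist at every level prime to `ℓ`. -/
theorem sigmaStmt : SQTop.SigmaStmt :=
  fun _ _ A hA N _ hℓN => CLSE.hasSigma N hℓN A hA

/-- **TOP-GS**: the genus squeeze at every admissible level. -/
theorem genusSqueezeStmt : GenusSqueezeStmt :=
  SQTop.genusSqueezeStmt_of sigmaStmt

end Fermat.Agent.S18
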