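/-
S18 (wave 7), TOP-LEVEL: the level bookkeeping statement `LevelStmt` of `Iface.lean`.

For a prime `ℓ ∤ N` there are levels `N ∣ M ∣ M'` with `M'` admissible, `[F_M' : F_M]` prime to
`ℓ` and `[F_M : F_N]` a power of `ℓ`: the arithmetic is `Num.exists_levels` (in terms of
`dedekindPsi`), the degrees are `LiftD.relfinrank_bar_mul` (`ψ(N) · [F_M : F_N] = ψ(M)`).
-/
import Fermat.Agent.S18.Iface
import Fermat.Agent.S18.LiftDeg
import Fermat.Agent.S18.Num

set_option autoImplicit false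
set_option synthInstance.maxHeartbeats 400000

open IntermediateField AlgebraicCurve ModularCurve

namespace Fermat.Agent.S18

/-- `ψ(N) · [F_M : F_N] = ψ(M)` for `N ∣ M`. -/
theorem dedekindPsi_mul_levelDeg {N M : ℕ} [NeZero N] [NeZero M] (h : N ∣ M) :
    dedekindPsi N * levelDeg h = dedekindPsi M := by
  have key : levelDeg h = relfinrank (FN N) (FN M) :=
    @LiftD.finrank_eq_relfinrank_of_algebra Qb (LaurentSeries Qb) _ _ _ (FN N) (FN M)
      (algOfLE (bar_mono h)) (fun a => algOfLE_algebraMap (bar_mono h) a)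
  rw [key]
  exact LiftD.relfinrank_bar_mul h

/-- `[F_M : F_N] = c` as soon as `ψ(M) = c · ψ(N)`. -/
theorem levelDeg_eq_of_dedekindPsi {N M : ℕ} [NeZero N] [NeZero M] (h : N ∣ M) {c : ℕ}
    (hc : dedekindPsi M = c * dedekindPsi N) : levelDeg h = c := by
  have h1 := dedekindPsi_mul_levelDeg h
  rw [hc, mul_comm c] at h1
  exact Nat.eq_of_mul_eq_mul_left (LiftD.dedekindPsi_pos N) h1

/-- **[chain LEVEL]** the level bookkeeping statement. -/
theorem levelStmt : LevelStmt := by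
  intro ℓ N _ _ hℓN
  obtain ⟨M, M', hNM, hMM', hℓM', h4, h9, ⟨e, he⟩, d, hd, hℓd⟩ :=
    Num.exists_levels ℓ N Fact.out (NeZero.ne N) hℓN
  have hM'0 : M' ≠ 0 := fun h0 => hℓM' (h0 ▸ dvd_zero ℓ)
  have hM0 : M ≠ 0 := fun h0 => hM'0 (by rw [h0] at hMM'; exact Nat.eq_zero_of_zero_dvd hMM')
  have : NeZero M' := ⟨hM'0⟩
  have : NeZero M := ⟨hM0⟩
  refine ⟨M, M', hNM, hMM', hM'0, ⟨hℓM', h4, h9⟩, ?_, e, ?_⟩
  · rw [levelDeg_eq_of_dedekindPsi hMM' hd]
    exact hℓd
  · exact levelDeg_eq_of_dedekindPsi hNM he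

end Fermat.Agent.S18
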