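import Mathlib
import Fermat.Prelude.Def_AlgebraicCurve_DivisorPushPull
import Fermat.Prelude.Def_AlgebraicCurve_Repartitions
import Fermat.Agent.S24.PlacesMore

/-!
# The fundamental identity and the norm formula for the frozen push/pull of divisors

For a finite separable extension `F ⊂ F'` of function fields over an algebraically closed field
`K` (all places of degree one) we prove the two `Prop`-valued classes left open by the frozen
module `Def_AlgebraicCurve_DivisorPushPull`: `SumRamificationInertia K F F'` and
`Divisor.PushforwardNormFormula K F F'`.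
-/

set_option autoImplicit false
set_option linter.unusedSectionVars false

open AlgebraicCurve IsDedekindDomain

namespace Fermat.Agent.S18.FundId

noncomputable section

variable {K F F' : Type*} [Field K] [Field F] [Field F'] [Algebra K F] [Algebra K F']
  [Algebra F F'] [IsScalarTower K F F']

section Local

variable (F') (v : Place K F)

/-- `F'` as an algebra over the valuation ring of `v`. -/
@[reducible] def algV : Algebra v.toValuationSubring F' :=
  ((algebraMap F F').comp (algebraMap v.toValuationSubring F)).toAlgebra

attribute [local instance 5] algV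

theorem towerV : IsScalarTower v.toValuationSubring F F' :=
  IsScalarTower.of_algebraMap_eq fun _ => rfl

attribute [local instance] towerV

/-- The integral closure of the valuation ring of `v` in `F'`. -/
abbrev intB : Subalgebra v.toValuationSubring F' := integralClosure v.toValuationSubring F'

variable [FiniteDimensional F F'] [Algebra.IsSeparable F F']

theorem isDedekindDomain_intB : IsDedekindDomain (intB F' v) :=
  integralClosure.isDedekindDomain v.toValuationSubring F F'

theorem isFractionRing_intB : IsFractionRing (intB F' v) F' :=
  integralClosure.isFractionRing_of_finite_extension F F'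

theorem finite_intB : Module.Finite v.toValuationSubring (intB F' v) :=
  IsIntegralClosure.finite v.toValuationSubring F F' (intB F' v)

attribute [local instance] isDedekindDomain_intB isFractionRing_intB finite_intB

theorem faithful_intB : FaithfulSMul v.toValuationSubring (intB F' v) := by
  rw [faithfulSMul_iff_algebraMap_injective]
  intro a b hab
  have h1 := congrArg (algebraMap (intB F' v) F') hab
  rw [← IsScalarTower.algebraMap_apply, ← IsScalarTower.algebraMap_apply] at h1
  have h2 : algebraMap F F' (a : F) = algebraMap F F' (b : F) := h1
  exact Subtype.ext ((algebraMap F F').injective h2)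

theorem flat_intB : Module.Flat v.toValuationSubring (intB F' v) := by
  rw [IsDedekindDomain.flat_iff_torsion_eq_bot, ← Submodule.isTorsionFree_iff_torsion_eq_bot]
  infer_instance

attribute [local instance] faithful_intB flat_intB

theorem hK (a : K) : ∃ b : intB F' v, algebraMap (intB F' v) F' b = algebraMap K F' a :=
  ⟨algebraMap v.toValuationSubring (intB F' v) (algebraMap K v.toValuationSubring a), by
    rw [← IsScalarTower.algebraMap_apply, IsScalarTower.algebraMap_apply K F F']
    rfl⟩

/-- The maximal ideal of the valuation ring of `v`. -/
abbrev pv : Ideal v.toValuationSubring := IsLocalRing.maximalIdeal v.toValuationSubring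

theorem pv_ne_bot : pv v ≠ ⊥ := IsDiscreteValuationRing.not_a_field _

/-- The valuation ring of `v` maps into the valuation ring of any place above `v`. -/
theorem algebraMap_mem_of_restrict {w : Place K F'} (hw : w.restrict F = v)
    (a : v.toValuationSubring) : algebraMap F F' (a : F) ∈ w.toValuationSubring := by
  have h : (a : F) ∈ (w.restrict F).toValuationSubring := hw ▸ a.2
  exact h

/-- The integral closure of `O_v` lies in the valuation ring of any place above `v`. -/
theorem intB_le {w : Place K F'} (hw : w.restrict F = v) (b : intB F' v) :
    algebraMap (intB F' v) F' b ∈ w.toValuationSubring := by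
  let ψ : v.toValuationSubring →+* w.toValuationSubring :=
    (algebraMap v.toValuationSubring F').codRestrict w.toValuationSubring.toSubring
      (fun a => algebraMap_mem_of_restrict F' v hw a)
  have hψ : (algebraMap w.toValuationSubring F').comp ψ = algebraMap v.toValuationSubring F' :=
    rfl
  obtain ⟨f, hmonic, hf⟩ := b.2
  have hint : IsIntegral w.toValuationSubring ((b : F')) := by
    refine ⟨f.map ψ, hmonic.map ψ, ?_⟩
    rw [Polynomial.eval₂_map, hψ]
    exact hf
  obtain ⟨y, hy⟩ := IsIntegrallyClosed.isIntegral_iff.mp hint
  show (b : F') ∈ w.toValuationSubring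
  rw [← hy]
  exact y.2

/-- The height one prime of `B` attached to a prime over `𝔪_v`. -/
def toP (q : (pv v).primesOver (intB F' v)) : HeightOneSpectrum (intB F' v) :=
  ⟨q.1, q.2.1, Ideal.ne_bot_of_mem_primesOver (pv_ne_bot v) q.2⟩

/-- The place of `F'` attached to a prime of `B` over `𝔪_v`. -/
def gP (q : (pv v).primesOver (intB F' v)) : Place K F' :=
  Fermat.Agent.S24.Places.ofPrime (hK F' v) (toP F' v q)

theorem gP_injective : Function.Injective (gP F' v) := fun _ _ h =>
  Subtype.ext (congrArg HeightOneSpectrum.asIdeal
    (Fermat.Agent.S24.Places.ofPrime_injective (hK F' v) h))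

theorem restrict_gP (q : (pv v).primesOver (intB F' v)) : (gP F' v q).restrict F = v := by
  apply Place.ext
  symm
  refine ValuationSubring.eq_of_le_of_ne_top _ ?_ ((gP F' v q).restrict F).ne_top'
  intro a ha
  show algebraMap F F' a ∈ (gP F' v q).toValuationSubring
  have h1 : algebraMap F F' a
      = algebraMap (intB F' v) F' (algebraMap v.toValuationSubring (intB F' v) ⟨a, ha⟩) := rfl
  rw [h1]
  exact (toP F' v q).valuation_le_one _

/-- Every place of `F'` above `v` comes from a prime of `B` over `𝔪_v`. -/
theorem exists_gP_eq {w : Place K F'} (hw : w.restrict F = v) :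
    ∃ q : (pv v).primesOver (intB F' v), gP F' v q = w := by
  obtain ⟨P, hP⟩ := Fermat.Agent.S24.Places.exists_eq_ofPrime (hK F' v) w (intB_le F' v hw)
  obtain ⟨π, hπ⟩ := IsDiscreteValuationRing.exists_irreducible v.toValuationSubring
  have hp : pv v = Ideal.span {π} := hπ.maximalIdeal_eq
  set tB : intB F' v := algebraMap v.toValuationSubring (intB F' v) π with htB
  have htB0 : tB ≠ 0 := by
    rw [htB, Ne, FaithfulSMul.algebraMap_eq_zero_iff]
    exact hπ.ne_zero
  have hord : w.ord (algebraMap (intB F' v) F' tB) = (w.ramificationIndex F : ℤ) := by
    have h1 : algebraMap (intB F' v) F' tB = algebraMap F F' (π : F) := rfl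
    rw [h1, w.ord_restrict, hw, v.ord_coe_irreducible hπ, mul_one]
  have hpos : 0 < w.ord (algebraMap (intB F' v) F' tB) := by
    rw [hord]
    exact_mod_cast w.ramificationIndex_pos (F := F)
  have hmem : tB ∈ P.asIdeal := by
    rw [hP] at hpos
    exact (Fermat.Agent.S24.Places.ord_pos_iff_mem (hK F' v) P htB0).mp hpos
  have hmax : (pv v).IsMaximal := inferInstance
  have hlies : P.asIdeal.LiesOver (pv v) := by
    constructor
    have hle' : pv v ≤ P.asIdeal.under v.toValuationSubring := by
      rw [hp, Ideal.span_singleton_le_iff_mem]
      exact hmem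
    exact hmax.eq_of_le (Ideal.IsPrime.under _ _).ne_top hle'
  exact ⟨⟨P.asIdeal, P.isPrime, hlies⟩, hP.symm⟩

/-- The ramification index of the place attached to `q` is the ramification index of `q`. -/
theorem ramificationIndex_gP (q : (pv v).primesOver (intB F' v)) :
    (gP F' v q).ramificationIndex F = q.1.ramificationIdx v.toValuationSubring := by
  obtain ⟨π, hπ⟩ := IsDiscreteValuationRing.exists_irreducible v.toValuationSubring
  have hp : pv v = Ideal.span {π} := hπ.maximalIdeal_eq
  set tB : intB F' v := algebraMap v.toValuationSubring (intB F' v) π with htB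
  have htB0 : tB ≠ 0 := by
    rw [htB, Ne, FaithfulSMul.algebraMap_eq_zero_iff]
    exact hπ.ne_zero
  have hmap : (pv v).map (algebraMap v.toValuationSubring (intB F' v)) = Ideal.span {tB} := by
    rw [hp, Ideal.map_span, Set.image_singleton]
  have hmap0 : (pv v).map (algebraMap v.toValuationSubring (intB F' v)) ≠ ⊥ := by
    rw [hmap, Ne, Ideal.span_singleton_eq_bot]; exact htB0
  have hord : (gP F' v q).ord (algebraMap (intB F' v) F' tB)
      = ((gP F' v q).ramificationIndex F : ℤ) := by
    have h1 : algebraMap (intB F' v) F' tB = algebraMap F F' (π : F) := rfl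
    rw [h1, (gP F' v q).ord_restrict, restrict_gP F' v q, v.ord_coe_irreducible hπ, mul_one]
  have h1 := Fermat.Agent.S24.Places.ord_algebraMap_eq_multiplicity (hK F' v) (toP F' v q) htB0
  have : q.1.IsPrime := q.2.1
  have : q.1.LiesOver (pv v) := q.2.2
  have h2 := Ideal.IsDedekindDomain.ramificationIdx_eq_multiplicity (pv v) q.1 hmap0
  rw [hmap] at h2
  have h3 : ((gP F' v q).ramificationIndex F : ℤ) = (q.1.ramificationIdx v.toValuationSubring : ℤ) := by
    rw [← hord, h2]
    exact h1
  exact_mod_cast h3

/-- Finitely many primes of `B` lie over `𝔪_v`. -/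
@[reducible] def fintypePrimesOver : Fintype ((pv v).primesOver (intB F' v)) :=
  Set.Finite.fintype (IsDedekindDomain.primesOver_finite (pv v) (intB F' v))

attribute [local instance] fintypePrimesOver

/-- Every element of the valuation ring of a place of degree one is a constant modulo the
maximal ideal. -/
theorem exists_const_sub_mem (hv : v.deg = 1) (a : v.toValuationSubring) :
    ∃ c : K, a - algebraMap K v.toValuationSubring c ∈ pv v := by
  have h1 : Module.finrank K v.ResidueField = 1 := hv
  rw [finrank_eq_one_iff_of_nonzero' (1 : v.ResidueField) one_ne_zero] at h1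
  obtain ⟨c, hc⟩ := h1 (IsLocalRing.residue _ a)
  refine ⟨c, ?_⟩
  rw [← IsLocalRing.residue_eq_zero_iff, map_sub, sub_eq_zero, ← hc, Algebra.smul_def, mul_one]
  rfl

/-- **Fundamental identity at one place** (all residue fields equal to `K`): the ramification
indices of the places of `F'` above `v` add up to `[F' : F]`. -/
theorem sum_ramificationIndex [IsAlgClosed K] [HasPrincipalDivisors K F'] (hv : v.deg = 1) :
    ∑ w ∈ v.fiber F', (w.ramificationIndex F : ℤ) = (Module.finrank F F' : ℤ) := by
  classical
  obtain ⟨π, hπ⟩ := IsDiscreteValuationRing.exists_irreducible v.toValuationSubring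
  have hp : pv v = Ideal.span {π} := hπ.maximalIdeal_eq
  have himg : v.fiber F' = Finset.univ.image (gP F' v) := by
    ext w
    simp only [Place.mem_fiber, Finset.mem_image, Finset.mem_univ, true_and]
    constructor
    · intro hw
      exact exists_gP_eq F' v hw
    · rintro ⟨q, rfl⟩
      exact restrict_gP F' v q
  rw [himg, Finset.sum_image (fun q _ q' _ h => gP_injective F' v h)]
  simp_rw [ramificationIndex_gP]
  rw [← Nat.cast_sum]
  congr 1
  have hsum := Ideal.sum_ramification_inertia_eq_finrank (pv v) (intB F' v)
  rw [IsFractionRing.finrank_eq v.toValuationSubring F (intB F' v) F', ← hsum]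
  refine Finset.sum_congr rfl fun q _ => ?_
  have hmax : (Ideal.span {π}).IsMaximal := hp ▸ (inferInstance : (pv v).IsMaximal)
  have hq : q.1.IsPrime := q.2.1
  have hl : q.1.LiesOver (Ideal.span {π}) := hp ▸ q.2.2
  have hf := Fermat.Agent.S24.Places.inertiaDeg_eq_one (K := K) π
    (fun a => hp ▸ exists_const_sub_mem v hv a) q.1
  rw [hf, mul_one]

end Local




section Global

variable [IsAlgClosed K] [FiniteDimensional F F'] [Algebra.IsSeparable F F']
  [HasPrincipalDivisors K F']

/-- If both places have degree one, the inertia degree is one. -/
theorem inertiaDeg_eq_one (w : Place K F') (hw : w.deg = 1) (hv : (w.restrict F).deg = 1) :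
    w.inertiaDeg F = 1 := by
  have h := w.deg_restrict_mul_inertiaDeg (F := F)
  rw [hw, hv, one_mul] at h
  exact h

/-- **FI1**: the frozen class `SumRamificationInertia` for a finite separable extension of
function fields over an algebraically closed field (all places of degree one). -/
theorem sumRamificationInertia (hF : ∀ v : Place K F, v.deg = 1)
    (hF' : ∀ w : Place K F', w.deg = 1) : SumRamificationInertia K F F' where
  sum_ramificationIndex_mul_inertiaDeg v := by
    rw [← sum_ramificationIndex F' v (hF v)]
    refine Finset.sum_congr rfl fun w _ => ?_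
    rw [inertiaDeg_eq_one w (hF' w) (hF _), Nat.cast_one, mul_one]

/-- The frozen class `FundamentalIdentity`. -/
theorem fundamentalIdentity (hF : ∀ v : Place K F, v.deg = 1)
    (hF' : ∀ w : Place K F', w.deg = 1) : FundamentalIdentity K F F' :=
  haveI := sumRamificationInertia (K := K) (F := F) (F' := F') hF hF'
  inferInstance

/-- The degree of a pulled back divisor. -/
theorem degree_pullback (hF : ∀ v : Place K F, v.deg = 1) (hF' : ∀ w : Place K F', w.deg = 1)
    (D : Divisor K F) :
    Divisor.degree (Divisor.pullback F' D) = (Module.finrank F F' : ℤ) * Divisor.degree D :=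
  haveI := fundamentalIdentity (K := K) (F := F) (F' := F') hF hF'
  Divisor.degree_pullback D

/-- Every place of `F` has a place of `F'` above it. -/
theorem fiber_nonempty (hF : ∀ v : Place K F, v.deg = 1) (v : Place K F) :
    (v.fiber F').Nonempty := by
  by_contra h
  rw [Finset.not_nonempty_iff_eq_empty] at h
  have h1 := sum_ramificationIndex F' v (hF v)
  rw [h, Finset.sum_empty] at h1
  have h2 : 0 < Module.finrank F F' := Module.finrank_pos
  omega

/-- `pushforward ∘ pullback` is multiplication by the degree. -/
theorem pushforward_pullback (hF : ∀ v : Place K F, v.deg = 1)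
    (hF' : ∀ w : Place K F', w.deg = 1) (D : Divisor K F) :
    Divisor.pushforward F (Divisor.pullback F' D) = Module.finrank F F' • D := by
  induction D using Finsupp.induction with
  | zero => simp
  | single_add v n D _ _ ih =>
    rw [map_add, map_add, ih, smul_add]
    congr 1
    rw [Divisor.pullback_single, map_sum]
    have h1 : ∀ w ∈ v.fiber F', Divisor.pushforward F
        (Finsupp.single w (n * (w.ramificationIndex F : ℤ)))
        = Finsupp.single v (n * (w.ramificationIndex F : ℤ)) := by
      intro w hw
      rw [Divisor.pushforward_single, Place.mem_fiber.mp hw,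
        inertiaDeg_eq_one w (hF' w) (hF _), Nat.cast_one, mul_one]
    rw [Finset.sum_congr rfl h1, ← Finsupp.single_finsetSum, ← Finset.mul_sum,
      sum_ramificationIndex F' v (hF v), Finsupp.smul_single, nsmul_eq_mul, mul_comm]

end Global

section Dictionary

variable [Algebra.IsIntegral F F'] [HasPrincipalDivisors K F']

/-- "Lying over" in the pull-back-free form is equality of the restriction. -/
theorem restrict_eq_iff (w : Place K F') (v : Place K F) :
    w.restrict F = v ↔
      ∀ x : F, x ∈ v.toValuationSubring ↔ algebraMap F F' x ∈ w.toValuationSubring := by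
  constructor
  · rintro rfl x
    exact Iff.rfl
  · intro h
    apply Place.ext
    ext x
    exact (h x).symm

/-- **Pull-back-free description of `L(π^* G)`**: `f ∈ L(π^*G)` iff for every place `w` of `F'`
and every `t ∈ F` of order `G v` at the place `v` below `w`, the product `f * t` is regular
at `w`. -/
theorem mem_riemannRochSpace_pullback_iff (G : Divisor K F) (f : F') :
    f ∈ riemannRochSpace (Divisor.pullback F' G) ↔
      ∀ w : Place K F', ∀ t : F, (w.restrict F).ord t = G (w.restrict F) →
        f * algebraMap F F' t ∈ w.toValuationSubring := by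
  rw [mem_riemannRochSpace_iff]
  constructor
  · intro h w t ht
    rcases eq_or_ne f 0 with rfl | hf
    · rw [zero_mul]; exact zero_mem _
    rcases eq_or_ne t 0 with rfl | ht0
    · rw [map_zero, mul_zero]; exact zero_mem _
    have ht0' : algebraMap F F' t ≠ 0 := by simpa using ht0
    rw [Fermat.Agent.S24.Places.mem_iff_ord_nonneg w (mul_ne_zero hf ht0'),
      w.ord_mul hf ht0', w.ord_restrict, ht]
    have h1 := (h w).resolve_left hf
    rw [Divisor.pullback_apply] at h1
    omega
  · intro h w
    rcases eq_or_ne f 0 with rfl | hf
    · exact Or.inl rfl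
    right
    obtain ⟨π, hπ⟩ := IsDiscreteValuationRing.exists_irreducible (w.restrict F).toValuationSubring
    have hπ1 : (w.restrict F).ord (π : F) = 1 := (w.restrict F).ord_coe_irreducible hπ
    have hπ0 : (π : F) ≠ 0 := by
      intro h0
      rw [h0, Place.ord_zero] at hπ1
      exact zero_ne_one hπ1
    set t : F := (π : F) ^ (G (w.restrict F)) with ht
    have ht0 : t ≠ 0 := zpow_ne_zero _ hπ0
    have ht0' : algebraMap F F' t ≠ 0 := by simpa using ht0
    have htord : (w.restrict F).ord t = G (w.restrict F) := by
      rw [ht, Place.ord_zpow, hπ1, mul_one]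
    have h1 := h w t htord
    rw [Fermat.Agent.S24.Places.mem_iff_ord_nonneg w (mul_ne_zero hf ht0'),
      w.ord_mul hf ht0', w.ord_restrict, htord] at h1
    rw [Divisor.pullback_apply]
    omega

end Dictionary

end

end Fermat.Agent.S18.FundId
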