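/-
S18 (torsion injects under reduction), chain LIFT, piece LI (helper15): the char-poly inclusion,
generic (Mathlib + Prelude `AlgebraicCurve.Place` only).

"`P'` lies over `P`" is spelled out as
`∀ x : F, x ∈ P.toValuationSubring ↔ algebraMap F F' x ∈ P'.toValuationSubring`.

* `mul_mem_of_root` (LI (b), any characteristic): `O ⊆ E`, `O' ⊆ E'` valuation subrings with `O`
  mapping into `O'`, `p ∈ E[X]` monic of degree `n` with a root `y ∈ E'` and
  `p.coeff i * s ^ (n - i) ∈ O` for `i < n`; then `y * s ∈ O'`.
* `minpoly_mul_algebraMap`: `minpoly F (f * t) = scaleRoots (minpoly F f) t` for `t ≠ 0`.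
* `minpoly_coeff_mem` (LI (a1)): `F'/F` finite separable, `P` a place of `F`, `z ∈ F'` lying in
  the valuation ring of every place of `F'` over `P`; then `minpoly F z` has coefficients in `O_P`.
* `minpoly_coeff_mul_pow_mem` (LI (a)): if `f * t` lies in the valuation ring of every place of
  `F'` over `P`, the coefficients `a_i` of `minpoly F f` (degree `n`) satisfy
  `a_i * t ^ (n - i) ∈ O_P`.
-/
import Mathlib
import Fermat.Prelude.Def_AlgebraicCurve_DivisorClassGroup

set_option autoImplicit false
set_option linter.unusedSectionVars false
set_option linter.style.haveILetI false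

noncomputable section

namespace Fermat.Agent.S18.LiftI

open Polynomial IsDedekindDomain AlgebraicCurve

/-! ### (b) valuation rings are integrally closed, scaled form -/

/-- **LI (b).** `O ⊆ E` and `O' ⊆ E'` valuation subrings with `O` mapping into `O'`; `p ∈ E[X]`
monic with a root `y ∈ E'` and `p.coeff i * s ^ (deg p - i) ∈ O` for all `i < deg p`.
Then `y * s ∈ O'`. -/
theorem mul_mem_of_root {E E' : Type*} [Field E] [Field E'] [Algebra E E']
    (O : ValuationSubring E) (O' : ValuationSubring E')
    (hO : ∀ x : E, x ∈ O → algebraMap E E' x ∈ O')
    (p : E[X]) (hp : p.Monic) (y : E') (hy : aeval y p = 0) (s : E)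
    (hs : ∀ i, i < p.natDegree → p.coeff i * s ^ (p.natDegree - i) ∈ O) :
    y * algebraMap E E' s ∈ O' := by
  set q0 : E'[X] := (scaleRoots p s).map (algebraMap E E') with hq0
  have hmon : q0.Monic := ((monic_scaleRoots_iff s).mpr hp).map _
  have hlift : q0 ∈ lifts (algebraMap O' E') := by
    rw [lifts_iff_coeff_lifts]
    intro i
    rw [hq0, coeff_map, coeff_scaleRoots]
    have hmem : p.coeff i * s ^ (p.natDegree - i) ∈ O := by
      rcases lt_trichotomy i p.natDegree with h | h | h
      · exact hs i h
      · subst h
        rw [hp.coeff_natDegree]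
        simp [O.one_mem]
      · rw [coeff_eq_zero_of_natDegree_lt h]
        simp [O.zero_mem]
    exact ⟨⟨_, hO _ hmem⟩, rfl⟩
  obtain ⟨q, hq, -, hqm⟩ := lifts_and_natDegree_eq_and_monic hlift hmon
  have hroot : eval₂ (algebraMap O' E') (y * algebraMap E E' s) q = 0 := by
    rw [← eval_map, hq, hq0, eval_map, mul_comm]
    exact scaleRoots_eval₂_eq_zero (algebraMap E E') hy
  have hint : IsIntegral O' (y * algebraMap E E' s) := ⟨q, hqm, hroot⟩
  obtain ⟨r, hr⟩ := IsIntegrallyClosed.isIntegral_iff.mp hint
  rw [← hr]
  exact r.2


/-- minimal polynomial of a scaled element: `minpoly (f * t) = scaleRoots (minpoly f) t` -/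
theorem minpoly_mul_algebraMap {F F' : Type*} [Field F] [Field F'] [Algebra F F'] (f : F')
    (hf : IsIntegral F f) {t : F} (ht : t ≠ 0) :
    minpoly F (f * algebraMap F F' t) = scaleRoots (minpoly F f) t := by
  symm
  refine minpoly.unique F _ ((monic_scaleRoots_iff t).mpr (minpoly.monic hf)) ?_ ?_
  · have := scaleRoots_aeval_eq_zero (p := minpoly F f) (a := f) (r := t) (minpoly.aeval F f)
    rwa [mul_comm] at this
  · intro q hq hq0
    have h1 : aeval f (scaleRoots q t⁻¹) = 0 := by
      have := scaleRoots_aeval_eq_zero (p := q) (a := f * algebraMap F F' t) (r := t⁻¹) hq0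
      rwa [map_inv₀, mul_comm, mul_assoc, mul_inv_cancel₀ (by simpa using ht), mul_one] at this
    have h2 : (minpoly F f).degree ≤ (scaleRoots q t⁻¹).degree :=
      minpoly.min F f ((monic_scaleRoots_iff _).mpr hq) h1
    rw [degree_scaleRoots] at h2 ⊢
    exact h2

/-- every nonzero prime of the integral closure of a DVR contains the image of its maximal
ideal -/
theorem algebraMap_mem_of_not_isUnit {R F' : Type*} [CommRing R] [IsDomain R]
    [IsDiscreteValuationRing R] [Field F'] [Algebra R F']
    (I : Ideal (integralClosure R F')) [I.IsPrime] (hI : I ≠ ⊥) {r : R} (hr : ¬ IsUnit r) :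
    algebraMap R (integralClosure R F') r ∈ I := by
  have hne : I.comap (algebraMap R (integralClosure R F')) ≠ ⊥ := fun h =>
    hI (Ideal.eq_bot_of_comap_eq_bot h)
  have hprime : (I.comap (algebraMap R (integralClosure R F'))).IsPrime := inferInstance
  have hmax : (I.comap (algebraMap R (integralClosure R F'))).IsMaximal :=
    Ring.DimensionLEOne.maximalOfPrime hne hprime
  have heq := IsLocalRing.eq_maximalIdeal hmax
  have : r ∈ I.comap (algebraMap R (integralClosure R F')) := by
    rw [heq]; exact (IsLocalRing.mem_maximalIdeal r).mpr hr
  exact this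

section place

variable {K F F' : Type*} [Field K] [Field F] [Field F'] [Algebra K F] [Algebra K F']
  [Algebra F F'] [IsScalarTower K F F'] [FiniteDimensional F F'] [Algebra.IsSeparable F F']

/-- the `O_P`-algebra structure on `F'` -/
abbrev algOP (P : Place K F) : Algebra P.toValuationSubring F' :=
  ((algebraMap F F').comp (algebraMap P.toValuationSubring F)).toAlgebra

/-- **LI (a1).** `F'/F` finite separable, `P` a place of `F`, and `z ∈ F'` lying in the
valuation ring of every place `P'` of `F'` over `P`.  Then `z` is integral over `O_P`:
its minimal polynomial over `F` has coefficients in `O_P`. -/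
theorem minpoly_coeff_mem (P : Place K F) (z : F')
    (h : ∀ P' : Place K F', (∀ x : F, x ∈ P.toValuationSubring ↔
      algebraMap F F' x ∈ P'.toValuationSubring) → z ∈ P'.toValuationSubring) (i : ℕ) :
    (minpoly F z).coeff i ∈ P.toValuationSubring := by
  letI : Algebra P.toValuationSubring F' := algOP P
  haveI : IsScalarTower P.toValuationSubring F F' := IsScalarTower.of_algebraMap_eq fun _ => rfl
  haveI : IsScalarTower K P.toValuationSubring F' := IsScalarTower.of_algebraMap_eq fun a => by
    rw [IsScalarTower.algebraMap_apply K F F']; rfl
  haveI : IsDedekindDomain (integralClosure P.toValuationSubring F') :=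
    integralClosure.isDedekindDomain P.toValuationSubring F F'
  haveI : IsFractionRing (integralClosure P.toValuationSubring F') F' :=
    IsIntegralClosure.isFractionRing_of_finite_extension P.toValuationSubring F F'
      (integralClosure P.toValuationSubring F')
  haveI : IsScalarTower K (integralClosure P.toValuationSubring F') F' :=
    IsScalarTower.of_algebraMap_eq fun a => rfl
  -- integrality of `z`
  have hz : IsIntegral P.toValuationSubring z := by
    have hval : ∀ w : HeightOneSpectrum (integralClosure P.toValuationSubring F'),
        w.valuation F' z ≤ 1 := by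
      intro w
      have hmem := h (Place.ofHeightOneSpectrum (K := K) w) (fun x => by
        rw [Place.ofHeightOneSpectrum_toValuationSubring, Valuation.mem_valuationSubring_iff]
        constructor
        · intro hx
          have : algebraMap F F' x = algebraMap (integralClosure P.toValuationSubring F') F'
              (algebraMap P.toValuationSubring (integralClosure P.toValuationSubring F')
                ⟨x, hx⟩) := rfl
          rw [this]
          exact w.valuation_le_one _
        · intro hx
          by_contra hxP
          have hx0 : x ≠ 0 := fun h0 => hxP (h0 ▸ P.toValuationSubring.zero_mem)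
          have hxi : x⁻¹ ∈ P.toValuationSubring :=
            (P.toValuationSubring.mem_or_inv_mem x).resolve_left hxP
          have hnu : ¬ IsUnit (⟨x⁻¹, hxi⟩ : P.toValuationSubring) := by
            rintro ⟨u, hu⟩
            apply hxP
            have h1 : ((u⁻¹ : (P.toValuationSubring)ˣ) : P.toValuationSubring) * ⟨x⁻¹, hxi⟩ = 1 := by
              rw [← hu]; exact u.inv_mul
            have h2 : (((u⁻¹ : (P.toValuationSubring)ˣ) : P.toValuationSubring) : F) * x⁻¹ = 1 :=
              congrArg Subtype.val h1
            have h3 : (((u⁻¹ : (P.toValuationSubring)ˣ) : P.toValuationSubring) : F) = x := by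
              field_simp at h2
              exact h2
            rw [← h3]
            exact Subtype.mem _
          have hin := algebraMap_mem_of_not_isUnit (F' := F') w.asIdeal w.ne_bot hnu
          have hlt : w.valuation F' (algebraMap (integralClosure P.toValuationSubring F') F'
              (algebraMap P.toValuationSubring (integralClosure P.toValuationSubring F')
                ⟨x⁻¹, hxi⟩)) < 1 := (w.valuation_lt_one_iff_mem _).mpr hin
          have hrw : algebraMap (integralClosure P.toValuationSubring F') F'
              (algebraMap P.toValuationSubring (integralClosure P.toValuationSubring F')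
                ⟨x⁻¹, hxi⟩) = (algebraMap F F' x)⁻¹ := by
            rw [← map_inv₀]; rfl
          rw [hrw, map_inv₀] at hlt
          have hpos : w.valuation F' (algebraMap F F' x) ≠ 0 := by
            rw [Valuation.ne_zero_iff]
            exact (_root_.map_ne_zero _).mpr hx0
          have : 1 < w.valuation F' (algebraMap F F' x) := by
            by_contra hle
            have hle := not_lt.mp hle
            have := (one_le_inv₀ (zero_lt_iff.mpr hpos)).mpr hle
            exact absurd hlt (not_lt.mpr this)
          exact absurd hx (not_le.mpr this))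
      rwa [Place.ofHeightOneSpectrum_toValuationSubring, Valuation.mem_valuationSubring_iff] at hmem
    obtain ⟨b, hb⟩ := HeightOneSpectrum.mem_integers_of_valuation_le_one F' z hval
    rw [← hb]
    exact b.2
  rw [minpoly.isIntegrallyClosed_eq_field_fractions' F hz, coeff_map]
  exact Subtype.mem _

/-- **LI (a).** `F'/F` finite separable, `P` a place of `F`, `f ∈ F'` and `t ∈ F` such that
`f * t` lies in the valuation ring of every place `P'` of `F'` over `P`.  Then the coefficients
`a_i` of `minpoly F f = ∑ a_i X^i` (of degree `n`) satisfy `a_i * t ^ (n - i) ∈ O_P`. -/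
theorem minpoly_coeff_mul_pow_mem (P : Place K F) (f : F') (t : F)
    (h : ∀ P' : Place K F', (∀ x : F, x ∈ P.toValuationSubring ↔
      algebraMap F F' x ∈ P'.toValuationSubring) →
        f * algebraMap F F' t ∈ P'.toValuationSubring) (i : ℕ) :
    (minpoly F f).coeff i * t ^ ((minpoly F f).natDegree - i) ∈ P.toValuationSubring := by
  have hf : IsIntegral F f := IsIntegral.of_finite F f
  rcases eq_or_ne t 0 with rfl | ht
  · rcases lt_trichotomy i (minpoly F f).natDegree with hi | hi | hi
    · rw [zero_pow (Nat.sub_ne_zero_of_lt hi), mul_zero]; exact zero_mem _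
    · subst hi
      rw [(minpoly.monic hf).coeff_natDegree, Nat.sub_self, pow_zero, mul_one]
      exact one_mem _
    · rw [coeff_eq_zero_of_natDegree_lt hi, zero_mul]; exact zero_mem _
  · have := minpoly_coeff_mem P (f * algebraMap F F' t) h i
    rwa [minpoly_mul_algebraMap f hf ht, coeff_scaleRoots] at this

end place

end Fermat.Agent.S18.LiftI
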