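/-
S18 (torsion injects under reduction), chain LIFT, piece LI, integrality forms (helper15).

For a place `P` of `F` and ANY `O_P`-algebra structure on `F'` compatible with `F → F'`
(`[Algebra P.toValuationSubring F'] [IsScalarTower P.toValuationSubring F F']`):

* `isIntegral_of_forall_mem`: `z` in the valuation ring of every place `P'` of `F'` over `P`
  (`F'/F` finite separable) implies `IsIntegral P.toValuationSubring z`.
* `mem_of_isIntegral`: conversely an element integral over `O_P` lies in every valuation subring
  of `F'` containing the image of `O_P` (no finiteness / separability).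
* `isIntegral_iff_forall_mem`: the equivalence.
-/
import Mathlib
import Fermat.Prelude.Def_AlgebraicCurve_DivisorClassGroup
import Fermat.Agent.S18.LiftIncl

set_option autoImplicit false

noncomputable section

namespace Fermat.Agent.S18.LiftIInt

open Polynomial AlgebraicCurve

/-- an element integral over `O_P` lies in every valuation subring containing the image of
`O_P` -/
theorem mem_of_isIntegral {K F F' : Type*} [Field K] [Field F] [Field F'] [Algebra K F]
    [Algebra F F'] (P : Place K F) [Algebra P.toValuationSubring F']
    [IsScalarTower P.toValuationSubring F F'] {z : F'} (hz : IsIntegral P.toValuationSubring z)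
    (O' : ValuationSubring F')
    (hO : ∀ x : F, x ∈ P.toValuationSubring → algebraMap F F' x ∈ O') : z ∈ O' := by
  obtain ⟨q, hq, hq0⟩ := hz
  have hroot : aeval z (q.map (algebraMap P.toValuationSubring F)) = 0 := by
    rw [aeval_def, eval₂_map, ← IsScalarTower.algebraMap_eq]
    exact hq0
  have := LiftI.mul_mem_of_root P.toValuationSubring O' hO
    (q.map (algebraMap P.toValuationSubring F)) (hq.map _) z hroot 1 (fun i _ => by
      rw [one_pow, mul_one, coeff_map]
      exact Subtype.mem _)
  rwa [map_one, mul_one] at this

variable {K F F' : Type*} [Field K] [Field F] [Field F'] [Algebra K F] [Algebra K F']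
  [Algebra F F'] [IsScalarTower K F F'] [FiniteDimensional F F'] [Algebra.IsSeparable F F']

/-- `z` in the valuation ring of every place of `F'` over `P` is integral over `O_P` -/
theorem isIntegral_of_forall_mem (P : Place K F) [Algebra P.toValuationSubring F']
    [IsScalarTower P.toValuationSubring F F'] (z : F')
    (h : ∀ P' : Place K F', (∀ x : F, x ∈ P.toValuationSubring ↔
      algebraMap F F' x ∈ P'.toValuationSubring) → z ∈ P'.toValuationSubring) :
    IsIntegral P.toValuationSubring z := by
  have hz : IsIntegral F z := IsIntegral.of_finite F z
  have hlift : minpoly F z ∈ lifts (algebraMap P.toValuationSubring F) := by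
    rw [lifts_iff_coeff_lifts]
    intro i
    exact ⟨⟨_, LiftI.minpoly_coeff_mem P z h i⟩, rfl⟩
  obtain ⟨q, hq, -, hqm⟩ := lifts_and_natDegree_eq_and_monic hlift (minpoly.monic hz)
  refine ⟨q, hqm, ?_⟩
  have := minpoly.aeval F z
  rw [← hq, aeval_def, eval₂_map, ← IsScalarTower.algebraMap_eq] at this
  exact this

/-- integrality over `O_P` = membership in all places over `P` -/
theorem isIntegral_iff_forall_mem (P : Place K F) [Algebra P.toValuationSubring F']
    [IsScalarTower P.toValuationSubring F F'] (z : F') :
    IsIntegral P.toValuationSubring z ↔
      ∀ P' : Place K F', (∀ x : F, x ∈ P.toValuationSubring ↔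
        algebraMap F F' x ∈ P'.toValuationSubring) → z ∈ P'.toValuationSubring :=
  ⟨fun hz P' hP' => mem_of_isIntegral P hz P'.toValuationSubring (fun x hx => (hP' x).mp hx),
    isIntegral_of_forall_mem P z⟩

end Fermat.Agent.S18.LiftIInt
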