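import Mathlib
import Fermat.Prelude.Def_AlgebraicCurve_Repartitions

set_option autoImplicit false

/-!
# S18, chain LIFT: the squeeze (generic linear algebra)

* `LiftS.squeeze` : if the reduction of the integral part `WV` of a space lands in `Wbar`, contains
  `n` independent vectors and `dim Wbar ≤ n`, then every element of `Wbar` lifts to `WV`.
* `LiftS.mem_rr_mapDomain` : a function whose divisor is pushed forward to the divisor of its
  reduction: `x ∈ L(G) ⇒ x̄ ∈ L̄(r_* G)`.
* `LiftS.trace_descent` : descent of a lift along a trace that commutes with reduction.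
-/

open AlgebraicCurve

namespace Fermat.Agent.S18.LiftS

/-- **Squeeze.** `WV` an `A`-module (the integral part of a finite-dimensional space), `ρ` its
reduction, semilinear over a surjection `res : A → k`; if `ρ(WV) ⊆ Wbar`, `ρ(WV)` contains `n`
independent vectors and `dim Wbar ≤ n`, then `ρ(WV) = Wbar`. -/
theorem squeeze {A k V κ : Type*} [CommRing A] [Field k] [AddCommGroup V] [Module A V]
    [AddCommGroup κ] [Module k κ] (res : A →+* k) (hres : Function.Surjective res)
    (ρ : V →+ κ) (hρ : ∀ (a : A) (x : V), ρ (a • x) = res a • ρ x)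
    (WV : Submodule A V) (Wbar : Submodule k κ) [Module.Finite k Wbar]
    (hincl : ∀ x ∈ WV, ρ x ∈ Wbar) {n : ℕ} (b : Fin n → V) (hbW : ∀ i, b i ∈ WV)
    (hb : LinearIndependent k (fun i => ρ (b i)))
    (hdim : Module.finrank k Wbar ≤ n) :
    ∀ y ∈ Wbar, ∃ x ∈ WV, ρ x = y := by
  classical
  -- the family `ρ (b i)` inside `Wbar`
  let c : Fin n → Wbar := fun i => ⟨ρ (b i), hincl _ (hbW i)⟩
  have hc : LinearIndependent k c := by
    apply LinearIndependent.of_comp Wbar.subtype
    exact hb
  have hcard : Fintype.card (Fin n) = Module.finrank k Wbar := by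
    have h1 := hc.fintype_card_le_finrank
    rw [Fintype.card_fin] at h1 ⊢
    omega
  have hspan : Submodule.span k (Set.range c) = ⊤ :=
    hc.span_eq_top_of_card_eq_finrank' hcard
  intro y hy
  have hy' : (⟨y, hy⟩ : Wbar) ∈ Submodule.span k (Set.range c) := by
    rw [hspan]; trivial
  obtain ⟨g, hg⟩ := (Submodule.mem_span_range_iff_exists_fun k).mp hy'
  choose a ha using fun i => hres (g i)
  refine ⟨∑ i, a i • b i, WV.sum_mem fun i _ => WV.smul_mem _ (hbW i), ?_⟩
  rw [map_sum]
  have h2 := congrArg (Wbar.subtype) hg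
  rw [map_sum] at h2
  simp only [map_smul, Submodule.subtype_apply] at h2
  rw [← h2]
  refine Finset.sum_congr rfl fun i _ => ?_
  rw [hρ, ha]

variable {K F k Fb : Type*} [Field K] [Field F] [Algebra K F] [Field k] [Field Fb] [Algebra k Fb]

/-- Push-forward of divisors along a map of places is monotone. -/
theorem mapDomain_nonneg (r : Place K F → Place k Fb) {D : Divisor K F} (hD : 0 ≤ D) :
    0 ≤ Finsupp.mapDomain r D := by
  classical
  intro Q
  rw [Finsupp.mapDomain, Finsupp.sum_apply]
  refine Finset.sum_nonneg fun P _ => ?_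
  show 0 ≤ (Finsupp.single (r P) (D P)) Q
  rw [Finsupp.single_apply]
  split_ifs
  · exact hD P
  · exact le_rfl

/-- **Inclusion `red(L(G)) ⊆ L̄(r_* G)`.** If the divisor `D` of `x ≠ 0` is pushed forward by `r`
to the divisor of `xb`, then `x ∈ L(G)` implies `xb ∈ L̄(r_* G)`. -/
theorem mem_rr_mapDomain (r : Place K F → Place k Fb) {x : F} (hx0 : x ≠ 0) {xb : Fb}
    (D : Divisor K F) (hD : ∀ P, D P = P.ord x)
    (hstar : ∀ Q, Finsupp.mapDomain r D Q = Q.ord xb)
    (G : Divisor K F) (hx : x ∈ riemannRochSpace G) :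
    xb ∈ riemannRochSpace (Finsupp.mapDomain r G) := by
  rw [mem_riemannRochSpace_iff] at hx ⊢
  have hDG : 0 ≤ D + G := by
    intro P
    rw [Finsupp.add_apply, hD P]
    rcases hx P with h | h
    · exact absurd h hx0
    · simp only [Finsupp.coe_zero, Pi.zero_apply]
      omega
  have h1 := mapDomain_nonneg r hDG
  rw [Finsupp.mapDomain_add] at h1
  intro Q
  right
  have h2 := h1 Q
  rw [Finsupp.add_apply, hstar Q] at h2
  simp only [Finsupp.coe_zero, Pi.zero_apply] at h2
  omega

/-- **Trace descent.** If the trace `F' → F` preserves the valuation rings and commutes with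
the reductions, and `u = 1/[κ':κ] ∈ V`, then a lift `x' ∈ V'` of an element `hb` of `κ ⊆ κ'`
gives the lift `u · Tr x' ∈ V` of `hb`. -/
theorem trace_descent {F F' κ κ' : Type*} [Field F] [Field F'] [Algebra F F'] [Field κ] [Field κ']
    [Algebra κ κ'] (V : ValuationSubring F) (V' : ValuationSubring F')
    (ρ : V →+* κ) (ρ' : V' →+* κ')
    (htr : ∀ x : V', ∃ h : Algebra.trace F F' (x : F') ∈ V,
      ρ ⟨_, h⟩ = Algebra.trace κ κ' (ρ' x))
    (u : V) (hu : (u : F) * (Module.finrank κ κ' : F) = 1)
    (hb : κ) (x' : V') (hx' : ρ' x' = algebraMap κ κ' hb) :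
    ∃ h : (u : F) * Algebra.trace F F' (x' : F') ∈ V, ρ ⟨_, h⟩ = hb := by
  obtain ⟨h1, h2⟩ := htr x'
  refine ⟨V.mul_mem _ _ u.2 h1, ?_⟩
  have e : (⟨(u : F) * Algebra.trace F F' (x' : F'), V.mul_mem _ _ u.2 h1⟩ : V) =
      u * ⟨_, h1⟩ := rfl
  rw [e, map_mul, h2, hx', Algebra.trace_algebraMap]
  -- `ρ u * (d • hb) = hb`
  have h3 : u * (Module.finrank κ κ' : V) = 1 := by
    apply Subtype.ext
    push_cast
    exact hu
  have h4 := congrArg ρ h3
  rw [map_mul, map_natCast, map_one] at h4
  rw [nsmul_eq_mul, ← mul_assoc, h4, one_mul]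

end Fermat.Agent.S18.LiftS
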