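import Mathlib
import Fermat.Agent.S20.RRBasic
import Fermat.Agent.S18.FundId
import Fermat.Agent.S18.LiftInclInt
import Fermat.Agent.S18.LiftSqueeze

/-!
# S18, chain LIFT, piece LA: the assembled lifting theorem (generic form)

`PB G f` is the pull-back-free form of "`f ∈ L'(π^* G)`" for a divisor `G` of `F` and `f ∈ F'`.

* `LiftA.pb_iff_mem_rr` : `PB G f ↔ f ∈ riemannRochSpace (Divisor.pullback F' G)`.
* `LiftA.lift_top` : **LIFT at the top level** (dimension count + squeeze): if the reduction of
  `L'(π^*G) ∩ V'` lands in `L̄'(π̄^* r_* G)`, finite-dimensional subspaces of `F'` have bases in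
  `V'` with independent reductions, Riemann's inequality holds upstairs with genus `g` and
  `ℓ̄(D̄) ≤ deg D̄ + 1 - g` downstairs for `deg D̄ ≥ c`, and `[F' : F] = [E' : E]`, then every
  element of `L̄'(π̄^* r_* G)` lifts to `L'(π^*G) ∩ V'` (for `deg G ≥ max c 0`).
* `LiftA.lift_mid` : **trace descent** of the lifting property to an intermediate level.
-/

set_option autoImplicit false
set_option linter.unusedSectionVars false

open AlgebraicCurve

namespace Fermat.Agent.S18.LiftA

noncomputable section

section PBdef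

variable {K F F' : Type*} [Field K] [Field F] [Field F'] [Algebra K F] [Algebra K F']
  [Algebra F F']

/-- Pull-back-free form of `f ∈ L'(π^* G)`: for every place `P'` of `F'` over a place `P` of `F`
and every `t ∈ F` of order `G P` at `P`, the product `f * t` is regular at `P'`. -/
def PB (G : Divisor K F) (f : F') : Prop :=
  ∀ (P : Place K F) (P' : Place K F'),
    (∀ x : F, x ∈ P.toValuationSubring ↔ algebraMap F F' x ∈ P'.toValuationSubring) →
      ∀ t : F, P.ord t = G P → f * algebraMap F F' t ∈ P'.toValuationSubring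

variable [IsScalarTower K F F'] [Algebra.IsIntegral F F'] [HasPrincipalDivisors K F']

/-- The pull-back-free form is membership in the Riemann–Roch space of the pulled back divisor. -/
theorem pb_iff_mem_rr (G : Divisor K F) (f : F') :
    PB G f ↔ f ∈ riemannRochSpace (Divisor.pullback F' G) := by
  rw [FundId.mem_riemannRochSpace_pullback_iff]
  constructor
  · intro h w t ht
    exact h (w.restrict F) w (fun x => Iff.rfl) t ht
  · intro h P P' hP t ht
    have hP' : P'.restrict F = P := (FundId.restrict_eq_iff P' P).mpr hP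
    subst hP'
    exact h P' t ht

end PBdef

section Degree

variable {K F k E : Type*} [Field K] [Field F] [Algebra K F] [Field k] [Field E] [Algebra k E]

/-- If all places have degree one, the degree is the sum of the coefficients. -/
theorem degree_eq_sum (hF : ∀ P : Place K F, P.deg = 1) (D : Divisor K F) :
    Divisor.degree D = D.sum fun _ n => n := by
  induction D using Finsupp.induction with
  | zero => simp
  | single_add P n D hP hn ih =>
    rw [map_add, ih, Divisor.degree_single, hF P, Nat.cast_one, mul_one,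
      Finsupp.sum_add_index' (fun _ => rfl) (fun _ _ _ => rfl), Finsupp.sum_single_index rfl]

/-- Push-forward along a map of places preserves the degree (all places of degree one). -/
theorem degree_mapDomain (hF : ∀ P : Place K F, P.deg = 1) (hE : ∀ Q : Place k E, Q.deg = 1)
    (r : Place K F → Place k E) (D : Divisor K F) :
    Divisor.degree (Finsupp.mapDomain r D) = Divisor.degree D := by
  induction D using Finsupp.induction with
  | zero => simp
  | single_add P n D _ _ ih =>
    rw [Finsupp.mapDomain_add, map_add, map_add, ih, Finsupp.mapDomain_single,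
      Divisor.degree_single, Divisor.degree_single, hF, hE]

end Degree

section Top

variable {K F F' : Type*} [Field K] [Field F] [Field F'] [Algebra K F] [Algebra K F']
  [Algebra F F'] [IsScalarTower K F F'] [FiniteDimensional F F'] [Algebra.IsSeparable F F']
  [IsAlgClosed K]
variable {k E E' : Type*} [Field k] [Field E] [Field E'] [Algebra k E] [Algebra k E']
  [Algebra E E'] [IsScalarTower k E E'] [FiniteDimensional E E'] [Algebra.IsSeparable E E']
  [IsAlgClosed k]

/-- **LIFT at the top level.** Dimension count (Riemann upstairs with genus `g`, the bound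
`ℓ̄ ≤ deg + 1 - g` downstairs, equal degrees) and squeeze. -/
theorem lift_top (hF : Fermat.Agent.S20.RR.Hyp0 K F) (hF' : Fermat.Agent.S20.RR.Hyp0 K F')
    (hE : Fermat.Agent.S20.RR.Hyp0 k E) (hE' : Fermat.Agent.S20.RR.Hyp0 k E')
    (A : ValuationSubring K) (res : A →+* k) (hres : Function.Surjective res)
    (V' : ValuationSubring F') (ρ' : V' →+* E')
    (hAV : ∀ a : A, algebraMap K F' (a : K) ∈ V')
    (hρA : ∀ a : A, ρ' ⟨algebraMap K F' (a : K), hAV a⟩ = algebraMap k E' (res a))
    (r : Place K F → Place k E) (G : Divisor K F)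
    (hincl : ∀ f : V', PB G (f : F') → PB (Finsupp.mapDomain r G) (ρ' f))
    (hbasis : ∀ W : Submodule K F', Module.Finite K W →
      ∃ b : Fin (Module.finrank K W) → V', (∀ i, (b i : F') ∈ W) ∧
        LinearIndependent k (fun i => ρ' (b i)))
    (g c : ℤ)
    (hR0 : ∀ D : Divisor K F', Divisor.degree D + 1 - g ≤ (Fermat.Agent.S20.RR.ell D : ℤ))
    (hRl : ∀ D : Divisor k E', c ≤ Divisor.degree D →
      (Fermat.Agent.S20.RR.ell D : ℤ) ≤ Divisor.degree D + 1 - g)
    (hdeg : Module.finrank F F' = Module.finrank E E')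
    (hG : c ≤ Divisor.degree G) (hG0 : 0 ≤ Divisor.degree G) :
    ∀ y : E', PB (Finsupp.mapDomain r G) y → ∃ x : V', PB G (x : F') ∧ ρ' x = y := by
  classical
  have : HasPrincipalDivisors K F' := ⟨hF'.principal⟩
  have : HasPrincipalDivisors k E' := ⟨hE'.principal⟩
  set W : Submodule K F' := riemannRochSpace (Divisor.pullback F' G) with hW
  set Wb : Submodule k E' :=
    riemannRochSpace (Divisor.pullback E' (Finsupp.mapDomain r G)) with hWb
  have hfin : Module.Finite K W := Fermat.Agent.S20.RR.finite hF' _
  have hfinb : Module.Finite k Wb := Fermat.Agent.S20.RR.finite hE' _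
  have hd : (1 : ℤ) ≤ (Module.finrank F F' : ℤ) := by
    have : 0 < Module.finrank F F' := Module.finrank_pos
    omega
  have h1 : Divisor.degree (Divisor.pullback F' G)
      = (Module.finrank F F' : ℤ) * Divisor.degree G :=
    FundId.degree_pullback hF.deg_one hF'.deg_one G
  have h2 : Divisor.degree (Divisor.pullback E' (Finsupp.mapDomain r G))
      = (Module.finrank F F' : ℤ) * Divisor.degree G := by
    rw [FundId.degree_pullback hE.deg_one hE'.deg_one,
      degree_mapDomain hF.deg_one hE.deg_one, hdeg]
  have h3 : c ≤ (Module.finrank F F' : ℤ) * Divisor.degree G := by nlinarith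
  have hn : Module.finrank k Wb ≤ Module.finrank K W := by
    have ha := hR0 (Divisor.pullback F' G)
    have hb := hRl (Divisor.pullback E' (Finsupp.mapDomain r G)) (by rw [h2]; exact h3)
    rw [h1] at ha
    rw [h2] at hb
    have ha' : (Module.finrank F F' : ℤ) * Divisor.degree G + 1 - g ≤ (Module.finrank K W : ℤ) :=
      ha
    have hb' : (Module.finrank k Wb : ℤ) ≤ (Module.finrank F F' : ℤ) * Divisor.degree G + 1 - g :=
      hb
    omega
  obtain ⟨b, hbW, hbind⟩ := hbasis W hfin
  have hbWb : ∀ i, ρ' (b i) ∈ Wb := fun i =>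
    (pb_iff_mem_rr _ _).mp (hincl (b i) ((pb_iff_mem_rr _ _).mpr (hbW i)))
  let cfam : Fin (Module.finrank K W) → Wb := fun i => ⟨ρ' (b i), hbWb i⟩
  have hc : LinearIndependent k cfam := by
    apply LinearIndependent.of_comp Wb.subtype
    exact hbind
  have hcard : Fintype.card (Fin (Module.finrank K W)) = Module.finrank k Wb := by
    have h1 := hc.fintype_card_le_finrank
    rw [Fintype.card_fin] at h1 ⊢
    omega
  have hspan : Submodule.span k (Set.range cfam) = ⊤ :=
    hc.span_eq_top_of_card_eq_finrank' hcard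
  intro y hy
  have hyW : y ∈ Wb := (pb_iff_mem_rr _ _).mp hy
  have hy' : (⟨y, hyW⟩ : Wb) ∈ Submodule.span k (Set.range cfam) := by
    rw [hspan]; trivial
  obtain ⟨gc, hgc⟩ := (Submodule.mem_span_range_iff_exists_fun k).mp hy'
  choose a ha using fun i => hres (gc i)
  refine ⟨∑ i, ⟨algebraMap K F' (a i : K), hAV (a i)⟩ * b i, ?_, ?_⟩
  · rw [pb_iff_mem_rr]
    have hx : ((∑ i, ⟨algebraMap K F' (a i : K), hAV (a i)⟩ * b i : V') : F')
        = ∑ i, (a i : K) • (b i : F') := by
      rw [AddSubmonoidClass.coe_finsetSum]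
      refine Finset.sum_congr rfl fun i _ => ?_
      rw [Algebra.smul_def]
      rfl
    rw [hx]
    exact W.sum_mem fun i _ => W.smul_mem _ (hbW i)
  · rw [map_sum]
    have h2 := congrArg Wb.subtype hgc
    rw [map_sum] at h2
    simp only [map_smul, Submodule.subtype_apply] at h2
    rw [← h2]
    refine Finset.sum_congr rfl fun i _ => ?_
    rw [map_mul, hρA, ha, Algebra.smul_def]

end Top

section Mid

variable {K F F₁ F' : Type*} [Field K] [Field F] [Field F₁] [Field F'] [Algebra K F]
  [Algebra K F₁] [Algebra K F'] [Algebra F F₁] [Algebra F₁ F'] [Algebra F F']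
  [IsScalarTower K F₁ F'] [IsScalarTower F F₁ F']
  [FiniteDimensional F₁ F'] [Algebra.IsSeparable F₁ F']
variable {k E E₁ E' : Type*} [Field k] [Field E] [Field E₁] [Field E'] [Algebra k E]
  [Algebra k E₁] [Algebra k E'] [Algebra E E₁] [Algebra E₁ E'] [Algebra E E']
  [IsScalarTower k E₁ E'] [IsScalarTower E E₁ E'] [Algebra.IsIntegral E₁ E']

/-- The pull-back-free spaces are compatible with a tower (easy direction). -/
theorem pb_algebraMap (Gb : Divisor k E) {y : E₁} (hy : PB Gb y) :
    PB Gb (algebraMap E₁ E' y) := by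
  intro Q Q' hQ s hs
  have hQ₁ : ∀ x : E, x ∈ Q.toValuationSubring ↔
      algebraMap E E₁ x ∈ (Q'.restrict E₁).toValuationSubring := by
    intro x
    rw [hQ x, IsScalarTower.algebraMap_apply E E₁ E']
    exact Iff.rfl
  have h1 := hy Q (Q'.restrict E₁) hQ₁ s hs
  have h2 : algebraMap E₁ E' (y * algebraMap E E₁ s) ∈ Q'.toValuationSubring := h1
  rwa [map_mul, ← IsScalarTower.algebraMap_apply E E₁ E'] at h2

/-- The trace of an element of `L'(π^*G)` (top level) lies in `L₁(π₁^*G)` (intermediate
level), also after multiplication by a constant. -/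
theorem pb_trace (G : Divisor K F) {x : F'} (hx : PB G x) (c : K) :
    PB G (algebraMap K F₁ c * Algebra.trace F₁ F' x) := by
  intro P P₁ hP t ht
  letI : Algebra P₁.toValuationSubring F' := LiftI.algOP P₁
  haveI : IsScalarTower P₁.toValuationSubring F₁ F' := IsScalarTower.of_algebraMap_eq fun _ => rfl
  set z : F' := x * algebraMap F F' t with hz
  have hzint : IsIntegral P₁.toValuationSubring z := by
    refine LiftIInt.isIntegral_of_forall_mem P₁ z fun P' hP' => ?_
    refine hx P P' (fun y => ?_) t ht
    rw [hP y, hP' (algebraMap F F₁ y), ← IsScalarTower.algebraMap_apply F F₁ F']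
  have htr : IsIntegral P₁.toValuationSubring (Algebra.trace F₁ F' z) :=
    Algebra.isIntegral_trace hzint
  obtain ⟨w, hw⟩ := IsIntegrallyClosed.isIntegral_iff.mp htr
  have hmem : Algebra.trace F₁ F' z ∈ P₁.toValuationSubring := by
    rw [← hw]
    exact w.2
  have hz' : z = algebraMap F F₁ t • x := by
    rw [hz, Algebra.smul_def, IsScalarTower.algebraMap_apply F F₁ F', mul_comm]
  rw [hz', map_smul, smul_eq_mul] at hmem
  have hc : algebraMap K F₁ c ∈ P₁.toValuationSubring := P₁.algebraMap_mem' c
  have := P₁.toValuationSubring.mul_mem _ _ hc hmem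
  convert this using 1
  ring

/-- **Trace descent of LIFT** to an intermediate level `F ⊂ F₁ ⊂ F'` (`E ⊂ E₁ ⊂ E'`): if the
trace commutes with the reductions and `[E' : E₁]` is invertible, the lifting property at the
top level implies the lifting property at the intermediate level. -/
theorem lift_mid (V₁ : ValuationSubring F₁) (V' : ValuationSubring F') (ρ₁ : V₁ →+* E₁)
    (ρ' : V' →+* E')
    (htr : ∀ x : V', ∃ h : Algebra.trace F₁ F' (x : F') ∈ V₁,
      ρ₁ ⟨_, h⟩ = Algebra.trace E₁ E' (ρ' x))
    (c : K) (hc : c * (Module.finrank E₁ E' : K) = 1) (hcV : algebraMap K F₁ c ∈ V₁)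
    (r : Place K F → Place k E) (G : Divisor K F)
    (htop : ∀ y : E', PB (Finsupp.mapDomain r G) y → ∃ x : V', PB G (x : F') ∧ ρ' x = y) :
    ∀ y : E₁, PB (Finsupp.mapDomain r G) y → ∃ x : V₁, PB G (x : F₁) ∧ ρ₁ x = y := by
  intro y hy
  obtain ⟨x', hx', hρx'⟩ := htop (algebraMap E₁ E' y) (pb_algebraMap _ hy)
  have hu : ((⟨algebraMap K F₁ c, hcV⟩ : V₁) : F₁) * (Module.finrank E₁ E' : F₁) = 1 := by
    have := congrArg (algebraMap K F₁) hc
    rwa [map_mul, map_natCast, map_one] at this
  obtain ⟨h, hρ⟩ := LiftS.trace_descent V₁ V' ρ₁ ρ' htr ⟨algebraMap K F₁ c, hcV⟩ hu y x' hρx'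
  exact ⟨⟨_, h⟩, pb_trace G hx' c, hρ⟩

end Mid

end

end Fermat.Agent.S18.LiftA
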