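import Mathlib

set_option autoImplicit false

/-!
# S18, chain R, slice R3a: max-pivot reduced echelon form over a valuation ring

For a valuation subring `A` of a field `L` and an `L`-subspace `W` of `ι → L` (`ι` finite) there
are a set `s` of pivot coordinates and vectors `w i ∈ W` (`i ∈ s`) with all coordinates in `A`,
`w i j = δ_ij` on `s`, such that every `x ∈ W` is `∑ i ∈ s, x i • w i`.  In particular
`W ∩ A^ι = ⊕ A w_i` and the reductions of the `w i` are independent over the residue field.
No discreteness or completeness of `A` is needed.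
-/

namespace Fermat.Agent.S18.RE

variable {L : Type*} [Field L] (A : ValuationSubring L)

/-- A coordinate of maximal valuation. -/
theorem exists_pivot {ι : Type*} [Fintype ι] (x : ι → L) (hx : x ≠ 0) :
    ∃ j₀, x j₀ ≠ 0 ∧ ∀ j, x j / x j₀ ∈ A := by
  classical
  have hne : (Finset.univ : Finset ι).Nonempty := by
    by_contra h
    rw [Finset.not_nonempty_iff_eq_empty, Finset.univ_eq_empty_iff] at h
    exact hx (funext fun j => (h.false j).elim)
  obtain ⟨j₀, -, hj₀⟩ := Finset.exists_max_image Finset.univ (fun j => A.valuation (x j)) hne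
  have hx0 : x j₀ ≠ 0 := by
    intro h0
    apply hx
    funext j
    have h1 := hj₀ j (Finset.mem_univ j)
    rw [h0, map_zero] at h1
    exact (map_eq_zero A.valuation).mp (le_antisymm h1 zero_le)
  refine ⟨j₀, hx0, fun j => ?_⟩
  rw [← A.valuation_le_one_iff, map_div₀]
  have hpos : 0 < A.valuation (x j₀) := zero_lt_iff.mpr ((map_ne_zero A.valuation).mpr hx0)
  exact (div_le_one₀ hpos).mpr (hj₀ j (Finset.mem_univ j))

/-- **Max-pivot reduced echelon form** of a subspace of `ι → L` over a valuation ring. -/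
theorem exists_echelon {ι : Type*} [Fintype ι] [DecidableEq ι] (W : Submodule L (ι → L)) :
    ∃ (s : Finset ι) (w : ι → ι → L), (∀ i ∈ s, w i ∈ W) ∧ (∀ i ∈ s, ∀ j, w i j ∈ A) ∧
      (∀ i ∈ s, ∀ j ∈ s, w i j = if i = j then 1 else 0) ∧
      ∀ x ∈ W, x = ∑ i ∈ s, x i • w i := by
  induction' h : Module.finrank L W using Nat.strong_induction_on with n ih generalizing W
  by_cases hW : W = ⊥
  · subst hW
    refine ⟨∅, fun _ _ => 0, by simp, by simp, by simp, fun x hx => ?_⟩
    simp [(Submodule.mem_bot L).mp hx]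
  · obtain ⟨x, hxW, hx0⟩ := Submodule.exists_mem_ne_zero_of_ne_bot hW
    obtain ⟨j₀, hxj, hpiv⟩ := exists_pivot A x hx0
    set u : ι → L := (x j₀)⁻¹ • x with hu
    have huW : u ∈ W := W.smul_mem _ hxW
    have huj : u j₀ = 1 := by simp [hu, hxj]
    have huA : ∀ j, u j ∈ A := fun j => by
      have h1 := hpiv j
      rw [div_eq_inv_mul] at h1
      simpa [hu] using h1
    set W' : Submodule L (ι → L) :=
      W ⊓ LinearMap.ker (LinearMap.proj j₀ : (ι → L) →ₗ[L] L) with hW'
    have hmemW' : ∀ y, y ∈ W' ↔ y ∈ W ∧ y j₀ = 0 := fun y => by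
      rw [hW', Submodule.mem_inf, LinearMap.mem_ker, LinearMap.proj_apply]
    have hlt : Module.finrank L W' < Module.finrank L W := by
      apply Submodule.finrank_lt_finrank_of_lt
      refine lt_of_le_of_ne inf_le_left ?_
      intro heq
      have h1 : u ∈ W' := heq ▸ huW
      have h0 : u j₀ = 0 := ((hmemW' u).mp h1).2
      rw [huj] at h0
      exact one_ne_zero h0
    obtain ⟨s', w', hw'W, hw'A, hw'δ, hw'exp⟩ := ih _ (h ▸ hlt) W' rfl
    -- `j₀` is not a pivot of `W'`
    have hw'j : ∀ i ∈ s', w' i j₀ = 0 := fun i hi => ((hmemW' _).mp (hw'W i hi)).2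
    have hj₀ : j₀ ∉ s' := by
      intro hmem
      have h1 := hw'δ j₀ hmem j₀ hmem
      rw [if_pos rfl, hw'j j₀ hmem] at h1
      exact zero_ne_one h1
    -- the new pivot vector, reduced against the old pivots
    set v : ι → L := u - ∑ i ∈ s', u i • w' i with hv
    have hvW : v ∈ W := W.sub_mem huW (W.sum_mem fun i hi =>
      W.smul_mem _ ((hmemW' _).mp (hw'W i hi)).1)
    have hvapp : ∀ j, v j = u j - ∑ i ∈ s', u i * w' i j := fun j => by
      simp [hv, Finset.sum_apply]
    have hvA : ∀ j, v j ∈ A := fun j => by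
      rw [hvapp]
      exact A.toSubring.sub_mem (huA j)
        (A.toSubring.sum_mem fun i hi => A.toSubring.mul_mem (huA i) (hw'A i hi j))
    have hvj : v j₀ = 1 := by
      rw [hvapp, huj]
      have : ∑ i ∈ s', u i * w' i j₀ = 0 :=
        Finset.sum_eq_zero fun i hi => by rw [hw'j i hi, mul_zero]
      rw [this, sub_zero]
    have hvs : ∀ j ∈ s', v j = 0 := fun j hj => by
      rw [hvapp]
      have : ∑ i ∈ s', u i * w' i j = u j := by
        rw [Finset.sum_eq_single j]
        · rw [hw'δ j hj j hj, if_pos rfl, mul_one]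
        · intro i hi hij
          rw [hw'δ i hi j hj, if_neg hij, mul_zero]
        · intro hj'
          exact absurd hj hj'
      rw [this, sub_self]
    have hwn0 : (fun i => if i = j₀ then v else w' i) j₀ = v := if_pos rfl
    have hwn : ∀ i, i ≠ j₀ → (fun i => if i = j₀ then v else w' i) i = w' i :=
      fun i hi => if_neg hi
    have hne_of_mem : ∀ i ∈ s', i ≠ j₀ := fun i hi e => hj₀ (e ▸ hi)
    refine ⟨insert j₀ s', fun i => if i = j₀ then v else w' i, ?_, ?_, ?_, ?_⟩
    · intro i hi
      rcases Finset.mem_insert.mp hi with hi0 | hi'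
      · rw [hi0, hwn0]; exact hvW
      · rw [hwn i (hne_of_mem i hi')]
        exact ((hmemW' _).mp (hw'W i hi')).1
    · intro i hi j
      rcases Finset.mem_insert.mp hi with hi0 | hi'
      · rw [hi0, hwn0]; exact hvA j
      · rw [hwn i (hne_of_mem i hi')]
        exact hw'A i hi' j
    · intro i hi j hj
      rcases Finset.mem_insert.mp hi with hi0 | hi'
      · rw [hi0, hwn0]
        rcases Finset.mem_insert.mp hj with hj0 | hj'
        · rw [hj0, if_pos rfl]; exact hvj
        · rw [if_neg (fun e => hne_of_mem j hj' e.symm)]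
          exact hvs j hj'
      · rw [hwn i (hne_of_mem i hi')]
        rcases Finset.mem_insert.mp hj with hj0 | hj'
        · rw [hj0, if_neg (hne_of_mem i hi')]
          exact hw'j i hi'
        · exact hw'δ i hi' j hj'
    · intro y hy
      have hy' : y - y j₀ • v ∈ W' := by
        rw [hmemW']
        refine ⟨W.sub_mem hy (W.smul_mem _ hvW), ?_⟩
        simp [hvj]
      have hexp := hw'exp _ hy'
      have hcoef : ∀ i ∈ s', (y - y j₀ • v) i = y i := fun i hi => by
        simp [hvs i hi]
      rw [Finset.sum_insert hj₀, hwn0]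
      have hsum : ∑ i ∈ s', y i • (fun i => if i = j₀ then v else w' i) i =
          ∑ i ∈ s', (y - y j₀ • v) i • w' i := by
        refine Finset.sum_congr rfl fun i hi => ?_
        rw [hwn i (hne_of_mem i hi), hcoef i hi]
      rw [hsum, ← hexp]
      abel

section consequences

variable {ι : Type*} [DecidableEq ι] {s : Finset ι} {w : ι → ι → L}

omit A in
/-- In reduced echelon form the pivot coordinates of a combination are its coefficients. -/
theorem echelon_coord (hδ : ∀ i ∈ s, ∀ j ∈ s, w i j = if i = j then 1 else 0) (a : ι → L)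
    {j : ι} (hj : j ∈ s) : (∑ i ∈ s, a i • w i) j = a j := by
  rw [Finset.sum_apply, Finset.sum_eq_single j]
  · rw [Pi.smul_apply, hδ j hj j hj, if_pos rfl, smul_eq_mul, mul_one]
  · intro i hi hij
    rw [Pi.smul_apply, hδ i hi j hj, if_neg hij, smul_eq_mul, mul_zero]
  · intro hj'
    exact absurd hj hj'

omit [DecidableEq ι] in
/-- Integral vectors of `W` are `A`-combinations of the echelon basis. -/
theorem echelon_integral {W : Submodule L (ι → L)}
    (hexp : ∀ x ∈ W, x = ∑ i ∈ s, x i • w i) {x : ι → L} (hx : x ∈ W) (hxA : ∀ j, x j ∈ A) :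
    ∃ a : ι → L, (∀ i, a i ∈ A) ∧ x = ∑ i ∈ s, a i • w i :=
  ⟨x, hxA, hexp x hx⟩

/-- If a combination of the echelon basis has all coordinates in the maximal ideal, so are its
coefficients: the reductions of the echelon basis are linearly independent. -/
theorem echelon_coeff_mem (hδ : ∀ i ∈ s, ∀ j ∈ s, w i j = if i = j then 1 else 0) (a : ι → L)
    (P : L → Prop) (h : ∀ j, P ((∑ i ∈ s, a i • w i) j)) : ∀ i ∈ s, P (a i) := by
  intro i hi
  have := h i
  rwa [echelon_coord hδ a hi] at this

omit A in
theorem echelon_linearIndependent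
    (hδ : ∀ i ∈ s, ∀ j ∈ s, w i j = if i = j then 1 else 0) :
    LinearIndependent L (fun i : s => w i) := by
  rw [Fintype.linearIndependent_iff]
  intro g hg j
  have h1 : (∑ i : s, g i • w i) j.1 = g j := by
    rw [Finset.sum_apply, Finset.sum_eq_single j]
    · rw [Pi.smul_apply, hδ j j.2 j j.2, if_pos rfl, smul_eq_mul, mul_one]
    · intro i _ hij
      have hne : (i : ι) ≠ j := fun e => hij (Subtype.ext e)
      rw [Pi.smul_apply, hδ i i.2 j j.2, if_neg hne, smul_eq_mul, mul_zero]
    · intro hj'
      exact absurd (Finset.mem_univ j) hj'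
  rw [hg] at h1
  exact h1.symm

omit A [DecidableEq ι] in
theorem echelon_span {W : Submodule L (ι → L)} (hW : ∀ i ∈ s, w i ∈ W)
    (hexp : ∀ x ∈ W, x = ∑ i ∈ s, x i • w i) :
    Submodule.span L (Set.range (fun i : s => w i)) = W := by
  apply le_antisymm
  · rw [Submodule.span_le]
    rintro _ ⟨i, rfl⟩
    exact hW i i.2
  · intro x hx
    rw [hexp x hx]
    refine Submodule.sum_mem _ fun i hi => Submodule.smul_mem _ _ ?_
    exact Submodule.subset_span ⟨⟨i, hi⟩, rfl⟩

omit A in
/-- The number of pivots is the dimension. -/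
theorem echelon_card {W : Submodule L (ι → L)} (hW : ∀ i ∈ s, w i ∈ W)
    (hδ : ∀ i ∈ s, ∀ j ∈ s, w i j = if i = j then 1 else 0)
    (hexp : ∀ x ∈ W, x = ∑ i ∈ s, x i • w i) : Module.finrank L W = s.card := by
  rw [← echelon_span hW hexp, finrank_span_eq_card (echelon_linearIndependent hδ),
    Fintype.card_coe]

end consequences

end Fermat.Agent.S18.RE
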