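/-
S18 (torsion injects under reduction), chain R, piece R3b (helper2): orthonormal bases of
finite-dimensional subspaces of the function field of `X₀(N)` over `ℚ̄` for the Gauss valuation.

Setting: `A` a valuation subring of `ℚ̄` over a prime `ℓ ∤ N`, `k` its residue field,
`F = modularFunctionFieldBar N ⊆ ℚ̄((q))`.  An element `x` of `ℚ̄((q))` is *Gauss-integral* if
`x · b = a` with `a, b ∈ A((q))` and `b̄ ≠ 0`.

* `gen`, `comb`: the coordinate family `j^a · m_i` (`a ≤ D`, `i < ψ(N)`), `m_i` monomials in the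
  `j(q^d)`, and its combinations `∑ v_p · gen p`.
* `comb_eq_zero_residue`: the `J̄^a · m̄_i` are `k`-linearly independent.
* `comb_eq_zero`, `comb_integral`: the `j^a · m_i` are `ℚ̄`-linearly independent, and a
  combination is Gauss-integral only if all its coefficients lie in `A`.
* `exists_orthonormal`: every finite-dimensional `ℚ̄`-subspace `W` of `F` has a basis `w_i`
  with `w_i · S(j) = y_i ∈ A((q))`, `S ∈ A[X]`, `S̄ ≠ 0`, the reductions `ȳ_i` being `k`-linearly
  independent, such that every Gauss-integral `x ∈ W` is an `A`-linear combination of the `w_i`.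

All scalar actions on Laurent series are written as multiplication by constants
`algebraMap R R((q)) c`, to stay clear of the two (propositionally equal) module structures.
-/
import Fermat.Agent.S18.RFamily
import Fermat.Agent.S18.REchelon

set_option autoImplicit false

noncomputable section

open ModularCurve Polynomial IntermediateField

namespace Fermat.Agent.S18.RO

open Fermat.Agent.S28 Fermat.Agent.S18

/-! ### The coordinate family `j^a · m_i` -/

section Gen

variable (N : ℕ) (e : Fin (dedekindPsi N) → ℕ → ℕ) (D : ℕ)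

/-- the family `j^a · m_i`, `i < ψ(N)`, `a ≤ D` -/
def gen (R : Type*) [CommRing R] (p : Fin (dedekindPsi N) × Fin (D + 1)) : LaurentSeries R :=
  jqModC R ^ (p.2 : ℕ) * Mono.mono R N (e p.1)

/-- the combination `∑ v_p · j^a m_i` -/
def comb (R : Type*) [CommRing R] (v : Fin (dedekindPsi N) × Fin (D + 1) → R) : LaurentSeries R :=
  ∑ p, algebraMap R (LaurentSeries R) (v p) * gen N e D R p

theorem coeffMap_gen {R S : Type*} [CommRing R] [CommRing S] (f : R →+* S)
    (p : Fin (dedekindPsi N) × Fin (D + 1)) : coeffMap f (gen N e D R p) = gen N e D S p := by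
  simp only [gen, map_mul, map_pow, coeffMap_jqModC, Mono.coeffMap_mono]

theorem coeffMap_algebraMap' {R S : Type*} [CommRing R] [CommRing S] (f : R →+* S) (c : R) :
    coeffMap f (algebraMap R (LaurentSeries R) c) = algebraMap S (LaurentSeries S) (f c) :=
  congrArg (fun φ : R →+* LaurentSeries S => φ c) (ValBase.coeffMap_comp_algebraMap f)

theorem coeffMap_comb {R S : Type*} [CommRing R] [CommRing S] (f : R →+* S)
    (v : Fin (dedekindPsi N) × Fin (D + 1) → R) :
    coeffMap f (comb N e D R v) = comb N e D S (fun p => f (v p)) := by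
  rw [comb, comb, map_sum]
  refine Finset.sum_congr rfl fun p _ => ?_
  rw [map_mul, coeffMap_algebraMap', coeffMap_gen]

theorem comb_zero (R : Type*) [CommRing R] : comb N e D R 0 = 0 := by
  simp [comb]

theorem comb_add (R : Type*) [CommRing R] (v v' : Fin (dedekindPsi N) × Fin (D + 1) → R) :
    comb N e D R (v + v') = comb N e D R v + comb N e D R v' := by
  simp only [comb, Pi.add_apply, map_add, add_mul, Finset.sum_add_distrib]

theorem comb_smul (R : Type*) [CommRing R] (c : R) (v : Fin (dedekindPsi N) × Fin (D + 1) → R) :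
    comb N e D R (c • v) = algebraMap R (LaurentSeries R) c * comb N e D R v := by
  simp only [comb, Pi.smul_apply, smul_eq_mul, map_mul, Finset.mul_sum, mul_assoc]

theorem comb_sum (R : Type*) [CommRing R] {α : Type*} (s : Finset α) (c : α → R)
    (v : α → Fin (dedekindPsi N) × Fin (D + 1) → R) :
    comb N e D R (∑ i ∈ s, c i • v i) =
      ∑ i ∈ s, algebraMap R (LaurentSeries R) (c i) * comb N e D R (v i) := by
  classical
  induction s using Finset.induction_on with
  | empty => simp [comb_zero]
  | insert a s ha ih => rw [Finset.sum_insert ha, Finset.sum_insert ha, comb_add, comb_smul, ih]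

/-- a combination of the coordinate family is a numerator `∑ T_i(j) m_i` -/
theorem comb_eq_num (R : Type*) [CommRing R]
    (v : Fin (dedekindPsi N) × Fin (D + 1) → R) :
    comb N e D R v =
      RN.num N e R (fun i => ∑ a : Fin (D + 1), Polynomial.monomial (a : ℕ) (v (i, a))) := by
  rw [comb, RN.num, Fintype.sum_prod_type]
  refine Finset.sum_congr rfl fun i _ => ?_
  rw [map_sum, Finset.sum_mul]
  refine Finset.sum_congr rfl fun a _ => ?_
  rw [aeval_monomial, gen, mul_assoc]

theorem coeff_sum_monomial {R : Type*} [CommRing R] (c : Fin (D + 1) → R) (a : Fin (D + 1)) :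
    (∑ b : Fin (D + 1), Polynomial.monomial (b : ℕ) (c b)).coeff (a : ℕ) = c a := by
  classical
  rw [Polynomial.finsetSum_coeff, Finset.sum_eq_single a]
  · rw [Polynomial.coeff_monomial, if_pos rfl]
  · intro b _ hba
    rw [Polynomial.coeff_monomial, if_neg]
    exact fun h => hba (Fin.ext h)
  · intro h
    exact absurd (Finset.mem_univ a) h

/-- the reductions `J̄^a · m̄_i` are linearly independent over the residue field -/
theorem comb_eq_zero_residue {k : Type*} [Field k]
    (he : LinearIndependent ↥(k⟮jqModC k⟯) (fun i => Mono.mono k N (e i)))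
    (g : Fin (dedekindPsi N) × Fin (D + 1) → k) (hg : comb N e D k g = 0) : g = 0 := by
  funext p
  by_contra hp
  rw [comb_eq_num] at hg
  refine RN.num_ne_zero N e he _ ⟨p.1, fun h0 => hp ?_⟩ hg
  have h1 := coeff_sum_monomial D (fun a => g (p.1, a)) p.2
  rw [h0, Polynomial.coeff_zero] at h1
  exact h1.symm

end Gen

/-! ### The main setting -/

section Main

variable (N : ℕ) (A : ValuationSubring (AlgebraicClosure ℚ))
variable (e : Fin (dedekindPsi N) → ℕ → ℕ) (D : ℕ)

/-- the `j^a · m_i` are linearly independent over `ℚ̄` -/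
theorem comb_eq_zero
    (he : LinearIndependent
      ↥((IsLocalRing.ResidueField A)⟮jqModC (IsLocalRing.ResidueField A)⟯)
      (fun i => Mono.mono (IsLocalRing.ResidueField A) N (e i)))
    (v : Fin (dedekindPsi N) × Fin (D + 1) → AlgebraicClosure ℚ)
    (hv : comb N e D (AlgebraicClosure ℚ) v = 0) : v = 0 := by
  by_contra hv0
  obtain ⟨p₀, hp₀, hpiv⟩ := RE.exists_pivot A v hv0
  set vA : Fin (dedekindPsi N) × Fin (D + 1) → ↥A := fun p => ⟨v p / v p₀, hpiv p⟩ with hvA
  have h1 : coeffMap A.subtype (comb N e D A vA) = 0 := by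
    rw [coeffMap_comb]
    have h2 : (fun p => A.subtype (vA p)) = (v p₀)⁻¹ • v := by
      funext p
      simp [hvA, div_eq_inv_mul]
    rw [h2, comb_smul, hv, mul_zero]
  have h3 : comb N e D A vA = 0 := RN.coeffMap_subtype_injective A (by rw [h1, map_zero])
  have h4 := congrArg (coeffMap (IsLocalRing.residue A)) h3
  rw [coeffMap_comb, map_zero] at h4
  have h5 := congrFun (comb_eq_zero_residue N e D he _ h4) p₀
  have h6 : vA p₀ = 1 := Subtype.ext (by simp [hvA, div_self hp₀])
  rw [h6, map_one] at h5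
  exact one_ne_zero h5

/-- orthonormality: a Gauss-integral combination of the `j^a · m_i` has coefficients in `A` -/
theorem comb_integral
    (he : LinearIndependent
      ↥((IsLocalRing.ResidueField A)⟮jqModC (IsLocalRing.ResidueField A)⟯)
      (fun i => Mono.mono (IsLocalRing.ResidueField A) N (e i)))
    (v : Fin (dedekindPsi N) × Fin (D + 1) → AlgebraicClosure ℚ)
    (a b : LaurentSeries A) (hb : coeffMap (IsLocalRing.residue A) b ≠ 0)
    (h : comb N e D (AlgebraicClosure ℚ) v * coeffMap A.subtype b = coeffMap A.subtype a) :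
    ∀ p, v p ∈ A := by
  rw [comb_eq_num] at h
  obtain ⟨T', hT', -⟩ := RF.integral_of_mul_eq N A e he _ a b hb h
  intro p
  have h1 := coeff_sum_monomial D (fun a => v (p.1, a)) p.2
  have h2 := hT' p.1
  rw [h2, Polynomial.coeff_map] at h1
  rw [show p = (p.1, p.2) from rfl, ← h1]
  exact ((T' p.1).coeff (p.2 : ℕ)).2

end Main

/-! ### Orthonormal bases -/

section Ortho

variable (N : ℕ) [NeZero N] (A : ValuationSubring (AlgebraicClosure ℚ))

omit [NeZero N] in
theorem coe_sum_smul {α : Type*} (s : Finset α) (c : α → AlgebraicClosure ℚ)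
    (z : α → ↥(modularFunctionFieldBar N)) :
    (((∑ i ∈ s, c i • z i : ↥(modularFunctionFieldBar N))) : LaurentSeries (AlgebraicClosure ℚ)) =
      ∑ i ∈ s, algebraMap (AlgebraicClosure ℚ) (LaurentSeries (AlgebraicClosure ℚ)) (c i) *
        (z i : LaurentSeries (AlgebraicClosure ℚ)) := by
  rw [AddSubmonoidClass.coe_finsetSum]
  refine Finset.sum_congr rfl fun i _ => ?_
  rw [IntermediateField.coe_smul, Algebra.smul_def]

theorem coeffMap_subtype_aeval_ne_zero {S : (↥A)[X]} (hS : S.map (IsLocalRing.residue A) ≠ 0) :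
    coeffMap A.subtype (aeval (jqModC A) S) ≠ 0 := by
  rw [RF.coeffMap_subtype_aeval]
  intro h0
  have h1 := ValBase.aeval_jqModC_eq_zero _ h0
  apply hS
  have h2 : S = 0 :=
    Polynomial.map_injective _ A.subtype_injective (by rw [h1, Polynomial.map_zero])
  rw [h2, Polynomial.map_zero]

/-- **Orthonormal bases**, indexed by an auxiliary finite type. -/
theorem exists_orthonormal_aux {ℓ : ℕ} [Fact ℓ.Prime] (hℓN : ¬ ℓ ∣ N) (hA : A.LiesOverPrime ℓ)
    (W : Submodule (AlgebraicClosure ℚ) ↥(modularFunctionFieldBar N))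
    [Module.Finite (AlgebraicClosure ℚ) W] :
    ∃ (S : (↥A)[X]) (ι₀ : Type) (_ : Fintype ι₀) (w : ι₀ → ↥(modularFunctionFieldBar N))
      (y : ι₀ → LaurentSeries ↥A),
      S.map (IsLocalRing.residue A) ≠ 0 ∧
      (∀ i, w i ∈ W) ∧
      (∀ i, ((w i : ↥(modularFunctionFieldBar N)) : LaurentSeries (AlgebraicClosure ℚ)) *
          coeffMap A.subtype (aeval (jqModC A) S) = coeffMap A.subtype (y i)) ∧
      (∀ g : ι₀ → IsLocalRing.ResidueField A,
          ∑ i, algebraMap (IsLocalRing.ResidueField A)
            (LaurentSeries (IsLocalRing.ResidueField A)) (g i) *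
              coeffMap (IsLocalRing.residue A) (y i) = 0 → ∀ i, g i = 0) ∧
      LinearIndependent (AlgebraicClosure ℚ) w ∧
      (∀ x ∈ W, ∃ c : ι₀ → AlgebraicClosure ℚ, x = ∑ i, c i • w i) ∧
      (∀ x ∈ W, ∀ a b : LaurentSeries ↥A, coeffMap (IsLocalRing.residue A) b ≠ 0 →
        ((x : ↥(modularFunctionFieldBar N)) : LaurentSeries (AlgebraicClosure ℚ)) *
          coeffMap A.subtype b = coeffMap A.subtype a →
        ∃ c : ι₀ → ↥A, x = ∑ i, (c i : AlgebraicClosure ℚ) • w i) := by
  classical
  obtain ⟨e, he⟩ := RN.exists_indep N A hℓN hA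
  -- a basis of `W` and a common denominator
  have : Module.Free (AlgebraicClosure ℚ) ↥W := Module.Free.of_divisionRing _ _
  let bW := Module.finBasis (AlgebraicClosure ℚ) W
  obtain ⟨S, T, hS, hT⟩ := RF.exists_common_den N A e he
    (fun r => (((bW r : W) : ↥(modularFunctionFieldBar N)) : LaurentSeries (AlgebraicClosure ℚ)))
    (fun r => ((bW r : W) : ↥(modularFunctionFieldBar N)).2)
  set σ : LaurentSeries (AlgebraicClosure ℚ) := coeffMap A.subtype (aeval (jqModC A) S) with hσ
  have hσ0 : σ ≠ 0 := coeffMap_subtype_aeval_ne_zero A hS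
  -- degree bound and coordinates of the basis
  set D : ℕ := Finset.univ.sup (fun p : Fin (Module.finrank (AlgebraicClosure ℚ) W) ×
    Fin (dedekindPsi N) => (T p.1 p.2).natDegree) with hD
  have hdeg : ∀ r i, (T r i).natDegree ≤ D := fun r i =>
    Finset.le_sup (f := fun p : Fin (Module.finrank (AlgebraicClosure ℚ) W) ×
      Fin (dedekindPsi N) => (T p.1 p.2).natDegree) (Finset.mem_univ (r, i))
  let cT : Fin (Module.finrank (AlgebraicClosure ℚ) W) →
      Fin (dedekindPsi N) × Fin (D + 1) → AlgebraicClosure ℚ := fun r p => (T r p.1).coeff (p.2 : ℕ)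
  have hcT : ∀ r, (((bW r : W) : ↥(modularFunctionFieldBar N)) :
      LaurentSeries (AlgebraicClosure ℚ)) * σ = comb N e D (AlgebraicClosure ℚ) (cT r) := by
    intro r
    rw [hT r, comb_eq_num, RN.num]
    refine Finset.sum_congr rfl fun i _ => ?_
    congr 2
    rw [Fin.sum_univ_eq_sum_range (fun a => Polynomial.monomial a ((T r i).coeff a)) (D + 1)]
    exact Polynomial.as_sum_range' (T r i) (D + 1) (Nat.lt_succ_of_le (hdeg r i))
  -- the coordinate subspace
  let W' : Submodule (AlgebraicClosure ℚ)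
      (Fin (dedekindPsi N) × Fin (D + 1) → AlgebraicClosure ℚ) :=
    { carrier := {v | ∃ x ∈ W, ((x : ↥(modularFunctionFieldBar N)) :
        LaurentSeries (AlgebraicClosure ℚ)) * σ = comb N e D (AlgebraicClosure ℚ) v}
      add_mem' := by
        rintro v v' ⟨x, hx, h⟩ ⟨x', hx', h'⟩
        refine ⟨x + x', W.add_mem hx hx', ?_⟩
        rw [comb_add, ← h, ← h', IntermediateField.coe_add, add_mul]
      zero_mem' := ⟨0, W.zero_mem, by rw [comb_zero, IntermediateField.coe_zero, zero_mul]⟩
      smul_mem' := by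
        rintro c v ⟨x, hx, h⟩
        refine ⟨c • x, W.smul_mem c hx, ?_⟩
        rw [comb_smul, ← h, IntermediateField.coe_smul, Algebra.smul_def, mul_assoc] }
  have hcover : ∀ x ∈ W, ∃ v, ((x : ↥(modularFunctionFieldBar N)) :
      LaurentSeries (AlgebraicClosure ℚ)) * σ = comb N e D (AlgebraicClosure ℚ) v := by
    intro x hx
    have hrep := congrArg (fun z : W => (z : ↥(modularFunctionFieldBar N))) (bW.sum_repr ⟨x, hx⟩)
    simp only [Submodule.coe_sum, Submodule.coe_smul] at hrep
    have h0 : ((x : ↥(modularFunctionFieldBar N)) : LaurentSeries (AlgebraicClosure ℚ)) =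
        ∑ r, algebraMap (AlgebraicClosure ℚ) (LaurentSeries (AlgebraicClosure ℚ))
          (bW.repr ⟨x, hx⟩ r) * (((bW r : W) : ↥(modularFunctionFieldBar N)) :
            LaurentSeries (AlgebraicClosure ℚ)) := by
      rw [← coe_sum_smul]
      exact congrArg Subtype.val hrep.symm
    refine ⟨∑ r, bW.repr ⟨x, hx⟩ r • cT r, ?_⟩
    rw [comb_sum, h0, Finset.sum_mul]
    refine Finset.sum_congr rfl fun r _ => ?_
    rw [mul_assoc, hcT r]
  -- echelon form
  obtain ⟨s, wv, hwW, hwA, hδ, hspan⟩ := RE.exists_echelon A W'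
  have hx : ∀ i : ↥s, ∃ x ∈ W, ((x : ↥(modularFunctionFieldBar N)) :
      LaurentSeries (AlgebraicClosure ℚ)) * σ = comb N e D (AlgebraicClosure ℚ) (wv i) :=
    fun i => hwW i i.2
  choose xs hxsW hxs using hx
  let vA : ↥s → Fin (dedekindPsi N) × Fin (D + 1) → ↥A := fun i p => ⟨wv i p, hwA i i.2 p⟩
  have hys : ∀ i, coeffMap A.subtype (comb N e D A (vA i)) =
      comb N e D (AlgebraicClosure ℚ) (wv i) := fun i => by
    rw [coeffMap_comb]
    rfl
  have hvA1 : ∀ j : ↥s, vA j j = 1 := fun j =>
    Subtype.ext (by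
      show wv j j = 1
      rw [hδ j j.2 j j.2, if_pos rfl])
  have hvA0 : ∀ i j : ↥s, i ≠ j → vA i j = 0 := fun i j hij =>
    Subtype.ext (by
      show wv i j = 0
      rw [hδ i i.2 j j.2, if_neg (fun h => hij (Subtype.ext h))])
  -- expansion of the elements of `W`
  have hsp : ∀ x ∈ W, ∃ v : Fin (dedekindPsi N) × Fin (D + 1) → AlgebraicClosure ℚ,
      ((x : ↥(modularFunctionFieldBar N)) : LaurentSeries (AlgebraicClosure ℚ)) * σ =
        comb N e D (AlgebraicClosure ℚ) v ∧ x = ∑ i : ↥s, v i • xs i := by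
    intro x hxW
    obtain ⟨v, hv⟩ := hcover x hxW
    have hvW' : v ∈ W' := ⟨x, hxW, hv⟩
    refine ⟨v, hv, ?_⟩
    have h1 := hspan v hvW'
    have h2 : comb N e D (AlgebraicClosure ℚ) v =
        (∑ i : ↥s, algebraMap (AlgebraicClosure ℚ) (LaurentSeries (AlgebraicClosure ℚ)) (v i) *
          ((xs i : ↥(modularFunctionFieldBar N)) : LaurentSeries (AlgebraicClosure ℚ))) * σ := by
      conv_lhs => rw [h1, ← Finset.sum_coe_sort s (fun i => v i • wv i), comb_sum]
      rw [Finset.sum_mul]
      refine Finset.sum_congr rfl fun i _ => ?_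
      rw [mul_assoc, hxs i]
    apply Subtype.ext
    rw [coe_sum_smul]
    exact mul_right_cancel₀ hσ0 (hv.trans h2)
  refine ⟨S, ↥s, inferInstance, xs, fun i => comb N e D A (vA i), hS, hxsW,
    fun i => by rw [hys i]; exact hxs i, ?_, ?_, ?_, ?_⟩
  · -- residue independence
    intro g hg j
    have h1 : ∑ i, algebraMap (IsLocalRing.ResidueField A)
        (LaurentSeries (IsLocalRing.ResidueField A)) (g i) *
          coeffMap (IsLocalRing.residue A) (comb N e D A (vA i)) =
        comb N e D (IsLocalRing.ResidueField A)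
          (∑ i, g i • fun p => IsLocalRing.residue A (vA i p)) := by
      rw [comb_sum]
      refine Finset.sum_congr rfl fun i _ => ?_
      rw [coeffMap_comb]
    rw [h1] at hg
    have h2 := congrFun (comb_eq_zero_residue N e D he _ hg) (j : Fin (dedekindPsi N) × Fin (D + 1))
    rw [Finset.sum_apply, Finset.sum_eq_single j] at h2
    · simpa [hvA1 j] using h2
    · intro i _ hij
      simp [hvA0 i j hij]
    · intro h
      exact absurd (Finset.mem_univ j) h
  · -- linear independence over `ℚ̄`
    rw [Fintype.linearIndependent_iff]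
    intro g hg j
    have h1 := congrArg (fun z : ↥(modularFunctionFieldBar N) =>
      (z : LaurentSeries (AlgebraicClosure ℚ)) * σ) hg
    simp only [IntermediateField.coe_zero, zero_mul] at h1
    rw [coe_sum_smul, Finset.sum_mul] at h1
    have h2 : comb N e D (AlgebraicClosure ℚ) (∑ i : ↥s, g i • wv i) = 0 := by
      rw [comb_sum, ← h1]
      refine Finset.sum_congr rfl fun i _ => ?_
      rw [mul_assoc, hxs i]
    have h3 := comb_eq_zero N A e D he _ h2
    have hli := RE.echelon_linearIndependent hδ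
    rw [Fintype.linearIndependent_iff] at hli
    exact hli g h3 j
  · -- span
    intro x hxW
    obtain ⟨v, -, hv⟩ := hsp x hxW
    exact ⟨fun i => v i, hv⟩
  · -- integral elements have integral coordinates
    intro x hxW a b hb hab
    obtain ⟨v, hv1, hv2⟩ := hsp x hxW
    have h1 : comb N e D (AlgebraicClosure ℚ) v * coeffMap A.subtype b =
        coeffMap A.subtype (a * aeval (jqModC A) S) := by
      rw [← hv1, mul_right_comm, hab, map_mul]
    have h2 := comb_integral N A e D he v _ b hb h1
    exact ⟨fun i => ⟨v i, h2 i⟩, hv2⟩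

/-- **Orthonormal bases** (R3b): every finite-dimensional `ℚ̄`-subspace `W` of the function
field of `X₀(N)` has a basis `w_i` with `w_i · S(j) = y_i ∈ A((q))` (`S ∈ A[X]`, `S̄ ≠ 0`; in
particular the `w_i` are Gauss-integral), with `k`-linearly independent reductions `ȳ_i`, such
that every Gauss-integral element of `W` is an `A`-linear combination of the `w_i`. -/
theorem exists_orthonormal {ℓ : ℕ} [Fact ℓ.Prime] (hℓN : ¬ ℓ ∣ N) (hA : A.LiesOverPrime ℓ)
    (W : Submodule (AlgebraicClosure ℚ) ↥(modularFunctionFieldBar N))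
    [Module.Finite (AlgebraicClosure ℚ) W] :
    ∃ (S : (↥A)[X])
      (w : Fin (Module.finrank (AlgebraicClosure ℚ) W) → ↥(modularFunctionFieldBar N))
      (y : Fin (Module.finrank (AlgebraicClosure ℚ) W) → LaurentSeries ↥A),
      S.map (IsLocalRing.residue A) ≠ 0 ∧
      (∀ i, w i ∈ W) ∧
      (∀ i, ((w i : ↥(modularFunctionFieldBar N)) : LaurentSeries (AlgebraicClosure ℚ)) *
          coeffMap A.subtype (aeval (jqModC A) S) = coeffMap A.subtype (y i)) ∧
      (∀ g : Fin (Module.finrank (AlgebraicClosure ℚ) W) → IsLocalRing.ResidueField A,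
          ∑ i, algebraMap (IsLocalRing.ResidueField A)
            (LaurentSeries (IsLocalRing.ResidueField A)) (g i) *
              coeffMap (IsLocalRing.residue A) (y i) = 0 → ∀ i, g i = 0) ∧
      LinearIndependent (AlgebraicClosure ℚ) w ∧
      (∀ x ∈ W, ∃ c : Fin (Module.finrank (AlgebraicClosure ℚ) W) → AlgebraicClosure ℚ,
        x = ∑ i, c i • w i) ∧
      (∀ x ∈ W, ∀ a b : LaurentSeries ↥A, coeffMap (IsLocalRing.residue A) b ≠ 0 →
        ((x : ↥(modularFunctionFieldBar N)) : LaurentSeries (AlgebraicClosure ℚ)) *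
          coeffMap A.subtype b = coeffMap A.subtype a →
        ∃ c : Fin (Module.finrank (AlgebraicClosure ℚ) W) → ↥A,
          x = ∑ i, (c i : AlgebraicClosure ℚ) • w i) := by
  classical
  obtain ⟨S, ι₀, _, w, y, hS, hwW, hwy, hind, hli, hspan, hint⟩ :=
    exists_orthonormal_aux N A hℓN hA W
  have hspanW : Submodule.span (AlgebraicClosure ℚ) (Set.range w) = W := by
    apply le_antisymm
    · rw [Submodule.span_le]
      rintro _ ⟨i, rfl⟩
      exact hwW i
    · intro x hx
      obtain ⟨c, hc⟩ := hspan x hx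
      rw [hc]
      exact Submodule.sum_mem _ fun i _ =>
        Submodule.smul_mem _ _ (Submodule.subset_span ⟨i, rfl⟩)
  have hcard : Fintype.card ι₀ = Module.finrank (AlgebraicClosure ℚ) W := by
    conv_rhs => rw [← hspanW]
    exact (finrank_span_eq_card hli).symm
  let eqv : Fin (Module.finrank (AlgebraicClosure ℚ) W) ≃ ι₀ :=
    (Fintype.equivFinOfCardEq hcard).symm
  refine ⟨S, fun i => w (eqv i), fun i => y (eqv i), hS, fun i => hwW _, fun i => hwy _, ?_,
    hli.comp eqv eqv.injective, ?_, ?_⟩
  · intro g hg i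
    have h1 := hind (fun j => g (eqv.symm j)) (by
      rw [← Equiv.sum_comp eqv]
      simpa using hg)
    simpa using h1 (eqv i)
  · intro x hx
    obtain ⟨c, hc⟩ := hspan x hx
    exact ⟨fun i => c (eqv i), by rw [hc, ← Equiv.sum_comp eqv]⟩
  · intro x hx a b hb hab
    obtain ⟨c, hc⟩ := hint x hx a b hb hab
    exact ⟨fun i => c (eqv i), by rw [hc, ← Equiv.sum_comp eqv]⟩

/-! ### Reduction of `A`-linear combinations of an orthonormal family -/

theorem coeffMap_residue_aeval_ne_zero {S : (↥A)[X]} (hS : S.map (IsLocalRing.residue A) ≠ 0) :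
    coeffMap (IsLocalRing.residue A) (aeval (jqModC A) S) ≠ 0 := by
  rw [RF.coeffMap_residue_aeval]
  exact fun h => hS (ValBase.aeval_jqModC_eq_zero _ h)

omit [NeZero N] in
/-- an `A`-linear combination of the `w_i` has numerator `∑ c_i y_i` over the denominator
`S(j)` -/
theorem sum_smul_mul_den {n : ℕ} (S : (↥A)[X]) (w : Fin n → ↥(modularFunctionFieldBar N))
    (y : Fin n → LaurentSeries ↥A)
    (hwy : ∀ i, ((w i : ↥(modularFunctionFieldBar N)) : LaurentSeries (AlgebraicClosure ℚ)) *
      coeffMap A.subtype (aeval (jqModC A) S) = coeffMap A.subtype (y i))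
    (c : Fin n → ↥A) :
    (((∑ i, (c i : AlgebraicClosure ℚ) • w i : ↥(modularFunctionFieldBar N))) :
        LaurentSeries (AlgebraicClosure ℚ)) * coeffMap A.subtype (aeval (jqModC A) S) =
      coeffMap A.subtype (∑ i, algebraMap ↥A (LaurentSeries ↥A) (c i) * y i) := by
  rw [coe_sum_smul, Finset.sum_mul, map_sum]
  refine Finset.sum_congr rfl fun i _ => ?_
  rw [mul_assoc, hwy i, map_mul, RN.coeffMap_subtype_algebraMap]

omit [NeZero N] in
/-- **reduction formula**: if `x = ∑ c_i w_i` (`c_i ∈ A`) and `x · b = a` with `a, b ∈ A((q))`,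
then `(∑ c̄_i ȳ_i) · b̄ = ā · S̄(J̄)`, i.e. `ā / b̄ = ∑ c̄_i · ȳ_i / S̄(J̄)`. -/
theorem reduction_formula {n : ℕ} (S : (↥A)[X]) (w : Fin n → ↥(modularFunctionFieldBar N))
    (y : Fin n → LaurentSeries ↥A)
    (hwy : ∀ i, ((w i : ↥(modularFunctionFieldBar N)) : LaurentSeries (AlgebraicClosure ℚ)) *
      coeffMap A.subtype (aeval (jqModC A) S) = coeffMap A.subtype (y i))
    (c : Fin n → ↥A) (a b : LaurentSeries ↥A)
    (hab : (((∑ i, (c i : AlgebraicClosure ℚ) • w i : ↥(modularFunctionFieldBar N))) :
      LaurentSeries (AlgebraicClosure ℚ)) * coeffMap A.subtype b = coeffMap A.subtype a) :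
    (∑ i, algebraMap (IsLocalRing.ResidueField A) (LaurentSeries (IsLocalRing.ResidueField A))
        (IsLocalRing.residue A (c i)) * coeffMap (IsLocalRing.residue A) (y i)) *
      coeffMap (IsLocalRing.residue A) b =
    coeffMap (IsLocalRing.residue A) a *
      coeffMap (IsLocalRing.residue A) (aeval (jqModC A) S) := by
  have h1 := sum_smul_mul_den N A S w y hwy c
  have h2 : (∑ i, algebraMap ↥A (LaurentSeries ↥A) (c i) * y i) * b =
      a * aeval (jqModC A) S := by
    apply RN.coeffMap_subtype_injective A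
    rw [map_mul, map_mul, ← h1, ← hab]
    ring
  have h3 := congrArg (coeffMap (IsLocalRing.residue A)) h2
  rw [map_mul, map_mul, map_sum] at h3
  rw [← h3]
  congr 1
  refine Finset.sum_congr rfl fun i _ => ?_
  rw [map_mul, RN.coeffMap_residue_algebraMap]

omit [NeZero N] in
/-- **kernel of the reduction**: if `x = ∑ c_i w_i` (`c_i ∈ A`) is `a / b` with `ā = 0 ≠ b̄`,
then all `c_i` lie in the maximal ideal of `A`. -/
theorem coeff_mem_maximalIdeal {n : ℕ} (S : (↥A)[X]) (w : Fin n → ↥(modularFunctionFieldBar N))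
    (y : Fin n → LaurentSeries ↥A)
    (hwy : ∀ i, ((w i : ↥(modularFunctionFieldBar N)) : LaurentSeries (AlgebraicClosure ℚ)) *
      coeffMap A.subtype (aeval (jqModC A) S) = coeffMap A.subtype (y i))
    (hind : ∀ g : Fin n → IsLocalRing.ResidueField A,
      ∑ i, algebraMap (IsLocalRing.ResidueField A)
        (LaurentSeries (IsLocalRing.ResidueField A)) (g i) *
          coeffMap (IsLocalRing.residue A) (y i) = 0 → ∀ i, g i = 0)
    (c : Fin n → ↥A) (a b : LaurentSeries ↥A)
    (hb : coeffMap (IsLocalRing.residue A) b ≠ 0)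
    (hab : (((∑ i, (c i : AlgebraicClosure ℚ) • w i : ↥(modularFunctionFieldBar N))) :
      LaurentSeries (AlgebraicClosure ℚ)) * coeffMap A.subtype b = coeffMap A.subtype a)
    (ha : coeffMap (IsLocalRing.residue A) a = 0) :
    ∀ i, c i ∈ IsLocalRing.maximalIdeal ↥A := by
  have h1 := reduction_formula N A S w y hwy c a b hab
  rw [ha, zero_mul] at h1
  have h2 := (mul_eq_zero.mp h1).resolve_right hb
  intro i
  exact (IsLocalRing.residue_eq_zero_iff _).mp (hind _ h2 i)

end Ortho

end Fermat.Agent.S18.RO
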