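/-
S18 (torsion injects under reduction), chain R, piece R3c (helper2): orthonormal bases in terms
of the Gauss valuation ring `RGB.V N A` of `F_N = ℚ̄(X₀(N))` and its residue map
`RGB.rho : V → F̄_N` (wrappers of `ROrtho.lean` over `RGaussBar.lean`), and the reduction
predicate `IsRed` of `Defs.lean`.

* `isRed_iff`, `isRed_iff_rhoL`: `IsRed A x y ↔ x ∈ V ∧ rho x = y`.
* `exists_basis`: every finite-dimensional `ℚ̄`-subspace `W` of `F_N` has a basis `w_i ∈ V` with
  `k`-linearly independent reductions such that `W ∩ V = ⊕ A · w_i`.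
* `rho_sum_smul`, `coeff_mem_maximalIdeal`, `isRed_sum_smul`: reduction of `A`-combinations.
* `exists_isRed_of_finrank_le`: the dimension squeeze — if the reductions of `W ∩ V` lie in a
  `k`-subspace `W̄` of `F̄_N` with `dim W̄ ≤ dim W`, then every element of `W̄` is the reduction of an
  element of `W ∩ V`.
-/
import Fermat.Agent.S18.ROrtho
import Fermat.Agent.S18.RGaussBar
import Fermat.Agent.S18.Defs

set_option autoImplicit false
set_option synthInstance.maxHeartbeats 400000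

noncomputable section

open ModularCurve Polynomial IntermediateField

namespace Fermat.Agent.S18.ROV

open Fermat.Agent.S28 Fermat.Agent.S18

variable (N : ℕ) [NeZero N] (A : ValuationSubring Qb)

/-! ### `IsRed` and the Gauss valuation ring -/

/-- `IsRed A x y` says that `x` lies in the Gauss valuation ring and reduces to `y`. -/
theorem isRed_iff_rhoL (x : ↥(FN N)) (y : LaurentSeries (Kb A)) :
    IsRed A (x : LaurentSeries Qb) y ↔ ∃ hx : x ∈ RGB.V N A, RG.rhoL A N ⟨x, hx⟩ = y := by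
  constructor
  · rintro ⟨a, b, hb, h1, h2⟩
    have hx : x ∈ RGB.V N A := ⟨a, b, hb, h1⟩
    refine ⟨hx, ?_⟩
    rw [RG.rhoL_eq A N ⟨x, hx⟩ hb h1, div_eq_iff hb, h2]
  · rintro ⟨hx, rfl⟩
    obtain ⟨a, b, hb, h1⟩ := (RG.mem_V A N).mp hx
    refine ⟨a, b, hb, h1, ?_⟩
    rw [RG.rhoL_eq A N ⟨x, hx⟩ hb h1, div_mul_cancel₀ _ hb]

variable {ℓ : ℕ} [Fact ℓ.Prime] (hℓN : ¬ ℓ ∣ N) (hA : A.LiesOverPrime ℓ)

/-- `IsRed A x y` says that `x` lies in the Gauss valuation ring and `rho x = y`. -/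
theorem isRed_iff (x : ↥(FN N)) (y : LaurentSeries (Kb A)) :
    IsRed A (x : LaurentSeries Qb) y ↔
      ∃ hx : x ∈ RGB.V N A,
        ((RGB.rho N hℓN A hA ⟨x, hx⟩ : ↥(FbN A N)) : LaurentSeries (Kb A)) = y :=
  isRed_iff_rhoL N A x y

/-- `IsRed` for elements of `F_N` and `F̄_N`. -/
theorem isRed_iff' (x : ↥(FN N)) (y : ↥(FbN A N)) :
    IsRed A (x : LaurentSeries Qb) (y : LaurentSeries (Kb A)) ↔
      ∃ hx : x ∈ RGB.V N A, RGB.rho N hℓN A hA ⟨x, hx⟩ = y := by
  rw [isRed_iff N A hℓN hA]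
  exact exists_congr fun hx => Subtype.ext_iff.symm

/-! ### Orthonormal bases in the Gauss valuation ring -/

theorem coe_sum_smul' {K E : Type*} [Field K] [Field E] [Algebra K E] (F : IntermediateField K E)
    {α : Type*} (s : Finset α) (c : α → K) (z : α → ↥F) :
    (((∑ i ∈ s, c i • z i : ↥F)) : E) = ∑ i ∈ s, algebraMap K E (c i) * (z i : E) := by
  rw [AddSubmonoidClass.coe_finsetSum]
  refine Finset.sum_congr rfl fun i _ => ?_
  rw [IntermediateField.coe_smul, Algebra.smul_def]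

/-- an `A`-combination of elements of `V` lies in `V` -/
theorem sum_smul_mem {n : ℕ} (w : Fin n → ↥(RGB.V N A)) (a : Fin n → ↥A) :
    (∑ i, (a i : Qb) • ((w i : ↥(RGB.V N A)) : ↥(FN N))) ∈ RGB.V N A := by
  refine sum_mem fun i _ => ?_
  rw [Algebra.smul_def]
  exact (RGB.V N A).mul_mem _ _ (RG.algebraMap_mem_V A N (a i)) (w i).2

/-- `rho` of an `A`-combination -/
theorem rho_sum_smul {n : ℕ} (w : Fin n → ↥(RGB.V N A)) (a : Fin n → ↥A) (x : ↥(RGB.V N A))
    (hx : (x : ↥(FN N)) = ∑ i, (a i : Qb) • ((w i : ↥(RGB.V N A)) : ↥(FN N))) :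
    RGB.rho N hℓN A hA x =
      ∑ i, IsLocalRing.residue A (a i) • RGB.rho N hℓN A hA (w i) := by
  have h1 : x = ∑ i, (⟨algebraMap Qb ↥(FN N) (a i : Qb), RG.algebraMap_mem_V A N (a i)⟩ :
      ↥(RGB.V N A)) * w i := by
    apply Subtype.ext
    rw [hx, AddSubmonoidClass.coe_finsetSum]
    refine Finset.sum_congr rfl fun i _ => ?_
    rw [Algebra.smul_def]
    rfl
  rw [h1, map_sum]
  refine Finset.sum_congr rfl fun i _ => ?_
  rw [map_mul, RGB.rho_algebraMap, Algebra.smul_def]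

/-- **Orthonormal bases** (R3b, in terms of `V` and `rho`): every finite-dimensional
`ℚ̄`-subspace `W` of `F_N` has a basis `w_i` in the Gauss valuation ring whose reductions are
`k`-linearly independent, and every element of `W ∩ V` is an `A`-combination of the `w_i`. -/
theorem exists_basis (W : Submodule Qb ↥(FN N)) [Module.Finite Qb W] :
    ∃ w : Fin (Module.finrank Qb W) → ↥(RGB.V N A),
      (∀ i, ((w i : ↥(RGB.V N A)) : ↥(FN N)) ∈ W) ∧
      LinearIndependent (Kb A) (fun i => RGB.rho N hℓN A hA (w i)) ∧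
      LinearIndependent Qb (fun i => ((w i : ↥(RGB.V N A)) : ↥(FN N))) ∧
      (∀ x ∈ W, ∃ c : Fin (Module.finrank Qb W) → Qb,
        x = ∑ i, c i • ((w i : ↥(RGB.V N A)) : ↥(FN N))) ∧
      (∀ x : ↥(RGB.V N A), (x : ↥(FN N)) ∈ W →
        ∃ a : Fin (Module.finrank Qb W) → ↥A,
          (x : ↥(FN N)) = ∑ i, (a i : Qb) • ((w i : ↥(RGB.V N A)) : ↥(FN N))) := by
  obtain ⟨S, w, y, hS, hwW, hwy, hind, hli, hspan, hint⟩ := RO.exists_orthonormal N A hℓN hA W
  have hb := RO.coeffMap_residue_aeval_ne_zero A hS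
  have hwV : ∀ i, w i ∈ RGB.V N A := fun i => ⟨y i, aeval (jqModC A) S, hb, hwy i⟩
  have hrho : ∀ i, RG.rhoL A N ⟨w i, hwV i⟩ = coeffMap (IsLocalRing.residue A) (y i) /
      coeffMap (IsLocalRing.residue A) (aeval (jqModC A) S) :=
    fun i => RG.rhoL_eq A N ⟨w i, hwV i⟩ hb (hwy i)
  refine ⟨fun i => ⟨w i, hwV i⟩, hwW, ?_, hli, hspan, ?_⟩
  · rw [Fintype.linearIndependent_iff]
    intro g hg i
    refine hind g ?_ i
    have h1 := congrArg (fun z : ↥(FbN A N) => (z : LaurentSeries (Kb A)) *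
      coeffMap (IsLocalRing.residue A) (aeval (jqModC A) S)) hg
    simp only [ZeroMemClass.coe_zero, zero_mul] at h1
    rw [← h1, coe_sum_smul', Finset.sum_mul]
    refine Finset.sum_congr rfl fun i _ => ?_
    rw [RGB.coe_rho, hrho i, mul_assoc, div_mul_cancel₀ _ hb]
  · rintro ⟨x, hxV⟩ hxW
    obtain ⟨a, b, hb', hab⟩ := (RG.mem_V A N).mp hxV
    exact hint x hxW a b hb' hab

/-- **kernel of the reduction**: an `A`-combination of a family with independent reductions
reduces to `0` only if all its coefficients lie in the maximal ideal of `A`. -/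
theorem coeff_mem_maximalIdeal {n : ℕ} (w : Fin n → ↥(RGB.V N A))
    (hind : LinearIndependent (Kb A) (fun i => RGB.rho N hℓN A hA (w i)))
    (a : Fin n → ↥A) (x : ↥(RGB.V N A))
    (hx : (x : ↥(FN N)) = ∑ i, (a i : Qb) • ((w i : ↥(RGB.V N A)) : ↥(FN N)))
    (h0 : RGB.rho N hℓN A hA x = 0) : ∀ i, a i ∈ IsLocalRing.maximalIdeal ↥A := by
  rw [rho_sum_smul N A hℓN hA w a x hx] at h0
  intro i
  exact (IsLocalRing.residue_eq_zero_iff _).mp (Fintype.linearIndependent_iff.mp hind _ h0 i)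

/-- an `A`-combination `∑ a_i w_i` of elements of `V` is Gauss-integral with reduction
`∑ ā_i · rho (w_i)` -/
theorem isRed_sum_smul {n : ℕ} (w : Fin n → ↥(RGB.V N A)) (a : Fin n → ↥A) :
    IsRed A
      (((∑ i, (a i : Qb) • ((w i : ↥(RGB.V N A)) : ↥(FN N)) : ↥(FN N))) : LaurentSeries Qb)
      (((∑ i, IsLocalRing.residue A (a i) • RGB.rho N hℓN A hA (w i) : ↥(FbN A N))) :
        LaurentSeries (Kb A)) := by
  rw [isRed_iff' N A hℓN hA]
  exact ⟨sum_smul_mem N A w a, rho_sum_smul N A hℓN hA w a ⟨_, sum_smul_mem N A w a⟩ rfl⟩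

/-- **dimension squeeze**: if the reductions of the Gauss-integral elements of `W` lie in a
`k`-subspace `W̄` of `F̄_N` with `dim W̄ ≤ dim W`, then every element of `W̄` is the reduction of a
Gauss-integral element of `W`. -/
theorem exists_isRed_of_finrank_le (W : Submodule Qb ↥(FN N)) [Module.Finite Qb W]
    (Wbar : Submodule (Kb A) ↥(FbN A N)) [Module.Finite (Kb A) Wbar]
    (hincl : ∀ x : ↥(RGB.V N A), (x : ↥(FN N)) ∈ W → RGB.rho N hℓN A hA x ∈ Wbar)
    (hdim : Module.finrank (Kb A) Wbar ≤ Module.finrank Qb W) :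
    ∀ y ∈ Wbar, ∃ x ∈ W,
      IsRed A ((x : ↥(FN N)) : LaurentSeries Qb) ((y : ↥(FbN A N)) : LaurentSeries (Kb A)) := by
  obtain ⟨w, hwW, hind, -, -, -⟩ := exists_basis N A hℓN hA W
  intro y hy
  let v : Fin (Module.finrank Qb W) → Wbar :=
    fun i => ⟨RGB.rho N hℓN A hA (w i), hincl (w i) (hwW i)⟩
  have hv : LinearIndependent (Kb A) v := LinearIndependent.of_comp Wbar.subtype hind
  have hcard : Fintype.card (Fin (Module.finrank Qb W)) = Module.finrank (Kb A) Wbar := by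
    rw [Fintype.card_fin]
    exact le_antisymm (by simpa using hv.fintype_card_le_finrank) hdim
  have hspan := hv.span_eq_top_of_card_eq_finrank' hcard
  have hy' : (⟨y, hy⟩ : Wbar) ∈ Submodule.span (Kb A) (Set.range v) := by
    rw [hspan]
    trivial
  obtain ⟨g, hg⟩ := (Submodule.mem_span_range_iff_exists_fun (Kb A)).mp hy'
  choose a ha using fun i => IsLocalRing.residue_surjective (g i)
  refine ⟨∑ i, (a i : Qb) • ((w i : ↥(RGB.V N A)) : ↥(FN N)),
    W.sum_mem fun i _ => W.smul_mem _ (hwW i), ?_⟩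
  have h1 := isRed_sum_smul N A hℓN hA w a
  have h2 : (∑ i, IsLocalRing.residue A (a i) • RGB.rho N hℓN A hA (w i) : ↥(FbN A N)) = y := by
    have h3 := congrArg (fun z : Wbar => (z : ↥(FbN A N))) hg
    simp only [Submodule.coe_sum, Submodule.coe_smul] at h3
    rw [← h3]
    exact Finset.sum_congr rfl fun i _ => by rw [ha i]
  rw [h2] at h1
  exact h1

end Fermat.Agent.S18.ROV
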