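/-
S18 (torsion injects under reduction), chain R / U, piece U-hfg (helper2): finite generation of
the Gauss-integral part of a relative Riemann–Roch space.

For levels `N ∣ M`, `ℓ ∤ M`, and a divisor `G` of `F_N`, the relative Riemann–Roch space
`{x ∈ F_M | UpN.RelIntegral G x}` is the Riemann–Roch space of the pulled back divisor, hence
finite-dimensional over `ℚ̄`; by the orthonormal bases of `ROrthoV.lean` its intersection with the
Gauss valuation ring `RGB.V M A` is a finitely generated (free) `A`-module with a basis whose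
reductions are linearly independent.

* `relIntegral_iff_pb`, `relIntegral_iff_mem_rr`: the generic dictionary
  `UpN.RelIntegral G x ↔ LiftA.PB G x ↔ x ∈ riemannRochSpace (Divisor.pullback F' G)`.
* `relIntegral_iff_mem_rr_bar`, `finite_rr_pullback_bar`: the same at the levels `N ∣ M`.
* `exists_fg`: the hypothesis `hfgD` / `hfg0` of `URel` in its literal shape.
* `exists_basis`: the basis in `RGB.V M A` with independent reductions.
-/
import Fermat.Agent.S18.ROrthoV
import Fermat.Agent.S18.UpNorm
import Fermat.Agent.S18.LiftAsm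
import Fermat.Agent.S18.LiftInclInt
import Fermat.Agent.S18.LiftDeg
import Fermat.Agent.S18.PHyp0

set_option autoImplicit false
set_option synthInstance.maxHeartbeats 400000

noncomputable section

open ModularCurve AlgebraicCurve IntermediateField

namespace Fermat.Agent.S18.ROR

open Fermat.Agent.S18

/-! ### The relative Riemann–Roch space -/

section RelSpace

variable {K F F' : Type*} [Field K] [Field F] [Field F'] [Algebra K F] [Algebra K F']
  [Algebra F F'] [IsScalarTower K F F']

/-- the relative Riemann–Roch space `{x : F' | UpN.RelIntegral G x}` as a `K`-subspace of `F'` -/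
def relSpace (G : Divisor K F) : Submodule K F' where
  carrier := {x | UpN.RelIntegral G x}
  add_mem' := by
    intro x y hx hy P t ht
    rw [add_mul]
    exact (hx P t ht).add (hy P t ht)
  zero_mem' := fun P t _ => by
    rw [zero_mul]
    exact isIntegral_zero
  smul_mem' := by
    intro c x hx P t ht
    have h1 : c • x * algebraMap F F' t =
        algebraMap P.toValuationSubring F' ⟨algebraMap K F c, P.algebraMap_mem' c⟩ *
          (x * algebraMap F F' t) := by
      rw [Algebra.smul_def, IsScalarTower.algebraMap_apply K F F', mul_assoc]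
      rfl
    rw [h1]
    exact isIntegral_algebraMap.mul (hx P t ht)

theorem mem_relSpace (G : Divisor K F) (x : F') :
    x ∈ relSpace (F' := F') G ↔ UpN.RelIntegral G x := Iff.rfl

end RelSpace

/-! ### The generic dictionary -/

section Generic

variable {K F F' : Type*} [Field K] [Field F] [Field F'] [Algebra K F] [Algebra K F']
  [Algebra F F'] [IsScalarTower K F F'] [FiniteDimensional F F'] [Algebra.IsSeparable F F']

/-- integral form = place form of the relative Riemann–Roch condition -/
theorem relIntegral_iff_pb (G : Divisor K F) (x : F') :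
    UpN.RelIntegral G x ↔ LiftA.PB G x := by
  constructor
  · intro h P P' hP t ht
    exact LiftIInt.mem_of_isIntegral P (h P t ht) P'.toValuationSubring
      (fun y hy => (hP y).mp hy)
  · intro h P t ht
    exact LiftIInt.isIntegral_of_forall_mem P _ (fun P' hP' => h P P' hP' t ht)

/-- the relative Riemann–Roch condition is membership in the Riemann–Roch space of the pulled
back divisor -/
theorem relIntegral_iff_mem_rr [HasPrincipalDivisors K F'] (G : Divisor K F) (x : F') :
    UpN.RelIntegral G x ↔ x ∈ riemannRochSpace (Divisor.pullback F' G) := by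
  rw [relIntegral_iff_pb, LiftA.pb_iff_mem_rr]

/-- the relative Riemann–Roch space is the Riemann–Roch space of the pulled back divisor -/
theorem relSpace_eq [HasPrincipalDivisors K F'] (G : Divisor K F) :
    relSpace (F' := F') G = riemannRochSpace (Divisor.pullback F' G) :=
  Submodule.ext fun x => relIntegral_iff_mem_rr G x

end Generic

/-! ### The levels `N ∣ M` -/

section Levels

variable {N M : ℕ} [NeZero N] [NeZero M] (h : N ∣ M)

theorem finite_bar : letI := algOfLE (bar_mono h); Module.Finite ↥(FN N) ↥(FN M) := by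
  letI := algOfLE (bar_mono h)
  exact LiftD.finite_bar h (fun a => algOfLE_algebraMap (bar_mono h) a)

theorem hasPrincipalDivisors_bar : HasPrincipalDivisors Qb ↥(FN M) :=
  ⟨(PHyp.hyp0_bar M).principal⟩

/-- the relative Riemann–Roch space at the levels `N ∣ M` is finite-dimensional -/
theorem finite_relSpace_bar (G : Divisor Qb ↥(FN N)) :
    letI := algOfLE (bar_mono h)
    Module.Finite Qb (relSpace (F' := ↥(FN M)) G) := by
  letI := algOfLE (bar_mono h)
  haveI := isScalarTower_algOfLE (bar_mono h)
  haveI := finite_bar h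
  haveI := hasPrincipalDivisors_bar (M := M)
  rw [relSpace_eq]
  exact S20.RR.finite (PHyp.hyp0_bar M) _

end Levels

/-! ### The Gauss-integral part of the relative Riemann–Roch space -/

section Gauss

variable {N M : ℕ} [NeZero N] [NeZero M] (h : N ∣ M) {ℓ : ℕ} [Fact ℓ.Prime] (hℓM : ¬ ℓ ∣ M)
  (A : ValuationSubring Qb) (hA : A.LiesOverPrime ℓ)

/-- **Orthonormal basis of a relative Riemann–Roch space**: for a divisor `G` of `F_N`, the
space `{x ∈ F_M | UpN.RelIntegral G x}` has a basis in the Gauss valuation ring `RGB.V M A` with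
`k`-linearly independent reductions, and its Gauss-integral elements are the `A`-combinations of
this basis. -/
theorem exists_basis (G : Divisor Qb ↥(FN N)) :
    letI := algOfLE (bar_mono h)
    ∃ (n : ℕ) (w : Fin n → ↥(RGB.V M A)),
      n = Module.finrank Qb (relSpace (F' := ↥(FN M)) G) ∧
      (∀ i, UpN.RelIntegral G ((w i : ↥(RGB.V M A)) : ↥(FN M))) ∧
      LinearIndependent (Kb A) (fun i => RGB.rho M hℓM A hA (w i)) ∧
      (∀ x : ↥(RGB.V M A), UpN.RelIntegral G (x : ↥(FN M)) →
        ∃ a : Fin n → ↥A,
          (x : ↥(FN M)) = ∑ i, (a i : Qb) • ((w i : ↥(RGB.V M A)) : ↥(FN M))) := by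
  letI := algOfLE (bar_mono h)
  haveI := finite_relSpace_bar h G
  obtain ⟨w, hwW, hind, -, -, hint⟩ :=
    ROV.exists_basis M A hℓM hA (relSpace (F' := ↥(FN M)) G)
  exact ⟨_, w, rfl, hwW, hind, fun x hx => hint x hx⟩

/-- **Finite generation** (the hypotheses `hfgD` / `hfg0` of `URel`, literal shape): the
Gauss-integral elements of the relative Riemann–Roch space of `G` are the `A`-combinations of
finitely many of them. -/
theorem exists_fg {N M : ℕ} [NeZero N] [NeZero M] (h : N ∣ M) {ℓ : ℕ} [Fact ℓ.Prime]
    (hℓM : ¬ ℓ ∣ M) (A : ValuationSubring Qb) (hA : A.LiesOverPrime ℓ) (G : Divisor Qb ↥(FN N)) :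
    letI := algOfLE (bar_mono h)
    ∃ (n : ℕ) (b : Fin n → ↥(FN M)), (∀ s, b s ∈ RGB.V M A ∧ UpN.RelIntegral G (b s)) ∧
      ∀ x ∈ RGB.V M A, UpN.RelIntegral G x →
        ∃ a : Fin n → ↥A, x = ∑ s, algebraMap Qb ↥(FN M) (a s : Qb) * b s := by
  letI := algOfLE (bar_mono h)
  obtain ⟨n, w, -, hwW, -, hint⟩ := exists_basis h hℓM A hA G
  refine ⟨n, fun s => ((w s : ↥(RGB.V M A)) : ↥(FN M)), fun s => ⟨(w s).2, hwW s⟩,
    fun x hxV hx => ?_⟩
  obtain ⟨a, ha⟩ := hint ⟨x, hxV⟩ hx
  refine ⟨a, ?_⟩
  rw [show x = ∑ i, (a i : Qb) • ((w i : ↥(RGB.V M A)) : ↥(FN M)) from ha]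
  exact Finset.sum_congr rfl fun s _ => Algebra.smul_def _ _

end Gauss

end Fermat.Agent.S18.ROR
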