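/-
S18 (torsion injects under reduction), chain LIFT input (i) of helper14 #887 (helper15):
separability of the level extensions in characteristic `ℓ`.

* `isSeparable_FbN A hA h hℓM : Algebra.IsSeparable ↥(FbN A N) ↥(FbN A M)` for `N ∣ M`, `ℓ ∤ M`
  (algebra structure `algOfLE (fullC_mono (Kb A) h)`).
* `isSeparable_fullC k ℓ h hℓM` (any algebraically closed `k` of characteristic `ℓ`),
  `isSeparable_fullC'` (ANY algebra structure compatible with the inclusions into `k((q))`).
* `isSeparable_of_adjoin` (generic): `K ⊆ A ⊆ B ⊆ E`, `x₀ ∈ B` with `(x₀ : E) ∈ A` and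
  `B / K(x₀)` separable; then `B / A` is separable.

Input: `CLCentreM0.isSeparable_Jb` (`F̄_M / k(J̄)` is separable because `J̄` has order `-1`, hence
is not an `ℓ`-th power; PFrob).
-/
import Fermat.Agent.S18.CLCentreM0
import Fermat.Agent.S18.Defs
import Fermat.Agent.S18.ResAlgClosed
import Fermat.Agent.S18.RNormal

set_option autoImplicit false
set_option linter.unusedSectionVars false
set_option linter.style.haveILetI false
set_option synthInstance.maxHeartbeats 400000

noncomputable section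

open IntermediateField ModularCurve

namespace Fermat.Agent.S18.SepLevel

universe u

/-- **Separability descends to the top of a tower of intermediate fields** (instance-free form):
`K ⊆ A ⊆ B ⊆ E`, `x₀ ∈ B` with `(x₀ : E) ∈ A` and `B / K(x₀)` separable; then `B / A` is separable,
for ANY algebra structure of `A` on `B` compatible with the inclusions into `E`. -/
theorem isSeparable_of_adjoin {K E : Type*} [Field K] [Field E] [Algebra K E]
    (A B : IntermediateField K E) [Algebra ↥A ↥B]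
    (hc : ∀ a : ↥A, ((algebraMap ↥A ↥B a : ↥B) : E) = (a : E))
    (x₀ : ↥B) (hx₀ : (x₀ : E) ∈ A) [Algebra.IsSeparable ↥(K⟮x₀⟯) ↥B] :
    Algebra.IsSeparable ↥A ↥B := by
  have hmem : ∀ c : ↥(K⟮x₀⟯), ((c : ↥B) : E) ∈ A := by
    intro c
    have h1 : (K⟮x₀⟯).map B.val = K⟮(x₀ : E)⟯ := by
      rw [IntermediateField.adjoin_map]
      simp
    have h2 : ((c : ↥B) : E) ∈ (K⟮x₀⟯).map B.val := ⟨(c : ↥B), c.2, rfl⟩
    rw [h1] at h2
    exact (IntermediateField.adjoin_simple_le_iff.mpr hx₀) h2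
  let φ : ↥(K⟮x₀⟯) →+* ↥A :=
    { toFun := fun c => ⟨((c : ↥B) : E), hmem c⟩
      map_one' := rfl
      map_mul' := fun _ _ => rfl
      map_zero' := rfl
      map_add' := fun _ _ => rfl }
  have hφ : (algebraMap ↥A ↥B).comp φ = algebraMap ↥(K⟮x₀⟯) ↥B := by
    ext c
    exact hc (φ c)
  rw [Algebra.isSeparable_def]
  intro y
  have hsep : (minpoly ↥(K⟮x₀⟯) y).Separable := Algebra.IsSeparable.isSeparable ↥(K⟮x₀⟯) y
  have hroot : Polynomial.aeval y ((minpoly ↥(K⟮x₀⟯) y).map φ) = 0 := by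
    rw [Polynomial.aeval_def, Polynomial.eval₂_map, hφ, ← Polynomial.aeval_def]
    exact minpoly.aeval _ y
  exact (hsep.map (f := φ)).of_dvd (minpoly.dvd ↥A y hroot)

/-- `F̄_M / F̄_N` is separable for `N ∣ M`, `ℓ ∤ M` (any compatible algebra structure). -/
theorem isSeparable_fullC' (k : Type u) [Field k] [IsAlgClosed k] (ℓ : ℕ) [Fact ℓ.Prime]
    [CharP k ℓ] (N M : ℕ) [NeZero M] (hℓM : ¬ ℓ ∣ M)
    [Algebra ↥(modularFunctionFieldFullC k N) ↥(modularFunctionFieldFullC k M)]
    (hc : ∀ a : ↥(modularFunctionFieldFullC k N),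
      ((algebraMap ↥(modularFunctionFieldFullC k N) ↥(modularFunctionFieldFullC k M) a :
        ↥(modularFunctionFieldFullC k M)) : LaurentSeries k) = (a : LaurentSeries k)) :
    Algebra.IsSeparable ↥(modularFunctionFieldFullC k N) ↥(modularFunctionFieldFullC k M) := by
  haveI := CLCentreM0.isSeparable_Jb k ℓ M hℓM
  exact isSeparable_of_adjoin _ _ hc (CLCentreM0.Jb k M) (jqModC_mem_full k N)

/-- `F̄_M / F̄_N` is separable for `N ∣ M`, `ℓ ∤ M`, for the inclusion algebra `algOfLE`. -/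
theorem isSeparable_fullC (k : Type u) [Field k] [IsAlgClosed k] (ℓ : ℕ) [Fact ℓ.Prime]
    [CharP k ℓ] {N M : ℕ} [NeZero M] (h : N ∣ M) (hℓM : ¬ ℓ ∣ M) :
    letI := algOfLE (fullC_mono k h)
    Algebra.IsSeparable ↥(modularFunctionFieldFullC k N) ↥(modularFunctionFieldFullC k M) := by
  letI := algOfLE (fullC_mono k h)
  exact isSeparable_fullC' k ℓ N M hℓM (fun a => algOfLE_algebraMap (fullC_mono k h) a)

/-- **`F̄_M / F̄_N` is separable** (`N ∣ M`, `ℓ ∤ M`), in the notation of `Defs.lean`. -/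
theorem isSeparable_FbN {ℓ : ℕ} [Fact ℓ.Prime] (A : ValuationSubring Qb) (hA : A.LiesOverPrime ℓ)
    {N M : ℕ} [NeZero M] (h : N ∣ M) (hℓM : ¬ ℓ ∣ M) :
    letI := algOfLE (fullC_mono (Kb A) h)
    Algebra.IsSeparable ↥(FbN A N) ↥(FbN A M) := by
  haveI := ResAC.isAlgClosed_residueField A
  haveI := RN.charP_residueField A hA
  exact isSeparable_fullC (Kb A) ℓ h hℓM

end Fermat.Agent.S18.SepLevel
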