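/-
S18 (torsion injects under reduction), chain LIFT, piece LI, `riemannRochSpace` forms (helper15).

"`P'` lies over `P`" is spelled out as
`∀ x : F, x ∈ P.toValuationSubring ↔ algebraMap F F' x ∈ P'.toValuationSubring`, and
"`f ∈ L'(π^* G)`" as
`∀ P P', P' over P → ∀ t : F, P.ord t = G P → f * algebraMap F F' t ∈ P'.toValuationSubring`.

* `minpoly_coeff_mem_rr` (a-RR): `F'/F` finite separable, `f ∈ L'(π^* G)`; then the coefficient
  `a_i` of `minpoly F f` (degree `n`) lies in `riemannRochSpace ((n - i) • G)`.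
* `mul_mem_of_root_rr` (b-RR): `p` monic of degree `n` over `E` with
  `p.coeff i ∈ riemannRochSpace ((n - i) • Gb)` for `i < n`, and `y ∈ E'` a root; then for every
  place `Q` of `E`, every valuation subring `O'` of `E'` containing the image of `O_Q` and every
  `s` with `Q.ord s = Gb Q`: `y * s ∈ O'`.
* `mem_pullback_rr_of_root` : (b-RR) quantified over all places `Q'` over `Q`, i.e. the
  conclusion "`y ∈ L'(π^* Gb)`" in the pull-back-free form above.
-/
import Mathlib
import Fermat.Prelude.Def_AlgebraicCurve_Repartitions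
import Fermat.Agent.S20.RRBasic
import Fermat.Agent.S18.LiftIncl

set_option autoImplicit false

noncomputable section

namespace Fermat.Agent.S18.LiftIRR

open Polynomial AlgebraicCurve Fermat.Agent.S20

/-- `ord` of a natural power -/
theorem ord_pow {K F : Type*} [Field K] [Field F] [Algebra K F] (P : Place K F) (x : F) (m : ℕ) :
    P.ord (x ^ m) = m * P.ord x := by
  have := P.ord_zpow x (m : ℤ)
  rwa [zpow_natCast] at this

/-- an element with prescribed order at a place -/
theorem exists_ord_eq {K F : Type*} [Field K] [Field F] [Algebra K F] (P : Place K F) (m : ℤ) :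
    ∃ t : F, t ≠ 0 ∧ P.ord t = m := by
  obtain ⟨π, hπ⟩ := RR.exists_uniformizer P
  have hπ0 : π ≠ 0 := RR.uniformizer_ne_zero P hπ
  exact ⟨π ^ m, zpow_ne_zero m hπ0, by rw [P.ord_zpow, hπ, mul_one]⟩

/-- `c * s ^ m ∈ O_Q` as soon as `c = 0` or `- m * ord s ≤ ord c` -/
theorem mul_pow_mem {K F : Type*} [Field K] [Field F] [Algebra K F] (Q : Place K F) {c s : F}
    {m : ℕ} (hm : m ≠ 0) (hc : c = 0 ∨ -((m : ℤ) * Q.ord s) ≤ Q.ord c) :
    c * s ^ m ∈ Q.toValuationSubring := by
  rcases eq_or_ne c 0 with rfl | hc0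
  · rw [zero_mul]; exact zero_mem _
  rcases eq_or_ne s 0 with rfl | hs0
  · rw [zero_pow hm, mul_zero]; exact zero_mem _
  rw [RR.mem_valuationSubring_iff]
  right
  rw [Q.ord_mul hc0 (pow_ne_zero m hs0), ord_pow]
  have := hc.resolve_left hc0
  linarith

section a

variable {K F F' : Type*} [Field K] [Field F] [Field F'] [Algebra K F] [Algebra K F']
  [Algebra F F'] [IsScalarTower K F F'] [FiniteDimensional F F'] [Algebra.IsSeparable F F']

/-- **LI (a-RR).** If `f ∈ L'(π^* G)` (pull-back-free form), then the coefficient `a_i` of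
`minpoly F f` (of degree `n`) lies in `L((n - i) • G)`. -/
theorem minpoly_coeff_mem_rr (G : Divisor K F) (f : F')
    (h : ∀ (P : Place K F) (P' : Place K F'),
      (∀ x : F, x ∈ P.toValuationSubring ↔ algebraMap F F' x ∈ P'.toValuationSubring) →
        ∀ t : F, P.ord t = G P → f * algebraMap F F' t ∈ P'.toValuationSubring) (i : ℕ) :
    (minpoly F f).coeff i ∈ riemannRochSpace (((minpoly F f).natDegree - i) • G) := by
  rw [mem_riemannRochSpace_iff]
  intro P
  rcases eq_or_ne ((minpoly F f).coeff i) 0 with hc | hc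
  · exact Or.inl hc
  right
  obtain ⟨t, ht0, ht⟩ := exists_ord_eq P (G P)
  have hmem := LiftI.minpoly_coeff_mul_pow_mem P f t (fun P' hP' => h P P' hP' t ht) i
  rw [RR.mem_valuationSubring_iff] at hmem
  have h0 : (minpoly F f).coeff i * t ^ ((minpoly F f).natDegree - i) ≠ 0 :=
    mul_ne_zero hc (pow_ne_zero _ ht0)
  have h1 := hmem.resolve_left h0
  rw [P.ord_mul hc (pow_ne_zero _ ht0), ord_pow, ht] at h1
  rw [Finsupp.smul_apply, nsmul_eq_mul]
  linarith

end a

section b

variable {k E E' : Type*} [Field k] [Field E] [Field E'] [Algebra k E] [Algebra E E']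

/-- **LI (b-RR).** `p` monic of degree `n` with `p.coeff i ∈ L((n - i) • Gb)` for `i < n` and a
root `y ∈ E'`; then `y * s ∈ O'` for every valuation subring `O'` of `E'` containing the image
of `O_Q` and every `s` with `Q.ord s = Gb Q`. -/
theorem mul_mem_of_root_rr (Gb : Divisor k E) (p : E[X]) (hp : p.Monic) (y : E')
    (hy : aeval y p = 0)
    (hc : ∀ i, i < p.natDegree → p.coeff i ∈ riemannRochSpace ((p.natDegree - i) • Gb))
    (Q : Place k E) (O' : ValuationSubring E')
    (hO : ∀ x : E, x ∈ Q.toValuationSubring → algebraMap E E' x ∈ O')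
    (s : E) (hs : Q.ord s = Gb Q) :
    y * algebraMap E E' s ∈ O' := by
  refine LiftI.mul_mem_of_root Q.toValuationSubring O' hO p hp y hy s (fun i hi => ?_)
  have h1 := (mem_riemannRochSpace_iff.mp (hc i hi)) Q
  rw [Finsupp.smul_apply, nsmul_eq_mul, ← hs] at h1
  exact mul_pow_mem Q (Nat.sub_ne_zero_of_lt hi) h1

/-- **LI (b-RR), place form.** Same hypotheses; conclusion "`y ∈ L'(π^* Gb)`" in the
pull-back-free form. -/
theorem mem_pullback_rr_of_root [Algebra k E'] (Gb : Divisor k E) (p : E[X]) (hp : p.Monic)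
    (y : E') (hy : aeval y p = 0)
    (hc : ∀ i, i < p.natDegree → p.coeff i ∈ riemannRochSpace ((p.natDegree - i) • Gb))
    (Q : Place k E) (Q' : Place k E')
    (hQ : ∀ x : E, x ∈ Q.toValuationSubring ↔ algebraMap E E' x ∈ Q'.toValuationSubring)
    (s : E) (hs : Q.ord s = Gb Q) :
    y * algebraMap E E' s ∈ Q'.toValuationSubring :=
  mul_mem_of_root_rr Gb p hp y hy hc Q Q'.toValuationSubring (fun x hx => (hQ x).mp hx) s hs

end b

end Fermat.Agent.S18.LiftIRR
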