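/-
S18, chain LIFT, piece LT (generic, Mathlib only).

Setting: a finite field extension `F ⊂ F'`, valuation subrings `V ⊂ F`, `V' ⊂ F'` with
`V' ∩ F = V`, residue-type maps `ρ : V →+* κ`, `ρ' : V' →+* κ'` (with `ρ'` surjective) which
are compatible with a field extension `κ ⊂ κ'`.

* `RedPair.finrank_le` : `[κ' : κ] ≤ [F' : F]` (fundamental inequality).
* if moreover `[F' : F] ≤ [κ' : κ]`, lifts of a `κ`-basis of `κ'` form an `F`-basis of `F'`
  which is "orthonormal" (`RedPair.exists_basis`, `RedPair.repr_mem`), and consequently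
  - `RedPair.trace_mem_and_red` : the trace of an element of `V'` lies in `V` and reduction
    commutes with the trace;
  - `RedPair.exists_monic_map_eq_minpoly` : the minimal polynomial over `F` of an element of
    `V'` has coefficients in `V`, and its reduction kills the reduction of the element.
-/
import Mathlib

set_option autoImplicit false

noncomputable section

namespace Fermat.Agent.S18.LiftT

open IsLocalRing Polynomial

variable {F F' κ κ' : Type*} [Field F] [Field F'] [Algebra F F'] [Field κ] [Field κ']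
  [Algebra κ κ']

/-- The hypotheses of piece LT: `V'` lies over `V`, `ρ'` is onto, and the two reduction maps
are compatible. -/
structure RedPair (V : ValuationSubring F) (V' : ValuationSubring F')
    (ρ : V →+* κ) (ρ' : V' →+* κ') : Prop where
  mem_iff : ∀ x : F, algebraMap F F' x ∈ V' ↔ x ∈ V
  surj' : Function.Surjective ρ'
  compat : ∀ (x : V) (hx : algebraMap F F' (x : F) ∈ V'),
    ρ' ⟨algebraMap F F' (x : F), hx⟩ = algebraMap κ κ' (ρ x)

namespace RedPair

variable {V : ValuationSubring F} {V' : ValuationSubring F'} {ρ : V →+* κ} {ρ' : V' →+* κ'}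

/-- The inclusion `V → V'`. -/
def incl (h : RedPair V V' ρ ρ') : V →+* V' :=
  ((algebraMap F F').comp V.subtype).codRestrict V'.toSubring
    (fun x => (h.mem_iff (x : F)).mpr x.2)

theorem coe_incl (h : RedPair V V' ρ ρ') (x : V) :
    ((h.incl x : V') : F') = algebraMap F F' (x : F) := rfl

theorem rho'_incl (h : RedPair V V' ρ ρ') (x : V) :
    ρ' (h.incl x) = algebraMap κ κ' (ρ x) :=
  h.compat x _

theorem rho'_eq_zero_of_not_isUnit (h : RedPair V V' ρ ρ') {y : V'} (hy : ¬ IsUnit y) :
    ρ' y = 0 := by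
  have hmax : (RingHom.ker ρ').IsMaximal := RingHom.ker_isMaximal_of_surjective ρ' h.surj'
  have hker : RingHom.ker ρ' = maximalIdeal V' := IsLocalRing.eq_maximalIdeal hmax
  have hy' : y ∈ maximalIdeal V' := (IsLocalRing.mem_maximalIdeal y).mpr hy
  rw [← hker] at hy'
  exact (RingHom.mem_ker).mp hy'

theorem rho'_sum_incl_mul (h : RedPair V V' ρ ρ') {ι : Type*} [Fintype ι] (e : ι → V')
    (d : ι → V) :
    ρ' (∑ i, h.incl (d i) * e i) = ∑ i, ρ (d i) • ρ' (e i) := by
  rw [map_sum]
  refine Finset.sum_congr rfl fun i _ => ?_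
  rw [map_mul, h.rho'_incl, Algebra.smul_def]

/-- Technical core: after dividing by a coefficient of maximal valuation, the reduction of
the combination cannot vanish. -/
theorem scaled_false (h : RedPair V V' ρ ρ') {ι : Type*} [Fintype ι] (e : ι → V')
    (hli : LinearIndependent κ (fun i => ρ' (e i))) (c : ι → F) (j : ι) (hj0 : c j ≠ 0)
    (hmax : ∀ i, V.valuation (c i) ≤ V.valuation (c j))
    (hz : ∀ hmem : (∑ i, (c i / c j) • ((e i : V') : F')) ∈ V',
      ρ' ⟨∑ i, (c i / c j) • ((e i : V') : F'), hmem⟩ = 0) : False := by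
  have hvj : 0 < V.valuation (c j) := by
    rw [zero_lt_iff]
    exact (Valuation.ne_zero_iff _).mpr hj0
  have hd : ∀ i, c i / c j ∈ V := by
    intro i
    rw [← ValuationSubring.valuation_le_one_iff, map_div₀]
    exact (div_le_one₀ hvj).mpr (hmax i)
  set d : ι → V := fun i => ⟨c i / c j, hd i⟩ with hddef
  have hcoe : ((∑ i, h.incl (d i) * e i : V') : F') = ∑ i, (c i / c j) • ((e i : V') : F') := by
    rw [← ValuationSubring.subtype_apply, map_sum]
    refine Finset.sum_congr rfl fun i _ => ?_
    rw [ValuationSubring.subtype_apply, MulMemClass.coe_mul, h.coe_incl, Algebra.smul_def]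
  have hmem : (∑ i, (c i / c j) • ((e i : V') : F')) ∈ V' := by
    rw [← hcoe]; exact SetLike.coe_mem _
  have h0 : ρ' (∑ i, h.incl (d i) * e i) = 0 := by
    have heq : (∑ i, h.incl (d i) * e i : V') = ⟨_, hmem⟩ := Subtype.ext hcoe
    rw [heq]
    exact hz hmem
  rw [h.rho'_sum_incl_mul] at h0
  have hj := Fintype.linearIndependent_iff.mp hli (fun i => ρ (d i)) h0 j
  have hdj : d j = 1 := Subtype.ext (by simp [hddef, div_self hj0])
  rw [hdj, map_one] at hj
  exact one_ne_zero hj

/-- Lifts of a `κ`-independent family are `F`-independent. -/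
theorem linearIndependent_lift (h : RedPair V V' ρ ρ') {ι : Type*} [Fintype ι] (e : ι → V')
    (hli : LinearIndependent κ (fun i => ρ' (e i))) :
    LinearIndependent F (fun i => ((e i : V') : F')) := by
  classical
  rw [Fintype.linearIndependent_iff]
  intro c hc
  by_contra hne
  push Not at hne
  obtain ⟨i₀, hi₀⟩ := hne
  obtain ⟨j, -, hj⟩ := Finset.exists_max_image Finset.univ (fun i => V.valuation (c i))
    ⟨i₀, Finset.mem_univ _⟩
  have hj0 : c j ≠ 0 := by
    intro h0
    have h1 := hj i₀ (Finset.mem_univ _)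
    rw [h0, map_zero] at h1
    exact hi₀ ((Valuation.zero_iff _).mp (le_antisymm h1 zero_le))
  refine h.scaled_false e hli c j hj0 (fun i => hj i (Finset.mem_univ _)) ?_
  intro hmem
  have hzero : (∑ i, (c i / c j) • ((e i : V') : F')) = 0 := by
    have : (∑ i, (c i / c j) • ((e i : V') : F')) = (c j)⁻¹ • ∑ i, c i • ((e i : V') : F') := by
      rw [Finset.smul_sum]
      refine Finset.sum_congr rfl fun i _ => ?_
      rw [smul_smul, div_eq_inv_mul]
    rw [this, hc, smul_zero]
  have : (⟨_, hmem⟩ : V') = 0 := Subtype.ext hzero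
  rw [this, map_zero]

/-- Orthonormality: if a combination of lifts of a `κ`-independent family lies in `V'`, then
all its coefficients lie in `V`. -/
theorem coeff_mem (h : RedPair V V' ρ ρ') {ι : Type*} [Fintype ι] (e : ι → V')
    (hli : LinearIndependent κ (fun i => ρ' (e i))) (c : ι → F)
    (hc : ∑ i, c i • ((e i : V') : F') ∈ V') : ∀ i, c i ∈ V := by
  classical
  by_contra hne
  push Not at hne
  obtain ⟨i₀, hi₀⟩ := hne
  obtain ⟨j, -, hj⟩ := Finset.exists_max_image Finset.univ (fun i => V.valuation (c i))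
    ⟨i₀, Finset.mem_univ _⟩
  have hjV : c j ∉ V := by
    intro hmem
    apply hi₀
    rw [← ValuationSubring.valuation_le_one_iff] at hmem ⊢
    exact (hj i₀ (Finset.mem_univ _)).trans hmem
  have hj0 : c j ≠ 0 := fun h0 => hjV (h0 ▸ V.zero_mem)
  refine h.scaled_false e hli c j hj0 (fun i => hj i (Finset.mem_univ _)) ?_
  intro hmem
  have hinv : (c j)⁻¹ ∈ V := (V.mem_or_inv_mem (c j)).resolve_left hjV
  set w : V' := h.incl ⟨(c j)⁻¹, hinv⟩ with hw
  have hwu : ¬ IsUnit w := by
    rintro ⟨u, hu⟩
    apply hjV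
    rw [← h.mem_iff]
    have h1 : ((u⁻¹ : V'ˣ) : V') * w = 1 := by rw [← hu]; exact u.inv_mul
    have h2 : (((u⁻¹ : V'ˣ) : V') : F') * algebraMap F F' (c j)⁻¹ = 1 := by
      have := congrArg (fun z : V' => (z : F')) h1
      simpa [hw, h.coe_incl] using this
    have h3 : algebraMap F F' (c j) = (((u⁻¹ : V'ˣ) : V') : F') := by
      rw [map_inv₀] at h2
      have hne : algebraMap F F' (c j) ≠ 0 := by simpa using hj0
      field_simp at h2
      exact h2.symm
    rw [h3]
    exact SetLike.coe_mem _
  have hsplit : (⟨_, hmem⟩ : V') = w * ⟨_, hc⟩ := by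
    apply Subtype.ext
    rw [MulMemClass.coe_mul, hw, h.coe_incl]
    show (∑ i, (c i / c j) • ((e i : V') : F')) = algebraMap F F' (c j)⁻¹ * ∑ i, c i • ((e i : V') : F')
    rw [← Algebra.smul_def, Finset.smul_sum]
    refine Finset.sum_congr rfl fun i _ => ?_
    rw [smul_smul, div_eq_inv_mul]
  rw [hsplit, map_mul, h.rho'_eq_zero_of_not_isUnit hwu, zero_mul]

/-- The fundamental inequality `[κ' : κ] ≤ [F' : F]`. -/
theorem finrank_le (h : RedPair V V' ρ ρ') [FiniteDimensional F F'] :
    Module.finrank κ κ' ≤ Module.finrank F F' := by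
  classical
  by_cases hfin : Module.Finite κ κ'
  · set bκ := Module.finBasis κ κ' with hbκ
    choose e he using fun i => h.surj' (bκ i)
    have hli : LinearIndependent κ (fun i => ρ' (e i)) := by
      have : (fun i => ρ' (e i)) = bκ := funext he
      rw [this]; exact bκ.linearIndependent
    have := (h.linearIndependent_lift e hli).fintype_card_le_finrank
    simpa using this
  · rw [Module.finrank_of_not_finite hfin]
    exact Nat.zero_le _

/-- An orthonormal basis: lifts of a `κ`-basis of `κ'` form an `F`-basis of `F'`. -/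
theorem exists_basis (h : RedPair V V' ρ ρ') [FiniteDimensional F F']
    (hdeg : Module.finrank F F' ≤ Module.finrank κ κ') :
    ∃ (n : ℕ) (b : Module.Basis (Fin n) F F') (bκ : Module.Basis (Fin n) κ κ')
      (e : Fin n → V'), (∀ i, b i = ((e i : V') : F')) ∧ (∀ i, bκ i = ρ' (e i)) := by
  classical
  have hpos : 0 < Module.finrank κ κ' := lt_of_lt_of_le Module.finrank_pos hdeg
  have : Module.Finite κ κ' := Module.finite_of_finrank_pos hpos
  have : Nonempty (Fin (Module.finrank κ κ')) := ⟨⟨0, hpos⟩⟩
  set bκ := Module.finBasis κ κ' with hbκ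
  choose e he using fun i => h.surj' (bκ i)
  have hli : LinearIndependent κ (fun i => ρ' (e i)) := by
    have : (fun i => ρ' (e i)) = bκ := funext he
    rw [this]; exact bκ.linearIndependent
  have hliF := h.linearIndependent_lift e hli
  have hcard : Fintype.card (Fin (Module.finrank κ κ')) = Module.finrank F F' := by
    rw [Fintype.card_fin]
    exact le_antisymm h.finrank_le hdeg
  refine ⟨Module.finrank κ κ', basisOfLinearIndependentOfCardEqFinrank hliF hcard, bκ, e, ?_, ?_⟩
  · intro i
    rw [coe_basisOfLinearIndependentOfCardEqFinrank]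
  · intro i
    exact (he i).symm

section Basis

variable (h : RedPair V V' ρ ρ') {n : ℕ} (b : Module.Basis (Fin n) F F')
  (bκ : Module.Basis (Fin n) κ κ') (e : Fin n → V')
  (hb : ∀ i, b i = ((e i : V') : F')) (hbκ : ∀ i, bκ i = ρ' (e i))

include h hb hbκ

theorem repr_mem (x : V') (i : Fin n) : b.repr (x : F') i ∈ V := by
  have hli : LinearIndependent κ (fun i => ρ' (e i)) := by
    have : (fun i => ρ' (e i)) = bκ := funext fun i => (hbκ i).symm
    rw [this]; exact bκ.linearIndependent
  refine h.coeff_mem e hli (fun i => b.repr (x : F') i) ?_ i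
  have : ∑ i, b.repr (x : F') i • ((e i : V') : F') = (x : F') := by
    simp_rw [← hb]
    exact b.sum_repr _
  rw [this]
  exact x.2

theorem eq_sum_incl (x : V') :
    x = ∑ i, h.incl ⟨b.repr (x : F') i, repr_mem h b bκ e hb hbκ x i⟩ * e i := by
  apply Subtype.ext
  have h1 : ((∑ i, h.incl ⟨b.repr (x : F') i, repr_mem h b bκ e hb hbκ x i⟩ * e i : V') : F')
      = ∑ i, b.repr (x : F') i • b i := by
    rw [AddSubmonoidClass.coe_finsetSum]
    refine Finset.sum_congr rfl fun i _ => ?_
    rw [MulMemClass.coe_mul, coe_incl, hb, Algebra.smul_def]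
  rw [h1, b.sum_repr]

theorem rho'_eq_sum (x : V') :
    ρ' x = ∑ i, ρ ⟨b.repr (x : F') i, repr_mem h b bκ e hb hbκ x i⟩ • bκ i := by
  conv_lhs => rw [eq_sum_incl h b bκ e hb hbκ x]
  rw [h.rho'_sum_incl_mul]
  simp_rw [← hbκ]

theorem repr_rho' (x : V') (i : Fin n) :
    bκ.repr (ρ' x) i = ρ ⟨b.repr (x : F') i, repr_mem h b bκ e hb hbκ x i⟩ := by
  rw [rho'_eq_sum h b bκ e hb hbκ x, Module.Basis.repr_sum_self]

/-- `ker ρ' = ⊕ (ker ρ) e_i`. -/
theorem rho'_eq_zero_iff (x : V') :
    ρ' x = 0 ↔ ∀ i, ρ ⟨b.repr (x : F') i, repr_mem h b bκ e hb hbκ x i⟩ = 0 := by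
  constructor
  · intro hx i
    rw [← repr_rho' h b bκ e hb hbκ x i, hx]
    simp
  · intro hx
    rw [rho'_eq_sum h b bκ e hb hbκ x]
    exact Finset.sum_eq_zero fun i _ => by rw [hx i, zero_smul]

theorem leftMulMatrix_mem (x : V') (i j : Fin n) :
    Algebra.leftMulMatrix b (x : F') i j ∈ V := by
  rw [Algebra.leftMulMatrix_eq_repr_mul, hb j]
  exact repr_mem h b bκ e hb hbκ (x * e j) i

theorem leftMulMatrix_red (x : V') (i j : Fin n) :
    Algebra.leftMulMatrix bκ (ρ' x) i j =
      ρ ⟨Algebra.leftMulMatrix b (x : F') i j, leftMulMatrix_mem h b bκ e hb hbκ x i j⟩ := by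
  rw [Algebra.leftMulMatrix_eq_repr_mul, hbκ j, ← map_mul, repr_rho' h b bκ e hb hbκ (x * e j) i]
  congr 1
  apply Subtype.ext
  show b.repr (((x * e j : V') : F')) i = Algebra.leftMulMatrix b (x : F') i j
  rw [Algebra.leftMulMatrix_eq_repr_mul, hb j]
  rfl

theorem trace_mem (x : V') : Algebra.trace F F' (x : F') ∈ V := by
  rw [Algebra.trace_eq_matrix_trace b, Matrix.trace]
  exact sum_mem fun i _ => leftMulMatrix_mem h b bκ e hb hbκ x i i

theorem trace_red (x : V') :
    ρ ⟨Algebra.trace F F' (x : F'), trace_mem h b bκ e hb hbκ x⟩ =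
      Algebra.trace κ κ' (ρ' x) := by
  rw [Algebra.trace_eq_matrix_trace bκ, Matrix.trace]
  simp only [Matrix.diag_apply]
  simp_rw [leftMulMatrix_red h b bκ e hb hbκ x]
  rw [← map_sum]
  congr 1
  apply Subtype.ext
  rw [AddSubmonoidClass.coe_finsetSum]
  show Algebra.trace F F' (x : F') = _
  rw [Algebra.trace_eq_matrix_trace b, Matrix.trace]
  rfl

end Basis

/-- **LT (ii)**: the trace of an element of `V'` lies in `V`, and reduction commutes with the
trace, as soon as `[F' : F] ≤ [κ' : κ]`. -/
theorem trace_mem_and_red (h : RedPair V V' ρ ρ') [FiniteDimensional F F']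
    (hdeg : Module.finrank F F' ≤ Module.finrank κ κ') (x : V') :
    ∃ hx : Algebra.trace F F' (x : F') ∈ V,
      ρ ⟨Algebra.trace F F' (x : F'), hx⟩ = Algebra.trace κ κ' (ρ' x) := by
  obtain ⟨n, b, bκ, e, hb, hbκ⟩ := h.exists_basis hdeg
  exact ⟨trace_mem h b bκ e hb hbκ x, trace_red h b bκ e hb hbκ x⟩

/-- Reduction of a polynomial identity: if `p ∈ V[X]` kills `x ∈ V'`, its reduction kills
`ρ' x`. -/
theorem eval₂_rho' (h : RedPair V V' ρ ρ') (x : V') (p : Polynomial V)
    (hp : Polynomial.eval₂ ((algebraMap F F').comp V.subtype) (x : F') p = 0) :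
    Polynomial.eval₂ ((algebraMap κ κ').comp ρ) (ρ' x) p = 0 := by
  have h1 : Polynomial.eval₂ h.incl x p = 0 := by
    apply Subtype.ext
    have := Polynomial.hom_eval₂ p h.incl V'.subtype x
    rw [ValuationSubring.subtype_apply] at this
    rw [this]
    exact hp
  have h2 := Polynomial.hom_eval₂ p h.incl ρ' x
  rw [h1, map_zero] at h2
  have h3 : ρ'.comp h.incl = (algebraMap κ κ').comp ρ := RingHom.ext fun y => h.rho'_incl y
  rw [← h3]
  exact h2.symm

/-- **LT (iii)**: if `[F' : F] ≤ [κ' : κ]`, every element of `V'` is integral over `V`; more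
precisely its minimal polynomial over `F` has coefficients in `V`, and the reduction of that
polynomial kills the reduction of the element. -/
theorem exists_monic_map_eq_minpoly (h : RedPair V V' ρ ρ') [FiniteDimensional F F']
    (hdeg : Module.finrank F F' ≤ Module.finrank κ κ') (x : V') :
    ∃ p : Polynomial V, p.Monic ∧ p.map V.subtype = minpoly F (x : F') ∧
      Polynomial.eval₂ ((algebraMap κ κ').comp ρ) (ρ' x) p = 0 := by
  classical
  obtain ⟨n, b, bκ, e, hb, hbκ⟩ := h.exists_basis hdeg
  set M : Matrix (Fin n) (Fin n) V := fun i j =>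
    ⟨Algebra.leftMulMatrix b (x : F') i j, leftMulMatrix_mem h b bκ e hb hbκ x i j⟩ with hM
  have hMmap : M.map V.subtype = Algebra.leftMulMatrix b (x : F') := by
    ext i j; rfl
  have hchar : (M.charpoly).map V.subtype = (Algebra.leftMulMatrix b (x : F')).charpoly := by
    rw [← Matrix.charpoly_map, hMmap]
  have hann : Polynomial.aeval (x : F') ((Algebra.leftMulMatrix b (x : F')).charpoly) = 0 := by
    apply Algebra.leftMulMatrix_injective b
    rw [map_zero, ← Polynomial.aeval_algHom_apply]
    exact Matrix.aeval_self_charpoly _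
  have hdvd : minpoly F (x : F') ∣ (M.charpoly).map (algebraMap V F) := by
    have : (M.charpoly).map (algebraMap V F) = (Algebra.leftMulMatrix b (x : F')).charpoly :=
      hchar
    rw [this]
    exact minpoly.dvd F _ hann
  obtain ⟨p, hp⟩ := IsIntegrallyClosed.eq_map_mul_C_of_dvd F (Matrix.charpoly_monic M) hdvd
  have hxint : IsIntegral F (x : F') := Algebra.IsIntegral.isIntegral _
  have hmonic : (minpoly F (x : F')).Monic := minpoly.monic hxint
  rw [hmonic.leadingCoeff, map_one, mul_one] at hp
  have hp' : p.map V.subtype = minpoly F (x : F') := hp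
  refine ⟨p, ?_, hp', ?_⟩
  · have hinj : Function.Injective V.subtype := Subtype.val_injective
    refine Polynomial.monic_of_injective hinj ?_
    rw [hp']
    exact hmonic
  · apply h.eval₂_rho' x p
    rw [← Polynomial.eval₂_map, hp']
    exact minpoly.aeval F _

end RedPair

end Fermat.Agent.S18.LiftT
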