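import Mathlib

/-!
# S18, chain U: the multi-block torsion lemma over a valuation ring (abstract, Mathlib only)

Pure linear algebra over a valuation ring `A` with maximal ideal `𝔪` and residue field `k`.

* `exists_leftInverse_of_mod`: a linear map `A^σ → A^ι` which is injective modulo `𝔪` is a split
  injection (local ring).
* `exists_retraction`: complement + retraction for a linear map `T : X → A^ι` whose kernel
  modulo `𝔪` is a line (local ring; minimal generating family + Nakayama).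
* `exists_eq_smul_one_add` (**C-core**): `P g ∈ c • A^ι` implies `g ∈ A·1 + c·W` (local ring).
* `exists_core` (**U-core**): `ρ f = c • u` with `c ∈ 𝔪 ∖ 0` and `u` not in the image of `ρ`
  modulo `𝔪` (valuation ring).
* `false_of_blocks` (**multi-block torsion lemma**): the abstract form of "Theorem U" in which
  `g = f₁ ⋯ f_m · φ` is a product over `m` disjoint blocks of generic points, so that only simple
  poles occur.
-/

set_option autoImplicit false

namespace Fermat.Agent.S18.UMulti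

open IsLocalRing TensorProduct

section Local

variable {A : Type*} [CommRing A] [IsLocalRing A]

/-- A linear map out of a finite product sends vectors with entries in `𝔪` into `𝔪 • ⊤`. -/
theorem map_mem_smul_top {ι : Type*} [Finite ι] {X : Type*} [AddCommGroup X] [Module A X]
    (T : (ι → A) →ₗ[A] X) {w : ι → A} (hw : ∀ i, w i ∈ maximalIdeal A) :
    T w ∈ (maximalIdeal A) • (⊤ : Submodule A X) := by
  classical
  cases nonempty_fintype ι
  have h : w = ∑ i, w i • (Pi.single i 1 : ι → A) := by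
    ext j
    simp [Finset.sum_apply, Pi.single_apply]
  rw [h, map_sum]
  refine Submodule.sum_mem _ fun i _ => ?_
  rw [map_smul]
  exact Submodule.smul_mem_smul (hw i) Submodule.mem_top

/-- A linear map into a product sends `𝔪 • ⊤` into vectors with entries in `𝔪`. -/
theorem apply_mem_of_mem_smul_top {ι : Type*} {X : Type*} [AddCommGroup X] [Module A X]
    (T : X →ₗ[A] (ι → A)) {x : X} (hx : x ∈ (maximalIdeal A) • (⊤ : Submodule A X)) (i : ι) :
    T x i ∈ maximalIdeal A := by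
  refine Submodule.smul_induction_on hx (fun r hr n _ => ?_) (fun x y hx hy => ?_)
  · rw [map_smul, Pi.smul_apply, smul_eq_mul]
    exact Ideal.mul_mem_right _ _ hr
  · rw [map_add, Pi.add_apply]
    exact Ideal.add_mem _ hx hy

/-- `1 ⊗ w = 0` in `k ⊗ A^ι` forces the entries of `w` into `𝔪`. -/
theorem mem_of_one_tmul_eq_zero {ι : Type*} (w : ι → A)
    (h : (1 : ResidueField A) ⊗ₜ[A] w = 0) (i : ι) : w i ∈ maximalIdeal A := by
  have h2 := congrArg (TensorProduct.rid A (ResidueField A) ∘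
    (LinearMap.lTensor (ResidueField A) (LinearMap.proj i : (ι → A) →ₗ[A] A))) h
  simp only [Function.comp_apply, LinearMap.lTensor_tmul, LinearMap.proj_apply,
    TensorProduct.rid_tmul, map_zero] at h2
  rw [← residue_eq_zero_iff]
  have h3 : w i • (1 : ResidueField A) = residue A (w i) := by
    rw [Algebra.smul_def, mul_one]
    rfl
  rw [← h3]
  exact h2

/-- **Split injections over a local ring**: a linear map `A^σ → A^ι` which is injective modulo
the maximal ideal has a linear retraction. -/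
theorem exists_leftInverse_of_mod {σ ι : Type*} [Finite σ] [Finite ι]
    (l : (σ → A) →ₗ[A] (ι → A))
    (h : ∀ v, (∀ i, l v i ∈ maximalIdeal A) → ∀ s, v s ∈ maximalIdeal A) :
    ∃ l' : (ι → A) →ₗ[A] (σ → A), l' ∘ₗ l = LinearMap.id := by
  classical
  cases nonempty_fintype σ
  cases nonempty_fintype ι
  rw [IsLocalRing.split_injective_iff_lTensor_residueField_injective]
  rw [injective_iff_map_eq_zero]
  intro z hz
  obtain ⟨v, rfl⟩ := TensorProduct.mk_surjective A (σ → A) (ResidueField A)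
    (IsLocalRing.residue_surjective) z
  rw [TensorProduct.mk_apply, LinearMap.lTensor_tmul] at hz
  have hv : ∀ s, v s ∈ maximalIdeal A := h v (mem_of_one_tmul_eq_zero _ hz)
  rw [TensorProduct.mk_apply]
  have hvs : v = ∑ s, v s • (Pi.single s 1 : σ → A) := by
    ext j
    simp [Finset.sum_apply, Pi.single_apply]
  rw [hvs, TensorProduct.tmul_sum]
  refine Finset.sum_eq_zero fun s _ => ?_
  rw [TensorProduct.tmul_smul, TensorProduct.smul_tmul']
  have h3 : v s • (1 : ResidueField A) = 0 := by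
    rw [Algebra.smul_def, mul_one]
    exact (residue_eq_zero_iff _).mpr (hv s)
  rw [h3, TensorProduct.zero_tmul]

/-- **Complement and retraction.**  Let `X` be a finitely generated module over the local ring
`A`, `T : X → A^ι` linear and `x₀ ∈ X` such that the kernel of `T` modulo `𝔪` is spanned by `x₀`.
Then there is a submodule `M` with `X = A x₀ + M` and a linear `R : A^ι → M` which is a retraction
of `T` on `M`. -/
theorem exists_retraction {X : Type*} [AddCommGroup X] [Module A X] [Module.Finite A X]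
    {ι : Type*} [Finite ι] (T : X →ₗ[A] (ι → A)) (x₀ : X)
    (hT : ∀ x : X, (∀ i, T x i ∈ maximalIdeal A) →
      ∃ a : A, x - a • x₀ ∈ (maximalIdeal A) • (⊤ : Submodule A X)) :
    ∃ (M : Submodule A X) (R : (ι → A) →ₗ[A] X),
      (∀ x, ∃ a : A, ∃ y ∈ M, x = a • x₀ + y) ∧ (∀ y ∈ M, R (T y) = y) ∧ ∀ v, R v ∈ M := by
  classical
  -- a generating family of minimal size
  have hex : ∃ n : ℕ, ∃ s : Finset X, s.card = n ∧
      Submodule.span A {x₀} ⊔ Submodule.span A (s : Set X) = ⊤ := by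
    obtain ⟨s, hs⟩ := (Module.Finite.fg_top : (⊤ : Submodule A X).FG)
    exact ⟨s.card, s, rfl, by rw [hs, sup_top_eq]⟩
  obtain ⟨s, hscard, hs⟩ := Nat.find_spec hex
  have hmin : ∀ s' : Finset X, s'.card < s.card →
      Submodule.span A {x₀} ⊔ Submodule.span A (s' : Set X) ≠ ⊤ := by
    intro s' hlt htop
    exact Nat.find_min hex (hscard ▸ hlt) ⟨s', rfl, htop⟩
  set B : (s → A) →ₗ[A] X := Fintype.linearCombination A (fun b : s => (b : X)) with hB
  have hBrange : LinearMap.range B = Submodule.span A (s : Set X) := by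
    rw [hB, Fintype.range_linearCombination]
    congr 1
    ext x
    simp
  -- the composite `T ∘ B` is injective modulo `𝔪`
  have hinj : ∀ v : s → A, (∀ i, (T ∘ₗ B) v i ∈ maximalIdeal A) → ∀ b, v b ∈ maximalIdeal A := by
    intro v hv b₀
    by_contra hb₀
    have hunit : IsUnit (v b₀) := by
      by_contra hnu
      exact hb₀ ((IsLocalRing.mem_maximalIdeal _).mpr hnu)
    obtain ⟨a, ha⟩ := hT (B v) hv
    set N₀ : Submodule A X :=
      Submodule.span A {x₀} ⊔ Submodule.span A ((s.erase (b₀ : X) : Finset X) : Set X) with hN₀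
    have hBv : B v = v b₀ • (b₀ : X) + ∑ b ∈ Finset.univ.erase b₀, v b • (b : X) := by
      rw [hB, Fintype.linearCombination_apply]
      exact (Finset.add_sum_erase Finset.univ (fun b : s => v b • (b : X))
        (Finset.mem_univ b₀)).symm
    have hrest : ∑ b ∈ Finset.univ.erase b₀, v b • (b : X) ∈ N₀ := by
      refine Submodule.sum_mem _ fun b hb => Submodule.smul_mem _ _ ?_
      refine Submodule.mem_sup_right (Submodule.subset_span ?_)
      rw [Finset.mem_coe, Finset.mem_erase]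
      exact ⟨fun h => (Finset.mem_erase.mp hb).1 (Subtype.ext h), b.2⟩
    have hx₀ : x₀ ∈ N₀ := Submodule.mem_sup_left (Submodule.mem_span_singleton_self x₀)
    have hb₀mem : v b₀ • (b₀ : X) ∈ N₀ ⊔ (maximalIdeal A) • (⊤ : Submodule A X) := by
      have : v b₀ • (b₀ : X) =
          (a • x₀ - ∑ b ∈ Finset.univ.erase b₀, v b • (b : X)) + (B v - a • x₀) := by
        rw [hBv]; abel
      rw [this]
      exact Submodule.add_mem_sup (Submodule.sub_mem _ (Submodule.smul_mem _ _ hx₀) hrest) ha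
    have hb₀mem' : (b₀ : X) ∈ N₀ ⊔ (maximalIdeal A) • (⊤ : Submodule A X) := by
      have h1 := Submodule.smul_mem _ (hunit.unit⁻¹ : Aˣ).val hb₀mem
      rwa [smul_smul, IsUnit.val_inv_mul, one_smul] at h1
    have htop : (⊤ : Submodule A X) ≤ N₀ ⊔ (maximalIdeal A) • (⊤ : Submodule A X) := by
      refine hs.symm.le.trans (sup_le (le_sup_of_le_left le_sup_left) (Submodule.span_le.mpr ?_))
      intro x hx
      by_cases hxb : x = (b₀ : X)
      · rw [hxb]; exact hb₀mem'
      · refine Submodule.mem_sup_left (Submodule.mem_sup_right (Submodule.subset_span ?_))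
        rw [Finset.mem_coe, Finset.mem_erase]
        exact ⟨hxb, hx⟩
    have hN₀top : (⊤ : Submodule A X) ≤ N₀ :=
      Submodule.le_of_le_smul_of_le_jacobson_bot Module.Finite.fg_top
        (IsLocalRing.maximalIdeal_le_jacobson ⊥) htop
    refine hmin (s.erase (b₀ : X)) ?_ (top_le_iff.mp hN₀top)
    rw [Finset.card_erase_of_mem b₀.2]
    exact Nat.sub_lt (Finset.card_pos.mpr ⟨_, b₀.2⟩) Nat.one_pos
  obtain ⟨l', hl'⟩ := exists_leftInverse_of_mod (T ∘ₗ B) hinj
  refine ⟨LinearMap.range B, B ∘ₗ l', ?_, ?_, ?_⟩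
  · intro x
    have hx : x ∈ Submodule.span A {x₀} ⊔ Submodule.span A (s : Set X) := by
      rw [hs]; exact Submodule.mem_top
    obtain ⟨y₁, hy₁, y₂, hy₂, rfl⟩ := Submodule.mem_sup.mp hx
    obtain ⟨a, rfl⟩ := Submodule.mem_span_singleton.mp hy₁
    exact ⟨a, y₂, hBrange ▸ hy₂, rfl⟩
  · rintro _ ⟨v, rfl⟩
    have := LinearMap.congr_fun hl' v
    simp only [LinearMap.comp_apply, LinearMap.id_apply] at this
    rw [LinearMap.comp_apply, this]
  · intro v
    exact ⟨l' v, rfl⟩

/-- A linear map sends `𝔪 • ⊤` into `𝔪 • ⊤`. -/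
theorem map_mem_smul_top_of_mem {X Y : Type*} [AddCommGroup X] [Module A X] [AddCommGroup Y]
    [Module A Y] (φ : X →ₗ[A] Y) {x : X} (hx : x ∈ (maximalIdeal A) • (⊤ : Submodule A X)) :
    φ x ∈ (maximalIdeal A) • (⊤ : Submodule A Y) := by
  refine Submodule.smul_induction_on hx (fun r hr n _ => ?_) (fun x y hx hy => ?_)
  · rw [map_smul]
    exact Submodule.smul_mem_smul hr Submodule.mem_top
  · rw [map_add]
    exact Submodule.add_mem _ hx hy

/-- **C-core** (valid over any local ring): if the only functions of `W` without poles modulo `𝔪`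
are the constants and all principal parts of `g` are divisible by `c`, then `g ∈ A·1 + c·W`. -/
theorem exists_eq_smul_one_add {W : Type*} [AddCommGroup W] [Module A W] [Module.Finite A W]
    {ι : Type*} [Finite ι] (P : W →ₗ[A] (ι → A)) (one : W) (hone : P one = 0)
    (hP : ∀ x : W, (∀ i, P x i ∈ maximalIdeal A) →
      ∃ a : A, x - a • one ∈ (maximalIdeal A) • (⊤ : Submodule A W))
    (c : A) (g : W) (t : ι → A) (hg : P g = c • t) :
    ∃ (a : A) (g' : W), g = a • one + c • g' := by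
  obtain ⟨M, R, hdec, hR, -⟩ := exists_retraction P one hP
  obtain ⟨a, y, hy, rfl⟩ := hdec g
  refine ⟨a, R t, ?_⟩
  have h1 : P y = c • t := by
    rw [← hg, map_add, map_smul, hone, smul_zero, zero_add]
  have h2 : y = c • R t := by
    rw [← map_smul, ← h1, hR y hy]
  rw [← h2]

end Local

section Valuation

variable {A : Type*} [CommRing A] [IsDomain A] [ValuationRing A]

/-- In a valuation ring, a finite nonempty family has an element dividing all the others. -/
theorem exists_dvd_all {κ : Type*} (s : Finset κ) (hs : s.Nonempty) (w : κ → A) :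
    ∃ i ∈ s, ∀ j ∈ s, w i ∣ w j := by
  classical
  induction hs using Finset.Nonempty.cons_induction with
  | singleton a => exact ⟨a, Finset.mem_singleton_self a, fun j hj => by
      rw [Finset.mem_singleton.mp hj]⟩
  | cons a s ha hs ih =>
    obtain ⟨i, his, hi⟩ := ih
    rcases ValuationRing.dvd_total (w a) (w i) with h | h
    · refine ⟨a, Finset.mem_cons_self a s, fun j hj => ?_⟩
      rcases Finset.mem_cons.mp hj with rfl | hj
      · exact dvd_rfl
      · exact h.trans (hi j hj)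
    · refine ⟨i, Finset.mem_cons.mpr (Or.inr his), fun j hj => ?_⟩
      rcases Finset.mem_cons.mp hj with rfl | hj
      · exact h
      · exact hi j hj

/-- **Content of a nonzero vector** over a valuation ring. -/
theorem exists_content {ι : Type*} [Finite ι] (w : ι → A) (hw : w ≠ 0) :
    ∃ (c : A) (u : ι → A) (i₀ : ι), c ≠ 0 ∧ w = c • u ∧ u i₀ = 1 ∧ c = w i₀ := by
  classical
  cases nonempty_fintype ι
  obtain ⟨i₁, hi₁⟩ : ∃ i, w i ≠ 0 := by
    by_contra h
    push Not at h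
    exact hw (funext h)
  obtain ⟨i₀, -, hi₀⟩ := exists_dvd_all (Finset.univ : Finset ι) ⟨i₁, Finset.mem_univ _⟩ w
  have hc : w i₀ ≠ 0 := by
    intro h0
    obtain ⟨t, ht⟩ := hi₀ i₁ (Finset.mem_univ _)
    rw [h0, zero_mul] at ht
    exact hi₁ ht
  choose u hu using fun j => hi₀ j (Finset.mem_univ j)
  refine ⟨w i₀, u, i₀, hc, funext fun j => ?_, ?_, rfl⟩
  · rw [Pi.smul_apply, smul_eq_mul]
    exact hu j
  · have := hu i₀
    exact (mul_right_cancel₀ hc (by rw [one_mul]; rw [mul_comm]; exact this.symm))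

/-- Over a valuation ring, every element of `𝔪 • ⊤` is a single multiple `μ • x'` with `μ ∈ 𝔪`. -/
theorem exists_smul_of_mem_smul_top {X : Type*} [AddCommGroup X] [Module A X] {x : X}
    (hx : x ∈ (maximalIdeal A) • (⊤ : Submodule A X)) :
    ∃ μ ∈ maximalIdeal A, ∃ x' : X, x = μ • x' := by
  refine Submodule.smul_induction_on hx (fun r hr n _ => ⟨r, hr, n, rfl⟩) ?_
  rintro _ _ ⟨μ₁, h₁, x₁, rfl⟩ ⟨μ₂, h₂, x₂, rfl⟩
  rcases ValuationRing.dvd_total μ₁ μ₂ with ⟨t, rfl⟩ | ⟨t, rfl⟩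
  · exact ⟨μ₁, h₁, x₁ + t • x₂, by rw [smul_add, smul_smul]⟩
  · exact ⟨μ₂, h₂, t • x₁ + x₂, by rw [smul_add, smul_smul]⟩

/-- **U-core.**  `Λ` a finitely generated module over the valuation ring `A`, `ρ : Λ → A^ι`
injective, and the kernel of `ρ` modulo `𝔪` is the line spanned by `f₀ ∉ 𝔪Λ`.  Then there are
`f ≡ f₀`, `0 ≠ c ∈ 𝔪` and a unimodular `u` with `ρ f = c • u`, together with a linear
`R : A^ι → Λ` with `R u = 0`, `x - R (ρ x) ∈ A f` for all `x`, and `u` is not in the image of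
`ρ` modulo `𝔪`. -/
theorem exists_core {Λ : Type*} [AddCommGroup Λ] [Module A Λ] [Module.Finite A Λ]
    {ι : Type*} [Finite ι] (ρ : Λ →ₗ[A] (ι → A)) (hρ : Function.Injective ρ)
    (f₀ : Λ) (hf₀ : f₀ ∉ (maximalIdeal A) • (⊤ : Submodule A Λ))
    (hρf₀ : ∀ i, ρ f₀ i ∈ maximalIdeal A)
    (hker : ∀ x : Λ, (∀ i, ρ x i ∈ maximalIdeal A) →
      ∃ a : A, x - a • f₀ ∈ (maximalIdeal A) • (⊤ : Submodule A Λ)) :
    ∃ (f : Λ) (c : A) (u : ι → A) (R : (ι → A) →ₗ[A] Λ),
      f - f₀ ∈ (maximalIdeal A) • (⊤ : Submodule A Λ) ∧ c ∈ maximalIdeal A ∧ c ≠ 0 ∧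
      ρ f = c • u ∧ (∃ i, u i = 1) ∧ R u = 0 ∧
      (∀ x, ∃ α : A, x - R (ρ x) = α • f) ∧
      (∀ v, R (ρ (R v)) = R v) ∧
      (∀ x : Λ, ∃ i, u i - ρ x i ∉ maximalIdeal A) := by
  obtain ⟨M, R, hdec, hR, hRM⟩ := exists_retraction ρ f₀ hker
  have h1 : R (ρ f₀) ∈ (maximalIdeal A) • (⊤ : Submodule A Λ) := map_mem_smul_top R hρf₀
  set f : Λ := f₀ - R (ρ f₀) with hf
  have hff₀ : f - f₀ ∈ (maximalIdeal A) • (⊤ : Submodule A Λ) := by
    have : f - f₀ = -R (ρ f₀) := by rw [hf]; abel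
    rw [this]
    exact Submodule.neg_mem _ h1
  have hfne : f ≠ 0 := by
    intro h0
    apply hf₀
    have : f₀ = R (ρ f₀) := by
      rw [hf, sub_eq_zero] at h0
      exact h0
    rw [this]
    exact h1
  have hRρR : ∀ v, R (ρ (R v)) = R v := fun v => hR _ (hRM v)
  have hRρf : R (ρ f) = 0 := by
    rw [hf, map_sub, map_sub, hRρR, sub_self]
  have hw : ρ f ≠ 0 := fun h0 => hfne (hρ (by rw [h0, map_zero]))
  obtain ⟨c, u, i₀, hc, hwu, hu, hci⟩ := exists_content (ρ f) hw
  have hc𝔪 : c ∈ maximalIdeal A := by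
    rw [hci, hf, map_sub, Pi.sub_apply]
    exact Ideal.sub_mem _ (hρf₀ i₀) (apply_mem_of_mem_smul_top ρ h1 i₀)
  have htf : ∀ a : A, a ≠ 0 → ∀ x : Λ, a • x = 0 → x = 0 := by
    intro a ha x hx
    apply hρ
    rw [map_zero]
    funext i
    have := congrFun (congrArg ρ hx) i
    rw [map_smul, map_zero, Pi.smul_apply, smul_eq_mul, Pi.zero_apply] at this
    exact (mul_eq_zero.mp this).resolve_left ha
  have hRu : R u = 0 := by
    apply htf c hc
    rw [← map_smul, ← hwu, hRρf]
  have hE1 : ∀ x, ∃ α : A, x - R (ρ x) = α • f := by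
    intro x
    obtain ⟨a, y, hy, rfl⟩ := hdec x
    refine ⟨a, ?_⟩
    have hy' : a • R (ρ f₀) + y ∈ M := Submodule.add_mem _ (Submodule.smul_mem _ _ (hRM _)) hy
    have hx : a • f₀ + y = a • f + (a • R (ρ f₀) + y) := by
      rw [hf, smul_sub]; abel
    rw [hx, map_add, map_add, map_smul, map_smul, hRρf, smul_zero, zero_add, hR _ hy']
    abel
  refine ⟨f, c, u, R, hff₀, hc𝔪, hc, hwu, ⟨i₀, hu⟩, hRu, hE1, hRρR, ?_⟩
  intro x
  by_contra hcon
  push Not at hcon
  obtain ⟨α, hα⟩ := hE1 x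
  set y : Λ := R (ρ x) with hy
  have hx : x = α • f + y := by rw [← hα]; abel
  have hd : ∀ i, (u - ρ y) i ∈ maximalIdeal A := by
    intro i
    have hρx : ρ x i = α * (c * u i) + ρ y i := by
      conv_lhs => rw [hx]
      rw [map_add, map_smul, hwu, Pi.add_apply, Pi.smul_apply, Pi.smul_apply, smul_eq_mul,
        smul_eq_mul]
    have : (u - ρ y) i = (u i - ρ x i) + α * u i * c := by
      rw [Pi.sub_apply, hρx]; ring
    rw [this]
    exact Ideal.add_mem _ (hcon i) (Ideal.mul_mem_left _ _ hc𝔪)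
  have hy𝔪 : y ∈ (maximalIdeal A) • (⊤ : Submodule A Λ) := by
    have h2 := map_mem_smul_top R hd
    rw [map_sub, hRu, zero_sub, hy, hRρR] at h2
    have h3 := Submodule.neg_mem _ h2
    rwa [neg_neg] at h3
  have h1𝔪 : (1 : A) ∈ maximalIdeal A := by
    have h4 := Ideal.add_mem _ (hd i₀) (apply_mem_of_mem_smul_top ρ hy𝔪 i₀)
    rwa [Pi.sub_apply, sub_add_cancel, hu] at h4
  exact (Ideal.ne_top_iff_one _).mp (IsLocalRing.maximalIdeal.isMaximal A).ne_top h1𝔪

/-- Over a valuation ring, the kernel of a linear map from a finitely generated module to a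
power of `A` is finitely generated. -/
theorem finite_ker {Λ : Type*} [AddCommGroup Λ] [Module A Λ] [Module.Finite A Λ]
    {κ : Type*} (T : Λ →ₗ[A] (κ → A)) : Module.Finite A (LinearMap.ker T) := by
  have htf : Module.IsTorsionFree A (LinearMap.range T) := inferInstance
  have hflat : Module.Flat A (LinearMap.range T) :=
    Module.Flat.flat_iff_torsion_eq_bot_of_isBezout.mpr
      (Submodule.isTorsionFree_iff_torsion_eq_bot.mp htf)
  have hfree : Module.Free A (LinearMap.range T) := Module.free_of_flat_of_isLocalRing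
  have hfp : Module.FinitePresentation A (LinearMap.range T) :=
    Module.finitePresentation_of_projective A _
  have h := Module.FinitePresentation.fg_ker T.rangeRestrict T.surjective_rangeRestrict
  rw [LinearMap.ker_rangeRestrict] at h
  exact Module.Finite.iff_fg.mpr h

section Blocks

variable {J I₀ : Type*} {Λ : Type*} [AddCommGroup Λ] [Module A Λ]

/-- The components of `ρ` outside the block `j`. -/
def blockMap (ρ : Λ →ₗ[A] (J × I₀ → A)) (j : J) :
    Λ →ₗ[A] ({i : J × I₀ // i.1 ≠ j} → A) :=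
  (LinearMap.funLeft A A (Subtype.val : {i : J × I₀ // i.1 ≠ j} → J × I₀)) ∘ₗ ρ

omit [IsDomain A] [ValuationRing A] in
theorem mem_ker_blockMap {ρ : Λ →ₗ[A] (J × I₀ → A)} {j : J} {y : Λ} :
    y ∈ LinearMap.ker (blockMap ρ j) ↔ ∀ i : J × I₀, i.1 ≠ j → ρ y i = 0 := by
  rw [LinearMap.mem_ker]
  constructor
  · intro h i hi
    exact congrFun h ⟨i, hi⟩
  · intro h
    funext i
    exact h i.1 i.2

end Blocks

/-- **The multi-block torsion lemma** (abstract form of "Theorem U" with simple poles only).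

Dictionary: `Λ = L(D + E'') ∩ O_v`, `W = L(E'') ∩ O_v` for `E'' = ∑_{j ∈ J} E_j` a sum of `|J| = m`
disjoint generic blocks, `ρ`, `P` the residue maps at the points of `E''`, `f₀` a lift of `ψ̄⁻¹`,
`ω` lifts of the values `c̄₀ ψ̄(Q_i)`.  The hypotheses say: `L(D) = 0` (`hρ`); functions without
poles on the special fibre are constant (`hP`, `hker`); the reduction lattices of `L(D + E_j)`
are everything (`hlift`); products `∏ y_j · φ` land in `W` with the expected residues (`hmul`);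
`ḡ ↦ ḡ ψ̄⁻¹ / c̄₀` is realised on lattices (`hdiv`).  If `m` is a unit of `A`, this is
contradictory. -/
theorem false_of_blocks
    {J I₀ : Type*} [Finite J] [Finite I₀]
    (hJ : (Nat.card J : A) ∉ maximalIdeal A)
    {Λ W : Type*} [AddCommGroup Λ] [Module A Λ] [Module.Finite A Λ]
    [AddCommGroup W] [Module A W] [Module.Finite A W]
    (ρ : Λ →ₗ[A] (J × I₀ → A)) (hρ : Function.Injective ρ)
    (P : W →ₗ[A] (J × I₀ → A)) (one : W) (hone : P one = 0)
    (hP : ∀ x : W, (∀ i, P x i ∈ maximalIdeal A) →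
      ∃ a : A, x - a • one ∈ (maximalIdeal A) • (⊤ : Submodule A W))
    (f₀ : Λ) (hf₀ : f₀ ∉ (maximalIdeal A) • (⊤ : Submodule A Λ))
    (hρf₀ : ∀ i, ρ f₀ i ∈ maximalIdeal A)
    (hker : ∀ x : Λ, (∀ i, ρ x i ∈ maximalIdeal A) →
      ∃ a : A, x - a • f₀ ∈ (maximalIdeal A) • (⊤ : Submodule A Λ))
    (hlift : ∀ (j : J) (x : Λ), (∀ i : J × I₀, i.1 ≠ j → ρ x i ∈ maximalIdeal A) →
      ∃ y : Λ, (∀ i : J × I₀, i.1 ≠ j → ρ y i = 0) ∧
        x - y ∈ (maximalIdeal A) • (⊤ : Submodule A Λ))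
    (ω : J × I₀ → A) (hω : ∀ i, ω i ∉ maximalIdeal A)
    (hmul : ∀ y : J → Λ,
      (∀ j, (∀ i : J × I₀, i.1 ≠ j → ρ (y j) i = 0) ∧
        y j - f₀ ∈ (maximalIdeal A) • (⊤ : Submodule A Λ)) →
      ∃ g : W, ∀ i : J × I₀, ∃ w : A, w - ω i ∈ maximalIdeal A ∧ P g i = ρ (y i.1) i * w)
    (hdiv : ∀ g : W, ∃ h : Λ, ∀ i, ρ h i * ω i - P g i ∈ maximalIdeal A) :
    False := by
  classical
  cases nonempty_fintype J
  cases nonempty_fintype I₀
  -- the global core
  obtain ⟨f, c, u, R, hff₀, hc𝔪, hc0, hρf, ⟨iS, huS⟩, hRu, hE1, hRρR, -⟩ :=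
    exists_core ρ hρ f₀ hf₀ hρf₀ hker
  have hRρf : R (ρ f) = 0 := by rw [hρf, map_smul, hRu, smul_zero]
  have hE2 : ∀ x ∈ (maximalIdeal A) • (⊤ : Submodule A Λ),
      ∃ α ∈ maximalIdeal A, x - R (ρ x) = α • f := by
    intro x hx
    refine Submodule.smul_induction_on hx (fun r hr n _ => ?_) ?_
    · obtain ⟨α, hα⟩ := hE1 n
      refine ⟨r * α, Ideal.mul_mem_right _ _ hr, ?_⟩
      rw [map_smul, map_smul, ← smul_sub, hα, smul_smul]
    · rintro x y ⟨α, hα, hx⟩ ⟨β, hβ, hy⟩
      refine ⟨α + β, Ideal.add_mem _ hα hβ, ?_⟩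
      rw [map_add, map_add, add_smul, ← hx, ← hy]
      abel
  have hπ2 : ∀ y : Λ, y - f₀ ∈ (maximalIdeal A) • (⊤ : Submodule A Λ) →
      ∃ α : A, α - 1 ∈ maximalIdeal A ∧ ρ y - ρ (R (ρ y)) = (α * c) • u := by
    intro y hy
    have hyf : y - f ∈ (maximalIdeal A) • (⊤ : Submodule A Λ) := by
      have : y - f = (y - f₀) - (f - f₀) := by abel
      rw [this]
      exact Submodule.sub_mem _ hy hff₀
    obtain ⟨α, hα, hx⟩ := hE2 _ hyf
    refine ⟨α + 1, by simpa using hα, ?_⟩
    have h1 : y - R (ρ y) = (α + 1) • f := by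
      have : y - R (ρ y) = ((y - f) - R (ρ (y - f))) + (f - R (ρ f)) := by
        rw [map_sub, map_sub]
        abel
      rw [this, hx, hRρf, sub_zero, add_smul, one_smul]
    have h2 := congrArg ρ h1
    rw [map_sub, map_smul, hρf, smul_smul] at h2
    exact h2
  have hπ1 : ∀ x : Λ, ∃ α : A, ρ x - ρ (R (ρ x)) = (α * c) • u := by
    intro x
    obtain ⟨α, hα⟩ := hE1 x
    refine ⟨α, ?_⟩
    have h2 := congrArg ρ hα
    rw [map_sub, map_smul, hρf, smul_smul] at h2
    exact h2
  -- the blocks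
  have hblock : ∀ j : J, ∃ (y : Λ) (cj : A) (uj : J × I₀ → A),
      (∀ i : J × I₀, i.1 ≠ j → ρ y i = 0) ∧
      y - f₀ ∈ (maximalIdeal A) • (⊤ : Submodule A Λ) ∧
      cj ∈ maximalIdeal A ∧ cj ≠ 0 ∧ ρ y = cj • uj ∧
      (∀ i : J × I₀, i.1 ≠ j → uj i = 0) ∧
      (∀ x : Λ, (∀ i : J × I₀, i.1 ≠ j → ρ x i = 0) →
        ∃ i, uj i - ρ x i ∉ maximalIdeal A) := by
    intro j
    obtain ⟨yz, hyz1, hyz2⟩ := hlift j f₀ (fun i _ => hρf₀ i)
    set Λj : Submodule A Λ := LinearMap.ker (blockMap ρ j) with hΛj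
    have : Module.Finite A Λj := finite_ker (blockMap ρ j)
    have hmemΛj : ∀ {z : Λ}, z ∈ Λj ↔ ∀ i : J × I₀, i.1 ≠ j → ρ z i = 0 := mem_ker_blockMap
    set ρj : Λj →ₗ[A] (J × I₀ → A) := ρ ∘ₗ Λj.subtype with hρj
    have hρjapp : ∀ z : Λj, ρj z = ρ (z : Λ) := fun z => rfl
    have hρjinj : Function.Injective ρj := fun z z' hzz' =>
      Subtype.ext (hρ (by rw [← hρjapp, ← hρjapp, hzz']))
    have hsat : ∀ z : Λj, (z : Λ) ∈ (maximalIdeal A) • (⊤ : Submodule A Λ) →
        z ∈ (maximalIdeal A) • (⊤ : Submodule A Λj) := by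
      intro z hz
      obtain ⟨μ, hμ, z', hzz'⟩ := exists_smul_of_mem_smul_top hz
      by_cases hμ0 : μ = 0
      · have : z = 0 := Subtype.ext (by rw [hzz', hμ0, zero_smul]; rfl)
        rw [this]
        exact Submodule.zero_mem _
      · have hz' : z' ∈ Λj := by
          rw [hmemΛj]
          intro i hi
          have h1 := hmemΛj.mp z.2 i hi
          rw [hzz', map_smul, Pi.smul_apply, smul_eq_mul] at h1
          exact (mul_eq_zero.mp h1).resolve_left hμ0
        have : z = μ • (⟨z', hz'⟩ : Λj) := Subtype.ext hzz'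
        rw [this]
        exact Submodule.smul_mem_smul hμ Submodule.mem_top
    have hyzmem : yz ∈ Λj := hmemΛj.mpr hyz1
    obtain ⟨yj, cj, uj, -, hyj, hcj𝔪, hcj0, hρyj, -, -, -, -, hNj⟩ :
        ∃ (yj : Λj) (cj : A) (uj : J × I₀ → A) (_ : (J × I₀ → A) →ₗ[A] Λj),
          yj - ⟨yz, hyzmem⟩ ∈ (maximalIdeal A) • (⊤ : Submodule A Λj) ∧ cj ∈ maximalIdeal A ∧
          cj ≠ 0 ∧ ρj yj = cj • uj ∧ (∃ i, uj i = 1) ∧ _ ∧ _ ∧ _ ∧
          (∀ x : Λj, ∃ i, uj i - ρj x i ∉ maximalIdeal A) := by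
      refine exists_core ρj hρjinj ⟨yz, hyzmem⟩ ?_ ?_ ?_
      · intro hcon
        apply hf₀
        have h1 := map_mem_smul_top_of_mem Λj.subtype hcon
        have : f₀ = (f₀ - yz) + yz := by abel
        rw [this]
        exact Submodule.add_mem _ hyz2 h1
      · intro i
        have : ρj ⟨yz, hyzmem⟩ i = ρ f₀ i - ρ (f₀ - yz) i := by
          rw [hρjapp, map_sub, Pi.sub_apply]
          ring
        rw [this]
        exact Ideal.sub_mem _ (hρf₀ i) (apply_mem_of_mem_smul_top ρ hyz2 i)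
      · intro x hx
        obtain ⟨a, ha⟩ := hker (x : Λ) hx
        refine ⟨a, hsat _ ?_⟩
        have : ((x - a • (⟨yz, hyzmem⟩ : Λj) : Λj) : Λ) =
            ((x : Λ) - a • f₀) + a • (f₀ - yz) := by
          rw [Submodule.coe_sub, Submodule.coe_smul, smul_sub]
          abel
        rw [this]
        exact Submodule.add_mem _ ha (Submodule.smul_mem _ _ hyz2)
    have hyjf₀ : (yj : Λ) - f₀ ∈ (maximalIdeal A) • (⊤ : Submodule A Λ) := by
      have h1 := map_mem_smul_top_of_mem Λj.subtype hyj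
      have : (yj : Λ) - f₀ = Λj.subtype (yj - ⟨yz, hyzmem⟩) - (f₀ - yz) := by
        rw [map_sub, Submodule.subtype_apply, Submodule.subtype_apply]
        abel
      rw [this]
      exact Submodule.sub_mem _ h1 hyz2
    refine ⟨yj, cj, uj, hmemΛj.mp yj.2, hyjf₀, hcj𝔪, hcj0, hρyj, ?_, ?_⟩
    · intro i hi
      have h1 := congrFun hρyj i
      have h2 : ρj yj i = 0 := hmemΛj.mp yj.2 i hi
      rw [h2, Pi.smul_apply, smul_eq_mul] at h1
      exact (mul_eq_zero.mp h1.symm).resolve_left hcj0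
    · intro x hx
      exact hNj ⟨x, hmemΛj.mpr hx⟩
  choose y cj uj hy1 hy2 hcj𝔪 hcj0 hρy hujsupp hNj using hblock
  -- the product
  obtain ⟨g, hg⟩ := hmul y (fun j => ⟨hy1 j, hy2 j⟩)
  choose w hw hPg using hg
  have hJne : Nonempty J := by
    by_contra hemp
    rw [not_nonempty_iff] at hemp
    apply hJ
    rw [Nat.card_of_isEmpty, Nat.cast_zero]
    exact Ideal.zero_mem _
  obtain ⟨j₀, -, hj₀⟩ := exists_dvd_all (Finset.univ : Finset J) Finset.univ_nonempty cj
  choose d hd using fun j => hj₀ j (Finset.mem_univ j)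
  set c' : A := cj j₀ with hc'
  have hPgt : P g = c' • (fun i : J × I₀ => d i.1 * uj i.1 i * w i) := by
    funext i
    rw [hPg i, hρy i.1, Pi.smul_apply, Pi.smul_apply, smul_eq_mul, smul_eq_mul, hd i.1]
    ring
  obtain ⟨a₀, g', hgg'⟩ := exists_eq_smul_one_add P one hone hP c' g _ hPgt
  have hPg' : P g' = fun i : J × I₀ => d i.1 * uj i.1 i * w i := by
    have h1 : c' • P g' = c' • (fun i : J × I₀ => d i.1 * uj i.1 i * w i) := by
      rw [← hPgt, hgg', map_add, map_smul, map_smul, hone, smul_zero, zero_add]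
    funext i
    have h2 := congrFun h1 i
    rw [Pi.smul_apply, Pi.smul_apply, smul_eq_mul, smul_eq_mul] at h2
    exact mul_left_cancel₀ (hcj0 j₀) h2
  obtain ⟨h, hh⟩ := hdiv g'
  have hprime : (maximalIdeal A).IsPrime := (IsLocalRing.maximalIdeal.isMaximal A).isPrime
  have hρh : ∀ i : J × I₀, ρ h i - d i.1 * uj i.1 i ∈ maximalIdeal A := by
    intro i
    have h1 : (ρ h i - d i.1 * uj i.1 i) * ω i ∈ maximalIdeal A := by
      have : (ρ h i - d i.1 * uj i.1 i) * ω i =
          (ρ h i * ω i - P g' i) + d i.1 * uj i.1 i * (w i - ω i) := by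
        rw [hPg']
        ring
      rw [this]
      exact Ideal.add_mem _ (hh i) (Ideal.mul_mem_left _ _ (hw i))
    exact (hprime.mem_or_mem h1).resolve_right (hω i)
  -- comparison of the blocks inside `Λ`
  set μ' : J × I₀ → A := ρ h - ∑ j, d j • uj j with hμ'
  have hsum : ∀ i : J × I₀, (∑ j, d j • uj j) i = d i.1 * uj i.1 i := by
    intro i
    rw [Finset.sum_apply, Finset.sum_eq_single i.1]
    · rfl
    · intro j _ hji
      rw [Pi.smul_apply, hujsupp j i (Ne.symm hji), smul_zero]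
    · intro hni
      exact absurd (Finset.mem_univ _) hni
  have hμ'𝔪 : ∀ i, μ' i ∈ maximalIdeal A := by
    intro i
    rw [hμ', Pi.sub_apply, hsum]
    exact hρh i
  choose α hα1 hα using fun j => hπ2 (y j) (hy2 j)
  obtain ⟨αh, hαh⟩ := hπ1 h
  let π : (J × I₀ → A) →ₗ[A] (J × I₀ → A) := LinearMap.id - ρ ∘ₗ R
  have hπapp : ∀ v, π v = v - ρ (R v) := fun v => rfl
  have hπu : ∀ j, cj j • π (uj j) = (α j * c) • u := by
    intro j
    rw [← map_smul, ← hρy j, hπapp]
    exact hα j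
  have hπh : π (ρ h) = (αh * c) • u := by
    rw [hπapp]
    exact hαh
  have hρh' : ρ h = ∑ j, d j • uj j + μ' := by
    rw [hμ']
    abel
  have hkey : c' • π (ρ h) = (∑ j, (α j * c)) • u + c' • π μ' := by
    rw [hρh', map_add, map_sum, smul_add, Finset.smul_sum, Finset.sum_smul]
    congr 1
    refine Finset.sum_congr rfl fun j _ => ?_
    rw [map_smul, smul_smul, ← hπu j, hd j]
  have hπμ' : π μ' iS ∈ maximalIdeal A := by
    rw [hπapp, Pi.sub_apply]
    exact Ideal.sub_mem _ (hμ'𝔪 iS)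
      (apply_mem_of_mem_smul_top ρ (map_mem_smul_top R hμ'𝔪) iS)
  have heval : c * (c' * αh - ∑ j, α j) = c' * π μ' iS := by
    have h1 := congrFun hkey iS
    rw [hπh, Pi.smul_apply, Pi.add_apply, Pi.smul_apply, Pi.smul_apply, Pi.smul_apply, huS,
      smul_eq_mul, smul_eq_mul, smul_eq_mul, smul_eq_mul, mul_one, mul_one,
      ← Finset.sum_mul] at h1
    linear_combination h1
  set β : A := c' * αh - ∑ j, α j with hβ
  have hβ𝔪 : β ∉ maximalIdeal A := by
    intro hmem
    apply hJ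
    have h1 : (Nat.card J : A) = (∑ j : J, (1 - α j)) + (c' * αh - β) := by
      rw [hβ, Finset.sum_sub_distrib, Finset.sum_const, Finset.card_univ, nsmul_eq_mul, mul_one,
        Nat.card_eq_fintype_card]
      ring
    rw [h1]
    refine Ideal.add_mem _ (Ideal.sum_mem _ fun j _ => ?_)
      (Ideal.sub_mem _ (Ideal.mul_mem_right _ _ (hcj𝔪 j₀)) hmem)
    have h2 := (Ideal.neg_mem_iff _).mpr (hα1 j)
    rwa [neg_sub] at h2
  have hβu : IsUnit β := by
    by_contra hnu
    exact hβ𝔪 ((IsLocalRing.mem_maximalIdeal _).mpr hnu)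
  obtain ⟨βu, hβu'⟩ := hβu
  set ν : A := π μ' iS * ↑βu⁻¹ with hν
  have hν𝔪 : ν ∈ maximalIdeal A := Ideal.mul_mem_right _ _ hπμ'
  have hcc' : c = c' * ν := by
    rw [hν, ← mul_assoc, ← heval, ← hβu', mul_assoc, Units.mul_inv, mul_one]
  have hπj₀ : π (uj j₀) = (α j₀ * ν) • u := by
    have h1 := hπu j₀
    rw [hcc'] at h1
    funext i
    have h2 := congrFun h1 i
    rw [Pi.smul_apply, Pi.smul_apply, smul_eq_mul, smul_eq_mul] at h2
    rw [Pi.smul_apply, smul_eq_mul]
    apply mul_left_cancel₀ (hcj0 j₀)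
    rw [h2]
    ring
  set x : Λ := R (uj j₀) with hx
  have hx1 : ∀ i, uj j₀ i - ρ x i ∈ maximalIdeal A := by
    intro i
    have h1 := congrFun hπj₀ i
    rw [hπapp, Pi.sub_apply, Pi.smul_apply, smul_eq_mul] at h1
    rw [h1]
    exact Ideal.mul_mem_right _ _ (Ideal.mul_mem_left _ _ hν𝔪)
  obtain ⟨y', hy'1, hy'2⟩ := hlift j₀ x (fun i hi => by
    have h1 := hx1 i
    rw [hujsupp j₀ i hi, zero_sub] at h1
    exact (Ideal.neg_mem_iff _).mp h1)
  obtain ⟨i, hi⟩ := hNj j₀ y' hy'1
  apply hi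
  have : uj j₀ i - ρ y' i = (uj j₀ i - ρ x i) + ρ (x - y') i := by
    rw [map_sub, Pi.sub_apply]
    ring
  rw [this]
  exact Ideal.add_mem _ (hx1 i) (apply_mem_of_mem_smul_top ρ hy'2 i)

end Valuation

end Fermat.Agent.S18.UMulti
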