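import Mathlib
import Fermat.Agent.S18.UMulti
import Fermat.Agent.S20.RRBasic

/-!
# S18, chain U: Theorem U in concrete form (simple poles only)

`UMain.false_of_rr_eq_bot` instantiates the abstract multi-block lemma
`UMulti.false_of_blocks` for function fields `F / K`, `Fb / k` with a valuation ring `A ⊂ K`,
a Gauss valuation ring `V ⊂ F` and a reduction `rho : V → Fb`.  No place-reduction map occurs in
the statement: its role is played by the *tube property* at the chosen generic points
(`htube`), the inclusion / lifting hypotheses for the three kinds of divisors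
`D + ∑ P i`, `D + ∑_{block j} P i`, `∑ P i`, and finite generation of the two lattices.  The same
statement can therefore be used at the level carrying the place reduction and at an auxiliary
level (points = full fibres over generic points).

Tools: `HasVal v y a` (the value of `y` at the place `v` is `a`), `ptDiv P T = ∑_{i ∈ T} P i`,
`lat A V hAV G = L(G) ∩ V` as an `A`-module, `resMap` (residues at the points `P i`).
-/

set_option autoImplicit false

noncomputable section

namespace Fermat.Agent.S18.UMain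

open AlgebraicCurve IsLocalRing WithZero
open Fermat.Agent.S20

section Val

variable {K F : Type*} [Field K] [Field F] [Algebra K F]

/-- `HasVal v y a`: the function `y` is regular at the place `v` and takes the value `a` there. -/
def HasVal (v : Place K F) (y : F) (a : K) : Prop :=
  v.adicValuation (y - algebraMap K F a) < 1

variable {v : Place K F}

theorem lt_one_iff {f : F} : v.adicValuation f < 1 ↔ f = 0 ∨ 0 < v.ord f := by
  rcases eq_or_ne f 0 with rfl | hf
  · simp
  · rw [v.adicValuation_eq_exp_neg_ord hf, ← WithZero.exp_zero, WithZero.exp_lt_exp,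
      or_iff_right hf]
    omega

theorem hasVal_iff_ord {y : F} {a : K} :
    HasVal v y a ↔ y = algebraMap K F a ∨ 0 < v.ord (y - algebraMap K F a) := by
  rw [HasVal, lt_one_iff, sub_eq_zero]

theorem adicValuation_algebraMap_eq_one {c : K} (hc : c ≠ 0) :
    v.adicValuation (algebraMap K F c) = 1 := by
  apply le_antisymm (v.adicValuation_algebraMap_le_one c)
  have h1 := v.adicValuation_algebraMap_le_one c⁻¹
  rw [map_inv₀, map_inv₀] at h1
  have h0 : v.adicValuation (algebraMap K F c) ≠ 0 :=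
    v.adicValuation_ne_zero (by simpa using hc)
  exact (inv_le_one₀ (zero_lt_iff.mpr h0)).mp h1

theorem HasVal.le_one {y : F} {a : K} (h : HasVal v y a) : v.adicValuation y ≤ 1 := by
  have : y = (y - algebraMap K F a) + algebraMap K F a := by ring
  rw [this]
  exact (Valuation.map_add _ _ _).trans
    (max_le h.le (v.adicValuation_algebraMap_le_one a))

theorem HasVal.add {y y' : F} {a a' : K} (h : HasVal v y a) (h' : HasVal v y' a') :
    HasVal v (y + y') (a + a') := by
  unfold HasVal at *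
  have : y + y' - algebraMap K F (a + a') = (y - algebraMap K F a) + (y' - algebraMap K F a') := by
    rw [map_add]; ring
  rw [this]
  exact Valuation.map_add_lt _ h h'

theorem HasVal.mul {y y' : F} {a a' : K} (h : HasVal v y a) (h' : HasVal v y' a') :
    HasVal v (y * y') (a * a') := by
  have hy' := h'.le_one
  unfold HasVal at *
  have : y * y' - algebraMap K F (a * a') =
      (y - algebraMap K F a) * y' + algebraMap K F a * (y' - algebraMap K F a') := by
    rw [map_mul]; ring
  rw [this]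
  refine Valuation.map_add_lt _ ?_ ?_
  · rw [map_mul]
    exact (mul_le_of_le_one_right' hy').trans_lt h
  · rw [map_mul]
    exact (mul_le_of_le_one_left' (v.adicValuation_algebraMap_le_one a)).trans_lt h'

theorem hasVal_const (c : K) : HasVal v (algebraMap K F c) c := by
  unfold HasVal
  rw [sub_self, map_zero]
  exact zero_lt_one

theorem HasVal.neg {y : F} {a : K} (h : HasVal v y a) : HasVal v (-y) (-a) := by
  unfold HasVal at *
  have : -y - algebraMap K F (-a) = -(y - algebraMap K F a) := by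
    rw [map_neg]; ring
  rw [this, Valuation.map_neg]
  exact h

theorem HasVal.sub {y y' : F} {a a' : K} (h : HasVal v y a) (h' : HasVal v y' a') :
    HasVal v (y - y') (a - a') := by
  rw [sub_eq_add_neg, sub_eq_add_neg]
  exact h.add h'.neg

theorem HasVal.unique {y : F} {a a' : K} (h : HasVal v y a) (h' : HasVal v y a') : a = a' := by
  by_contra hne
  have h1 := h'.sub h
  unfold HasVal at h1
  rw [sub_self, zero_sub, Valuation.map_neg,
    adicValuation_algebraMap_eq_one (sub_ne_zero.mpr (Ne.symm hne))] at h1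
  exact lt_irrefl _ h1

theorem hasVal_zero_iff {y : F} : HasVal v y 0 ↔ v.adicValuation y < 1 := by
  unfold HasVal
  rw [map_zero, sub_zero]

theorem mem_of_le_one {y : F} (h : v.adicValuation y ≤ 1) : y ∈ v.toValuationSubring :=
  (RR.mem_valuationSubring_iff v).mpr (v.adicValuation_le_one_iff.mp h)

/-- At a place of degree one every regular function has a value. -/
theorem exists_hasVal (hv : v.deg = 1) {y : F} (hy : v.adicValuation y ≤ 1) :
    ∃ a : K, HasVal v y a := by
  have hmem : y ∈ v.toValuationSubring := mem_of_le_one hy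
  have h1 : Module.finrank K v.ResidueField = 1 := hv
  obtain ⟨c, hc⟩ := (finrank_eq_one_iff_of_nonzero' (1 : v.ResidueField) one_ne_zero).mp h1
    (IsLocalRing.residue _ (⟨y, hmem⟩ : v.toValuationSubring))
  refine ⟨c, ?_⟩
  have h2 : IsLocalRing.residue v.toValuationSubring
      ((⟨y, hmem⟩ : v.toValuationSubring) - algebraMap K v.toValuationSubring c) = 0 := by
    rw [map_sub, ← hc, Algebra.smul_def, mul_one, sub_eq_zero]
    rfl
  rw [RR.residue_eq_zero_iff] at h2
  rw [hasVal_iff_ord]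
  rcases h2 with h2 | h2
  · left
    have : y - algebraMap K F c = 0 := h2
    exact sub_eq_zero.mp this
  · right
    exact h2

theorem eq_exp_of_ord {f : F} {n : ℤ} (hf : f ≠ 0) (h : v.ord f = n) :
    v.adicValuation f = exp (-n) := by
  rw [v.adicValuation_eq_exp_neg_ord hf, h]

end Val


section Pts

variable {K F : Type*} [Field K] [Field F] [Algebra K F]

/-- The divisor `∑_{i ∈ T} P_i`. -/
def ptDiv {ι : Type*} (P : ι → Place K F) (T : Finset ι) : Divisor K F :=
  ∑ i ∈ T, Finsupp.single (P i) 1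

theorem ptDiv_apply {ι : Type*} [DecidableEq ι] {P : ι → Place K F}
    (hP : Function.Injective P) (T : Finset ι) (i : ι) :
    ptDiv P T (P i) = if i ∈ T then 1 else 0 := by
  classical
  rw [ptDiv, Finsupp.finsetSum_apply]
  simp only [Finsupp.single_apply, hP.eq_iff]
  rw [Finset.sum_ite_eq' T i]

theorem ptDiv_apply_of_ne {ι : Type*} {P : ι → Place K F} {T : Finset ι} {v : Place K F}
    (h : ∀ i ∈ T, P i ≠ v) : ptDiv P T v = 0 := by
  classical
  rw [ptDiv, Finsupp.finsetSum_apply]
  exact Finset.sum_eq_zero fun i hi => by rw [Finsupp.single_apply, if_neg (h i hi)]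

theorem ptDiv_nonneg {ι : Type*} (P : ι → Place K F) (T : Finset ι) (v : Place K F) :
    0 ≤ ptDiv P T v := by
  classical
  rw [ptDiv, Finsupp.finsetSum_apply]
  refine Finset.sum_nonneg fun i _ => ?_
  rw [Finsupp.single_apply]
  split_ifs <;> norm_num

theorem ptDiv_sum_fiber {J ι' : Type*} [Fintype J] [Fintype ι'] [DecidableEq J]
    (P : J × ι' → Place K F) :
    ptDiv P Finset.univ = ∑ j : J, ptDiv P (Finset.univ.filter fun i => i.1 = j) := by
  simp only [ptDiv]
  exact (Finset.sum_fiberwise Finset.univ (fun i : J × ι' => i.1) _).symm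

theorem mem_rr_iff {G : Divisor K F} {x : F} :
    x ∈ riemannRochSpace G ↔ ∀ v : Place K F, v.adicValuation x ≤ exp (G v) := Iff.rfl

/-- Changing the divisor where the function is known to be more regular. -/
theorem mem_rr_of_le {G G' : Divisor K F} {x : F} (hx : x ∈ riemannRochSpace G)
    (h : ∀ v : Place K F, G v ≤ G' v ∨ v.adicValuation x ≤ exp (G' v)) :
    x ∈ riemannRochSpace G' := by
  intro v
  rcases h v with h1 | h1
  · exact (hx v).trans (exp_le_exp.mpr h1)
  · exact h1

theorem val_mul_lt_one_iff {v : Place K F} {π x : F} (hπ : v.adicValuation π = exp (-1)) :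
    v.adicValuation (π * x) < 1 ↔ v.adicValuation x ≤ 1 := by
  rw [map_mul, hπ]
  rcases eq_or_ne x 0 with rfl | hx
  · simp
  · rw [v.adicValuation_eq_exp_neg_ord hx, ← exp_add, ← exp_zero, exp_lt_exp, exp_le_exp]
    omega

theorem exp_sum {ι : Type*} (s : Finset ι) (f : ι → ℤ) :
    (exp (∑ i ∈ s, f i) : ℤᵐ⁰) = ∏ i ∈ s, exp (f i) := by
  classical
  induction s using Finset.induction_on with
  | empty => simp
  | insert a s ha ih => rw [Finset.sum_insert ha, Finset.prod_insert ha, exp_add, ih]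

theorem ptDiv_mono {ι : Type*} (P : ι → Place K F) {T T' : Finset ι} (h : T ⊆ T')
    (v : Place K F) : ptDiv P T v ≤ ptDiv P T' v := by
  classical
  rw [ptDiv, ptDiv, Finsupp.finsetSum_apply, Finsupp.finsetSum_apply]
  refine Finset.sum_le_sum_of_subset_of_nonneg h fun i _ _ => ?_
  rw [Finsupp.single_apply]
  split_ifs <;> norm_num

theorem ptDiv_empty {ι : Type*} (P : ι → Place K F) : ptDiv P ∅ = 0 := by
  rw [ptDiv, Finset.sum_empty]

/-- Dropping the points at which the function is regular. -/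
theorem mem_rr_drop {ι : Type*} [DecidableEq ι] {P : ι → Place K F} (hP : Function.Injective P)
    {D : Divisor K F} (hD : ∀ i, D (P i) = 0) {T T' : Finset ι} {x : F}
    (hx : x ∈ riemannRochSpace (D + ptDiv P T'))
    (h : ∀ i ∈ T', i ∉ T → (P i).adicValuation x ≤ 1) :
    x ∈ riemannRochSpace (D + ptDiv P T) := by
  refine mem_rr_of_le hx fun v => ?_
  by_cases hv : ∃ i ∈ T', P i = v
  · obtain ⟨i, hiT', rfl⟩ := hv
    by_cases hiT : i ∈ T
    · left
      rw [Finsupp.add_apply, Finsupp.add_apply, ptDiv_apply hP, ptDiv_apply hP, if_pos hiT',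
        if_pos hiT]
    · right
      rw [Finsupp.add_apply, hD, ptDiv_apply hP, if_neg hiT, add_zero, exp_zero]
      exact h i hiT' hiT
  · left
    push Not at hv
    rw [Finsupp.add_apply, Finsupp.add_apply, ptDiv_apply_of_ne hv]
    have := ptDiv_nonneg P T v
    omega

theorem inv_pow_mul_pow_aux {Fb : Type*} [Field Fb] (m : ℕ) (hm : 1 ≤ m) (ψ c : Fb)
    (hψ : ψ ≠ 0) : ψ⁻¹ ^ (m - 1) * (c * ψ ^ m) = c * ψ := by
  obtain ⟨n, rfl⟩ : ∃ n, m = n + 1 := ⟨m - 1, by omega⟩
  rw [Nat.add_sub_cancel, pow_succ, inv_pow]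
  field_simp

end Pts

section Lattice

variable {K F k Fb : Type*} [Field K] [Field F] [Algebra K F] [Field k] [Field Fb] [Algebra k Fb]
variable (A : ValuationSubring K) (res : A →+* k) (V : ValuationSubring F) (rho : V →+* Fb)
variable (hAV : ∀ a : A, algebraMap K F (a : K) ∈ V)

/-- The integral lattice `L(G) ∩ V`, as a module over the valuation ring `A`. -/
def lat (G : Divisor K F) : Submodule A F where
  carrier := {x | x ∈ V ∧ x ∈ riemannRochSpace G}
  zero_mem' := ⟨V.zero_mem, Submodule.zero_mem _⟩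
  add_mem' := fun hx hy => ⟨V.add_mem _ _ hx.1 hy.1, Submodule.add_mem _ hx.2 hy.2⟩
  smul_mem' := fun a x hx => by
    have h1 : a • x = algebraMap K F (a : K) * x := by
      rw [Algebra.smul_def]
      rfl
    have h2 : a • x = (a : K) • x := by
      rw [h1, Algebra.smul_def]
    exact ⟨h1 ▸ V.mul_mem _ _ (hAV a) hx.1, h2 ▸ Submodule.smul_mem _ (a : K) hx.2⟩

variable {A V hAV}

theorem mem_lat {G : Divisor K F} {x : F} :
    x ∈ lat A V hAV G ↔ x ∈ V ∧ x ∈ riemannRochSpace G := Iff.rfl

omit hAV in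
theorem smul_eq_mul' (a : A) (x : F) : a • x = algebraMap K F (a : K) * x := by
  rw [Algebra.smul_def]
  rfl

variable (hres : Function.Surjective res)
variable (hrho : ∀ a : A, rho ⟨algebraMap K F (a : K), hAV a⟩ = algebraMap k Fb (res a))
variable (hcart : ∀ x : V, rho x = 0 →
  ∃ c : A, c ∈ maximalIdeal A ∧ ∃ x' : V, (x : F) = algebraMap K F (c : K) * (x' : F))

include hres in
omit hAV in
theorem res_eq_zero_iff (a : A) : res a = 0 ↔ a ∈ maximalIdeal A := by
  have h1 : RingHom.ker res = maximalIdeal A :=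
    IsLocalRing.eq_maximalIdeal (RingHom.ker_isMaximal_of_surjective res hres)
  rw [← h1, RingHom.mem_ker]

include hrho in
theorem rho_smul (a : A) (x : F) (hx : x ∈ V) (hax : a • x ∈ V) :
    rho ⟨a • x, hax⟩ = algebraMap k Fb (res a) * rho ⟨x, hx⟩ := by
  have h1 : (⟨a • x, hax⟩ : V) = ⟨algebraMap K F (a : K), hAV a⟩ * ⟨x, hx⟩ :=
    Subtype.ext (smul_eq_mul' a x)
  rw [h1, map_mul, hrho]

include hres hrho hcart in
/-- **Cartesian property**: an element of the lattice lies in `𝔪 • lattice` iff its reduction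
vanishes. -/
theorem mem_smul_top_iff {G : Divisor K F} (x : lat A V hAV G) :
    x ∈ (maximalIdeal A) • (⊤ : Submodule A (lat A V hAV G)) ↔ rho ⟨x, x.2.1⟩ = 0 := by
  constructor
  · intro hx
    refine Submodule.smul_induction_on hx (fun r hr n _ => ?_) (fun y z hy hz => ?_)
    · have h1 := rho_smul res rho hrho r (n : F) n.2.1 (r • n).2.1
      have h2 : rho ⟨((r • n : lat A V hAV G) : F), (r • n).2.1⟩ =
          algebraMap k Fb (res r) * rho ⟨n, n.2.1⟩ := h1
      rw [h2, (res_eq_zero_iff res hres r).mpr hr, map_zero, zero_mul]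
    · have h1 : (⟨((y + z : lat A V hAV G) : F), (y + z).2.1⟩ : V) =
          ⟨y, y.2.1⟩ + ⟨z, z.2.1⟩ := Subtype.ext rfl
      rw [h1, map_add, hy, hz, add_zero]
  · intro hx
    obtain ⟨c, hc, x', hxx'⟩ := hcart _ hx
    have hxx'' : (x : F) = algebraMap K F (c : K) * (x' : F) := hxx'
    by_cases hc0 : c = 0
    · have : x = 0 := Subtype.ext (by rw [hxx'', hc0]; simp)
      rw [this]
      exact Submodule.zero_mem _
    · have hcK : (c : K) ≠ 0 := fun h => hc0 (Subtype.ext h)
      have hx'G : (x' : F) ∈ riemannRochSpace G := by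
        have h1 : (x' : F) = (c : K)⁻¹ • (x : F) := by
          rw [hxx'', Algebra.smul_def, ← mul_assoc, ← map_mul, inv_mul_cancel₀ hcK, map_one,
            one_mul]
        rw [h1]
        exact Submodule.smul_mem _ _ x.2.2
      have h2 : x = c • (⟨x', x'.2, hx'G⟩ : lat A V hAV G) :=
        Subtype.ext (by rw [hxx'']; exact (smul_eq_mul' c (x' : F)).symm)
      rw [h2]
      exact Submodule.smul_mem_smul hc Submodule.mem_top

include hrho in
theorem rho_sub_smul {G : Divisor K F} (x y : lat A V hAV G) (a : A) :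
    rho ⟨((x - a • y : lat A V hAV G) : F), (x - a • y).2.1⟩ =
      rho ⟨x, x.2.1⟩ - algebraMap k Fb (res a) * rho ⟨y, y.2.1⟩ := by
  have h1 : (⟨((x - a • y : lat A V hAV G) : F), (x - a • y).2.1⟩ : V) =
      ⟨x, x.2.1⟩ - ⟨algebraMap K F (a : K), hAV a⟩ * ⟨y, y.2.1⟩ :=
    Subtype.ext (by
      show ((x - a • y : lat A V hAV G) : F) = (x : F) - algebraMap K F (a : K) * (y : F)
      rw [Submodule.coe_sub, Submodule.coe_smul, smul_eq_mul'])
  rw [h1, map_sub, map_mul, hrho]

theorem rho_sub {G : Divisor K F} (x y : lat A V hAV G) :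
    rho ⟨((x - y : lat A V hAV G) : F), (x - y).2.1⟩ = rho ⟨x, x.2.1⟩ - rho ⟨y, y.2.1⟩ := by
  have h1 : (⟨((x - y : lat A V hAV G) : F), (x - y).2.1⟩ : V) = ⟨x, x.2.1⟩ - ⟨y, y.2.1⟩ :=
    Subtype.ext rfl
  rw [h1, map_sub]

theorem finite_lat {G : Divisor K F}
    (hfg : ∃ (n : ℕ) (b : Fin n → F), (∀ s, b s ∈ V ∧ b s ∈ riemannRochSpace G) ∧
      ∀ x ∈ V, x ∈ riemannRochSpace G →
        ∃ a : Fin n → A, x = ∑ s, algebraMap K F (a s : K) * b s) :
    Module.Finite A (lat A V hAV G) := by
  obtain ⟨n, b, hb, hspan⟩ := hfg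
  refine Module.Finite.of_surjective
    (Fintype.linearCombination A (fun s => (⟨b s, hb s⟩ : lat A V hAV G))) ?_
  intro x
  obtain ⟨a, ha⟩ := hspan x x.2.1 x.2.2
  refine ⟨a, Subtype.ext ?_⟩
  rw [Fintype.linearCombination_apply, ha, Submodule.coe_sum]
  refine Finset.sum_congr rfl fun s _ => ?_
  rw [Submodule.coe_smul, smul_eq_mul']

end Lattice

section Residues

variable {K F k Fb : Type*} [Field K] [Field F] [Algebra K F] [Field k] [Field Fb] [Algebra k Fb]
variable {A : ValuationSubring K} {res : A →+* k} {V : ValuationSubring F} {rho : V →+* Fb}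
variable {hAV : ∀ a : A, algebraMap K F (a : K) ∈ V}
variable {ι : Type*} {P : ι → Place K F} {Q : ι → Place k Fb} {t : ι → V}
variable {tube : ι → Set (Place K F)}
variable (htube : ∀ i, ∀ y : V, (∀ v ∈ tube i, (y : F) ∈ v.toValuationSubring) →
  ∃ a : A, ((y : F) = algebraMap K F (a : K) ∨
      0 < (P i).ord ((y : F) - algebraMap K F (a : K))) ∧
    (rho y = algebraMap k Fb (res a) ∨ 0 < (Q i).ord (rho y - algebraMap k Fb (res a))))
variable (htP : ∀ i, (P i).ord (t i : F) = 1) (htQ : ∀ i, (Q i).ord (rho (t i)) = 1)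
variable (htube_t : ∀ i, ∀ v ∈ tube i, (t i : F) ∈ v.toValuationSubring)

include htube in
omit hAV in
theorem exists_val (i : ι) (y : V) (hy : ∀ v ∈ tube i, (y : F) ∈ v.toValuationSubring) :
    ∃ a : A, HasVal (P i) (y : F) (a : K) ∧ HasVal (Q i) (rho y) (res a) := by
  obtain ⟨a, h1, h2⟩ := htube i y hy
  exact ⟨a, hasVal_iff_ord.mpr h1, hasVal_iff_ord.mpr h2⟩

include htP in
omit hAV in
theorem vP_t (i : ι) : (P i).adicValuation (t i : F) = exp (-1) :=
  eq_exp_of_ord (RR.ne_zero_of_ord_ne_zero (P i) (by rw [htP i]; exact one_ne_zero)) (htP i)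

include htQ in
omit hAV in
theorem vQ_t (i : ι) : (Q i).adicValuation (rho (t i)) = exp (-1) :=
  eq_exp_of_ord (RR.ne_zero_of_ord_ne_zero (Q i) (by rw [htQ i]; exact one_ne_zero)) (htQ i)

include htP htube_t in
omit hAV in
theorem t_mul_reg {G : Divisor K F} (hG : ∀ i, ∀ v ∈ tube i, v ≠ P i → G v ≤ 0)
    (hG1 : ∀ i, G (P i) ≤ 1) {x : F} (hx : x ∈ riemannRochSpace G) (i : ι) :
    ∀ v ∈ tube i, (t i : F) * x ∈ v.toValuationSubring := by
  intro v hv
  apply mem_of_le_one
  rw [map_mul]
  by_cases hvP : v = P i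
  · rw [hvP, vP_t htP i]
    calc exp (-1) * (P i).adicValuation x ≤ exp (-1) * exp (G (P i)) :=
          mul_le_mul' le_rfl (hx _)
      _ = exp (-1 + G (P i)) := (exp_add _ _).symm
      _ ≤ exp 0 := exp_le_exp.mpr (by have := hG1 i; omega)
      _ = 1 := exp_zero
  · calc v.adicValuation (t i : F) * v.adicValuation x ≤ 1 * exp (G v) :=
          mul_le_mul' (v.adicValuation_le_one_of_mem (htube_t i v hv)) (hx v)
      _ = exp (G v) := one_mul _
      _ ≤ exp 0 := exp_le_exp.mpr (hG i v hv hvP)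
      _ = 1 := exp_zero

variable {G : Divisor K F} (hG : ∀ i, ∀ v ∈ tube i, v ≠ P i → G v ≤ 0) (hG1 : ∀ i, G (P i) ≤ 1)

include htube htP htube_t hG hG1 in
theorem exists_resid (x : lat A V hAV G) (i : ι) :
    ∃ a : A, HasVal (P i) ((t i : F) * (x : F)) (a : K) ∧
      HasVal (Q i) (rho (t i) * rho ⟨x, x.2.1⟩) (res a) := by
  obtain ⟨a, h1, h2⟩ := exists_val htube i (t i * ⟨x, x.2.1⟩)
    (t_mul_reg htP htube_t hG hG1 x.2.2 i)
  rw [map_mul] at h2
  exact ⟨a, h1, h2⟩

/-- The residue of `x ∈ L(G) ∩ V` at the point `P i`, an element of `A`. -/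
def resid (x : lat A V hAV G) (i : ι) : A :=
  (exists_resid htube htP htube_t hG hG1 x i).choose

theorem resid_spec (x : lat A V hAV G) (i : ι) :
    HasVal (P i) ((t i : F) * (x : F)) (resid htube htP htube_t hG hG1 x i : K) ∧
      HasVal (Q i) (rho (t i) * rho ⟨x, x.2.1⟩) (res (resid htube htP htube_t hG hG1 x i)) :=
  (exists_resid htube htP htube_t hG hG1 x i).choose_spec

/-- The residue map `L(G) ∩ V → A^ι`. -/
def resMap : lat A V hAV G →ₗ[A] (ι → A) where
  toFun x i := resid htube htP htube_t hG hG1 x i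
  map_add' x y := by
    funext i
    apply Subtype.ext
    have hx := (resid_spec htube htP htube_t hG hG1 x i).1
    have hy := (resid_spec htube htP htube_t hG hG1 y i).1
    have hxy := (resid_spec htube htP htube_t hG hG1 (x + y) i).1
    have h1 := hx.add hy
    rw [← mul_add] at h1
    exact hxy.unique h1
  map_smul' a x := by
    funext i
    apply Subtype.ext
    have hx := (resid_spec htube htP htube_t hG hG1 x i).1
    have hax := (resid_spec htube htP htube_t hG hG1 (a • x) i).1
    have h1 := (hasVal_const (v := P i) (a : K)).mul hx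
    have h2 : algebraMap K F (a : K) * ((t i : F) * (x : F)) =
        (t i : F) * ((a • x : lat A V hAV G) : F) := by
      rw [Submodule.coe_smul, smul_eq_mul']
      ring
    rw [h2] at h1
    exact hax.unique h1

theorem resMap_spec (x : lat A V hAV G) (i : ι) :
    HasVal (P i) ((t i : F) * (x : F)) (resMap htube htP htube_t hG hG1 x i : K) ∧
      HasVal (Q i) (rho (t i) * rho ⟨x, x.2.1⟩) (res (resMap htube htP htube_t hG hG1 x i)) :=
  resid_spec htube htP htube_t hG hG1 x i

theorem resMap_eq_zero_iff (x : lat A V hAV G) (i : ι) :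
    resMap htube htP htube_t hG hG1 x i = 0 ↔ (P i).adicValuation (x : F) ≤ 1 := by
  have h := (resMap_spec htube htP htube_t hG hG1 x i).1
  constructor
  · intro h0
    rw [h0] at h
    exact (val_mul_lt_one_iff (vP_t htP i)).mp (hasVal_zero_iff.mp h)
  · intro hx
    have h1 : HasVal (P i) ((t i : F) * (x : F)) 0 :=
      hasVal_zero_iff.mpr ((val_mul_lt_one_iff (vP_t htP i)).mpr hx)
    exact Subtype.ext (h.unique h1)

include htQ in
theorem res_resMap_eq_zero_iff (x : lat A V hAV G) (i : ι) :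
    res (resMap htube htP htube_t hG hG1 x i) = 0 ↔
      (Q i).adicValuation (rho ⟨x, x.2.1⟩) ≤ 1 := by
  have h := (resMap_spec htube htP htube_t hG hG1 x i).2
  constructor
  · intro h0
    rw [h0] at h
    exact (val_mul_lt_one_iff (vQ_t htQ i)).mp (hasVal_zero_iff.mp h)
  · intro hx
    have h1 : HasVal (Q i) (rho (t i) * rho ⟨x, x.2.1⟩) 0 :=
      hasVal_zero_iff.mpr ((val_mul_lt_one_iff (vQ_t htQ i)).mpr hx)
    exact h.unique h1

end Residues

section Main

/-- **Theorem U, concrete form (simple poles only).**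

`F / K` and `Fb / k` are function fields, `A ⊂ K` a valuation ring with residue map
`res : A → k`, `V ⊂ F` a (Gauss) valuation ring with reduction `rho : V → Fb`, cartesian over `A`.
`D` is a divisor of `F` with `m • D = div φ`, reducing to `Db = div ψb`, `rho φ = c0b ψb ^ m`,
and `m` is invertible in `k`.  Given `m` blocks of generic points `P (j, s)` reducing to `Q (j, s)`
with coordinates `t i`, the tube property (values at `P i` of functions regular on the tube are
`A`-integral and reduce to the values at `Q i`), inclusion and lifting for the divisors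
`D + ∑ P i`, `D + ∑_{block j} P i`, `∑ P i`, and finite generation of the two lattices,
`L(D) = 0` is contradictory. -/
theorem false_of_rr_eq_bot
    {K F k Fb : Type*} [Field K] [Field F] [Algebra K F] [Field k] [Field Fb] [Algebra k Fb]
    {A : ValuationSubring K} {res : A →+* k} {V : ValuationSubring F} {rho : V →+* Fb}
    (hres : Function.Surjective res)
    (hAV : ∀ a : A, algebraMap K F (a : K) ∈ V)
    (hrho : ∀ a : A, rho ⟨algebraMap K F (a : K), hAV a⟩ = algebraMap k Fb (res a))
    (hcart : ∀ x : V, rho x = 0 →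
      ∃ c : A, c ∈ maximalIdeal A ∧ ∃ x' : V, (x : F) = algebraMap K F (c : K) * (x' : F))
    {m : ℕ} {I₀ : Type*} [Fintype I₀] (hm : (m : k) ≠ 0)
    {P : Fin m × I₀ → Place K F} {Q : Fin m × I₀ → Place k Fb} {t : Fin m × I₀ → V}
    {tube : Fin m × I₀ → Set (Place K F)}
    (hPinj : Function.Injective P) (hQinj : Function.Injective Q)
    (hdegQ : ∀ i, (Q i).deg = 1)
    (hconstb : ∀ f : Fb, (∀ w : Place k Fb, 0 ≤ w.ord f) → ∃ c : k, f = algebraMap k Fb c)
    (D : Divisor K F) (Db : Divisor k Fb)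
    (φ : V) (hφ0 : (φ : F) ≠ 0) (hφ : ∀ v : Place K F, v.ord (φ : F) = m * D v)
    (ψb : Fb) (hψb0 : ψb ≠ 0) (hψb : ∀ w : Place k Fb, w.ord ψb = Db w)
    (c0b : k) (hc0b : c0b ≠ 0) (hφb : rho φ = algebraMap k Fb c0b * ψb ^ m)
    (hDQ : ∀ i, Db (Q i) = 0)
    (htP : ∀ i, (P i).ord (t i : F) = 1) (htQ : ∀ i, (Q i).ord (rho (t i)) = 1)
    (htube_self : ∀ i, P i ∈ tube i)
    (htube_D : ∀ i, ∀ v ∈ tube i, D v = 0)
    (htube_P : ∀ i i', i' ≠ i → P i' ∉ tube i)
    (htube_t : ∀ i, ∀ v ∈ tube i, (t i : F) ∈ v.toValuationSubring)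
    (htube : ∀ i, ∀ y : V, (∀ v ∈ tube i, (y : F) ∈ v.toValuationSubring) →
      ∃ a : A, ((y : F) = algebraMap K F (a : K) ∨
          0 < (P i).ord ((y : F) - algebraMap K F (a : K))) ∧
        (rho y = algebraMap k Fb (res a) ∨ 0 < (Q i).ord (rho y - algebraMap k Fb (res a))))
    (hinclD : ∀ x : V, (x : F) ∈ riemannRochSpace (D + ptDiv P Finset.univ) →
      rho x ∈ riemannRochSpace (Db + ptDiv Q Finset.univ))
    (hincl0 : ∀ x : V, (x : F) ∈ riemannRochSpace (ptDiv P Finset.univ) →
      rho x ∈ riemannRochSpace (ptDiv Q Finset.univ))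
    (hliftD : ∀ yb ∈ riemannRochSpace (Db + ptDiv Q Finset.univ),
      ∃ x : V, (x : F) ∈ riemannRochSpace (D + ptDiv P Finset.univ) ∧ rho x = yb)
    (hliftB : ∀ j : Fin m,
      ∀ yb ∈ riemannRochSpace (Db + ptDiv Q (Finset.univ.filter fun i => i.1 = j)),
      ∃ x : V, (x : F) ∈ riemannRochSpace (D + ptDiv P (Finset.univ.filter fun i => i.1 = j)) ∧
        rho x = yb)
    (hfgD : ∃ (n : ℕ) (b : Fin n → F),
      (∀ s, b s ∈ V ∧ b s ∈ riemannRochSpace (D + ptDiv P Finset.univ)) ∧
      ∀ x ∈ V, x ∈ riemannRochSpace (D + ptDiv P Finset.univ) →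
        ∃ a : Fin n → A, x = ∑ s, algebraMap K F (a s : K) * b s)
    (hfg0 : ∃ (n : ℕ) (b : Fin n → F),
      (∀ s, b s ∈ V ∧ b s ∈ riemannRochSpace (ptDiv P Finset.univ)) ∧
      ∀ x ∈ V, x ∈ riemannRochSpace (ptDiv P Finset.univ) →
        ∃ a : Fin n → A, x = ∑ s, algebraMap K F (a s : K) * b s)
    (hLD : ∀ x ∈ riemannRochSpace D, x = 0) :
    False := by
  classical
  have hDP : ∀ i, D (P i) = 0 := fun i => htube_D i _ (htube_self i)
  have hEtube : ∀ i, ∀ v ∈ tube i, v ≠ P i → ptDiv P Finset.univ v = 0 := by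
    intro i v hv hne
    apply ptDiv_apply_of_ne
    intro i' _ h
    by_cases hii : i' = i
    · exact hne (by rw [← h, hii])
    · exact htube_P i i' hii (h ▸ hv)
  have hEP : ∀ i, ptDiv P Finset.univ (P i) = 1 := fun i => by
    rw [ptDiv_apply hPinj, if_pos (Finset.mem_univ i)]
  have hG : ∀ i, ∀ v ∈ tube i, v ≠ P i → (D + ptDiv P Finset.univ) v ≤ 0 := by
    intro i v hv hne
    rw [Finsupp.add_apply, htube_D i v hv, hEtube i v hv hne, add_zero]
  have hG1 : ∀ i, (D + ptDiv P Finset.univ) (P i) ≤ 1 := by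
    intro i
    rw [Finsupp.add_apply, hDP, hEP, zero_add]
  have hG0 : ∀ i, ∀ v ∈ tube i, v ≠ P i → ptDiv P Finset.univ v ≤ 0 :=
    fun i v hv hne => (hEtube i v hv hne).le
  have hG01 : ∀ i, ptDiv P Finset.univ (P i) ≤ 1 := fun i => (hEP i).le
  have hfinΛ : Module.Finite A (lat A V hAV (D + ptDiv P Finset.univ)) := finite_lat hfgD
  have hfinW : Module.Finite A (lat A V hAV (ptDiv P Finset.univ)) := finite_lat hfg0
  set ρ : lat A V hAV (D + ptDiv P Finset.univ) →ₗ[A] (Fin m × I₀ → A) :=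
    resMap htube htP htube_t hG hG1 with hρdef
  set Pm : lat A V hAV (ptDiv P Finset.univ) →ₗ[A] (Fin m × I₀ → A) :=
    resMap htube htP htube_t hG0 hG01 with hPmdef
  -- basic facts on the special fibre
  have hvψ : ∀ w : Place k Fb, w.adicValuation ψb = exp (-(Db w)) := fun w =>
    eq_exp_of_ord hψb0 (hψb w)
  have hvψinv : ∀ w : Place k Fb, w.adicValuation ψb⁻¹ = exp (Db w) := by
    intro w
    rw [map_inv₀, hvψ, ← exp_neg, neg_neg]
  have hconst' : ∀ f : Fb, (∀ w : Place k Fb, w.adicValuation f ≤ 1) →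
      ∃ c : k, f = algebraMap k Fb c := by
    intro f hf
    apply hconstb
    intro w
    rcases w.adicValuation_le_one_iff.mp (hf w) with h | h
    · rw [h, Place.ord_zero]
    · exact h
  have hmem_res : ∀ a : A, res a = 0 ↔ a ∈ maximalIdeal A := res_eq_zero_iff res hres
  have hψQ : ∀ i, (Q i).adicValuation ψb = 1 := fun i => by
    rw [hvψ, hDQ, neg_zero, exp_zero]
  choose p hp using fun i => exists_hasVal (hdegQ i) (hψQ i).le
  have hp0 : ∀ i, p i ≠ 0 := by
    intro i h0
    have h1 := hp i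
    rw [h0, hasVal_zero_iff, hψQ] at h1
    exact lt_irrefl _ h1
  choose ω hω using fun i => hres (c0b * p i)
  have hω𝔪 : ∀ i, ω i ∉ maximalIdeal A := by
    intro i hmem
    have h1 := (hmem_res (ω i)).mpr hmem
    rw [hω i] at h1
    exact mul_ne_zero hc0b (hp0 i) h1
  have hm1 : 1 ≤ m := by
    rcases Nat.eq_zero_or_pos m with h0 | h0
    · exact absurd (by rw [h0, Nat.cast_zero]) hm
    · exact h0
  -- the lift `f₀` of `ψb⁻¹`
  have hψinvD : ψb⁻¹ ∈ riemannRochSpace (Db + ptDiv Q Finset.univ) := by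
    intro w
    rw [hvψinv, Finsupp.add_apply]
    exact exp_le_exp.mpr (by have := ptDiv_nonneg Q Finset.univ w; omega)
  obtain ⟨f₀V, hf₀G, hf₀ρ⟩ := hliftD _ hψinvD
  set f₀ : lat A V hAV (D + ptDiv P Finset.univ) := ⟨f₀V, f₀V.2, hf₀G⟩ with hf₀def
  have hρf₀' : rho ⟨(f₀ : F), f₀.2.1⟩ = ψb⁻¹ := hf₀ρ
  have hcartΛ : ∀ x : lat A V hAV (D + ptDiv P Finset.univ),
      x ∈ (maximalIdeal A) • (⊤ : Submodule A (lat A V hAV (D + ptDiv P Finset.univ))) ↔
        rho ⟨x, x.2.1⟩ = 0 := mem_smul_top_iff res rho hres hrho hcart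
  have hcartW : ∀ x : lat A V hAV (ptDiv P Finset.univ),
      x ∈ (maximalIdeal A) • (⊤ : Submodule A (lat A V hAV (ptDiv P Finset.univ))) ↔
        rho ⟨x, x.2.1⟩ = 0 := mem_smul_top_iff res rho hres hrho hcart
  have hredΛ : ∀ (x : lat A V hAV (D + ptDiv P Finset.univ)) (i : Fin m × I₀),
      ρ x i ∈ maximalIdeal A ↔ (Q i).adicValuation (rho ⟨x, x.2.1⟩) ≤ 1 := fun x i =>
    (hmem_res _).symm.trans (res_resMap_eq_zero_iff htube htP htQ htube_t hG hG1 x i)
  have hredW : ∀ (x : lat A V hAV (ptDiv P Finset.univ)) (i : Fin m × I₀),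
      Pm x i ∈ maximalIdeal A ↔ (Q i).adicValuation (rho ⟨x, x.2.1⟩) ≤ 1 := fun x i =>
    (hmem_res _).symm.trans (res_resMap_eq_zero_iff htube htP htQ htube_t hG0 hG01 x i)
  have hone_mem : (1 : F) ∈ riemannRochSpace (ptDiv P Finset.univ) := by
    intro v
    rw [map_one, ← exp_zero]
    exact exp_le_exp.mpr (ptDiv_nonneg P Finset.univ v)
  refine UMulti.false_of_blocks (A := A) (J := Fin m) (I₀ := I₀) ?_ ρ ?_ Pm
    ⟨1, V.one_mem, hone_mem⟩ ?_ ?_ f₀ ?_ ?_ ?_ ?_ ω hω𝔪 ?_ ?_
  · -- `m` is a unit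
    rw [Nat.card_eq_fintype_card, Fintype.card_fin]
    intro hmem
    have h1 := (hmem_res _).mpr hmem
    rw [map_natCast] at h1
    exact hm h1
  · -- `ρ` is injective
    rw [injective_iff_map_eq_zero]
    intro x hx
    have hxreg : ∀ i, (P i).adicValuation (x : F) ≤ 1 := fun i =>
      (resMap_eq_zero_iff htube htP htube_t hG hG1 x i).mp (congrFun hx i)
    have hxD : (x : F) ∈ riemannRochSpace (D + ptDiv P ∅) :=
      mem_rr_drop hPinj hDP x.2.2 (fun i _ _ => hxreg i)
    rw [ptDiv_empty, add_zero] at hxD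
    exact Subtype.ext (hLD _ hxD)
  · -- `P 1 = 0`
    funext i
    refine (resMap_eq_zero_iff htube htP htube_t hG0 hG01 _ i).mpr ?_
    show (P i).adicValuation (1 : F) ≤ 1
    rw [map_one]
  · -- no poles modulo `𝔪` ⇒ constant
    intro x hx
    have hxb : rho ⟨x, x.2.1⟩ ∈ riemannRochSpace (ptDiv Q Finset.univ) := hincl0 ⟨x, x.2.1⟩ x.2.2
    have hreg : ∀ i, (Q i).adicValuation (rho ⟨x, x.2.1⟩) ≤ 1 := fun i => (hredW x i).mp (hx i)
    have h0 : rho ⟨x, x.2.1⟩ ∈ riemannRochSpace ((0 : Divisor k Fb) + ptDiv Q ∅) :=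
      mem_rr_drop hQinj (fun _ => rfl) (by rw [zero_add]; exact hxb) (fun i _ _ => hreg i)
    rw [ptDiv_empty, add_zero] at h0
    obtain ⟨c, hc⟩ := hconst' _ (fun w => by
      have h1 := h0 w
      rwa [Finsupp.zero_apply, exp_zero] at h1)
    obtain ⟨a, rfl⟩ := hres c
    refine ⟨a, (hcartW _).mpr ?_⟩
    rw [rho_sub_smul res rho hrho, hc]
    have h1 : rho ⟨((⟨1, V.one_mem, hone_mem⟩ : lat A V hAV (ptDiv P Finset.univ)) : F),
        V.one_mem⟩ = 1 := map_one rho
    rw [h1, mul_one, sub_self]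
  · -- `f₀ ∉ 𝔪 Λ`
    intro hmem
    have h1 := (hcartΛ f₀).mp hmem
    rw [hρf₀'] at h1
    exact inv_ne_zero hψb0 h1
  · -- `ρ f₀ ∈ 𝔪`
    intro i
    refine (hredΛ f₀ i).mpr ?_
    rw [hρf₀', hvψinv, hDQ, exp_zero]
  · -- kernel of `ρ` modulo `𝔪`
    intro x hx
    have hxb := hinclD ⟨x, x.2.1⟩ x.2.2
    have hreg : ∀ i, (Q i).adicValuation (rho ⟨x, x.2.1⟩) ≤ 1 := fun i => (hredΛ x i).mp (hx i)
    have h0 : rho ⟨x, x.2.1⟩ ∈ riemannRochSpace (Db + ptDiv Q ∅) :=
      mem_rr_drop hQinj hDQ hxb (fun i _ _ => hreg i)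
    rw [ptDiv_empty, add_zero] at h0
    obtain ⟨c, hc⟩ := hconst' (rho ⟨x, x.2.1⟩ * ψb) (fun w => by
      rw [map_mul, hvψ]
      calc w.adicValuation (rho ⟨x, x.2.1⟩) * exp (-(Db w)) ≤ exp (Db w) * exp (-(Db w)) :=
            mul_le_mul' (h0 w) le_rfl
        _ = 1 := by rw [← exp_add, add_neg_cancel, exp_zero])
    obtain ⟨a, rfl⟩ := hres c
    refine ⟨a, (hcartΛ _).mpr ?_⟩
    rw [rho_sub_smul res rho hrho, hρf₀', ← hc, mul_assoc, mul_inv_cancel₀ hψb0, mul_one, sub_self]
  · -- lifting inside the blocks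
    intro j x hx
    have hxb := hinclD ⟨x, x.2.1⟩ x.2.2
    have hB : rho ⟨x, x.2.1⟩ ∈
        riemannRochSpace (Db + ptDiv Q (Finset.univ.filter fun i => i.1 = j)) :=
      mem_rr_drop hQinj hDQ hxb (fun i _ hi => (hredΛ x i).mp (hx i (by simpa using hi)))
    obtain ⟨yV, hyG, hyρ⟩ := hliftB j _ hB
    have hyΛ : (yV : F) ∈ riemannRochSpace (D + ptDiv P Finset.univ) :=
      mem_rr_of_le hyG (fun v => Or.inl (by
        rw [Finsupp.add_apply, Finsupp.add_apply]
        have := ptDiv_mono P (Finset.filter_subset (fun i : Fin m × I₀ => i.1 = j) Finset.univ) v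
        omega))
    refine ⟨⟨yV, yV.2, hyΛ⟩, ?_, (hcartΛ _).mpr ?_⟩
    · intro i hi
      refine (resMap_eq_zero_iff htube htP htube_t hG hG1 _ i).mpr ?_
      have h1 := hyG (P i)
      rw [Finsupp.add_apply, hDP, ptDiv_apply hPinj, if_neg (by simpa using hi), add_zero,
        exp_zero] at h1
      exact h1
    · rw [rho_sub]
      have h1 : rho ⟨((⟨yV, yV.2, hyΛ⟩ : lat A V hAV (D + ptDiv P Finset.univ)) : F), yV.2⟩ =
          rho ⟨x, x.2.1⟩ := hyρ
      rw [h1, sub_self]
  · -- products over the blocks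
    intro y hy
    have hyρ : ∀ j, rho ⟨(y j : F), (y j).2.1⟩ = ψb⁻¹ := by
      intro j
      have h1 := (hcartΛ _).mp (hy j).2
      rw [rho_sub, hρf₀', sub_eq_zero] at h1
      exact h1
    have hyB : ∀ j, (y j : F) ∈
        riemannRochSpace (D + ptDiv P (Finset.univ.filter fun i => i.1 = j)) := by
      intro j
      refine mem_rr_drop hPinj hDP (y j).2.2 (fun i _ hi => ?_)
      exact (resMap_eq_zero_iff htube htP htube_t hG hG1 (y j) i).mp
        ((hy j).1 i (by simpa using hi))
    set yV : Fin m → V := fun j => ⟨y j, (y j).2.1⟩ with hyV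
    set gV : V := (∏ j, yV j) * φ with hgV
    have hgcoe : (gV : F) = (∏ j, (y j : F)) * (φ : F) := by
      rw [hgV, MulMemClass.coe_mul, SubmonoidClass.coe_finsetProd]
    have hgE : (gV : F) ∈ riemannRochSpace (ptDiv P Finset.univ) := by
      intro v
      rw [hgcoe, map_mul, map_prod, eq_exp_of_ord hφ0 (hφ v)]
      calc (∏ j, v.adicValuation (y j : F)) * exp (-(m * D v))
          ≤ (∏ j : Fin m, exp ((D + ptDiv P (Finset.univ.filter fun i => i.1 = j)) v)) *
              exp (-(m * D v)) :=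
            mul_le_mul' (Finset.prod_le_prod' fun j _ => hyB j v) le_rfl
        _ = exp (ptDiv P Finset.univ v) := by
            rw [← exp_sum, ← exp_add]
            congr 1
            rw [ptDiv_sum_fiber P, Finsupp.finsetSum_apply]
            simp only [Finsupp.add_apply]
            rw [Finset.sum_add_distrib, Finset.sum_const, Finset.card_univ, Fintype.card_fin,
              nsmul_eq_mul]
            ring
    refine ⟨⟨gV, gV.2, hgE⟩, fun i => ?_⟩
    set hV : V := (∏ j ∈ Finset.univ.erase i.1, yV j) * φ with hhV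
    have hgfac : gV = yV i.1 * hV := by
      rw [hgV, hhV, ← mul_assoc, Finset.mul_prod_erase _ _ (Finset.mem_univ i.1)]
    have hfac : (t i : F) * (gV : F) = ((t i : F) * (y i.1 : F)) * (hV : F) := by
      rw [hgfac, MulMemClass.coe_mul]
      show (t i : F) * ((y i.1 : F) * (hV : F)) = _
      ring
    have hhcoe : (hV : F) = (∏ j ∈ Finset.univ.erase i.1, (y j : F)) * (φ : F) := by
      rw [hhV, MulMemClass.coe_mul, SubmonoidClass.coe_finsetProd]
    have hhreg : ∀ v ∈ tube i, (hV : F) ∈ v.toValuationSubring := by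
      intro v hv
      rw [hhcoe]
      refine mul_mem (prod_mem fun j hj => ?_) ?_
      · apply mem_of_le_one
        have h2 := hyB j v
        rw [Finsupp.add_apply, htube_D i v hv, zero_add, ptDiv_apply_of_ne ?_, exp_zero] at h2
        · exact h2
        · intro i' hi' h
          have hi'j : i'.1 = j := by simpa using hi'
          by_cases hii : i' = i
          · exact (Finset.ne_of_mem_erase hj) (by rw [← hi'j, hii])
          · exact htube_P i i' hii (h ▸ hv)
      · apply mem_of_le_one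
        rw [eq_exp_of_ord hφ0 (hφ v), htube_D i v hv, mul_zero, neg_zero, exp_zero]
    obtain ⟨w, hw1, hw2⟩ := exists_val htube i hV hhreg
    refine ⟨w, ?_, ?_⟩
    · rw [← hmem_res, map_sub, sub_eq_zero, hω i]
      have h3 : rho hV = algebraMap k Fb c0b * ψb := by
        rw [hhV, map_mul, map_prod, hφb]
        have h4 : ∀ j ∈ Finset.univ.erase i.1, rho (yV j) = ψb⁻¹ := fun j _ => hyρ j
        rw [Finset.prod_congr rfl h4, Finset.prod_const,
          Finset.card_erase_of_mem (Finset.mem_univ _), Finset.card_univ, Fintype.card_fin]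
        exact inv_pow_mul_pow_aux m hm1 ψb _ hψb0
      rw [h3] at hw2
      exact hw2.unique ((hasVal_const c0b).mul (hp i))
    · apply Subtype.ext
      have h4 := (resMap_spec htube htP htube_t hG0 hG01
        (⟨gV, gV.2, hgE⟩ : lat A V hAV (ptDiv P Finset.univ)) i).1
      have h4' : HasVal (P i) ((t i : F) * (gV : F)) (Pm ⟨gV, gV.2, hgE⟩ i : K) := h4
      rw [hfac] at h4'
      have h5 := ((resMap_spec htube htP htube_t hG hG1 (y i.1) i).1).mul hw1
      exact h4'.unique h5
  · -- division by `c̄₀ ψ̄`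
    intro g
    by_cases hg0 : rho ⟨(g : F), g.2.1⟩ = 0
    · refine ⟨0, fun i => ?_⟩
      rw [map_zero, Pi.zero_apply, zero_mul, zero_sub, neg_mem_iff]
      refine (hredW g i).mpr ?_
      rw [hg0, map_zero]
      exact zero_le
    · have hgb := hincl0 ⟨g, g.2.1⟩ g.2.2
      set hb : Fb := rho ⟨g, g.2.1⟩ * ψb⁻¹ * (algebraMap k Fb c0b)⁻¹ with hhb
      have hhbD : hb ∈ riemannRochSpace (Db + ptDiv Q Finset.univ) := by
        intro w
        rw [hhb, map_mul, map_mul, hvψinv, map_inv₀, adicValuation_algebraMap_eq_one hc0b,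
          inv_one, mul_one, Finsupp.add_apply, add_comm, exp_add]
        exact mul_le_mul' (hgb w) le_rfl
      obtain ⟨hV, hhG, hhρ⟩ := hliftD _ hhbD
      refine ⟨⟨hV, hV.2, hhG⟩, fun i => ?_⟩
      rw [← hmem_res, map_sub, map_mul, sub_eq_zero, hω i]
      have h1 := (resMap_spec htube htP htube_t hG hG1
        (⟨hV, hV.2, hhG⟩ : lat A V hAV (D + ptDiv P Finset.univ)) i).2
      have h2 := (resMap_spec htube htP htube_t hG0 hG01 g i).2
      have h3 : rho ⟨((⟨hV, hV.2, hhG⟩ : lat A V hAV (D + ptDiv P Finset.univ)) : F), hV.2⟩ =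
          hb := hhρ
      have h4 : rho (t i) * rho ⟨(g : F), g.2.1⟩ =
          (rho (t i) * hb) * (algebraMap k Fb c0b * ψb) := by
        have hc0 : algebraMap k Fb c0b ≠ 0 := by simpa using hc0b
        rw [hhb]
        field_simp
      rw [h3] at h1
      rw [h4] at h2
      exact (h2.unique (h1.mul ((hasVal_const c0b).mul (hp i)))).symm

end Main

end Fermat.Agent.S18.UMain
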