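import Fermat.Agent.S18.Iface2
import Fermat.Agent.S18.UMain
import Fermat.Agent.S18.LiftInclRR
import Fermat.Agent.S18.LiftTrace
import Fermat.Agent.S18.LiftSqueeze
import Fermat.Agent.S18.LiftDeg

/-!
# S18, chain U: the lifting / inclusion inputs of the relative Theorem U at level `M`

For `N ∣ M`, `ℓ ∤ M`, with the Gauss valuation rings `RGB.V N A ⊆ RGB.V M A` and their residue
maps onto the function fields in characteristic `ℓ`:

* `UAd.relIntegral_rho_of` (generic) and `UAd.relIntegral_rho` (levels `N ∣ M`): the reduction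
  of a Gauss-integral element of the relative Riemann–Roch space of a divisor `G` of `F_N`
  lies in the relative Riemann–Roch space of the reduced divisor `r_* G` (characteristic
  polynomial argument, integral form: no places of `F_M`, no separability);
* `UAd.mapDomain_add_ptDiv`, `UAd.degree_add_ptDiv`: bookkeeping for divisors `D + ∑ P i`;
* `UAd.hincl`, `UAd.hlift`, `UAd.hcart`: the hypotheses `hinclD`, `hincl0`, `hliftD`, `hliftB`,
  `hcart` of the relative Theorem U, from the above and the lifting property `LiftPropV`.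
-/

set_option autoImplicit false
set_option synthInstance.maxHeartbeats 400000
set_option linter.unusedSectionVars false
set_option linter.style.haveILetI false

noncomputable section

namespace Fermat.Agent.S18.UAd

open AlgebraicCurve Polynomial ModularCurve Fermat.Agent.S20

/-! ### Divisor bookkeeping -/

section Book

variable {K F k Fb : Type*} [Field K] [Field F] [Algebra K F] [Field k] [Field Fb] [Algebra k Fb]

/-- Push-forward of `∑_{i ∈ T} P i`. -/
theorem mapDomain_ptDiv {ι : Type*} (r : Place K F → Place k Fb)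
    (P : ι → Place K F) (T : Finset ι) :
    Finsupp.mapDomain r (UMain.ptDiv P T) = UMain.ptDiv (fun i => r (P i)) T := by
  unfold UMain.ptDiv
  rw [Finsupp.mapDomain_finsetSum]
  exact Finset.sum_congr rfl fun i _ => Finsupp.mapDomain_single

/-- Push-forward of `D + ∑_{i ∈ T} P i`. -/
theorem mapDomain_add_ptDiv {ι : Type*} (r : Place K F → Place k Fb) (D : Divisor K F)
    (P : ι → Place K F) (T : Finset ι) :
    Finsupp.mapDomain r (D + UMain.ptDiv P T)
      = Finsupp.mapDomain r D + UMain.ptDiv (fun i => r (P i)) T := by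
  rw [Finsupp.mapDomain_add, mapDomain_ptDiv]

/-- Degree of `D + ∑_{i ∈ T} P i` when the `P i` have degree one. -/
theorem degree_add_ptDiv {ι : Type*} (D : Divisor K F) (P : ι → Place K F)
    (hdeg : ∀ i, (P i).deg = 1) (T : Finset ι) :
    Divisor.degree (D + UMain.ptDiv P T) = Divisor.degree D + T.card := by
  unfold UMain.ptDiv
  rw [map_add, map_sum]
  congr 1
  have h1 : ∀ i ∈ T, Divisor.degree (Finsupp.single (P i) (1 : ℤ)) = 1 := fun i _ => by
    rw [Divisor.degree_single, hdeg i]
    norm_num
  rw [Finset.sum_congr rfl h1]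
  simp

end Book

/-! ### The characteristic polynomial inclusion, integral form -/

section Incl

variable {K F F' : Type*} [Field K] [Field F] [Algebra K F] [Field F'] [Algebra F F']

/-- If `f` lies in the relative Riemann–Roch space of `G` (integral form), the coefficient `a_i`
of `minpoly F f` (of degree `n`) lies in `L((n - i) • G)`. -/
theorem minpoly_coeff_mem_rr (G : Divisor K F) (f : F') (hf : IsIntegral F f)
    (h : UpN.RelIntegral G f) (i : ℕ) :
    (minpoly F f).coeff i ∈ riemannRochSpace (((minpoly F f).natDegree - i) • G) := by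
  rw [mem_riemannRochSpace_iff]
  intro P
  rcases eq_or_ne ((minpoly F f).coeff i) 0 with hc | hc
  · exact Or.inl hc
  right
  obtain ⟨t, ht0, ht⟩ := LiftIRR.exists_ord_eq P (G P)
  have hint := h P t ht
  have hmem : (minpoly F f).coeff i * t ^ ((minpoly F f).natDegree - i)
      ∈ P.toValuationSubring := by
    have h1 := minpoly.isIntegrallyClosed_eq_field_fractions' F hint
    rw [LiftI.minpoly_mul_algebraMap f hf ht0] at h1
    have h2 := congrArg (fun q => q.coeff i) h1
    simp only [coeff_scaleRoots, coeff_map] at h2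
    rw [h2]
    exact Subtype.mem _
  rw [RR.mem_valuationSubring_iff] at hmem
  have h0 : (minpoly F f).coeff i * t ^ ((minpoly F f).natDegree - i) ≠ 0 :=
    mul_ne_zero hc (pow_ne_zero _ ht0)
  have h1 := hmem.resolve_left h0
  rw [P.ord_mul hc (pow_ne_zero _ ht0), LiftIRR.ord_pow, ht] at h1
  rw [Finsupp.smul_apply, nsmul_eq_mul]
  linarith

/-- A root `y` of a monic polynomial `p` of degree `n` whose coefficients satisfy
`p.coeff i ∈ L((n - i) • G)` lies in the relative Riemann–Roch space of `G` (integral form). -/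
theorem relIntegral_of_root (G : Divisor K F) (p : F[X]) (hp : p.Monic) (y : F')
    (hy : aeval y p = 0)
    (hc : ∀ i, i < p.natDegree → p.coeff i ∈ riemannRochSpace ((p.natDegree - i) • G)) :
    UpN.RelIntegral G y := by
  intro Q s hs
  have hmon : (scaleRoots p s).Monic := (monic_scaleRoots_iff s).mpr hp
  have hlift : scaleRoots p s ∈ lifts (algebraMap Q.toValuationSubring F) := by
    rw [lifts_iff_coeff_lifts]
    intro i
    rw [coeff_scaleRoots]
    have hmem : p.coeff i * s ^ (p.natDegree - i) ∈ Q.toValuationSubring := by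
      rcases lt_trichotomy i p.natDegree with h | h | h
      · have h1 := (mem_riemannRochSpace_iff.mp (hc i h)) Q
        rw [Finsupp.smul_apply, nsmul_eq_mul, ← hs] at h1
        exact LiftIRR.mul_pow_mem Q (Nat.sub_ne_zero_of_lt h) h1
      · subst h
        rw [hp.coeff_natDegree, Nat.sub_self, pow_zero, mul_one]
        exact one_mem _
      · rw [coeff_eq_zero_of_natDegree_lt h, zero_mul]
        exact zero_mem _
    exact ⟨⟨_, hmem⟩, rfl⟩
  obtain ⟨q, hq, -, hqm⟩ := lifts_and_natDegree_eq_and_monic hlift hmon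
  refine ⟨q, hqm, ?_⟩
  rw [IsScalarTower.algebraMap_eq Q.toValuationSubring F F', ← eval₂_map, hq, mul_comm]
  exact scaleRoots_eval₂_eq_zero (algebraMap F F') hy

end Incl

section InclRed

variable {K F F' k Fb Fb' : Type*} [Field K] [Field F] [Algebra K F] [Field F'] [Algebra F F']
  [Field k] [Field Fb] [Algebra k Fb] [Field Fb'] [Algebra Fb Fb']
  {V : ValuationSubring F} {V' : ValuationSubring F'} {ρ : V →+* Fb} {ρ' : V' →+* Fb'}

/-- **Inclusion, generic form.**  `V ⊆ V'` valuation rings of `F ⊆ F'` with residue maps `ρ`,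
`ρ'` onto `Fb ⊆ Fb'`, `[F' : F] ≤ [Fb' : Fb]`, and `r` a map of places satisfying the extended
reduction property for the units of `V`.  Then `ρ'` maps the Gauss-integral part of the relative
Riemann–Roch space of `G` into the relative Riemann–Roch space of `r_* G`. -/
theorem relIntegral_rho_of (hpair : LiftT.RedPair V V' ρ ρ') [FiniteDimensional F F']
    (hdeg : Module.finrank F F' ≤ Module.finrank Fb Fb')
    (r : Place K F → Place k Fb)
    (hstar : ∀ x : V, ρ x ≠ 0 → ∀ D : Divisor K F, (∀ P, D P = P.ord (x : F)) →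
      ∀ Q, Finsupp.mapDomain r D Q = Q.ord (ρ x))
    (hdiv : ∀ f : F, f ≠ 0 → ∃ D : Divisor K F, ∀ v, D v = v.ord f)
    (G : Divisor K F) (x : V') (hx : UpN.RelIntegral G (x : F')) :
    UpN.RelIntegral (Finsupp.mapDomain r G) (ρ' x) := by
  obtain ⟨p, hpm, hpmap, hpev⟩ := hpair.exists_monic_map_eq_minpoly hdeg x
  have hxint : IsIntegral F (x : F') := IsIntegral.of_finite F _
  have hnat : (p.map ρ).natDegree = (minpoly F (x : F')).natDegree := by
    rw [hpm.natDegree_map, ← hpmap, hpm.natDegree_map]
  refine relIntegral_of_root (Finsupp.mapDomain r G) (p.map ρ) (hpm.map ρ) (ρ' x) ?_ ?_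
  · rw [aeval_def, eval₂_map]
    exact hpev
  · intro i _
    rw [coeff_map, hnat]
    rcases eq_or_ne (ρ (p.coeff i)) 0 with h0 | h0
    · rw [h0]
      exact Submodule.zero_mem _
    · have hcoe : ((p.coeff i : V) : F) = (minpoly F (x : F')).coeff i := by
        rw [← hpmap, coeff_map]
        rfl
      have hne : ((p.coeff i : V) : F) ≠ 0 := by
        intro h
        apply h0
        have : p.coeff i = 0 := Subtype.ext h
        rw [this, map_zero]
      obtain ⟨D, hD⟩ := hdiv _ hne
      have h1 := LiftS.mem_rr_mapDomain r hne D hD (hstar (p.coeff i) h0 D hD)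
        (((minpoly F (x : F')).natDegree - i) • G)
        (by rw [hcoe]; exact minpoly_coeff_mem_rr G (x : F') hxint hx i)
      rwa [Finsupp.mapDomain_smul] at h1

end InclRed

/-! ### The levels `N ∣ M` -/

section Level

variable {N M : ℕ} [NeZero N] [NeZero M] (h : N ∣ M) {ℓ : ℕ} [Fact ℓ.Prime] (hℓM : ¬ ℓ ∣ M)
  (A : ValuationSubring Qb) (hA : A.LiesOverPrime ℓ)

/-- The Gauss valuation rings at the levels `N ∣ M` form a reduction pair. -/
theorem redPair (hℓN : ¬ ℓ ∣ N) :
    letI := algOfLE (bar_mono h)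
    letI := algOfLE (fullC_mono (Kb A) h)
    LiftT.RedPair (RGB.V N A) (RGB.V M A) (RGB.rho N hℓN A hA) (RGB.rho M hℓM A hA) := by
  letI := algOfLE (bar_mono h)
  letI := algOfLE (fullC_mono (Kb A) h)
  refine ⟨fun x => ?_, RGB.rho_surjective M hℓM A hA, fun x hx => ?_⟩
  · rw [RG.mem_V, RG.mem_V, algOfLE_algebraMap]
  · apply Subtype.ext
    rw [RGB.coe_rho, algOfLE_algebraMap, RGB.coe_rho]
    obtain ⟨a, b, hb, hab⟩ := (RG.mem_Lam A).mp ((RG.mem_V A N).mp x.2)
    rw [RG.rhoL_eq A N x hb hab]
    exact RG.rhoL_eq A M ⟨_, hx⟩ hb (by rw [algOfLE_algebraMap]; exact hab)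

/-- Compatibility of the level algebra structures with the inclusions into Laurent series. -/
theorem coe_algebraMap_bar (a : ↥(modularFunctionFieldBar N)) :
    letI := algOfLE (bar_mono h)
    ((algebraMap ↥(modularFunctionFieldBar N) ↥(modularFunctionFieldBar M) a :
      ↥(modularFunctionFieldBar M)) : LaurentSeries (AlgebraicClosure ℚ)) = a :=
  algOfLE_algebraMap (bar_mono h) a

theorem coe_algebraMap_fullC (k : Type*) [Field k] (a : ↥(modularFunctionFieldFullC k N)) :
    letI := algOfLE (fullC_mono k h)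
    ((algebraMap ↥(modularFunctionFieldFullC k N) ↥(modularFunctionFieldFullC k M) a :
      ↥(modularFunctionFieldFullC k M)) : LaurentSeries k) = a :=
  algOfLE_algebraMap (fullC_mono k h) a

set_option maxHeartbeats 1000000 in
/-- **Inclusion at the levels `N ∣ M`** (the hypothesis `hincl` of the relative Theorem U, for
an arbitrary divisor `G` of `F_N`). -/
theorem relIntegral_rho {r : Place Qb (FN N) → Place (Kb A) (FbN A N)}
    (hr : IsPlaceReductionModL A N r) (G : Divisor Qb (FN N)) (x : RGB.V M A) :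
    letI := algOfLE (bar_mono h)
    letI := algOfLE (fullC_mono (Kb A) h)
    UpN.RelIntegral G (x : FN M) →
      UpN.RelIntegral (Finsupp.mapDomain r G) (RGB.rho M hℓM A hA x) := by
  letI := algOfLE (bar_mono h)
  letI := algOfLE (fullC_mono (Kb A) h)
  intro hx
  have hℓN : ¬ ℓ ∣ N := fun hd => hℓM (hd.trans h)
  haveI : CharP (Kb A) ℓ := RN.charP_residueField A hA
  haveI : FiniteDimensional (FN N) (FN M) := LiftD.finite_bar h (coe_algebraMap_bar h)
  have hdeg : Module.finrank (FN N) (FN M) ≤ Module.finrank (FbN A N) (FbN A M) :=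
    (LiftD.finrank_bar_eq_finrank_fullC (Kb A) ℓ h hℓM (coe_algebraMap_bar h)
      (coe_algebraMap_fullC h (Kb A))).le
  have hstar : ∀ y : RGB.V N A, RGB.rho N hℓN A hA y ≠ 0 → ∀ D : Divisor Qb (FN N),
      (∀ P, D P = P.ord (y : FN N)) → ∀ Q, Finsupp.mapDomain r D Q = Q.ord (RGB.rho N hℓN A hA y) :=
    fun y hy D hD Q => RGB.mapDomain_eq_ord_rho N hℓN A hA hr y hy D hD Q
  have hdiv : ∀ f : FN N, f ≠ 0 → ∃ D : Divisor Qb (FN N), ∀ v, D v = v.ord f := by
    intro f hf
    obtain ⟨D, hD, -⟩ := (PHyp.hyp0_bar N).principal f hf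
    exact ⟨D, hD⟩
  have hp : LiftT.RedPair (RGB.V N A) (RGB.V M A) (RGB.rho N hℓN A hA) (RGB.rho M hℓM A hA) :=
    redPair h hℓM A hA hℓN
  have key := relIntegral_rho_of hp hdeg r hstar hdiv G x
  exact key hx

/-- `hinclD` / `hincl0` / the block versions of the relative Theorem U. -/
theorem hincl {r : Place Qb (FN N) → Place (Kb A) (FbN A N)}
    (hr : IsPlaceReductionModL A N r) (D : Divisor Qb (FN N)) {ι : Type*}
    (P : ι → Place Qb (FN N)) (T : Finset ι) (x : RGB.V M A) :
    letI := algOfLE (bar_mono h)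
    letI := algOfLE (fullC_mono (Kb A) h)
    UpN.RelIntegral (D + UMain.ptDiv P T) (x : FN M) →
      UpN.RelIntegral (Finsupp.mapDomain r D + UMain.ptDiv (fun i => r (P i)) T)
        (RGB.rho M hℓM A hA x) := by
  letI := algOfLE (bar_mono h)
  letI := algOfLE (fullC_mono (Kb A) h)
  intro hx
  rw [← mapDomain_add_ptDiv]
  exact relIntegral_rho h hℓM A hA hr _ x hx

/-- `hincl0` of the relative Theorem U (the case `D = 0`, without the summand `0 +`). -/
theorem hincl0 {r : Place Qb (FN N) → Place (Kb A) (FbN A N)}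
    (hr : IsPlaceReductionModL A N r) {ι : Type*}
    (P : ι → Place Qb (FN N)) (T : Finset ι) (x : RGB.V M A) :
    letI := algOfLE (bar_mono h)
    letI := algOfLE (fullC_mono (Kb A) h)
    UpN.RelIntegral (UMain.ptDiv P T) (x : FN M) →
      UpN.RelIntegral (UMain.ptDiv (fun i => r (P i)) T) (RGB.rho M hℓM A hA x) := by
  letI := algOfLE (bar_mono h)
  letI := algOfLE (fullC_mono (Kb A) h)
  intro hx
  rw [← mapDomain_ptDiv]
  exact relIntegral_rho h hℓM A hA hr _ x hx

/-- `hliftD` / `hliftB` of the relative Theorem U from the lifting property: there is a bound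
`c` such that lifting holds for all divisors `D + ∑_{i ∈ T} P i` with `deg D = 0` and
`#T ≥ c`. -/
theorem hlift {r : Place Qb (FN N) → Place (Kb A) (FbN A N)}
    (hl : LiftPropV A hA h hℓM r) :
    letI := algOfLE (bar_mono h)
    letI := algOfLE (fullC_mono (Kb A) h)
    ∃ c : ℕ, ∀ D : Divisor Qb (FN N), Divisor.degree D = 0 → ∀ {ι : Type} (P : ι → Place Qb (FN N))
      (T : Finset ι), c ≤ T.card → ∀ yb : FbN A M,
        UpN.RelIntegral (Finsupp.mapDomain r D + UMain.ptDiv (fun i => r (P i)) T) yb →
          ∃ x : RGB.V M A, UpN.RelIntegral (D + UMain.ptDiv P T) (x : FN M) ∧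
            RGB.rho M hℓM A hA x = yb := by
  letI := algOfLE (bar_mono h)
  letI := algOfLE (fullC_mono (Kb A) h)
  obtain ⟨c, hc⟩ := hl
  refine ⟨c.toNat, fun D hD ι P T hT yb hyb => ?_⟩
  have hdeg : c ≤ Divisor.degree (D + UMain.ptDiv P T) := by
    rw [degree_add_ptDiv D P (fun i => (PHyp.hyp0_bar N).deg_one (P i)) T, hD, zero_add]
    have h1 : c ≤ (c.toNat : ℤ) := Int.self_le_toNat c
    have h2 : (c.toNat : ℤ) ≤ (T.card : ℤ) := by exact_mod_cast hT
    linarith
  refine hc (D + UMain.ptDiv P T) hdeg yb ?_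
  rw [mapDomain_add_ptDiv]
  exact hyb

/-- `hcart` of the relative Theorem U: the kernel of `rho` consists of the multiples of
elements of the maximal ideal of `A`. -/
theorem hcart (x : RGB.V M A) (hx : RGB.rho M hℓM A hA x = 0) :
    ∃ c : ↥A, c ∈ IsLocalRing.maximalIdeal ↥A ∧ ∃ x' : RGB.V M A,
      (x : FN M) = algebraMap Qb (FN M) (c : Qb) * (x' : FN M) := by
  obtain ⟨c, x', hc, hxx⟩ := (RGB.rho_eq_zero_iff M hℓM A hA x).mp hx
  exact ⟨c, hc, x', hxx⟩

end Level

end Fermat.Agent.S18.UAd
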