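import Mathlib
import Fermat.Prelude.Def_ModularCurve_ReductionModL
import Fermat.Agent.S20.RRBasic

/-!
# S18, chain U: the tube lemmas

Everything here is a formal consequence of the frozen reduction property
`ModularCurve.IsPlaceReductionAlong` (for the residue map of a valuation subring `A` of `L`):
values of Gauss-integral functions at a point `P` are integral and reduce to the value of the
reduced function at `r P`, as soon as no pole of the function reduces to `r P`; and the same
for Taylor coefficients with respect to a coordinate.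
-/

set_option autoImplicit false
set_option synthInstance.maxHeartbeats 400000

noncomputable section

namespace Fermat.Agent.S18.Tube

open ModularCurve AlgebraicCurve HahnSeries

variable {L : Type*} [Field L] [Algebra ℚ L] {A : ValuationSubring L} {N : ℕ}

/-- The characteristic-zero function field. -/
abbrev FF (L : Type*) [Field L] [Algebra ℚ L] (N : ℕ) : Type _ :=
  ↥(laurentBaseChange L (modularFunctionFieldFull N))

/-- The residual function field. -/
abbrev FFb (A : ValuationSubring L) (N : ℕ) : Type _ :=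
  ↥(modularFunctionFieldFullC (IsLocalRing.ResidueField A) N)

/-- The coefficientwise inclusion `A((q)) → L((q))`. -/
abbrev incl (A : ValuationSubring L) : LaurentSeries A →+* LaurentSeries L :=
  coeffMap A.subtype

/-- The coefficientwise reduction `A((q)) → k((q))`. -/
abbrev red (A : ValuationSubring L) :
    LaurentSeries A →+* LaurentSeries (IsLocalRing.ResidueField A) :=
  coeffMap (IsLocalRing.residue A)

section Basic

omit [Algebra ℚ L] in
theorem incl_injective : Function.Injective (incl A) := by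
  intro x y hxy
  ext k
  have h := congrArg (fun z => z.coeff k) hxy
  simpa [coeffMap_coeff] using h

omit [Algebra ℚ L] in
theorem incl_C (b : A) : incl A (HahnSeries.C b) = algebraMap L (LaurentSeries L) (b : L) := by
  rw [algebraMap_laurentSeries_eq_single, HahnSeries.C_apply, coeffMap_single]
  rfl

omit [Algebra ℚ L] in
theorem red_C (b : A) : red A (HahnSeries.C b) =
    algebraMap (IsLocalRing.ResidueField A) (LaurentSeries (IsLocalRing.ResidueField A))
      (IsLocalRing.residue A b) := by
  rw [algebraMap_laurentSeries_eq_single, HahnSeries.C_apply, coeffMap_single]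

omit [Algebra ℚ L] in
theorem incl_ne_zero_of_red_ne_zero {y : LaurentSeries A} (h : red A y ≠ 0) : incl A y ≠ 0 := by
  intro h0
  apply h
  have : y = 0 := incl_injective (by rw [h0, map_zero])
  rw [this, map_zero]

variable {K F : Type*} [Field K] [Field F] [Algebra K F]

open Classical in
theorem mapDomain_apply_eq {α β : Type*} (r : α → β) (D : α →₀ ℤ) (Q : β) :
    Finsupp.mapDomain r D Q = ∑ P ∈ D.support, if r P = Q then D P else 0 := by
  rw [Finsupp.mapDomain, Finsupp.sum_apply, Finsupp.sum]
  refine Finset.sum_congr rfl fun P _ => ?_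
  rw [Finsupp.single_apply]

theorem ord_neg_one (v : Place K F) : v.ord (-1 : F) = 0 := by
  have h := v.ord_mul (f := (-1 : F)) (g := -1) (by simp) (by simp)
  rw [neg_one_mul, neg_neg, v.ord_one] at h
  omega

theorem ord_const (v : Place K F) (c : K) : v.ord (algebraMap K F c) = 0 := by
  rcases eq_or_ne c 0 with rfl | hc
  · simp
  have hc' : algebraMap K F c ≠ 0 := by simpa using hc
  have h1 : 0 ≤ v.ord (algebraMap K F c) :=
    ((Fermat.Agent.S20.RR.mem_valuationSubring_iff v).mp (v.algebraMap_mem' c)).resolve_left hc'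
  have h2 : 0 ≤ v.ord (algebraMap K F c⁻¹) := by
    have hc2 : algebraMap K F c⁻¹ ≠ 0 := by simpa using hc
    exact ((Fermat.Agent.S20.RR.mem_valuationSubring_iff v).mp
      (v.algebraMap_mem' c⁻¹)).resolve_left hc2
  rw [map_inv₀, v.ord_inv] at h2
  omega

theorem ord_sub_const_nonneg (v : Place K F) {f : F} (c : K) (hf : 0 ≤ v.ord f) :
    f - algebraMap K F c = 0 ∨ 0 ≤ v.ord (f - algebraMap K F c) := by
  have h1 : f ∈ v.toValuationSubring :=
    (Fermat.Agent.S20.RR.mem_valuationSubring_iff v).mpr (Or.inr hf)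
  have h2 : f - algebraMap K F c ∈ v.toValuationSubring :=
    v.toValuationSubring.sub_mem h1 (v.algebraMap_mem' c)
  exact (Fermat.Agent.S20.RR.mem_valuationSubring_iff v).mp h2

theorem ord_const_mul (v : Place K F) {c : K} (hc : c ≠ 0) (f : F) :
    v.ord (algebraMap K F c * f) = v.ord f := by
  rcases eq_or_ne f 0 with rfl | hf
  · simp
  rw [v.ord_mul (by simpa using hc) hf, ord_const, zero_add]

end Basic

variable {r : Place L (FF L N) → Place (IsLocalRing.ResidueField A) (FFb A N)}

/-- Regularity of the reduction: if no pole of the Gauss-integral function `y` reduces to `Q`,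
the reduction of `y` is regular at `Q`. -/
theorem ord_red_nonneg (hr : IsPlaceReductionAlong A (IsLocalRing.residue A) N r)
    (hdiv : ∀ f : FF L N, f ≠ 0 → ∃ D : Divisor L (FF L N), ∀ v, D v = v.ord f)
    (y : LaurentSeries A) (hy : incl A y ∈ laurentBaseChange L (modularFunctionFieldFull N))
    (hyk : red A y ∈ modularFunctionFieldFullC (IsLocalRing.ResidueField A) N)
    (Q : Place (IsLocalRing.ResidueField A) (FFb A N))
    (hreg : ∀ P', r P' = Q → 0 ≤ P'.ord (⟨incl A y, hy⟩ : FF L N)) :
    0 ≤ Q.ord (⟨red A y, hyk⟩ : FFb A N) := by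
  by_cases hne : red A y = 0
  · have : (⟨red A y, hyk⟩ : FFb A N) = 0 := Subtype.ext hne
    rw [this, Place.ord_zero]
  have hyF : (⟨incl A y, hy⟩ : FF L N) ≠ 0 := fun h =>
    incl_ne_zero_of_red_ne_zero hne (congrArg Subtype.val h)
  obtain ⟨D, hD⟩ := hdiv _ hyF
  rw [← hr.2 y hy hyk hne D hD Q, mapDomain_apply_eq]
  refine Finset.sum_nonneg fun P' _ => ?_
  split_ifs with h
  · rw [hD]; exact hreg P' h
  · exact le_rfl

/-- Strict version: a zero in the tube gives a zero of the reduction. -/
theorem ord_red_pos (hr : IsPlaceReductionAlong A (IsLocalRing.residue A) N r)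
    (hdiv : ∀ f : FF L N, f ≠ 0 → ∃ D : Divisor L (FF L N), ∀ v, D v = v.ord f)
    (y : LaurentSeries A) (hy : incl A y ∈ laurentBaseChange L (modularFunctionFieldFull N))
    (hyk : red A y ∈ modularFunctionFieldFullC (IsLocalRing.ResidueField A) N)
    (hne : red A y ≠ 0)
    (P : Place L (FF L N))
    (hreg : ∀ P', r P' = r P → 0 ≤ P'.ord (⟨incl A y, hy⟩ : FF L N))
    (hP : 0 < P.ord (⟨incl A y, hy⟩ : FF L N)) :
    0 < (r P).ord (⟨red A y, hyk⟩ : FFb A N) := by
  have hyF : (⟨incl A y, hy⟩ : FF L N) ≠ 0 := fun h =>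
    incl_ne_zero_of_red_ne_zero hne (congrArg Subtype.val h)
  obtain ⟨D, hD⟩ := hdiv _ hyF
  rw [← hr.2 y hy hyk hne D hD (r P), mapDomain_apply_eq]
  have hPs : P ∈ D.support := by
    rw [Finsupp.mem_support_iff, hD]; omega
  refine Finset.sum_pos' (fun P' _ => ?_) ⟨P, hPs, ?_⟩
  · split_ifs with h
    · rw [hD]; exact hreg P' h
    · exact le_rfl
  · rw [if_pos rfl, hD]; exact hP

/-- **Tube lemma, integrality of values**: if the Gauss-integral function `y` takes the value
`a` at `P` and no pole of `y` reduces to `r P`, then `a ∈ A`. -/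
theorem value_mem (hr : IsPlaceReductionAlong A (IsLocalRing.residue A) N r)
    (hdiv : ∀ f : FF L N, f ≠ 0 → ∃ D : Divisor L (FF L N), ∀ v, D v = v.ord f)
    (y : LaurentSeries A) (hy : incl A y ∈ laurentBaseChange L (modularFunctionFieldFull N))
    (P : Place L (FF L N)) (a : L)
    (hreg : ∀ P', r P' = r P → 0 ≤ P'.ord (⟨incl A y, hy⟩ : FF L N))
    (hPa : (⟨incl A y, hy⟩ : FF L N) = algebraMap L (FF L N) a ∨
      0 < P.ord ((⟨incl A y, hy⟩ : FF L N) - algebraMap L (FF L N) a)) :
    a ∈ A := by
  by_contra ha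
  have ha0 : a ≠ 0 := fun h => ha (h ▸ A.zero_mem)
  have hinv : a⁻¹ ∈ A := (A.mem_or_inv_mem a).resolve_left ha
  set b : A := ⟨a⁻¹, hinv⟩ with hb
  have hbres : IsLocalRing.residue A b = 0 := by
    rw [IsLocalRing.residue_eq_zero_iff, IsLocalRing.mem_maximalIdeal, mem_nonunits_iff]
    intro hu
    obtain ⟨c, hc⟩ := hu.exists_right_inv
    have hc' : a⁻¹ * (c : L) = 1 := by
      have := congrArg Subtype.val hc
      simpa [hb] using this
    have hca : (c : L) = a := by
      field_simp at hc'
      exact hc'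
    exact ha (hca ▸ c.2)
  -- the auxiliary function `a⁻¹ y - 1`
  set y' : LaurentSeries A := HahnSeries.C b * y - 1 with hy'
  have hincl : incl A y' = algebraMap L (LaurentSeries L) a⁻¹ * incl A y - 1 := by
    rw [hy', map_sub, map_mul, map_one, incl_C]
  have hy'F : incl A y' ∈ laurentBaseChange L (modularFunctionFieldFull N) := by
    rw [hincl]
    exact sub_mem (mul_mem ((laurentBaseChange L (modularFunctionFieldFull N)).algebraMap_mem _) hy)
      (one_mem _)
  have hred : red A y' = -1 := by
    rw [hy', map_sub, map_mul, map_one, red_C, hbres, map_zero, zero_mul, zero_sub]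
  have hy'k : red A y' ∈ modularFunctionFieldFullC (IsLocalRing.ResidueField A) N := by
    rw [hred]; exact neg_mem (one_mem _)
  have hne : red A y' ≠ 0 := by
    rw [hred]; exact neg_ne_zero.mpr one_ne_zero
  have hval : (⟨incl A y', hy'F⟩ : FF L N) =
      algebraMap L (FF L N) a⁻¹ * ((⟨incl A y, hy⟩ : FF L N) - algebraMap L (FF L N) a) := by
    apply Subtype.ext
    show incl A y' = algebraMap L (LaurentSeries L) a⁻¹ *
      (incl A y - algebraMap L (LaurentSeries L) a)
    rw [hincl, mul_sub, ← map_mul, inv_mul_cancel₀ ha0, map_one]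
  have hy'F0 : (⟨incl A y', hy'F⟩ : FF L N) ≠ 0 := fun h =>
    incl_ne_zero_of_red_ne_zero hne (congrArg Subtype.val h)
  have hpos : 0 < (r P).ord (⟨red A y', hy'k⟩ : FFb A N) := by
    refine ord_red_pos hr hdiv y' hy'F hy'k hne P (fun P' hP' => ?_) ?_
    · rw [hval, ord_const_mul _ (inv_ne_zero ha0)]
      rcases ord_sub_const_nonneg P' a (hreg P' hP') with h | h
      · rw [h, Place.ord_zero]
      · exact h
    · rw [hval, ord_const_mul _ (inv_ne_zero ha0)]
      rcases hPa with h | h
      · exfalso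
        apply hy'F0
        rw [hval, h, sub_self, mul_zero]
      · exact h
  have hzero : (r P).ord (⟨red A y', hy'k⟩ : FFb A N) = 0 := by
    have : (⟨red A y', hy'k⟩ : FFb A N) = -1 := Subtype.ext hred
    rw [this, ord_neg_one]
  omega

/-- **Tube lemma, reduction of values**: in the situation of `value_mem`, the reduction of `y`
takes the value `ā` at `r P`. -/
theorem value_red (hr : IsPlaceReductionAlong A (IsLocalRing.residue A) N r)
    (hdiv : ∀ f : FF L N, f ≠ 0 → ∃ D : Divisor L (FF L N), ∀ v, D v = v.ord f)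
    (y : LaurentSeries A) (hy : incl A y ∈ laurentBaseChange L (modularFunctionFieldFull N))
    (hyk : red A y ∈ modularFunctionFieldFullC (IsLocalRing.ResidueField A) N)
    (P : Place L (FF L N)) (a : A)
    (hreg : ∀ P', r P' = r P → 0 ≤ P'.ord (⟨incl A y, hy⟩ : FF L N))
    (hPa : (⟨incl A y, hy⟩ : FF L N) = algebraMap L (FF L N) (a : L) ∨
      0 < P.ord ((⟨incl A y, hy⟩ : FF L N) - algebraMap L (FF L N) (a : L))) :
    (⟨red A y, hyk⟩ : FFb A N) = algebraMap _ (FFb A N) (IsLocalRing.residue A a) ∨
      0 < (r P).ord ((⟨red A y, hyk⟩ : FFb A N) -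
        algebraMap _ (FFb A N) (IsLocalRing.residue A a)) := by
  set y' : LaurentSeries A := y - HahnSeries.C a with hy'
  have hincl : incl A y' = incl A y - algebraMap L (LaurentSeries L) (a : L) := by
    rw [hy', map_sub, incl_C]
  have hy'F : incl A y' ∈ laurentBaseChange L (modularFunctionFieldFull N) := by
    rw [hincl]
    exact sub_mem hy ((laurentBaseChange L (modularFunctionFieldFull N)).algebraMap_mem _)
  have hred : red A y' = red A y - algebraMap (IsLocalRing.ResidueField A)
      (LaurentSeries (IsLocalRing.ResidueField A)) (IsLocalRing.residue A a) := by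
    rw [hy', map_sub, red_C]
  have hy'k : red A y' ∈ modularFunctionFieldFullC (IsLocalRing.ResidueField A) N := by
    rw [hred]
    exact sub_mem hyk
      ((modularFunctionFieldFullC (IsLocalRing.ResidueField A) N).algebraMap_mem _)
  have hval : (⟨incl A y', hy'F⟩ : FF L N) =
      (⟨incl A y, hy⟩ : FF L N) - algebraMap L (FF L N) (a : L) := Subtype.ext hincl
  have hvalk : (⟨red A y', hy'k⟩ : FFb A N) = (⟨red A y, hyk⟩ : FFb A N) -
      algebraMap _ (FFb A N) (IsLocalRing.residue A a) := Subtype.ext hred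
  by_cases hne : red A y' = 0
  · left
    have h0 : (⟨red A y', hy'k⟩ : FFb A N) = 0 := Subtype.ext hne
    rw [hvalk, sub_eq_zero] at h0
    exact h0
  · right
    have hy'F0 : (⟨incl A y', hy'F⟩ : FF L N) ≠ 0 := fun h =>
      incl_ne_zero_of_red_ne_zero hne (congrArg Subtype.val h)
    rw [← hvalk]
    refine ord_red_pos hr hdiv y' hy'F hy'k hne P (fun P' hP' => ?_) ?_
    · rw [hval]
      rcases ord_sub_const_nonneg P' (a : L) (hreg P' hP') with h | h
      · rw [h, Place.ord_zero]
      · exact h
    · rcases hPa with h | h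
      · exfalso
        apply hy'F0
        rw [hval, h, sub_self]
      · rw [hval]; exact h

/-! ### Coordinates and Taylor coefficients -/

/-- The reduction of a coordinate `t` at `P` (a Gauss-integral function, with nonzero reduction,
whose only zero or pole in the tube of `r P` is a simple zero at `P`) is a uniformizer at `r P`. -/
theorem ord_red_coord (hr : IsPlaceReductionAlong A (IsLocalRing.residue A) N r)
    (hdiv : ∀ f : FF L N, f ≠ 0 → ∃ D : Divisor L (FF L N), ∀ v, D v = v.ord f)
    (t : LaurentSeries A) (htF : incl A t ∈ laurentBaseChange L (modularFunctionFieldFull N))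
    (htk : red A t ∈ modularFunctionFieldFullC (IsLocalRing.ResidueField A) N)
    (hne : red A t ≠ 0)
    (P : Place L (FF L N))
    (htP : P.ord (⟨incl A t, htF⟩ : FF L N) = 1)
    (htube : ∀ P', r P' = r P → P' ≠ P → P'.ord (⟨incl A t, htF⟩ : FF L N) = 0) :
    (r P).ord (⟨red A t, htk⟩ : FFb A N) = 1 := by
  classical
  have htF0 : (⟨incl A t, htF⟩ : FF L N) ≠ 0 := fun h =>
    incl_ne_zero_of_red_ne_zero hne (congrArg Subtype.val h)
  obtain ⟨D, hD⟩ := hdiv _ htF0
  rw [← hr.2 t htF htk hne D hD (r P), mapDomain_apply_eq]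
  have hPs : P ∈ D.support := by
    rw [Finsupp.mem_support_iff, hD]; omega
  rw [Finset.sum_eq_single_of_mem P hPs]
  · rw [if_pos rfl, hD, htP]
  · intro P' _ hP'
    split_ifs with h
    · rw [hD]; exact htube P' h hP'
    · rfl

/-- **Division by a coordinate**: if `t` is a coordinate at `P` which is a unit of `A((q))`
(e.g. `j - a`), and `w` is Gauss-integral and regular on the tube of `r P`, then
`w = w(P) + t * w₁` with `w(P) ∈ A` and `w₁` again Gauss-integral and regular on the tube. -/
theorem coord_step (hr : IsPlaceReductionAlong A (IsLocalRing.residue A) N r)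
    (hdiv : ∀ f : FF L N, f ≠ 0 → ∃ D : Divisor L (FF L N), ∀ v, D v = v.ord f)
    (t : LaurentSeries A) (htu : IsUnit t)
    (htF : incl A t ∈ laurentBaseChange L (modularFunctionFieldFull N))
    (P : Place L (FF L N))
    (htP : P.ord (⟨incl A t, htF⟩ : FF L N) = 1)
    (htube : ∀ P', r P' = r P → P' ≠ P → P'.ord (⟨incl A t, htF⟩ : FF L N) = 0)
    (hval : ∀ f : FF L N, 0 ≤ P.ord f →
      ∃ c : L, f = algebraMap L (FF L N) c ∨ 0 < P.ord (f - algebraMap L (FF L N) c))
    (w : LaurentSeries A) (hw : incl A w ∈ laurentBaseChange L (modularFunctionFieldFull N))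
    (hreg : ∀ P', r P' = r P → 0 ≤ P'.ord (⟨incl A w, hw⟩ : FF L N)) :
    ∃ (a : A) (w₁ : LaurentSeries A)
      (hw₁ : incl A w₁ ∈ laurentBaseChange L (modularFunctionFieldFull N)),
      w = HahnSeries.C a + t * w₁ ∧
      (∀ P', r P' = r P → 0 ≤ P'.ord (⟨incl A w₁, hw₁⟩ : FF L N)) ∧
      ((⟨incl A w, hw⟩ : FF L N) = algebraMap L (FF L N) (a : L) ∨
        0 < P.ord ((⟨incl A w, hw⟩ : FF L N) - algebraMap L (FF L N) (a : L))) := by
  obtain ⟨c, hc⟩ := hval _ (hreg P rfl)
  have hcA : c ∈ A := value_mem hr hdiv w hw P c hreg hc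
  obtain ⟨s, hs⟩ := htu.exists_right_inv
  set a : A := ⟨c, hcA⟩ with ha
  set w₁ : LaurentSeries A := (w - HahnSeries.C a) * s with hw₁def
  have htF0 : (⟨incl A t, htF⟩ : FF L N) ≠ 0 := by
    intro h
    rw [h, Place.ord_zero] at htP
    exact zero_ne_one htP
  have hts : incl A t * incl A s = 1 := by rw [← map_mul, hs, map_one]
  have hsinv : incl A s = (incl A t)⁻¹ := eq_inv_of_mul_eq_one_right hts
  have hincl : incl A w₁ = (incl A w - algebraMap L (LaurentSeries L) c) * (incl A t)⁻¹ := by
    rw [hw₁def, map_mul, map_sub, incl_C, hsinv]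
  have hw₁F : incl A w₁ ∈ laurentBaseChange L (modularFunctionFieldFull N) := by
    rw [hincl]
    exact mul_mem (sub_mem hw ((laurentBaseChange L (modularFunctionFieldFull N)).algebraMap_mem _))
      (inv_mem htF)
  have hval₁ : (⟨incl A w₁, hw₁F⟩ : FF L N) =
      ((⟨incl A w, hw⟩ : FF L N) - algebraMap L (FF L N) c) * (⟨incl A t, htF⟩ : FF L N)⁻¹ :=
    Subtype.ext hincl
  refine ⟨a, w₁, hw₁F, ?_, ?_, hc⟩
  · rw [hw₁def, ← mul_assoc, mul_comm t, mul_assoc, hs, mul_one, add_sub_cancel]
  · intro P' hP'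
    rw [hval₁]
    by_cases h0 : (⟨incl A w, hw⟩ : FF L N) - algebraMap L (FF L N) c = 0
    · rw [h0, zero_mul, Place.ord_zero]
    rw [P'.ord_mul h0 (inv_ne_zero htF0), P'.ord_inv]
    by_cases hPP : P' = P
    · subst hPP
      rw [htP]
      rcases hc with h | h
      · exact absurd (sub_eq_zero.mpr h) h0
      · omega
    · rw [htube P' hP' hPP]
      rcases ord_sub_const_nonneg P' c (hreg P' hP') with h | h
      · exact absurd h h0
      · omega

/-- **Taylor expansion on a tube**: iterating `coord_step`, all Taylor coefficients `a n` of `w`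
at `P` with respect to the coordinate `t` lie in `A`, and the successive remainders `W n` stay
Gauss-integral and regular on the tube. -/
theorem taylor (hr : IsPlaceReductionAlong A (IsLocalRing.residue A) N r)
    (hdiv : ∀ f : FF L N, f ≠ 0 → ∃ D : Divisor L (FF L N), ∀ v, D v = v.ord f)
    (t : LaurentSeries A) (htu : IsUnit t)
    (htF : incl A t ∈ laurentBaseChange L (modularFunctionFieldFull N))
    (P : Place L (FF L N))
    (htP : P.ord (⟨incl A t, htF⟩ : FF L N) = 1)
    (htube : ∀ P', r P' = r P → P' ≠ P → P'.ord (⟨incl A t, htF⟩ : FF L N) = 0)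
    (hval : ∀ f : FF L N, 0 ≤ P.ord f →
      ∃ c : L, f = algebraMap L (FF L N) c ∨ 0 < P.ord (f - algebraMap L (FF L N) c))
    (w : LaurentSeries A) (hw : incl A w ∈ laurentBaseChange L (modularFunctionFieldFull N))
    (hreg : ∀ P', r P' = r P → 0 ≤ P'.ord (⟨incl A w, hw⟩ : FF L N)) :
    ∃ (a : ℕ → A) (W : ℕ → LaurentSeries A), W 0 = w ∧
      ∀ n, ∃ hWn : incl A (W n) ∈ laurentBaseChange L (modularFunctionFieldFull N),
        (∀ P', r P' = r P → 0 ≤ P'.ord (⟨incl A (W n), hWn⟩ : FF L N)) ∧
        W n = HahnSeries.C (a n) + t * W (n + 1) ∧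
        ((⟨incl A (W n), hWn⟩ : FF L N) = algebraMap L (FF L N) (a n : L) ∨
          0 < P.ord ((⟨incl A (W n), hWn⟩ : FF L N) - algebraMap L (FF L N) (a n : L))) := by
  classical
  -- the set of admissible functions
  let S : Type _ := {w : LaurentSeries A //
    ∃ hw : incl A w ∈ laurentBaseChange L (modularFunctionFieldFull N),
      ∀ P', r P' = r P → 0 ≤ P'.ord (⟨incl A w, hw⟩ : FF L N)}
  have hstep : ∀ x : S, ∃ (a : A) (x₁ : S), x.1 = HahnSeries.C a + t * x₁.1 ∧
      ∀ hx : incl A x.1 ∈ laurentBaseChange L (modularFunctionFieldFull N),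
        ((⟨incl A x.1, hx⟩ : FF L N) = algebraMap L (FF L N) (a : L) ∨
          0 < P.ord ((⟨incl A x.1, hx⟩ : FF L N) - algebraMap L (FF L N) (a : L))) := by
    rintro ⟨x, hx, hxreg⟩
    obtain ⟨a, w₁, hw₁, h1, h2, h3⟩ := coord_step hr hdiv t htu htF P htP htube hval x hx hxreg
    exact ⟨a, ⟨w₁, hw₁, h2⟩, h1, fun _ => h3⟩
  choose fa fx hfx hfv using hstep
  let X : ℕ → S := fun n => Nat.rec (⟨w, hw, hreg⟩ : S) (fun _ x => fx x) n
  refine ⟨fun n => fa (X n), fun n => (X n).1, rfl, fun n => ?_⟩
  obtain ⟨hXn, hXreg⟩ := (X n).2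
  exact ⟨hXn, hXreg, hfx (X n), hfv (X n) hXn⟩

omit [Algebra ℚ L] in
/-- The finite Taylor formula following from `taylor`. -/
theorem taylor_sum {t w : LaurentSeries A} {a : ℕ → A} {W : ℕ → LaurentSeries A}
    (h0 : W 0 = w) (hW : ∀ n, W n = HahnSeries.C (a n) + t * W (n + 1)) (M : ℕ) :
    w = ∑ n ∈ Finset.range M, HahnSeries.C (a n) * t ^ n + t ^ M * W M := by
  induction M with
  | zero => simp [h0]
  | succ M ih =>
    rw [Finset.sum_range_succ, pow_succ]
    conv_lhs => rw [ih, hW M]
    ring

end Fermat.Agent.S18.Tube
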