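/-
S18, chain U, level-`N` leaves of the torsion theorem (owner helper18):

* `UPhiB.exists_data`: from `m • D` principal and `r_* D` principal, a Gauss unit `φ` with divisor
  `m • D`, a function `ψb` on the special fibre with divisor `r_* D`, and a constant `c0b ≠ 0`
  with `rho φ = c0b * ψb ^ m`;
* `UPhiB.const_of_relIntegral_zero`: an element of an integral extension `Fb' / Fb` which is
  integral over all places of `Fb` is a constant (hypothesis `hconstb` of `URel`);
* `UPhiB.hyp0_FbN`, `UPhiB.hyp_FbN`: `RR.Hyp0` / `RR.Hyp` for the special fibre `F̄_M`.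
-/
import Fermat.Agent.S18.Iface2
import Fermat.Agent.S18.PModC
import Fermat.Agent.S18.ResAlgClosed
import Fermat.Agent.S18.Tube
import Fermat.Agent.S18.LiftInclRR
import Fermat.Agent.S18.LiftInclInt

set_option autoImplicit false
set_option synthInstance.maxHeartbeats 400000

noncomputable section

open HahnSeries IntermediateField AlgebraicCurve ModularCurve
open Fermat.Agent.S20

namespace Fermat.Agent.S18.UPhiB

/-- `RR.Hyp0` for the special fibre `F̄_M`. -/
theorem hyp0_FbN (A : ValuationSubring Qb) {ℓ : ℕ} [Fact ℓ.Prime] (hA : A.LiesOverPrime ℓ)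
    (M : ℕ) [NeZero M] : RR.Hyp0 (Kb A) (FbN A M) := by
  haveI := ResAC.isAlgClosed_residueField_ratBar A
  haveI := RN.charP_residueField A hA
  exact PModC.hyp0_modC (Kb A) M ℓ

/-- `RR.Hyp` for the special fibre `F̄_M`. -/
theorem hyp_FbN (A : ValuationSubring Qb) {ℓ : ℕ} [Fact ℓ.Prime] (hA : A.LiesOverPrime ℓ)
    (M : ℕ) [NeZero M] : RR.Hyp (Kb A) (FbN A M) := by
  haveI := ResAC.isAlgClosed_residueField_ratBar A
  haveI := RN.charP_residueField A hA
  exact PModC.hyp_modC (Kb A) M ℓ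

/-- **U-PHI.**  From `m • D` principal and `r_* D` principal: a Gauss unit `φ` with divisor
`m • D`, a function `ψb` on the special fibre with divisor `r_* D`, and a nonzero constant `c0b`
with `rho φ = c0b * ψb ^ m`. -/
theorem exists_data (N : ℕ) [NeZero N] {ℓ : ℕ} [Fact ℓ.Prime] (hℓN : ¬ ℓ ∣ N)
    (A : ValuationSubring Qb) (hA : A.LiesOverPrime ℓ)
    {r : Place Qb (FN N) → Place (Kb A) (FbN A N)} (hr : IsPlaceReductionModL A N r)
    {m : ℕ} (D : Divisor Qb (FN N)) (hmD : Divisor.IsPrincipal (m • D))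
    (hrD : Divisor.IsPrincipal (Finsupp.mapDomain r D)) :
    ∃ (φ : RGB.V N A) (ψb : FbN A N) (c0b : Kb A),
      (φ : FN N) ≠ 0 ∧ (∀ v : Place Qb (FN N), v.ord (φ : FN N) = m * D v) ∧ ψb ≠ 0 ∧
      (∀ w : Place (Kb A) (FbN A N), w.ord ψb = Finsupp.mapDomain r D w) ∧ c0b ≠ 0 ∧
      RGB.rho N hℓN A hA φ = algebraMap (Kb A) (FbN A N) c0b * ψb ^ m := by
  obtain ⟨φ₁, hφ₁0, hφ₁⟩ := hmD
  obtain ⟨ψb, hψ0, hψ⟩ := hrD
  obtain ⟨c, hcV, hc0, hρ⟩ := RGB.exists_smul_mem N hℓN A hA φ₁ hφ₁0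
  set φ : RGB.V N A := ⟨algebraMap Qb (FN N) c * φ₁, hcV⟩ with hφdef
  have hsm : ∀ v : Place Qb (FN N), (m • D) v = m * D v := fun v => by
    rw [Finsupp.smul_apply, nsmul_eq_mul]
  have hφord : ∀ v : Place Qb (FN N), v.ord (φ : FN N) = m * D v := by
    intro v
    show v.ord (algebraMap Qb (FN N) c * φ₁) = _
    rw [Tube.ord_const_mul v hc0, ← hφ₁ v, hsm v]
  have hφ0 : (φ : FN N) ≠ 0 := by
    show algebraMap Qb (FN N) c * φ₁ ≠ 0
    exact mul_ne_zero (by simpa using hc0) hφ₁0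
  -- the extended reduction property
  have hstar : ∀ Q : Place (Kb A) (FbN A N),
      Finsupp.mapDomain r (m • D) Q = Q.ord (RGB.rho N hℓN A hA φ) := fun Q =>
    RGB.mapDomain_eq_ord_rho N hℓN A hA hr φ hρ (m • D)
      (fun P => by rw [hφord P, hsm P]) Q
  have hmap : Finsupp.mapDomain r (m • D) = m • Finsupp.mapDomain r D :=
    map_nsmul (Finsupp.mapDomain.addMonoidHom r) m D
  have h0 := hyp0_FbN A hA N
  have hpow0 : ψb ^ m ≠ 0 := pow_ne_zero _ hψ0
  set u : FbN A N := RGB.rho N hℓN A hA φ * (ψb ^ m)⁻¹ with hudef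
  have hu0 : u ≠ 0 := mul_ne_zero hρ (inv_ne_zero hpow0)
  have hu : ∀ w : Place (Kb A) (FbN A N), 0 ≤ w.ord u := by
    intro w
    rw [hudef, w.ord_mul hρ (inv_ne_zero hpow0), w.ord_inv, LiftIRR.ord_pow, ← hstar w, hmap,
      Finsupp.smul_apply, nsmul_eq_mul, hψ w]
    simp
  obtain ⟨c0b, hc0b⟩ := h0.const u hu
  refine ⟨φ, ψb, c0b, hφ0, hφord, hψ0, fun w => (hψ w).symm, ?_, ?_⟩
  · rintro rfl
    rw [map_zero] at hc0b
    exact hu0 hc0b
  · rw [← hc0b, hudef, mul_assoc, inv_mul_cancel₀ hpow0, mul_one]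

section Const

variable {k Fb Fb' : Type*} [Field k] [Field Fb] [Algebra k Fb] [Field Fb'] [Algebra Fb Fb']
  [Algebra k Fb'] [IsScalarTower k Fb Fb'] [Algebra.IsIntegral Fb Fb']

/-- An element of `Fb'` which is integral over every place of `Fb` is constant
(`RelIntegral 0 y ⇒ y ∈ k`). -/
theorem const_of_relIntegral_zero (h0 : RR.Hyp0 k Fb') (y : Fb')
    (hy : UpN.RelIntegral (0 : Divisor k Fb) y) : ∃ c : k, y = algebraMap k Fb' c := by
  apply h0.const
  intro w
  have hint : IsIntegral (w.restrict Fb).toValuationSubring y := by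
    have h1 := hy (w.restrict Fb) 1 (by simp)
    simpa using h1
  have hmem : y ∈ w.toValuationSubring :=
    LiftIInt.mem_of_isIntegral (w.restrict Fb) hint w.toValuationSubring
      (fun x hx => (w.mem_restrict_iff (F := Fb)).mp hx)
  rcases (RR.mem_valuationSubring_iff w).mp hmem with h | h
  · rw [h]; simp
  · exact h

end Const

end Fermat.Agent.S18.UPhiB
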