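import Fermat.Agent.S18.Iface2
import Fermat.Agent.S18.LiftAsm
import Fermat.Agent.S18.ROrthoRel
import Fermat.Agent.S18.UAdapt
import Fermat.Agent.S18.UPhiB
import Fermat.Agent.S18.SepLevel

/-!
# S18, row TOP-LIFT: the lifting property from the genus squeeze

`liftOfSqueezeStmtV : LiftOfSqueezeStmtV` (the `Iface2.lean` statement): for `N ∣ M`, `ℓ ∤ M`, a
place reduction `r` at level `N` and the genus squeeze at level `M`, every element of the
relative Riemann–Roch space of `r_* G` in `F̄_M` is the reduction of a Gauss-integral element of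
the relative Riemann–Roch space of `G` in `F_M`, as soon as `deg G` is large.

Proof: dimension count (`LiftA.lift_top`): upstairs `dim L_M(π^*G) ≥ d·deg G + 1 - g` (Riemann's
inequality with the constant `g` of the squeeze and `FundId.degree_pullback`), downstairs
`dim L̄_M(π̄^* r_*G) ≤ d·deg G + 1 - g` for `deg G` large, `d = [F_M : F_N] = [F̄_M : F̄_N]`;
the reduction of `L_M(π^*G) ∩ V_M` has dimension `dim L_M(π^*G)` (orthonormal bases) and lies in
`L̄_M(π̄^* r_*G)` (characteristic polynomial inclusion), hence is everything.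
-/

set_option autoImplicit false
set_option synthInstance.maxHeartbeats 400000
set_option linter.unusedSectionVars false
set_option linter.style.haveILetI false

noncomputable section

open HahnSeries IntermediateField AlgebraicCurve ModularCurve

namespace Fermat.Agent.S18.TopLift

open Fermat.Agent.S18 Fermat.Agent.S20

/-! ### Riemann's theorem: `GenusGE` in the "large degree" form -/

section Genus

variable {K F : Type*} [Field K] [Field F] [Algebra K F]

/-- `GenusGE` in the "large degree" form (Riemann's theorem). -/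
theorem genusGE_deg (h : RR.Hyp K F) {g : ℤ} (hGE : GenusGE K F g) :
    ∃ c : ℤ, ∀ D : Divisor K F, c ≤ Divisor.degree D →
      (RR.ell D : ℤ) ≤ Divisor.degree D + 1 - g := by
  obtain ⟨D₀, hD₀⟩ := hGE
  obtain ⟨-, c₀, hc₀⟩ := PHyp.genusR_spec h
  obtain ⟨B, -, hB0, hBdeg, -⟩ := h.bound
  set n : ℕ := (c₀ - Divisor.degree D₀).toNat with hn
  have hle : D₀ ≤ D₀ + n • B := by
    have : (0 : Divisor K F) ≤ n • B := nsmul_nonneg hB0 n
    exact le_add_of_nonneg_right this
  have hdeg : c₀ ≤ Divisor.degree (D₀ + n • B) := by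
    rw [map_add, map_nsmul, nsmul_eq_mul]
    have h1 : c₀ - Divisor.degree D₀ ≤ (n : ℤ) := Int.self_le_toNat _
    have h2 : (0 : ℤ) ≤ (n : ℤ) := Int.natCast_nonneg _
    nlinarith
  have e1 := hc₀ _ hdeg
  have e2 := hD₀ _ hle
  have hg : g ≤ PHyp.genusR K F := by linarith
  refine ⟨c₀, fun D hD => ?_⟩
  have e3 := hc₀ D hD
  linarith

end Genus

/-! ### The generic statement in the native vocabulary -/

section Generic

variable {K F F' : Type*} [Field K] [Field F] [Field F'] [Algebra K F] [Algebra K F']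
  [Algebra F F'] [IsScalarTower K F F'] [FiniteDimensional F F'] [Algebra.IsSeparable F F']
  [IsAlgClosed K]
variable {k E E' : Type*} [Field k] [Field E] [Field E'] [Algebra k E] [Algebra k E']
  [Algebra E E'] [IsScalarTower k E E'] [FiniteDimensional E E'] [Algebra.IsSeparable E E']
  [IsAlgClosed k]

/-- `LiftA.lift_top` with `UpN.RelIntegral`, `GenusLE`, `GenusGE`. -/
theorem lift_genericV (hF : RR.Hyp0 K F) (hF' : RR.Hyp0 K F')
    (hE : RR.Hyp0 k E) (hE' : RR.Hyp k E')
    (A : ValuationSubring K) (res : A →+* k) (hres : Function.Surjective res)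
    (V' : ValuationSubring F') (ρ' : V' →+* E')
    (hAV : ∀ a : A, algebraMap K F' (a : K) ∈ V')
    (hρA : ∀ a : A, ρ' ⟨algebraMap K F' (a : K), hAV a⟩ = algebraMap k E' (res a))
    (r : Place K F → Place k E)
    (hincl : ∀ (G : Divisor K F) (f : V'), UpN.RelIntegral G (f : F') →
      UpN.RelIntegral (Finsupp.mapDomain r G) (ρ' f))
    (hbasis : ∀ W : Submodule K F', Module.Finite K W →
      ∃ b : Fin (Module.finrank K W) → V', (∀ i, (b i : F') ∈ W) ∧
        LinearIndependent k (fun i => ρ' (b i)))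
    (g : ℤ) (hLE : GenusLE K F' g) (hGE : GenusGE k E' g)
    (hdeg : Module.finrank F F' = Module.finrank E E') :
    ∃ c : ℤ, ∀ G : Divisor K F, c ≤ Divisor.degree G →
      ∀ y : E', UpN.RelIntegral (Finsupp.mapDomain r G) y →
        ∃ x : V', UpN.RelIntegral G (x : F') ∧ ρ' x = y := by
  obtain ⟨c, hc⟩ := genusGE_deg hE' hGE
  refine ⟨max c 0, fun G hG y hy => ?_⟩
  obtain ⟨x, hx, hxy⟩ := LiftA.lift_top hF hF' hE hE'.toHyp0 A res hres V' ρ' hAV hρA r G
    (fun f hf => (ROR.relIntegral_iff_pb _ _).mp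
      (hincl G f ((ROR.relIntegral_iff_pb _ _).mpr hf)))
    hbasis g c hLE hc hdeg ((le_max_left _ _).trans hG) ((le_max_right _ _).trans hG)
    y ((ROR.relIntegral_iff_pb _ _).mp hy)
  exact ⟨x, (ROR.relIntegral_iff_pb _ _).mpr hx, hxy⟩

end Generic

/-! ### The levels `N ∣ M` -/

section Concrete

variable {ℓ : ℕ} [Fact ℓ.Prime] (A : ValuationSubring Qb) (hA : A.LiesOverPrime ℓ)
  {N M : ℕ} [NeZero N] [NeZero M] (h : N ∣ M) (hℓM : ¬ ℓ ∣ M)

theorem finite_bar' : letI := algOfLE (bar_mono h); FiniteDimensional (FN N) (FN M) :=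
  letI := algOfLE (bar_mono h)
  LiftD.finite_bar h (fun a => algOfLE_algebraMap (bar_mono h) a)

include hA hℓM in
theorem finite_fullC' :
    letI := algOfLE (fullC_mono (Kb A) h); FiniteDimensional (FbN A N) (FbN A M) :=
  letI := algOfLE (fullC_mono (Kb A) h)
  haveI : CharP (Kb A) ℓ := RN.charP_residueField A hA
  LiftD.finite_fullC (Kb A) ℓ h hℓM (fun a => algOfLE_algebraMap (fullC_mono (Kb A) h) a)

include hA hℓM in
theorem finrank_eq' : letI := algOfLE (bar_mono h); letI := algOfLE (fullC_mono (Kb A) h);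
    Module.finrank (FN N) (FN M) = Module.finrank (FbN A N) (FbN A M) :=
  letI := algOfLE (bar_mono h)
  letI := algOfLE (fullC_mono (Kb A) h)
  haveI : CharP (Kb A) ℓ := RN.charP_residueField A hA
  LiftD.finrank_bar_eq_finrank_fullC (Kb A) ℓ h hℓM (fun a => algOfLE_algebraMap (bar_mono h) a)
    (fun a => algOfLE_algebraMap (fullC_mono (Kb A) h) a)

theorem isSeparable_bar' : letI := algOfLE (bar_mono h); Algebra.IsSeparable (FN N) (FN M) :=
  letI := algOfLE (bar_mono h)
  haveI : FiniteDimensional (FN N) (FN M) := finite_bar' h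
  inferInstance

include hA hℓM in
/-- Orthonormal bases at level `M` in the shape consumed by `LiftA.lift_top`. -/
theorem basis' (W : Submodule Qb (FN M)) (hW : Module.Finite Qb W) :
    ∃ b : Fin (Module.finrank Qb W) → RGB.V M A, (∀ i, (b i : FN M) ∈ W) ∧
      LinearIndependent (Kb A) (fun i => RGB.rho M hℓM A hA (b i)) := by
  haveI := hW
  obtain ⟨w, h1, h2, -⟩ := ROV.exists_basis M A hℓM hA W
  exact ⟨w, h1, h2⟩

set_option maxHeartbeats 1600000 in
/-- **The lifting property at level `M` from the genus squeeze at level `M`.** -/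
theorem liftPropV (r : Place Qb (FN N) → Place (Kb A) (FbN A N))
    (hr : IsPlaceReductionModL A N r) (hsq : GenusSqueeze A M) : LiftPropV A hA h hℓM r := by
  obtain ⟨g, hLE, hGE⟩ := hsq
  exact @lift_genericV Qb (FN N) (FN M) _ _ _ _ _ (algOfLE (bar_mono h))
    (isScalarTower_algOfLE (bar_mono h)) (finite_bar' h) (isSeparable_bar' h) _
    (Kb A) (FbN A N) (FbN A M) _ _ _ _ _ (algOfLE (fullC_mono (Kb A) h))
    (isScalarTower_algOfLE (fullC_mono (Kb A) h)) (finite_fullC' A hA h hℓM)
    (SepLevel.isSeparable_FbN A hA h hℓM) (ResAC.isAlgClosed_residueField_ratBar A)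
    (PHyp.hyp0_bar N) (PHyp.hyp0_bar M) (UPhiB.hyp0_FbN A hA N) (UPhiB.hyp_FbN A hA M)
    A (IsLocalRing.residue A) IsLocalRing.residue_surjective (RGB.V M A) (RGB.rho M hℓM A hA)
    (fun a => RG.algebraMap_mem_V A M a) (fun a => RGB.rho_algebraMap M hℓM A hA a) r
    (fun G f => UAd.relIntegral_rho h hℓM A hA hr G f) (basis' A hA hℓM) g hLE hGE
    (finrank_eq' A hA h hℓM)

end Concrete

/-- **Row TOP-LIFT**: the statement `LiftOfSqueezeStmtV` of `Iface2.lean`. -/
theorem liftOfSqueezeStmtV : LiftOfSqueezeStmtV :=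
  fun _ _ A hA _ _ _ _ h hℓM r hr _ hsq => liftPropV A hA h hℓM r hr hsq

end Fermat.Agent.S18.TopLift

end
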