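import Fermat.Agent.S18.PHyp
import Fermat.Agent.S18.LiftDeg
import Fermat.Agent.S18.ResAlgClosed
import Fermat.Agent.S18.RNormal
import Fermat.Agent.S18.Defs
import Fermat.Agent.S28.Defs
import Fermat.Agent.S28.LevelData

/-!
# S18, chain P: the function fields `F̄_M = k(j(q^d), d ∣ M)` in characteristic `ℓ ∤ M`

* `J̄` is transcendental, `F̄_M / k(J̄)` is finite of degree `ψ(M)` and separable (`J̄` is not an
  `ℓ`-th power: `θ = q d/dq` kills `ℓ`-th powers but not `J̄`);
* hence `RR.Hyp k F̄_M` (Riemann's theorem holds for `F̄_M`);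
* for `N ∣ M` the extension `F̄_M / F̄_N` is finite and separable.
-/

set_option autoImplicit false
set_option synthInstance.maxHeartbeats 400000
set_option linter.style.haveILetI false
set_option linter.unusedSectionVars false

open AlgebraicCurve IntermediateField ModularCurve Polynomial

namespace Fermat.Agent.S18.PModCB

open Fermat.Agent.S20

noncomputable section

variable (k : Type) [Field k] (M : ℕ) [NeZero M]

/-- `J̄` as an element of `F̄_M`. -/
def xJ : ↥(modularFunctionFieldFullC k M) := ⟨jqModC k, jqModC_mem_full k M⟩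

theorem coe_xJ : ((xJ k M : ↥(modularFunctionFieldFullC k M)) : LaurentSeries k) = jqModC k := rfl

/-- `J̄` is transcendental over `k`. -/
theorem transcendental_xJ : Transcendental k (xJ k M) := by
  intro h
  exact S28.LevelData.transcendental_jqModC k (h.algHom (modularFunctionFieldFullC k M).val)

variable (ℓ : ℕ) [Fact ℓ.Prime] [CharP k ℓ]

/-- `[F̄_M : k(J̄)] = ψ(M)` for `ℓ ∤ M`. -/
theorem finrank_xJ (hℓM : ¬ ℓ ∣ M) :
    Module.finrank k⟮xJ k M⟯ ↥(modularFunctionFieldFullC k M) = dedekindPsi M := by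
  rw [LiftD.finrank_adjoin_eq_relfinrank]
  exact LiftD.relfinrank_fullC k ℓ M hℓM

/-- `F̄_M` is finite over `k(J̄)` for `ℓ ∤ M`. -/
theorem finiteDimensional_xJ (hℓM : ¬ ℓ ∣ M) :
    FiniteDimensional k⟮xJ k M⟯ ↥(modularFunctionFieldFullC k M) :=
  FiniteDimensional.of_finrank_pos (by
    rw [finrank_xJ k M ℓ hℓM]
    exact LiftD.dedekindPsi_pos M)

omit [NeZero M] in
/-- `J̄` is not an `ℓ`-th power in `k((q))`. -/
theorem pow_ne_jqModC (y : LaurentSeries k) : y ^ ℓ ≠ jqModC k := by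
  intro h
  have h1 : S28.theta (y ^ ℓ) = 0 := by
    obtain ⟨n, hn⟩ : ∃ n, ℓ = n + 1 :=
      ⟨ℓ - 1, (Nat.succ_pred_eq_of_pos (Fact.out : ℓ.Prime).pos).symm⟩
    have hz : ((n + 1 : ℕ) : LaurentSeries k) = 0 := by
      rw [← hn, ← map_natCast (HahnSeries.C : k →+* LaurentSeries k), CharP.cast_eq_zero,
        map_zero]
    rw [hn, S28.theta_pow, hz, zero_mul, zero_mul]
  rw [h] at h1
  have h2 := congrArg (fun z : LaurentSeries k => z.coeff (-1)) h1
  simp only [S28.theta_coeff, HahnSeries.coeff_zero] at h2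
  rw [coeff_jqModC_neg_one] at h2
  simp at h2

/-- The characteristic of `F̄_M`. -/
theorem charP_fullC : CharP ↥(modularFunctionFieldFullC k M) ℓ :=
  charP_of_injective_algebraMap (algebraMap k ↥(modularFunctionFieldFullC k M)).injective ℓ

/-- `J̄` is not an `ℓ`-th power in `F̄_M`. -/
theorem xJ_not_mem_Fpn :
    haveI := charP_fullC k M ℓ
    xJ k M ∉ PFrob.Fpn ↥(modularFunctionFieldFullC k M) ℓ 1 := by
  haveI := charP_fullC k M ℓ
  intro h
  obtain ⟨z, hz⟩ := (PFrob.mem_Fpn ℓ).mp h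
  apply pow_ne_jqModC k ℓ (z : LaurentSeries k)
  have h1 : ((z ^ ℓ ^ 1 : ↥(modularFunctionFieldFullC k M)) : LaurentSeries k) = jqModC k :=
    congrArg (fun w : ↥(modularFunctionFieldFullC k M) => (w : LaurentSeries k)) hz
  rw [pow_one] at h1
  exact h1

/-- `F̄_M / k(J̄)` is separable for `ℓ ∤ M`. -/
theorem isSeparable_xJ [IsAlgClosed k] (hℓM : ¬ ℓ ∣ M) :
    Algebra.IsSeparable k⟮xJ k M⟯ ↥(modularFunctionFieldFullC k M) := by
  haveI := charP_fullC k M ℓ
  haveI := finiteDimensional_xJ k M ℓ hℓM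
  exact PFrob.isSeparable_of_not_mem ℓ (xJ k M) (xJ_not_mem_Fpn k M ℓ)

/-- **Riemann's theorem holds for `F̄_M`** (`ℓ ∤ M`, `k` algebraically closed of characteristic
`ℓ`). -/
theorem hyp_modC [IsAlgClosed k] (hℓM : ¬ ℓ ∣ M) :
    RR.Hyp k ↥(modularFunctionFieldFullC k M) := by
  haveI := finiteDimensional_xJ k M ℓ hℓM
  exact PHyp.hyp_of_finite (xJ k M) (transcendental_xJ k M)

theorem hyp0_modC [IsAlgClosed k] (hℓM : ¬ ℓ ∣ M) :
    RR.Hyp0 k ↥(modularFunctionFieldFullC k M) :=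
  (hyp_modC k M ℓ hℓM).toHyp0

/-! ### The level extension `F̄_M / F̄_N` -/

section Level

variable {N : ℕ} [NeZero N] {M}

/-- Elements of `k(J̄) ⊆ F̄_M` lie in `F̄_N`. -/
theorem coe_mem_fullC (c : ↥(k⟮xJ k M⟯)) :
    ((c : ↥(modularFunctionFieldFullC k M)) : LaurentSeries k) ∈ modularFunctionFieldFullC k N := by
  have h1 : (k⟮xJ k M⟯).map (modularFunctionFieldFullC k M).val = k⟮jqModC k⟯ := by
    rw [IntermediateField.adjoin_map]
    simp [coe_xJ]
  have h2 : ((c : ↥(modularFunctionFieldFullC k M)) : LaurentSeries k) ∈ k⟮jqModC k⟯ := by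
    rw [← h1]
    exact ⟨c, c.2, rfl⟩
  exact (adjoin_simple_le_iff.mpr (jqModC_mem_full k N)) h2

/-- The inclusion `k(J̄) → F̄_N` (for `k(J̄)` viewed inside `F̄_M`). -/
def toLow : ↥(k⟮xJ k M⟯) →+* ↥(modularFunctionFieldFullC k N) where
  toFun c := ⟨((c : ↥(modularFunctionFieldFullC k M)) : LaurentSeries k), coe_mem_fullC k c⟩
  map_one' := rfl
  map_mul' _ _ := rfl
  map_zero' := rfl
  map_add' _ _ := rfl

/-- **`F̄_M / F̄_N` is separable** for `N ∣ M`, `ℓ ∤ M`. -/
theorem isSeparable_level [IsAlgClosed k] (h : N ∣ M) (hℓM : ¬ ℓ ∣ M) :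
    letI := algOfLE (fullC_mono k h)
    Algebra.IsSeparable ↥(modularFunctionFieldFullC k N) ↥(modularFunctionFieldFullC k M) := by
  letI := algOfLE (fullC_mono k h)
  have hsep := isSeparable_xJ k M ℓ hℓM
  haveI := finiteDimensional_xJ k M ℓ hℓM
  refine ⟨fun x => ?_⟩
  have hx : IsSeparable k⟮xJ k M⟯ x := Algebra.IsSeparable.isSeparable _ x
  have hint : IsIntegral k⟮xJ k M⟯ x := Algebra.IsIntegral.isIntegral x
  -- the minimal polynomial over `k(J̄)`, with coefficients moved to `F̄_N`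
  set p : (↥(modularFunctionFieldFullC k N))[X] :=
    (minpoly k⟮xJ k M⟯ x).map (toLow k (N := N) (M := M)) with hp
  have hcomp : (algebraMap ↥(modularFunctionFieldFullC k N) ↥(modularFunctionFieldFullC k M)).comp
      (toLow k (N := N) (M := M)) =
      algebraMap ↥(k⟮xJ k M⟯) ↥(modularFunctionFieldFullC k M) := by
    ext c
    rfl
  have hpmap : p.map (algebraMap ↥(modularFunctionFieldFullC k N)
      ↥(modularFunctionFieldFullC k M)) =
      (minpoly k⟮xJ k M⟯ x).map (algebraMap ↥(k⟮xJ k M⟯) ↥(modularFunctionFieldFullC k M)) := by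
    rw [hp, Polynomial.map_map, hcomp]
  have hpsep : p.Separable := by
    rw [hp]
    exact (Polynomial.separable_map _).mpr hx
  have hroot : Polynomial.aeval x p = 0 := by
    rw [Polynomial.aeval_def, Polynomial.eval₂_eq_eval_map, hpmap, ← Polynomial.eval₂_eq_eval_map,
      ← Polynomial.aeval_def, minpoly.aeval]
  exact hpsep.of_dvd (minpoly.dvd _ x hroot)

/-- `F̄_M / F̄_N` is finite for `N ∣ M`, `ℓ ∤ M`. -/
theorem finite_level (h : N ∣ M) (hℓM : ¬ ℓ ∣ M) :
    letI := algOfLE (fullC_mono k h)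
    Module.Finite ↥(modularFunctionFieldFullC k N) ↥(modularFunctionFieldFullC k M) := by
  letI := algOfLE (fullC_mono k h)
  exact LiftD.finite_fullC k ℓ h hℓM (fun a => algOfLE_algebraMap (fullC_mono k h) a)

end Level

/-! ### The residue field of a valuation ring of `ℚ̄` over `ℓ` -/

section Kb

variable {ℓ}
variable (A : ValuationSubring Qb) (hA : A.LiesOverPrime ℓ)

include hA

/-- **Riemann's theorem for `F̄_M` over the residue field of `A`**, `ℓ ∤ M`. -/
theorem hyp_Kb (hℓM : ¬ ℓ ∣ M) : RR.Hyp (Kb A) (FbN A M) := by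
  haveI := RN.charP_residueField A hA
  haveI := ResAC.isAlgClosed_residueField A
  exact hyp_modC (Kb A) M ℓ hℓM

theorem hyp0_Kb (hℓM : ¬ ℓ ∣ M) : RR.Hyp0 (Kb A) (FbN A M) :=
  (hyp_Kb M A hA hℓM).toHyp0

variable {N : ℕ} [NeZero N] {M}

/-- **`F̄_M / F̄_N` is separable** over the residue field of `A`, `N ∣ M`, `ℓ ∤ M`. -/
theorem isSeparable_FbN (h : N ∣ M) (hℓM : ¬ ℓ ∣ M) :
    letI := algOfLE (fullC_mono (Kb A) h)
    Algebra.IsSeparable ↥(FbN A N) ↥(FbN A M) := by
  haveI := RN.charP_residueField A hA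
  haveI := ResAC.isAlgClosed_residueField A
  exact isSeparable_level (Kb A) ℓ h hℓM

/-- `F̄_M / F̄_N` is finite over the residue field of `A`, `N ∣ M`, `ℓ ∤ M`. -/
theorem finite_FbN (h : N ∣ M) (hℓM : ¬ ℓ ∣ M) :
    letI := algOfLE (fullC_mono (Kb A) h)
    Module.Finite ↥(FbN A N) ↥(FbN A M) := by
  haveI := RN.charP_residueField A hA
  exact finite_level (Kb A) ℓ h hℓM

end Kb

end

end Fermat.Agent.S18.PModCB
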