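import Fermat.Agent.S18.GenMod
import Fermat.Agent.S18.RGaussBar
import Fermat.Agent.S18.Defs

/-!
# S18, chain U: the generic points, uniformizers and tubes at level `M` relative to `N`

For `N ∣ M`, `ℓ ∤ M`, a place reduction `r` of `F_N` and a divisor `D` of `F_N`, `exists_data`
produces the block of data `P`, `Q = r ∘ P`, `t = j - a`, `tb = J̄ - res a`, `tV` (the element `t`
in the Gauss valuation ring of `F_M`) and the tubes `{v | r v = r (P p)}` consumed by the torsion
theorem at level `M` relative to `N`, indexed by `Fin m × Fin e`.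

Also: the compatibility of the Gauss valuation rings and residue maps at the levels `N ∣ M`
(`incl_mem_V`, `rho_incl_level`).
-/

set_option autoImplicit false
set_option synthInstance.maxHeartbeats 400000

noncomputable section

namespace Fermat.Agent.S18.UPts

open ModularCurve AlgebraicCurve HahnSeries IntermediateField Fermat.Agent.S20

/-! ### Level compatibility of the Gauss valuation rings -/

theorem algOfLE_apply {K E : Type*} [Field K] [Field E] [Algebra K E]
    {S T : IntermediateField K E} (h : S ≤ T) (x : S) :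
    @algebraMap S T _ _ (algOfLE h) x = IntermediateField.inclusion h x := rfl

variable {N M : ℕ} (h : N ∣ M) (A : ValuationSubring Qb)

theorem coe_incl (y : ↥(FN N)) :
    ((IntermediateField.inclusion (bar_mono h) y : ↥(FN M)) : LaurentSeries Qb)
      = (y : LaurentSeries Qb) :=
  IntermediateField.coe_inclusion (bar_mono h) y

theorem coe_inclC (y : ↥(FbN A N)) :
    ((IntermediateField.inclusion (fullC_mono (Kb A) h) y : ↥(FbN A M)) : LaurentSeries (Kb A))
      = (y : LaurentSeries (Kb A)) :=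
  IntermediateField.coe_inclusion (fullC_mono (Kb A) h) y

variable [NeZero N] [NeZero M]

theorem coe_mem_Lam (x : ↥(RGB.V N A)) : ((x : ↥(FN N)) : LaurentSeries Qb) ∈ RG.Lam A :=
  (RG.mem_V A N).mp x.2

theorem mem_V_of_coe_mem (y : ↥(FN M)) (hy : (y : LaurentSeries Qb) ∈ RG.Lam A) :
    y ∈ RGB.V M A :=
  (RG.mem_V A M).mpr hy

/-- Elements of the Gauss valuation ring at level `N` lie in the one at level `M`. -/
theorem incl_mem_V (x : ↥(RGB.V N A)) :
    (IntermediateField.inclusion (bar_mono h) (x : ↥(FN N)) : ↥(FN M)) ∈ RGB.V M A := by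
  apply mem_V_of_coe_mem
  rw [coe_incl h]
  exact coe_mem_Lam A x

variable {ℓ : ℕ} [Fact ℓ.Prime] (hℓM : ¬ ℓ ∣ M) (hA : A.LiesOverPrime ℓ)

/-- The residue maps of the Gauss valuation rings at the levels `N ∣ M` are compatible. -/
theorem rho_incl_level (x : ↥(RGB.V N A)) :
    RGB.rho M hℓM A hA ⟨IntermediateField.inclusion (bar_mono h) (x : ↥(FN N)), incl_mem_V h A x⟩
      = IntermediateField.inclusion (fullC_mono (Kb A) h)
          (RGB.rho N (fun hd => hℓM (hd.trans h)) A hA x) := by
  obtain ⟨a, b, hb, hab⟩ := (RG.mem_Lam A).mp (coe_mem_Lam A x)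
  apply Subtype.ext
  rw [RGB.coe_rho, coe_inclC h A, RGB.coe_rho, RG.rhoL_eq A N x hb hab]
  refine RG.rhoL_eq A M _ hb ?_
  show ((IntermediateField.inclusion (bar_mono h) (x : ↥(FN N)) : ↥(FN M)) : LaurentSeries Qb) * _
    = _
  rw [coe_incl h]
  exact hab

/-! ### The uniformizers `j - a` -/

/-- `j - a`, `a ∈ A`, as an element of the Gauss valuation ring at level `N`, with residue
`J̄ - res a`. -/
theorem exists_t (hℓN : ¬ ℓ ∣ N) (a : ↥A) :
    ∃ t : ↥(RGB.V N A),
      (t : ↥(FN N)) = GenMod.jBar N - algebraMap Qb ↥(FN N) (a : Qb) ∧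
      RGB.rho N hℓN A hA t
        = GenMod.jBarC N A - algebraMap (Kb A) ↥(FbN A N) (IsLocalRing.residue ↥A a) := by
  set y : LaurentSeries ↥A := jqModC ↥A - HahnSeries.C a with hy
  have hincl : coeffMap A.subtype y = jqModC Qb -
      algebraMap Qb (LaurentSeries Qb) (a : Qb) := by
    rw [hy, map_sub, coeffMap_jqModC]
    congr 1
    exact Tube.incl_C a
  have hred : coeffMap (IsLocalRing.residue ↥A) y = jqModC (Kb A) -
      algebraMap (Kb A) (LaurentSeries (Kb A)) (IsLocalRing.residue ↥A a) := by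
    rw [hy, map_sub, coeffMap_jqModC]
    congr 1
    exact Tube.red_C a
  have hyF : coeffMap A.subtype y ∈ modularFunctionFieldBar N := by
    rw [hincl]
    exact sub_mem (GenMod.jq_mem_bar N) (IntermediateField.algebraMap_mem _ _)
  refine ⟨⟨⟨coeffMap A.subtype y, hyF⟩, RG.incl_mem_V A N hyF⟩, Subtype.ext hincl, ?_⟩
  rw [RGB.rho_incl N hℓN A hA hyF]
  exact Subtype.ext hred

/-- `j - a` at level `M`: an element of the Gauss valuation ring of `F_M` which is the image of
`j - a ∈ F_N` and whose residue is the image of `J̄ - res a ∈ F̄_N`. -/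
theorem exists_tV (a : ↥A) :
    letI := algOfLE (bar_mono h)
    letI := algOfLE (fullC_mono (Kb A) h)
    ∃ t : ↥(RGB.V M A),
      (t : ↥(FN M)) = algebraMap ↥(FN N) ↥(FN M)
        (GenMod.jBar N - algebraMap Qb ↥(FN N) (a : Qb)) ∧
      RGB.rho M hℓM A hA t = algebraMap ↥(FbN A N) ↥(FbN A M)
        (GenMod.jBarC N A - algebraMap (Kb A) ↥(FbN A N) (IsLocalRing.residue ↥A a)) := by
  obtain ⟨t, ht, hρ⟩ := exists_t A hA (fun hd => hℓM (hd.trans h)) a
  refine ⟨⟨IntermediateField.inclusion (bar_mono h) (t : ↥(FN N)), incl_mem_V h A t⟩, ?_, ?_⟩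
  · rw [algOfLE_apply, ← ht]
  · rw [rho_incl_level h A hℓM hA t, algOfLE_apply, hρ]

/-- `j` as an element of the Gauss valuation ring at level `N`, with residue `J̄`. -/
theorem exists_j (hℓN : ¬ ℓ ∣ N) :
    ∃ x : ↥(RGB.V N A), (x : ↥(FN N)) = GenMod.jBar N ∧
      RGB.rho N hℓN A hA x = GenMod.jBarC N A := by
  have hincl : coeffMap A.subtype (jqModC ↥A) = jqModC Qb := coeffMap_jqModC _
  have hyF : coeffMap A.subtype (jqModC ↥A) ∈ modularFunctionFieldBar N := by
    rw [hincl]
    exact GenMod.jq_mem_bar N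
  refine ⟨⟨⟨coeffMap A.subtype (jqModC ↥A), hyF⟩, RG.incl_mem_V A N hyF⟩, Subtype.ext hincl, ?_⟩
  rw [RGB.rho_incl N hℓN A hA hyF]
  exact Subtype.ext (coeffMap_jqModC _)

/-- **The coordinate function for the generic points**: `x = j` in the Gauss valuation ring of
`F_N`, non-constant with non-constant residue `J̄`, and `J̄ - c` has only simple zeros for all but
finitely many `c`. -/
theorem exists_coord (hℓN : ¬ ℓ ∣ N) :
    ∃ x : ↥(RGB.V N A),
      (∀ a : Qb, (x : ↥(FN N)) ≠ algebraMap Qb ↥(FN N) a) ∧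
      (∀ c : Kb A, RGB.rho N hℓN A hA x ≠ algebraMap (Kb A) ↥(FbN A N) c) ∧
      ∃ S : Finset (Kb A), ∀ c, c ∉ S → ∀ Q : Place (Kb A) ↥(FbN A N),
        0 < Q.ord (RGB.rho N hℓN A hA x - algebraMap (Kb A) ↥(FbN A N) c) →
        Q.ord (RGB.rho N hℓN A hA x - algebraMap (Kb A) ↥(FbN A N) c) = 1 := by
  have : IsAlgClosed (Kb A) := ResAC.isAlgClosed_residueField_ratBar A
  have : CharP (Kb A) ℓ := RN.charP_residueField A hA
  have := PModC.finiteDimensional_xJ (Kb A) N ℓ
  have := PModC.isSeparable_xJ (Kb A) N ℓ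
  obtain ⟨x, hx, hρ⟩ := exists_j A hA hℓN
  refine ⟨x, ?_, ?_, ?_⟩
  · intro a
    rw [hx]
    exact GenMod.jBar_ne_const N a
  · intro c
    rw [hρ]
    exact GenMod.jBarC_ne_const N A c
  · rw [hρ]
    exact Gen.exists_finset_simple (PModC.xJ (Kb A) N) (PModC.transcendental_xJ (Kb A) N)

/-! ### The block of generic points -/

set_option maxHeartbeats 1600000 in
/-- **Generic points, uniformizers and tubes at level `M` relative to `N`.**  For a place
reduction `r` of `F_N` in the frozen sense, a divisor `D` of `F_N`, finite sets of places `T`,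
`Tb` to avoid and all `m`, `e`, there are places `P p` of `F_N` (`p : Fin m × Fin e`), constants
`a p ∈ A` and elements `tV p` of the Gauss valuation ring of `F_M` such that, with
`t p = j - a p`, `tb p = J̄ - res (a p)`, `Q p = r (P p)` and the tube `{v | r v = Q p}`:
the `P p` and the `Q p` are pairwise distinct, the `Q p` have degree one, avoid `Tb` and the
support of `r_* D`; the tubes avoid `T` and the support of `D`; `tV p` is the image of `t p` in
`F_M` and its residue is the image of `tb p` in `F̄_M`; `t p` is a uniformizer at `P p`, regular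
on the tube and a unit at the other points of the tube; `tb p` is a uniformizer at `Q p`. -/
theorem exists_data
    {r : Place Qb ↥(FN N) → Place (Kb A) ↥(FbN A N)} (hr : IsPlaceReductionModL A N r)
    (D : Divisor Qb ↥(FN N)) (T : Finset (Place Qb ↥(FN N)))
    (Tb : Finset (Place (Kb A) ↥(FbN A N))) (m e : ℕ) :
    letI := algOfLE (bar_mono h)
    letI := algOfLE (fullC_mono (Kb A) h)
    ∃ (P : Fin m × Fin e → Place Qb ↥(FN N)) (a : Fin m × Fin e → ↥A)
      (tV : Fin m × Fin e → ↥(RGB.V M A)),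
      Function.Injective P ∧ Function.Injective (fun p => r (P p)) ∧
      (∀ p, (r (P p)).deg = 1) ∧
      (∀ p, Finsupp.mapDomain r D (r (P p)) = 0) ∧
      (∀ p, r (P p) ∉ Tb) ∧
      (∀ p, ∀ v ∈ T, r v ≠ r (P p)) ∧
      (∀ p, ((tV p : ↥(RGB.V M A)) : ↥(FN M)) = algebraMap ↥(FN N) ↥(FN M)
        (GenMod.jBar N - algebraMap Qb ↥(FN N) (a p : Qb))) ∧
      (∀ p, RGB.rho M hℓM A hA (tV p) = algebraMap ↥(FbN A N) ↥(FbN A M)
        (GenMod.jBarC N A - algebraMap (Kb A) ↥(FbN A N) (IsLocalRing.residue ↥A (a p)))) ∧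
      (∀ p, (P p).ord (GenMod.jBar N - algebraMap Qb ↥(FN N) (a p : Qb)) = 1) ∧
      (∀ p, (r (P p)).ord
        (GenMod.jBarC N A - algebraMap (Kb A) ↥(FbN A N) (IsLocalRing.residue ↥A (a p))) = 1) ∧
      (∀ p, ∀ v, r v = r (P p) → D v = 0) ∧
      (∀ p p', p' ≠ p → r (P p') ≠ r (P p)) ∧
      (∀ p, ∀ v, r v = r (P p) →
        GenMod.jBar N - algebraMap Qb ↥(FN N) (a p : Qb) ∈ v.toValuationSubring) ∧
      (∀ p, ∀ v, r v = r (P p) → v ≠ P p →
        v.ord (GenMod.jBar N - algebraMap Qb ↥(FN N) (a p : Qb)) = 0) := by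
  classical
  have : IsAlgClosed (Kb A) := ResAC.isAlgClosed_residueField_ratBar A
  have : CharP (Kb A) ℓ := RN.charP_residueField A hA
  obtain ⟨P', a', hinj, hTb, hT, hP1, hP0, hj, hQ1⟩ :=
    GenMod.exists_points hA hr (T ∪ D.support) (Tb ∪ (Finsupp.mapDomain r D).support) (m * e)
  have htV : ∀ p : Fin m × Fin e,
      letI := algOfLE (bar_mono h)
      letI := algOfLE (fullC_mono (Kb A) h)
      ∃ t : ↥(RGB.V M A),
        (t : ↥(FN M)) = algebraMap ↥(FN N) ↥(FN M)
          (GenMod.jBar N - algebraMap Qb ↥(FN N) (a' (finProdFinEquiv p) : Qb)) ∧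
        RGB.rho M hℓM A hA t = algebraMap ↥(FbN A N) ↥(FbN A M)
          (GenMod.jBarC N A - algebraMap (Kb A) ↥(FbN A N)
            (IsLocalRing.residue ↥A (a' (finProdFinEquiv p)))) :=
    fun p => exists_tV h A hℓM hA (a' (finProdFinEquiv p))
  choose tV htV1 htV2 using htV
  have hinj' : Function.Injective (fun p : Fin m × Fin e => r (P' (finProdFinEquiv p))) :=
    hinj.comp finProdFinEquiv.injective
  refine ⟨fun p => P' (finProdFinEquiv p), fun p => a' (finProdFinEquiv p), tV, ?_, hinj', ?_, ?_,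
    ?_, ?_, htV1, htV2, ?_, ?_, ?_, ?_, ?_, ?_⟩
  · intro p p' hpp'
    exact hinj' (congrArg r hpp')
  · intro p
    exact (PModC.hyp0_modC (Kb A) N ℓ).deg_one _
  · intro p
    have h1 := hTb (finProdFinEquiv p)
    rw [Finset.mem_union, not_or] at h1
    exact Finsupp.notMem_support_iff.mp h1.2
  · intro p
    have h1 := hTb (finProdFinEquiv p)
    rw [Finset.mem_union, not_or] at h1
    exact h1.1
  · intro p v hv
    exact hT (finProdFinEquiv p) v (Finset.mem_union_left _ hv)
  · intro p
    exact hP1 (finProdFinEquiv p)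
  · intro p
    exact hQ1 (finProdFinEquiv p)
  · intro p v hv
    by_contra hne
    exact hT (finProdFinEquiv p) v
      (Finset.mem_union_right _ (Finsupp.mem_support_iff.mpr hne)) hv
  · intro p p' hne heq
    exact hne (hinj' heq)
  · intro p v hv
    have h1 : GenMod.jBar N ∈ v.toValuationSubring :=
      (RR.mem_valuationSubring_iff v).mpr (Or.inr (hj (finProdFinEquiv p) v hv))
    exact sub_mem h1 (v.algebraMap_mem' _)
  · intro p v hv hne
    exact hP0 (finProdFinEquiv p) v hv hne

end Fermat.Agent.S18.UPts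
end
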