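import Mathlib
import Fermat.Prelude.Def_AlgebraicCurve_DivisorClassGroup
import Fermat.Agent.S24.PlacesMore

/-!
# S18, level bookkeeping: evaluation homomorphisms and reduction of roots

* `UpB.evalHom v hv : O_v →+* K` — the value at a place `v` whose residue field is `K`.
* `UpB.exists_roots` — a monic polynomial over a valuation ring `A` of an algebraically closed
  field whose reduction is separable: its roots lie in `A`, are pairwise incongruent, and reduce
  bijectively onto the roots of the reduction.
-/

set_option autoImplicit false

open AlgebraicCurve Polynomial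

namespace Fermat.Agent.S18.UpB

noncomputable section

section Eval

variable {K F : Type*} [Field K] [Field F] [Algebra K F]

/-- The value at a place whose residue field is `K`. -/
def evalHom (v : Place K F) (hv : Function.Surjective (algebraMap K v.ResidueField)) :
    v.toValuationSubring →+* K :=
  ((RingEquiv.ofBijective (algebraMap K v.ResidueField)
    ⟨(algebraMap K v.ResidueField).injective, hv⟩).symm : v.ResidueField →+* K).comp
      (IsLocalRing.residue v.toValuationSubring)

variable (v : Place K F) (hv : Function.Surjective (algebraMap K v.ResidueField))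

theorem algebraMap_evalHom (a : v.toValuationSubring) :
    algebraMap K v.ResidueField (evalHom v hv a) = IsLocalRing.residue v.toValuationSubring a := by
  unfold evalHom
  exact (RingEquiv.ofBijective (algebraMap K v.ResidueField)
    ⟨(algebraMap K v.ResidueField).injective, hv⟩).apply_symm_apply _

theorem evalHom_algebraMap (c : K) :
    evalHom v hv (algebraMap K v.toValuationSubring c) = c := by
  apply (algebraMap K v.ResidueField).injective
  rw [algebraMap_evalHom]
  rfl

theorem evalHom_eq_zero_iff (a : v.toValuationSubring) :
    evalHom v hv a = 0 ↔ a ∈ IsLocalRing.maximalIdeal v.toValuationSubring := by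
  rw [← IsLocalRing.residue_eq_zero_iff, ← algebraMap_evalHom v hv a]
  constructor
  · intro h; rw [h, map_zero]
  · intro h
    exact (algebraMap K v.ResidueField).injective (by rw [h, map_zero])

theorem evalHom_eq_iff (a : v.toValuationSubring) (c : K) :
    evalHom v hv a = c ↔
      a - algebraMap K v.toValuationSubring c ∈ IsLocalRing.maximalIdeal v.toValuationSubring := by
  rw [← evalHom_eq_zero_iff v hv, map_sub, evalHom_algebraMap, sub_eq_zero]

/-- Values in the `ord` language. -/
theorem evalHom_eq_iff_ord {f : F} (hf : f ∈ v.toValuationSubring) (c : K) :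
    evalHom v hv ⟨f, hf⟩ = c ↔ f = algebraMap K F c ∨ 0 < v.ord (f - algebraMap K F c) := by
  rw [evalHom_eq_iff]
  by_cases h0 : (⟨f, hf⟩ : v.toValuationSubring) - algebraMap K v.toValuationSubring c = 0
  · rw [h0]
    have hfc : f = algebraMap K F c := by
      have := congrArg Subtype.val h0
      simpa [sub_eq_zero] using this
    simp [hfc]
  · rw [← Fermat.Agent.S24.Places.ord_pos_iff_mem_maximalIdeal v h0]
    have hfc : f ≠ algebraMap K F c := by
      intro h
      apply h0
      apply Subtype.ext
      simp [h]
    simp only [hfc, false_or]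
    rfl

theorem evalHom_surjective : Function.Surjective (evalHom v hv) := fun c =>
  ⟨algebraMap K v.toValuationSubring c, evalHom_algebraMap v hv c⟩

/-- Elements of value `0` are divisible by a uniformizer. -/
theorem exists_eq_mul_of_evalHom_eq_zero (t : v.toValuationSubring) (ht : v.ord (t : F) = 1)
    (a : v.toValuationSubring) (ha : evalHom v hv a = 0) : ∃ b : v.toValuationSubring, a = t * b := by
  rcases eq_or_ne a 0 with rfl | ha0
  · exact ⟨0, by simp⟩
  have ht0 : (t : F) ≠ 0 := by
    intro h
    rw [h] at ht
    simp at ht
  have haF : (a : F) ≠ 0 := by simpa using ha0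
  have hpos : 0 < v.ord (a : F) :=
    (Fermat.Agent.S24.Places.ord_pos_iff_mem_maximalIdeal v ha0).mpr
      ((evalHom_eq_zero_iff v hv a).mp ha)
  have hb : (a : F) * (t : F)⁻¹ ∈ v.toValuationSubring := by
    rw [Fermat.Agent.S24.Places.mem_iff_ord_nonneg v (mul_ne_zero haF (inv_ne_zero ht0)),
      v.ord_mul haF (inv_ne_zero ht0), v.ord_inv, ht]
    omega
  refine ⟨⟨_, hb⟩, Subtype.ext ?_⟩
  show (a : F) = (t : F) * ((a : F) * (t : F)⁻¹)
  field_simp

theorem evalHom_uniformizer (t : v.toValuationSubring) (ht : v.ord (t : F) = 1) :
    evalHom v hv t = 0 := by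
  rw [evalHom_eq_zero_iff]
  have ht0 : t ≠ 0 := by
    rintro rfl
    simp at ht
  rw [← Fermat.Agent.S24.Places.ord_pos_iff_mem_maximalIdeal v ht0, ht]
  exact one_pos

end Eval

section Roots

variable {L k : Type*} [Field L] [Field k]

/-- **Reduction of roots.** Let `A` be a valuation ring of an algebraically closed field `L`,
`res : A →+* k` a ring homomorphism to a field and `p` a monic polynomial over `A` whose reduction
is separable.  Then the roots of `p` in `L` lie in `A`, and reduce bijectively onto the roots of
the reduction of `p`. -/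
theorem exists_roots [IsAlgClosed L] (A : ValuationSubring L) (res : A →+* k) (p : A[X])
    (hp : p.Monic) (hsep : (p.map res).Separable) :
    ∃ α : Fin p.natDegree → A, Function.Injective (fun i => res (α i)) ∧
      (∀ x : L, (p.map A.subtype).IsRoot x ↔ ∃ i, x = (α i : L)) ∧
      (∀ z : k, (p.map res).IsRoot z ↔ ∃ i, z = res (α i)) ∧
      p = ∏ i, (X - C (α i)) := by
  classical
  set pL : L[X] := p.map A.subtype with hpL
  have hpLm : pL.Monic := hp.map _
  have hsplit : pL.Splits := IsAlgClosed.splits pL
  -- the roots lie in `A`
  have hmem : ∀ x ∈ pL.roots, x ∈ A := by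
    intro x hx
    have hroot : pL.IsRoot x := (mem_roots hpLm.ne_zero).mp hx
    have hint : IsIntegral A x := by
      refine ⟨p, hp, ?_⟩
      have : eval₂ (algebraMap A L) x p = eval x (p.map (algebraMap A L)) := (eval_map _ _).symm
      rw [this]
      exact hroot
    obtain ⟨y, hy⟩ := (IsIntegrallyClosed.isIntegral_iff (R := A) (K := L)).mp hint
    rw [← hy]
    exact y.2
  -- lift the multiset of roots to `A`
  set m : Multiset A := pL.roots.pmap (fun x hx => (⟨x, hx⟩ : A)) hmem with hm
  have hmmap : m.map (fun a : A => (a : L)) = pL.roots := by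
    rw [hm, Multiset.map_pmap]
    simp only [Multiset.pmap_eq_map, Multiset.map_id']
  have hcard : Multiset.card m = p.natDegree := by
    rw [hm, Multiset.card_pmap, ← hsplit.natDegree_eq_card_roots, hpL, hp.natDegree_map]
  have hprodL : pL = (pL.roots.map fun a => X - C a).prod := by
    have h := hsplit.eq_prod_roots
    rw [hpLm.leadingCoeff, C_1, one_mul] at h
    exact h
  have hprodA : p = (m.map fun a => X - C a).prod := by
    apply Polynomial.map_injective A.subtype Subtype.val_injective
    rw [← hpL, Polynomial.map_multiset_prod, Multiset.map_map]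
    conv_lhs => rw [hprodL, ← hmmap, Multiset.map_map]
    congr 1
    refine Multiset.map_congr rfl fun a _ => ?_
    simp
  have hprodk : p.map res = ((m.map res).map fun a => X - C a).prod := by
    conv_lhs => rw [hprodA]
    rw [Polynomial.map_multiset_prod, Multiset.map_map, Multiset.map_map]
    congr 1
    refine Multiset.map_congr rfl fun a _ => ?_
    simp
  have hrootsk : (p.map res).roots = m.map res := by
    rw [hprodk, roots_multiset_prod_X_sub_C]
  have hnodup : (m.map res).Nodup := by
    rw [← hrootsk]
    exact nodup_roots hsep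
  -- enumerate
  obtain ⟨l, hl⟩ := Quot.exists_rep m
  have hlm : (l : Multiset A) = m := hl
  have hlen : l.length = p.natDegree := by
    rw [← hcard, ← hlm]; rfl
  have hlnodup : (l.map res).Nodup := by
    have : ((l : Multiset A).map res) = ((l.map res : List k) : Multiset k) := rfl
    rw [← hlm, this] at hnodup
    exact Multiset.coe_nodup.mp hnodup
  refine ⟨fun i => l.get (i.cast hlen.symm), ?_, ?_, ?_, ?_⟩
  · intro i j hij
    have h1 : (l.map res).get ((i.cast hlen.symm).cast (List.length_map res).symm) =
        (l.map res).get ((j.cast hlen.symm).cast (List.length_map res).symm) := by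
      simpa using hij
    have h2 := (List.Nodup.get_inj_iff hlnodup).mp h1
    have h3 : (i.cast hlen.symm) = (j.cast hlen.symm) := by
      apply Fin.ext
      have := congrArg Fin.val h2
      simpa using this
    exact Fin.cast_injective _ h3
  · intro x
    rw [← mem_roots hpLm.ne_zero, ← hmmap, ← hlm]
    constructor
    · intro hx
      obtain ⟨a, ha, rfl⟩ := Multiset.mem_map.mp hx
      obtain ⟨n, hn⟩ := List.mem_iff_get.mp (Multiset.mem_coe.mp ha)
      exact ⟨n.cast hlen, by rw [← hn]; rfl⟩
    · rintro ⟨i, rfl⟩
      exact Multiset.mem_map.mpr ⟨_, Multiset.mem_coe.mpr (List.get_mem _ _), rfl⟩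
  · intro z
    have hne : p.map res ≠ 0 := (hp.map res).ne_zero
    rw [← mem_roots hne, hrootsk, ← hlm]
    constructor
    · intro hz
      obtain ⟨a, ha, rfl⟩ := Multiset.mem_map.mp hz
      obtain ⟨n, hn⟩ := List.mem_iff_get.mp (Multiset.mem_coe.mp ha)
      exact ⟨n.cast hlen, by rw [← hn]; rfl⟩
    · rintro ⟨i, rfl⟩
      exact Multiset.mem_map.mpr ⟨_, Multiset.mem_coe.mpr (List.get_mem _ _), rfl⟩
  · have hprod : (m.map fun a => X - C a).prod =
        ∏ i : Fin p.natDegree, (X - C (l.get (i.cast hlen.symm))) := by
      rw [← hlm]
      have h1 : ((l : Multiset A).map fun a => X - C a).prod = (l.map fun a => X - C a).prod := by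
        simp
      rw [h1]
      have h2 : (l.map fun a => (X - C a : A[X])).prod = ∏ i : Fin l.length, (X - C (l.get i)) := by
        conv_lhs => rw [← List.ofFn_get l, List.map_ofFn, List.prod_ofFn]
        rfl
      rw [h2]
      refine Fintype.prod_equiv (finCongr hlen) _ _ fun i => ?_
      simp
    exact hprodA.trans hprod

end Roots

end

end Fermat.Agent.S18.UpB
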