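import Mathlib
import Fermat.Agent.S18.UpBase
import Fermat.Agent.S18.Tube

/-!
# S18, chain U: the tube lemmas for elements of an abstract Gauss valuation ring

`Tube.lean` proves the tube lemmas for Gauss-integral `q`-expansions at full level from the
frozen reduction property.  Here the same arguments are run abstractly: `V ⊂ F` is a valuation
ring with a reduction homomorphism `rho : V →+* Fb` extending `res : A →+* k` on constants, and
`r` is a map on places satisfying the divisor compatibility `(*)` for all elements of `V` with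
nonzero reduction.

* `TubeV.reg` — a function of `V` without poles on the fibre of `r` over `Q` has a reduction
  regular at `Q`.
* `TubeV.value` — the value at `P` of a function of `V` regular on the tube of `r P` lies in `A`
  and reduces to the value of the reduced function at `r P`.
-/

set_option autoImplicit false

noncomputable section

namespace Fermat.Agent.S18.TubeV

open AlgebraicCurve

variable {L F k Fb : Type*} [Field L] [Field F] [Algebra L F] [Field k] [Field Fb] [Algebra k Fb]

/-- Nonnegativity of the order of the reduction at `Q`, when no pole reduces to `Q`. -/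
theorem ord_rho_nonneg (V : ValuationSubring F) (rho : V →+* Fb) (r : Place L F → Place k Fb)
    (hstar : ∀ x : V, rho x ≠ 0 → ∀ D : Divisor L F, (∀ P, D P = P.ord (x : F)) →
      ∀ Q, Finsupp.mapDomain r D Q = Q.ord (rho x))
    (hdiv : ∀ f : F, f ≠ 0 → ∃ D : Divisor L F, ∀ v, D v = v.ord f)
    (y : V) (Q : Place k Fb)
    (hreg : ∀ P', r P' = Q → (y : F) = 0 ∨ 0 ≤ P'.ord (y : F)) :
    0 ≤ Q.ord (rho y) := by
  by_cases hne : rho y = 0
  · rw [hne, Place.ord_zero]
  have hy0 : (y : F) ≠ 0 := by
    intro h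
    apply hne
    have : y = 0 := Subtype.ext h
    rw [this, map_zero]
  obtain ⟨D, hD⟩ := hdiv _ hy0
  rw [← hstar y hne D hD Q, Tube.mapDomain_apply_eq]
  refine Finset.sum_nonneg fun P' _ => ?_
  split_ifs with h
  · rw [hD]; exact (hreg P' h).resolve_left hy0
  · exact le_rfl

/-- A zero in the tube of `r P` gives a zero of the reduction at `r P`. -/
theorem ord_rho_pos (V : ValuationSubring F) (rho : V →+* Fb) (r : Place L F → Place k Fb)
    (hstar : ∀ x : V, rho x ≠ 0 → ∀ D : Divisor L F, (∀ P, D P = P.ord (x : F)) →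
      ∀ Q, Finsupp.mapDomain r D Q = Q.ord (rho x))
    (hdiv : ∀ f : F, f ≠ 0 → ∃ D : Divisor L F, ∀ v, D v = v.ord f)
    (y : V) (hne : rho y ≠ 0) (P : Place L F)
    (hreg : ∀ P', r P' = r P → 0 ≤ P'.ord (y : F))
    (hP : 0 < P.ord (y : F)) :
    0 < (r P).ord (rho y) := by
  have hy0 : (y : F) ≠ 0 := by
    intro h
    apply hne
    have : y = 0 := Subtype.ext h
    rw [this, map_zero]
  obtain ⟨D, hD⟩ := hdiv _ hy0
  rw [← hstar y hne D hD (r P), Tube.mapDomain_apply_eq]
  have hPs : P ∈ D.support := by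
    rw [Finsupp.mem_support_iff, hD]; omega
  refine Finset.sum_pos' (fun P' _ => ?_) ⟨P, hPs, ?_⟩
  · split_ifs with h
    · rw [hD]; exact hreg P' h
    · exact le_rfl
  · rw [if_pos rfl, hD]; exact hP

/-- **Regularity of the reduction.** If no pole of `y ∈ V` reduces to `Q`, the reduction of `y`
is regular at `Q`. -/
theorem reg (V : ValuationSubring F) (rho : V →+* Fb) (r : Place L F → Place k Fb)
    (hstar : ∀ x : V, rho x ≠ 0 → ∀ D : Divisor L F, (∀ P, D P = P.ord (x : F)) →
      ∀ Q, Finsupp.mapDomain r D Q = Q.ord (rho x))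
    (hdiv : ∀ f : F, f ≠ 0 → ∃ D : Divisor L F, ∀ v, D v = v.ord f)
    (y : V) (Q : Place k Fb)
    (hreg : ∀ P', r P' = Q → (y : F) ∈ P'.toValuationSubring) :
    rho y ∈ Q.toValuationSubring := by
  rw [Fermat.Agent.S20.RR.mem_valuationSubring_iff]
  right
  exact ord_rho_nonneg V rho r hstar hdiv y Q fun P' hP' =>
    (Fermat.Agent.S20.RR.mem_valuationSubring_iff P').mp (hreg P' hP')

/-- **Integrality of values.** If `y ∈ V` takes the value `c` at `P` and no pole of `y` reduces
to `r P`, then `c ∈ A`. -/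
theorem value_mem (A : ValuationSubring L) (res : A →+* k)
    (hres : ∀ a : A, res a = 0 ↔ a ∈ IsLocalRing.maximalIdeal A)
    (V : ValuationSubring F) (rho : V →+* Fb)
    (hVA : ∀ c : L, algebraMap L F c ∈ V ↔ c ∈ A)
    (hrho : ∀ (a : A) (h : algebraMap L F (a : L) ∈ V), rho ⟨_, h⟩ = algebraMap k Fb (res a))
    (r : Place L F → Place k Fb)
    (hstar : ∀ x : V, rho x ≠ 0 → ∀ D : Divisor L F, (∀ P, D P = P.ord (x : F)) →
      ∀ Q, Finsupp.mapDomain r D Q = Q.ord (rho x))
    (hdiv : ∀ f : F, f ≠ 0 → ∃ D : Divisor L F, ∀ v, D v = v.ord f)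
    (y : V) (P : Place L F) (c : L)
    (hreg : ∀ P', r P' = r P → (y : F) ∈ P'.toValuationSubring)
    (hPc : (y : F) = algebraMap L F c ∨ 0 < P.ord ((y : F) - algebraMap L F c)) :
    c ∈ A := by
  by_contra hc
  have hc0 : c ≠ 0 := fun h => hc (h ▸ A.zero_mem)
  have hinv : c⁻¹ ∈ A := (A.mem_or_inv_mem c).resolve_left hc
  set b : A := ⟨c⁻¹, hinv⟩ with hb
  have hbres : res b = 0 := by
    rw [hres, IsLocalRing.mem_maximalIdeal, mem_nonunits_iff]
    intro hu
    obtain ⟨d, hd⟩ := hu.exists_right_inv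
    have hd' : c⁻¹ * (d : L) = 1 := by
      have := congrArg Subtype.val hd
      simpa [hb] using this
    have hdc : (d : L) = c := by
      field_simp at hd'
      exact hd'
    exact hc (hdc ▸ d.2)
  have hbV : algebraMap L F ((b : A) : L) ∈ V := (hVA _).mpr b.2
  set bV : V := ⟨algebraMap L F ((b : A) : L), hbV⟩ with hbVdef
  have hrhob : rho bV = 0 := by
    rw [hbVdef, hrho b hbV, hbres, map_zero]
  set y' : V := bV * y - 1 with hy'
  have hrho' : rho y' = -1 := by
    rw [hy', map_sub, map_mul, map_one, hrhob, zero_mul, zero_sub]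
  have hne : rho y' ≠ 0 := by
    rw [hrho']; exact neg_ne_zero.mpr one_ne_zero
  have hval : (y' : F) = algebraMap L F c⁻¹ * ((y : F) - algebraMap L F c) := by
    have h1 : (y' : F) = algebraMap L F c⁻¹ * (y : F) - 1 := rfl
    rw [h1, mul_sub, ← map_mul, inv_mul_cancel₀ hc0, map_one]
  have hy'0 : (y' : F) ≠ 0 := by
    intro h
    apply hne
    have : y' = 0 := Subtype.ext h
    rw [this, map_zero]
  have hpos : 0 < (r P).ord (rho y') := by
    refine ord_rho_pos V rho r hstar hdiv y' hne P (fun P' hP' => ?_) ?_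
    · rw [hval, Tube.ord_const_mul _ (inv_ne_zero hc0)]
      have h0 : (y : F) - algebraMap L F c ∈ P'.toValuationSubring :=
        P'.toValuationSubring.sub_mem (hreg P' hP') (P'.algebraMap_mem' c)
      rcases (Fermat.Agent.S20.RR.mem_valuationSubring_iff P').mp h0 with h | h
      · rw [h, Place.ord_zero]
      · exact h
    · rw [hval, Tube.ord_const_mul _ (inv_ne_zero hc0)]
      rcases hPc with h | h
      · exfalso
        apply hy'0
        rw [hval, h, sub_self, mul_zero]
      · exact h
  have hzero : (r P).ord (rho y') = 0 := by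
    rw [hrho', Tube.ord_neg_one]
  omega

/-- **Reduction of values.** In the situation of `value_mem`, the reduction of `y` takes the
value `res a` at `r P`. -/
theorem value_red (A : ValuationSubring L) (res : A →+* k)
    (V : ValuationSubring F) (rho : V →+* Fb)
    (hVA : ∀ c : L, algebraMap L F c ∈ V ↔ c ∈ A)
    (hrho : ∀ (a : A) (h : algebraMap L F (a : L) ∈ V), rho ⟨_, h⟩ = algebraMap k Fb (res a))
    (r : Place L F → Place k Fb)
    (hstar : ∀ x : V, rho x ≠ 0 → ∀ D : Divisor L F, (∀ P, D P = P.ord (x : F)) →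
      ∀ Q, Finsupp.mapDomain r D Q = Q.ord (rho x))
    (hdiv : ∀ f : F, f ≠ 0 → ∃ D : Divisor L F, ∀ v, D v = v.ord f)
    (y : V) (P : Place L F) (a : A)
    (hreg : ∀ P', r P' = r P → (y : F) ∈ P'.toValuationSubring)
    (hPa : (y : F) = algebraMap L F (a : L) ∨ 0 < P.ord ((y : F) - algebraMap L F (a : L))) :
    rho y = algebraMap k Fb (res a) ∨ 0 < (r P).ord (rho y - algebraMap k Fb (res a)) := by
  have haV : algebraMap L F (a : L) ∈ V := (hVA _).mpr a.2
  set aV : V := ⟨algebraMap L F (a : L), haV⟩ with haVdef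
  have hrhoa : rho aV = algebraMap k Fb (res a) := by
    rw [haVdef, hrho a haV]
  set y' : V := y - aV with hy'
  have hrho' : rho y' = rho y - algebraMap k Fb (res a) := by
    rw [hy', map_sub, hrhoa]
  have hval : (y' : F) = (y : F) - algebraMap L F (a : L) := rfl
  by_cases hne : rho y' = 0
  · left
    rw [hrho', sub_eq_zero] at hne
    exact hne
  · right
    have hy'0 : (y' : F) ≠ 0 := by
      intro h
      apply hne
      have : y' = 0 := Subtype.ext h
      rw [this, map_zero]
    rw [← hrho']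
    refine ord_rho_pos V rho r hstar hdiv y' hne P (fun P' hP' => ?_) ?_
    · rw [hval]
      have h0 : (y : F) - algebraMap L F (a : L) ∈ P'.toValuationSubring :=
        P'.toValuationSubring.sub_mem (hreg P' hP') (P'.algebraMap_mem' (a : L))
      rcases (Fermat.Agent.S20.RR.mem_valuationSubring_iff P').mp h0 with h | h
      · rw [h, Place.ord_zero]
      · exact h
    · rcases hPa with h | h
      · exfalso
        apply hy'0
        rw [hval, h, sub_self]
      · rw [hval]; exact h

/-- **Tube lemma for values, in the `evalHom` language.** If `y ∈ V` is regular on the whole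
fibre of `r` over `r P`, its value at `P` lies in `A`, the reduction of `y` is regular at `r P`
and its value there is the reduction of the value of `y` at `P`. -/
theorem value (A : ValuationSubring L) (res : A →+* k)
    (hres : ∀ a : A, res a = 0 ↔ a ∈ IsLocalRing.maximalIdeal A)
    (V : ValuationSubring F) (rho : V →+* Fb)
    (hVA : ∀ c : L, algebraMap L F c ∈ V ↔ c ∈ A)
    (hrho : ∀ (a : A) (h : algebraMap L F (a : L) ∈ V), rho ⟨_, h⟩ = algebraMap k Fb (res a))
    (r : Place L F → Place k Fb)
    (hstar : ∀ x : V, rho x ≠ 0 → ∀ D : Divisor L F, (∀ P, D P = P.ord (x : F)) →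
      ∀ Q, Finsupp.mapDomain r D Q = Q.ord (rho x))
    (hdiv : ∀ f : F, f ≠ 0 → ∃ D : Divisor L F, ∀ v, D v = v.ord f)
    (hL : ∀ P : Place L F, Function.Surjective (algebraMap L P.ResidueField))
    (hk : ∀ Q : Place k Fb, Function.Surjective (algebraMap k Q.ResidueField))
    (y : V) (P : Place L F)
    (hreg : ∀ P', r P' = r P → (y : F) ∈ P'.toValuationSubring) :
    ∃ (a : A) (hq : rho y ∈ (r P).toValuationSubring),
      UpB.evalHom P (hL P) ⟨(y : F), hreg P rfl⟩ = (a : L) ∧
      UpB.evalHom (r P) (hk (r P)) ⟨rho y, hq⟩ = res a := by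
  have hPc := (UpB.evalHom_eq_iff_ord P (hL P) (hreg P rfl)
    (UpB.evalHom P (hL P) ⟨(y : F), hreg P rfl⟩)).mp rfl
  have hcA := value_mem A res hres V rho hVA hrho r hstar hdiv y P _ hreg hPc
  have hq : rho y ∈ (r P).toValuationSubring := reg V rho r hstar hdiv y (r P) hreg
  refine ⟨⟨_, hcA⟩, hq, rfl, ?_⟩
  rw [UpB.evalHom_eq_iff_ord (r P) (hk (r P)) hq]
  exact value_red A res V rho hVA hrho r hstar hdiv y P ⟨_, hcA⟩ hreg hPc

/-- Variant of `value` with the value prescribed: if `y ∈ V`, regular on the tube of `r P`, takes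
the value `(a : L)` at `P` with `a ∈ A`, then the reduction takes the value `res a` at `r P`. -/
theorem value_of_eq (A : ValuationSubring L) (res : A →+* k)
    (V : ValuationSubring F) (rho : V →+* Fb)
    (hVA : ∀ c : L, algebraMap L F c ∈ V ↔ c ∈ A)
    (hrho : ∀ (a : A) (h : algebraMap L F (a : L) ∈ V), rho ⟨_, h⟩ = algebraMap k Fb (res a))
    (r : Place L F → Place k Fb)
    (hstar : ∀ x : V, rho x ≠ 0 → ∀ D : Divisor L F, (∀ P, D P = P.ord (x : F)) →
      ∀ Q, Finsupp.mapDomain r D Q = Q.ord (rho x))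
    (hdiv : ∀ f : F, f ≠ 0 → ∃ D : Divisor L F, ∀ v, D v = v.ord f)
    (hL : ∀ P : Place L F, Function.Surjective (algebraMap L P.ResidueField))
    (hk : ∀ Q : Place k Fb, Function.Surjective (algebraMap k Q.ResidueField))
    (y : V) (P : Place L F)
    (hreg : ∀ P', r P' = r P → (y : F) ∈ P'.toValuationSubring) (a : A)
    (ha : UpB.evalHom P (hL P) ⟨(y : F), hreg P rfl⟩ = (a : L)) :
    ∃ hq : rho y ∈ (r P).toValuationSubring,
      UpB.evalHom (r P) (hk (r P)) ⟨rho y, hq⟩ = res a := by
  have hPa := (UpB.evalHom_eq_iff_ord P (hL P) (hreg P rfl) (a : L)).mp ha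
  have hq : rho y ∈ (r P).toValuationSubring := reg V rho r hstar hdiv y (r P) hreg
  refine ⟨hq, ?_⟩
  rw [UpB.evalHom_eq_iff_ord (r P) (hk (r P)) hq]
  exact value_red A res V rho hVA hrho r hstar hdiv y P a hreg hPa

/-- A zero in the tube: if `y ∈ V` is regular on the tube of `r P` and vanishes at `P`, then its
reduction vanishes at `r P`. -/
theorem value_zero (V : ValuationSubring F) (rho : V →+* Fb) (r : Place L F → Place k Fb)
    (hstar : ∀ x : V, rho x ≠ 0 → ∀ D : Divisor L F, (∀ P, D P = P.ord (x : F)) →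
      ∀ Q, Finsupp.mapDomain r D Q = Q.ord (rho x))
    (hdiv : ∀ f : F, f ≠ 0 → ∃ D : Divisor L F, ∀ v, D v = v.ord f)
    (hL : ∀ P : Place L F, Function.Surjective (algebraMap L P.ResidueField))
    (hk : ∀ Q : Place k Fb, Function.Surjective (algebraMap k Q.ResidueField))
    (y : V) (P : Place L F)
    (hreg : ∀ P', r P' = r P → (y : F) ∈ P'.toValuationSubring)
    (h0 : UpB.evalHom P (hL P) ⟨(y : F), hreg P rfl⟩ = 0) :
    ∃ hq : rho y ∈ (r P).toValuationSubring,
      UpB.evalHom (r P) (hk (r P)) ⟨rho y, hq⟩ = 0 := by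
  have hq : rho y ∈ (r P).toValuationSubring := reg V rho r hstar hdiv y (r P) hreg
  refine ⟨hq, ?_⟩
  by_cases hne : rho y = 0
  · have : (⟨rho y, hq⟩ : (r P).toValuationSubring) = 0 := Subtype.ext hne
    rw [this, map_zero]
  have hP0 := (UpB.evalHom_eq_iff_ord P (hL P) (hreg P rfl) (0 : L)).mp h0
  rw [map_zero, sub_zero] at hP0
  have hy0 : (y : F) ≠ 0 := by
    intro h
    apply hne
    have : y = 0 := Subtype.ext h
    rw [this, map_zero]
  have hpos : 0 < (r P).ord (rho y) :=
    ord_rho_pos V rho r hstar hdiv y hne P (fun P' hP' =>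
      ((Fermat.Agent.S20.RR.mem_valuationSubring_iff P').mp (hreg P' hP')).resolve_left hy0)
      (hP0.resolve_left hy0)
  rw [UpB.evalHom_eq_iff_ord (r P) (hk (r P)) hq, map_zero, sub_zero]
  exact Or.inr hpos

end Fermat.Agent.S18.TubeV
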