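/-
S18, chain U, leaf U-BAD: the finite "bad sets" of places for a generic point.

Generic over a function field `F / K` in the `Place` language, from the single hypothesis that
every nonzero function has a divisor (`hdiv`):

* `finite_poles` : a function has finitely many poles;
* `exists_finset_coeff_mem`, `exists_finset_lift` : outside a finite set of places all coefficients
  of a polynomial `p : F[X]` are regular, i.e. `p` comes from a polynomial over the valuation ring;
* `exists_finset_separable` : if `p` is separable then outside a finite set of places `p` is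
  regular and its specialisation (coefficientwise value at the place) is separable.
  Proof: a Bezout certificate `a * p + b * p' = 1` specialises wherever `a`, `b`, `p` are regular.
-/
import Mathlib
import Fermat.Agent.S18.UpBase
import Fermat.Agent.S24.Places

set_option autoImplicit false

open AlgebraicCurve Polynomial

namespace Fermat.Agent.S18.UBad

noncomputable section

variable {K F : Type*} [Field K] [Field F] [Algebra K F]

/-- A function has finitely many poles. -/
theorem finite_poles (hdiv : ∀ f : F, f ≠ 0 → ∃ D : Divisor K F, ∀ v, D v = v.ord f) (f : F) :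
    {v : Place K F | v.ord f < 0}.Finite := by
  by_cases hf : f = 0
  · subst hf
    have h : {v : Place K F | v.ord (0 : F) < 0} = ∅ := by
      ext v
      simp [Place.ord_zero]
    rw [h]
    exact Set.finite_empty
  · obtain ⟨D, hD⟩ := hdiv f hf
    refine D.support.finite_toSet.subset ?_
    intro v hv
    have hv' : v.ord f < 0 := hv
    rw [Finset.mem_coe, Finsupp.mem_support_iff, hD]
    omega

/-- A function has finitely many zeros. -/
theorem finite_zeros (hdiv : ∀ f : F, f ≠ 0 → ∃ D : Divisor K F, ∀ v, D v = v.ord f) (f : F) :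
    {v : Place K F | 0 < v.ord f}.Finite := by
  by_cases hf : f = 0
  · subst hf
    have h : {v : Place K F | 0 < v.ord (0 : F)} = ∅ := by
      ext v
      simp [Place.ord_zero]
    rw [h]
    exact Set.finite_empty
  · obtain ⟨D, hD⟩ := hdiv f hf
    refine D.support.finite_toSet.subset ?_
    intro v hv
    have hv' : 0 < v.ord f := hv
    rw [Finset.mem_coe, Finsupp.mem_support_iff, hD]
    omega

/-- A function is regular at every place which is not one of its poles. -/
theorem mem_of_not_pole (v : Place K F) (f : F) (h : ¬ v.ord f < 0) :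
    f ∈ v.toValuationSubring := by
  by_cases hf : f = 0
  · rw [hf]
    exact zero_mem _
  · exact (Fermat.Agent.S24.Places.mem_iff_ord_nonneg v hf).mpr (not_lt.mp h)

/-- Finitely many functions are simultaneously regular outside a finite set of places. -/
theorem exists_finset_mem (hdiv : ∀ f : F, f ≠ 0 → ∃ D : Divisor K F, ∀ v, D v = v.ord f)
    (s : Finset F) : ∃ T : Finset (Place K F), ∀ v ∉ T, ∀ f ∈ s, f ∈ v.toValuationSubring := by
  classical
  have hfin : (⋃ f ∈ s, {v : Place K F | v.ord f < 0}).Finite :=
    Set.Finite.biUnion s.finite_toSet fun f _ => finite_poles hdiv f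
  refine ⟨hfin.toFinset, fun v hv f hf => mem_of_not_pole v f fun hpole => hv ?_⟩
  rw [Set.Finite.mem_toFinset]
  exact Set.mem_biUnion hf hpole

/-- Outside a finite set of places all coefficients of a polynomial are regular. -/
theorem exists_finset_coeff_mem (hdiv : ∀ f : F, f ≠ 0 → ∃ D : Divisor K F, ∀ v, D v = v.ord f)
    (p : F[X]) : ∃ T : Finset (Place K F), ∀ v ∉ T, ∀ i, p.coeff i ∈ v.toValuationSubring := by
  classical
  obtain ⟨T, hT⟩ := exists_finset_mem hdiv (p.support.image p.coeff)
  refine ⟨T, fun v hv i => ?_⟩
  by_cases hi : p.coeff i = 0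
  · rw [hi]
    exact zero_mem _
  · exact hT v hv _ (Finset.mem_image_of_mem _ (Polynomial.mem_support_iff.mpr hi))

/-- A polynomial with regular coefficients comes from the valuation ring. -/
theorem exists_lift (v : Place K F) (p : F[X]) (h : ∀ i, p.coeff i ∈ v.toValuationSubring) :
    ∃ q : v.toValuationSubring[X], q.map v.toValuationSubring.subtype = p := by
  have h1 : p ∈ Polynomial.lifts v.toValuationSubring.subtype := by
    rw [Polynomial.lifts_iff_coeff_lifts]
    intro i
    exact ⟨⟨p.coeff i, h i⟩, rfl⟩
  exact (Polynomial.mem_lifts p).mp h1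

/-- Outside a finite set of places a polynomial comes from the valuation ring. -/
theorem exists_finset_lift (hdiv : ∀ f : F, f ≠ 0 → ∃ D : Divisor K F, ∀ v, D v = v.ord f)
    (p : F[X]) : ∃ T : Finset (Place K F), ∀ v ∉ T,
      ∃ q : v.toValuationSubring[X], q.map v.toValuationSubring.subtype = p := by
  obtain ⟨T, hT⟩ := exists_finset_coeff_mem hdiv p
  exact ⟨T, fun v hv => exists_lift v p (hT v hv)⟩

/-- The same for a polynomial over a subring of `F`, e.g. a Gauss valuation ring `V`. -/
theorem exists_finset_coeff_mem_of_subring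
    (hdiv : ∀ f : F, f ≠ 0 → ∃ D : Divisor K F, ∀ v, D v = v.ord f)
    {S : Type*} [SetLike S F] [SubringClass S F] (V : S) (g : (V : Type _)[X]) :
    ∃ T : Finset (Place K F), ∀ v ∉ T, ∀ i, ((g.coeff i : V) : F) ∈ v.toValuationSubring := by
  obtain ⟨T, hT⟩ := exists_finset_coeff_mem hdiv (g.map (SubringClass.subtype V))
  refine ⟨T, fun v hv i => ?_⟩
  have := hT v hv i
  rwa [Polynomial.coeff_map] at this

/-- Specialisation of a Bezout certificate: if `a * p + b * p' = 1` over `F` and `a`, `b`, `p` come
from the valuation ring of `Q`, then the specialisation of `p` at `Q` is separable. -/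
theorem separable_map_of_lifts {R k : Type*} [CommRing R] [CommRing k] (ι : R →+* F)
    (hι : Function.Injective ι) (ev : R →+* k) {p a b : F[X]}
    (hab : a * p + b * derivative p = 1) (q a' b' : R[X]) (hq : q.map ι = p) (ha : a'.map ι = a)
    (hb : b'.map ι = b) : (q.map ev).Separable := by
  have h1 : a' * q + b' * derivative q = 1 := by
    apply Polynomial.map_injective ι hι
    rw [Polynomial.map_add, Polynomial.map_mul, Polynomial.map_mul, ← Polynomial.derivative_map,
      hq, ha, hb, hab, Polynomial.map_one]
  refine ⟨a'.map ev, b'.map ev, ?_⟩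
  rw [Polynomial.derivative_map, ← Polynomial.map_mul, ← Polynomial.map_mul, ← Polynomial.map_add,
    h1, Polynomial.map_one]

/-- **Separable specialisation** (`∀`-form): for a separable `p : F[X]` there is a finite set of
places outside of which every model of `p` over the valuation ring has separable
specialisation. -/
theorem exists_finset_forall_separable
    (hdiv : ∀ f : F, f ≠ 0 → ∃ D : Divisor K F, ∀ v, D v = v.ord f)
    (hk : ∀ Q : Place K F, Function.Surjective (algebraMap K Q.ResidueField))
    (p : F[X]) (hp : p.Separable) :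
    ∃ Tb : Finset (Place K F), ∀ Q ∉ Tb, ∀ q : Q.toValuationSubring[X],
      q.map Q.toValuationSubring.subtype = p → (q.map (UpB.evalHom Q (hk Q))).Separable := by
  classical
  obtain ⟨a, b, hab⟩ := hp
  obtain ⟨Ta, hTa⟩ := exists_finset_lift hdiv a
  obtain ⟨Tb, hTb⟩ := exists_finset_lift hdiv b
  refine ⟨Ta ∪ Tb, fun Q hQ q hq => ?_⟩
  rw [Finset.mem_union, not_or] at hQ
  obtain ⟨a', ha'⟩ := hTa Q hQ.1
  obtain ⟨b', hb'⟩ := hTb Q hQ.2
  exact separable_map_of_lifts Q.toValuationSubring.subtype Subtype.val_injective
    (UpB.evalHom Q (hk Q)) hab q a' b' hq ha' hb'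

/-- **Separable specialisation** (`∃`-form): for a separable `p : F[X]`, outside a finite set of
places `p` has a model over the valuation ring, and its specialisation is separable. -/
theorem exists_finset_separable
    (hdiv : ∀ f : F, f ≠ 0 → ∃ D : Divisor K F, ∀ v, D v = v.ord f)
    (hk : ∀ Q : Place K F, Function.Surjective (algebraMap K Q.ResidueField))
    (p : F[X]) (hp : p.Separable) :
    ∃ Tb : Finset (Place K F), ∀ Q ∉ Tb, (∀ i, p.coeff i ∈ Q.toValuationSubring) ∧
      ∃ q : Q.toValuationSubring[X], q.map Q.toValuationSubring.subtype = p ∧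
        (q.map (UpB.evalHom Q (hk Q))).Separable := by
  classical
  obtain ⟨T1, hT1⟩ := exists_finset_forall_separable hdiv hk p hp
  obtain ⟨T2, hT2⟩ := exists_finset_coeff_mem hdiv p
  refine ⟨T1 ∪ T2, fun Q hQ => ?_⟩
  rw [Finset.mem_union, not_or] at hQ
  obtain ⟨q, hq⟩ := exists_lift Q p (hT2 Q hQ.2)
  exact ⟨hT2 Q hQ.2, q, hq, hT1 Q hQ.1 q hq⟩

end

end Fermat.Agent.S18.UBad
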