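import Mathlib
import Fermat.Agent.S18.UMulti
import Fermat.Agent.S18.UMain
import Fermat.Agent.S18.UpNorm
import Fermat.Agent.S18.UpBase
import Fermat.Agent.S20.RRBasic

/-!
# S18, chain U: Theorem U at an auxiliary level (relative form)

`URel.false_of_relIntegral_eq_bot` / `URel.false_of_isEval` instantiate the abstract multi-block
lemma `UMulti.false_of_blocks` for a finite extension `F' / F` of function fields (and
`Fb' / Fb` on the special fibre) WITHOUT any place of `F'`: the Riemann–Roch spaces are the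
relative spaces `{x : F' | UpN.RelIntegral G x}` (`G` a divisor of `F`), and "residues" at the
points of `F'` above a generic point `P p` of `F` are given by an abstract evaluation relation
`Ev p α y a` (`α` runs over the points above `P p`), see `IsEval`.

Tools: algebra of `UpN.RelIntegral` (`relIntegral_add/mul/smul/mono/of_le/drop/prod/base`),
`relSpace G` (the relative space as a submodule), `latS A V hAV S = S ∩ V` as an `A`-module with
the cartesian property `mem_smul_top_iff`, `resMap` (the residue map),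
`exists_const_of_relIntegral_zero`, `mapDomain_ptDiv`, `degree_ptDiv`.
-/

set_option autoImplicit false
set_option linter.unusedSectionVars false

noncomputable section

namespace Fermat.Agent.S18.URel

open AlgebraicCurve IsLocalRing WithZero
open Fermat.Agent.S20
open Fermat.Agent.S18.UMain (ptDiv HasVal)

section RelInt

variable {K F F' : Type*} [Field K] [Field F] [Algebra K F] [Field F'] [Algebra F F']

theorem mem_of_ord_nonneg (v : Place K F) {f : F} (h : f = 0 ∨ 0 ≤ v.ord f) :
    f ∈ v.toValuationSubring :=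
  (RR.mem_valuationSubring_iff v).mpr h

theorem isIntegral_base (v : Place K F) {f : F} (h : f = 0 ∨ 0 ≤ v.ord f) :
    IsIntegral v.toValuationSubring (algebraMap F F' f) :=
  isIntegral_algebraMap (R := v.toValuationSubring) (A := F') (x := ⟨f, mem_of_ord_nonneg v h⟩)

/-- Integrality of `x * t₀` passes to `x * t` when `ord t₀ ≤ ord t`. -/
theorem isIntegral_mul_of_le (v : Place K F) {x : F'} {t₀ t : F} (ht₀ : t₀ ≠ 0)
    (h₀ : IsIntegral v.toValuationSubring (x * algebraMap F F' t₀))
    (h : t = 0 ∨ v.ord t₀ ≤ v.ord t) :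
    IsIntegral v.toValuationSubring (x * algebraMap F F' t) := by
  have h1 : x * algebraMap F F' t = (x * algebraMap F F' t₀) * algebraMap F F' (t / t₀) := by
    rw [mul_assoc, ← map_mul, mul_div_cancel₀ t ht₀]
  rw [h1]
  refine h₀.mul (isIntegral_base v ?_)
  rcases h with rfl | h
  · left; simp
  · by_cases ht : t = 0
    · left; simp [ht]
    · right
      rw [div_eq_mul_inv, v.ord_mul ht (inv_ne_zero ht₀), v.ord_inv]
      omega

theorem exists_ord_eq (v : Place K F) (n : ℤ) : ∃ t : F, t ≠ 0 ∧ v.ord t = n := by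
  obtain ⟨π, hπ⟩ := RR.exists_uniformizer v
  have hπ0 : π ≠ 0 := RR.uniformizer_ne_zero v hπ
  exact ⟨π ^ n, zpow_ne_zero _ hπ0, by rw [v.ord_zpow, hπ, mul_one]⟩

/-- Using membership: `x * t` is integral as soon as `G v ≤ ord t`. -/
theorem isIntegral_of_relIntegral {G : Divisor K F} {x : F'} (hx : UpN.RelIntegral G x)
    (v : Place K F) {t : F} (h : t = 0 ∨ G v ≤ v.ord t) :
    IsIntegral v.toValuationSubring (x * algebraMap F F' t) := by
  obtain ⟨t₀, ht₀, hord⟩ := exists_ord_eq v (G v)
  exact isIntegral_mul_of_le v ht₀ (hx v t₀ hord) (by rw [hord]; exact h)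

theorem isIntegral_self_of_relIntegral {G : Divisor K F} {x : F'} (hx : UpN.RelIntegral G x)
    (v : Place K F) (h : G v ≤ 0) : IsIntegral v.toValuationSubring x := by
  have h1 := isIntegral_of_relIntegral hx v (t := 1) (Or.inr (by rw [v.ord_one]; exact h))
  rwa [map_one, mul_one] at h1

/-- Proving membership: one good `t₀` at every place suffices. -/
theorem relIntegral_of_exists {G : Divisor K F} {x : F'}
    (h : ∀ v : Place K F, ∃ t₀ : F, t₀ ≠ 0 ∧ v.ord t₀ ≤ G v ∧
      IsIntegral v.toValuationSubring (x * algebraMap F F' t₀)) :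
    UpN.RelIntegral G x := by
  intro v t ht
  obtain ⟨t₀, ht₀, hle, hint⟩ := h v
  exact isIntegral_mul_of_le v ht₀ hint (Or.inr (by rw [ht]; exact hle))

/-- Changing the divisor where the function is known to be more regular. -/
theorem relIntegral_of_le {G G' : Divisor K F} {x : F'} (hx : UpN.RelIntegral G x)
    (h : ∀ v : Place K F, G v ≤ G' v ∨ ∃ t₀ : F, t₀ ≠ 0 ∧ v.ord t₀ ≤ G' v ∧
      IsIntegral v.toValuationSubring (x * algebraMap F F' t₀)) :
    UpN.RelIntegral G' x := by
  refine relIntegral_of_exists fun v => ?_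
  rcases h v with h1 | h1
  · obtain ⟨t₀, ht₀, hord⟩ := exists_ord_eq v (G v)
    exact ⟨t₀, ht₀, by rw [hord]; exact h1, hx v t₀ hord⟩
  · exact h1

theorem relIntegral_mono {G G' : Divisor K F} {x : F'} (hx : UpN.RelIntegral G x)
    (h : ∀ v : Place K F, G v ≤ G' v) : UpN.RelIntegral G' x :=
  relIntegral_of_le hx fun v => Or.inl (h v)

theorem relIntegral_zero (G : Divisor K F) : UpN.RelIntegral G (0 : F') := by
  intro v t _
  rw [zero_mul]
  exact isIntegral_zero

theorem relIntegral_add (G : Divisor K F) {x y : F'} (hx : UpN.RelIntegral G x)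
    (hy : UpN.RelIntegral G y) : UpN.RelIntegral G (x + y) := by
  intro v t ht
  rw [add_mul]
  exact (hx v t ht).add (hy v t ht)

theorem relIntegral_neg {G : Divisor K F} {x : F'} (hx : UpN.RelIntegral G x) :
    UpN.RelIntegral G (-x) := by
  intro v t ht
  rw [neg_mul]
  exact (hx v t ht).neg

theorem relIntegral_sub {G : Divisor K F} {x y : F'} (hx : UpN.RelIntegral G x)
    (hy : UpN.RelIntegral G y) : UpN.RelIntegral G (x - y) := by
  rw [sub_eq_add_neg]
  exact relIntegral_add G hx (relIntegral_neg hy)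

theorem relIntegral_mul {G G' : Divisor K F} {x y : F'} (hx : UpN.RelIntegral G x)
    (hy : UpN.RelIntegral G' y) : UpN.RelIntegral (G + G') (x * y) := by
  refine relIntegral_of_exists fun v => ?_
  obtain ⟨t₀, ht₀, hord⟩ := exists_ord_eq v (G v)
  obtain ⟨t₁, ht₁, hord₁⟩ := exists_ord_eq v (G' v)
  refine ⟨t₀ * t₁, mul_ne_zero ht₀ ht₁, ?_, ?_⟩
  · rw [v.ord_mul ht₀ ht₁, hord, hord₁, Finsupp.add_apply]
  · have h1 : x * y * algebraMap F F' (t₀ * t₁) =
        (x * algebraMap F F' t₀) * (y * algebraMap F F' t₁) := by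
      rw [map_mul]; ring
    rw [h1]
    exact (hx v t₀ hord).mul (hy v t₁ hord₁)

/-- Elements of the base field. -/
theorem relIntegral_base {G : Divisor K F} {f : F} (hf : ∀ v : Place K F, f = 0 ∨ -G v ≤ v.ord f) :
    UpN.RelIntegral G (algebraMap F F' f) := by
  intro v t ht
  rw [← map_mul]
  refine isIntegral_base v ?_
  by_cases hft : f * t = 0
  · exact Or.inl hft
  · right
    have hf0 : f ≠ 0 := left_ne_zero_of_mul hft
    have ht0 : t ≠ 0 := right_ne_zero_of_mul hft
    rw [v.ord_mul hf0 ht0, ht]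
    rcases hf v with h | h
    · exact absurd h hf0
    · omega

theorem relIntegral_one {G : Divisor K F} (hG : ∀ v : Place K F, 0 ≤ G v) :
    UpN.RelIntegral G (1 : F') := by
  have h := relIntegral_base (F' := F') (G := G) (f := 1) (fun v => Or.inr (by
    rw [v.ord_one]
    have := hG v
    omega))
  rwa [map_one] at h

theorem relIntegral_prod {ι : Type*} (s : Finset ι) (G : ι → Divisor K F) (y : ι → F')
    (h : ∀ j ∈ s, UpN.RelIntegral (G j) (y j)) :
    UpN.RelIntegral (∑ j ∈ s, G j) (∏ j ∈ s, y j) := by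
  classical
  induction s using Finset.induction_on with
  | empty =>
    rw [Finset.sum_empty, Finset.prod_empty]
    exact relIntegral_one fun v => le_rfl
  | insert a s ha ih =>
    rw [Finset.sum_insert ha, Finset.prod_insert ha]
    exact relIntegral_mul (h a (Finset.mem_insert_self a s))
      (ih fun j hj => h j (Finset.mem_insert_of_mem hj))

/-- Dropping the points at which the function is integral. -/
theorem relIntegral_drop {ι : Type*} [DecidableEq ι] {P : ι → Place K F}
    (hP : Function.Injective P) {D : Divisor K F} (hD : ∀ i, D (P i) = 0) {T T' : Finset ι}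
    {x : F'} (hx : UpN.RelIntegral (D + ptDiv P T') x)
    (h : ∀ i ∈ T', i ∉ T → IsIntegral (P i).toValuationSubring x) :
    UpN.RelIntegral (D + ptDiv P T) x := by
  refine relIntegral_of_le hx fun v => ?_
  by_cases hv : ∃ i ∈ T', P i = v
  · obtain ⟨i, hiT', rfl⟩ := hv
    by_cases hiT : i ∈ T
    · left
      rw [Finsupp.add_apply, Finsupp.add_apply, UMain.ptDiv_apply hP, UMain.ptDiv_apply hP,
        if_pos hiT', if_pos hiT]
    · right
      refine ⟨1, one_ne_zero, ?_, ?_⟩
      · rw [(P i).ord_one, Finsupp.add_apply, hD, UMain.ptDiv_apply hP, if_neg hiT, add_zero]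
      · rw [map_one, mul_one]
        exact h i hiT' hiT
  · left
    push Not at hv
    rw [Finsupp.add_apply, Finsupp.add_apply, UMain.ptDiv_apply_of_ne hv]
    have := UMain.ptDiv_nonneg P T v
    omega

variable [Algebra K F'] [IsScalarTower K F F']

theorem relIntegral_smul {G : Divisor K F} {x : F'} (hx : UpN.RelIntegral G x) (c : K) :
    UpN.RelIntegral G (algebraMap K F' c * x) := by
  intro v t ht
  rw [mul_assoc, IsScalarTower.algebraMap_apply K F F']
  refine (isIntegral_base v ?_).mul (hx v t ht)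
  by_cases hc : c = 0
  · left; simp [hc]
  · right
    have h1 := UMain.adicValuation_algebraMap_eq_one (v := v) hc
    have h0 : algebraMap K F c ≠ 0 := by simpa using hc
    rw [v.adicValuation_eq_exp_neg_ord h0, ← exp_zero, exp_inj] at h1
    omega

end RelInt

section Lattice

variable {K F k Fb : Type*} [Field K] [Field F] [Algebra K F] [Field k] [Field Fb] [Algebra k Fb]
variable (A : ValuationSubring K) (res : A →+* k) (V : ValuationSubring F) (rho : V →+* Fb)
variable (hAV : ∀ a : A, algebraMap K F (a : K) ∈ V)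

/-- The integral lattice `S ∩ V` of a `K`-subspace `S ⊆ F`, as a module over the valuation ring
`A ⊆ K`. -/
def latS (S : Submodule K F) : Submodule A F where
  carrier := {x | x ∈ V ∧ x ∈ S}
  zero_mem' := ⟨V.zero_mem, Submodule.zero_mem _⟩
  add_mem' := fun hx hy => ⟨V.add_mem _ _ hx.1 hy.1, Submodule.add_mem _ hx.2 hy.2⟩
  smul_mem' := fun a x hx => by
    have h1 : a • x = algebraMap K F (a : K) * x := by
      rw [Algebra.smul_def]
      rfl
    have h2 : a • x = (a : K) • x := by
      rw [h1, Algebra.smul_def]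
    exact ⟨h1 ▸ V.mul_mem _ _ (hAV a) hx.1, h2 ▸ Submodule.smul_mem _ (a : K) hx.2⟩

variable {A V hAV}

theorem mem_latS {S : Submodule K F} {x : F} : x ∈ latS A V hAV S ↔ x ∈ V ∧ x ∈ S := Iff.rfl

variable (hres : Function.Surjective res)
variable (hrho : ∀ a : A, rho ⟨algebraMap K F (a : K), hAV a⟩ = algebraMap k Fb (res a))
variable (hcart : ∀ x : V, rho x = 0 →
  ∃ c : A, c ∈ maximalIdeal A ∧ ∃ x' : V, (x : F) = algebraMap K F (c : K) * (x' : F))

include hres hrho hcart in
/-- **Cartesian property**: an element of the lattice lies in `𝔪 • lattice` iff its reduction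
vanishes. -/
theorem mem_smul_top_iff {S : Submodule K F} (x : latS A V hAV S) :
    x ∈ (maximalIdeal A) • (⊤ : Submodule A (latS A V hAV S)) ↔ rho ⟨x, x.2.1⟩ = 0 := by
  constructor
  · intro hx
    refine Submodule.smul_induction_on hx (fun r hr n _ => ?_) (fun y z hy hz => ?_)
    · have h1 := UMain.rho_smul res rho hrho r (n : F) n.2.1 (r • n).2.1
      have h2 : rho ⟨((r • n : latS A V hAV S) : F), (r • n).2.1⟩ =
          algebraMap k Fb (res r) * rho ⟨n, n.2.1⟩ := h1
      rw [h2, (UMain.res_eq_zero_iff res hres r).mpr hr, map_zero, zero_mul]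
    · have h1 : (⟨((y + z : latS A V hAV S) : F), (y + z).2.1⟩ : V) =
          ⟨y, y.2.1⟩ + ⟨z, z.2.1⟩ := Subtype.ext rfl
      rw [h1, map_add, hy, hz, add_zero]
  · intro hx
    obtain ⟨c, hc, x', hxx'⟩ := hcart _ hx
    have hxx'' : (x : F) = algebraMap K F (c : K) * (x' : F) := hxx'
    by_cases hc0 : c = 0
    · have : x = 0 := Subtype.ext (by rw [hxx'', hc0]; simp)
      rw [this]
      exact Submodule.zero_mem _
    · have hcK : (c : K) ≠ 0 := fun h => hc0 (Subtype.ext h)
      have hx'G : (x' : F) ∈ S := by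
        have h1 : (x' : F) = (c : K)⁻¹ • (x : F) := by
          rw [hxx'', Algebra.smul_def, ← mul_assoc, ← map_mul, inv_mul_cancel₀ hcK, map_one,
            one_mul]
        rw [h1]
        exact Submodule.smul_mem _ _ x.2.2
      have h2 : x = c • (⟨x', x'.2, hx'G⟩ : latS A V hAV S) :=
        Subtype.ext (by rw [hxx'']; exact (UMain.smul_eq_mul' c (x' : F)).symm)
      rw [h2]
      exact Submodule.smul_mem_smul hc Submodule.mem_top

include hrho in
theorem rho_sub_smul {S : Submodule K F} (x y : latS A V hAV S) (a : A) :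
    rho ⟨((x - a • y : latS A V hAV S) : F), (x - a • y).2.1⟩ =
      rho ⟨x, x.2.1⟩ - algebraMap k Fb (res a) * rho ⟨y, y.2.1⟩ := by
  have h1 : (⟨((x - a • y : latS A V hAV S) : F), (x - a • y).2.1⟩ : V) =
      ⟨x, x.2.1⟩ - ⟨algebraMap K F (a : K), hAV a⟩ * ⟨y, y.2.1⟩ :=
    Subtype.ext (by
      show ((x - a • y : latS A V hAV S) : F) = (x : F) - algebraMap K F (a : K) * (y : F)
      rw [Submodule.coe_sub, Submodule.coe_smul, UMain.smul_eq_mul'])
  rw [h1, map_sub, map_mul, hrho]

theorem rho_sub {S : Submodule K F} (x y : latS A V hAV S) :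
    rho ⟨((x - y : latS A V hAV S) : F), (x - y).2.1⟩ = rho ⟨x, x.2.1⟩ - rho ⟨y, y.2.1⟩ := by
  have h1 : (⟨((x - y : latS A V hAV S) : F), (x - y).2.1⟩ : V) = ⟨x, x.2.1⟩ - ⟨y, y.2.1⟩ :=
    Subtype.ext rfl
  rw [h1, map_sub]

theorem finite_latS {S : Submodule K F}
    (hfg : ∃ (n : ℕ) (b : Fin n → F), (∀ s, b s ∈ V ∧ b s ∈ S) ∧
      ∀ x ∈ V, x ∈ S → ∃ a : Fin n → A, x = ∑ s, algebraMap K F (a s : K) * b s) :
    Module.Finite A (latS A V hAV S) := by
  obtain ⟨n, b, hb, hspan⟩ := hfg
  refine Module.Finite.of_surjective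
    (Fintype.linearCombination A (fun s => (⟨b s, hb s⟩ : latS A V hAV S))) ?_
  intro x
  obtain ⟨a, ha⟩ := hspan x x.2.1 x.2.2
  refine ⟨a, Subtype.ext ?_⟩
  rw [Fintype.linearCombination_apply, ha, Submodule.coe_sum]
  refine Finset.sum_congr rfl fun s _ => ?_
  rw [Submodule.coe_smul, UMain.smul_eq_mul']

end Lattice

section RelSpace

variable {K F F' : Type*} [Field K] [Field F] [Algebra K F] [Field F'] [Algebra F F']
  [Algebra K F'] [IsScalarTower K F F']

/-- The relative Riemann–Roch space `{x : F' | RelIntegral G x}` as a `K`-subspace of `F'`. -/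
def relSpace (G : Divisor K F) : Submodule K F' where
  carrier := {x | UpN.RelIntegral G x}
  zero_mem' := relIntegral_zero G
  add_mem' := fun hx hy => relIntegral_add G hx hy
  smul_mem' := fun c x hx => by
    have h1 : c • x = algebraMap K F' c * x := Algebra.smul_def c x
    exact h1 ▸ relIntegral_smul hx c

theorem mem_relSpace {G : Divisor K F} {x : F'} :
    x ∈ relSpace (F' := F') G ↔ UpN.RelIntegral G x := Iff.rfl

end RelSpace

section Eval

variable {K F F' : Type*} [Field K] [Field F] [Algebra K F] [Field F'] [Algebra F F']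

/-- An *evaluation package* at the points `P p` of `F` for the extension `F' / F`:
`Ev p α y a` says "`y : F'` is integral over the valuation ring of `P p` and its value at the
`α`-th point of `F'` above `P p` is `a`".  Only the listed properties are used. -/
structure IsEval {ι R : Type*} (P : ι → Place K F) (t : ι → F)
    (Ev : ι → R → F' → K → Prop) : Prop where
  add : ∀ p α y y' a a', Ev p α y a → Ev p α y' a' → Ev p α (y + y') (a + a')
  mul : ∀ p α y y' a a', Ev p α y a → Ev p α y' a' → Ev p α (y * y') (a * a')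
  unique : ∀ p α y a a', Ev p α y a → Ev p α y a' → a = a'
  base : ∀ p α (f : F) (c : K),
    (f = algebraMap K F c ∨ 0 < (P p).ord (f - algebraMap K F c)) → Ev p α (algebraMap F F' f) c
  exists_val : ∀ p α (y : F'), IsIntegral (P p).toValuationSubring y → ∃ a : K, Ev p α y a
  detect : ∀ p (x : F'), (∀ α, Ev p α (algebraMap F F' (t p) * x) 0) →
    IsIntegral (P p).toValuationSubring x

/-- The multiplicative part of an evaluation package (`IsEval` without additivity); this is all
that is needed on the special fibre. -/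
structure IsEvalMul {ι R : Type*} (P : ι → Place K F) (t : ι → F)
    (Ev : ι → R → F' → K → Prop) : Prop where
  mul : ∀ p α y y' a a', Ev p α y a → Ev p α y' a' → Ev p α (y * y') (a * a')
  unique : ∀ p α y a a', Ev p α y a → Ev p α y a' → a = a'
  base : ∀ p α (f : F) (c : K),
    (f = algebraMap K F c ∨ 0 < (P p).ord (f - algebraMap K F c)) → Ev p α (algebraMap F F' f) c
  exists_val : ∀ p α (y : F'), IsIntegral (P p).toValuationSubring y → ∃ a : K, Ev p α y a
  detect : ∀ p (x : F'), (∀ α, Ev p α (algebraMap F F' (t p) * x) 0) →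
    IsIntegral (P p).toValuationSubring x

variable {ι R : Type*} {P : ι → Place K F} {t : ι → F} {Ev : ι → R → F' → K → Prop}

theorem IsEval.toMul (hE : IsEval P t Ev) : IsEvalMul P t Ev :=
  ⟨hE.mul, hE.unique, hE.base, hE.exists_val, hE.detect⟩

theorem IsEvalMul.t_zero (hE : IsEvalMul P t Ev) (htP : ∀ p, (P p).ord (t p) = 1) (p : ι)
    (α : R) : Ev p α (algebraMap F F' (t p)) 0 := by
  refine hE.base p α (t p) 0 (Or.inr ?_)
  rw [map_zero, sub_zero, htP]
  exact one_pos

theorem IsEvalMul.zero_of_isIntegral (hE : IsEvalMul P t Ev) (htP : ∀ p, (P p).ord (t p) = 1)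
    (p : ι) (α : R) {x : F'} (hx : IsIntegral (P p).toValuationSubring x) :
    Ev p α (algebraMap F F' (t p) * x) 0 := by
  obtain ⟨a, ha⟩ := hE.exists_val p α x hx
  have h := hE.mul p α _ _ _ _ (hE.t_zero htP p α) ha
  rwa [zero_mul] at h

theorem IsEvalMul.const [Algebra K F'] [IsScalarTower K F F'] (hE : IsEvalMul P t Ev) (p : ι)
    (α : R) (c : K) : Ev p α (algebraMap K F' c) c := by
  rw [IsScalarTower.algebraMap_apply K F F']
  exact hE.base p α _ c (Or.inl rfl)

theorem IsEval.t_zero (hE : IsEval P t Ev) (htP : ∀ p, (P p).ord (t p) = 1) (p : ι) (α : R) :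
    Ev p α (algebraMap F F' (t p)) 0 :=
  hE.toMul.t_zero htP p α

theorem IsEval.zero_of_isIntegral (hE : IsEval P t Ev) (htP : ∀ p, (P p).ord (t p) = 1) (p : ι)
    (α : R) {x : F'} (hx : IsIntegral (P p).toValuationSubring x) :
    Ev p α (algebraMap F F' (t p) * x) 0 :=
  hE.toMul.zero_of_isIntegral htP p α hx

theorem IsEval.const [Algebra K F'] [IsScalarTower K F F'] (hE : IsEval P t Ev) (p : ι) (α : R)
    (c : K) : Ev p α (algebraMap K F' c) c :=
  hE.toMul.const p α c

end Eval

section Residues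

variable {L F F' k Fb Fb' : Type*} [Field L] [Field F] [Algebra L F] [Field F'] [Algebra F F']
  [Algebra L F'] [IsScalarTower L F F']
  [Field k] [Field Fb] [Algebra k Fb] [Field Fb'] [Algebra Fb Fb'] [Algebra k Fb']
  [IsScalarTower k Fb Fb']
variable {A : ValuationSubring L} {res : A →+* k} {V' : ValuationSubring F'} {rho' : V' →+* Fb'}
variable {hAV : ∀ a : A, algebraMap L F' (a : L) ∈ V'}
variable {ι R : Type*} {P : ι → Place L F} {Q : ι → Place k Fb} {t : ι → F} {tb : ι → Fb}
  {tV : ι → V'} {tube : ι → Set (Place L F)}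
variable {Ev : ι → R → F' → L → Prop} {Evb : ι → R → Fb' → k → Prop}
variable (hE : IsEval P t Ev) (hEb : IsEvalMul Q tb Evb)
variable (htV : ∀ p, (tV p : F') = algebraMap F F' (t p))
variable (htVb : ∀ p, rho' (tV p) = algebraMap Fb Fb' (tb p))
variable (htP : ∀ p, (P p).ord (t p) = 1) (htQ : ∀ p, (Q p).ord (tb p) = 1)
variable (htube_t : ∀ p, ∀ v ∈ tube p, t p ∈ v.toValuationSubring)
variable (htube : ∀ p (y : V'), (∀ v ∈ tube p, IsIntegral v.toValuationSubring (y : F')) →
  ∀ α, ∃ a : A, Ev p α (y : F') (a : L) ∧ Evb p α (rho' y) (res a))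

include htV htP htube_t in
omit [Algebra L F'] [IsScalarTower L F F'] in
theorem t_mul_reg {G : Divisor L F} (hG : ∀ p, ∀ v ∈ tube p, v ≠ P p → G v ≤ 0)
    (hG1 : ∀ p, G (P p) ≤ 1) {x : F'} (hx : UpN.RelIntegral G x) (p : ι) :
    ∀ v ∈ tube p, IsIntegral v.toValuationSubring ((tV p : F') * x) := by
  intro v hv
  rw [htV, mul_comm]
  apply isIntegral_of_relIntegral hx v
  by_cases hvP : v = P p
  · right
    rw [hvP, htP]
    exact hG1 p
  · rcases (RR.mem_valuationSubring_iff v).mp (htube_t p v hv) with h1 | h1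
    · exact Or.inl h1
    · exact Or.inr ((hG p v hv hvP).trans h1)

variable {G : Divisor L F} (hG : ∀ p, ∀ v ∈ tube p, v ≠ P p → G v ≤ 0) (hG1 : ∀ p, G (P p) ≤ 1)

include htube htV htP htube_t hG hG1 in
theorem exists_resid (x : latS A V' hAV (relSpace G)) (p : ι) (α : R) :
    ∃ a : A, Ev p α ((tV p : F') * (x : F')) (a : L) ∧
      Evb p α (rho' (tV p) * rho' ⟨x, x.2.1⟩) (res a) := by
  obtain ⟨a, h1, h2⟩ := htube p (tV p * ⟨x, x.2.1⟩)
    (t_mul_reg htV htP htube_t hG hG1 x.2.2 p) α
  rw [map_mul] at h2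
  exact ⟨a, h1, h2⟩

/-- The residue of `x` at the `α`-th point above `P p`, an element of `A`. -/
def resid (x : latS A V' hAV (relSpace G)) (p : ι) (α : R) : A :=
  (exists_resid htV htP htube_t htube hG hG1 x p α).choose

theorem resid_spec (x : latS A V' hAV (relSpace G)) (p : ι) (α : R) :
    Ev p α ((tV p : F') * (x : F')) (resid htV htP htube_t htube hG hG1 x p α : L) ∧
      Evb p α (rho' (tV p) * rho' ⟨x, x.2.1⟩) (res (resid htV htP htube_t htube hG hG1 x p α)) :=
  (exists_resid htV htP htube_t htube hG hG1 x p α).choose_spec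

include hE in
theorem resid_eq_zero_of_isIntegral (x : latS A V' hAV (relSpace G)) (p : ι)
    (hx : IsIntegral (P p).toValuationSubring (x : F')) (α : R) :
    resid htV htP htube_t htube hG hG1 x p α = 0 := by
  have h := (resid_spec htV htP htube_t htube hG hG1 x p α).1
  have h1 := hE.zero_of_isIntegral htP p α hx
  rw [← htV] at h1
  exact Subtype.ext (hE.unique _ _ _ _ _ h h1)

include hE in
theorem isIntegral_of_resid_eq_zero (x : latS A V' hAV (relSpace G)) (p : ι)
    (h0 : ∀ α, resid htV htP htube_t htube hG hG1 x p α = 0) :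
    IsIntegral (P p).toValuationSubring (x : F') := by
  refine hE.detect p _ fun α => ?_
  have h := (resid_spec htV htP htube_t htube hG hG1 x p α).1
  rw [h0 α, htV] at h
  exact h

include hEb htVb htQ in
theorem res_resid_eq_zero_of_isIntegral (x : latS A V' hAV (relSpace G)) (p : ι)
    (hx : IsIntegral (Q p).toValuationSubring (rho' ⟨x, x.2.1⟩)) (α : R) :
    res (resid htV htP htube_t htube hG hG1 x p α) = 0 := by
  have h := (resid_spec htV htP htube_t htube hG hG1 x p α).2
  have h1 := hEb.zero_of_isIntegral htQ p α hx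
  rw [← htVb] at h1
  exact hEb.unique _ _ _ _ _ h h1

include hEb htVb in
theorem isIntegral_of_res_resid_eq_zero (x : latS A V' hAV (relSpace G)) (p : ι)
    (h0 : ∀ α, res (resid htV htP htube_t htube hG hG1 x p α) = 0) :
    IsIntegral (Q p).toValuationSubring (rho' ⟨x, x.2.1⟩) := by
  refine hEb.detect p _ fun α => ?_
  have h := (resid_spec htV htP htube_t htube hG hG1 x p α).2
  rw [h0 α, htVb] at h
  exact h

/-- The residue map `relSpace G ∩ V' → A^C`, coordinates indexed by `c ↦ (pt c, rt c)`. -/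
def resMap {C : Type*} (pt : C → ι) (rt : C → R) :
    latS A V' hAV (relSpace G) →ₗ[A] (C → A) where
  toFun x c := resid htV htP htube_t htube hG hG1 x (pt c) (rt c)
  map_add' x y := by
    funext c
    apply Subtype.ext
    have hx := (resid_spec htV htP htube_t htube hG hG1 x (pt c) (rt c)).1
    have hy := (resid_spec htV htP htube_t htube hG hG1 y (pt c) (rt c)).1
    have hxy := (resid_spec htV htP htube_t htube hG hG1 (x + y) (pt c) (rt c)).1
    have h1 := hE.add _ _ _ _ _ _ hx hy
    rw [← mul_add] at h1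
    exact hE.unique _ _ _ _ _ hxy h1
  map_smul' a x := by
    funext c
    apply Subtype.ext
    have hx := (resid_spec htV htP htube_t htube hG hG1 x (pt c) (rt c)).1
    have hax := (resid_spec htV htP htube_t htube hG hG1 (a • x) (pt c) (rt c)).1
    have h1 := hE.mul _ _ _ _ _ _ (hE.const (pt c) (rt c) (a : L)) hx
    have h2 : algebraMap L F' (a : L) * ((tV (pt c) : F') * (x : F')) =
        (tV (pt c) : F') * ((a • x : latS A V' hAV (relSpace G)) : F') := by
      rw [Submodule.coe_smul, UMain.smul_eq_mul']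
      ring
    rw [h2] at h1
    exact hE.unique _ _ _ _ _ hax h1

theorem resMap_apply {C : Type*} (pt : C → ι) (rt : C → R) (x : latS A V' hAV (relSpace G))
    (c : C) : resMap hE htV htP htube_t htube hG hG1 pt rt x c =
      resid htV htP htube_t htube hG hG1 x (pt c) (rt c) := rfl

end Residues

section Main

/-- **Theorem U at an auxiliary level, abstract evaluation form.**

`F / L` and `Fb / k` are function fields (the base level), `F' / F` and `Fb' / Fb` field
extensions (the auxiliary level; no place of `F'`, `Fb'` occurs).  `A ⊂ L` is a valuation ring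
with residue map `res`, `V' ⊂ F'` a (Gauss) valuation ring with reduction `rho' : V' → Fb'`,
cartesian over `A`.  The relative Riemann–Roch spaces are `{x | UpN.RelIntegral G x}`.
`D` is a divisor of `F` with `m • D = div φ₀`, `Db = div ψb` on the special fibre,
`rho' φ₀ = c0b ψb ^ m`, `m` invertible in `k`.  Given `m` blocks of generic points `P (j, s)` of
`F` reducing to `Q (j, s)`, coordinates `t p`, evaluation packages `Ev`, `Evb` at these points
compatible with reduction on the tubes (`htube`), inclusion and lifting for the divisors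
`D + ∑ P`, `D + ∑_{block j} P`, `∑ P`, and finite generation of the two lattices: the relative
space of `D` cannot vanish. -/
theorem false_of_isEval'
    {L F F' k Fb Fb' : Type*} [Field L] [Field F] [Algebra L F] [Field F'] [Algebra F F']
    [Algebra L F'] [IsScalarTower L F F']
    [Field k] [Field Fb] [Algebra k Fb] [Field Fb'] [Algebra Fb Fb'] [Algebra k Fb']
    [IsScalarTower k Fb Fb']
    {A : ValuationSubring L} {res : A →+* k} {V' : ValuationSubring F'} {rho' : V' →+* Fb'}
    (hres : Function.Surjective res)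
    (hAV : ∀ a : A, algebraMap L F' (a : L) ∈ V')
    (hrho : ∀ a : A, rho' ⟨algebraMap L F' (a : L), hAV a⟩ = algebraMap k Fb' (res a))
    (hcart : ∀ x : V', rho' x = 0 →
      ∃ c : A, c ∈ maximalIdeal A ∧ ∃ x' : V', (x : F') = algebraMap L F' (c : L) * (x' : F'))
    {m : ℕ} {I₁ R : Type*} [Fintype I₁] [Fintype R] (hm : (m : k) ≠ 0)
    {P : Fin m × I₁ → Place L F} {Q : Fin m × I₁ → Place k Fb}
    {tube : Fin m × I₁ → Set (Place L F)}
    (hPinj : Function.Injective P) (hQinj : Function.Injective Q)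
    (hdegQ : ∀ p, (Q p).deg = 1)
    (hconstb : ∀ y : Fb', UpN.RelIntegral (0 : Divisor k Fb) y → ∃ c : k, y = algebraMap k Fb' c)
    (D : Divisor L F) (Db : Divisor k Fb)
    (φ : V') (φ₀ : F) (hφφ₀ : (φ : F') = algebraMap F F' φ₀)
    (hφ : ∀ v : Place L F, v.ord φ₀ = m * D v)
    (ψb : Fb) (hψb0 : ψb ≠ 0) (hψb : ∀ w : Place k Fb, w.ord ψb = Db w)
    (c0b : k) (hc0b : c0b ≠ 0)
    (hφb : rho' φ = algebraMap k Fb' c0b * (algebraMap Fb Fb' ψb) ^ m)
    (hDQ : ∀ p, Db (Q p) = 0)
    (t : Fin m × I₁ → F) (tb : Fin m × I₁ → Fb) (tV : Fin m × I₁ → V')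
    (htV : ∀ p, (tV p : F') = algebraMap F F' (t p))
    (htVb : ∀ p, rho' (tV p) = algebraMap Fb Fb' (tb p))
    (htP : ∀ p, (P p).ord (t p) = 1) (htQ : ∀ p, (Q p).ord (tb p) = 1)
    (htube_self : ∀ p, P p ∈ tube p)
    (htube_D : ∀ p, ∀ v ∈ tube p, D v = 0)
    (htube_P : ∀ p p', p' ≠ p → P p' ∉ tube p)
    (htube_t : ∀ p, ∀ v ∈ tube p, t p ∈ v.toValuationSubring)
    (Ev : Fin m × I₁ → R → F' → L → Prop) (Evb : Fin m × I₁ → R → Fb' → k → Prop)
    (hE : IsEval P t Ev) (hEb : IsEvalMul Q tb Evb)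
    (htube : ∀ p (y : V'), (∀ v ∈ tube p, IsIntegral v.toValuationSubring (y : F')) →
      ∀ α, ∃ a : A, Ev p α (y : F') (a : L) ∧ Evb p α (rho' y) (res a))
    (hinclD : ∀ x : V', UpN.RelIntegral (D + ptDiv P Finset.univ) (x : F') →
      UpN.RelIntegral (Db + ptDiv Q Finset.univ) (rho' x))
    (hincl0 : ∀ x : V', UpN.RelIntegral (ptDiv P Finset.univ) (x : F') →
      UpN.RelIntegral (ptDiv Q Finset.univ) (rho' x))
    (hliftD : ∀ yb : Fb', UpN.RelIntegral (Db + ptDiv Q Finset.univ) yb →
      ∃ x : V', UpN.RelIntegral (D + ptDiv P Finset.univ) (x : F') ∧ rho' x = yb)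
    (hliftB : ∀ j : Fin m, ∀ yb : Fb',
      UpN.RelIntegral (Db + ptDiv Q (Finset.univ.filter fun i => i.1 = j)) yb →
      ∃ x : V', UpN.RelIntegral (D + ptDiv P (Finset.univ.filter fun i => i.1 = j)) (x : F') ∧
        rho' x = yb)
    (hfgD : ∃ (n : ℕ) (b : Fin n → F'),
      (∀ s, b s ∈ V' ∧ UpN.RelIntegral (D + ptDiv P Finset.univ) (b s)) ∧
      ∀ x ∈ V', UpN.RelIntegral (D + ptDiv P Finset.univ) x →
        ∃ a : Fin n → A, x = ∑ s, algebraMap L F' (a s : L) * b s)
    (hfg0 : ∃ (n : ℕ) (b : Fin n → F'),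
      (∀ s, b s ∈ V' ∧ UpN.RelIntegral (ptDiv P Finset.univ) (b s)) ∧
      ∀ x ∈ V', UpN.RelIntegral (ptDiv P Finset.univ) x →
        ∃ a : Fin n → A, x = ∑ s, algebraMap L F' (a s : L) * b s)
    (hLD : ∀ x : F', UpN.RelIntegral D x → x = 0) :
    False := by
  classical
  have hDP : ∀ p, D (P p) = 0 := fun p => htube_D p _ (htube_self p)
  have hEtube : ∀ p, ∀ v ∈ tube p, v ≠ P p → ptDiv P Finset.univ v = 0 := by
    intro p v hv hne
    apply UMain.ptDiv_apply_of_ne
    intro p' _ h
    by_cases hpp : p' = p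
    · exact hne (by rw [← h, hpp])
    · exact htube_P p p' hpp (h ▸ hv)
  have hEP : ∀ p, ptDiv P Finset.univ (P p) = 1 := fun p => by
    rw [UMain.ptDiv_apply hPinj, if_pos (Finset.mem_univ p)]
  have hG : ∀ p, ∀ v ∈ tube p, v ≠ P p → (D + ptDiv P Finset.univ) v ≤ 0 := by
    intro p v hv hne
    rw [Finsupp.add_apply, htube_D p v hv, hEtube p v hv hne, add_zero]
  have hG1 : ∀ p, (D + ptDiv P Finset.univ) (P p) ≤ 1 := by
    intro p
    rw [Finsupp.add_apply, hDP, hEP, zero_add]
  have hG0 : ∀ p, ∀ v ∈ tube p, v ≠ P p → ptDiv P Finset.univ v ≤ 0 :=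
    fun p v hv hne => (hEtube p v hv hne).le
  have hG01 : ∀ p, ptDiv P Finset.univ (P p) ≤ 1 := fun p => (hEP p).le
  have hfinΛ : Module.Finite A (latS A V' hAV (relSpace (F' := F') (D + ptDiv P Finset.univ))) :=
    finite_latS hfgD
  have hfinW : Module.Finite A (latS A V' hAV (relSpace (F' := F') (ptDiv P Finset.univ))) :=
    finite_latS hfg0
  set pt : Fin m × (I₁ × R) → Fin m × I₁ := fun c => (c.1, c.2.1) with hpt
  set rt : Fin m × (I₁ × R) → R := fun c => c.2.2 with hrt
  set ρ : latS A V' hAV (relSpace (F' := F') (D + ptDiv P Finset.univ)) →ₗ[A]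
      (Fin m × (I₁ × R) → A) := resMap hE htV htP htube_t htube hG hG1 pt rt with hρdef
  set Pm : latS A V' hAV (relSpace (F' := F') (ptDiv P Finset.univ)) →ₗ[A]
      (Fin m × (I₁ × R) → A) := resMap hE htV htP htube_t htube hG0 hG01 pt rt with hPmdef
  -- notation for the special fibre
  set Ψ : Fb' := algebraMap Fb Fb' ψb with hΨ
  have hΨ0 : Ψ ≠ 0 := by
    rw [hΨ]
    simpa using hψb0
  have hmem_res : ∀ a : A, res a = 0 ↔ a ∈ maximalIdeal A := UMain.res_eq_zero_iff res hres
  -- values of `ψb` at the points `Q p`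
  have hvψ : ∀ w : Place k Fb, w.adicValuation ψb = exp (-(Db w)) := fun w =>
    UMain.eq_exp_of_ord hψb0 (hψb w)
  have hψQ : ∀ p, (Q p).adicValuation ψb = 1 := fun p => by
    rw [hvψ, hDQ, neg_zero, exp_zero]
  choose pv hpv using fun p => UMain.exists_hasVal (hdegQ p) (hψQ p).le
  have hpv0 : ∀ p, pv p ≠ 0 := by
    intro p h0
    have h1 := hpv p
    rw [h0, UMain.hasVal_zero_iff, hψQ] at h1
    exact lt_irrefl _ h1
  have hEvΨ : ∀ p α, Evb p α Ψ (pv p) := fun p α =>
    hEb.base p α ψb (pv p) (UMain.hasVal_iff_ord.mp (hpv p))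
  have hEvcΨ : ∀ p α, Evb p α (algebraMap k Fb' c0b * Ψ) (c0b * pv p) := fun p α =>
    hEb.mul p α _ _ _ _ (hEb.const p α c0b) (hEvΨ p α)
  choose ω hω using fun c : Fin m × (I₁ × R) => hres (c0b * pv (pt c))
  have hω𝔪 : ∀ c, ω c ∉ maximalIdeal A := by
    intro c hmem
    have h1 := (hmem_res (ω c)).mpr hmem
    rw [hω c] at h1
    exact mul_ne_zero hc0b (hpv0 _) h1
  have hm1 : 1 ≤ m := by
    rcases Nat.eq_zero_or_pos m with h0 | h0
    · exact absurd (by rw [h0, Nat.cast_zero]) hm
    · exact h0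
  -- the lift `f₀` of `ψb⁻¹`
  have hψinvD : UpN.RelIntegral (Db + ptDiv Q Finset.univ) (Ψ⁻¹) := by
    rw [hΨ, ← map_inv₀]
    refine relIntegral_base fun w => Or.inr ?_
    rw [w.ord_inv, hψb, Finsupp.add_apply]
    have := UMain.ptDiv_nonneg Q Finset.univ w
    omega
  obtain ⟨f₀V, hf₀G, hf₀ρ⟩ := hliftD _ hψinvD
  set f₀ : latS A V' hAV (relSpace (F' := F') (D + ptDiv P Finset.univ)) :=
    ⟨f₀V, f₀V.2, hf₀G⟩ with hf₀def
  have hρf₀' : rho' ⟨(f₀ : F'), f₀.2.1⟩ = Ψ⁻¹ := hf₀ρ
  have hcartΛ : ∀ x : latS A V' hAV (relSpace (F' := F') (D + ptDiv P Finset.univ)),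
      x ∈ (maximalIdeal A) •
        (⊤ : Submodule A (latS A V' hAV (relSpace (F' := F') (D + ptDiv P Finset.univ)))) ↔
        rho' ⟨x, x.2.1⟩ = 0 := mem_smul_top_iff res rho' hres hrho hcart
  have hcartW : ∀ x : latS A V' hAV (relSpace (F' := F') (ptDiv P Finset.univ)),
      x ∈ (maximalIdeal A) •
        (⊤ : Submodule A (latS A V' hAV (relSpace (F' := F') (ptDiv P Finset.univ)))) ↔
        rho' ⟨x, x.2.1⟩ = 0 := mem_smul_top_iff res rho' hres hrho hcart
  -- `ρ`, `Pm` and integrality at the points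
  have hρint : ∀ (x : latS A V' hAV (relSpace (F' := F') (D + ptDiv P Finset.univ)))
      (p : Fin m × I₁), (∀ α, ρ x (p.1, (p.2, α)) ∈ maximalIdeal A) →
      IsIntegral (Q p).toValuationSubring (rho' ⟨x, x.2.1⟩) := fun x p h =>
    isIntegral_of_res_resid_eq_zero hEb htV htVb htP htube_t htube hG hG1 x p
      fun α => (hmem_res _).mpr (h α)
  have hPmint : ∀ (x : latS A V' hAV (relSpace (F' := F') (ptDiv P Finset.univ)))
      (p : Fin m × I₁), (∀ α, Pm x (p.1, (p.2, α)) ∈ maximalIdeal A) →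
      IsIntegral (Q p).toValuationSubring (rho' ⟨x, x.2.1⟩) := fun x p h =>
    isIntegral_of_res_resid_eq_zero hEb htV htVb htP htube_t htube hG0 hG01 x p
      fun α => (hmem_res _).mpr (h α)
  have hρmem : ∀ (x : latS A V' hAV (relSpace (F' := F') (D + ptDiv P Finset.univ)))
      (c : Fin m × (I₁ × R)), IsIntegral (Q (pt c)).toValuationSubring (rho' ⟨x, x.2.1⟩) →
      ρ x c ∈ maximalIdeal A := fun x c h =>
    (hmem_res _).mp
      (res_resid_eq_zero_of_isIntegral hEb htV htVb htP htQ htube_t htube hG hG1 x (pt c) h (rt c))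
  have hPmmem : ∀ (x : latS A V' hAV (relSpace (F' := F') (ptDiv P Finset.univ)))
      (c : Fin m × (I₁ × R)), IsIntegral (Q (pt c)).toValuationSubring (rho' ⟨x, x.2.1⟩) →
      Pm x c ∈ maximalIdeal A := fun x c h =>
    (hmem_res _).mp
      (res_resid_eq_zero_of_isIntegral hEb htV htVb htP htQ htube_t htube hG0 hG01 x (pt c) h
        (rt c))
  have hρzero : ∀ (x : latS A V' hAV (relSpace (F' := F') (D + ptDiv P Finset.univ)))
      (c : Fin m × (I₁ × R)), IsIntegral (P (pt c)).toValuationSubring (x : F') → ρ x c = 0 :=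
    fun x c h => resid_eq_zero_of_isIntegral hE htV htP htube_t htube hG hG1 x (pt c) h (rt c)
  have hρdet : ∀ (x : latS A V' hAV (relSpace (F' := F') (D + ptDiv P Finset.univ)))
      (p : Fin m × I₁), (∀ α, ρ x (p.1, (p.2, α)) = 0) →
      IsIntegral (P p).toValuationSubring (x : F') := fun x p h =>
    isIntegral_of_resid_eq_zero hE htV htP htube_t htube hG hG1 x p h
  have hone_mem : UpN.RelIntegral (ptDiv P Finset.univ) (1 : F') :=
    relIntegral_one (UMain.ptDiv_nonneg P Finset.univ)
  refine UMulti.false_of_blocks (A := A) (J := Fin m) (I₀ := I₁ × R) ?_ ρ ?_ Pm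
    ⟨1, V'.one_mem, hone_mem⟩ ?_ ?_ f₀ ?_ ?_ ?_ ?_ ω hω𝔪 ?_ ?_
  · -- `m` is a unit
    rw [Nat.card_eq_fintype_card, Fintype.card_fin]
    intro hmem
    have h1 := (hmem_res _).mpr hmem
    rw [map_natCast] at h1
    exact hm h1
  · -- `ρ` is injective
    rw [injective_iff_map_eq_zero]
    intro x hx
    have hxreg : ∀ p, IsIntegral (P p).toValuationSubring (x : F') := fun p =>
      hρdet x p fun α => congrFun hx (p.1, (p.2, α))
    have hxD : UpN.RelIntegral (D + ptDiv P ∅) (x : F') :=
      relIntegral_drop hPinj hDP x.2.2 (fun p _ _ => hxreg p)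
    rw [UMain.ptDiv_empty, add_zero] at hxD
    exact Subtype.ext (hLD _ hxD)
  · -- `P 1 = 0`
    funext c
    exact resid_eq_zero_of_isIntegral hE htV htP htube_t htube hG0 hG01 _ (pt c)
      isIntegral_one (rt c)
  · -- no poles modulo `𝔪` ⇒ constant
    intro x hx
    have hxb : UpN.RelIntegral (ptDiv Q Finset.univ) (rho' ⟨x, x.2.1⟩) :=
      hincl0 ⟨x, x.2.1⟩ x.2.2
    have hreg : ∀ p, IsIntegral (Q p).toValuationSubring (rho' ⟨x, x.2.1⟩) := fun p =>
      hPmint x p fun α => hx _
    have h0 : UpN.RelIntegral ((0 : Divisor k Fb) + ptDiv Q ∅) (rho' ⟨x, x.2.1⟩) :=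
      relIntegral_drop hQinj (fun _ => rfl) (by rw [zero_add]; exact hxb) (fun p _ _ => hreg p)
    rw [UMain.ptDiv_empty, add_zero] at h0
    obtain ⟨c, hc⟩ := hconstb _ h0
    obtain ⟨a, rfl⟩ := hres c
    refine ⟨a, (hcartW _).mpr ?_⟩
    rw [rho_sub_smul res rho' hrho, hc]
    have h1 : rho' ⟨((⟨1, V'.one_mem, hone_mem⟩ :
        latS A V' hAV (relSpace (F' := F') (ptDiv P Finset.univ))) : F'), V'.one_mem⟩ = 1 :=
      map_one rho'
    rw [h1, mul_one, sub_self]
  · -- `f₀ ∉ 𝔪 Λ`
    intro hmem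
    have h1 := (hcartΛ f₀).mp hmem
    rw [hρf₀'] at h1
    exact inv_ne_zero hΨ0 h1
  · -- `ρ f₀ ∈ 𝔪`
    intro c
    refine hρmem f₀ c ?_
    rw [hρf₀', hΨ, ← map_inv₀]
    refine isIntegral_base _ (Or.inr ?_)
    rw [Place.ord_inv, hψb, hDQ, neg_zero]
  · -- kernel of `ρ` modulo `𝔪`
    intro x hx
    have hxb := hinclD ⟨x, x.2.1⟩ x.2.2
    have hreg : ∀ p, IsIntegral (Q p).toValuationSubring (rho' ⟨x, x.2.1⟩) := fun p =>
      hρint x p fun α => hx _
    have h0 : UpN.RelIntegral (Db + ptDiv Q ∅) (rho' ⟨x, x.2.1⟩) :=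
      relIntegral_drop hQinj hDQ hxb (fun p _ _ => hreg p)
    rw [UMain.ptDiv_empty, add_zero] at h0
    have hψmem : UpN.RelIntegral (-Db) Ψ := by
      rw [hΨ]
      refine relIntegral_base fun w => Or.inr ?_
      rw [hψb, Finsupp.neg_apply, neg_neg]
    have h1 : UpN.RelIntegral (0 : Divisor k Fb) (rho' ⟨x, x.2.1⟩ * Ψ) := by
      have h2 := relIntegral_mul h0 hψmem
      rwa [add_neg_cancel] at h2
    obtain ⟨c, hc⟩ := hconstb _ h1
    obtain ⟨a, rfl⟩ := hres c
    refine ⟨a, (hcartΛ _).mpr ?_⟩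
    rw [rho_sub_smul res rho' hrho, hρf₀', ← hc, mul_assoc, mul_inv_cancel₀ hΨ0, mul_one,
      sub_self]
  · -- lifting inside the blocks
    intro j x hx
    have hxb := hinclD ⟨x, x.2.1⟩ x.2.2
    have hB : UpN.RelIntegral (Db + ptDiv Q (Finset.univ.filter fun i => i.1 = j))
        (rho' ⟨x, x.2.1⟩) :=
      relIntegral_drop hQinj hDQ hxb (fun p _ hp =>
        hρint x p fun α => hx _ (by simpa using hp))
    obtain ⟨yV, hyG, hyρ⟩ := hliftB j _ hB
    have hyΛ : UpN.RelIntegral (D + ptDiv P Finset.univ) (yV : F') :=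
      relIntegral_mono hyG (fun v => by
        rw [Finsupp.add_apply, Finsupp.add_apply]
        have := UMain.ptDiv_mono P
          (Finset.filter_subset (fun i : Fin m × I₁ => i.1 = j) Finset.univ) v
        omega)
    refine ⟨⟨yV, yV.2, hyΛ⟩, ?_, (hcartΛ _).mpr ?_⟩
    · intro c hc
      refine hρzero _ c ?_
      refine isIntegral_self_of_relIntegral hyG _ ?_
      rw [Finsupp.add_apply, hDP, UMain.ptDiv_apply hPinj, if_neg (by simpa using hc), add_zero]
    · rw [rho_sub]
      have h1 : rho' ⟨((⟨yV, yV.2, hyΛ⟩ :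
          latS A V' hAV (relSpace (F' := F') (D + ptDiv P Finset.univ))) : F'), yV.2⟩ =
          rho' ⟨x, x.2.1⟩ := hyρ
      rw [h1, sub_self]
  · -- products over the blocks
    intro y hy
    have hyρ : ∀ j, rho' ⟨(y j : F'), (y j).2.1⟩ = Ψ⁻¹ := by
      intro j
      have h1 := (hcartΛ _).mp (hy j).2
      rw [rho_sub, hρf₀', sub_eq_zero] at h1
      exact h1
    have hyB : ∀ j, UpN.RelIntegral (D + ptDiv P (Finset.univ.filter fun i => i.1 = j))
        (y j : F') := by
      intro j
      refine relIntegral_drop hPinj hDP (y j).2.2 (fun p _ hp => ?_)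
      exact hρdet (y j) p fun α => (hy j).1 _ (by simpa using hp)
    set yV : Fin m → V' := fun j => ⟨y j, (y j).2.1⟩ with hyV
    set gV : V' := (∏ j, yV j) * φ with hgV
    have hgcoe : (gV : F') = (∏ j, (y j : F')) * algebraMap F F' φ₀ := by
      rw [hgV, MulMemClass.coe_mul, SubmonoidClass.coe_finsetProd, hφφ₀]
    have hφmem : UpN.RelIntegral (-(m • D)) (algebraMap F F' φ₀) := by
      refine relIntegral_base fun v => Or.inr ?_
      rw [hφ, Finsupp.neg_apply, neg_neg, Finsupp.smul_apply, nsmul_eq_mul]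
    have hgE : UpN.RelIntegral (ptDiv P Finset.univ) (gV : F') := by
      rw [hgcoe]
      have h1 := relIntegral_mul
        (relIntegral_prod Finset.univ
          (fun j : Fin m => D + ptDiv P (Finset.univ.filter fun i => i.1 = j))
          (fun j => (y j : F')) (fun j _ => hyB j)) hφmem
      refine relIntegral_mono h1 fun v => le_of_eq ?_
      rw [Finsupp.add_apply, Finsupp.finsetSum_apply, Finsupp.neg_apply, Finsupp.smul_apply,
        UMain.ptDiv_sum_fiber P, Finsupp.finsetSum_apply]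
      simp only [Finsupp.add_apply]
      rw [Finset.sum_add_distrib, Finset.sum_const, Finset.card_univ, Fintype.card_fin]
      ring
    refine ⟨⟨gV, gV.2, hgE⟩, fun c => ?_⟩
    set hV : V' := (∏ j ∈ Finset.univ.erase c.1, yV j) * φ with hhV
    have hgfac : gV = yV c.1 * hV := by
      rw [hgV, hhV, ← mul_assoc, Finset.mul_prod_erase _ _ (Finset.mem_univ c.1)]
    have hfac : (tV (pt c) : F') * (gV : F') = ((tV (pt c) : F') * (y c.1 : F')) * (hV : F') := by
      rw [hgfac, MulMemClass.coe_mul]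
      show (tV (pt c) : F') * ((y c.1 : F') * (hV : F')) = _
      ring
    have hhcoe : (hV : F') = (∏ j ∈ Finset.univ.erase c.1, (y j : F')) * algebraMap F F' φ₀ := by
      rw [hhV, MulMemClass.coe_mul, SubmonoidClass.coe_finsetProd, hφφ₀]
    have hhreg : ∀ v ∈ tube (pt c), IsIntegral v.toValuationSubring (hV : F') := by
      intro v hv
      rw [hhcoe]
      refine IsIntegral.mul (IsIntegral.prod _ fun j hj => ?_) ?_
      · refine isIntegral_self_of_relIntegral (hyB j) v ?_
        rw [Finsupp.add_apply, htube_D (pt c) v hv, zero_add, UMain.ptDiv_apply_of_ne ?_]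
        intro p' hp' h
        have hp'j : p'.1 = j := by simpa using hp'
        by_cases hpp : p' = pt c
        · exact (Finset.ne_of_mem_erase hj) (by rw [← hp'j, hpp])
        · exact htube_P (pt c) p' hpp (h ▸ hv)
      · refine isIntegral_base v (Or.inr ?_)
        rw [hφ, htube_D (pt c) v hv, mul_zero]
    obtain ⟨w, hw1, hw2⟩ := htube (pt c) hV hhreg (rt c)
    refine ⟨w, ?_, ?_⟩
    · rw [← hmem_res, map_sub, sub_eq_zero, hω c]
      have h3 : rho' hV = algebraMap k Fb' c0b * Ψ := by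
        rw [hhV, map_mul, map_prod, hφb]
        have h4 : ∀ j ∈ Finset.univ.erase c.1, rho' (yV j) = Ψ⁻¹ := fun j _ => hyρ j
        rw [Finset.prod_congr rfl h4, Finset.prod_const,
          Finset.card_erase_of_mem (Finset.mem_univ _), Finset.card_univ, Fintype.card_fin]
        exact UMain.inv_pow_mul_pow_aux m hm1 Ψ _ hΨ0
      rw [h3] at hw2
      exact hEb.unique _ _ _ _ _ hw2 (hEvcΨ (pt c) (rt c))
    · apply Subtype.ext
      have h4 := (resid_spec htV htP htube_t htube hG0 hG01
        (⟨gV, gV.2, hgE⟩ : latS A V' hAV (relSpace (F' := F') (ptDiv P Finset.univ)))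
        (pt c) (rt c)).1
      have h4' : Ev (pt c) (rt c) ((tV (pt c) : F') * (gV : F'))
          (Pm ⟨gV, gV.2, hgE⟩ c : L) := h4
      rw [hfac] at h4'
      have h5 := hE.mul _ _ _ _ _ _
        ((resid_spec htV htP htube_t htube hG hG1 (y c.1) (pt c) (rt c)).1) hw1
      exact hE.unique _ _ _ _ _ h4' h5
  · -- division by `c̄₀ ψ̄`
    intro g
    by_cases hg0 : rho' ⟨(g : F'), g.2.1⟩ = 0
    · refine ⟨0, fun c => ?_⟩
      rw [map_zero, Pi.zero_apply, zero_mul, zero_sub, neg_mem_iff]
      refine hPmmem g c ?_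
      rw [hg0]
      exact isIntegral_zero
    · have hgb := hincl0 ⟨g, g.2.1⟩ g.2.2
      set hb : Fb' := algebraMap k Fb' c0b⁻¹ * (rho' ⟨g, g.2.1⟩ * Ψ⁻¹) with hhb
      have hhbD : UpN.RelIntegral (Db + ptDiv Q Finset.univ) hb := by
        have hψinv : UpN.RelIntegral Db (Ψ⁻¹) := by
          rw [hΨ, ← map_inv₀]
          refine relIntegral_base fun w => Or.inr ?_
          rw [w.ord_inv, hψb]
        have h1 := relIntegral_smul (relIntegral_mul hgb hψinv) c0b⁻¹
        rwa [add_comm] at h1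
      obtain ⟨hV, hhG, hhρ⟩ := hliftD _ hhbD
      refine ⟨⟨hV, hV.2, hhG⟩, fun c => ?_⟩
      rw [← hmem_res, map_sub, map_mul, sub_eq_zero, hω c]
      have h1 := (resid_spec htV htP htube_t htube hG hG1
        (⟨hV, hV.2, hhG⟩ : latS A V' hAV (relSpace (F' := F') (D + ptDiv P Finset.univ)))
        (pt c) (rt c)).2
      have h2 := (resid_spec htV htP htube_t htube hG0 hG01 g (pt c) (rt c)).2
      have h3 : rho' ⟨((⟨hV, hV.2, hhG⟩ :
          latS A V' hAV (relSpace (F' := F') (D + ptDiv P Finset.univ))) : F'), hV.2⟩ =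
          hb := hhρ
      have h4 : rho' (tV (pt c)) * rho' ⟨(g : F'), g.2.1⟩ =
          (rho' (tV (pt c)) * hb) * (algebraMap k Fb' c0b * Ψ) := by
        have hc0 : algebraMap k Fb' c0b ≠ 0 := by simpa using hc0b
        rw [hhb, map_inv₀]
        field_simp
      rw [h3] at h1
      rw [h4] at h2
      exact (hEb.unique _ _ _ _ _ h2 (hEb.mul _ _ _ _ _ _ h1 (hEvcΨ (pt c) (rt c)))).symm

/-- `false_of_isEval'` with a full evaluation package on the special fibre. -/
theorem false_of_isEval
    {L F F' k Fb Fb' : Type*} [Field L] [Field F] [Algebra L F] [Field F'] [Algebra F F']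
    [Algebra L F'] [IsScalarTower L F F']
    [Field k] [Field Fb] [Algebra k Fb] [Field Fb'] [Algebra Fb Fb'] [Algebra k Fb']
    [IsScalarTower k Fb Fb']
    {A : ValuationSubring L} {res : A →+* k} {V' : ValuationSubring F'} {rho' : V' →+* Fb'}
    (hres : Function.Surjective res)
    (hAV : ∀ a : A, algebraMap L F' (a : L) ∈ V')
    (hrho : ∀ a : A, rho' ⟨algebraMap L F' (a : L), hAV a⟩ = algebraMap k Fb' (res a))
    (hcart : ∀ x : V', rho' x = 0 →
      ∃ c : A, c ∈ maximalIdeal A ∧ ∃ x' : V', (x : F') = algebraMap L F' (c : L) * (x' : F'))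
    {m : ℕ} {I₁ R : Type*} [Fintype I₁] [Fintype R] (hm : (m : k) ≠ 0)
    {P : Fin m × I₁ → Place L F} {Q : Fin m × I₁ → Place k Fb}
    {tube : Fin m × I₁ → Set (Place L F)}
    (hPinj : Function.Injective P) (hQinj : Function.Injective Q)
    (hdegQ : ∀ p, (Q p).deg = 1)
    (hconstb : ∀ y : Fb', UpN.RelIntegral (0 : Divisor k Fb) y → ∃ c : k, y = algebraMap k Fb' c)
    (D : Divisor L F) (Db : Divisor k Fb)
    (φ : V') (φ₀ : F) (hφφ₀ : (φ : F') = algebraMap F F' φ₀)
    (hφ : ∀ v : Place L F, v.ord φ₀ = m * D v)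
    (ψb : Fb) (hψb0 : ψb ≠ 0) (hψb : ∀ w : Place k Fb, w.ord ψb = Db w)
    (c0b : k) (hc0b : c0b ≠ 0)
    (hφb : rho' φ = algebraMap k Fb' c0b * (algebraMap Fb Fb' ψb) ^ m)
    (hDQ : ∀ p, Db (Q p) = 0)
    (t : Fin m × I₁ → F) (tb : Fin m × I₁ → Fb) (tV : Fin m × I₁ → V')
    (htV : ∀ p, (tV p : F') = algebraMap F F' (t p))
    (htVb : ∀ p, rho' (tV p) = algebraMap Fb Fb' (tb p))
    (htP : ∀ p, (P p).ord (t p) = 1) (htQ : ∀ p, (Q p).ord (tb p) = 1)
    (htube_self : ∀ p, P p ∈ tube p)
    (htube_D : ∀ p, ∀ v ∈ tube p, D v = 0)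
    (htube_P : ∀ p p', p' ≠ p → P p' ∉ tube p)
    (htube_t : ∀ p, ∀ v ∈ tube p, t p ∈ v.toValuationSubring)
    (Ev : Fin m × I₁ → R → F' → L → Prop) (Evb : Fin m × I₁ → R → Fb' → k → Prop)
    (hE : IsEval P t Ev) (hEb : IsEval Q tb Evb)
    (htube : ∀ p (y : V'), (∀ v ∈ tube p, IsIntegral v.toValuationSubring (y : F')) →
      ∀ α, ∃ a : A, Ev p α (y : F') (a : L) ∧ Evb p α (rho' y) (res a))
    (hinclD : ∀ x : V', UpN.RelIntegral (D + ptDiv P Finset.univ) (x : F') →
      UpN.RelIntegral (Db + ptDiv Q Finset.univ) (rho' x))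
    (hincl0 : ∀ x : V', UpN.RelIntegral (ptDiv P Finset.univ) (x : F') →
      UpN.RelIntegral (ptDiv Q Finset.univ) (rho' x))
    (hliftD : ∀ yb : Fb', UpN.RelIntegral (Db + ptDiv Q Finset.univ) yb →
      ∃ x : V', UpN.RelIntegral (D + ptDiv P Finset.univ) (x : F') ∧ rho' x = yb)
    (hliftB : ∀ j : Fin m, ∀ yb : Fb',
      UpN.RelIntegral (Db + ptDiv Q (Finset.univ.filter fun i => i.1 = j)) yb →
      ∃ x : V', UpN.RelIntegral (D + ptDiv P (Finset.univ.filter fun i => i.1 = j)) (x : F') ∧
        rho' x = yb)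
    (hfgD : ∃ (n : ℕ) (b : Fin n → F'),
      (∀ s, b s ∈ V' ∧ UpN.RelIntegral (D + ptDiv P Finset.univ) (b s)) ∧
      ∀ x ∈ V', UpN.RelIntegral (D + ptDiv P Finset.univ) x →
        ∃ a : Fin n → A, x = ∑ s, algebraMap L F' (a s : L) * b s)
    (hfg0 : ∃ (n : ℕ) (b : Fin n → F'),
      (∀ s, b s ∈ V' ∧ UpN.RelIntegral (ptDiv P Finset.univ) (b s)) ∧
      ∀ x ∈ V', UpN.RelIntegral (ptDiv P Finset.univ) x →
        ∃ a : Fin n → A, x = ∑ s, algebraMap L F' (a s : L) * b s)
    (hLD : ∀ x : F', UpN.RelIntegral D x → x = 0) :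
    False :=
  false_of_isEval' hres hAV hrho hcart hm hPinj hQinj hdegQ hconstb D Db φ φ₀ hφφ₀ hφ ψb hψb0 hψb
    c0b hc0b hφb hDQ t tb tV htV htVb htP htQ htube_self htube_D htube_P htube_t Ev Evb
    hE hEb.toMul htube hinclD hincl0 hliftD hliftB hfgD hfg0 hLD

end Main


section Wrap

/-- The same theorem with the evaluation packages spelled out (the hypothesis `_hφ0` is not
used; it is kept so that the argument list agrees with the announced interface). -/
theorem false_of_relIntegral_eq_bot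
    {L F F' k Fb Fb' : Type*} [Field L] [Field F] [Algebra L F] [Field F'] [Algebra F F']
    [Algebra L F'] [IsScalarTower L F F']
    [Field k] [Field Fb] [Algebra k Fb] [Field Fb'] [Algebra Fb Fb'] [Algebra k Fb']
    [IsScalarTower k Fb Fb']
    {A : ValuationSubring L} {res : A →+* k} {V' : ValuationSubring F'} {rho' : V' →+* Fb'}
    (hres : Function.Surjective res)
    (hAV : ∀ a : A, algebraMap L F' (a : L) ∈ V')
    (hrho : ∀ a : A, rho' ⟨algebraMap L F' (a : L), hAV a⟩ = algebraMap k Fb' (res a))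
    (hcart : ∀ x : V', rho' x = 0 →
      ∃ c : A, c ∈ maximalIdeal A ∧ ∃ x' : V', (x : F') = algebraMap L F' (c : L) * (x' : F'))
    {m : ℕ} {I₁ R : Type*} [Fintype I₁] [Fintype R] (hm : (m : k) ≠ 0)
    {P : Fin m × I₁ → Place L F} {Q : Fin m × I₁ → Place k Fb}
    {tube : Fin m × I₁ → Set (Place L F)}
    (hPinj : Function.Injective P) (hQinj : Function.Injective Q)
    (hdegQ : ∀ p, (Q p).deg = 1)
    (hconstb : ∀ y : Fb', UpN.RelIntegral (0 : Divisor k Fb) y → ∃ c : k, y = algebraMap k Fb' c)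
    (D : Divisor L F) (Db : Divisor k Fb)
    (φ : V') (φ₀ : F) (hφφ₀ : (φ : F') = algebraMap F F' φ₀) (_hφ0 : φ₀ ≠ 0)
    (hφ : ∀ v : Place L F, v.ord φ₀ = m * D v)
    (ψb : Fb) (hψb0 : ψb ≠ 0) (hψb : ∀ w : Place k Fb, w.ord ψb = Db w)
    (c0b : k) (hc0b : c0b ≠ 0)
    (hφb : rho' φ = algebraMap k Fb' c0b * (algebraMap Fb Fb' ψb) ^ m)
    (hDQ : ∀ p, Db (Q p) = 0)
    (t : Fin m × I₁ → F) (tb : Fin m × I₁ → Fb) (tV : Fin m × I₁ → V')
    (htV : ∀ p, (tV p : F') = algebraMap F F' (t p))
    (htVb : ∀ p, rho' (tV p) = algebraMap Fb Fb' (tb p))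
    (htP : ∀ p, (P p).ord (t p) = 1) (htQ : ∀ p, (Q p).ord (tb p) = 1)
    (htube_self : ∀ p, P p ∈ tube p)
    (htube_D : ∀ p, ∀ v ∈ tube p, D v = 0)
    (htube_P : ∀ p p', p' ≠ p → P p' ∉ tube p)
    (htube_t : ∀ p, ∀ v ∈ tube p, t p ∈ v.toValuationSubring)
    (Ev : Fin m × I₁ → R → F' → L → Prop) (Evb : Fin m × I₁ → R → Fb' → k → Prop)
    (ev_add : ∀ p α y y' a a', Ev p α y a → Ev p α y' a' → Ev p α (y + y') (a + a'))
    (ev_mul : ∀ p α y y' a a', Ev p α y a → Ev p α y' a' → Ev p α (y * y') (a * a'))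
    (ev_unique : ∀ p α y a a', Ev p α y a → Ev p α y a' → a = a')
    (ev_base : ∀ p α (f : F) (c : L),
      (f = algebraMap L F c ∨ 0 < (P p).ord (f - algebraMap L F c)) →
        Ev p α (algebraMap F F' f) c)
    (ev_exists : ∀ p α (y : F'), IsIntegral (P p).toValuationSubring y → ∃ a : L, Ev p α y a)
    (ev_detect : ∀ p (x : F'), (∀ α, Ev p α (algebraMap F F' (t p) * x) 0) →
      IsIntegral (P p).toValuationSubring x)
    (evb_add : ∀ p α y y' a a', Evb p α y a → Evb p α y' a' → Evb p α (y + y') (a + a'))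
    (evb_mul : ∀ p α y y' a a', Evb p α y a → Evb p α y' a' → Evb p α (y * y') (a * a'))
    (evb_unique : ∀ p α y a a', Evb p α y a → Evb p α y a' → a = a')
    (evb_base : ∀ p α (f : Fb) (c : k),
      (f = algebraMap k Fb c ∨ 0 < (Q p).ord (f - algebraMap k Fb c)) →
        Evb p α (algebraMap Fb Fb' f) c)
    (evb_exists : ∀ p α (y : Fb'), IsIntegral (Q p).toValuationSubring y → ∃ a : k, Evb p α y a)
    (evb_detect : ∀ p (x : Fb'), (∀ α, Evb p α (algebraMap Fb Fb' (tb p) * x) 0) →
      IsIntegral (Q p).toValuationSubring x)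
    (htube : ∀ p (y : V'), (∀ v ∈ tube p, IsIntegral v.toValuationSubring (y : F')) →
      ∀ α, ∃ a : A, Ev p α (y : F') (a : L) ∧ Evb p α (rho' y) (res a))
    (hinclD : ∀ x : V', UpN.RelIntegral (D + ptDiv P Finset.univ) (x : F') →
      UpN.RelIntegral (Db + ptDiv Q Finset.univ) (rho' x))
    (hincl0 : ∀ x : V', UpN.RelIntegral (ptDiv P Finset.univ) (x : F') →
      UpN.RelIntegral (ptDiv Q Finset.univ) (rho' x))
    (hliftD : ∀ yb : Fb', UpN.RelIntegral (Db + ptDiv Q Finset.univ) yb →
      ∃ x : V', UpN.RelIntegral (D + ptDiv P Finset.univ) (x : F') ∧ rho' x = yb)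
    (hliftB : ∀ j : Fin m, ∀ yb : Fb',
      UpN.RelIntegral (Db + ptDiv Q (Finset.univ.filter fun i => i.1 = j)) yb →
      ∃ x : V', UpN.RelIntegral (D + ptDiv P (Finset.univ.filter fun i => i.1 = j)) (x : F') ∧
        rho' x = yb)
    (hfgD : ∃ (n : ℕ) (b : Fin n → F'),
      (∀ s, b s ∈ V' ∧ UpN.RelIntegral (D + ptDiv P Finset.univ) (b s)) ∧
      ∀ x ∈ V', UpN.RelIntegral (D + ptDiv P Finset.univ) x →
        ∃ a : Fin n → A, x = ∑ s, algebraMap L F' (a s : L) * b s)
    (hfg0 : ∃ (n : ℕ) (b : Fin n → F'),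
      (∀ s, b s ∈ V' ∧ UpN.RelIntegral (ptDiv P Finset.univ) (b s)) ∧
      ∀ x ∈ V', UpN.RelIntegral (ptDiv P Finset.univ) x →
        ∃ a : Fin n → A, x = ∑ s, algebraMap L F' (a s : L) * b s)
    (hLD : ∀ x : F', UpN.RelIntegral D x → x = 0) :
    False :=
  false_of_isEval hres hAV hrho hcart hm hPinj hQinj hdegQ hconstb D Db φ φ₀ hφφ₀ hφ ψb hψb0 hψb
    c0b hc0b hφb hDQ t tb tV htV htVb htP htQ htube_self htube_D htube_P htube_t Ev Evb
    ⟨ev_add, ev_mul, ev_unique, ev_base, ev_exists, ev_detect⟩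
    ⟨evb_add, evb_mul, evb_unique, evb_base, evb_exists, evb_detect⟩
    htube hinclD hincl0 hliftD hliftB hfgD hfg0 hLD

/-- Contrapositive form: the relative space of `D` contains a nonzero element. -/
theorem exists_ne_zero_of_false {K F F' : Type*} [Field K] [Field F] [Algebra K F] [Field F']
    [Algebra F F'] (D : Divisor K F)
    (h : (∀ x : F', UpN.RelIntegral D x → x = 0) → False) :
    ∃ x : F', x ≠ 0 ∧ UpN.RelIntegral D x := by
  by_contra hne
  push Not at hne
  exact h fun x hx => by_contra fun hx0 => hne x hx0 hx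

end Wrap

section Aux

variable {K F : Type*} [Field K] [Field F] [Algebra K F]

theorem mapDomain_ptDiv {k Fb : Type*} [Field k] [Field Fb] [Algebra k Fb] {ι : Type*}
    (r : Place K F → Place k Fb) (P : ι → Place K F) (T : Finset ι) :
    Finsupp.mapDomain r (ptDiv P T) = ptDiv (fun i => r (P i)) T := by
  rw [ptDiv, ptDiv, Finsupp.mapDomain_finsetSum]
  exact Finset.sum_congr rfl fun i _ => Finsupp.mapDomain_single

theorem degree_ptDiv {ι : Type*} (P : ι → Place K F) (hdeg : ∀ i, (P i).deg = 1)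
    (T : Finset ι) : Divisor.degree (ptDiv P T) = T.card := by
  rw [ptDiv, map_sum]
  simp [Divisor.degree_single, hdeg]

theorem card_filter_fst {m : ℕ} {I₁ : Type*} [Fintype I₁] (j : Fin m) :
    (Finset.univ.filter fun i : Fin m × I₁ => i.1 = j).card = Fintype.card I₁ := by
  classical
  have h : (Finset.univ.filter fun i : Fin m × I₁ => i.1 = j) =
      (Finset.univ : Finset I₁).map ⟨fun s => (j, s), fun a b h => (Prod.mk.inj h).2⟩ := by
    ext ⟨a, b⟩
    simp only [Finset.mem_filter, Finset.mem_univ, true_and, Finset.mem_map]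
    constructor
    · intro hab
      exact ⟨b, Prod.ext hab.symm rfl⟩
    · rintro ⟨s, hs⟩
      exact (congrArg Prod.fst hs).symm
  rw [h, Finset.card_map, Finset.card_univ]

/-- On the special fibre: an element of the auxiliary field which is integral over every
valuation ring of the base function field is a constant. -/
theorem exists_const_of_relIntegral_zero
    {k Fb Fb' : Type*} [Field k] [Field Fb] [Algebra k Fb] [Field Fb'] [Algebra Fb Fb']
    [Algebra k Fb'] [IsScalarTower k Fb Fb']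
    (hconst : ∀ f : Fb, (∀ w : Place k Fb, 0 ≤ w.ord f) → ∃ c : k, f = algebraMap k Fb c)
    (halg : ∀ y : Fb', IsAlgebraic k y → ∃ c : k, y = algebraMap k Fb' c)
    (hpl : Nonempty (Place k Fb))
    (y : Fb') (hy : UpN.RelIntegral (0 : Divisor k Fb) y) : ∃ c : k, y = algebraMap k Fb' c := by
  have hint : ∀ w : Place k Fb, IsIntegral w.toValuationSubring y := fun w =>
    isIntegral_self_of_relIntegral hy w le_rfl
  obtain ⟨w₀⟩ := hpl
  have hyF : IsIntegral Fb y := (hint w₀).tower_top
  have hcoeff : ∀ i, (minpoly Fb y).coeff i ∈ Set.range (algebraMap k Fb) := by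
    intro i
    have h0 : ∃ c : k, (minpoly Fb y).coeff i = algebraMap k Fb c := by
      apply hconst
      intro w
      have h1 : minpoly Fb y =
          (minpoly w.toValuationSubring y).map (algebraMap w.toValuationSubring Fb) :=
        minpoly.isIntegrallyClosed_eq_field_fractions' Fb (hint w)
      have h2 : (minpoly Fb y).coeff i ∈ w.toValuationSubring := by
        rw [h1, Polynomial.coeff_map]
        exact Subtype.prop _
      rcases (RR.mem_valuationSubring_iff w).mp h2 with h3 | h3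
      · rw [h3, Place.ord_zero]
      · exact h3
    obtain ⟨c, hc⟩ := h0
    exact ⟨c, hc.symm⟩
  obtain ⟨q, hq⟩ := (Polynomial.lifts_iff_coeff_lifts _).mpr hcoeff
  have hq : q.map (algebraMap k Fb) = minpoly Fb y := hq
  apply halg
  refine ⟨q, ?_, ?_⟩
  · rintro rfl
    rw [Polynomial.map_zero] at hq
    exact minpoly.ne_zero hyF hq.symm
  · rw [← Polynomial.aeval_map_algebraMap Fb y q, hq, minpoly.aeval]

end Aux

/-! ### The relative lattices and the evaluation data at a generic point (helper28's interface)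

Setting: function fields `F ⊂ F'` over `L` and `Fb ⊂ Fb'` over `k`, a valuation ring `A ⊂ L` with
residue map `res : A →+* k`, Gauss valuation rings `V ⊂ F`, `V' ⊂ F'` with reductions
`rho : V →+* Fb`, `rho' : V' →+* Fb'`, and a reduction map `r` on places of `F`.

* `URel.lat A V' G` : the `A`-lattice `{x ∈ V' | UpN.RelIntegral G x}` of elements of the relative
  Riemann–Roch space of the divisor `G` of `F` which lie in the valuation ring `V'` of `F'`.
* `URel.EvalPt` : the properties of the evaluation maps `vP`, `vQ` on the fibre of `F'/F` over a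
  generic point `P` of `F` (resp. of `Fb'/Fb` over `r P`) used by the torsion argument.
-/

section EvalData

variable {L F F' k Fb Fb' : Type*} [Field L] [Field F] [Field F'] [Algebra L F] [Algebra F F']
  [Algebra L F'] [IsScalarTower L F F']
  [Field k] [Field Fb] [Field Fb'] [Algebra k Fb] [Algebra Fb Fb']

theorem isIntegral_algebraMap_const (P : Place L F) (c : L) :
    IsIntegral P.toValuationSubring (algebraMap L F' c) := by
  have h : algebraMap L F' c
      = algebraMap P.toValuationSubring F' ⟨algebraMap L F c, P.algebraMap_mem' c⟩ := by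
    rw [IsScalarTower.algebraMap_apply L F F']
    rfl
  rw [h]
  exact isIntegral_algebraMap

theorem relIntegral_const_mul (G : Divisor L F) (c : L) {x : F'} (hx : UpN.RelIntegral G x) :
    UpN.RelIntegral G (algebraMap L F' c * x) := by
  intro P t ht
  rw [mul_assoc]
  exact (isIntegral_algebraMap_const P c).mul (hx P t ht)

/-- The `A`-lattice of elements of the relative Riemann–Roch space of `G` lying in `V'`.
(The condition `∀ a : A, a • x ∈ V'` is `x ∈ V'` as soon as `A` maps into `V'`, see `mem_lat`.) -/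
def lat (A : ValuationSubring L) (V' : ValuationSubring F') (G : Divisor L F) :
    Submodule A F' where
  carrier := {x | (∀ a : A, a • x ∈ V') ∧ UpN.RelIntegral G x}
  add_mem' := by
    rintro x y ⟨hx1, hx2⟩ ⟨hy1, hy2⟩
    refine ⟨fun a => ?_, relIntegral_add G hx2 hy2⟩
    rw [smul_add]
    exact V'.add_mem _ _ (hx1 a) (hy1 a)
  zero_mem' := by
    refine ⟨fun a => ?_, relIntegral_zero G⟩
    rw [smul_zero]
    exact V'.zero_mem
  smul_mem' := by
    rintro b x ⟨hx1, hx2⟩
    refine ⟨fun a => ?_, ?_⟩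
    · rw [smul_smul]
      exact hx1 (a * b)
    · have h : b • x = algebraMap L F' (b : L) * x := by
        rw [← Algebra.smul_def]
        rfl
      rw [h]
      exact relIntegral_const_mul G _ hx2

theorem smul_eq_mul (A : ValuationSubring L) (a : A) (x : F') :
    a • x = algebraMap L F' (a : L) * x := by
  rw [← Algebra.smul_def]
  rfl

theorem mem_lat {A : ValuationSubring L} {V' : ValuationSubring F'}
    (hVA : ∀ a : A, algebraMap L F' (a : L) ∈ V') {G : Divisor L F} {x : F'} :
    x ∈ lat A V' G ↔ x ∈ V' ∧ UpN.RelIntegral G x := by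
  constructor
  · rintro ⟨h1, h2⟩
    refine ⟨?_, h2⟩
    have := h1 1
    rwa [one_smul] at this
  · rintro ⟨h1, h2⟩
    refine ⟨fun a => ?_, h2⟩
    rw [smul_eq_mul]
    exact V'.mul_mem _ _ (hVA a) h1

/-- **Evaluation data at a generic point.**  `P` is a place of `F` with reduction `r P`, `t ∈ V` a
coordinate at `P` on the whole tube of `r P` whose reduction is a coordinate at `r P`; `vP y i`
(resp. `vQ z i`) is the value of `y : F'` (resp. `z : Fb'`) at the `i`-th point of the fibre over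
`P` (resp. `r P`), meaningful for `y` integral over the valuation ring of `P`. -/
structure EvalPt (A : ValuationSubring L) (res : A →+* k) (V : ValuationSubring F)
    (rho : V →+* Fb) (V' : ValuationSubring F') (rho' : V' →+* Fb')
    (r : Place L F → Place k Fb)
    (hk : ∀ Q : Place k Fb, Function.Surjective (algebraMap k Q.ResidueField))
    (d : ℕ) (P : Place L F) (t : V) (vP : F' → Fin d → L) (vQ : Fb' → Fin d → k) : Prop where
  ord_t : P.ord (t : F) = 1
  ord_t_tube : ∀ P', r P' = r P → P' ≠ P → P'.ord (t : F) = 0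
  ord_rho_t : (r P).ord (rho t) = 1
  vP_mul : ∀ y z : F', IsIntegral P.toValuationSubring y → IsIntegral P.toValuationSubring z →
    vP (y * z) = vP y * vP z
  vP_add : ∀ y z : F', IsIntegral P.toValuationSubring y → IsIntegral P.toValuationSubring z →
    vP (y + z) = vP y + vP z
  vP_const : ∀ (c : L) (i : Fin d), vP (algebraMap L F' c) i = c
  vP_zero_of_ord_pos : ∀ f : F, 0 < P.ord f → vP (algebraMap F F' f) = 0
  vP_detect : ∀ y : F', IsIntegral P.toValuationSubring y → vP y = 0 →
    ∃ y' : F', IsIntegral P.toValuationSubring y' ∧ y = algebraMap F F' (t : F) * y'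
  vQ_mul : ∀ y z : Fb', IsIntegral (r P).toValuationSubring y →
    IsIntegral (r P).toValuationSubring z → vQ (y * z) = vQ y * vQ z
  vQ_algebraMap : ∀ (f : (r P).toValuationSubring) (i : Fin d),
    vQ (algebraMap Fb Fb' (f : Fb)) i = UpB.evalHom (r P) (hk (r P)) f
  vQ_detect : ∀ y : Fb', IsIntegral (r P).toValuationSubring y → vQ y = 0 →
    ∃ y' : Fb', IsIntegral (r P).toValuationSubring y' ∧ y = algebraMap Fb Fb' (rho t) * y'
  compat : ∀ y : V', (∀ P', r P' = r P → IsIntegral P'.toValuationSubring (y : F')) →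
    IsIntegral (r P).toValuationSubring (rho' y) ∧
      ∀ i, ∃ b : A, vP (y : F') i = (b : L) ∧ vQ (rho' y) i = res b

end EvalData

end Fermat.Agent.S18.URel
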