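import Mathlib

set_option autoImplicit false

/-!
# S18: relative evaluation at a good place (ring form)

`F ⊆ F'` a finite extension, `O` a valuation subring of `F` with a residue map `ev : O → K`
whose kernel is principal, `θ ∈ F'` a primitive element whose minimal polynomial `g` has
coefficients in `O` and separable split reduction.  Then

* `Good.exists_coeffs` : every element of `F'` integral over `O` is `∑ a_s θ^s` with `a_s ∈ O`;
* `Good.coeffs_unique` : the coefficients are unique;
* `Good.eval_eq_of_aeval_eq`, `Good.eval_mul` : for a root `α` of the reduction of `g`,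
  `∑ a_s θ^s ↦ ∑ ev(a_s) α^s` is well defined and multiplicative;
* `Good.coeffs_ev_eq_zero` : the `d` evaluations at the roots detect `ev(a_s) = 0`.
-/

open Polynomial

namespace Fermat.Agent.S18.UpK

variable {F F' K : Type*} [Field F] [Field F'] [Algebra F F'] [FiniteDimensional F F'] [Field K]
  {O : ValuationSubring F} {ev : O →+* K} {θ : F'} {g : O[X]}

/-- `θ` is a primitive element of `F'/F` whose minimal polynomial `g` has coefficients in `O`
and a separable split reduction. -/
structure Good (O : ValuationSubring F) (ev : O →+* K) (θ : F') (g : O[X]) : Prop where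
  monic : g.Monic
  root : aeval θ g = 0
  deg : g.natDegree = Module.finrank F F'
  min : g.map O.subtype = minpoly F θ
  sep : (g.map ev).Separable
  splits : (g.map ev).Splits

/-- The polynomial `∑ a_s X^s`. -/
noncomputable def pol {R : Type*} [CommRing R] {d : ℕ} (a : Fin d → R) : R[X] :=
  ∑ s : Fin d, C (a s) * X ^ (s : ℕ)

theorem degree_pol_lt {R : Type*} [CommRing R] {d : ℕ} (a : Fin d → R) : (pol a).degree < d :=
  degree_sum_fin_lt a

theorem coeff_pol {R : Type*} [CommRing R] {d : ℕ} (a : Fin d → R) (s : Fin d) :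
    (pol a).coeff (s : ℕ) = a s := by
  classical
  rw [pol, finsetSum_coeff]
  simp only [coeff_C_mul_X_pow]
  rw [Finset.sum_eq_single s]
  · simp
  · intro b _ hb
    rw [if_neg]
    intro h
    exact hb (Fin.ext h.symm)
  · intro h
    exact absurd (Finset.mem_univ s) h

theorem map_pol {R S : Type*} [CommRing R] [CommRing S] (f : R →+* S) {d : ℕ} (a : Fin d → R) :
    (pol a).map f = pol (fun s => f (a s)) := by
  simp only [pol, Polynomial.map_sum, Polynomial.map_mul, map_C, Polynomial.map_pow, map_X]

theorem eval_pol {R : Type*} [CommRing R] {d : ℕ} (a : Fin d → R) (x : R) :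
    (pol a).eval x = ∑ s : Fin d, a s * x ^ (s : ℕ) := by
  simp only [pol, eval_finsetSum, eval_mul, eval_C, eval_pow, eval_X]

omit [FiniteDimensional F F'] in
theorem aeval_pol {d : ℕ} (a : Fin d → O) :
    aeval θ (pol a) = ∑ s : Fin d, algebraMap F F' (a s : F) * θ ^ (s : ℕ) := by
  simp only [pol, map_sum, map_mul, aeval_C, map_pow, aeval_X]
  rfl

omit [FiniteDimensional F F'] in
theorem aeval_pol_field {d : ℕ} (a : Fin d → F) :
    aeval θ (pol a) = ∑ s : Fin d, algebraMap F F' (a s) * θ ^ (s : ℕ) := by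
  simp only [pol, map_sum, map_mul, aeval_C, map_pow, aeval_X]

namespace Good

variable (h : Good O ev θ g)
include h

omit [FiniteDimensional F F'] in
theorem natDegree_minpoly : (minpoly F θ).natDegree = Module.finrank F F' := by
  rw [← h.min, natDegree_map_eq_of_injective O.subtype_injective, h.deg]

/-- A polynomial over `F` of degree `< d` vanishing at `θ` is zero. -/
theorem eq_zero_of_aeval_eq_zero {Q : F[X]} (hQ : aeval θ Q = 0)
    (hdeg : Q.degree < (Module.finrank F F' : ℕ)) : Q = 0 := by
  by_contra hQ0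
  have h1 := minpoly.degree_le_of_ne_zero F θ hQ0 hQ
  rw [degree_eq_natDegree (minpoly.ne_zero (Algebra.IsIntegral.isIntegral θ)),
    h.natDegree_minpoly] at h1
  exact absurd (lt_of_le_of_lt h1 hdeg) (lt_irrefl _)

/-- (E1') uniqueness of the coefficients. -/
theorem coeffs_unique (a b : Fin (Module.finrank F F') → F)
    (hab : ∑ s, algebraMap F F' (a s) * θ ^ (s : ℕ) = ∑ s, algebraMap F F' (b s) * θ ^ (s : ℕ)) :
    a = b := by
  have h1 : aeval θ (pol a - pol b) = 0 := by
    rw [map_sub, aeval_pol_field, aeval_pol_field, hab, sub_self]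
  have h2 : (pol a - pol b).degree < (Module.finrank F F' : ℕ) :=
    lt_of_le_of_lt (degree_sub_le _ _) (max_lt (degree_pol_lt a) (degree_pol_lt b))
  have h3 := h.eq_zero_of_aeval_eq_zero h1 h2
  funext s
  have h4 := congrArg (fun p => p.coeff (s : ℕ)) h3
  simp only [coeff_sub, coeff_pol, coeff_zero] at h4
  exact sub_eq_zero.mp h4

/-- A polynomial over `O` vanishing at `θ` is a multiple of `g`. -/
theorem dvd_of_aeval_eq_zero {D : O[X]} (hD : aeval θ D = 0) : g ∣ D := by
  rw [← modByMonic_eq_zero_iff_dvd h.monic]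
  set r := D %ₘ g with hr
  have h1 : aeval θ r = 0 := by
    have h2 := modByMonic_add_div D g
    have h3 := congrArg (aeval θ) h2
    rw [map_add, map_mul, h.root, zero_mul, add_zero, hD] at h3
    exact h3
  have h4 : r.degree < (Module.finrank F F' : ℕ) := by
    have := degree_modByMonic_lt D h.monic
    rwa [degree_eq_natDegree h.monic.ne_zero, h.deg] at this
  have h5 : aeval θ (r.map O.subtype) = 0 := by
    rw [← h1]
    exact aeval_map_algebraMap F θ r
  have h6 := h.eq_zero_of_aeval_eq_zero h5
    (lt_of_le_of_lt (degree_map_le) h4)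
  exact Polynomial.map_injective _ O.subtype_injective (by rw [h6, Polynomial.map_zero])

/-- Evaluation at a root of the reduction of `g` is well defined on `O[θ]`. -/
theorem eval_eq_of_aeval_eq {A B : O[X]} (hAB : aeval θ A = aeval θ B) {α : K}
    (hα : (g.map ev).IsRoot α) : (A.map ev).eval α = (B.map ev).eval α := by
  have h1 : aeval θ (A - B) = 0 := by rw [map_sub, hAB, sub_self]
  obtain ⟨q, hq⟩ := h.dvd_of_aeval_eq_zero h1
  have h2 : (A.map ev).eval α - (B.map ev).eval α = 0 := by
    rw [← eval_sub, ← Polynomial.map_sub, hq, Polynomial.map_mul, eval_mul, hα.eq_zero, zero_mul]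
  exact sub_eq_zero.mp h2

/-- (E2) evaluation at a root is multiplicative. -/
theorem eval_mul {α : K} (hα : (g.map ev).IsRoot α) (a b c : Fin (Module.finrank F F') → O)
    (hc : (∑ s, algebraMap F F' (a s : F) * θ ^ (s : ℕ)) *
        (∑ s, algebraMap F F' (b s : F) * θ ^ (s : ℕ)) =
      ∑ s, algebraMap F F' (c s : F) * θ ^ (s : ℕ)) :
    (∑ s, ev (a s) * α ^ (s : ℕ)) * (∑ s, ev (b s) * α ^ (s : ℕ)) =
      ∑ s, ev (c s) * α ^ (s : ℕ) := by
  have h1 : aeval θ (pol a * pol b) = aeval θ (pol c) := by
    rw [map_mul, aeval_pol, aeval_pol, aeval_pol, hc]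
  have h2 := h.eval_eq_of_aeval_eq h1 hα
  rw [Polynomial.map_mul, Polynomial.eval_mul, map_pol, map_pol, map_pol, eval_pol, eval_pol,
    eval_pol] at h2
  exact h2

/-- (E3) the evaluations at the roots of the reduction of `g` detect vanishing modulo `ev`. -/
theorem coeffs_ev_eq_zero (a : Fin (Module.finrank F F') → O)
    (ha : ∀ α : K, (g.map ev).IsRoot α → ∑ s, ev (a s) * α ^ (s : ℕ) = 0) :
    ∀ s, ev (a s) = 0 := by
  classical
  set p : K[X] := pol (fun s => ev (a s)) with hp
  have hg0 : g.map ev ≠ 0 := (h.monic.map ev).ne_zero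
  have hnodup : (g.map ev).roots.Nodup := nodup_roots h.sep
  have hcard : (g.map ev).roots.toFinset.card = Module.finrank F F' := by
    rw [Multiset.toFinset_card_of_nodup hnodup, ← h.splits.natDegree_eq_card_roots,
      h.monic.natDegree_map ev, h.deg]
  have hp0 : p = 0 := by
    apply eq_zero_of_natDegree_lt_card_of_eval_eq_zero' p (g.map ev).roots.toFinset
    · intro α hα
      rw [Multiset.mem_toFinset, mem_roots hg0] at hα
      rw [hp, eval_pol]
      exact ha α hα
    · rw [hcard]
      by_cases hp00 : p = 0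
      · rw [hp00, natDegree_zero]
        exact Module.finrank_pos
      · exact (natDegree_lt_iff_degree_lt hp00).mpr (degree_pol_lt _)
  intro s
  have h1 := congrArg (fun q => q.coeff (s : ℕ)) hp0
  simpa [hp, coeff_pol] using h1

/-- Every element of `F'` is an `F`-combination of the powers `θ^s`, `s < d`. -/
theorem exists_coeffs_field (y : F') :
    ∃ c : Fin (Module.finrank F F') → F, y = ∑ s, algebraMap F F' (c s) * θ ^ (s : ℕ) := by
  have hli : LinearIndependent F (fun s : Fin (Module.finrank F F') => θ ^ (s : ℕ)) := by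
    rw [Fintype.linearIndependent_iff]
    intro c hc s
    have h1 : c = fun _ => (0 : F) := by
      apply h.coeffs_unique c (fun _ => 0)
      simp only [map_zero, zero_mul, Finset.sum_const_zero]
      rw [← hc]
      exact Finset.sum_congr rfl fun s _ => (Algebra.smul_def _ _).symm
    exact congrFun h1 s
  have hspan := hli.span_eq_top_of_card_eq_finrank' (by simp)
  have hy : y ∈ Submodule.span F (Set.range fun s : Fin (Module.finrank F F') => θ ^ (s : ℕ)) := by
    rw [hspan]; trivial
  obtain ⟨c, hc⟩ := (Submodule.mem_span_range_iff_exists_fun F).mp hy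
  refine ⟨c, ?_⟩
  rw [← hc]
  exact Finset.sum_congr rfl fun s _ => Algebra.smul_def _ _

omit h [FiniteDimensional F F'] in
/-- Non-units of `O` are killed by `ev` when the kernel of `ev` is a nonzero principal ideal. -/
theorem ev_eq_zero_of_not_isUnit (t : O) (ht : ∀ a : O, ev a = 0 → ∃ b : O, a = t * b)
    (ht0 : ev t = 0) (ht' : t ≠ 0) {u : O} (hu : ¬ IsUnit u) : ev u = 0 := by
  by_contra hne
  have hu0 : (u : F) ≠ 0 := by
    intro h0
    apply hne
    have : u = 0 := Subtype.ext h0
    rw [this, map_zero]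
  have ht0' : (t : F) ≠ 0 := fun h0 => ht' (Subtype.ext h0)
  rcases O.mem_or_inv_mem ((t : F) / (u : F)) with hx | hx
  · have e1 : t = u * ⟨_, hx⟩ := by
      apply Subtype.ext
      show (t : F) = (u : F) * ((t : F) / (u : F))
      field_simp
    have e2 : ev u * ev ⟨_, hx⟩ = 0 := by rw [← map_mul, ← e1, ht0]
    rcases mul_eq_zero.mp e2 with h1 | h1
    · exact hne h1
    · obtain ⟨b, hb⟩ := ht _ h1
      apply hu
      have e3 : t * (u * b) = t * 1 := by
        rw [mul_one]
        conv_rhs => rw [e1, hb]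
        ring
      exact IsUnit.of_mul_eq_one b (mul_left_cancel₀ ht' e3)
  · have e1 : u = t * ⟨_, hx⟩ := by
      apply Subtype.ext
      show (u : F) = (t : F) * ((t : F) / (u : F))⁻¹
      field_simp
    apply hne
    rw [e1, map_mul, ht0, zero_mul]

/-- (E1) the integral closure of `O` in `F'` is `⊕ O θ^s`. -/
theorem exists_coeffs (t : O) (ht : ∀ a : O, ev a = 0 → ∃ b : O, a = t * b) (ht0 : ev t = 0)
    (ht' : t ≠ 0) {y : F'} (hy : IsIntegral O y) :
    ∃ a : Fin (Module.finrank F F') → O, y = ∑ s, algebraMap F F' (a s : F) * θ ^ (s : ℕ) := by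
  classical
  obtain ⟨c, hc⟩ := h.exists_coeffs_field y
  by_cases hall : ∀ s, c s ∈ O
  · exact ⟨fun s => ⟨c s, hall s⟩, hc⟩
  exfalso
  push Not at hall
  obtain ⟨s1, hs1⟩ := hall
  obtain ⟨s0, -, hs0⟩ := Finset.exists_max_image Finset.univ (fun s => O.valuation (c s))
    ⟨s1, Finset.mem_univ _⟩
  have hc0 : c s0 ∉ O := by
    intro hmem
    apply hs1
    rw [← ValuationSubring.valuation_le_one_iff] at hmem ⊢
    exact (hs0 s1 (Finset.mem_univ _)).trans hmem
  have hc00 : c s0 ≠ 0 := fun h0 => hc0 (h0 ▸ O.zero_mem)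
  have hu : (c s0)⁻¹ ∈ O := (O.mem_or_inv_mem (c s0)).resolve_left hc0
  set u : O := ⟨(c s0)⁻¹, hu⟩ with hu_def
  have hunit : ¬ IsUnit u := by
    intro hU
    obtain ⟨v, hv⟩ := hU.exists_right_inv
    apply hc0
    have h1 : (c s0)⁻¹ * (v : F) = 1 := congrArg Subtype.val hv
    have h2 : c s0 = (v : F) := by
      field_simp at h1
      exact h1.symm
    rw [h2]
    exact v.2
  have hevu : ev u = 0 := ev_eq_zero_of_not_isUnit t ht ht0 ht' hunit
  have hv0 : 0 < O.valuation (c s0) := by
    rw [Valuation.pos_iff]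
    exact hc00
  have hw : ∀ s, c s / c s0 ∈ O := by
    intro s
    rw [← ValuationSubring.valuation_le_one_iff, map_div₀, div_le_one₀ hv0]
    exact hs0 s (Finset.mem_univ _)
  set w : Fin (Module.finrank F F') → O := fun s => ⟨c s / c s0, hw s⟩ with hw_def
  have hw0 : w s0 = 1 := Subtype.ext (div_self hc00)
  have hz : algebraMap O F' u * y = aeval θ (pol w) := by
    rw [aeval_pol, hc, Finset.mul_sum]
    refine Finset.sum_congr rfl fun s _ => ?_
    rw [← mul_assoc]
    congr 1
    show algebraMap F F' ((c s0)⁻¹) * algebraMap F F' (c s) = algebraMap F F' (c s / c s0)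
    rw [← map_mul, div_eq_inv_mul]
  obtain ⟨H0, hH0m, hH0⟩ := hy
  have hH0' : aeval y H0 = 0 := hH0
  have hHz : aeval (aeval θ (pol w)) (scaleRoots H0 u) = 0 := by
    rw [← hz]
    exact scaleRoots_aeval_eq_zero hH0'
  have hHmap : (scaleRoots H0 u).map ev = X ^ H0.natDegree := by
    ext i
    rw [coeff_map, coeff_scaleRoots, map_mul, map_pow, hevu, coeff_X_pow]
    split_ifs with hi
    · rw [hi, Nat.sub_self, pow_zero, mul_one, hH0m.coeff_natDegree, map_one]
    · by_cases hlt : i < H0.natDegree
      · rw [zero_pow (Nat.sub_ne_zero_of_lt hlt), mul_zero]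
      · rw [coeff_eq_zero_of_natDegree_lt (by omega), map_zero, zero_mul]
  have hcomp : aeval θ ((scaleRoots H0 u).comp (pol w)) = aeval θ (0 : O[X]) := by
    rw [map_zero, aeval_comp]
    exact hHz
  have hroots : ∀ α : K, (g.map ev).IsRoot α → ∑ s, ev (w s) * α ^ (s : ℕ) = 0 := by
    intro α hα
    have h1 := h.eval_eq_of_aeval_eq hcomp hα
    rw [Polynomial.map_zero, eval_zero, Polynomial.map_comp, hHmap, X_pow_comp, eval_pow, map_pol,
      eval_pol] at h1
    exact eq_zero_of_pow_eq_zero h1
  have hfin := h.coeffs_ev_eq_zero w hroots s0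
  rw [hw0, map_one] at hfin
  exact one_ne_zero hfin

end Good

end Fermat.Agent.S18.UpK
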