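import Mathlib
import Fermat.Agent.S18.UpKummer
import Fermat.Agent.S18.UpBase
import Fermat.Agent.S18.LiftTrace
import Fermat.Agent.S18.TubeV
import Fermat.Agent.S18.URel
import Fermat.Agent.S18.UBad

/-!
# S18, chain U: evaluation on the fibres over generic points (no places of the upper field)

`F'/F` finite, `Fb'/Fb` finite separable of the same degree, Gauss valuation rings `V ⊂ F`,
`V' ⊂ F'` with reductions `rho`, `rho'` forming a `LiftT.RedPair`.  A primitive element `θ ∈ V'`
whose reduction generates `Fb'/Fb` has a minimal polynomial `g ∈ V[X]` with separable reduction;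
at a generic point `P` of `F` the specialised polynomial has `d = [F':F]` distinct roots
`α_i ∈ A` whose reductions are the roots of the specialisation of `g.map rho` at `r P`.  The
value of `y = ∑ a_s θ^s` (`a_s` regular at `P`) at the `i`-th point of the fibre is
`∑ a_s(P) α_i^s` (`rootVal`).

* `rootVal`, `rootVal_mul`, `rootVal_add`, `rootVal_algebraMap`,
  `exists_eq_mul_of_rootVal_eq_zero` : the one-place evaluation package.
* `exists_datum` : the primitive element.
* `exists_good_roots` : good reduction at a point of a generic tube.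
* `exists_evalPt` : the evaluation data `URel.EvalPt` at a generic point.
* `exists_pts` : generic points with evaluation data (the hypothesis `hpts` of
  `UMainRel.exists_relIntegral`).
-/

set_option autoImplicit false
set_option linter.unusedSectionVars false

open AlgebraicCurve Polynomial

namespace Fermat.Agent.S18.UpE

noncomputable section

open Fermat.Agent.S18.UpK

section Generic

variable {F F' K : Type*} [Field F] [Field F'] [Algebra F F'] [FiniteDimensional F F'] [Field K]
  {O : ValuationSubring F} {ev : O →+* K} {θ : F'} {g : O[X]}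

open Classical in
/-- The value of `y = ∑ a_s θ^s` (`a_s ∈ O`) at the root `α`: `∑ ev(a_s) α^s`
(junk value `0` if `y` is not of this form). -/
def rootVal (O : ValuationSubring F) (ev : O →+* K) (θ : F') (α : K) (y : F') : K :=
  if h : ∃ a : Fin (Module.finrank F F') → O, y = ∑ s, algebraMap F F' (a s : F) * θ ^ (s : ℕ)
  then ∑ s, ev (h.choose s) * α ^ (s : ℕ) else 0

theorem rootVal_eq (h : Good O ev θ g) (α : K) (a : Fin (Module.finrank F F') → O) {y : F'}
    (hy : y = ∑ s, algebraMap F F' (a s : F) * θ ^ (s : ℕ)) :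
    rootVal O ev θ α y = ∑ s, ev (a s) * α ^ (s : ℕ) := by
  have hex : ∃ a : Fin (Module.finrank F F') → O,
      y = ∑ s, algebraMap F F' (a s : F) * θ ^ (s : ℕ) := ⟨a, hy⟩
  rw [rootVal, dif_pos hex]
  have h1 := hex.choose_spec
  have h2 : (fun s => ((hex.choose s : O) : F)) = fun s => ((a s : O) : F) :=
    h.coeffs_unique _ _ (h1.symm.trans hy)
  have h3 : hex.choose = a := funext fun s => Subtype.ext (congrFun h2 s)
  rw [h3]

/-- `rootVal` of `A(θ)` for a polynomial `A` over `O`, at a root of the reduction of `g`. -/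
theorem rootVal_aeval (h : Good O ev θ g) (t : O) (ht : ∀ a : O, ev a = 0 → ∃ b : O, a = t * b)
    (ht0 : ev t = 0) (ht' : t ≠ 0) {α : K} (hα : (g.map ev).IsRoot α) (A : O[X]) :
    rootVal O ev θ α (aeval θ A) = (A.map ev).eval α := by
  have hθ : IsIntegral O θ := ⟨g, h.monic, h.root⟩
  have hint : IsIntegral O (aeval θ A) := by
    rw [aeval_eq_sum_range]
    exact IsIntegral.sum _ fun i _ => (hθ.pow i).smul _
  obtain ⟨a, ha⟩ := h.exists_coeffs t ht ht0 ht' hint
  rw [rootVal_eq h α a ha]
  have h1 : aeval θ A = aeval θ (pol a) := by rw [aeval_pol, ha]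
  rw [h.eval_eq_of_aeval_eq h1 hα, map_pol, eval_pol]

omit [FiniteDimensional F F'] in
theorem isIntegral_theta (h : Good O ev θ g) : IsIntegral O θ := ⟨g, h.monic, h.root⟩

theorem isIntegral_aeval (h : Good O ev θ g) (A : O[X]) : IsIntegral O (aeval θ A) := by
  rw [aeval_eq_sum_range]
  exact IsIntegral.sum _ fun i _ => ((isIntegral_theta h).pow i).smul _

theorem exists_aeval_eq (h : Good O ev θ g) (t : O) (ht : ∀ a : O, ev a = 0 → ∃ b : O, a = t * b)
    (ht0 : ev t = 0) (ht' : t ≠ 0) {y : F'} (hy : IsIntegral O y) : ∃ A : O[X], aeval θ A = y := by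
  obtain ⟨a, ha⟩ := h.exists_coeffs t ht ht0 ht' hy
  exact ⟨pol a, by rw [aeval_pol, ha]⟩

theorem rootVal_mul (h : Good O ev θ g) (t : O) (ht : ∀ a : O, ev a = 0 → ∃ b : O, a = t * b)
    (ht0 : ev t = 0) (ht' : t ≠ 0) {α : K} (hα : (g.map ev).IsRoot α) {y z : F'}
    (hy : IsIntegral O y) (hz : IsIntegral O z) :
    rootVal O ev θ α (y * z) = rootVal O ev θ α y * rootVal O ev θ α z := by
  obtain ⟨A, rfl⟩ := exists_aeval_eq h t ht ht0 ht' hy
  obtain ⟨B, rfl⟩ := exists_aeval_eq h t ht ht0 ht' hz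
  rw [← map_mul, rootVal_aeval h t ht ht0 ht' hα, rootVal_aeval h t ht ht0 ht' hα,
    rootVal_aeval h t ht ht0 ht' hα, Polynomial.map_mul, eval_mul]

theorem rootVal_add (h : Good O ev θ g) (t : O) (ht : ∀ a : O, ev a = 0 → ∃ b : O, a = t * b)
    (ht0 : ev t = 0) (ht' : t ≠ 0) {α : K} (hα : (g.map ev).IsRoot α) {y z : F'}
    (hy : IsIntegral O y) (hz : IsIntegral O z) :
    rootVal O ev θ α (y + z) = rootVal O ev θ α y + rootVal O ev θ α z := by
  obtain ⟨A, rfl⟩ := exists_aeval_eq h t ht ht0 ht' hy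
  obtain ⟨B, rfl⟩ := exists_aeval_eq h t ht ht0 ht' hz
  rw [← map_add, rootVal_aeval h t ht ht0 ht' hα, rootVal_aeval h t ht ht0 ht' hα,
    rootVal_aeval h t ht ht0 ht' hα, Polynomial.map_add, eval_add]

theorem rootVal_one (h : Good O ev θ g) (t : O) (ht : ∀ a : O, ev a = 0 → ∃ b : O, a = t * b)
    (ht0 : ev t = 0) (ht' : t ≠ 0) {α : K} (hα : (g.map ev).IsRoot α) :
    rootVal O ev θ α (1 : F') = 1 := by
  have h1 : (1 : F') = aeval θ (1 : O[X]) := (map_one _).symm
  rw [h1, rootVal_aeval h t ht ht0 ht' hα, Polynomial.map_one, eval_one]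

theorem rootVal_algebraMap (h : Good O ev θ g) (t : O) (ht : ∀ a : O, ev a = 0 → ∃ b : O, a = t * b)
    (ht0 : ev t = 0) (ht' : t ≠ 0) {α : K} (hα : (g.map ev).IsRoot α) (f : O) :
    rootVal O ev θ α (algebraMap F F' (f : F)) = ev f := by
  have h1 : algebraMap F F' (f : F) = aeval θ (C f : O[X]) := by
    rw [aeval_C]; rfl
  rw [h1, rootVal_aeval h t ht ht0 ht' hα, Polynomial.map_C, eval_C]

theorem rootVal_theta (h : Good O ev θ g) (t : O) (ht : ∀ a : O, ev a = 0 → ∃ b : O, a = t * b)
    (ht0 : ev t = 0) (ht' : t ≠ 0) {α : K} (hα : (g.map ev).IsRoot α) :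
    rootVal O ev θ α θ = α := by
  have h1 := rootVal_aeval h t ht ht0 ht' hα (X : O[X])
  rwa [aeval_X, Polynomial.map_X, eval_X] at h1

/-- **Detection.** An integral element all of whose values at the roots vanish is divisible by
the uniformizer `t` in the integral closure. -/
theorem exists_eq_mul_of_rootVal_eq_zero (h : Good O ev θ g) (t : O)
    (ht : ∀ a : O, ev a = 0 → ∃ b : O, a = t * b) (ht0 : ev t = 0) (ht' : t ≠ 0) {y : F'}
    (hy : IsIntegral O y) (hall : ∀ α : K, (g.map ev).IsRoot α → rootVal O ev θ α y = 0) :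
    ∃ y' : F', IsIntegral O y' ∧ y = algebraMap F F' (t : F) * y' := by
  obtain ⟨a, ha⟩ := h.exists_coeffs t ht ht0 ht' hy
  have h0 : ∀ s, ev (a s) = 0 := by
    apply h.coeffs_ev_eq_zero a
    intro α hα
    rw [← rootVal_eq h α a ha]
    exact hall α hα
  choose b hb using fun s => ht (a s) (h0 s)
  refine ⟨aeval θ (pol b), isIntegral_aeval h _, ?_⟩
  rw [ha, aeval_pol, Finset.mul_sum]
  refine Finset.sum_congr rfl fun s _ => ?_
  rw [hb s, ← mul_assoc, ← map_mul]
  rfl

end Generic


section Datum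

open IntermediateField

variable {F F' κ κ' : Type*} [Field F] [Field F'] [Algebra F F'] [Field κ] [Field κ']
  [Algebra κ κ'] {V : ValuationSubring F} {V' : ValuationSubring F'} {ρ : V →+* κ}
  {ρ' : V' →+* κ'}

/-- **Primitive element with good reduction.**  If `[F':F] = [κ':κ]` and `κ'/κ` is separable,
there is `θ ∈ V'` whose reduction generates `κ'/κ`; its minimal polynomial `g` over `F` has
coefficients in `V`, degree `[F':F]`, and reduces to the (separable) minimal polynomial of the
reduction of `θ`. -/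
theorem exists_datum (h : LiftT.RedPair V V' ρ ρ') [FiniteDimensional F F']
    [FiniteDimensional κ κ'] [Algebra.IsSeparable κ κ']
    (hdeg : Module.finrank F F' = Module.finrank κ κ') :
    ∃ (θ : V') (g : V[X]), g.Monic ∧ g.map V.subtype = minpoly F (θ : F') ∧
      g.natDegree = Module.finrank F F' ∧ g.map ρ = minpoly κ (ρ' θ) ∧
      (g.map ρ).Separable ∧
      LinearIndependent κ (fun s : Fin (Module.finrank F F') => ρ' θ ^ (s : ℕ)) := by
  obtain ⟨θb, hθb⟩ := Field.exists_primitive_element κ κ'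
  obtain ⟨θ, rfl⟩ := h.surj' θb
  obtain ⟨p, hpm, hpmin, hpe⟩ := h.exists_monic_map_eq_minpoly hdeg.le θ
  have hint : IsIntegral κ (ρ' θ) := Algebra.IsIntegral.isIntegral _
  have hroot : aeval (ρ' θ) (p.map ρ) = 0 := by
    rw [aeval_def, eval₂_map]
    exact hpe
  have hdvd : minpoly κ (ρ' θ) ∣ p.map ρ := minpoly.dvd κ _ hroot
  have hdb : (minpoly κ (ρ' θ)).natDegree = Module.finrank κ κ' := by
    rw [← IntermediateField.adjoin.finrank hint, hθb, IntermediateField.finrank_top']
  have hdp : (p.map ρ).natDegree ≤ (minpoly κ (ρ' θ)).natDegree := by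
    rw [hpm.natDegree_map, hdb, ← hdeg,
      ← natDegree_map_eq_of_injective V.subtype_injective p, hpmin]
    exact minpoly.natDegree_le _
  have heq : p.map ρ = minpoly κ (ρ' θ) :=
    eq_of_monic_of_dvd_of_natDegree_le (minpoly.monic hint) (hpm.map ρ) hdvd hdp
  have hnat : p.natDegree = Module.finrank F F' := by
    rw [← hpm.natDegree_map ρ, heq, hdb, hdeg]
  refine ⟨θ, p, hpm, hpmin, hnat, heq, ?_, ?_⟩
  · rw [heq]
    exact Algebra.IsSeparable.isSeparable κ (ρ' θ)
  · have hli := linearIndependent_pow (K := κ) (ρ' θ)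
    have hn : Module.finrank F F' = (minpoly κ (ρ' θ)).natDegree := by rw [hdb, hdeg]
    exact hli.comp (Fin.cast hn) (Fin.cast_injective hn)

end Datum


section Tube

open Fermat.Agent.S18.UpK Fermat.Agent.S20

variable {L F F' k Fb Fb' : Type*} [Field L] [Field F] [Field F'] [Algebra L F] [Algebra F F']
  [Field k] [Field Fb] [Field Fb'] [Algebra k Fb] [Algebra Fb Fb']

theorem res_eq_zero_iff {A : ValuationSubring L} {res : A →+* k}
    (hres : Function.Surjective res) (a : A) :
    res a = 0 ↔ a ∈ IsLocalRing.maximalIdeal A := by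
  have hmax : (RingHom.ker res).IsMaximal := RingHom.ker_isMaximal_of_surjective res hres
  have hker : RingHom.ker res = IsLocalRing.maximalIdeal A := IsLocalRing.eq_maximalIdeal hmax
  rw [← hker, RingHom.mem_ker]

theorem algebraMap_mem_iff {A : ValuationSubring L} {res : A →+* k}
    (hres : Function.Surjective res) {V : ValuationSubring F} {rho : V →+* Fb}
    (hVA : ∀ a : A, algebraMap L F (a : L) ∈ V)
    (hrho : ∀ a : A, rho ⟨algebraMap L F (a : L), hVA a⟩ = algebraMap k Fb (res a)) (c : L) :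
    algebraMap L F c ∈ V ↔ c ∈ A := by
  constructor
  · intro hc
    by_contra hcA
    have hc0 : c ≠ 0 := fun h => hcA (h ▸ A.zero_mem)
    have hinv : c⁻¹ ∈ A := (A.mem_or_inv_mem c).resolve_left hcA
    set b : A := ⟨c⁻¹, hinv⟩ with hb
    have hbres : res b = 0 := by
      rw [res_eq_zero_iff hres, IsLocalRing.mem_maximalIdeal, mem_nonunits_iff]
      intro hu
      obtain ⟨d, hd⟩ := hu.exists_right_inv
      have hd' : c⁻¹ * (d : L) = 1 := by
        have := congrArg Subtype.val hd
        simpa [hb] using this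
      have hdc : (d : L) = c := by
        field_simp at hd'
        exact hd'
      exact hcA (hdc ▸ d.2)
    have h1 : (⟨algebraMap L F c, hc⟩ : V) * ⟨algebraMap L F ((b : A) : L), hVA b⟩ = 1 := by
      apply Subtype.ext
      show algebraMap L F c * algebraMap L F c⁻¹ = 1
      rw [← map_mul, mul_inv_cancel₀ hc0, map_one]
    have h2 := congrArg rho h1
    rw [map_mul, hrho b, hbres, map_zero, mul_zero, map_one] at h2
    exact zero_ne_one h2
  · intro hc
    exact hVA ⟨c, hc⟩

variable [Algebra L F'] [IsScalarTower L F F'] [FiniteDimensional F F']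
  [Algebra k Fb'] [IsScalarTower k Fb Fb'] [FiniteDimensional Fb Fb'] [IsAlgClosed L]
  [IsAlgClosed k]

/-- Good reduction of the primitive element at a point of the tube of `Q`, with the roots of
the reduced minimal polynomial lifted to `A`. -/
theorem exists_good_roots
    (A : ValuationSubring L) (res : A →+* k) (hres : Function.Surjective res)
    (V : ValuationSubring F) (rho : V →+* Fb)
    (hVA : ∀ a : A, algebraMap L F (a : L) ∈ V)
    (hrho : ∀ a : A, rho ⟨algebraMap L F (a : L), hVA a⟩ = algebraMap k Fb (res a))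
    (r : Place L F → Place k Fb)
    (hstar : ∀ x : V, rho x ≠ 0 → ∀ D : Divisor L F, (∀ P, D P = P.ord (x : F)) →
      ∀ Q, Finsupp.mapDomain r D Q = Q.ord (rho x))
    (hdiv : ∀ f : F, f ≠ 0 → ∃ D : Divisor L F, ∀ v, D v = v.ord f)
    (hL : ∀ P : Place L F, Function.Surjective (algebraMap L P.ResidueField))
    (hk : ∀ Q : Place k Fb, Function.Surjective (algebraMap k Q.ResidueField))
    (θ : F') (g : V[X]) (hgm : g.Monic) (hgmin : g.map V.subtype = minpoly F θ)
    (hgdeg : g.natDegree = Module.finrank F F')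
    (P₀ : Place L F) (Q : Place k Fb) (hQ : r P₀ = Q)
    (hcoef : ∀ P'', r P'' = Q → ∀ s, (g.coeff s : F) ∈ P''.toValuationSubring)
    (gQ : Q.toValuationSubring[X]) (hgQ : gQ.map Q.toValuationSubring.subtype = g.map rho)
    (hsep : (gQ.map (UpB.evalHom Q (hk Q))).Separable) :
    ∃ (gP : P₀.toValuationSubring[X]) (α : Fin (Module.finrank F F') → A),
      Good P₀.toValuationSubring (UpB.evalHom P₀ (hL P₀)) θ gP ∧
      Function.Injective (fun i => res (α i)) ∧
      (∀ x : L, (gP.map (UpB.evalHom P₀ (hL P₀))).IsRoot x ↔ ∃ i, x = (α i : L)) ∧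
      (∀ z : k, (gQ.map (UpB.evalHom Q (hk Q))).IsRoot z ↔ ∃ i, z = res (α i)) := by
  subst hQ
  have hlift : g.map V.subtype ∈ Polynomial.lifts P₀.toValuationSubring.subtype := by
    rw [lifts_iff_coeff_lifts]
    intro n
    rw [coeff_map]
    exact ⟨⟨_, hcoef P₀ rfl n⟩, rfl⟩
  obtain ⟨gP, hgP, hgPdeg, hgPm⟩ := lifts_and_natDegree_eq_and_monic hlift (hgm.map _)
  have hcoe : ∀ s, ((gP.coeff s : P₀.toValuationSubring) : F) = (g.coeff s : F) := by
    intro s
    have := congrArg (fun p => p.coeff s) hgP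
    simpa [coeff_map] using this
  have hval : ∀ s, ∃ (a : A) (hq : rho (g.coeff s) ∈ (r P₀).toValuationSubring),
      UpB.evalHom P₀ (hL P₀) (gP.coeff s) = (a : L) ∧
      UpB.evalHom (r P₀) (hk (r P₀)) ⟨rho (g.coeff s), hq⟩ = res a := by
    intro s
    obtain ⟨a, hq, h1, h2⟩ := TubeV.value A res (res_eq_zero_iff hres) V rho
      (algebraMap_mem_iff hres hVA hrho) (fun a _ => hrho a) r hstar hdiv hL hk (g.coeff s) P₀
      (fun P' hP' => hcoef P' hP' s)
    refine ⟨a, hq, ?_, h2⟩
    rw [← h1]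
    congr 1
    exact Subtype.ext (hcoe s)
  choose a hq ha1 ha2 using hval
  have hliftA : gP.map (UpB.evalHom P₀ (hL P₀)) ∈ Polynomial.lifts A.subtype := by
    rw [lifts_iff_coeff_lifts]
    intro n
    rw [coeff_map, ha1 n]
    exact ⟨a n, rfl⟩
  obtain ⟨pA, hpA, hpAdeg, hpAm⟩ := lifts_and_natDegree_eq_and_monic hliftA (hgPm.map _)
  have hpAcoeff : ∀ s, pA.coeff s = a s := by
    intro s
    apply Subtype.ext
    have := congrArg (fun p => p.coeff s) hpA
    simp only [coeff_map] at this
    rw [ha1 s] at this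
    exact this
  have hpAres : pA.map res = gQ.map (UpB.evalHom (r P₀) (hk (r P₀))) := by
    ext s
    rw [coeff_map, coeff_map, hpAcoeff, ← ha2 s]
    congr 1
    apply Subtype.ext
    have := congrArg (fun p => p.coeff s) hgQ
    simp only [coeff_map] at this
    exact this.symm
  have hsepA : (pA.map res).Separable := hpAres ▸ hsep
  obtain ⟨α, hαinj, hαL, hαk, hprod⟩ := UpB.exists_roots A res pA hpAm hsepA
  have hd : pA.natDegree = Module.finrank F F' := by
    rw [hpAdeg, hgPm.natDegree_map, hgPdeg, hgm.natDegree_map, hgdeg]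
  have hsurj : ∀ (p : Fin pA.natDegree → Prop),
      (∃ i, p i) ↔ ∃ i : Fin (Module.finrank F F'), p (Fin.cast hd.symm i) := by
    intro p
    constructor
    · rintro ⟨i, hi⟩
      exact ⟨Fin.cast hd i, by simpa using hi⟩
    · rintro ⟨i, hi⟩
      exact ⟨_, hi⟩
  refine ⟨gP, fun i => α (Fin.cast hd.symm i), ⟨hgPm, ?_, ?_, hgP.trans hgmin, ?_,
    IsAlgClosed.splits _⟩, ?_, ?_, ?_⟩
  · have h1 : aeval θ gP = aeval θ (gP.map (algebraMap P₀.toValuationSubring F)) :=
      (aeval_map_algebraMap F θ gP).symm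
    rw [h1]
    have h2 : gP.map (algebraMap P₀.toValuationSubring F) = minpoly F θ := hgP.trans hgmin
    rw [h2, minpoly.aeval]
  · rw [hgPdeg, hgm.natDegree_map, hgdeg]
  · rw [← hpA, hprod, Polynomial.map_prod]
    simp only [Polynomial.map_sub, Polynomial.map_X, Polynomial.map_C]
    rw [separable_prod_X_sub_C_iff]
    intro i j hij
    have h3 : α i = α j := Subtype.ext hij
    exact hαinj (congrArg res h3)
  · intro i j hij
    have := hαinj hij
    exact Fin.cast_injective _ this
  · intro x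
    rw [← hpA, hαL x]
    exact hsurj fun i => x = (α i : L)
  · intro z
    rw [← hpAres, hαk z]
    exact hsurj fun i => z = res (α i)


theorem sum_cast {M : Type*} [AddCommMonoid M] {n m : ℕ} (h : n = m) (f : Fin n → ℕ → M) :
    ∑ s : Fin m, f (Fin.cast h.symm s) (s : ℕ) = ∑ s : Fin n, f s (s : ℕ) := by
  subst h
  rfl

/-- The `Good` structure of the reduced primitive element at a place where the reduced minimal
polynomial specialises to a separable polynomial. -/
theorem good_bar (Q : Place k Fb)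
    (hk : ∀ Q : Place k Fb, Function.Surjective (algebraMap k Q.ResidueField))
    (θb : Fb') (gb : Fb[X]) (hgb : gb = minpoly Fb θb)
    (hdeg : gb.natDegree = Module.finrank Fb Fb')
    (gQ : Q.toValuationSubring[X]) (hgQ : gQ.map Q.toValuationSubring.subtype = gb)
    (hsep : (gQ.map (UpB.evalHom Q (hk Q))).Separable) :
    Good Q.toValuationSubring (UpB.evalHom Q (hk Q)) θb gQ := by
  have hint : IsIntegral Fb θb := Algebra.IsIntegral.isIntegral _
  have hm : gQ.Monic := monic_of_injective Q.toValuationSubring.subtype_injective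
    (by rw [hgQ, hgb]; exact minpoly.monic hint)
  refine ⟨hm, ?_, ?_, by rw [hgQ, hgb], hsep, IsAlgClosed.splits _⟩
  · have h1 : aeval θb gQ = aeval θb (gQ.map (algebraMap Q.toValuationSubring Fb)) :=
      (aeval_map_algebraMap Fb θb gQ).symm
    rw [h1]
    have h2 : gQ.map (algebraMap Q.toValuationSubring Fb) = minpoly Fb θb := hgQ.trans hgb
    rw [h2, minpoly.aeval]
  · rw [← hdeg, ← hgQ, natDegree_map_eq_of_injective Q.toValuationSubring.subtype_injective]

/-- **Evaluation data at a generic point.** -/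
theorem exists_evalPt
    (A : ValuationSubring L) (res : A →+* k) (hres : Function.Surjective res)
    (V : ValuationSubring F) (rho : V →+* Fb) (V' : ValuationSubring F') (rho' : V' →+* Fb')
    (hRP : LiftT.RedPair V V' rho rho')
    (hVA : ∀ a : A, algebraMap L F (a : L) ∈ V)
    (hrho : ∀ a : A, rho ⟨algebraMap L F (a : L), hVA a⟩ = algebraMap k Fb (res a))
    (r : Place L F → Place k Fb)
    (hstar : ∀ x : V, rho x ≠ 0 → ∀ D : Divisor L F, (∀ P, D P = P.ord (x : F)) →
      ∀ Q, Finsupp.mapDomain r D Q = Q.ord (rho x))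
    (hdiv : ∀ f : F, f ≠ 0 → ∃ D : Divisor L F, ∀ v, D v = v.ord f)
    (hL : ∀ P : Place L F, Function.Surjective (algebraMap L P.ResidueField))
    (hk : ∀ Q : Place k Fb, Function.Surjective (algebraMap k Q.ResidueField))
    (θ : V') (g : V[X]) (hgm : g.Monic) (hgmin : g.map V.subtype = minpoly F (θ : F'))
    (hgdeg : g.natDegree = Module.finrank F F') (hgb : g.map rho = minpoly Fb (rho' θ))
    (hdeg : Module.finrank F F' = Module.finrank Fb Fb')
    (hli : LinearIndependent Fb (fun s : Fin (Module.finrank F F') => rho' θ ^ (s : ℕ)))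
    (P : Place L F) (t : V) (ht1 : P.ord (t : F) = 1)
    (ht2 : ∀ P', r P' = r P → P' ≠ P → P'.ord (t : F) = 0)
    (ht3 : (r P).ord (rho t) = 1)
    (hcoef : ∀ P'', r P'' = r P → ∀ s, (g.coeff s : F) ∈ P''.toValuationSubring)
    (gQ : (r P).toValuationSubring[X])
    (hgQ : gQ.map (r P).toValuationSubring.subtype = g.map rho)
    (hsep : (gQ.map (UpB.evalHom (r P) (hk (r P)))).Separable) :
    ∃ (vP : F' → Fin (Module.finrank F F') → L) (vQ : Fb' → Fin (Module.finrank F F') → k),
      URel.EvalPt A res V rho V' rho' r hk (Module.finrank F F') P t vP vQ := by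
  obtain ⟨gP, α, hGP, hαinj, hαL, hαk⟩ := exists_good_roots A res hres V rho hVA hrho r hstar
    hdiv hL hk (θ : F') g hgm hgmin hgdeg P (r P) rfl hcoef gQ hgQ hsep
  have hGQ : Good (r P).toValuationSubring (UpB.evalHom (r P) (hk (r P))) (rho' θ) gQ :=
    good_bar (r P) hk (rho' θ) (g.map rho) hgb (by rw [hgm.natDegree_map, hgdeg, hdeg]) gQ hgQ
      hsep
  -- uniformizers
  have htP : (t : F) ∈ P.toValuationSubring :=
    (RR.mem_valuationSubring_iff P).mpr (Or.inr (by rw [ht1]; exact zero_le_one))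
  set tP : P.toValuationSubring := ⟨(t : F), htP⟩ with htPdef
  have hu1 := UpB.exists_eq_mul_of_evalHom_eq_zero P (hL P) tP ht1
  have hu2 := UpB.evalHom_uniformizer P (hL P) tP ht1
  have hu3 : tP ≠ 0 := by
    intro h0
    have h1 : (t : F) = 0 := congrArg Subtype.val h0
    rw [h1, Place.ord_zero] at ht1
    exact zero_ne_one ht1
  have htQ : rho t ∈ (r P).toValuationSubring :=
    (RR.mem_valuationSubring_iff (r P)).mpr (Or.inr (by rw [ht3]; exact zero_le_one))
  set tQ : (r P).toValuationSubring := ⟨rho t, htQ⟩ with htQdef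
  have hw1 := UpB.exists_eq_mul_of_evalHom_eq_zero (r P) (hk (r P)) tQ ht3
  have hw2 := UpB.evalHom_uniformizer (r P) (hk (r P)) tQ ht3
  have hw3 : tQ ≠ 0 := by
    intro h0
    have h1 : rho t = 0 := congrArg Subtype.val h0
    rw [h1, Place.ord_zero] at ht3
    exact zero_ne_one ht3
  have hαP : ∀ i, (gP.map (UpB.evalHom P (hL P))).IsRoot (α i : L) :=
    fun i => (hαL _).mpr ⟨i, rfl⟩
  have hαQ : ∀ i, (gQ.map (UpB.evalHom (r P) (hk (r P)))).IsRoot (res (α i)) :=
    fun i => (hαk _).mpr ⟨i, rfl⟩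
  refine ⟨fun y i => rootVal P.toValuationSubring (UpB.evalHom P (hL P)) (θ : F') (α i : L) y,
    fun z i => rootVal (r P).toValuationSubring (UpB.evalHom (r P) (hk (r P))) (rho' θ)
      (res (α i)) z, ?_⟩
  refine ⟨ht1, ht2, ht3, ?_, ?_, ?_, ?_, ?_, ?_, ?_, ?_, ?_⟩
  · -- vP_mul
    intro y z hy hz
    funext i
    exact rootVal_mul hGP tP hu1 hu2 hu3 (hαP i) hy hz
  · -- vP_add
    intro y z hy hz
    funext i
    exact rootVal_add hGP tP hu1 hu2 hu3 (hαP i) hy hz
  · -- vP_const
    intro c i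
    have h1 := rootVal_algebraMap hGP tP hu1 hu2 hu3 (hαP i)
      (algebraMap L P.toValuationSubring c)
    have h2 : algebraMap L F' c
        = algebraMap F F' ((algebraMap L P.toValuationSubring c : P.toValuationSubring) : F) := by
      rw [IsScalarTower.algebraMap_apply L F F']
      rfl
    show rootVal _ _ _ _ (algebraMap L F' c) = c
    rw [h2, h1, UpB.evalHom_algebraMap]
  · -- vP_zero_of_ord_pos
    intro f hf
    funext i
    have hfm : f ∈ P.toValuationSubring :=
      (RR.mem_valuationSubring_iff P).mpr (Or.inr hf.le)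
    have h1 := rootVal_algebraMap hGP tP hu1 hu2 hu3 (hαP i) ⟨f, hfm⟩
    show rootVal _ _ _ _ (algebraMap F F' f) = 0
    rw [h1, UpB.evalHom_eq_iff_ord P (hL P) hfm 0]
    right
    rw [map_zero, sub_zero]
    exact hf
  · -- vP_detect
    intro y hy h0
    exact exists_eq_mul_of_rootVal_eq_zero hGP tP hu1 hu2 hu3 hy (fun β hβ => by
      obtain ⟨i, rfl⟩ := (hαL β).mp hβ
      exact congrFun h0 i)
  · -- vQ_mul
    intro y z hy hz
    funext i
    exact rootVal_mul hGQ tQ hw1 hw2 hw3 (hαQ i) hy hz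
  · -- vQ_algebraMap
    intro f i
    exact rootVal_algebraMap hGQ tQ hw1 hw2 hw3 (hαQ i) f
  · -- vQ_detect
    intro y hy h0
    exact exists_eq_mul_of_rootVal_eq_zero hGQ tQ hw1 hw2 hw3 hy (fun β hβ => by
      obtain ⟨i, rfl⟩ := (hαk β).mp hβ
      exact congrFun h0 i)
  · -- compat
    intro y hy
    obtain ⟨c, hc⟩ := hGP.exists_coeffs_field (y : F')
    have hli' : LinearIndependent Fb (fun s : Fin (Module.finrank F F') =>
        rho' (θ ^ (s : ℕ))) := by
      simpa only [map_pow] using hli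
    have hsum : ∑ s, c s • (((θ ^ (s : ℕ) : V') : F')) = (y : F') := by
      rw [hc]
      refine Finset.sum_congr rfl fun s _ => ?_
      rw [Algebra.smul_def]
      rfl
    have hcV : ∀ s, c s ∈ V := hRP.coeff_mem
      (fun s : Fin (Module.finrank F F') => θ ^ (s : ℕ)) hli' c (by
      rw [hsum]
      exact y.2)
    have hcT : ∀ P', r P' = r P → ∀ s, c s ∈ P'.toValuationSubring := by
      intro P' hP'
      obtain ⟨gP', α', hG', -, -, -⟩ := exists_good_roots A res hres V rho hVA hrho r hstar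
        hdiv hL hk (θ : F') g hgm hgmin hgdeg P' (r P) hP' hcoef gQ hgQ hsep
      obtain ⟨π, hπ⟩ := RR.exists_uniformizer P'
      have hπm : π ∈ P'.toValuationSubring :=
        (RR.mem_valuationSubring_iff P').mpr (Or.inr (by rw [hπ]; exact zero_le_one))
      have hπ0 : (⟨π, hπm⟩ : P'.toValuationSubring) ≠ 0 := by
        intro h0
        have h1 : π = 0 := congrArg Subtype.val h0
        rw [h1, Place.ord_zero] at hπ
        exact zero_ne_one hπ
      obtain ⟨a', ha'⟩ := hG'.exists_coeffs ⟨π, hπm⟩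
        (UpB.exists_eq_mul_of_evalHom_eq_zero P' (hL P') ⟨π, hπm⟩ hπ)
        (UpB.evalHom_uniformizer P' (hL P') ⟨π, hπm⟩ hπ) hπ0 (hy P' hP')
      have heq := hGP.coeffs_unique c (fun s => ((a' s : P'.toValuationSubring) : F))
        (hc.symm.trans ha')
      intro s
      rw [congrFun heq s]
      exact (a' s).2
    have hval : ∀ s, ∃ (a : A) (hq : rho ⟨c s, hcV s⟩ ∈ (r P).toValuationSubring),
        UpB.evalHom P (hL P) ⟨c s, hcT P rfl s⟩ = (a : L) ∧
        UpB.evalHom (r P) (hk (r P)) ⟨rho ⟨c s, hcV s⟩, hq⟩ = res a := fun s =>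
      TubeV.value A res (res_eq_zero_iff hres) V rho (algebraMap_mem_iff hres hVA hrho)
        (fun a _ => hrho a) r hstar hdiv hL hk ⟨c s, hcV s⟩ P (fun P' hP' => hcT P' hP' s)
    choose a hq ha1 ha2 using hval
    have hy' : y = ∑ s, hRP.incl ⟨c s, hcV s⟩ * θ ^ (s : ℕ) := by
      apply Subtype.ext
      rw [hc]
      have h1 : ((∑ s, hRP.incl ⟨c s, hcV s⟩ * θ ^ (s : ℕ) : V') : F')
          = V'.subtype (∑ s, hRP.incl ⟨c s, hcV s⟩ * θ ^ (s : ℕ)) := rfl
      rw [h1, map_sum]
      refine Finset.sum_congr rfl fun s _ => ?_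
      rw [map_mul, map_pow]
      rfl
    have hrho'y : rho' y = ∑ s, algebraMap Fb Fb' ((⟨rho ⟨c s, hcV s⟩, hq s⟩ :
        (r P).toValuationSubring) : Fb) * (rho' θ) ^ (s : ℕ) := by
      conv_lhs => rw [hy']
      rw [map_sum]
      refine Finset.sum_congr rfl fun s _ => ?_
      rw [map_mul, map_pow, hRP.rho'_incl]
    set aQ : Fin (Module.finrank Fb Fb') → (r P).toValuationSubring := fun s =>
      ⟨rho ⟨c (Fin.cast hdeg.symm s), hcV _⟩, hq _⟩ with haQ
    have hrho'y' : rho' y = ∑ s, algebraMap Fb Fb' ((aQ s : (r P).toValuationSubring) : Fb) *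
        (rho' θ) ^ (s : ℕ) := by
      rw [hrho'y]
      exact (sum_cast hdeg (fun s j => algebraMap Fb Fb' ((⟨rho ⟨c s, hcV s⟩, hq s⟩ :
        (r P).toValuationSubring) : Fb) * (rho' θ) ^ j)).symm
    refine ⟨?_, fun i => ⟨∑ s, a s * α i ^ (s : ℕ), ?_, ?_⟩⟩
    · rw [hrho'y]
      refine IsIntegral.sum _ fun s _ => ?_
      refine IsIntegral.mul ?_ ((isIntegral_theta hGQ).pow _)
      have h1 : algebraMap Fb Fb' ((⟨rho ⟨c s, hcV s⟩, hq s⟩ : (r P).toValuationSubring) : Fb)
          = algebraMap (r P).toValuationSubring Fb' ⟨rho ⟨c s, hcV s⟩, hq s⟩ := rfl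
      rw [h1]
      exact isIntegral_algebraMap
    · show rootVal _ _ _ _ (y : F') = _
      rw [rootVal_eq hGP (α i : L) (fun s => ⟨c s, hcT P rfl s⟩) hc]
      have h1 : ((∑ s, a s * α i ^ (s : ℕ) : A) : L) = A.subtype (∑ s, a s * α i ^ (s : ℕ)) :=
        rfl
      rw [h1, map_sum]
      refine Finset.sum_congr rfl fun s _ => ?_
      rw [ha1 s, map_mul, map_pow]
      rfl
    · show rootVal _ _ _ _ (rho' y) = _
      rw [rootVal_eq hGQ (res (α i)) aQ hrho'y', map_sum]
      rw [sum_cast hdeg (fun s j => UpB.evalHom (r P) (hk (r P)) ⟨rho ⟨c s, hcV s⟩, hq s⟩ *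
        res (α i) ^ j)]
      refine Finset.sum_congr rfl fun s _ => ?_
      rw [ha2 s, map_mul, map_pow]

/-- **Generic points with evaluation data.**  Given a coordinate function `x ∈ V` with
generic points (`hgen`), for every finite set `T` of places to avoid and every `n` there are `n`
points with pairwise distinct reductions, outside the tubes met by `T`, each carrying
evaluation data `URel.EvalPt` for the fibres of `F'/F` and `Fb'/Fb`. -/
theorem exists_pts
    (A : ValuationSubring L) (res : A →+* k) (hres : Function.Surjective res)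
    (V : ValuationSubring F) (rho : V →+* Fb) (V' : ValuationSubring F') (rho' : V' →+* Fb')
    (hRP : LiftT.RedPair V V' rho rho')
    (hVA : ∀ a : A, algebraMap L F (a : L) ∈ V)
    (hrho : ∀ a : A, rho ⟨algebraMap L F (a : L), hVA a⟩ = algebraMap k Fb (res a))
    (r : Place L F → Place k Fb)
    (hstar : ∀ x : V, rho x ≠ 0 → ∀ D : Divisor L F, (∀ P, D P = P.ord (x : F)) →
      ∀ Q, Finsupp.mapDomain r D Q = Q.ord (rho x))
    (hdiv : ∀ f : F, f ≠ 0 → ∃ D : Divisor L F, ∀ v, D v = v.ord f)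
    (hdivb : ∀ f : Fb, f ≠ 0 → ∃ D : Divisor k Fb, ∀ v, D v = v.ord f)
    (hL : ∀ P : Place L F, Function.Surjective (algebraMap L P.ResidueField))
    (hk : ∀ Q : Place k Fb, Function.Surjective (algebraMap k Q.ResidueField))
    [Algebra.IsSeparable Fb Fb'] (hdeg : Module.finrank F F' = Module.finrank Fb Fb')
    (x : V)
    (hgen : ∀ (T : Finset (Place L F)) (Tb : Finset (Place k Fb)) (n : ℕ),
      ∃ (P : Fin n → Place L F) (a : Fin n → A),
        Function.Injective (fun i => r (P i)) ∧ (∀ i, r (P i) ∉ Tb) ∧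
        (∀ i, ∀ P' ∈ T, r P' ≠ r (P i)) ∧
        (∀ i, (P i).ord ((x : F) - algebraMap L F (a i : L)) = 1) ∧
        (∀ i P', r P' = r (P i) → P' ≠ P i →
          P'.ord ((x : F) - algebraMap L F (a i : L)) = 0) ∧
        (∀ i, (r (P i)).ord (rho x - algebraMap k Fb (res (a i))) = 1))
    (T : Finset (Place L F)) (n : ℕ) :
    ∃ (P : Fin n → Place L F) (t : Fin n → V)
      (vP : Fin n → F' → Fin (Module.finrank F F') → L)
      (vQ : Fin n → Fb' → Fin (Module.finrank F F') → k),
      Function.Injective (fun i => r (P i)) ∧ (∀ i, ∀ P' ∈ T, r P' ≠ r (P i)) ∧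
      ∀ i, URel.EvalPt A res V rho V' rho' r hk (Module.finrank F F') (P i) (t i) (vP i)
        (vQ i) := by
  classical
  obtain ⟨θ, g, hgm, hgmin, hgdeg, hgb, hgsep, hli⟩ := exists_datum hRP hdeg
  obtain ⟨Tg, hTg⟩ := UBad.exists_finset_coeff_mem_of_subring hdiv V g
  obtain ⟨Tb, hTb⟩ := UBad.exists_finset_separable hdivb hk (g.map rho) hgsep
  obtain ⟨P, a, hinj, hPTb, hPT, ho1, ho2, ho3⟩ := hgen (T ∪ Tg) Tb n
  let t : Fin n → V := fun i => x - ⟨algebraMap L F (a i : L), hVA (a i)⟩
  have htcoe : ∀ i, ((t i : V) : F) = (x : F) - algebraMap L F (a i : L) := fun i => rfl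
  have htrho : ∀ i, rho (t i) = rho x - algebraMap k Fb (res (a i)) := fun i => by
    show rho (x - _) = _
    rw [map_sub, hrho]
  have hex : ∀ i, ∃ (vP : F' → Fin (Module.finrank F F') → L)
      (vQ : Fb' → Fin (Module.finrank F F') → k),
      URel.EvalPt A res V rho V' rho' r hk (Module.finrank F F') (P i) (t i) vP vQ := by
    intro i
    obtain ⟨-, gQ, hgQ, hsepQ⟩ := hTb (r (P i)) (hPTb i)
    refine exists_evalPt A res hres V rho V' rho' hRP hVA hrho r hstar hdiv hL hk θ g hgm hgmin
      hgdeg hgb hdeg hli (P i) (t i) (by rw [htcoe]; exact ho1 i)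
      (fun P' hP' hne => by rw [htcoe]; exact ho2 i P' hP' hne)
      (by rw [htrho]; exact ho3 i) ?_ gQ hgQ hsepQ
    intro P'' hP'' s
    apply hTg
    intro hmem
    exact hPT i P'' (Finset.mem_union_right _ hmem) hP''
  choose vP vQ hE using hex
  exact ⟨P, t, vP, vQ, hinj, fun i P' hP' => hPT i P' (Finset.mem_union_left _ hP'), hE⟩


end Tube

end

end Fermat.Agent.S18.UpE
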