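import Fermat.Agent.S18.TopTorsionPre
import Fermat.Agent.S18.UpEval
import Fermat.Agent.S18.UPts
import Fermat.Agent.S18.PModCB

/-!
# S18, chain U: the torsion theorem at level `M` relative to `N` (top-level statement)

`torsionOfLiftStmtV : TorsionOfLiftStmtV` (the Prop of `Iface2.lean`).

* `TopTorsionPre.torsionOfLiftStmtV_of_pts` reduces the statement to the existence of generic
  points of `F_N` carrying evaluation data for the fibres of `F_M / F_N` and `F̄_M / F̄_N`
  (`TopTorsionPre.PtsStmt`), via the relative multi-block theorem `UMainRel.exists_relIntegral`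
  and the norm step `UpN.isPrincipal_nsmul_of_relIntegral`.
* `TopTorsion.exists_pts_level` provides these points: it is the abstract `UpE.exists_pts` for
  the Gauss valuation rings at the levels `N ∣ M` (reduction pair `UAd.redPair`, equal degrees
  `LiftD.finrank_bar_eq_finrank_fullC`, separability of `F̄_M / F̄_N`), with the coordinate
  function `j` and the generic points of `GenMod.exists_points`.
-/

set_option autoImplicit false
set_option synthInstance.maxHeartbeats 400000
set_option linter.style.haveILetI false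

noncomputable section

open HahnSeries IntermediateField AlgebraicCurve ModularCurve

namespace Fermat.Agent.S18

namespace TopTorsion

open Fermat.Agent.S20

/-- At a place of degree one the constants surject onto the residue field. -/
theorem surjective_of_deg_one {K F : Type*} [Field K] [Field F] [Algebra K F] (v : Place K F)
    (hv : v.deg = 1) : Function.Surjective (algebraMap K v.ResidueField) := by
  intro w
  have h1 : Module.finrank K v.ResidueField = 1 := hv
  obtain ⟨c, hc⟩ := (finrank_eq_one_iff_of_nonzero' (1 : v.ResidueField) one_ne_zero).mp h1 w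
  exact ⟨c, by rw [← hc, Algebra.smul_def, mul_one]⟩

set_option maxHeartbeats 2000000 in
/-- **Generic points with evaluation data at the levels `N ∣ M`.** -/
theorem exists_pts_level {ℓ : ℕ} [Fact ℓ.Prime] (A : ValuationSubring Qb)
    (hA : A.LiesOverPrime ℓ) {N M : ℕ} [NeZero N] [NeZero M] (h : N ∣ M) (hℓM : ¬ ℓ ∣ M)
    (hℓN : ¬ ℓ ∣ N) (r : Place Qb (FN N) → Place (Kb A) (FbN A N))
    (hr : IsPlaceReductionModL A N r)
    (hk : ∀ Q : Place (Kb A) (FbN A N), Function.Surjective (algebraMap (Kb A) Q.ResidueField))
    (T : Finset (Place Qb (FN N))) (n : ℕ) :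
    letI := algOfLE (bar_mono h)
    letI := algOfLE (fullC_mono (Kb A) h)
    ∃ (P : Fin n → Place Qb (FN N)) (t : Fin n → RGB.V N A)
      (vP : Fin n → FN M → Fin (Module.finrank (FN N) (FN M)) → Qb)
      (vQ : Fin n → FbN A M → Fin (Module.finrank (FN N) (FN M)) → Kb A),
      Function.Injective (fun i => r (P i)) ∧ (∀ i, ∀ P' ∈ T, r P' ≠ r (P i)) ∧
      ∀ i, URel.EvalPt A (IsLocalRing.residue A) (RGB.V N A) (RGB.rho N hℓN A hA) (RGB.V M A)
        (RGB.rho M hℓM A hA) r hk (Module.finrank (FN N) (FN M)) (P i) (t i) (vP i) (vQ i) := by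
  letI := algOfLE (bar_mono h)
  letI := algOfLE (fullC_mono (Kb A) h)
  haveI := isScalarTower_algOfLE (bar_mono h)
  haveI := isScalarTower_algOfLE (fullC_mono (Kb A) h)
  haveI := ROR.finite_bar h
  haveI := PModCB.finite_FbN A hA h hℓM
  haveI := ResAC.isAlgClosed_residueField_ratBar A
  haveI := RN.charP_residueField A hA
  haveI := PModCB.isSeparable_FbN A hA h hℓM
  have h0 := PHyp.hyp0_bar N
  have h0b := UPhiB.hyp0_FbN A hA N
  obtain ⟨x, hxj, hxrho⟩ := UPts.exists_j A hA hℓN
  have hdeg : Module.finrank (FN N) (FN M) = Module.finrank (FbN A N) (FbN A M) :=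
    LiftD.finrank_bar_eq_finrank_fullC (Kb A) ℓ h hℓM (UAd.coe_algebraMap_bar h)
      (UAd.coe_algebraMap_fullC h (Kb A))
  exact UpE.exists_pts A (IsLocalRing.residue A) IsLocalRing.residue_surjective (RGB.V N A)
    (RGB.rho N hℓN A hA) (RGB.V M A) (RGB.rho M hℓM A hA) (UAd.redPair h hℓM A hA hℓN)
    (fun a => RG.algebraMap_mem_V A N a) (fun a => RGB.rho_algebraMap N hℓN A hA a) r
    (fun x hx D hD Q => RGB.mapDomain_eq_ord_rho N hℓN A hA hr x hx D hD Q)
    (fun f hf => (h0.principal f hf).imp fun D hD => hD.1)
    (fun f hf => (h0b.principal f hf).imp fun D hD => hD.1)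
    (fun P => surjective_of_deg_one P (h0.deg_one P)) hk hdeg x
    (fun T Tb n => by
      obtain ⟨P, a, h1, h2, h3, h4, h5, -, h7⟩ := GenMod.exists_points hA hr T Tb n
      refine ⟨P, a, h1, h2, h3, ?_, ?_, ?_⟩
      · intro i
        rw [hxj]
        exact h4 i
      · intro i P' hP' hne
        rw [hxj]
        exact h5 i P' hP' hne
      · intro i
        rw [hxrho]
        exact h7 i) T n

/-- The concrete points statement consumed by `TopTorsionPre.torsionOfLiftStmtV_of_pts`. -/
theorem ptsStmt : TopTorsionPre.PtsStmt := fun _ _ A hA _ _ _ _ h hℓM hℓN r hr hk =>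
  ⟨_, fun T n => exists_pts_level A hA h hℓM hℓN r hr hk T n⟩

end TopTorsion

/-- **[chains U + NORM]** the torsion theorem at level `M` relative to `N`. -/
theorem torsionOfLiftStmtV : TorsionOfLiftStmtV :=
  TopTorsionPre.torsionOfLiftStmtV_of_pts TopTorsion.ptsStmt

end Fermat.Agent.S18

end
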