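/-
S18 (wave 7), TOP-TR: the trace descent statement `TraceDescentStmtV` of `Iface2.lean`.

For `N ∣ M ∣ M'`, `ℓ ∤ M'`, `ℓ ∤ [F_M' : F_M]`: a section `y ∈ F̄_M` of the relative Riemann–Roch
space of `r_* G` is also a section at level `M'` (`relIntegral_algebraMap`); a lift `x'` in the
Gauss ring `V_M'`, in the relative Riemann–Roch space of `G`, gives the lift
`x = [F_M' : F_M]⁻¹ · Tr_{F_M'/F_M} x' ∈ V_M` (`relIntegral_trace`), and `rho x = y` because
reduction commutes with the trace (`LiftT.RedPair.trace_mem_and_red`, using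
`[F_M' : F_M] = [F̄_M' : F̄_M]`, `LiftD.finrank_bar_eq_finrank_fullC`).
-/
import Fermat.Agent.S18.Iface2
import Fermat.Agent.S18.LiftTrace
import Fermat.Agent.S18.LiftSqueeze
import Fermat.Agent.S18.LiftDeg

set_option autoImplicit false
set_option synthInstance.maxHeartbeats 400000

noncomputable section

open HahnSeries IntermediateField AlgebraicCurve ModularCurve

namespace Fermat.Agent.S18.TopTR

open Fermat.Agent.S18

/-! ### Relative Riemann–Roch spaces in towers of intermediate fields -/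

section IF

variable {K E : Type*} [Field K] [Field E] [Algebra K E] {S T U : IntermediateField K E}

/-- A section at the intermediate level is a section at the top level. -/
theorem relIntegral_algebraMap (hST : S ≤ T) (hTU : T ≤ U) (G : Divisor K S) (y : T)
    (hy : @UpN.RelIntegral K S T _ _ _ _ (algOfLE hST) G y) :
    @UpN.RelIntegral K S U _ _ _ _ (algOfLE (hST.trans hTU)) G
      (@algebraMap T U _ _ (algOfLE hTU) y) := by
  letI := algOfLE hST
  letI := algOfLE hTU
  letI := algOfLE (hST.trans hTU)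
  have : IsScalarTower S T U := IsScalarTower.of_algebraMap_eq fun _ => rfl
  intro P t ht
  have : IsScalarTower P.toValuationSubring T U := IsScalarTower.of_algebraMap_eq fun _ => rfl
  have h1 := (hy P t ht).algebraMap (B := U)
  rw [map_mul, ← IsScalarTower.algebraMap_apply S T U] at h1
  exact h1

/-- The trace of a section at the top level, times a constant, is a section at the intermediate
level. -/
theorem relIntegral_trace (hST : S ≤ T) (hTU : T ≤ U)
    (h2 : @Module.Finite T U _ _ (algOfLE hTU).toModule) (G : Divisor K S) (x : U)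
    (hx : @UpN.RelIntegral K S U _ _ _ _ (algOfLE (hST.trans hTU)) G x) (c : K) :
    @UpN.RelIntegral K S T _ _ _ _ (algOfLE hST) G
      (algebraMap K T c * @Algebra.trace T U _ _ (algOfLE hTU) x) := by
  letI := algOfLE hST
  letI := algOfLE hTU
  letI := algOfLE (hST.trans hTU)
  have : IsScalarTower S T U := IsScalarTower.of_algebraMap_eq fun _ => rfl
  have := isScalarTower_algOfLE hST
  have : Module.Finite T U := h2
  intro P t ht
  have : IsScalarTower P.toValuationSubring T U := IsScalarTower.of_algebraMap_eq fun _ => rfl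
  have h1 : IsIntegral P.toValuationSubring (Algebra.trace T U (x * algebraMap S U t)) :=
    Algebra.isIntegral_trace (hx P t ht)
  have h3 : Algebra.trace T U (x * algebraMap S U t) = algebraMap S T t * Algebra.trace T U x := by
    rw [IsScalarTower.algebraMap_apply S T U, mul_comm x, ← Algebra.smul_def, map_smul,
      smul_eq_mul]
  rw [h3] at h1
  have h4 : IsIntegral P.toValuationSubring (algebraMap K T c) := by
    have h5 : algebraMap K T c
        = algebraMap P.toValuationSubring T ⟨algebraMap K S c, P.algebraMap_mem' c⟩ := by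
      rw [IsScalarTower.algebraMap_apply K S T]
      rfl
    rw [h5]
    exact isIntegral_algebraMap
  have h6 := h4.mul h1
  have h7 : algebraMap K T c * Algebra.trace T U x * algebraMap S T t
      = algebraMap K T c * (algebraMap S T t * Algebra.trace T U x) := by ring
  rw [h7]
  exact h6

end IF

/-! ### Constants prime to `ℓ` are units of `A` -/

theorem inv_natCast_mem (A : ValuationSubring Qb) {ℓ : ℕ} [Fact ℓ.Prime]
    (hA : A.LiesOverPrime ℓ) (d : ℕ) (hd : ¬ ℓ ∣ d) : ((d : Qb))⁻¹ ∈ A := by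
  have := RN.charP_residueField A hA
  have hres : IsLocalRing.residue A (d : A) ≠ 0 := by
    rw [map_natCast]
    intro h0
    exact hd ((CharP.cast_eq_zero_iff (Kb A) ℓ d).mp h0)
  have hu : IsUnit (d : A) := by
    by_contra hnu
    exact hres ((IsLocalRing.residue_eq_zero_iff _).mpr
      ((IsLocalRing.mem_maximalIdeal _).mpr hnu))
  obtain ⟨u, hu'⟩ := hu
  have h1 : ((u⁻¹ : Aˣ) : A) * (d : A) = 1 := by
    rw [← hu']
    exact u.inv_mul
  have h2 : (((u⁻¹ : Aˣ) : A) : Qb) * (d : Qb) = 1 := by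
    have := congrArg (Subtype.val) h1
    simpa using this
  have hd0 : (d : Qb) ≠ 0 := by
    intro h0
    rw [h0, mul_zero] at h2
    exact zero_ne_one h2
  have h3 : ((d : Qb))⁻¹ = (((u⁻¹ : Aˣ) : A) : Qb) :=
    (eq_inv_of_mul_eq_one_left h2).symm
  rw [h3]
  exact Subtype.mem _


/-! ### The Gauss rings at two levels form a `RedPair` -/

theorem redPair {ℓ : ℕ} [Fact ℓ.Prime] (A : ValuationSubring Qb) (hA : A.LiesOverPrime ℓ)
    {M M' : ℕ} [NeZero M] [NeZero M'] (h' : M ∣ M') (hℓM' : ¬ ℓ ∣ M') :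
    letI := algOfLE (bar_mono h')
    letI := algOfLE (fullC_mono (Kb A) h')
    LiftT.RedPair (RGB.V M A) (RGB.V M' A) (RGB.rho M (fun hd => hℓM' (hd.trans h')) A hA)
      (RGB.rho M' hℓM' A hA) := by
  letI := algOfLE (bar_mono h')
  letI := algOfLE (fullC_mono (Kb A) h')
  refine ⟨fun x => ?_, RGB.rho_surjective M' hℓM' A hA, fun x hx => ?_⟩
  · rw [RG.mem_V, RG.mem_V, algOfLE_algebraMap]
  · obtain ⟨a, b, hb, hab⟩ := (RG.mem_V A M).mp x.2
    apply Subtype.ext
    rw [algOfLE_algebraMap, RGB.coe_rho, RGB.coe_rho, RG.rhoL_eq A M x hb hab,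
      RG.rhoL_eq A M' _ hb (by rw [algOfLE_algebraMap]; exact hab)]

theorem unit_aux {M : ℕ} (d : ℕ) (hd0 : (d : Qb) ≠ 0) :
    algebraMap Qb (FN M) ((d : Qb))⁻¹ * ((d : ℕ) : FN M) = 1 := by
  rw [← map_natCast (algebraMap Qb (FN M)) d, ← map_mul, inv_mul_cancel₀ hd0, map_one]

set_option maxHeartbeats 1600000 in
/-- Reduction commutes with the trace between two levels. -/
theorem trace_red {ℓ : ℕ} [Fact ℓ.Prime] (A : ValuationSubring Qb) (hA : A.LiesOverPrime ℓ)
    {M M' : ℕ} [NeZero M] [NeZero M'] (h' : M ∣ M') (hℓM' : ¬ ℓ ∣ M') :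
    letI := algOfLE (bar_mono h')
    letI := algOfLE (fullC_mono (Kb A) h')
    ∀ z : RGB.V M' A, ∃ hz : Algebra.trace (FN M) (FN M') (z : FN M') ∈ RGB.V M A,
      RGB.rho M (fun hd => hℓM' (hd.trans h')) A hA ⟨_, hz⟩
        = Algebra.trace (FbN A M) (FbN A M') (RGB.rho M' hℓM' A hA z) := by
  letI := algOfLE (bar_mono h')
  letI := algOfLE (fullC_mono (Kb A) h')
  have := RN.charP_residueField A hA
  have : Module.Finite (FN M) (FN M') :=
    LiftD.finite_bar h' (fun a => algOfLE_algebraMap (bar_mono h') a)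
  have hdeg : Module.finrank (FN M) (FN M') = Module.finrank (FbN A M) (FbN A M') :=
    LiftD.finrank_bar_eq_finrank_fullC (Kb A) ℓ h' hℓM'
      (fun a => algOfLE_algebraMap (bar_mono h') a)
      (fun a => algOfLE_algebraMap (fullC_mono (Kb A) h') a)
  have hRed := redPair A hA h' hℓM'
  intro z
  exact LiftT.RedPair.trace_mem_and_red hRed hdeg.le z

/-! ### The trace descent statement -/

set_option maxHeartbeats 3200000 in
/-- **TOP-TR**: the trace descent statement, in the native shape of `Iface2.lean`. -/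
theorem traceDescentStmtV : TraceDescentStmtV := by
  intro ℓ _ A hA N M M' _ _ _ h h' hℓM hℓM' hℓd r hr hgen hL
  obtain ⟨c, hc⟩ := hL
  refine ⟨c, fun G hG y hy => ?_⟩
  have := RN.charP_residueField A hA
  have hfin2 : @Module.Finite (FN M) (FN M') _ _ (algOfLE (bar_mono h')).toModule :=
    @LiftD.finite_bar M M' _ _ h' (algOfLE (bar_mono h'))
      (fun a => algOfLE_algebraMap (bar_mono h') a)
  -- step 1: `y` is a section at level `M'`
  obtain ⟨x', hx'mem, hx'ρ⟩ := hc G hG _
    (relIntegral_algebraMap (fullC_mono (Kb A) h) (fullC_mono (Kb A) h') _ y hy)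
  -- step 2: the trace
  letI := algOfLE (bar_mono h')
  letI := algOfLE (fullC_mono (Kb A) h')
  have : Module.Finite (FN M) (FN M') := hfin2
  have hdeg : Module.finrank (FN M) (FN M') = Module.finrank (FbN A M) (FbN A M') :=
    LiftD.finrank_bar_eq_finrank_fullC (Kb A) ℓ h' hℓM'
      (fun a => algOfLE_algebraMap (bar_mono h') a)
      (fun a => algOfLE_algebraMap (fullC_mono (Kb A) h') a)
  have hd0 : ((levelDeg h' : ℕ) : Qb) ≠ 0 := by
    intro h0
    have h1 : levelDeg h' = 0 := by exact_mod_cast h0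
    exact hℓd (h1 ▸ dvd_zero ℓ)
  have hcA : (((levelDeg h' : ℕ) : Qb))⁻¹ ∈ A := inv_natCast_mem A hA _ hℓd
  obtain ⟨u, hu_def⟩ : ∃ u : RGB.V M A,
      (u : FN M) = algebraMap Qb (FN M) (((levelDeg h' : ℕ) : Qb))⁻¹ :=
    ⟨⟨_, (RG.algebraMap_mem_V_iff A M _).mpr hcA⟩, rfl⟩
  have hu : ((u : RGB.V M A) : FN M) * ((Module.finrank (FbN A M) (FbN A M') : ℕ) : FN M) = 1 := by
    rw [hu_def, ← hdeg]
    exact unit_aux (levelDeg h') hd0
  have htr := trace_red A hA h' hℓM'
  obtain ⟨hmem, hρ⟩ := LiftS.trace_descent (RGB.V M A) (RGB.V M' A) (RGB.rho M hℓM A hA)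
    (RGB.rho M' hℓM' A hA) htr u hu y x' hx'ρ
  refine ⟨⟨_, hmem⟩, ?_, hρ⟩
  have h1 := relIntegral_trace (bar_mono h) (bar_mono h') hfin2 G (x' : FN M') hx'mem
    (((levelDeg h' : ℕ) : Qb))⁻¹
  rw [← hu_def] at h1
  exact h1

end Fermat.Agent.S18.TopTR

end
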