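import Fermat.Agent.S20.RRBasic
import Fermat.Agent.S24.PlacesMore
import Fermat.Agent.S24.Mod.Degree

/-!
# S18, chain C0, piece H: Riemann's inequality with an explicit constant

* `riemann_of_bound`: the proof of `S20.RR.exists_bound` with the constant kept visible: if
  `ℓ(l • B) ≥ l · deg B - c` for all `l` (for one effective `B` of positive degree), then
  `deg D - ℓ(D) ≤ c` for every divisor `D`.
* `riemann_of_lattice`: the form consumed by the assembly: `J ≥ 0`, `deg J ≤ n`,
  `ℓ(l • J) ≥ l n + 1 - g` for all `l` ⇒ `deg J = n` and `ℓ(D) ≥ deg D + 1 - g` for all `D`.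
* `hyp0_FF`: the basic hypotheses `RR.Hyp0` for the function field of `X₀(N)` over an
  algebraically closed field of characteristic zero embedded in `ℂ`.
-/

set_option autoImplicit false

noncomputable section

namespace Fermat.Agent.S18.C0H

open AlgebraicCurve Module
open Fermat.Agent.S20.RR

variable {K F : Type*} [Field K] [Field F] [Algebra K F]

/-- Riemann's inequality with an explicit constant (the proof of `S20.RR.exists_bound`, with the
constant of the hypothesis kept). -/
theorem riemann_of_bound (h0 : Hyp0 K F) (B : Divisor K F) (c : ℤ)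
    (hBdeg : 0 < Divisor.degree B)
    (hB : ∀ l : ℕ, (l : ℤ) * Divisor.degree B - c
      ≤ (Module.finrank K (riemannRochSpace (l • B)) : ℤ))
    (D : Divisor K F) : Divisor.degree D - ell D ≤ c := by
  -- an effective divisor above `D`
  set D₁ : Divisor K F := D ⊔ 0 with hD₁
  have hDD₁ : D ≤ D₁ := le_sup_left
  have hD₁0 : 0 ≤ D₁ := le_sup_right
  -- choose `l` large
  obtain ⟨l, hl⟩ : ∃ l : ℕ, c + Divisor.degree D₁ < (l : ℤ) * Divisor.degree B := by
    obtain ⟨l, hl⟩ := exists_nat_gt ((c + Divisor.degree D₁ : ℤ) : ℚ)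
    refine ⟨l, ?_⟩
    have h1 : (c + Divisor.degree D₁ : ℤ) < (l : ℤ) := by exact_mod_cast hl
    have h2 : (l : ℤ) ≤ (l : ℤ) * Divisor.degree B := by
      have : (0 : ℤ) ≤ l := Int.natCast_nonneg l
      nlinarith
    omega
  have hle : (l • B - D₁ : Divisor K F) ≤ l • B := sub_le_self _ hD₁0
  have h1 := ell_sub_le h0 hle
  have h2 := hB l
  have hdeg : Divisor.degree (l • B - D₁ : Divisor K F)
      = l * Divisor.degree B - Divisor.degree D₁ := by
    rw [map_sub, map_nsmul, nsmul_eq_mul]
  have hpos : 0 < ell (l • B - D₁ : Divisor K F) := by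
    have : (ell (l • B : Divisor K F) : ℤ) = Module.finrank K (riemannRochSpace (l • B)) := rfl
    rw [hdeg, map_nsmul, nsmul_eq_mul] at h1
    omega
  -- a nonzero element of `L(lB - D₁)`
  have hfin := finite h0 (l • B - D₁ : Divisor K F)
  have hnt : Nontrivial (riemannRochSpace (l • B - D₁ : Divisor K F)) :=
    Module.nontrivial_of_finrank_pos (R := K) hpos
  obtain ⟨⟨z, hz⟩, hz0⟩ := exists_ne (0 : riemannRochSpace (l • B - D₁ : Divisor K F))
  have hz0' : z ≠ 0 := fun hh => hz0 (Subtype.ext hh)
  obtain ⟨Dz, hDz, -⟩ := h0.principal z hz0'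
  set D₂ : Divisor K F := D₁ - Dz with hD₂
  have hD₂v : ∀ v, D₂ v = D₁ v + v.ord z⁻¹ := by
    intro v
    rw [hD₂, Finsupp.sub_apply, hDz v, v.ord_inv]
    ring
  have hD₂le : D₂ ≤ l • B := by
    rw [Finsupp.le_def]
    intro v
    have h3 := ((mem_riemannRochSpace_iff.mp hz) v).resolve_left hz0'
    rw [Finsupp.sub_apply] at h3
    rw [hD₂, Finsupp.sub_apply, hDz v]
    omega
  have e1 := ell_congr (inv_ne_zero hz0') hD₂v
  have e2 := degree_congr h0 (inv_ne_zero hz0') hD₂v
  have e3 := ell_sub_le h0 hDD₁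
  have e4 := ell_sub_le h0 hD₂le
  rw [map_nsmul, nsmul_eq_mul] at e4
  have : (ell (l • B : Divisor K F) : ℤ) = Module.finrank K (riemannRochSpace (l • B)) := rfl
  omega

/-- The lattice form of Riemann's inequality determines the degree of the pole divisor. -/
theorem degree_eq_of_lattice (h0 : Hyp0 K F) (n g : ℕ) (J : Divisor K F) (hJ0 : 0 ≤ J)
    (hJdeg : Divisor.degree J ≤ n)
    (hL : ∀ l : ℕ, (l : ℤ) * n + 1 - g ≤ (Module.finrank K (riemannRochSpace (l • J)) : ℤ)) :
    Divisor.degree J = n := by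
  have h1 := hL (g + 1)
  have hnn : (0 : Divisor K F) ≤ (g + 1) • J := nsmul_nonneg hJ0 _
  have h2 := (finite_and_ell_le_of_nonneg h0 ((g + 1) • J) hnn).2
  rw [map_nsmul, nsmul_eq_mul] at h2
  have h3 : (ell ((g + 1) • J : Divisor K F) : ℤ)
      = Module.finrank K (riemannRochSpace ((g + 1) • J)) := rfl
  by_contra hne
  have hlt : Divisor.degree J + 1 ≤ n := by omega
  have h4 : ((g + 1 : ℕ) : ℤ) * (Divisor.degree J + 1) ≤ ((g + 1 : ℕ) : ℤ) * n :=
    mul_le_mul_of_nonneg_left hlt (Int.natCast_nonneg _)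
  push_cast at h1 h2 h4
  nlinarith

/-- **C0-H**: Riemann's inequality with constant `g` from the lattice inequality for the multiples
of one effective divisor `J` of degree at most `n`. -/
theorem riemann_of_lattice (h0 : Hyp0 K F) (n g : ℕ) (hn : 0 < n) (J : Divisor K F) (hJ0 : 0 ≤ J)
    (hJdeg : Divisor.degree J ≤ n)
    (hL : ∀ l : ℕ, (l : ℤ) * n + 1 - g ≤ (Module.finrank K (riemannRochSpace (l • J)) : ℤ))
    (D : Divisor K F) : Divisor.degree D + 1 - g ≤ ell D := by
  have hdeg := degree_eq_of_lattice h0 n g J hJ0 hJdeg hL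
  have h := riemann_of_bound h0 J ((g : ℤ) - 1) (by rw [hdeg]; exact_mod_cast hn)
    (fun l => by rw [hdeg]; have := hL l; omega) D
  omega

section Modular

open ModularCurve Fermat.Agent.S24

variable {L : Type*} [Field L] [Algebra ℚ L] [IsAlgClosed L]

/-- The basic hypotheses of Riemann–Roch for the function field of `X₀(N)` over an algebraically
closed field of characteristic zero which embeds into `ℂ`. -/
theorem hyp0_FF (ι : L →+* ℂ) (N : ℕ) [NeZero N] : Hyp0 L ↥(FF L N) := by
  have : CharZero L := algebraRat.charZero L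
  have := Degree.finiteDimensional ι N
  exact
    { deg_one := fun v => Places.deg_one (jElt L N) v
      principal := fun _ hf => Places.exists_principal_divisor (jElt L N) hf
      const := fun _ h => Places.exists_const_of_ord_nonneg (jElt L N) h }

/-- An embedding of `ℚ̄` into `ℂ`. -/
theorem exists_embedding : ∃ _ι : AlgebraicClosure ℚ →+* ℂ, True := by
  let _ : Algebra ℚ (AlgebraicClosure ℚ) := AlgebraicClosure.instAlgebra ℚ
  have := AlgebraicClosure.isAlgebraic ℚ
  exact ⟨(IsAlgClosed.lift (R := ℚ) (S := AlgebraicClosure ℚ) (M := ℂ)).toRingHom, trivial⟩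

/-- `RR.Hyp0` for the frozen function field `modularFunctionFieldBar N` over `ℚ̄`. -/
theorem hyp0_bar (N : ℕ) [NeZero N] :
    Hyp0 (AlgebraicClosure ℚ) ↥(modularFunctionFieldBar N) := by
  obtain ⟨ι, -⟩ := exists_embedding
  exact hyp0_FF ι N

end Modular

end Fermat.Agent.S18.C0H

end
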