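import Fermat.Agent.S20.RRLite.Main
import Fermat.Agent.S24.Defs

/-!
# S18, chain CL, piece CL3 (abstract core): counting the points over finite places by
Laurent-series embeddings

`K` a field, `F` a finite extension of `RatFunc K` (RRLite setting).  Given a finite family of
`K`-embeddings `σ i : F → K((u))`, permuted by `T` compatibly with constant terms and orders, and,
for every `a` in a finite set `A₀ ⊆ K`, a subfamily `J a` of `[F : K(X)]` pairwise distinct
embeddings extending one embedding `ι a` of `K(X)` centred at `a`, we get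

  `∑ a ∈ A₀, rFin K F a ≤ cyc T`

(`rFin K F a` = number of points of the curve over `X = a`, `cyc T` = number of orbits of `T`).
-/

set_option autoImplicit false

namespace Fermat.Agent.S18.CLCount

open Polynomial Module
open Fermat.Agent.S20.RRLite

noncomputable section

variable {K : Type*} [Field K]

/-- The order valuation of `K((u))`. -/
abbrev vv : AddValuation (LaurentSeries K) (WithTop ℤ) := HahnSeries.addVal ℤ K

theorem vv_apply (x : LaurentSeries K) : vv x = x.orderTop := HahnSeries.addVal_apply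

theorem vv_C {c : K} (hc : c ≠ 0) : vv (HahnSeries.C c : LaurentSeries K) = 0 := by
  rw [vv_apply]
  exact HahnSeries.orderTop_single hc

theorem vv_C_nonneg (c : K) : 0 ≤ vv (HahnSeries.C c : LaurentSeries K) := by
  by_cases hc : c = 0
  · rw [hc, map_zero, AddValuation.map_zero]; exact le_top
  · rw [vv_C hc]

/-- A series of nonnegative order with vanishing constant term has order at least one. -/
theorem one_le_vv {x : LaurentSeries K} (h0 : 0 ≤ vv x) (hc : x.coeff 0 = 0) : 1 ≤ vv x := by
  rw [vv_apply] at h0 ⊢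
  by_cases hx : x = 0
  · rw [hx, HahnSeries.orderTop_zero]; exact le_top
  · have h1 := HahnSeries.order_eq_orderTop_of_ne_zero hx
    rw [← h1] at h0 ⊢
    have h2 : (0 : ℤ) ≤ x.order := by exact_mod_cast h0
    have h3 : x.order ≠ 0 := by
      intro h
      have := HahnSeries.coeff_orderTop_ne h1.symm
      rw [h] at this
      exact this hc
    have h4 : (1 : ℤ) ≤ x.order := by omega
    exact_mod_cast h4

/-- Integral elements go to series of nonnegative order. -/
theorem vv_nonneg_of_isIntegral {R F : Type*} [CommRing R] [CommRing F] [Algebra R F]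
    (φ : F →+* LaurentSeries K) (hφ : ∀ r : R, 0 ≤ vv (φ (algebraMap R F r))) {b : F}
    (hb : IsIntegral R b) : 0 ≤ vv (φ b) := by
  obtain ⟨p, hp, hroot⟩ := hb
  by_contra hneg
  rw [not_le] at hneg
  set n := p.natDegree with hn
  have hsum : φ b ^ n = -∑ m ∈ Finset.range n, φ (algebraMap R F (p.coeff m)) * φ b ^ m := by
    have h1 := congrArg φ hroot
    rw [Polynomial.eval₂_eq_sum_range, map_zero, map_sum, Finset.sum_range_succ] at h1
    have h2 : p.coeff p.natDegree = 1 := hp
    rw [h2, map_one, one_mul, map_pow] at h1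
    rw [eq_neg_iff_add_eq_zero, add_comm, ← h1]
    congr 1
    apply Finset.sum_congr rfl
    intro m _
    rw [map_mul, map_pow]
  have htop : vv (φ b) ≠ ⊤ := ne_top_of_lt hneg
  obtain ⟨t, ht⟩ := WithTop.ne_top_iff_exists.mp htop
  have ht0 : t < 0 := by
    rw [← ht] at hneg
    exact_mod_cast hneg
  have hlt : (n • vv (φ b) : WithTop ℤ) <
      vv (∑ m ∈ Finset.range n, φ (algebraMap R F (p.coeff m)) * φ b ^ m) := by
    apply AddValuation.map_lt_sum'
    · rw [← ht, ← WithTop.coe_nsmul]; exact WithTop.coe_lt_top _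
    · intro m hm
      rw [Finset.mem_range] at hm
      rw [AddValuation.map_mul, AddValuation.map_pow, ← ht, ← WithTop.coe_nsmul,
        ← WithTop.coe_nsmul]
      have h1 : ((n • t : ℤ) : WithTop ℤ) < ((m • t : ℤ) : WithTop ℤ) := by
        have : n • t < m • t := by
          simp only [nsmul_eq_mul]
          have hmn : (m : ℤ) < n := by exact_mod_cast hm
          nlinarith
        exact_mod_cast this
      exact lt_of_lt_of_le h1 (le_add_of_nonneg_left (hφ _))
  rw [← AddValuation.map_pow, hsum, AddValuation.map_neg] at hlt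
  exact lt_irrefl _ hlt

/-! ### A filtration on an overfield of `K((u))` -/

section Fil

variable {Ωb : Type*} [Field Ωb] (inc : LaurentSeries K →+* Ωb)

/-- `y` is the image of a series of order at least `s`. -/
def Fil (s : ℕ) (y : Ωb) : Prop := ∃ x : LaurentSeries K, ((s : ℤ) : WithTop ℤ) ≤ vv x ∧ inc x = y

theorem fil_zero (s : ℕ) : Fil inc s 0 := ⟨0, by rw [AddValuation.map_zero]; exact le_top, map_zero _⟩

theorem fil_one : Fil inc 0 1 :=
  ⟨1, by rw [AddValuation.map_one]; exact le_of_eq (by norm_cast), map_one _⟩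

variable {inc}

theorem Fil.add {s : ℕ} {y y' : Ωb} (h : Fil inc s y) (h' : Fil inc s y') : Fil inc s (y + y') := by
  obtain ⟨x, hx, rfl⟩ := h
  obtain ⟨x', hx', rfl⟩ := h'
  exact ⟨x + x', le_trans (le_min hx hx') (AddValuation.map_add _ _ _), map_add _ _ _⟩

theorem Fil.neg {s : ℕ} {y : Ωb} (h : Fil inc s y) : Fil inc s (-y) := by
  obtain ⟨x, hx, rfl⟩ := h
  exact ⟨-x, by rwa [AddValuation.map_neg], map_neg _ _⟩

theorem Fil.sub {s : ℕ} {y y' : Ωb} (h : Fil inc s y) (h' : Fil inc s y') : Fil inc s (y - y') := by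
  rw [sub_eq_add_neg]
  exact h.add h'.neg

theorem Fil.mul {s t : ℕ} {y y' : Ωb} (h : Fil inc s y) (h' : Fil inc t y') :
    Fil inc (s + t) (y * y') := by
  obtain ⟨x, hx, rfl⟩ := h
  obtain ⟨x', hx', rfl⟩ := h'
  refine ⟨x * x', ?_, map_mul _ _ _⟩
  rw [AddValuation.map_mul]
  have : (((s + t : ℕ) : ℤ) : WithTop ℤ) = ((s : ℤ) : WithTop ℤ) + ((t : ℤ) : WithTop ℤ) := by
    push_cast
    rfl
  rw [this]
  exact add_le_add hx hx'

theorem Fil.congr {s t : ℕ} {y : Ωb} (h : Fil inc s y) (hst : s = t) : Fil inc t y := hst ▸ h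

/-- The coefficients of a product of linear factors with roots in the `M`-th step of the
filtration. -/
theorem fil_coeff_prod (M : ℕ) (R : Multiset Ωb) (hR : ∀ r ∈ R, Fil inc M r) :
    ∀ m, m ≤ Multiset.card R →
      Fil inc ((Multiset.card R - m) * M) ((R.map (fun r => X - C r)).prod.coeff m) := by
  induction R using Multiset.induction_on with
  | empty =>
    intro m hm
    have hm0 : m = 0 := by simpa using hm
    subst hm0
    simpa using fil_one inc
  | cons r R ih =>
    have ih' := ih (fun r' hr' => hR r' (Multiset.mem_cons_of_mem hr'))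
    have hr := hR r (Multiset.mem_cons_self r R)
    intro m hm
    rw [Multiset.card_cons] at hm ⊢
    rw [Multiset.map_cons, Multiset.prod_cons]
    set g := (R.map (fun r => X - C r)).prod with hg
    have hdeg : g.natDegree = Multiset.card R := natDegree_multiset_prod_X_sub_C_eq_card R
    rcases Nat.eq_zero_or_pos m with hm0 | hmpos
    · subst hm0
      rw [Polynomial.mul_coeff_zero]
      have h1 : (X - C r : Ωb[X]).coeff 0 = -r := by simp
      rw [h1]
      refine (hr.neg.mul (ih' 0 (Nat.zero_le _))).congr ?_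
      simp only [Nat.sub_zero]
      ring
    · obtain ⟨a, rfl⟩ : ∃ a, m = a + 1 := ⟨m - 1, by omega⟩
      rw [Polynomial.coeff_X_sub_C_mul]
      have ha : a ≤ Multiset.card R := by omega
      have hidx : Multiset.card R + 1 - (a + 1) = Multiset.card R - a := by omega
      rw [hidx]
      refine (ih' a ha).sub ?_
      rcases Nat.lt_or_ge a (Multiset.card R) with hlt | hge
      · refine (hr.mul (ih' (a + 1) hlt)).congr ?_
        have : Multiset.card R - a = (Multiset.card R - (a + 1)) + 1 := by omega
        rw [this]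
        ring
      · have h0 : g.coeff (a + 1) = 0 :=
          Polynomial.coeff_eq_zero_of_natDegree_lt (by rw [hdeg]; omega)
        rw [h0, mul_zero]
        exact fil_zero inc _

end Fil

/-! ### Orders of polynomials under an embedding centred at a finite point -/

section PolyOrder

variable (a : K) (ιa : RatFunc K →+* LaurentSeries K)
  (hιC : ∀ c : K, ιa (RatFunc.C c) = HahnSeries.C c)
  (hcen : 0 < vv (ιa (RatFunc.X - RatFunc.C a)))

include hιC hcen in
theorem vv_poly_nonneg (q : K[X]) : 0 ≤ vv (ιa (algebraMap K[X] (RatFunc K) q)) := by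
  have hX : 0 ≤ vv (ιa RatFunc.X) := by
    have h1 : (RatFunc.X : RatFunc K) = (RatFunc.X - RatFunc.C a) + RatFunc.C a := by ring
    rw [h1, map_add, hιC]
    exact le_trans (le_min hcen.le (vv_C_nonneg a)) (AddValuation.map_add _ _ _)
  induction q using Polynomial.induction_on with
  | C c =>
    rw [RatFunc.algebraMap_C, hιC]
    exact vv_C_nonneg c
  | add p q hp hq =>
    rw [map_add, map_add]
    exact le_trans (le_min hp hq) (AddValuation.map_add _ _ _)
  | monomial n c h =>
    rw [pow_succ, ← mul_assoc, map_mul, map_mul, RatFunc.algebraMap_X, AddValuation.map_mul]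
    exact add_nonneg h hX

include hιC hcen in
theorem vv_poly_eq_zero (q : K[X]) (hq : q.eval a ≠ 0) :
    vv (ιa (algebraMap K[X] (RatFunc K) q)) = 0 := by
  have h1 : q = C (q.eval a) + (X - C a) * (q /ₘ (X - C a)) := by
    have := Polynomial.modByMonic_add_div q (X - C a)
    rw [Polynomial.modByMonic_X_sub_C_eq_C_eval] at this
    exact this.symm
  have h2 : ιa (algebraMap K[X] (RatFunc K) q) = HahnSeries.C (q.eval a) +
      ιa (RatFunc.X - RatFunc.C a) * ιa (algebraMap K[X] (RatFunc K) (q /ₘ (X - C a))) := by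
    conv_lhs => rw [h1]
    rw [map_add, map_add, RatFunc.algebraMap_C, hιC, map_mul, map_mul, map_sub,
      RatFunc.algebraMap_X, RatFunc.algebraMap_C]
  rw [h2, AddValuation.map_add_eq_of_lt_left, vv_C hq]
  rw [vv_C hq, AddValuation.map_mul]
  exact add_pos_of_pos_of_nonneg hcen (vv_poly_nonneg a ιa hιC hcen _)

include hιC hcen in
/-- A polynomial whose image has order at least `s * w` is divisible by `(X - a)^s`, where `w` is
the order of the image of `X - a`. -/
theorem pow_dvd_of_le_vv (w : ℕ) (hw : vv (ιa (RatFunc.X - RatFunc.C a)) = ((w : ℤ) : WithTop ℤ))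
    (q : K[X]) (s : ℕ)
    (hs : (((s * w : ℕ) : ℤ) : WithTop ℤ) ≤ vv (ιa (algebraMap K[X] (RatFunc K) q))) :
    (X - C a) ^ s ∣ q := by
  by_cases hq : q = 0
  · rw [hq]; exact dvd_zero _
  have hw0 : 0 < w := by
    rw [hw] at hcen
    have : (0 : ℤ) < (w : ℤ) := by exact_mod_cast hcen
    exact_mod_cast this
  set t := q.rootMultiplicity a with ht
  have h1 := Polynomial.pow_mul_divByMonic_rootMultiplicity_eq q a
  have h2 := Polynomial.eval_divByMonic_pow_rootMultiplicity_ne_zero a hq
  have h3 : vv (ιa (algebraMap K[X] (RatFunc K) q)) = (((t * w : ℕ) : ℤ) : WithTop ℤ) := by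
    conv_lhs => rw [← h1]
    rw [map_mul, map_mul, AddValuation.map_mul, vv_poly_eq_zero a ιa hιC hcen _ h2, add_zero,
      map_pow, map_pow, AddValuation.map_pow, map_sub, RatFunc.algebraMap_X, RatFunc.algebraMap_C,
      hw, ← WithTop.coe_nsmul]
    congr 1
  rw [h3] at hs
  have h4 : ((s * w : ℕ) : ℤ) ≤ ((t * w : ℕ) : ℤ) := by exact_mod_cast hs
  have h5 : s * w ≤ t * w := by exact_mod_cast h4
  have h6 : s ≤ t := Nat.le_of_mul_le_mul_right h5 hw0
  exact dvd_trans (pow_dvd_pow _ h6) (Dvd.intro _ h1)

end PolyOrder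

/-! ### Complete families of embeddings detect integrality -/

section Complete

variable (F : Type*) [Field F] [Algebra K F] [Algebra K[X] F] [Algebra (RatFunc K) F]
  [IsScalarTower K K[X] F] [IsScalarTower K[X] (RatFunc K) F] [IsScalarTower K (RatFunc K) F]
  [FiniteDimensional (RatFunc K) F]

omit [Algebra K F] [IsScalarTower K K[X] F] [IsScalarTower K (RatFunc K) F] in
/-- If `[F : K(X)]` pairwise distinct embeddings of `F` into `K((u))` extend one embedding of
`K(X)` centred at `a`, and an integral element `b` has positive order under all of them, then a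
power of `b` is divisible by `X - a` in the integral closure of `K[X]`. -/
theorem exists_isIntegral_pow_eq (a : K) (ιa : RatFunc K →+* LaurentSeries K)
    (hιC : ∀ c : K, ιa (RatFunc.C c) = HahnSeries.C c)
    (hcen : 0 < vv (ιa (RatFunc.X - RatFunc.C a)))
    {Ja : Type*} [Fintype Ja] (τ : Ja → F →+* LaurentSeries K)
    (hτι : ∀ j r, τ j (algebraMap (RatFunc K) F r) = ιa r)
    (hτinj : Function.Injective τ) (hcard : Fintype.card Ja = finrank (RatFunc K) F)
    (b : F) (hb : IsIntegral K[X] b) (hb1 : ∀ j, 1 ≤ vv (τ j b)) :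
    ∃ (k : ℕ) (c : F), IsIntegral K[X] c ∧ b ^ k = algebraMap K[X] F (X - C a) * c := by
  classical
  -- the order of the image of `X - a`
  have hXa : (RatFunc.X - RatFunc.C a : RatFunc K) ≠ 0 := by
    rw [← RatFunc.algebraMap_X, ← RatFunc.algebraMap_C, ← map_sub]
    exact (map_ne_zero_iff _ (IsFractionRing.injective K[X] (RatFunc K))).mpr (X_sub_C_ne_zero a)
  have hwtop : vv (ιa (RatFunc.X - RatFunc.C a)) ≠ ⊤ := by
    rw [Ne, AddValuation.top_iff, map_eq_zero]
    exact hXa
  obtain ⟨w', hw'⟩ := WithTop.ne_top_iff_exists.mp hwtop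
  have hw'pos : 0 < w' := by
    rw [← hw'] at hcen
    exact_mod_cast hcen
  obtain ⟨k, hk⟩ : ∃ k : ℕ, (k : ℤ) = w' := ⟨w'.toNat, Int.toNat_of_nonneg hw'pos.le⟩
  have hw : vv (ιa (RatFunc.X - RatFunc.C a)) = ((k : ℤ) : WithTop ℤ) := by rw [← hw', hk]
  set z := b ^ k with hz
  have hzint : IsIntegral K[X] z := hb.pow k
  have hzj : ∀ j, ((k : ℤ) : WithTop ℤ) ≤ vv (τ j z) := by
    intro j
    rw [hz, map_pow, AddValuation.map_pow]
    have h1 := nsmul_le_nsmul_right (hb1 j) k
    rw [nsmul_one] at h1
    refine le_trans (le_of_eq ?_) h1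
    norm_cast
  -- the algebraic closure of `K((u))` as a `K(X)`-algebra
  let Ωb := AlgebraicClosure (LaurentSeries K)
  let inc : LaurentSeries K →+* Ωb := algebraMap (LaurentSeries K) Ωb
  let _ : Algebra (RatFunc K) Ωb := (inc.comp ιa).toAlgebra
  let τ' : Ja → (F →ₐ[RatFunc K] Ωb) := fun j =>
    { toRingHom := inc.comp (τ j)
      commutes' := fun r => by
        show inc (τ j (algebraMap (RatFunc K) F r)) = inc (ιa r)
        rw [hτι] }
  have hτ'inj : Function.Injective τ' := by
    intro j j' h
    apply hτinj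
    ext1 f
    have h1 : τ' j f = τ' j' f := by rw [h]
    exact inc.injective h1
  have hbij : Function.Bijective τ' := by
    rw [Fintype.bijective_iff_injective_and_card]
    refine ⟨hτ'inj, le_antisymm (Fintype.card_le_of_injective _ hτ'inj) ?_⟩
    have := card_algHom_le_finrank (RatFunc K) F Ωb
    rw [Nat.card_eq_fintype_card] at this
    rw [hcard]
    exact this
  -- the minimal polynomial of `z`
  set p := minpoly K[X] z with hp
  have hpmonic : p.Monic := minpoly.monic hzint
  have hpK : minpoly (RatFunc K) z = p.map (algebraMap K[X] (RatFunc K)) :=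
    minpoly.isIntegrallyClosed_eq_field_fractions' (RatFunc K) hzint
  set d := p.natDegree with hd
  set P' : Ωb[X] := (p.map (algebraMap K[X] (RatFunc K))).map (algebraMap (RatFunc K) Ωb) with hP'
  have hP'monic : P'.Monic := (hpmonic.map _).map _
  have hsplit : P'.Splits := IsAlgClosed.splits P'
  have hP'eq : P' = (P'.roots.map (fun r => X - C r)).prod := by
    have h1 := hsplit.eq_prod_roots
    rw [hP'monic.leadingCoeff, C_1, one_mul] at h1
    exact h1
  have hcardroots : Multiset.card P'.roots = d := by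
    rw [← hsplit.natDegree_eq_card_roots, hP', (hpmonic.map _).natDegree_map, hpmonic.natDegree_map]
  have hroots : ∀ r ∈ P'.roots, Fil inc k r := by
    intro r hr
    have hr0 : aeval r (minpoly (RatFunc K) z) = 0 := by
      rw [hpK]
      have h1 := (Polynomial.mem_roots hP'monic.ne_zero).mp hr
      rw [Polynomial.IsRoot.def, hP', Polynomial.eval_map] at h1
      exact h1
    obtain ⟨φ, hφ⟩ := IntermediateField.exists_algHom_of_splits_of_aeval
      (fun s => ⟨IsIntegral.of_finite (RatFunc K) s, IsAlgClosed.splits _⟩) hr0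
    obtain ⟨j, rfl⟩ := hbij.2 φ
    exact ⟨τ j z, hzj j, hφ⟩
  have hcoef : ∀ m, m ≤ d → (X - C a) ^ (d - m) ∣ p.coeff m := by
    intro m hm
    have h1 := fil_coeff_prod k P'.roots hroots m (by rw [hcardroots]; exact hm)
    rw [← hP'eq, hcardroots] at h1
    obtain ⟨x, hx, hxe⟩ := h1
    have h2 : P'.coeff m = inc (ιa (algebraMap K[X] (RatFunc K) (p.coeff m))) := by
      rw [hP', Polynomial.coeff_map, Polynomial.coeff_map]
      rfl
    rw [h2] at hxe
    have hxeq := inc.injective hxe
    rw [hxeq] at hx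
    exact pow_dvd_of_le_vv a ιa hιC hcen k hw (p.coeff m) (d - m) hx
  -- the quotient
  set π := algebraMap K[X] F (X - C a) with hπ
  have hπ0 : π ≠ 0 := by
    rw [hπ, IsScalarTower.algebraMap_apply K[X] (RatFunc K) F]
    exact (map_ne_zero_iff _ (algebraMap (RatFunc K) F).injective).mpr
      ((map_ne_zero_iff _ (IsFractionRing.injective K[X] (RatFunc K))).mpr (X_sub_C_ne_zero a))
  set c := z * π⁻¹ with hc
  have hπc : π * c = z := by
    rw [hc, mul_comm z, ← mul_assoc, mul_inv_cancel₀ hπ0, one_mul]
  let q : ℕ → K[X] := fun m => p.coeff m / (X - C a) ^ (d - m)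
  have hq : ∀ m, m ≤ d → p.coeff m = (X - C a) ^ (d - m) * q m := by
    intro m hm
    exact (EuclideanDomain.mul_div_cancel' (pow_ne_zero _ (X_sub_C_ne_zero a)) (hcoef m hm)).symm
  let pt : K[X][X] := X ^ d + ∑ i : Fin d, C (q i) * X ^ (i : ℕ)
  have hptmonic : pt.Monic := Polynomial.monic_X_pow_add (Polynomial.degree_sum_fin_lt _)
  have hpz : ∑ m ∈ Finset.range d, algebraMap K[X] F (p.coeff m) * z ^ m + z ^ d = 0 := by
    have h1 : eval₂ (algebraMap K[X] F) z p = 0 := minpoly.aeval K[X] z
    rw [Polynomial.eval₂_eq_sum_range, Finset.sum_range_succ] at h1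
    have h2 : p.coeff p.natDegree = 1 := hpmonic
    rw [h2, map_one, one_mul] at h1
    exact h1
  have heval : eval₂ (algebraMap K[X] F) c pt = 0 := by
    have h1 : eval₂ (algebraMap K[X] F) c pt =
        c ^ d + ∑ i : Fin d, algebraMap K[X] F (q i) * c ^ (i : ℕ) := by
      simp only [pt, Polynomial.eval₂_add, Polynomial.eval₂_pow, Polynomial.eval₂_X,
        Polynomial.eval₂_finsetSum, Polynomial.eval₂_mul, Polynomial.eval₂_C]
    rw [h1]
    have h2 : π ^ d * (c ^ d + ∑ i : Fin d, algebraMap K[X] F (q i) * c ^ (i : ℕ)) = 0 := by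
      rw [mul_add, ← mul_pow, hπc, Finset.mul_sum, add_comm, ← hpz]
      congr 1
      rw [← Fin.sum_univ_eq_sum_range (fun m => algebraMap K[X] F (p.coeff m) * z ^ m) d]
      apply Finset.sum_congr rfl
      intro i _
      have hi : (i : ℕ) ≤ d := i.2.le
      rw [hq i hi, map_mul, map_pow, ← hπc, mul_pow]
      have h3 : π ^ d = π ^ (d - (i : ℕ)) * π ^ (i : ℕ) := by
        rw [← pow_add, Nat.sub_add_cancel hi]
      rw [h3]
      ring
    rcases mul_eq_zero.mp h2 with h | h
    · exact absurd h (pow_ne_zero _ hπ0)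
    · exact h
  exact ⟨k, c, ⟨pt, hptmonic, heval⟩, hπc.symm⟩

end Complete

/-! ### Functions invariant under a permutation are constant on its orbits -/

section Orbit

variable {I : Type*}

/-- The permutations fixing a function. -/
def fixer {β : Type*} (f : I → β) : Subgroup (Equiv.Perm I) where
  carrier := {g | ∀ i, f (g i) = f i}
  one_mem' := fun _ => rfl
  mul_mem' := fun {g h} hg hh i => by rw [Equiv.Perm.mul_apply, hg, hh]
  inv_mem' := fun {g} hg i => by
    have := hg (g⁻¹ i)
    have h2 : g (g⁻¹ i) = i := by simp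
    rw [h2] at this
    exact this.symm

theorem eq_of_orbitRel {β : Type*} (T : Equiv.Perm I) (f : I → β) (hf : ∀ i, f (T i) = f i)
    {x y : I} (h : (MulAction.orbitRel (Subgroup.zpowers T) I).r x y) : f x = f y := by
  have hle : Subgroup.zpowers T ≤ fixer f := (Subgroup.zpowers_le (H := fixer f)).mpr hf
  obtain ⟨g, hg⟩ := h
  rw [← hg]
  exact hle g.2 y

end Orbit

/-! ### The count -/

section Count

variable (K) (F : Type*) [Field F] [Algebra K F] [Algebra K[X] F] [Algebra (RatFunc K) F]
  [IsScalarTower K K[X] F] [IsScalarTower K[X] (RatFunc K) F] [IsScalarTower K (RatFunc K) F]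
  [FiniteDimensional (RatFunc K) F]

/-- **CL3, abstract core.**  `σ` is a finite family of `K`-embeddings of `F` into `K((u))`,
permuted by `T` compatibly with constant terms and orders.  If for every `a ∈ A₀` a subfamily
`J a` of `[F : K(X)]` pairwise distinct embeddings extends one embedding `ι a` of `K(X)` centred
at `a`, then the total number of points of `F` over the points of `A₀` is at most the number of
orbits of `T`. -/
theorem sum_rFin_le_cyc {I : Type*} [Fintype I] (σ : I → F →+* LaurentSeries K)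
    (hσK : ∀ i c, σ i (algebraMap K F c) = HahnSeries.C c) (T : Equiv.Perm I)
    (hT0 : ∀ i f, (σ (T i) f).coeff 0 = (σ i f).coeff 0)
    (hTord : ∀ i f, (σ (T i) f).orderTop = (σ i f).orderTop)
    (A₀ : Finset K) (J : K → Finset I) (ι : K → RatFunc K →+* LaurentSeries K)
    (hJι : ∀ a ∈ A₀, ∀ j ∈ J a, ∀ r, σ j (algebraMap (RatFunc K) F r) = ι a r)
    (hJinj : ∀ a ∈ A₀, ∀ j ∈ J a, ∀ j' ∈ J a, σ j = σ j' → j = j')
    (hJcard : ∀ a ∈ A₀, (J a).card = finrank (RatFunc K) F)
    (hcen : ∀ a ∈ A₀, 0 < (ι a (RatFunc.X - RatFunc.C a)).orderTop) :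
    ∑ a ∈ A₀, rFin K F a ≤ Fermat.Agent.S24.cyc T := by
  classical
  let Q := MulAction.orbitRel.Quotient (Subgroup.zpowers T) I
  let mk : I → Q := Quotient.mk''
  have _ : Fintype Q := Fintype.ofFinite Q
  -- the embeddings centred at `a`
  let S : K → Finset I := fun a =>
    Finset.univ.filter (fun i => 0 < vv (σ i (algebraMap K[X] F (X - C a))))
  let QS : K → Finset Q := fun a => (S a).image mk
  have hmemS : ∀ a i, i ∈ S a ↔ 0 < vv (σ i (algebraMap K[X] F (X - C a))) := by
    intro a i
    simp [S]
  -- invariance along orbits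
  have hinv0 : ∀ (f : F) {x y : I}, (MulAction.orbitRel (Subgroup.zpowers T) I).r x y →
      (σ x f).coeff 0 = (σ y f).coeff 0 := fun f x y h =>
    eq_of_orbitRel T (fun i => (σ i f).coeff 0) (fun i => hT0 i f) h
  have hinvv : ∀ (f : F) {x y : I}, (MulAction.orbitRel (Subgroup.zpowers T) I).r x y →
      vv (σ x f) = vv (σ y f) := fun f x y h =>
    eq_of_orbitRel T (fun i => vv (σ i f))
      (fun i => by rw [vv_apply, vv_apply]; exact hTord i f) h
  -- disjointness
  have hdisj : ∀ a ∈ A₀, ∀ a' ∈ A₀, a ≠ a' → Disjoint (QS a) (QS a') := by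
    intro a _ a' _ haa'
    rw [Finset.disjoint_left]
    intro q hq hq'
    obtain ⟨i, hi, rfl⟩ := Finset.mem_image.mp hq
    obtain ⟨i', hi', hii'⟩ := Finset.mem_image.mp hq'
    have hrel : (MulAction.orbitRel (Subgroup.zpowers T) I).r i' i := Quotient.exact' hii'
    rw [hmemS] at hi hi'
    rw [hinvv _ hrel] at hi'
    have h1 : algebraMap K[X] F (X - C a) - algebraMap K[X] F (X - C a') =
        algebraMap K F (a' - a) := by
      rw [← map_sub, IsScalarTower.algebraMap_apply K K[X] F]
      congr 1
      rw [Polynomial.algebraMap_eq, map_sub]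
      ring
    have h2 : 0 < vv (σ i (algebraMap K F (a' - a))) := by
      rw [← h1, map_sub, sub_eq_add_neg]
      refine lt_of_lt_of_le (lt_min hi ?_) (AddValuation.map_add _ _ _)
      rw [AddValuation.map_neg]
      exact hi'
    rw [hσK, vv_C (sub_ne_zero.mpr (Ne.symm haa'))] at h2
    exact lt_irrefl _ h2
  -- the bound for one point
  have hone : ∀ a ∈ A₀, rFin K F a ≤ (QS a).card := by
    intro a ha
    let φ : ↥(B0K K F) →ₗ[K] (↥(QS a) → K) :=
      { toFun := fun b q => (σ (Quotient.out q.1) (b : F)).coeff 0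
        map_add' := fun b b' => by
          funext q
          simp
        map_smul' := fun c b => by
          funext q
          have h1 : ((c • b : ↥(B0K K F)) : F) = algebraMap K F c * (b : F) := by
            rw [← Algebra.smul_def]
            rfl
          simp only [RingHom.id_apply, Pi.smul_apply, smul_eq_mul]
          rw [h1, map_mul, hσK, HahnSeries.C_mul_eq_smul, HahnSeries.coeff_smul, smul_eq_mul] }
    have hfin : finrank K (↥(QS a) → K) = (QS a).card := by
      rw [Module.finrank_fintype_fun_eq_card, Fintype.card_coe]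
    rw [← hfin]
    refine rFin_le K F a φ ?_
    intro b hb
    have hb0 : ∀ i ∈ S a, (σ i (b : F)).coeff 0 = 0 := by
      intro i hi
      have hq : mk i ∈ QS a := Finset.mem_image_of_mem mk hi
      have h1 := congrFun hb ⟨mk i, hq⟩
      have hrel : (MulAction.orbitRel (Subgroup.zpowers T) I).r (Quotient.out (mk i)) i :=
        Quotient.exact' (Quotient.out_eq' (mk i))
      rw [← hinv0 _ hrel]
      exact h1
    -- the complete family
    have hJS : ∀ j ∈ J a, σ j (algebraMap K[X] F (X - C a)) = ι a (RatFunc.X - RatFunc.C a) := by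
      intro j hj
      rw [IsScalarTower.algebraMap_apply K[X] (RatFunc K) F, hJι a ha j hj, map_sub,
        RatFunc.algebraMap_X, RatFunc.algebraMap_C]
    have hcen' : 0 < vv (ι a (RatFunc.X - RatFunc.C a)) := by
      rw [vv_apply]; exact hcen a ha
    have hJne : (J a).Nonempty := by
      rw [← Finset.card_pos, hJcard a ha]
      exact Module.finrank_pos
    obtain ⟨j₀, hj₀⟩ := hJne
    have hιC : ∀ c : K, ι a (RatFunc.C c) = HahnSeries.C c := by
      intro c
      rw [← hJι a ha j₀ hj₀, ← RatFunc.algebraMap_eq_C,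
        ← IsScalarTower.algebraMap_apply K (RatFunc K) F, hσK]
    have hb1 : ∀ j : ↥(J a), 1 ≤ vv (σ j.1 (b : F)) := by
      intro j
      have hjS : j.1 ∈ S a := by
        rw [hmemS, hJS j.1 j.2]
        exact hcen'
      refine one_le_vv (vv_nonneg_of_isIntegral (R := K[X]) (σ j.1) ?_ b.2) (hb0 j.1 hjS)
      intro r
      rw [IsScalarTower.algebraMap_apply K[X] (RatFunc K) F, hJι a ha j.1 j.2]
      exact vv_poly_nonneg a (ι a) hιC hcen' r
    obtain ⟨k, c, hc, hbk⟩ := exists_isIntegral_pow_eq F a (ι a) hιC hcen'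
      (fun j : ↥(J a) => σ j.1) (fun j r => hJι a ha j.1 j.2 r)
      (fun j j' h => Subtype.ext (hJinj a ha j.1 j.2 j'.1 j'.2 h))
      (by rw [Fintype.card_coe]; exact hJcard a ha) (b : F) b.2 hb1
    exact ⟨b.2, k, c, hc, hbk⟩
  -- summing up
  calc ∑ a ∈ A₀, rFin K F a ≤ ∑ a ∈ A₀, (QS a).card := Finset.sum_le_sum hone
    _ = (A₀.biUnion QS).card := (Finset.card_biUnion hdisj).symm
    _ ≤ (Finset.univ : Finset Q).card := Finset.card_le_card (Finset.subset_univ _)
    _ = Fermat.Agent.S24.cyc T := by
      rw [Finset.card_univ, Fermat.Agent.S24.cyc, Nat.card_eq_fintype_card]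

end Count

end

end Fermat.Agent.S18.CLCount
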