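/-
S18, chain CL (good reduction input), piece CL-EMB / E2 (helper13): the family of reduced
conjugate embeddings `σ̄_i := redEmb (out i)⁻¹`, `i ∈ SL₂(ℤ) / Γ₀(M)`.

* `redEmb_out_injective`: distinct cosets give distinct reduced embeddings;
* `exists_rot`: the rotation `u ↦ ζ̄ u` (`ζ̄` a primitive `M`-th root of unity of `k`) permutes
  them like `T⁻¹` permutes the cosets;
* `redEmb_of_mem_Gamma0`: the identity coset gives `f ↦ f(u^M)`;
* `exists_sigma`: all of it in one statement.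
-/
import Fermat.Agent.S18.CLEmb
import Fermat.Agent.S18.CLFexp

set_option autoImplicit false

noncomputable section

open ModularCurve IntermediateField
open scoped MatrixGroups Real

namespace Fermat.Agent.S18.CLE

open Fermat.Agent.S28 Fermat.Agent.S24 Fermat.Agent.S23 Fermat.Agent.S18

/-! ### Roots of unity and reduction -/

section Roots

variable {R κ : Type*} [CommRing R] [IsDomain R] [CommRing κ]

/-- an `n`-th root of unity reducing to `1` is `1`, when `n` is invertible in the residue ring -/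
theorem eq_one_of_residue_eq_one (f : R →+* κ) {n : ℕ} (hn : ((n : ℕ) : κ) ≠ 0) {w : R}
    (hw : w ^ n = 1) (hres : f w = 1) : w = 1 := by
  by_contra h
  have h1 : (w - 1) * ∑ i ∈ Finset.range n, w ^ i = 0 := by rw [mul_geom_sum, hw, sub_self]
  have h2 : ∑ i ∈ Finset.range n, w ^ i = 0 :=
    (mul_eq_zero.mp h1).resolve_left (sub_ne_zero.mpr h)
  have h3 := congrArg f h2
  rw [map_sum, map_zero] at h3
  simp only [map_pow, hres, one_pow, Finset.sum_const, Finset.card_range, nsmul_eq_mul,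
    mul_one] at h3
  exact hn h3

theorem units_eq_of_residue_eq (f : R →+* κ) {n : ℕ} (hn : ((n : ℕ) : κ) ≠ 0) {u u' : Rˣ}
    (hu : u ^ n = 1) (hu' : u' ^ n = 1)
    (h : Units.map (f : R →* κ) u = Units.map (f : R →* κ) u') : u = u' := by
  have hw : ((u * u'⁻¹ : Rˣ) : R) ^ n = 1 := by
    rw [← Units.val_pow_eq_pow_val, mul_pow, inv_pow, hu, hu', inv_one, mul_one, Units.val_one]
  have hres : f ((u * u'⁻¹ : Rˣ) : R) = 1 := by
    have h1 : Units.map (f : R →* κ) (u * u'⁻¹) = 1 := by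
      rw [map_mul, map_inv, h, mul_inv_cancel]
    have h2 := congrArg Units.val h1
    simpa using h2
  have h1 := eq_one_of_residue_eq_one f hn hw hres
  have h2 : u * u'⁻¹ = 1 := Units.ext h1
  exact mul_inv_eq_one.mp h2

end Roots

theorem twistU_eq_kummer {κ : Type*} [Field κ] (ξ : κˣ) (x : LaurentSeries κ) :
    Phi.twistU ξ x = Kummer.twist ξ x := by
  ext n
  rw [Phi.twistU_coeff, Kummer.twist_coeff, Units.val_zpow_eq_zpow_val]

theorem twistU_algebraMap {R : Type*} [CommRing R] (ξ : Rˣ) (c : R) :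
    Phi.twistU ξ (algebraMap R (LaurentSeries R) c) = algebraMap R (LaurentSeries R) c := by
  ext n
  rw [Phi.twistU_coeff, ValBase.algebraMap_eq_single]
  by_cases hn : n = 0
  · subst hn
    rw [zpow_zero, Units.val_one, one_mul]
  · rw [HahnSeries.coeff_single_of_ne hn, mul_zero]

theorem qExpand_algebraMap' {R : Type*} [CommRing R] (N : ℕ) [NeZero N] (c : R) :
    qExpand R N (algebraMap R (LaurentSeries R) c) = algebraMap R (LaurentSeries R) c := by
  rw [ValBase.algebraMap_eq_single, qExpand_single, mul_zero]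

/-! ### Injectivity -/

section Inj

variable (N : ℕ) [NeZero N] {ℓ : ℕ} [Fact ℓ.Prime]
variable (A : ValuationSubring (AlgebraicClosure ℚ)) (ι : AlgebraicClosure ℚ →+* ℂ)

theorem natCast_residue_ne_zero (hℓN : ¬ ℓ ∣ N) (hA : A.LiesOverPrime ℓ) :
    ((N : ℕ) : IsLocalRing.ResidueField A) ≠ 0 := by
  have := RN.charP_residueField A hA
  rw [Ne, CharP.cast_eq_zero_iff (IsLocalRing.ResidueField A) ℓ]
  exact hℓN

/-- the reduction is injective on the integral cusp expansions -/
theorem fexpA_eq_of_fexpK_eq (hN : ((N : ℕ) : IsLocalRing.ResidueField A) ≠ 0) (γ γ' : SL(2, ℤ))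
    (d : Dv N) (h : fexpK N A ι γ d = fexpK N A ι γ' d) :
    fexpA N A ι γ d = fexpA N A ι γ' d := by
  obtain ⟨e, he, u, hu, hf⟩ := fexpA_eq N A ι γ d
  obtain ⟨e', he', u', hu', hf'⟩ := fexpA_eq N A ι γ' d
  rw [fexpK, fexpK, hf, hf', coeffMap_qExpand, coeffMap_qExpand, Phi.coeffMap_twistU,
    Phi.coeffMap_twistU, coeffMap_jqModC, twistU_eq_kummer, twistU_eq_kummer] at h
  obtain ⟨hee, hξ⟩ := CLF.qExpand_twist_inj _ e e' _ _ h
  subst hee
  have huu : u = u' := units_eq_of_residue_eq (IsLocalRing.residue A) hN hu hu' hξ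
  rw [hf, hf', huu]

/-- distinct cosets give distinct reduced embeddings -/
theorem redEmb_out_injective (hℓN : ¬ ℓ ∣ N) (hA : A.LiesOverPrime ℓ) :
    Function.Injective (fun i : SL(2, ℤ) ⧸ CongruenceSubgroup.Gamma0 N =>
      redEmb N hℓN A hA ι (Quotient.out i)⁻¹) := by
  intro i j hij
  have hij' : redEmb N hℓN A hA ι (Quotient.out i)⁻¹ = redEmb N hℓN A hA ι (Quotient.out j)⁻¹ :=
    hij
  have hN := natCast_residue_ne_zero N A hℓN hA
  have hf : Cusp.fexp N (Quotient.out i)⁻¹ = Cusp.fexp N (Quotient.out j)⁻¹ := by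
    funext d
    have h1 : fexpK N A ι (Quotient.out i)⁻¹ d = fexpK N A ι (Quotient.out j)⁻¹ d := by
      rw [← redEmb_gen N hℓN A hA ι, ← redEmb_gen N hℓN A hA ι, hij']
    have h2 := congrArg (incC A ι) (fexpA_eq_of_fexpK_eq N A ι hN _ _ d h1)
    rw [incC_fexpA, incC_fexpA] at h2
    exact h2
  apply Cusp.tauG_out_injective ι N
  show Cusp.tauG ι N (Quotient.out i)⁻¹ = Cusp.tauG ι N (Quotient.out j)⁻¹
  apply Ext.hom_ext (AlgebraicClosure ℚ) N
  intro P
  rw [Cusp.tauG_evalL, Cusp.tauG_evalL, Cusp.phi, Cusp.phi, hf]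

end Inj

/-! ### Rotation -/

section Rot

variable (N : ℕ) [NeZero N] {ℓ : ℕ} [Fact ℓ.Prime]
variable (A : ValuationSubring (AlgebraicClosure ℚ)) (ι : AlgebraicClosure ℚ →+* ℂ)

/-- The substitution `u ↦ ζ̄ u` permutes the reduced embeddings like `T⁻¹` permutes the
cosets; `ζ̄` is a primitive `N`-th root of unity of the residue field. -/
theorem exists_rot (hℓN : ¬ ℓ ∣ N) (hA : A.LiesOverPrime ℓ) :
    ∃ ζ : (IsLocalRing.ResidueField A)ˣ, IsPrimitiveRoot (ζ : IsLocalRing.ResidueField A) N ∧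
      ∀ i : SL(2, ℤ) ⧸ CongruenceSubgroup.Gamma0 N,
        redEmb N hℓN A hA ι (Quotient.out (cosetPerm N ModularGroup.T⁻¹ i))⁻¹ =
          (Phi.twistU ζ).comp (redEmb N hℓN A hA ι (Quotient.out i)⁻¹) := by
  have hNpos : 0 < N := Nat.pos_of_ne_zero (NeZero.ne N)
  have hN := natCast_residue_ne_zero N A hℓN hA
  have hprimC : IsPrimitiveRoot (Complex.exp (2 * π * Complex.I * ((1 / N : ℝ) : ℂ))) N := by
    have h := Complex.isPrimitiveRoot_exp N (NeZero.ne N)
    have e : 2 * (π : ℂ) * Complex.I * ((1 / N : ℝ) : ℂ) = 2 * π * Complex.I / N := by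
      push_cast
      ring
    rw [e]
    exact h
  obtain ⟨z, hz, hzN⟩ := exists_unit_of_pow_eq_one A ι hNpos hprimC.pow_eq_one
  refine ⟨Units.map (IsLocalRing.residue A : ↥A →* IsLocalRing.ResidueField A) z, ?_, ?_⟩
  · refine IsPrimitiveRoot.mk_of_lt _ hNpos ?_ ?_
    · rw [← Units.val_pow_eq_pow_val, ← map_pow, hzN, map_one, Units.val_one]
    · intro l hl hlN h1
      have h2 : ((z : ↥A)) ^ l = 1 := by
        apply eq_one_of_residue_eq_one (IsLocalRing.residue A) hN (n := N)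
        · rw [← pow_mul, mul_comm, pow_mul, ← Units.val_pow_eq_pow_val, hzN, Units.val_one,
            one_pow]
        · rw [map_pow]
          exact h1
      have h3 : (Complex.exp (2 * π * Complex.I * ((1 / N : ℝ) : ℂ))) ^ l = 1 := by
        rw [← hz, ← map_pow]
        have h4 : (((z : ↥A) : AlgebraicClosure ℚ)) ^ l = 1 := by
          have h5 := congrArg (Subtype.val) h2
          simpa using h5
        rw [h4, map_one]
      exact hprimC.pow_ne_one_of_pos_of_lt hl.ne' hlN h3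
  · intro i
    have hA' : ∀ d, fexpA N A ι (Quotient.out (cosetPerm N ModularGroup.T⁻¹ i))⁻¹ d =
        Phi.twistU z (fexpA N A ι (Quotient.out i)⁻¹ d) := by
      intro d
      apply incC_injective A ι
      have h1 := congrArg (fun τ => τ (gen (AlgebraicClosure ℚ) N d)) (Cusp.tauG_rot ι N i)
      simp only [RingHom.comp_apply, Cusp.tauG_gen] at h1
      have h2 : incC A ι (Phi.twistU z (fexpA N A ι (Quotient.out i)⁻¹ d)) =
          Phi.twistU (Units.map ((ι.comp A.subtype : ↥A →+* ℂ) : ↥A →* ℂ) z)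
            (incC A ι (fexpA N A ι (Quotient.out i)⁻¹ d)) :=
        Phi.coeffMap_twistU _ _ _
      have h3 : Units.map ((ι.comp A.subtype : ↥A →+* ℂ) : ↥A →* ℂ) z =
          Units.mk0 (Complex.exp (2 * π * Complex.I * ((1 / N : ℝ) : ℂ)))
            (Complex.exp_ne_zero _) := Units.ext (by simpa using hz)
      rw [incC_fexpA, h1, twist_eq_twistU, h2, h3, incC_fexpA]
    have hK' : ∀ d, fexpK N A ι (Quotient.out (cosetPerm N ModularGroup.T⁻¹ i))⁻¹ d =
        Phi.twistU (Units.map (IsLocalRing.residue A : ↥A →* IsLocalRing.ResidueField A) z)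
          (fexpK N A ι (Quotient.out i)⁻¹ d) := by
      intro d
      rw [fexpK, hA' d, Phi.coeffMap_twistU]
      rfl
    apply hom_ext_of_frac (genK (IsLocalRing.ResidueField A) N) _
      (genK_mem (IsLocalRing.ResidueField A) N)
      (fun _ hx => fullC_frac (IsLocalRing.ResidueField A) N hx)
    intro P
    rw [redEmb_aeval, RingHom.comp_apply, redEmb_aeval,
      map_mvAeval_of_const _ (twistU_algebraMap _)]
    have h4 : fexpK N A ι (Quotient.out (cosetPerm N ModularGroup.T⁻¹ i))⁻¹ = fun d =>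
        Phi.twistU (Units.map (IsLocalRing.residue A : ↥A →* IsLocalRing.ResidueField A) z)
          (fexpK N A ι (Quotient.out i)⁻¹ d) := funext hK'
    rw [h4]

end Rot

/-! ### The identity coset -/

section Ident

variable (N : ℕ) [NeZero N] {ℓ : ℕ} [Fact ℓ.Prime]
variable (A : ValuationSubring (AlgebraicClosure ℚ)) (ι : AlgebraicClosure ℚ →+* ℂ)

theorem fexp_of_mem_Gamma0 (γ : SL(2, ℤ)) (hγ : γ ∈ CongruenceSubgroup.Gamma0 N) (d : Dv N) :
    Cusp.fexp N γ d = qExpand ℂ N (genR N ℂ d) := by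
  have : NeZero d.1 := ⟨d.ne_zero⟩
  rw [genR, Mono.Jd_eq, ← RN.coeffEmb_jq ℂ]
  refine (Cusp.hasU_fexp N γ d).unique_series
    (((Cusp.hasU_jFun.comp_dil d.1).comp_dil N).congr fun z => ?_)
  exact (JN.jN_smul_of_mem_Gamma0 d.1 (Cusp.gamma0_le_of_dvd d.2 hγ) (JN.dil N z)).symm

theorem fexpA_of_mem_Gamma0 (γ : SL(2, ℤ)) (hγ : γ ∈ CongruenceSubgroup.Gamma0 N) (d : Dv N) :
    fexpA N A ι γ d = qExpand A N (genR N A d) := by
  apply incC_injective A ι
  rw [incC_fexpA, fexp_of_mem_Gamma0 N γ hγ, incC, coeffMap_qExpand, coeffMap_genR]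

theorem fexpK_of_mem_Gamma0 (γ : SL(2, ℤ)) (hγ : γ ∈ CongruenceSubgroup.Gamma0 N) (d : Dv N) :
    fexpK N A ι γ d = qExpand (IsLocalRing.ResidueField A) N
      (genK (IsLocalRing.ResidueField A) N d) := by
  rw [fexpK, fexpA_of_mem_Gamma0 N A ι γ hγ, coeffMap_qExpand, coeffMap_genR]
  rfl

/-- for `γ ∈ Γ₀(N)` the reduced embedding is `f ↦ f(u^N)` -/
theorem redEmb_of_mem_Gamma0 (hℓN : ¬ ℓ ∣ N) (hA : A.LiesOverPrime ℓ) (γ : SL(2, ℤ))
    (hγ : γ ∈ CongruenceSubgroup.Gamma0 N)
    (f : ↥(modularFunctionFieldFullC (IsLocalRing.ResidueField A) N)) :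
    redEmb N hℓN A hA ι γ f =
      qExpand (IsLocalRing.ResidueField A) N (f : LaurentSeries (IsLocalRing.ResidueField A)) := by
  have h : redEmb N hℓN A hA ι γ = (qExpand (IsLocalRing.ResidueField A) N).comp
      (algebraMap ↥(modularFunctionFieldFullC (IsLocalRing.ResidueField A) N)
        (LaurentSeries (IsLocalRing.ResidueField A))) := by
    apply hom_ext_of_frac (genK (IsLocalRing.ResidueField A) N) _
      (genK_mem (IsLocalRing.ResidueField A) N)
      (fun _ hx => fullC_frac (IsLocalRing.ResidueField A) N hx)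
    intro P
    rw [redEmb_aeval, RingHom.comp_apply]
    show _ = qExpand (IsLocalRing.ResidueField A) N
      (MvPolynomial.aeval (genK (IsLocalRing.ResidueField A) N) P)
    rw [map_mvAeval_of_const _ (qExpand_algebraMap' N)]
    have h4 : fexpK N A ι γ = fun d => qExpand (IsLocalRing.ResidueField A) N
        (genK (IsLocalRing.ResidueField A) N d) := funext (fexpK_of_mem_Gamma0 N A ι γ hγ)
    rw [h4]
  rw [h]
  rfl

end Ident

/-! ### The family of reduced embeddings -/

/-- **The reduced conjugate embeddings** of `F̄_M = k(J̄(q^d) : d ∣ M)` into `k((u))`, for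
`ℓ ∤ M`: one for each coset of `Γ₀(M)`, pairwise distinct, all sending `J̄` to `J̄(u^M)`,
permuted by the rotation `u ↦ ζ u` like `T⁻¹` permutes the cosets, and containing
`f ↦ f(u^M)`. -/
theorem exists_sigma (M : ℕ) [NeZero M] {ℓ : ℕ} [Fact ℓ.Prime] (hℓM : ¬ ℓ ∣ M)
    (A : ValuationSubring (AlgebraicClosure ℚ)) (hA : A.LiesOverPrime ℓ) :
    ∃ (σ : SL(2, ℤ) ⧸ CongruenceSubgroup.Gamma0 M →
        ↥(modularFunctionFieldFullC (IsLocalRing.ResidueField A) M) →+*
          LaurentSeries (IsLocalRing.ResidueField A))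
      (ζ : IsLocalRing.ResidueField A),
      IsPrimitiveRoot ζ M ∧
      (∀ i c, σ i (algebraMap (IsLocalRing.ResidueField A) _ c) = HahnSeries.C c) ∧
      Function.Injective σ ∧
      (∀ i f (n : ℤ), (σ (cosetPerm M ModularGroup.T⁻¹ i) f).coeff n = ζ ^ n * (σ i f).coeff n) ∧
      (∃ i₁, ∀ f, σ i₁ f = qExpand (IsLocalRing.ResidueField A) M
        (f : LaurentSeries (IsLocalRing.ResidueField A))) ∧
      (∀ i, σ i ⟨jqModC (IsLocalRing.ResidueField A),
          jqModC_mem_full (IsLocalRing.ResidueField A) M⟩ =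
        qExpand (IsLocalRing.ResidueField A) M (jqModC (IsLocalRing.ResidueField A))) := by
  obtain ⟨ι, -⟩ : ∃ ι : AlgebraicClosure ℚ →+* ℂ, True := by
    let _ : Algebra ℚ (AlgebraicClosure ℚ) := AlgebraicClosure.instAlgebra ℚ
    have := AlgebraicClosure.isAlgebraic ℚ
    exact ⟨(IsAlgClosed.lift (R := ℚ) (S := AlgebraicClosure ℚ) (M := ℂ)).toRingHom, trivial⟩
  obtain ⟨ζ, hζ, hrot⟩ := exists_rot M A ι hℓM hA
  refine ⟨fun i => redEmb M hℓM A hA ι (Quotient.out i)⁻¹, (ζ : IsLocalRing.ResidueField A), hζ,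
    fun i c => redEmb_algebraMap M hℓM A hA ι _ c, redEmb_out_injective M A ι hℓM hA, ?_,
    ⟨(QuotientGroup.mk (1 : SL(2, ℤ)) : SL(2, ℤ) ⧸ CongruenceSubgroup.Gamma0 M), fun f =>
      redEmb_of_mem_Gamma0 M A ι hℓM hA _ ?_ f⟩, fun i => redEmb_jq M hℓM A hA ι _⟩
  · intro i f n
    show (redEmb M hℓM A hA ι (Quotient.out (cosetPerm M ModularGroup.T⁻¹ i))⁻¹ f).coeff n = _
    rw [hrot i, RingHom.comp_apply, Phi.twistU_coeff, Units.val_zpow_eq_zpow_val]
  · have h := QuotientGroup.out_eq'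
      (QuotientGroup.mk (1 : SL(2, ℤ)) : SL(2, ℤ) ⧸ CongruenceSubgroup.Gamma0 M)
    have h2 := QuotientGroup.eq.mp h
    rw [mul_one] at h2
    exact h2

end Fermat.Agent.S18.CLE
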