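import Fermat.Agent.S18.PHyp
import Fermat.Agent.S18.Num

/-!
# S18, chain CL: a function field with Riemann genus zero is rational

`K` algebraically closed of any characteristic, `F` a function field of one variable over `K`.
If Riemann's inequality holds with genus zero (`deg D + 1 ≤ ℓ(D)` for the divisor of one point
suffices), then `F = K(x)` for some `x`.  Applied to the function fields of `X₀(4)` and `X₀(9)`
in characteristic zero, whose genus formula vanishes.
-/

set_option autoImplicit false

open AlgebraicCurve IntermediateField ModularCurve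

namespace Fermat.Agent.S18.CLG0

open Fermat.Agent.S20 Fermat.Agent.S24

noncomputable section

variable {K F : Type*} [Field K] [Field F] [Algebra K F]

/-- A function with a single simple pole generates the function field (any characteristic). -/
theorem adjoin_eq_top_of_simple_pole [IsAlgClosed K] (x₀ : F) (hx₀ : Transcendental K x₀)
    [FiniteDimensional K⟮x₀⟯ F] (P : Place K F) (f : F) (hP : P.ord f = -1)
    (hreg : ∀ v : Place K F, v ≠ P → 0 ≤ v.ord f) : K⟮f⟯ = ⊤ := by
  have hfK : f ∉ Set.range (algebraMap K F) := by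
    rintro ⟨c, rfl⟩
    rw [Places.ord_algebraMap] at hP
    omega
  have htr : Transcendental K f := fun halg => by
    obtain ⟨c, hc⟩ := Places.exists_algebraMap_eq_of_isAlgebraic halg
    exact hfK ⟨c, hc⟩
  obtain ⟨g, n, hn, hfg, hg, hgfin, hgsep⟩ := PFrob.exists_sep_root' x₀ hx₀ f hfK
  have hn1 : n = 1 := by
    have h1 : P.ord f = n * P.ord g := by rw [hfg, ← zpow_natCast, P.ord_zpow]
    rw [hP] at h1
    have h2 : (n : ℤ) ∣ 1 := ⟨-P.ord g, by linarith⟩
    have h3 := Int.eq_one_of_dvd_one (Int.natCast_nonneg n) h2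
    exact_mod_cast h3
  subst hn1
  rw [pow_one] at hfg
  subst hfg
  obtain ⟨hPfin, hPsum⟩ := PSep.sum_ord_poles f htr
  have hset : {v : Place K F | v.ord f < 0} = {P} := by
    ext v
    simp only [Set.mem_ofPred_eq, Set.mem_singleton_iff]
    constructor
    · intro hv
      by_contra hne
      have := hreg v hne
      omega
    · rintro rfl
      omega
  rw [hset, finsum_mem_singleton, hP] at hPsum
  have hrank : Module.finrank K⟮f⟯ F = 1 := by
    have : (Module.finrank K⟮f⟯ F : ℤ) = 1 := by linarith
    exact_mod_cast this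
  exact IntermediateField.finrank_eq_one_iff_eq_top.mp hrank

/-- **Genus zero ⇒ rational** (any characteristic): if `ℓ(P) ≥ 2` for one place `P`, then
`F = K(x)`. -/
theorem exists_adjoin_eq_top_of_ell [IsAlgClosed K] (x₀ : F) (hx₀ : Transcendental K x₀)
    [FiniteDimensional K⟮x₀⟯ F] (P : Place K F)
    (hell : 2 ≤ RR.ell (Finsupp.single P 1 : Divisor K F)) : ∃ x : F, K⟮x⟯ = ⊤ := by
  classical
  have h0 := PHyp.hyp0_of_finite x₀ hx₀
  -- an element of `L(P)` which is not a constant
  have hex : ∃ f ∈ riemannRochSpace (Finsupp.single P 1 : Divisor K F),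
      f ∉ Set.range (algebraMap K F) := by
    by_contra hcon
    push Not at hcon
    have hle : riemannRochSpace (Finsupp.single P 1 : Divisor K F) ≤
        Submodule.span K {(1 : F)} := by
      intro f hf
      obtain ⟨c, rfl⟩ := hcon f hf
      rw [Submodule.mem_span_singleton]
      exact ⟨c, by rw [Algebra.smul_def, mul_one]⟩
    have h1 := Submodule.finrank_mono hle
    rw [finrank_span_singleton one_ne_zero] at h1
    unfold RR.ell at hell
    omega
  obtain ⟨f, hfD, hfK⟩ := hex
  have hf0 : f ≠ 0 := fun h => hfK ⟨0, by rw [h, map_zero]⟩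
  rw [mem_riemannRochSpace_iff] at hfD
  have hord : ∀ v : Place K F, v ≠ P → 0 ≤ v.ord f := by
    intro v hv
    have h1 := (hfD v).resolve_left hf0
    rw [Finsupp.single_apply, if_neg (Ne.symm hv)] at h1
    simpa using h1
  have hordP : -1 ≤ P.ord f := by
    have h1 := (hfD P).resolve_left hf0
    rwa [Finsupp.single_eq_same] at h1
  have hP1 : P.ord f = -1 := by
    by_contra hne
    have h2 : 0 ≤ P.ord f := by omega
    obtain ⟨c, hc⟩ := h0.const f (fun v => by
      by_cases hv : v = P
      · rw [hv]; exact h2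
      · exact hord v hv)
    exact hfK ⟨c, hc.symm⟩
  exact ⟨f, adjoin_eq_top_of_simple_pole x₀ hx₀ P f hP1 hord⟩

/-- **Genus zero ⇒ rational** (any characteristic), from Riemann's inequality with `g = 0`. -/
theorem exists_adjoin_eq_top [IsAlgClosed K] (x₀ : F) (hx₀ : Transcendental K x₀)
    [FiniteDimensional K⟮x₀⟯ F]
    (hR : ∀ D : Divisor K F, Divisor.degree D + 1 ≤ (RR.ell D : ℤ)) : ∃ x : F, K⟮x⟯ = ⊤ := by
  have h0 := PHyp.hyp0_of_finite x₀ hx₀
  have hne : Nonempty (Place K F) := by
    by_contra hne
    rw [not_nonempty_iff] at hne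
    obtain ⟨c, hc⟩ := h0.const x₀ (fun v => (hne.false v).elim)
    exact hx₀ (hc ▸ isAlgebraic_algebraMap c)
  obtain ⟨P⟩ := hne
  have hdeg : Divisor.degree (Finsupp.single P 1 : Divisor K F) = 1 := by
    rw [Divisor.degree_single, h0.deg_one P]
    simp
  have hell : 2 ≤ RR.ell (Finsupp.single P 1 : Divisor K F) := by
    have := hR (Finsupp.single P 1)
    rw [hdeg] at this
    omega
  exact exists_adjoin_eq_top_of_ell x₀ hx₀ P hell

/-! ### The function fields of `X₀(4)` and `X₀(9)` in characteristic zero -/

section Modular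

variable {L : Type*} [Field L] [Algebra ℚ L] [IsAlgClosed L]

/-- If the genus formula vanishes at level `N` and Riemann's inequality holds with the genus
formula, the function field of `X₀(N)` over `L` is rational. -/
theorem exists_adjoin_eq_top_FF (ι : L →+* ℂ) (N : ℕ) [NeZero N] (hg : genusFormula N = 0)
    (hC0 : ∀ D : Divisor L ↥(FF L N), (Divisor.degree D : ℚ) + 1 - genusFormula N ≤
      (Module.finrank L (riemannRochSpace D) : ℚ)) :
    ∃ x : ↥(FF L N), L⟮x⟯ = ⊤ := by
  have := Degree.finiteDimensional ι N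
  refine exists_adjoin_eq_top (jElt L N) (DegreeCore.transcendental_jElt N) fun D => ?_
  have h := hC0 D
  rw [hg, sub_zero] at h
  unfold RR.ell
  exact_mod_cast h

/-- The function field of `X₀(4)` over `L` is rational, given Riemann's inequality with the genus
formula. -/
theorem exists_adjoin_eq_top_four (ι : L →+* ℂ)
    (hC0 : ∀ D : Divisor L ↥(FF L 4), (Divisor.degree D : ℚ) + 1 - genusFormula 4 ≤
      (Module.finrank L (riemannRochSpace D) : ℚ)) :
    ∃ x : ↥(FF L 4), L⟮x⟯ = ⊤ :=
  exists_adjoin_eq_top_FF ι 4 Num.genusFormula_four hC0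

/-- The function field of `X₀(9)` over `L` is rational, given Riemann's inequality with the genus
formula. -/
theorem exists_adjoin_eq_top_nine (ι : L →+* ℂ)
    (hC0 : ∀ D : Divisor L ↥(FF L 9), (Divisor.degree D : ℚ) + 1 - genusFormula 9 ≤
      (Module.finrank L (riemannRochSpace D) : ℚ)) :
    ∃ x : ↥(FF L 9), L⟮x⟯ = ⊤ :=
  exists_adjoin_eq_top_FF ι 9 Num.genusFormula_nine hC0

/-- The frozen function field `modularFunctionFieldBar N` over `ℚ̄` is rational when the genus
formula vanishes and Riemann's inequality holds with the genus formula. -/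
theorem exists_adjoin_eq_top_bar (N : ℕ) [NeZero N] (hg : genusFormula N = 0)
    (hC0 : ∀ D : Divisor (AlgebraicClosure ℚ) ↥(modularFunctionFieldBar N),
      (Divisor.degree D : ℚ) + 1 - genusFormula N ≤
        (Module.finrank (AlgebraicClosure ℚ) (riemannRochSpace D) : ℚ)) :
    ∃ x : ↥(modularFunctionFieldBar N), (AlgebraicClosure ℚ)⟮x⟯ = ⊤ := by
  obtain ⟨ι, -⟩ := PHyp.exists_embedding
  exact exists_adjoin_eq_top_FF ι N hg hC0

end Modular

end

end Fermat.Agent.S18.CLG0
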