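/-
S18 (wave 7), chain CL, piece O, independent second seat (helper11): the cusp count for
Theorem A from a complete, rotation-stable family of embeddings into Laurent series.

Setting (that of `Fermat.Agent.S20.RRLite`): `F` a finite separable extension of `RatFunc K`.
A finite family `σ i : F →+* K((u))` of embeddings, fixing `K`, complete over `K(J)` for some
`J ∈ K(X)` and permuted by the substitution `u ↦ ζ u` according to a permutation `ρ`.  Then the
numbers `rFin a` of points of `F` over the finite centres `a` of the `σ i` add up to at most the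
number of cycles of `ρ`; with Theorem A this bounds `dim Ω` from below.
-/
import Fermat.Agent.S18.CLOrbit

set_option autoImplicit false

namespace Fermat.Agent.S18.CLOB

open Polynomial Module WithZero Fermat.Agent.S20.RRLite Fermat.Agent.S24 IntermediateField

noncomputable section

/-! ### Functions invariant under a permutation -/

section Rot

variable {I : Type*} (ρ : Equiv.Perm I)

theorem apply_zpow_eq {α : Type*} (f : I → α) (hf : ∀ i, f (ρ i) = f i) (k : ℤ) (i : I) :
    f ((ρ ^ k) i) = f i := by
  induction k using Int.induction_on generalizing i with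
  | zero => simp
  | succ k ih =>
    rw [zpow_add_one, Equiv.Perm.mul_apply, ih (ρ i), hf]
  | pred k ih =>
    have h : ρ (ρ⁻¹ i) = i := by
      rw [← Equiv.Perm.mul_apply, mul_inv_cancel, Equiv.Perm.one_apply]
    rw [zpow_sub_one, Equiv.Perm.mul_apply, ih (ρ⁻¹ i), ← hf (ρ⁻¹ i), h]

/-- a `ρ`-invariant function is constant on the orbits of the cyclic group generated by `ρ` -/
theorem eq_of_orbitRel {α : Type*} (f : I → α) (hf : ∀ i, f (ρ i) = f i) {i j : I}
    (h : MulAction.orbitRel (Subgroup.zpowers ρ) I i j) : f i = f j := by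
  rw [MulAction.orbitRel_apply] at h
  obtain ⟨⟨g, hg⟩, rfl⟩ := h
  obtain ⟨k, rfl⟩ := Subgroup.mem_zpowers_iff.mp hg
  exact apply_zpow_eq ρ f hf k j

end Rot

/-! ### Classes of embeddings over `K(X)` -/

section Class

variable {K F : Type*} [Field K] [Field F] [Algebra K F] [Algebra (RatFunc K) F]
  [IsScalarTower K (RatFunc K) F] [FiniteDimensional (RatFunc K) F]
  [Algebra.IsSeparable (RatFunc K) F]
  {I : Type*} [Fintype I] (σ : I → F →+* LaurentSeries K)

/-- **Transfer of centres.**  Every embedding of `K(X)` into `K((u))` compatible with the family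
on `K` and at `J` is the restriction of a member of the family. -/
theorem exists_of_hom (hσ : Function.Injective σ)
    (hK : ∀ i (c : K), σ i (algebraMap K F c) = HahnSeries.C c)
    (J : F) (hagree : ∀ i j, σ i J = σ j J)
    [FiniteDimensional K⟮J⟯ F] [Algebra.IsSeparable K⟮J⟯ F]
    (hcard : Fintype.card I = finrank K⟮J⟯ F)
    (x₀ : RatFunc K) (hJ : algebraMap (RatFunc K) F x₀ = J) (i₀ : I)
    (τ₀ : RatFunc K →+* LaurentSeries K)
    (hτK : ∀ c : K, τ₀ (algebraMap K (RatFunc K) c) = HahnSeries.C c)
    (hτJ : τ₀ x₀ = σ i₀ J) :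
    ∃ i, ∀ y : RatFunc K, σ i (algebraMap (RatFunc K) F y) = τ₀ y := by
  classical
  let Ω := AlgebraicClosure (LaurentSeries K)
  letI alg : Algebra (RatFunc K) Ω := ((algebraMap (LaurentSeries K) Ω).comp τ₀).toAlgebra
  have hmap : ∀ y : RatFunc K, algebraMap (RatFunc K) Ω y =
      algebraMap (LaurentSeries K) Ω (τ₀ y) := fun _ => rfl
  haveI : Algebra.IsAlgebraic (RatFunc K) F := Algebra.IsAlgebraic.of_finite _ _
  let ψ : F →ₐ[RatFunc K] Ω := IsAlgClosed.lift
  obtain ⟨i, hi⟩ := CLO.exists_eq_of_ringHom σ hσ hK J hagree hcard i₀ (ψ : F →+* Ω)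
    (fun c => by
      rw [IsScalarTower.algebraMap_apply K (RatFunc K) F]
      show ψ (algebraMap (RatFunc K) F (algebraMap K (RatFunc K) c)) = _
      rw [ψ.commutes, hmap, hτK])
    (by
      show ψ J = _
      rw [← hJ, ψ.commutes, hmap, hτJ, hJ])
  refine ⟨i, fun y => ?_⟩
  apply (algebraMap (LaurentSeries K) Ω).injective
  rw [← hi]
  show ψ (algebraMap (RatFunc K) F y) = _
  rw [ψ.commutes, hmap]

/-- **Classes.**  The members of the family agreeing with `σ i₀` on `K(X)` are exactly
`[F : K(X)]` in number. -/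
theorem exists_class (hσ : Function.Injective σ)
    (hK : ∀ i (c : K), σ i (algebraMap K F c) = HahnSeries.C c)
    (J : F) (hJ : J ∈ Set.range (algebraMap (RatFunc K) F)) (hagree : ∀ i j, σ i J = σ j J)
    [FiniteDimensional K⟮J⟯ F] [Algebra.IsSeparable K⟮J⟯ F]
    (hcard : Fintype.card I = finrank K⟮J⟯ F) (i₀ : I) :
    ∃ S : Finset I, i₀ ∈ S ∧ S.card = finrank (RatFunc K) F ∧
      ∀ i ∈ S, ∀ y : RatFunc K,
        σ i (algebraMap (RatFunc K) F y) = σ i₀ (algebraMap (RatFunc K) F y) := by
  classical
  obtain ⟨x₀, hx₀⟩ := hJ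
  let Ω := AlgebraicClosure (LaurentSeries K)
  letI alg : Algebra (RatFunc K) Ω :=
    (((algebraMap (LaurentSeries K) Ω).comp (σ i₀)).comp (algebraMap (RatFunc K) F)).toAlgebra
  have hmap : ∀ y : RatFunc K, algebraMap (RatFunc K) Ω y =
      algebraMap (LaurentSeries K) Ω (σ i₀ (algebraMap (RatFunc K) F y)) := fun _ => rfl
  let S : Finset I := Finset.univ.filter fun i => ∀ y : RatFunc K,
    σ i (algebraMap (RatFunc K) F y) = σ i₀ (algebraMap (RatFunc K) F y)
  have hS : ∀ i, i ∈ S ↔ ∀ y : RatFunc K,
      σ i (algebraMap (RatFunc K) F y) = σ i₀ (algebraMap (RatFunc K) F y) := by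
    intro i
    simp [S]
  let s : ↥S → (F →ₐ[RatFunc K] Ω) := fun i =>
    { toRingHom := (algebraMap (LaurentSeries K) Ω).comp (σ i)
      commutes' := fun y => by
        show algebraMap (LaurentSeries K) Ω (σ i (algebraMap (RatFunc K) F y)) = _
        rw [(hS i).mp i.2 y, hmap] }
  have hs : Function.Injective s := by
    intro i j hij
    apply Subtype.ext
    apply hσ
    ext x : 1
    have h1 : s i x = s j x := by rw [hij]
    exact (algebraMap (LaurentSeries K) Ω).injective h1
  have hsurj : Function.Surjective s := by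
    intro ψ
    obtain ⟨i, hi⟩ := CLO.exists_eq_of_ringHom σ hσ hK J hagree hcard i₀ (ψ : F →+* Ω)
      (fun c => by
        rw [IsScalarTower.algebraMap_apply K (RatFunc K) F]
        show ψ (algebraMap (RatFunc K) F (algebraMap K (RatFunc K) c)) = _
        rw [ψ.commutes, hmap, ← IsScalarTower.algebraMap_apply K (RatFunc K) F, hK])
      (by
        show ψ J = _
        rw [← hx₀, ψ.commutes, hmap])
    have hiS : i ∈ S := by
      rw [hS]
      intro y
      apply (algebraMap (LaurentSeries K) Ω).injective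
      rw [← hi, ← hmap]
      exact ψ.commutes y
    refine ⟨⟨i, hiS⟩, AlgHom.ext fun f => ?_⟩
    exact (hi f).symm
  refine ⟨S, (hS i₀).mpr fun _ => rfl, ?_, fun i hi => (hS i).mp hi⟩
  rw [← Fintype.card_coe, Fintype.card_of_bijective ⟨hs, hsurj⟩, AlgHom.card]

end Class

/-! ### The count -/

section Count

variable (K F : Type*) [Field K] [Field F] [Algebra K F] [Algebra K[X] F] [Algebra (RatFunc K) F]
  [IsScalarTower K K[X] F] [IsScalarTower K[X] (RatFunc K) F] [IsScalarTower K (RatFunc K) F]
  [FiniteDimensional (RatFunc K) F] [Algebra.IsSeparable (RatFunc K) F]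

/-- **The cusp count.**  The numbers of points of `F` over the finite centres of the family add
up to at most the number of cycles of the rotation. -/
theorem sum_rFin_le {I : Type*} [Fintype I]
    (σ : I → F →+* LaurentSeries K) (hσ : Function.Injective σ)
    (hK : ∀ i (c : K), σ i (algebraMap K F c) = HahnSeries.C c)
    (ρ : Equiv.Perm I) (ζ : K) (hζ : ζ ≠ 0)
    (hrot : ∀ (i : I) (f : F) (n : ℤ), (σ (ρ i) f).coeff n = ζ ^ n * (σ i f).coeff n)
    (J : F) (hJ : J ∈ Set.range (algebraMap (RatFunc K) F))
    (hagree : ∀ i j, σ i J = σ j J)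
    [FiniteDimensional K⟮J⟯ F] [Algebra.IsSeparable K⟮J⟯ F]
    (hcard : Fintype.card I = finrank K⟮J⟯ F)
    (T : Finset K) (hT : ∀ a ∈ T, ∃ i, 0 < (σ i (algebraMap K[X] F (X - C a))).order) :
    ∑ a ∈ T, rFin K F a ≤ cyc ρ := by
  classical
  letI : Fintype (MulAction.orbitRel.Quotient (Subgroup.zpowers ρ) I) := Fintype.ofFinite _
  -- constants
  have hC : ∀ i (c : K), σ i (algebraMap K[X] F (C c)) = HahnSeries.C c := by
    intro i c
    rw [Polynomial.C_eq_algebraMap, ← IsScalarTower.algebraMap_apply K K[X] F, hK]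
  -- the predicate "centred at `a`"
  let P : K → I → Prop := fun a i => CLO.wL (σ i (algebraMap K[X] F (X - C a))) < 1
  have hPρ : ∀ a i, P a (ρ i) = P a i := by
    intro a i
    have h : CLO.wL (σ (ρ i) (algebraMap K[X] F (X - C a))) =
        CLO.wL (σ i (algebraMap K[X] F (X - C a))) :=
      CLO.wL_eq_of_coeff fun n => by
        rw [hrot, mul_eq_zero_iff_left (zpow_ne_zero n hζ)]
    show (_ < 1) = (_ < 1)
    rw [h]
  have hPdisj : ∀ a a' i, P a i → P a' i → a = a' := by
    intro a a' i h h'
    have hsub : σ i (algebraMap K[X] F (X - C a')) - σ i (algebraMap K[X] F (X - C a)) =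
        HahnSeries.C (a - a') := by
      rw [← map_sub, ← map_sub, ← hC i (a - a')]
      congr 2
      rw [map_sub]
      ring
    have hlt : CLO.wL (HahnSeries.C (a - a') : LaurentSeries K) < 1 := by
      rw [← hsub]
      exact lt_of_le_of_lt (Valuation.map_sub _ _ _) (max_lt h' h)
    have h0 := CLO.coeff_zero_of_wL_lt_one hlt
    rw [HahnSeries.C_apply, HahnSeries.coeff_single_same] at h0
    exact sub_eq_zero.mp h0
  -- integrality of the embeddings centred at `a`
  have hpoly : ∀ a i, P a i → ∀ p : K[X], CLO.wL (σ i (algebraMap K[X] F p)) ≤ 1 := by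
    intro a i hi p
    have hX : CLO.wL (σ i (algebraMap K[X] F X)) ≤ 1 := by
      have hXa : (X : K[X]) = (X - C a) + C a := by ring
      rw [hXa, map_add, map_add]
      refine le_trans (Valuation.map_add _ _ _) (max_le hi.le ?_)
      rw [hC]
      exact CLO.wL_C_le_one a
    induction p using Polynomial.induction_on with
    | C c =>
      rw [hC]
      exact CLO.wL_C_le_one c
    | add p q hp hq =>
      rw [map_add, map_add]
      exact le_trans (Valuation.map_add _ _ _) (max_le hp hq)
    | monomial n c h =>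
      rw [pow_succ, ← mul_assoc, map_mul, map_mul, Valuation.map_mul]
      exact mul_le_one' h hX
  -- the orbits centred at `a`
  let Qa : K → Finset (MulAction.orbitRel.Quotient (Subgroup.zpowers ρ) I) := fun a =>
    Finset.univ.filter fun q => P a (Quotient.out q)
  have hQa : ∀ a q, q ∈ Qa a ↔ P a (Quotient.out q) := by
    intro a q
    simp [Qa]
  have hdisj : ∀ a ∈ T, ∀ a' ∈ T, a ≠ a' → Disjoint (Qa a) (Qa a') := by
    intro a _ a' _ hne
    rw [Finset.disjoint_left]
    intro q hq hq'
    exact hne (hPdisj a a' _ ((hQa a q).mp hq) ((hQa a' q).mp hq'))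
  have hmain : ∀ a ∈ T, rFin K F a ≤ (Qa a).card := by
    intro a ha
    obtain ⟨i₀, hi₀⟩ := hT a ha
    have hP₀ : P a i₀ := CLO.wL_lt_one_of_order hi₀
    obtain ⟨S, -, hScard, hS⟩ := exists_class σ hσ hK J hJ hagree hcard i₀
    have hPS : ∀ i ∈ S, P a i := by
      intro i hi
      show CLO.wL (σ i (algebraMap K[X] F (X - C a))) < 1
      rw [IsScalarTower.algebraMap_apply K[X] (RatFunc K) F, hS i hi,
        ← IsScalarTower.algebraMap_apply K[X] (RatFunc K) F]
      exact hP₀
    let φ : ↥(B0K K F) →ₗ[K] (↥(Qa a) → K) :=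
      { toFun := fun b q => (σ (Quotient.out q.1) (b : F)).coeff 0
        map_add' := fun b c => by
          ext q
          show (σ (Quotient.out q.1) ((b + c : B0K K F) : F)).coeff 0 =
            (σ (Quotient.out q.1) (b : F)).coeff 0 + (σ (Quotient.out q.1) (c : F)).coeff 0
          rw [Submodule.coe_add, map_add, HahnSeries.coeff_add]
        map_smul' := fun c b => by
          ext q
          show (σ (Quotient.out q.1) ((c • b : B0K K F) : F)).coeff 0 =
            c * (σ (Quotient.out q.1) (b : F)).coeff 0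
          rw [Submodule.coe_smul, Algebra.smul_def, map_mul, hK, HahnSeries.C_mul_eq_smul,
            HahnSeries.coeff_smul, smul_eq_mul] }
    have hfin : rFin K F a ≤ finrank K (↥(Qa a) → K) := by
      refine rFin_le K F a φ fun b hb => ?_
      rw [mem_Rad0]
      have hcoeff : ∀ i, P a i → (σ i (b : F)).coeff 0 = 0 := by
        intro i hi
        have hrel : MulAction.orbitRel (Subgroup.zpowers ρ) I
            (Quotient.out (Quotient.mk (MulAction.orbitRel (Subgroup.zpowers ρ) I) i)) i :=
          Quotient.mk_out i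
        have hq : Quotient.mk (MulAction.orbitRel (Subgroup.zpowers ρ) I) i ∈ Qa a := by
          rw [hQa, eq_of_orbitRel ρ (P a) (hPρ a) hrel]
          exact hi
        have h0 : (σ (Quotient.out (Quotient.mk (MulAction.orbitRel (Subgroup.zpowers ρ) I) i))
            (b : F)).coeff 0 = 0 := congrFun hb ⟨_, hq⟩
        rw [← eq_of_orbitRel ρ (fun i => (σ i (b : F)).coeff 0)
          (fun i => by rw [hrot, zpow_zero, one_mul]) hrel]
        exact h0
      have hmax : (Ideal.span {(X - C a : K[X])}).IsMaximal :=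
        PrincipalIdealRing.isMaximal_of_irreducible (Polynomial.irreducible_X_sub_C a)
      refine CLO.isNilMod_of_coeff K F K[X] (X - C a) hmax (Polynomial.X_sub_C_ne_zero a)
        (fun i : ↥S => σ i) ?_ ?_ ?_ ?_ ?_ (b : F) b.2 ?_
      · intro i j hij
        exact Subtype.ext (hσ hij)
      · rw [Fintype.card_coe, hScard]
      · intro i j y
        rw [hS i i.2, hS j j.2]
      · intro i p
        exact hpoly a i (hPS i i.2) p
      · intro i
        exact hPS i i.2
      · intro i
        exact hcoeff i (hPS i i.2)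
    rwa [Module.finrank_fintype_fun_eq_card, Fintype.card_coe] at hfin
  calc ∑ a ∈ T, rFin K F a ≤ ∑ a ∈ T, (Qa a).card := Finset.sum_le_sum hmain
    _ = (T.biUnion Qa).card := (Finset.card_biUnion hdisj).symm
    _ ≤ Fintype.card (MulAction.orbitRel.Quotient (Subgroup.zpowers ρ) I) :=
      Finset.card_le_univ _
    _ = cyc ρ := by rw [cyc, Nat.card_eq_fintype_card]

/-- **Theorem A with the cusp count.**  `2 + #T · n ≤ 2 dim Ω + 2 n + cyc ρ` for every finite set
`T` of finite centres of the family. -/
theorem two_add_card_mul_le [IsAlgClosed K] {I : Type*} [Fintype I]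
    (σ : I → F →+* LaurentSeries K) (hσ : Function.Injective σ)
    (hK : ∀ i (c : K), σ i (algebraMap K F c) = HahnSeries.C c)
    (ρ : Equiv.Perm I) (ζ : K) (hζ : ζ ≠ 0)
    (hrot : ∀ (i : I) (f : F) (n : ℤ), (σ (ρ i) f).coeff n = ζ ^ n * (σ i f).coeff n)
    (J : F) (hJ : J ∈ Set.range (algebraMap (RatFunc K) F))
    (hagree : ∀ i j, σ i J = σ j J)
    [FiniteDimensional K⟮J⟯ F] [Algebra.IsSeparable K⟮J⟯ F]
    (hcard : Fintype.card I = finrank K⟮J⟯ F)
    (T : Finset K) (hT : ∀ a ∈ T, ∃ i, 0 < (σ i (algebraMap K[X] F (X - C a))).order) :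
    2 + T.card * finrank (RatFunc K) F ≤
      2 * finrank K (Omega K F) + 2 * finrank (RatFunc K) F + cyc ρ := by
  have hsum := sum_rFin_le K F σ hσ hK ρ ζ hζ hrot J hJ hagree hcard T hT
  obtain ⟨-, hA⟩ := theoremA K F T
  have h1 : T.card * finrank (RatFunc K) F ≤
      ∑ a ∈ T, (finrank (RatFunc K) F - rFin K F a) + ∑ a ∈ T, rFin K F a := by
    rw [← Finset.sum_add_distrib, ← smul_eq_mul, ← Finset.sum_const]
    exact Finset.sum_le_sum fun a _ => by omega
  omega

end Count

end

end Fermat.Agent.S18.CLOB
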