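/-
S18, chain CL, piece E2: the reduced conjugate embeddings.

For a prime `ℓ ∤ N`, a valuation subring `A` of `ℚ̄` over `ℓ` with residue field `k`, the function
field `F̄_N = modularFunctionFieldFullC k N` of `X₀(N)` in characteristic `ℓ` has a family of
embeddings `σ̄_i : F̄_N → k((u))`, indexed by the cosets `i ∈ SL(2, ℤ) / Γ₀(N)`: the reductions of
the expansions of the function field in characteristic zero at the cusps.  They are pairwise
distinct, the substitution `u ↦ ζ u` (`ζ` a primitive `N`-th root of unity of `k`) permutes them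
like `T⁻¹` permutes the cosets, the embedding of the trivial coset is `f ↦ f(u^N)`, and all of
them send `j` to `j(u^N)`.

Construction: the characteristic zero expansions `tauG` of S24 have coefficients in `ℚ̄`
(`tauL`), they map the Gauss valuation ring `V = F ∩ Lam A` of `RGauss` into `Lam A` (normal form
of `RNormal`), and `σ̄_i` is the map induced on the residue fields.
-/
import Mathlib
import Fermat.Agent.S24.Mod.Cusp
import Fermat.Agent.S18.RGaussBar

set_option autoImplicit false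

noncomputable section

open scoped MatrixGroups Real
open UpperHalfPlane ModularCurve Fermat.Agent.S24 Fermat.Agent.S23 Fermat.Agent.S28.Phi
open Fermat.Agent.S28

namespace Fermat.Agent.S18.CLSigma

/-! ### Characteristic zero: the shape of the expansions at the cusps -/

/-- The expansion of `z ↦ j (d γ z)` in `u = exp (2 π i z / N)` is `j (ξ u ^ e)` with `ξ` an
`N`-th root of unity. -/
theorem fexp_shape (N : ℕ) [NeZero N] (γ : SL(2, ℤ)) (d : Dv N) :
    ∃ (e : ℕ) (_ : NeZero e) (ξ : ℂ) (hξ : ξ ≠ 0), ξ ^ N = 1 ∧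
      Cusp.fexp N γ d = qExpand ℂ e (Cusp.twist ξ hξ (coeffEmb ℂ jq)) := by
  have : NeZero d.1 := ⟨d.ne_zero⟩
  obtain ⟨A, D, B, -, hA, hD, hAD, -, hz⟩ := JN.exists_aff_of_smul d.1 γ
  have hDN : D ∣ N := (Dvd.intro_left A hAD).trans d.2
  obtain ⟨E', hE'⟩ := hDN
  have hE'pos : 0 < E' := by
    rcases Nat.eq_zero_or_pos E' with h0 | h0
    · rw [h0, mul_zero] at hE'
      exact absurd hE' (NeZero.ne N)
    · exact h0
  have hne : NeZero (A * E') := ⟨(Nat.mul_pos hA hE'pos).ne'⟩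
  have hDC : (D : ℂ) ≠ 0 := by exact_mod_cast hD.ne'
  refine ⟨A * E', hne, Complex.exp (2 * π * Complex.I * (((B : ℝ) / D : ℝ) : ℂ)),
    Complex.exp_ne_zero _, ?_, ?_⟩
  · rw [← Complex.exp_nat_mul, Complex.exp_eq_one_iff]
    refine ⟨B * E', ?_⟩
    rw [hE']
    push_cast
    field_simp
  · refine (Cusp.hasU_fexp N γ d).unique_series
      (((Cusp.hasU_jFun.comp_vadd ((B : ℝ) / D)).comp_dil (A * E')).congr fun z => ?_)
    rw [hz]
    congr 1
    apply UpperHalfPlane.ext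
    have hDR : (0 : ℝ) < (D : ℝ) := by exact_mod_cast hD
    have hAR : (0 : ℝ) < (A : ℝ) := by exact_mod_cast hA
    rw [coe_vadd, JN.coe_dil, JN.coe_aff (div_pos hAR hDR), JN.coe_dil, hE']
    push_cast
    field_simp
    ring

/-- For `γ ∈ Γ₀(N)` the expansions are the standard ones. -/
theorem fexp_of_mem (N : ℕ) [NeZero N] {γ : SL(2, ℤ)} (hγ : γ ∈ CongruenceSubgroup.Gamma0 N)
    (d : Dv N) : Cusp.fexp N γ d = qExpand ℂ N (coeffEmb ℂ (jqd d)) := by
  have : NeZero d.1 := ⟨d.ne_zero⟩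
  have h1 : coeffEmb ℂ (jqd d) = qExpand ℂ d.1 (coeffEmb ℂ jq) := by
    rw [jqd, coeffEmb, coeffMap_qExpand]
  rw [h1]
  refine (Cusp.hasU_fexp N γ d).unique_series
    (((Cusp.hasU_jFun.comp_dil d.1).comp_dil N).congr fun z => ?_)
  show JN.jN d.1 (JN.dil N z) = _
  rw [JN.jN_smul_of_mem_Gamma0 d.1 (Cusp.gamma0_le_of_dvd d.2 hγ)]

theorem twist_eq_twistU (ξ : ℂ) (hξ : ξ ≠ 0) (u : ℂˣ) (hu : (u : ℂ) = ξ) (x : LaurentSeries ℂ) :
    Cusp.twist ξ hξ x = twistU u x := by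
  ext k
  rw [Cusp.twist_coeff, twistU_coeff, Units.val_zpow_eq_zpow_val, hu]

section CharZero

variable {L : Type*} [Field L] [Algebra ℚ L] (ι : L →+* ℂ) (N : ℕ) [NeZero N]

theorem coeffMap_coeffEmb' (x : LaurentSeries ℚ) : coeffMap ι (coeffEmb L x) = coeffEmb ℂ x := by
  rw [coeffEmb, coeffMap_coeffMap]
  exact coeffMap_congr (Subsingleton.elim _ _) x

/-- For `γ ∈ Γ₀(N)` the expansion embedding is `f ↦ f(u^N)`. -/
theorem tauG_of_mem {γ : SL(2, ℤ)} (hγ : γ ∈ CongruenceSubgroup.Gamma0 N) (x : ↥(FF L N)) :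
    Cusp.tauG ι N γ x = qExpand ℂ N (coeffMap ι (x : LaurentSeries L)) := by
  have key : Cusp.tauG ι N γ
      = ((qExpand ℂ N).comp (coeffMap ι)).comp (FF L N).val.toRingHom := by
    apply Ext.hom_ext L N
    intro P
    rw [Cusp.tauG_evalL]
    have h2 : Cusp.phi ι N γ = (((qExpand ℂ N).comp (coeffMap ι)).comp
        (FF L N).val.toRingHom).comp (evalL L N).toRingHom := by
      apply MvPolynomial.ringHom_ext
      · intro c
        have h3 : ((evalL L N (MvPolynomial.C c) : ↥(FF L N)) : LaurentSeries L)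
            = HahnSeries.C c := by
          rw [Ext.evalL_C, RG.coe_algebraMap_FF]
        show MvPolynomial.eval₂Hom (HahnSeries.C.comp ι) (Cusp.fexp N γ) (MvPolynomial.C c)
          = qExpand ℂ N (coeffMap ι ((evalL L N (MvPolynomial.C c) : ↥(FF L N)) :
              LaurentSeries L))
        rw [h3, MvPolynomial.eval₂Hom_C, RG.coeffMap_C, qExpand_C]
        rfl
      · intro d
        have h3 : ((evalL L N (MvPolynomial.X d) : ↥(FF L N)) : LaurentSeries L)
            = coeffEmb L (jqd d) := by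
          rw [Ext.evalL_X]
          rfl
        show MvPolynomial.eval₂Hom (HahnSeries.C.comp ι) (Cusp.fexp N γ) (MvPolynomial.X d)
          = qExpand ℂ N (coeffMap ι ((evalL L N (MvPolynomial.X d) : ↥(FF L N)) :
              LaurentSeries L))
        rw [h3, MvPolynomial.eval₂Hom_X', fexp_of_mem N hγ d, coeffMap_coeffEmb']
    rw [h2]
    rfl
  rw [key]
  rfl

theorem exists_root_lift [IsAlgClosed L] {ξ : ℂ} (hξ : ξ ^ N = 1) :
    ∃ ξ' : L, ξ' ^ N = 1 ∧ ι ξ' = ξ := by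
  have : CharZero L := algebraRat.charZero L
  have : NeZero (N : L) := ⟨by exact_mod_cast NeZero.ne N⟩
  obtain ⟨ζ, hζ⟩ := HasEnoughRootsOfUnity.exists_primitiveRoot L N
  have hζ' : IsPrimitiveRoot (ι ζ) N := hζ.map_of_injective ι.injective
  obtain ⟨i, -, hi⟩ := hζ'.eq_pow_of_pow_eq_one hξ
  refine ⟨ζ ^ i, ?_, ?_⟩
  · rw [← pow_mul, mul_comm, pow_mul, hζ.pow_eq_one, one_pow]
  · rw [map_pow, hi]

omit [Algebra ℚ L] in
theorem exists_unit_of_pow_eq_one (A : ValuationSubring L) {x : L} (hx : x ^ N = 1) :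
    ∃ u : (↥A)ˣ, ((u : ↥A) : L) = x ∧ u ^ N = 1 := by
  have hN : N ≠ 0 := NeZero.ne N
  have hx0 : x ≠ 0 := by
    intro h0
    rw [h0, zero_pow hN] at hx
    exact zero_ne_one hx
  have hmem : x ∈ A := by
    rcases A.mem_or_inv_mem x with h | h
    · exact h
    · have h1 : x = x⁻¹ ^ (N - 1) := by
        have h2 : x ^ (N - 1) * x = 1 := by
          rw [← pow_succ, Nat.sub_add_cancel (Nat.pos_of_ne_zero hN), hx]
        rw [inv_pow]
        exact (eq_inv_of_mul_eq_one_right h2)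
      rw [h1]
      exact pow_mem h _
  have hpow : (⟨x, hmem⟩ : ↥A) ^ N = 1 := Subtype.ext (by simpa using hx)
  obtain ⟨u, hu⟩ := IsUnit.of_pow_eq_one hpow hN
  refine ⟨u, by rw [hu], ?_⟩
  apply Units.ext
  rw [Units.val_pow_eq_pow_val, hu, hpow]
  rfl

/-- the shape of an expansion at a cusp: `j (ξ u ^ e)` with `ξ` an `N`-th root of unity of `A` -/
def IsShape (A : ValuationSubring L) (N : ℕ) (a : LaurentSeries ↥A) : Prop :=
  ∃ (e : ℕ) (_ : NeZero e) (ξ : (↥A)ˣ), ξ ^ N = 1 ∧ a = qExpand ↥A e (twistU ξ (jqModC ↥A))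

theorem exists_fexpA [IsAlgClosed L] (A : ValuationSubring L) (γ : SL(2, ℤ)) (d : Dv N) :
    ∃ a : LaurentSeries ↥A, IsShape A N a ∧
      Cusp.fexp N γ d = coeffMap (ι.comp A.subtype) a := by
  obtain ⟨e, he, ξ, hξ, hξN, hf⟩ := fexp_shape N γ d
  obtain ⟨ξ', hξ'N, hξ'⟩ := exists_root_lift ι N hξN
  obtain ⟨u, hu, huN⟩ := exists_unit_of_pow_eq_one N A hξ'N
  refine ⟨qExpand ↥A e (twistU u (jqModC ↥A)), ⟨e, he, u, huN, rfl⟩, ?_⟩
  rw [hf, coeffMap_qExpand, coeffMap_twistU, coeffMap_jqModC, RN.coeffEmb_jq ℂ]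
  congr 1
  apply twist_eq_twistU
  show (ι.comp A.subtype) (u : ↥A) = ξ
  rw [RingHom.comp_apply, ← hξ']
  congr 1

/-- The expansion embeddings have coefficients in `L`, and are integral on the generators. -/
theorem exists_tauL [IsAlgClosed L] (A : ValuationSubring L) (γ : SL(2, ℤ)) :
    ∃ τ : ↥(FF L N) →+* LaurentSeries L,
      (∀ x, coeffMap ι (τ x) = Cusp.tauG ι N γ x) ∧
      (∀ c : L, τ (algebraMap L ↥(FF L N) c) = HahnSeries.C c) ∧
      (∀ d : Dv N, ∃ a : LaurentSeries ↥A, IsShape A N a ∧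
        τ (gen L N d) = coeffMap A.subtype a) := by
  choose a ha hf using exists_fexpA ι N A γ
  set φL : MvPolynomial (Dv N) L →+* LaurentSeries L :=
    MvPolynomial.eval₂Hom (HahnSeries.C : L →+* LaurentSeries L)
      (fun d => coeffMap A.subtype (a d)) with hφL
  have hφ : ∀ P, coeffMap ι (φL P) = Cusp.phi ι N γ P := by
    intro P
    have h1 := MvPolynomial.eval₂_comp_left (coeffMap ι) (HahnSeries.C : L →+* LaurentSeries L)
      (fun d => coeffMap A.subtype (a d)) P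
    have h2 : (coeffMap ι).comp (HahnSeries.C : L →+* LaurentSeries L)
        = (HahnSeries.C : ℂ →+* LaurentSeries ℂ).comp ι := by
      ext c : 1
      rw [RingHom.comp_apply, RingHom.comp_apply, RG.coeffMap_C]
    have h3 : (⇑(coeffMap ι) ∘ fun d => coeffMap A.subtype (a d)) = Cusp.fexp N γ := by
      funext d
      rw [Function.comp_apply, coeffMap_coeffMap, hf d]
    rw [h2, h3] at h1
    exact h1
  have hinj : Function.Injective (coeffMap ι) := coeffMap_injective ι ι.injective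
  have hker : ∀ P, evalL L N P = 0 ↔ φL P = 0 := by
    intro P
    rw [Cusp.phi_eq_zero_iff ι N γ P, ← hφ P]
    constructor
    · intro h
      exact hinj (by rw [h, map_zero])
    · intro h
      rw [h, map_zero]
  obtain ⟨τ, hτ⟩ := Ext.exists_hom L N φL hker
  refine ⟨τ, ?_, ?_, ?_⟩
  · intro x
    have h1 : (coeffMap ι).comp τ = Cusp.tauG ι N γ := by
      apply Ext.hom_ext L N
      intro P
      rw [RingHom.comp_apply, hτ, hφ, Cusp.tauG_evalL]
    exact RingHom.congr_fun h1 x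
  · intro c
    rw [← Ext.evalL_C, hτ, hφL, MvPolynomial.eval₂Hom_C]
  · intro d
    refine ⟨a d, ha d, ?_⟩
    rw [← Ext.evalL_X, hτ, hφL, MvPolynomial.eval₂Hom_X']

variable [IsAlgClosed L] (A : ValuationSubring L)

/-- The expansion embedding attached to `γ`, with values in `L((u))`. -/
def tauL (γ : SL(2, ℤ)) : ↥(FF L N) →+* LaurentSeries L :=
  Classical.choose (exists_tauL ι N A γ)

theorem coeffMap_tauL (γ : SL(2, ℤ)) (x : ↥(FF L N)) :
    coeffMap ι (tauL ι N A γ x) = Cusp.tauG ι N γ x :=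
  (Classical.choose_spec (exists_tauL ι N A γ)).1 x

theorem tauL_algebraMap (γ : SL(2, ℤ)) (c : L) :
    tauL ι N A γ (algebraMap L ↥(FF L N) c) = HahnSeries.C c :=
  (Classical.choose_spec (exists_tauL ι N A γ)).2.1 c

theorem tauL_gen (γ : SL(2, ℤ)) (d : Dv N) :
    ∃ a : LaurentSeries ↥A, IsShape A N a ∧
      tauL ι N A γ (gen L N d) = coeffMap A.subtype a :=
  (Classical.choose_spec (exists_tauL ι N A γ)).2.2 d

theorem tauL_of_mem {γ : SL(2, ℤ)} (hγ : γ ∈ CongruenceSubgroup.Gamma0 N) (x : ↥(FF L N)) :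
    tauL ι N A γ x = qExpand L N (x : LaurentSeries L) := by
  apply coeffMap_injective ι ι.injective
  rw [coeffMap_tauL, tauG_of_mem ι N hγ, coeffMap_qExpand]

theorem tauL_jElt (γ : SL(2, ℤ)) : tauL ι N A γ (jElt L N) = qExpand L N (jqModC L) := by
  apply coeffMap_injective ι ι.injective
  rw [coeffMap_tauL, jElt, Cusp.tauG_gen, Cusp.fexp_one, coeffMap_qExpand, coeffMap_jqModC,
    RN.coeffEmb_jq ℂ]

theorem tauL_out_injective :
    Function.Injective fun i : SL(2, ℤ) ⧸ CongruenceSubgroup.Gamma0 N =>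
      tauL ι N A (Quotient.out i)⁻¹ := by
  intro i j hij
  apply Cusp.tauG_out_injective ι N
  apply RingHom.ext
  intro x
  show Cusp.tauG ι N (Quotient.out i)⁻¹ x = Cusp.tauG ι N (Quotient.out j)⁻¹ x
  rw [← coeffMap_tauL ι N A, ← coeffMap_tauL ι N A]
  have h := RingHom.congr_fun hij x
  exact congrArg (coeffMap ι) h

/-- The rotation `u ↦ ζ u` of the expansions corresponds to `T⁻¹` on cosets. -/
theorem exists_rot :
    ∃ ζ : (↥A)ˣ, IsPrimitiveRoot (((ζ : ↥A) : L)) N ∧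
      ∀ (i : SL(2, ℤ) ⧸ CongruenceSubgroup.Gamma0 N) (x : ↥(FF L N)),
        tauL ι N A (Quotient.out (cosetPerm N ModularGroup.T⁻¹ i))⁻¹ x
          = twistU (Units.map (A.subtype : ↥A →* L) ζ) (tauL ι N A (Quotient.out i)⁻¹ x) := by
  have hprim : IsPrimitiveRoot (Complex.exp (2 * π * Complex.I * ((1 / N : ℝ) : ℂ))) N := by
    have h := Complex.isPrimitiveRoot_exp N (NeZero.ne N)
    have e : 2 * (π : ℂ) * Complex.I * ((1 / N : ℝ) : ℂ) = 2 * π * Complex.I / N := by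
      push_cast
      ring
    rw [e]
    exact h
  obtain ⟨ζ', hζ'N, hζ'⟩ := exists_root_lift ι N hprim.pow_eq_one
  obtain ⟨u, hu, -⟩ := exists_unit_of_pow_eq_one N A hζ'N
  refine ⟨u, ?_, ?_⟩
  · rw [hu]
    have h2 : IsPrimitiveRoot (ι ζ') N := by
      rw [hζ']
      exact hprim
    exact IsPrimitiveRoot.of_map_of_injective h2 ι.injective
  · intro i x
    apply coeffMap_injective ι ι.injective
    rw [coeffMap_tauL, Cusp.tauG_rot, RingHom.comp_apply, coeffMap_twistU, coeffMap_tauL]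
    apply twist_eq_twistU
    show ι ((u : ↥A) : L) = _
    rw [hu, hζ']

end CharZero

section Reduction

variable (N : ℕ) [NeZero N] {ℓ : ℕ} [Fact ℓ.Prime] (hℓN : ¬ ℓ ∣ N)
  (A : ValuationSubring (AlgebraicClosure ℚ)) (hA : A.LiesOverPrime ℓ)

local notation "Qb" => AlgebraicClosure ℚ
local notation "kA" => IsLocalRing.ResidueField A
local notation "incl" => coeffMap (ValuationSubring.subtype A)
local notation "red" => coeffMap (IsLocalRing.residue A)

omit [NeZero N] in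
/-- polynomial expressions with coefficients in `A` stay in a subring containing the constants
of `A` -/
theorem aeval_map_mem (S : Subring (LaurentSeries Qb))
    (hC : ∀ c : ↥A, (HahnSeries.C (c : Qb) : LaurentSeries Qb) ∈ S)
    {y : LaurentSeries Qb} (hy : y ∈ S) (P : Polynomial ↥A) :
    Polynomial.aeval y (P.map A.subtype) ∈ S := by
  rw [Polynomial.aeval_eq_sum_range]
  refine sum_mem fun i _ => ?_
  rw [Algebra.smul_def, Polynomial.coeff_map, RC.algebraMap_eq_C]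
  exact mul_mem (hC _) (pow_mem hy _)

variable (τ : ↥(FF Qb N) →+* LaurentSeries Qb)

/-- ring homomorphisms of the function field into `ℚ̄((u))` which are the identity on constants,
integral on the generators and send `j` to `j(u^N)` -/
structure Adm : Prop where
  const : ∀ c : Qb, τ (algebraMap Qb ↥(FF Qb N) c) = HahnSeries.C c
  gens : ∀ d : Dv N, ∃ a : LaurentSeries ↥A, τ (gen Qb N d) = coeffMap A.subtype a
  j : τ (jElt Qb N) = qExpand Qb N (jqModC Qb)

/-- elements of the function field whose `τ`-image has coefficients in `A` -/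
def S1 : Subring (LaurentSeries Qb) :=
  ((coeffMap A.subtype).range.comap τ).map (FF Qb N).val.toRingHom

/-- elements of the function field on which `τ` is `f ↦ f(u^N)` -/
def S2 : Subring (LaurentSeries Qb) :=
  (RingHom.eqLocus τ ((qExpand Qb N).comp (FF Qb N).val.toRingHom)).map (FF Qb N).val.toRingHom

theorem mem_S1 {y : LaurentSeries Qb} :
    y ∈ S1 N A τ ↔ ∃ x : ↥(FF Qb N), (∃ a' : LaurentSeries ↥A, incl a' = τ x) ∧
      (x : LaurentSeries Qb) = y := by
  unfold S1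
  rw [Subring.mem_map]
  constructor
  · rintro ⟨x, hx, rfl⟩
    exact ⟨x, hx, rfl⟩
  · rintro ⟨x, hx, rfl⟩
    exact ⟨x, hx, rfl⟩

theorem mem_S2 {y : LaurentSeries Qb} :
    y ∈ S2 N τ ↔ ∃ x : ↥(FF Qb N), τ x = qExpand Qb N (x : LaurentSeries Qb) ∧
      (x : LaurentSeries Qb) = y := by
  unfold S2
  rw [Subring.mem_map]
  constructor
  · rintro ⟨x, hx, rfl⟩
    exact ⟨x, hx, rfl⟩
  · rintro ⟨x, hx, rfl⟩
    exact ⟨x, hx, rfl⟩

variable {N A τ}

theorem Adm.C_mem_S1 (h : Adm N A τ) (c : ↥A) :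
    (HahnSeries.C (c : Qb) : LaurentSeries Qb) ∈ S1 N A τ := by
  refine (mem_S1 N A τ).mpr ⟨algebraMap Qb ↥(FF Qb N) (c : Qb), ⟨HahnSeries.C c, ?_⟩,
    RG.coe_algebraMap_FF N _⟩
  rw [h.const, RG.coeffMap_C]
  rfl

theorem Adm.C_mem_S2 (h : Adm N A τ) (c : Qb) :
    (HahnSeries.C c : LaurentSeries Qb) ∈ S2 N τ := by
  refine (mem_S2 N τ).mpr ⟨algebraMap Qb ↥(FF Qb N) c, ?_, RG.coe_algebraMap_FF N _⟩
  rw [h.const, RG.coe_algebraMap_FF, qExpand_C]

theorem Adm.j_mem_S2 (h : Adm N A τ) : jqModC Qb ∈ S2 N τ := by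
  refine (mem_S2 N τ).mpr ⟨jElt Qb N, ?_, RN.coe_jElt Qb N⟩
  rw [h.j, RN.coe_jElt]

theorem Adm.j_mem_S1 (h : Adm N A τ) : jqModC Qb ∈ S1 N A τ := by
  refine (mem_S1 N A τ).mpr ⟨jElt Qb N, ⟨qExpand ↥A N (jqModC ↥A), ?_⟩, RN.coe_jElt Qb N⟩
  rw [h.j, coeffMap_qExpand, coeffMap_jqModC]

theorem Adm.Jd_mem_S1 (h : Adm N A τ) {d : ℕ} (hd : d ∈ N.divisors) :
    Mono.Jd Qb d ∈ S1 N A τ := by
  have hdN : d ∣ N := Nat.dvd_of_mem_divisors hd
  have : NeZero d := ⟨(Nat.pos_of_mem_divisors hd).ne'⟩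
  obtain ⟨a, ha⟩ := h.gens ⟨d, hdN⟩
  refine (mem_S1 N A τ).mpr ⟨gen Qb N ⟨d, hdN⟩, ⟨a, ha.symm⟩, ?_⟩
  rw [Mono.Jd_eq]
  exact RG.genS_eq N (⟨d, hdN⟩ : Dv N)

theorem Adm.aeval_mem_S2 (h : Adm N A τ) (P : Polynomial ↥A) :
    incl (Polynomial.aeval (jqModC ↥A) P) ∈ S2 N τ := by
  rw [ValBase.coeffMap_aeval, coeffMap_jqModC]
  exact aeval_map_mem A _ (fun c => h.C_mem_S2 _) h.j_mem_S2 P

theorem Adm.num_mem_S1 (h : Adm N A τ) (e : Fin (dedekindPsi N) → ℕ → ℕ)
    (T : Fin (dedekindPsi N) → Polynomial ↥A) :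
    incl (RN.num N e ↥A T) ∈ S1 N A τ := by
  rw [RN.coeffMap_num]
  unfold RN.num
  refine sum_mem fun i _ => mul_mem (aeval_map_mem A _ h.C_mem_S1 h.j_mem_S1 (T i)) ?_
  unfold Mono.mono
  exact prod_mem fun d hd => pow_mem (h.Jd_mem_S1 hd) _


include hℓN hA in
/-- **Integrality.**  An admissible homomorphism maps the Gauss valuation ring into `Lam A`. -/
theorem Adm.tau_mem_Lam (h : Adm N A τ) (x : ↥(FF Qb N)) (hx : x ∈ RG.V A N) :
    τ x ∈ RG.Lam A := by
  obtain ⟨e, he⟩ := RN.exists_indep N A hℓN hA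
  obtain ⟨c, S, T, hS, hcT, hrel⟩ := RN.exists_normal_form N A e he (x : LaurentSeries Qb) x.2
  have hsred : red (Polynomial.aeval (jqModC ↥A) S) ≠ 0 := by
    rw [ValBase.coeffMap_aeval, coeffMap_jqModC]
    exact fun h0 => hS (ValBase.aeval_jqModC_eq_zero _ h0)
  have hsne : incl (Polynomial.aeval (jqModC ↥A) S) ≠ 0 := by
    intro h0
    apply hsred
    rw [RG.incl_injective A (h0.trans (map_zero _).symm), map_zero]
  obtain ⟨xs, hxs, hxs'⟩ := (mem_S2 N τ).mp (h.aeval_mem_S2 S)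
  obtain ⟨xn, ⟨n', hn'⟩, hxn'⟩ := (mem_S1 N A τ).mp (h.num_mem_S1 e T)
  rcases hcT with hc0 | hT
  · have hx0 : x = 0 := by
      apply Subtype.ext
      rw [hc0, map_zero, zero_mul] at hrel
      rcases mul_eq_zero.mp hrel with h1 | h1
      · exact h1
      · exact absurd h1 hsne
    rw [hx0, map_zero]
    exact Subring.zero_mem _
  · obtain ⟨a, b, hb, hab⟩ := (RG.mem_V A N).mp hx
    have hnred : red (RN.num N e ↥A T) ≠ 0 := by
      rw [RN.coeffMap_num]
      exact RN.num_ne_zero N e he _ hT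
    have hcA : c ∈ A := by
      refine RG.mem_of_C_mul_eq A (a := RN.num N e ↥A T * b)
        (b := a * Polynomial.aeval (jqModC ↥A) S) ?_ ?_
      · rw [map_mul]
        exact mul_ne_zero hnred hb
      · rw [map_mul, map_mul, ← mul_assoc, ← RC.algebraMap_eq_C, ← hrel, ← hab]
        ring
    have hF : x * xs = algebraMap Qb ↥(FF Qb N) c * xn := by
      apply Subtype.ext
      show (x : LaurentSeries Qb) * (xs : LaurentSeries Qb)
        = ((algebraMap Qb ↥(FF Qb N) c : ↥(FF Qb N)) : LaurentSeries Qb) * (xn : LaurentSeries Qb)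
      rw [hxs', hxn', RG.coe_algebraMap_FF, ← RC.algebraMap_eq_C]
      exact hrel
    have h2 := congrArg τ hF
    rw [map_mul, map_mul, h.const, hxs, hxs', ← hn'] at h2
    refine (RG.mem_Lam A).mpr ⟨HahnSeries.C ⟨c, hcA⟩ * n',
      qExpand ↥A N (Polynomial.aeval (jqModC ↥A) S), ?_, ?_⟩
    · rw [coeffMap_qExpand]
      exact (map_ne_zero_iff _ (qExpand_injective N)).mpr hsred
    · rw [coeffMap_qExpand, map_mul, RG.coeffMap_C]
      exact h2

/-- The reduction of an admissible homomorphism on the Gauss valuation ring. -/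
def phi (h : Adm N A τ) : ↥(RG.V A N) →+* LaurentSeries kA :=
  (RG.resL A).comp ((τ.comp (RG.V A N).subtype).codRestrict (RG.Lam A)
    (fun x => h.tau_mem_Lam hℓN hA x x.2))

theorem phi_eq (h : Adm N A τ) (x : ↥(RG.V A N)) {a' b' : LaurentSeries ↥A} (hb : red b' ≠ 0)
    (hab : τ (x : ↥(FF Qb N)) * incl b' = incl a') :
    phi hℓN hA h x = red a' / red b' :=
  RG.resL_eq A _ hb hab

theorem phi_ker (h : Adm N A τ) :
    RingHom.ker (RGB.rho N hℓN A hA) ≤ RingHom.ker (phi hℓN hA h) := by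
  intro x hx
  rw [RingHom.mem_ker] at hx ⊢
  obtain ⟨c, x', hc, hxx'⟩ := (RGB.rho_eq_zero_iff N hℓN A hA x).mp hx
  obtain ⟨a', b', hb', hab'⟩ := (RG.mem_Lam A).mp (h.tau_mem_Lam hℓN hA (x' : ↥(FF Qb N)) x'.2)
  have h1 : τ (x : ↥(FF Qb N)) * incl b' = incl (HahnSeries.C c * a') := by
    rw [hxx', map_mul, h.const, mul_assoc, hab', map_mul, RG.coeffMap_C]
    rfl
  rw [phi_eq hℓN hA h x hb' h1, map_mul, RG.coeffMap_C,
    (IsLocalRing.residue_eq_zero_iff c).mpr hc, map_zero, zero_mul, zero_div]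

/-- The embedding of the function field in characteristic `ℓ` induced by an admissible
homomorphism. -/
def sig (h : Adm N A τ) : ↥(modularFunctionFieldFullC kA N) →+* LaurentSeries kA :=
  (RGB.rho N hℓN A hA).liftOfRightInverse (Function.surjInv (RGB.rho_surjective N hℓN A hA))
    (Function.rightInverse_surjInv (RGB.rho_surjective N hℓN A hA))
    ⟨phi hℓN hA h, phi_ker hℓN hA h⟩

theorem sig_rho (h : Adm N A τ) (x : ↥(RG.V A N)) :
    sig hℓN hA h (RGB.rho N hℓN A hA x) = phi hℓN hA h x :=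
  RingHom.liftOfRightInverse_comp_apply _ _ _ _ x

/-- (★) the value of `sig` on a residue -/
theorem sig_rho_eq (h : Adm N A τ) (x : ↥(RG.V A N)) {a' b' : LaurentSeries ↥A}
    (hb : red b' ≠ 0) (hab : τ (x : ↥(FF Qb N)) * incl b' = incl a') :
    sig hℓN hA h (RGB.rho N hℓN A hA x) = red a' / red b' := by
  rw [sig_rho, phi_eq hℓN hA h x hb hab]

end Reduction

section Reduction2

variable {N : ℕ} [NeZero N] {ℓ : ℕ} [Fact ℓ.Prime] (hℓN : ¬ ℓ ∣ N)
  {A : ValuationSubring (AlgebraicClosure ℚ)} (hA : A.LiesOverPrime ℓ)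
  {τ : ↥(FF (AlgebraicClosure ℚ) N) →+* LaurentSeries (AlgebraicClosure ℚ)}

local notation "Qb" => AlgebraicClosure ℚ
local notation "kA" => IsLocalRing.ResidueField A
local notation "incl" => coeffMap (ValuationSubring.subtype A)
local notation "red" => coeffMap (IsLocalRing.residue A)

/-- constants -/
theorem sig_algebraMap (h : Adm N A τ) (c : kA) :
    sig hℓN hA h (algebraMap kA ↥(modularFunctionFieldFullC kA N) c) = HahnSeries.C c := by
  obtain ⟨c', rfl⟩ := IsLocalRing.residue_surjective c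
  have hrho := RGB.rho_algebraMap N hℓN A hA c'
  have h1 : τ (algebraMap Qb ↥(FF Qb N) (c' : Qb)) * incl 1 = incl (HahnSeries.C c') := by
    rw [map_one, mul_one, h.const, RG.coeffMap_C]
    rfl
  have h2 := sig_rho_eq hℓN hA h
    (⟨algebraMap Qb ↥(FF Qb N) (c' : Qb), RG.algebraMap_mem_V A N c'⟩ : ↥(RG.V A N))
    (a' := HahnSeries.C c') (b' := 1) (by rw [map_one]; exact one_ne_zero) h1
  rw [map_one, div_one, RG.coeffMap_C] at h2
  rw [← h2]
  exact congrArg _ hrho.symm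

/-- the value of `sig` on the reduction of an `A`-integral element with `A`-integral image -/
theorem sig_red (h : Adm N A τ) {a a' : LaurentSeries ↥A} (x : ↥(FF Qb N))
    (hx : (x : LaurentSeries Qb) = incl a) (haa' : τ x = incl a')
    (z : ↥(modularFunctionFieldFullC kA N)) (hz : (z : LaurentSeries kA) = red a) :
    sig hℓN hA h z = red a' := by
  have ha : incl a ∈ FF Qb N := hx ▸ x.2
  have hx' : x = ⟨incl a, ha⟩ := Subtype.ext hx
  have hz' : z = RGB.rho N hℓN A hA ⟨⟨incl a, ha⟩, RG.incl_mem_V A N ha⟩ := by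
    apply Subtype.ext
    rw [hz, RGB.rho_incl]
  have h1 : τ (⟨incl a, ha⟩ : ↥(FF Qb N)) * incl 1 = incl a' := by
    rw [map_one, mul_one, ← hx', haa']
  have h2 := sig_rho_eq hℓN hA h
    (⟨⟨incl a, ha⟩, RG.incl_mem_V A N ha⟩ : ↥(RG.V A N)) (a' := a') (b' := 1)
    (by rw [map_one]; exact one_ne_zero) h1
  rw [map_one, div_one] at h2
  rw [hz']
  exact h2

/-- if `τ` is `f ↦ f(u^N)`, so is `sig` -/
theorem sig_of_qExpand (h : Adm N A τ)
    (hτ : ∀ x : ↥(FF Qb N), τ x = qExpand Qb N (x : LaurentSeries Qb))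
    (f : ↥(modularFunctionFieldFullC kA N)) :
    sig hℓN hA h f = qExpand kA N (f : LaurentSeries kA) := by
  obtain ⟨x, rfl⟩ := RGB.rho_surjective N hℓN A hA f
  obtain ⟨a, b, hb, hab⟩ := (RG.mem_V A N).mp x.2
  have h1 : τ (x : ↥(FF Qb N)) * incl (qExpand ↥A N b) = incl (qExpand ↥A N a) := by
    rw [hτ, coeffMap_qExpand, coeffMap_qExpand, ← map_mul, hab]
  have hb' : red (qExpand ↥A N b) ≠ 0 := by
    rw [coeffMap_qExpand]
    exact (map_ne_zero_iff _ (qExpand_injective N)).mpr hb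
  rw [sig_rho_eq hℓN hA h x hb' h1, coeffMap_qExpand, coeffMap_qExpand, ← map_div₀, RGB.coe_rho,
    RG.rhoL_eq A N x hb hab]

/-- rotation -/
theorem sig_twist (h : Adm N A τ) {τ' : ↥(FF Qb N) →+* LaurentSeries Qb} (h' : Adm N A τ')
    (ζ : (↥A)ˣ) (hrot : ∀ x, τ' x = twistU (Units.map (A.subtype : ↥A →* Qb) ζ) (τ x))
    (f : ↥(modularFunctionFieldFullC kA N)) :
    sig hℓN hA h' f
      = twistU (Units.map (IsLocalRing.residue A : ↥A →* kA) ζ) (sig hℓN hA h f) := by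
  obtain ⟨x, rfl⟩ := RGB.rho_surjective N hℓN A hA f
  obtain ⟨a', b', hb', hab'⟩ := (RG.mem_Lam A).mp (h.tau_mem_Lam hℓN hA (x : ↥(FF Qb N)) x.2)
  have h1 : τ' (x : ↥(FF Qb N)) * incl (twistU ζ b') = incl (twistU ζ a') := by
    rw [hrot, coeffMap_twistU, coeffMap_twistU, ← map_mul, hab']
  have hb2 : red (twistU ζ b') ≠ 0 := by
    rw [coeffMap_twistU]
    exact (map_ne_zero _).mpr hb'
  rw [sig_rho_eq hℓN hA h' x hb2 h1, sig_rho_eq hℓN hA h x hb' hab', coeffMap_twistU,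
    coeffMap_twistU, map_div₀]

include hℓN hA in
omit [NeZero N] in
theorem natCast_ne_zero : (N : kA) ≠ 0 := by
  have := RN.charP_residueField A hA
  exact fun h0 => hℓN ((CharP.cast_eq_zero_iff kA ℓ N).mp h0)

omit [NeZero N] in
/-- `N`-th roots of unity inject into the residue field when `N` is invertible there -/
theorem eq_one_of_residue_eq_one (hN : (N : kA) ≠ 0) {ω : ↥A} (hω : ω ^ N = 1)
    (hres : IsLocalRing.residue A ω = 1) : ω = 1 := by
  have h1 : (ω - 1) * ∑ i ∈ Finset.range N, ω ^ i = 0 := by rw [mul_geom_sum, hω, sub_self]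
  rcases mul_eq_zero.mp h1 with h2 | h2
  · exact sub_eq_zero.mp h2
  · exfalso
    have h3 := congrArg (IsLocalRing.residue A) h2
    rw [map_sum, map_zero] at h3
    simp only [map_pow, hres, one_pow, Finset.sum_const, Finset.card_range, nsmul_eq_mul,
      mul_one] at h3
    exact hN h3

omit [NeZero N] in
theorem isPrimitiveRoot_residue (hN : (N : kA) ≠ 0) {ζ : (↥A)ˣ}
    (hζ : IsPrimitiveRoot (((ζ : ↥A) : Qb)) N) :
    IsPrimitiveRoot (IsLocalRing.residue A (ζ : ↥A)) N := by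
  have hζN : (ζ : ↥A) ^ N = 1 := Subtype.ext (by simpa using hζ.pow_eq_one)
  refine ⟨by rw [← map_pow, hζN, map_one], fun l hl => ?_⟩
  have h1 : ((ζ : ↥A) ^ l) ^ N = 1 := by rw [← pow_mul, mul_comm, pow_mul, hζN, one_pow]
  have h2 := eq_one_of_residue_eq_one hN h1 (by rw [map_pow]; exact hl)
  apply hζ.dvd_of_pow_eq_one
  have h3 := congrArg Subtype.val h2
  simpa using h3

theorem shape_coeff_neg {R : Type*} [CommRing R] (e : ℕ) [NeZero e] (ξ : Rˣ) :
    (qExpand R e (twistU ξ (jqModC R))).coeff (-(e : ℤ)) = ((ξ⁻¹ : Rˣ) : R) := by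
  have h := qExpand_coeff_mul (R := R) e (twistU ξ (jqModC R)) (-1)
  rw [mul_neg_one] at h
  rw [h, twistU_coeff, coeff_jqModC_neg_one, mul_one, zpow_neg_one]

theorem shape_coeff_lt {R : Type*} [CommRing R] (e : ℕ) [NeZero e] (ξ : Rˣ) {n : ℤ}
    (hn : n < -(e : ℤ)) : (qExpand R e (twistU ξ (jqModC R))).coeff n = 0 := by
  by_cases hdvd : (e : ℤ) ∣ n
  · obtain ⟨m, rfl⟩ := hdvd
    have he : (0 : ℤ) < e := by exact_mod_cast Nat.pos_of_ne_zero (NeZero.ne e)
    have hm : m < -1 := by nlinarith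
    rw [qExpand_coeff_mul, twistU_coeff, coeff_jqModC_of_lt R hm, mul_zero]
  · exact qExpand_coeff_of_not_dvd e _ hdvd

omit [NeZero N] in
/-- two expansions of cusp shape with the same reduction are equal -/
theorem shape_injective (hN : (N : kA) ≠ 0) {a₁ a₂ : LaurentSeries ↥A} (h₁ : IsShape A N a₁)
    (h₂ : IsShape A N a₂) (hred : red a₁ = red a₂) : a₁ = a₂ := by
  obtain ⟨e₁, he₁, ξ₁, hξ₁, rfl⟩ := h₁
  obtain ⟨e₂, he₂, ξ₂, hξ₂, rfl⟩ := h₂
  rw [coeffMap_qExpand, coeffMap_twistU, coeffMap_jqModC, coeffMap_qExpand, coeffMap_twistU,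
    coeffMap_jqModC] at hred
  have key : ∀ (e e' : ℕ) [NeZero e] [NeZero e'] (ξ ξ' : kAˣ),
      qExpand kA e (twistU ξ (jqModC kA)) = qExpand kA e' (twistU ξ' (jqModC kA)) →
        ¬ e < e' := by
    intro e e' _ _ ξ ξ' heq hlt
    have h1 := shape_coeff_neg e' ξ'
    have h2 := shape_coeff_lt e ξ (n := -(e' : ℤ)) (by omega)
    rw [← heq, h2] at h1
    exact (Units.ne_zero _) h1.symm
  have hee : e₁ = e₂ :=
    le_antisymm (not_lt.mp (key e₂ e₁ _ _ hred.symm)) (not_lt.mp (key e₁ e₂ _ _ hred))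
  subst hee
  have h3 : ((Units.map (IsLocalRing.residue A : ↥A →* kA) ξ₁)⁻¹ : kAˣ)
      = (Units.map (IsLocalRing.residue A : ↥A →* kA) ξ₂)⁻¹ := by
    apply Units.ext
    rw [← shape_coeff_neg e₁, ← shape_coeff_neg e₁, hred]
  have h5 : Units.map (IsLocalRing.residue A : ↥A →* kA) ξ₁
      = Units.map (IsLocalRing.residue A : ↥A →* kA) ξ₂ := inv_injective h3
  have h6 : IsLocalRing.residue A (ξ₁ : ↥A) = IsLocalRing.residue A (ξ₂ : ↥A) :=
    congrArg Units.val h5
  have h4 : IsLocalRing.residue A ((ξ₁ : ↥A) * ((ξ₂⁻¹ : (↥A)ˣ) : ↥A)) = 1 := by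
    rw [map_mul, h6, ← map_mul, Units.mul_inv, map_one]
  have h7 : ((ξ₁ : ↥A) * ((ξ₂⁻¹ : (↥A)ˣ) : ↥A)) ^ N = 1 := by
    have h8 : (ξ₁ * ξ₂⁻¹) ^ N = 1 := by rw [mul_pow, inv_pow, hξ₁, hξ₂, inv_one, mul_one]
    have h9 := congrArg Units.val h8
    simpa using h9
  have h9 := eq_one_of_residue_eq_one hN h7 h4
  have h10 : ξ₁ = ξ₂ := by
    apply Units.ext
    have h11 : (ξ₁ : ↥A) = (ξ₁ : ↥A) * ((ξ₂⁻¹ : (↥A)ˣ) : ↥A) * (ξ₂ : ↥A) := by
      rw [mul_assoc, Units.inv_mul, mul_one]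
    rw [h11, h9, one_mul]
  rw [h10]

/-- an admissible homomorphism of cusp shape on the generators is determined by its reduction -/
theorem eq_of_sig_eq (hN : (N : kA) ≠ 0) {τ' : ↥(FF Qb N) →+* LaurentSeries Qb}
    (h : Adm N A τ) (h' : Adm N A τ')
    (hs : ∀ d : Dv N, ∃ a : LaurentSeries ↥A, IsShape A N a ∧ τ (gen Qb N d) = incl a)
    (hs' : ∀ d : Dv N, ∃ a : LaurentSeries ↥A, IsShape A N a ∧ τ' (gen Qb N d) = incl a)
    (heq : sig hℓN hA h = sig hℓN hA h') : τ = τ' := by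
  apply Ext.hom_ext Qb N
  have h2 : τ.comp (evalL Qb N).toRingHom = τ'.comp (evalL Qb N).toRingHom := by
    apply MvPolynomial.ringHom_ext
    · intro c
      show τ (evalL Qb N (MvPolynomial.C c)) = τ' (evalL Qb N (MvPolynomial.C c))
      rw [Ext.evalL_C, h.const, h'.const]
    · intro d
      show τ (evalL Qb N (MvPolynomial.X d)) = τ' (evalL Qb N (MvPolynomial.X d))
      rw [Ext.evalL_X]
      obtain ⟨a, ha, hτa⟩ := hs d
      obtain ⟨a', ha', hτa'⟩ := hs' d
      have : NeZero d.1 := ⟨d.ne_zero⟩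
      have hx : ((gen Qb N d : ↥(FF Qb N)) : LaurentSeries Qb) = incl (RG.jR ↥A d.1) :=
        (RG.incl_jR A N d).symm
      have hmemk : red (RG.jR ↥A d.1) ∈ modularFunctionFieldFullC kA N :=
        RN.coeffMap_residue_mem N A hℓN hA _ (hx ▸ (gen Qb N d).2)
      have e1 := sig_red hℓN hA h (gen Qb N d) hx hτa ⟨_, hmemk⟩ rfl
      have e2 := sig_red hℓN hA h' (gen Qb N d) hx hτa' ⟨_, hmemk⟩ rfl
      rw [heq, e2] at e1
      rw [hτa, hτa', shape_injective hN ha ha' e1.symm]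
  intro P
  exact RingHom.congr_fun h2 P

end Reduction2

/-- **The reduced conjugate embeddings** of the function field of `X₀(M)` in characteristic
`ℓ ∤ M`. -/
theorem exists_sigma (M : ℕ) [NeZero M] {ℓ : ℕ} [Fact ℓ.Prime] (hℓM : ¬ ℓ ∣ M)
    (A : ValuationSubring (AlgebraicClosure ℚ)) (hA : A.LiesOverPrime ℓ) :
    ∃ (σ : SL(2, ℤ) ⧸ CongruenceSubgroup.Gamma0 M →
        ↥(modularFunctionFieldFullC (IsLocalRing.ResidueField ↥A) M) →+*
          LaurentSeries (IsLocalRing.ResidueField ↥A))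
      (ζ : IsLocalRing.ResidueField ↥A),
      IsPrimitiveRoot ζ M ∧
      (∀ i c, σ i (algebraMap (IsLocalRing.ResidueField ↥A)
          ↥(modularFunctionFieldFullC (IsLocalRing.ResidueField ↥A) M) c) = HahnSeries.C c) ∧
      Function.Injective σ ∧
      (∀ i f (n : ℤ), (σ (cosetPerm M ModularGroup.T⁻¹ i) f).coeff n = ζ ^ n * (σ i f).coeff n) ∧
      (∃ i₁, ∀ f : ↥(modularFunctionFieldFullC (IsLocalRing.ResidueField ↥A) M),
        σ i₁ f = qExpand (IsLocalRing.ResidueField ↥A) M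
          (f : LaurentSeries (IsLocalRing.ResidueField ↥A))) ∧
      (∀ i, σ i ⟨jqModC (IsLocalRing.ResidueField ↥A),
          jqModC_mem_full (IsLocalRing.ResidueField ↥A) M⟩ =
        qExpand (IsLocalRing.ResidueField ↥A) M (jqModC (IsLocalRing.ResidueField ↥A))) := by
  obtain ⟨ι, -⟩ : ∃ ι : AlgebraicClosure ℚ →+* ℂ, True := by
    let _ : Algebra ℚ (AlgebraicClosure ℚ) := AlgebraicClosure.instAlgebra ℚ
    have := AlgebraicClosure.isAlgebraic ℚ
    exact ⟨(IsAlgClosed.lift (R := ℚ) (S := AlgebraicClosure ℚ) (M := ℂ)).toRingHom, trivial⟩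
  have hN := natCast_ne_zero hℓM hA
  have hadm : ∀ γ : SL(2, ℤ), Adm M A (tauL ι M A γ) := fun γ =>
    ⟨tauL_algebraMap ι M A γ, fun d => (tauL_gen ι M A γ d).imp fun a ha => ha.2,
      tauL_jElt ι M A γ⟩
  obtain ⟨ζ, hζ, hrot⟩ := exists_rot ι M A
  refine ⟨fun i => sig hℓM hA (hadm (Quotient.out i)⁻¹), IsLocalRing.residue A (ζ : ↥A),
    isPrimitiveRoot_residue hN hζ, ?_, ?_, ?_, ?_, ?_⟩
  · intro i c
    exact sig_algebraMap hℓM hA _ c
  · intro i j hij
    apply tauL_out_injective ι M A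
    exact eq_of_sig_eq hℓM hA hN (hadm _) (hadm _) (tauL_gen ι M A _) (tauL_gen ι M A _) hij
  · intro i f n
    show (sig hℓM hA (hadm (Quotient.out (cosetPerm M ModularGroup.T⁻¹ i))⁻¹) f).coeff n = _
    rw [sig_twist hℓM hA (hadm (Quotient.out i)⁻¹) (hadm _) ζ (hrot i) f, twistU_coeff,
      Units.val_zpow_eq_zpow_val]
    rfl
  · refine ⟨QuotientGroup.mk 1, fun f => ?_⟩
    apply sig_of_qExpand
    intro x
    apply tauL_of_mem
    have h1 : ((Quotient.out (QuotientGroup.mk 1 : SL(2, ℤ) ⧸ CongruenceSubgroup.Gamma0 M) :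
        SL(2, ℤ)) : SL(2, ℤ) ⧸ CongruenceSubgroup.Gamma0 M) = QuotientGroup.mk 1 :=
      QuotientGroup.out_eq' _
    have h2 := QuotientGroup.eq.mp h1
    rw [mul_one] at h2
    exact h2
  · intro i
    have hx : ((jElt (AlgebraicClosure ℚ) M : ↥(FF (AlgebraicClosure ℚ) M)) :
        LaurentSeries (AlgebraicClosure ℚ)) = coeffMap A.subtype (jqModC ↥A) := by
      rw [RN.coe_jElt, coeffMap_jqModC]
    have hτ : tauL ι M A (Quotient.out i)⁻¹ (jElt (AlgebraicClosure ℚ) M)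
        = coeffMap A.subtype (qExpand ↥A M (jqModC ↥A)) := by
      rw [tauL_jElt, coeffMap_qExpand, coeffMap_jqModC]
    have h3 := sig_red hℓM hA (hadm (Quotient.out i)⁻¹) (jElt (AlgebraicClosure ℚ) M) hx hτ
      ⟨jqModC (IsLocalRing.ResidueField ↥A), jqModC_mem_full (IsLocalRing.ResidueField ↥A) M⟩
      (coeffMap_jqModC (IsLocalRing.residue ↥A)).symm
    rw [coeffMap_qExpand, coeffMap_jqModC] at h3
    exact h3

end Fermat.Agent.S18.CLSigma

end
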