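/-
S18, chain CL, piece E1 (helper16's cut): the conjugate cusp embeddings of the function field of
`X₀(N)` in characteristic zero, with values in Laurent series over the SAME field `L`.

S24 (`Mod/Cusp`) provides, for every `γ ∈ SL(2, ℤ)`, the expansion embedding
`tauG ι N γ : FF L N →+* ℂ((u))`, `f ↦ (f ∘ γ)(u)`, `u = q^{1/N}`.  Its values on the generators
`j(d z)` are the series `j (e u + b)`-expansions `qExpand e (twist ξ jq)` with `ξ` an `N`-th root
of unity; all roots of unity of `ℂ` come from the algebraically closed field `L`, so the embeddings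
descend to `tau ι N γ : FF L N →+* L((u))` (`coeffMap ι ∘ tau = tauG`).  `exists_tau` packages the
family indexed by the cosets of `Γ₀(N)`: constants, injectivity, rotation under `T⁻¹`, the shape of
the images of the generators and the identity coset (`u ↦ q^N`).
-/
import Fermat.Agent.S24.Mod.Cusp
import Fermat.Agent.S28.Kummer

set_option autoImplicit false

noncomputable section

open scoped MatrixGroups Real
open ModularCurve UpperHalfPlane

namespace Fermat.Agent.S18.CLTau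

open Fermat.Agent.S24 Fermat.Agent.S23

/-! ### The explicit shape of the complex expansions -/

/-- The complex expansion of `z ↦ j (d (γ (N z)))` is `j (e z + b)`, `b ∈ (1/N) ℤ`. -/
theorem exists_fexp_eq (N : ℕ) [NeZero N] (γ : SL(2, ℤ)) (d : Dv N) :
    ∃ (e : ℕ) (_ : NeZero e) (ξ : ℂ) (hξ : ξ ≠ 0), ξ ^ N = 1 ∧
      Cusp.fexp N γ d = qExpand ℂ e (Cusp.twist ξ hξ (coeffEmb ℂ jq)) := by
  have : NeZero d.1 := ⟨d.ne_zero⟩
  obtain ⟨A, D, B, -, hA, hD, hAD, -, hz⟩ := JN.exists_aff_of_smul d.1 γ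
  have hDN : D ∣ N := (Dvd.intro_left A hAD).trans d.2
  obtain ⟨E', hE'⟩ := hDN
  have hE'pos : 0 < E' := by
    rcases Nat.eq_zero_or_pos E' with h0 | h0
    · rw [h0, mul_zero] at hE'
      exact absurd hE' (NeZero.ne N)
    · exact h0
  have hne : NeZero (A * E') := ⟨(Nat.mul_pos hA hE'pos).ne'⟩
  refine ⟨A * E', hne, Complex.exp (2 * π * Complex.I * (((B : ℝ) / D : ℝ) : ℂ)),
    Complex.exp_ne_zero _, ?_, ?_⟩
  · rw [← Complex.exp_nat_mul, Complex.exp_eq_one_iff]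
    refine ⟨B * E', ?_⟩
    have hDC : (D : ℂ) ≠ 0 := by exact_mod_cast hD.ne'
    rw [hE']
    push_cast
    field_simp
  · refine (Cusp.hasU_fexp N γ d).unique_series
      (((Cusp.hasU_jFun.comp_vadd ((B : ℝ) / D)).comp_dil (A * E')).congr fun z => ?_)
    rw [hz]
    congr 1
    apply UpperHalfPlane.ext
    have hDR : (0 : ℝ) < (D : ℝ) := by exact_mod_cast hD
    have hAR : (0 : ℝ) < (A : ℝ) := by exact_mod_cast hA
    have hDC : (D : ℂ) ≠ 0 := by exact_mod_cast hD.ne'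
    rw [coe_vadd, JN.coe_dil, JN.coe_aff (div_pos hAR hDR), JN.coe_dil, hE']
    push_cast
    field_simp
    ring

/-- For `γ ∈ Γ₀(N)` the expansion of `j (d (γ (N z)))` is the formal one, in `u = q^{1/N}`. -/
theorem fexp_of_mem_Gamma0 (N : ℕ) [NeZero N] {γ : SL(2, ℤ)}
    (hγ : γ ∈ CongruenceSubgroup.Gamma0 N) (d : Dv N) :
    Cusp.fexp N γ d = qExpand ℂ N (coeffEmb ℂ (jqd d)) := by
  have : NeZero d.1 := ⟨d.ne_zero⟩
  have h1 : coeffEmb ℂ (jqd d) = qExpand ℂ d.1 (coeffEmb ℂ jq) := by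
    rw [jqd, coeffEmb, QL.coeffMap_qExpand]
  rw [h1]
  refine (Cusp.hasU_fexp N γ d).unique_series
    (((Cusp.hasU_jFun.comp_dil d.1).comp_dil N).congr fun z => ?_)
  rw [JN.jN_smul_of_mem_Gamma0 d.1 (Cusp.gamma0_le_of_dvd d.2 hγ)]
  rfl

/-! ### Transport along `ι : L →+* ℂ` -/

section Transport

variable {L : Type*} [Field L]

theorem twist_congr {ξ ξ' : ℂ} (h : ξ = ξ') (hξ : ξ ≠ 0) (hξ' : ξ' ≠ 0) (x : LaurentSeries ℂ) :
    Cusp.twist ξ hξ x = Cusp.twist ξ' hξ' x := by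
  subst h
  rfl

theorem coeffMap_twist (ι : L →+* ℂ) (ξ : Lˣ) (hξ : ι (ξ : L) ≠ 0) (x : LaurentSeries L) :
    coeffMap ι (S28.Kummer.twist ξ x) = Cusp.twist (ι (ξ : L)) hξ (coeffMap ι x) := by
  ext k
  rw [coeffMap_coeff, S28.Kummer.twist_coeff, Cusp.twist_coeff, coeffMap_coeff, map_mul,
    map_zpow₀]

theorem coeffMap_C (ι : L →+* ℂ) (c : L) :
    coeffMap ι (HahnSeries.C c) = HahnSeries.C (ι c) := by
  rw [HahnSeries.C_apply, HahnSeries.C_apply, coeffMap_single]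

/-- Every complex `N`-th root of unity is the image of one of `L`. -/
theorem exists_unit_map_eq [Algebra ℚ L] [IsAlgClosed L] (ι : L →+* ℂ) (N : ℕ) [NeZero N]
    (ξ : ℂ) (hξ : ξ ^ N = 1) : ∃ x : Lˣ, ι (x : L) = ξ ∧ (x : L) ^ N = 1 := by
  have : CharZero L := algebraRat.charZero L
  have : NeZero (N : L) := ⟨Nat.cast_ne_zero.mpr (NeZero.ne N)⟩
  obtain ⟨ζ, hζ⟩ := HasEnoughRootsOfUnity.exists_primitiveRoot L N
  have hζ' : IsPrimitiveRoot (ι ζ) N := hζ.map_of_injective ι.injective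
  obtain ⟨i, -, hi⟩ := hζ'.eq_pow_of_pow_eq_one hξ
  have hu : IsUnit (ζ ^ i) := (hζ.isUnit (NeZero.ne N)).pow i
  refine ⟨hu.unit, ?_, ?_⟩
  · rw [IsUnit.unit_spec, map_pow, hi]
  · rw [IsUnit.unit_spec, ← pow_mul, mul_comm, pow_mul, hζ.pow_eq_one, one_pow]

end Transport

section Datum

variable {L : Type*} [Field L] [Algebra ℚ L] [IsAlgClosed L] (ι : L →+* ℂ) (N : ℕ) [NeZero N]

theorem exists_fexpL (γ : SL(2, ℤ)) (d : Dv N) :
    ∃ E : LaurentSeries L, coeffMap ι E = Cusp.fexp N γ d ∧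
      ∃ (e : ℕ) (_ : NeZero e) (ξ : Lˣ), (ξ : L) ^ N = 1 ∧
        E = qExpand L e (S28.Kummer.twist ξ (coeffEmb L jq)) := by
  obtain ⟨e, he, ξ, hξ, hξN, h⟩ := exists_fexp_eq N γ d
  obtain ⟨x, hx, hxN⟩ := exists_unit_map_eq ι N ξ hξN
  refine ⟨_, ?_, e, he, x, hxN, rfl⟩
  rw [QL.coeffMap_qExpand, coeffMap_twist ι x (by rw [hx]; exact hξ), Bridge.coeffMap_coeffEmb', h]
  congr 1
  exact twist_congr hx _ _ _

/-- The expansion of `z ↦ j (d (γ (N z)))`, with coefficients in `L`. -/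
def fexpL (γ : SL(2, ℤ)) (d : Dv N) : LaurentSeries L :=
  Classical.choose (exists_fexpL ι N γ d)

theorem coeffMap_fexpL (γ : SL(2, ℤ)) (d : Dv N) :
    coeffMap ι (fexpL ι N γ d) = Cusp.fexp N γ d :=
  (Classical.choose_spec (exists_fexpL ι N γ d)).1

theorem fexpL_shape (γ : SL(2, ℤ)) (d : Dv N) :
    ∃ (e : ℕ) (_ : NeZero e) (ξ : Lˣ), (ξ : L) ^ N = 1 ∧
      fexpL ι N γ d = qExpand L e (S28.Kummer.twist ξ (coeffEmb L jq)) :=
  (Classical.choose_spec (exists_fexpL ι N γ d)).2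

/-- Evaluation of polynomials at the `L`-expansions of the `j (d (γ z))`. -/
def phiL (γ : SL(2, ℤ)) : MvPolynomial (Dv N) L →+* LaurentSeries L :=
  MvPolynomial.eval₂Hom HahnSeries.C (fexpL ι N γ)

theorem coeffMap_phiL (γ : SL(2, ℤ)) (P : MvPolynomial (Dv N) L) :
    coeffMap ι (phiL ι N γ P) = Cusp.phi ι N γ P := by
  have h : (coeffMap ι).comp (phiL ι N γ) = Cusp.phi ι N γ := by
    apply MvPolynomial.ringHom_ext
    · intro c
      simp [phiL, Cusp.phi]
    · intro d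
      simp [phiL, Cusp.phi, coeffMap_fexpL]
  exact RingHom.congr_fun h P

theorem phiL_eq_zero_iff (γ : SL(2, ℤ)) (P : MvPolynomial (Dv N) L) :
    evalL L N P = 0 ↔ phiL ι N γ P = 0 := by
  rw [Cusp.phi_eq_zero_iff ι N γ P, ← coeffMap_phiL]
  constructor
  · intro h
    exact Bridge.coeffMap_injective ι ι.injective (by rw [h, map_zero])
  · intro h
    rw [h, map_zero]

/-- The expansion embedding attached to `γ`, with values in Laurent series over `L`. -/
def tau (γ : SL(2, ℤ)) : ↥(FF L N) →+* LaurentSeries L :=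
  Classical.choose (Ext.exists_hom L N (phiL ι N γ) (phiL_eq_zero_iff ι N γ))

theorem tau_evalL (γ : SL(2, ℤ)) (P : MvPolynomial (Dv N) L) :
    tau ι N γ (evalL L N P) = phiL ι N γ P :=
  Classical.choose_spec (Ext.exists_hom L N (phiL ι N γ) (phiL_eq_zero_iff ι N γ)) P

theorem coeffMap_tau (γ : SL(2, ℤ)) (f : ↥(FF L N)) :
    coeffMap ι (tau ι N γ f) = Cusp.tauG ι N γ f := by
  have h : (coeffMap ι).comp (tau ι N γ) = Cusp.tauG ι N γ := by
    apply Ext.hom_ext L N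
    intro P
    rw [RingHom.comp_apply, tau_evalL, coeffMap_phiL, Cusp.tauG_evalL]
  exact RingHom.congr_fun h f

theorem tau_gen (γ : SL(2, ℤ)) (d : Dv N) : tau ι N γ (gen L N d) = fexpL ι N γ d := by
  rw [← Ext.evalL_X, tau_evalL]
  simp [phiL]

theorem tau_algebraMap (γ : SL(2, ℤ)) (c : L) :
    tau ι N γ (algebraMap L ↥(FF L N) c) = HahnSeries.C c := by
  rw [← Ext.evalL_C, tau_evalL]
  simp [phiL]

omit [Algebra ℚ L] [IsAlgClosed L] in
theorem phi_of_mem_Gamma0 {γ : SL(2, ℤ)} (hγ : γ ∈ CongruenceSubgroup.Gamma0 N)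
    (P : MvPolynomial (Dv N) L) :
    Cusp.phi ι N γ P = qExpand ℂ N (evalSer N (MvPolynomial.map ι P)) := by
  have h : Cusp.phi ι N γ
      = ((qExpand ℂ N).comp (evalSer N).toRingHom).comp (MvPolynomial.map ι) := by
    apply MvPolynomial.ringHom_ext
    · intro c
      simp [Cusp.phi, evalSer, algebraMap_laurentSeries_eq_single, qExpand_single]
    · intro d
      simp [Cusp.phi, evalSer, fexp_of_mem_Gamma0 N hγ d]
  exact RingHom.congr_fun h P

/-- On `Γ₀(N)` the embedding is the substitution `q = u^N`. -/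
theorem tau_of_mem_Gamma0 {γ : SL(2, ℤ)} (hγ : γ ∈ CongruenceSubgroup.Gamma0 N)
    (f : ↥(FF L N)) : tau ι N γ f = qExpand L N (f : LaurentSeries L) := by
  have h : tau ι N γ = (qExpand L N).comp (algebraMap ↥(FF L N) (LaurentSeries L)) := by
    apply Ext.hom_ext L N
    intro P
    rw [tau_evalL, RingHom.comp_apply]
    apply Bridge.coeffMap_injective ι ι.injective
    rw [coeffMap_phiL, QL.coeffMap_qExpand, phi_of_mem_Gamma0 ι N hγ]
    congr 1
    exact (Bridge.coeffMap_evalL ι N P).symm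
  exact RingHom.congr_fun h f

/-- All the embeddings agree on `j`: its image is `j (u^N)`. -/
theorem tau_jElt (γ : SL(2, ℤ)) : tau ι N γ (jElt L N) = qExpand L N (coeffEmb L jq) := by
  apply Bridge.coeffMap_injective ι ι.injective
  rw [coeffMap_tau, jElt, Cusp.tauG_gen, Cusp.fexp_one, QL.coeffMap_qExpand,
    Bridge.coeffMap_coeffEmb']

end Datum

/-- **E1** (with the clause on `j`): the conjugate cusp embeddings of the function field of
`X₀(N)` over an algebraically closed field `L` of characteristic zero, with values in `L((u))`,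
`u = q^{1/N}`; they are the `L`-forms of the S24 embeddings `tauG ι N (Quotient.out i)⁻¹`. -/
theorem exists_tau' {L : Type*} [Field L] [Algebra ℚ L] [IsAlgClosed L] (ι : L →+* ℂ) (N : ℕ)
    [NeZero N] :
    ∃ (τ : SL(2, ℤ) ⧸ CongruenceSubgroup.Gamma0 N → ↥(FF L N) →+* LaurentSeries L) (ζ : Lˣ),
      IsPrimitiveRoot (ζ : L) N ∧
      (∀ i c, τ i (algebraMap L ↥(FF L N) c) = HahnSeries.C c) ∧
      Function.Injective τ ∧
      (∀ i f, τ (cosetPerm N ModularGroup.T⁻¹ i) f = S28.Kummer.twist ζ (τ i f)) ∧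
      (∀ i (d : Dv N), ∃ (e : ℕ) (_ : NeZero e) (ξ : Lˣ), (ξ : L) ^ N = 1 ∧
        τ i (gen L N d) = qExpand L e (S28.Kummer.twist ξ (coeffEmb L jq))) ∧
      (∃ i₁, ∀ f : ↥(FF L N), τ i₁ f = qExpand L N (f : LaurentSeries L)) ∧
      (∀ i, τ i (jElt L N) = qExpand L N (coeffEmb L jq)) ∧
      (∀ i f, coeffMap ι (τ i f) = Cusp.tauG ι N (Quotient.out i)⁻¹ f) := by
  have hprimC : IsPrimitiveRoot (Complex.exp (2 * π * Complex.I * ((1 / N : ℝ) : ℂ))) N := by
    have h := Complex.isPrimitiveRoot_exp N (NeZero.ne N)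
    have e : 2 * (π : ℂ) * Complex.I * ((1 / N : ℝ) : ℂ) = 2 * π * Complex.I / N := by
      push_cast
      ring
    rw [e]
    exact h
  obtain ⟨ζ, hζ, -⟩ := exists_unit_map_eq ι N _ hprimC.pow_eq_one
  have hζprim : IsPrimitiveRoot (ζ : L) N :=
    IsPrimitiveRoot.of_map_of_injective (f := ι) (by rw [hζ]; exact hprimC) ι.injective
  refine ⟨fun i => tau ι N (Quotient.out i)⁻¹, ζ, hζprim, fun i c => tau_algebraMap ι N _ c,
    ?_, ?_, fun i d => ?_, ?_, fun i => tau_jElt ι N _, fun i f => coeffMap_tau ι N _ f⟩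
  · intro i j hij
    apply Cusp.tauG_out_injective ι N
    show Cusp.tauG ι N (Quotient.out i)⁻¹ = Cusp.tauG ι N (Quotient.out j)⁻¹
    apply RingHom.ext
    intro f
    have hij' : tau ι N (Quotient.out i)⁻¹ = tau ι N (Quotient.out j)⁻¹ := hij
    rw [← coeffMap_tau, ← coeffMap_tau, hij']
  · intro i f
    apply Bridge.coeffMap_injective ι ι.injective
    rw [coeffMap_tau, coeffMap_twist ι ζ (by rw [hζ]; exact Complex.exp_ne_zero _), coeffMap_tau,
      Cusp.tauG_rot, RingHom.comp_apply]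
    exact twist_congr hζ.symm _ _ _
  · rw [tau_gen]
    exact fexpL_shape ι N _ d
  · refine ⟨((1 : SL(2, ℤ)) : SL(2, ℤ) ⧸ CongruenceSubgroup.Gamma0 N), fun f => ?_⟩
    apply tau_of_mem_Gamma0
    have h1 : ((Quotient.out ((1 : SL(2, ℤ)) : SL(2, ℤ) ⧸ CongruenceSubgroup.Gamma0 N) :
        SL(2, ℤ)) : SL(2, ℤ) ⧸ CongruenceSubgroup.Gamma0 N) = ((1 : SL(2, ℤ)) : _) :=
      QuotientGroup.out_eq' _
    have h2 := QuotientGroup.eq.mp h1
    rwa [mul_one] at h2

/-- **E1**, in the literal shape of helper16's cut. -/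
theorem exists_tau {L : Type*} [Field L] [Algebra ℚ L] [IsAlgClosed L] (ι : L →+* ℂ) (N : ℕ)
    [NeZero N] :
    ∃ (τ : SL(2, ℤ) ⧸ CongruenceSubgroup.Gamma0 N → ↥(FF L N) →+* LaurentSeries L) (ζ : Lˣ),
      IsPrimitiveRoot (ζ : L) N ∧
      (∀ i c, τ i (algebraMap L ↥(FF L N) c) = HahnSeries.C c) ∧
      Function.Injective τ ∧
      (∀ i f, τ (cosetPerm N ModularGroup.T⁻¹ i) f = S28.Kummer.twist ζ (τ i f)) ∧
      (∀ i (d : Dv N), ∃ (e : ℕ) (_ : NeZero e) (ξ : Lˣ), (ξ : L) ^ N = 1 ∧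
        τ i (gen L N d) = qExpand L e (S28.Kummer.twist ξ (coeffEmb L jq))) ∧
      (∃ i₁, ∀ f : ↥(FF L N), τ i₁ f = qExpand L N (f : LaurentSeries L)) := by
  obtain ⟨τ, ζ, h1, h2, h3, h4, h5, h6, -, -⟩ := exists_tau' ι N
  exact ⟨τ, ζ, h1, h2, h3, h4, h5, h6⟩

end Fermat.Agent.S18.CLTau

end
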