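/-
S18 (wave 7), chain GS, the adapter: the genus squeeze `GenusSqueeze A M` of `Defs.lean` from
the outputs of the chains C0 (Riemann's inequality in characteristic zero with the genus-formula
constant) and CL + SQ (lower bound for the genus of the special fibre).

* `GSA.genusGE_genusR`, `GSA.genusGE_of_le` : `GenusGE K F g` for every `g ≤ genusR K F`;
* `GSA.genusLE_genusR`, `GSA.genusLE_of_le`, `GSA.genusLE_of_rat` : `GenusLE K F g` from a
  Riemann inequality with a (rational) constant `q ≤ g`;
* `GSA.genusSqueeze_of` : the squeeze from `RR.Hyp` of the special fibre, a rational `q` with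
  Riemann's inequality `deg D + 1 - q ≤ ℓ(D)` on the generic fibre and `q ≤ genusR` of the special
  fibre;
* `GSA.le_genusR_of_omega`, `GSA.genusSqueeze_of_omega` : the same with the lower bound
  `q ≤ dim Omega` for a separating `x` of the special fibre (through `SQO.omega_le_genus`).
-/
import Fermat.Agent.S18.Iface
import Fermat.Agent.S18.PHyp
import Fermat.Agent.S18.SQOmega

set_option autoImplicit false
set_option linter.style.haveILetI false

noncomputable section

namespace Fermat.Agent.S18.GSA

open AlgebraicCurve IntermediateField ModularCurve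
open Fermat.Agent.S20 Fermat.Agent.S20.RRLite

section Generic

variable {K F : Type*} [Field K] [Field F] [Algebra K F]

/-- The Riemann genus is a lower bound in the sense of `GenusGE`. -/
theorem genusGE_genusR (h : RR.Hyp K F) : GenusGE K F (PHyp.genusR K F) := by
  obtain ⟨-, c, hc⟩ := PHyp.genusR_spec h
  obtain ⟨D₀, hD₀⟩ := PHyp.exists_degree_ge h c
  refine ⟨D₀, fun D hD => ?_⟩
  have h1 : 0 ≤ Divisor.degree (D - D₀) := RR.degree_nonneg (sub_nonneg.mpr hD)
  rw [map_sub] at h1
  exact (hc D (by linarith)).le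

/-- `GenusGE` is monotone (downwards) in the constant. -/
theorem genusGE_mono {g g' : ℤ} (h : GenusGE K F g) (hg : g' ≤ g) : GenusGE K F g' := by
  obtain ⟨D₀, hD₀⟩ := h
  exact ⟨D₀, fun D hD => (hD₀ D hD).trans (by linarith)⟩

/-- `GenusGE K F g` for every `g` below the Riemann genus. -/
theorem genusGE_of_le (h : RR.Hyp K F) {g : ℤ} (hg : g ≤ PHyp.genusR K F) : GenusGE K F g :=
  genusGE_mono (genusGE_genusR h) hg

/-- Riemann's inequality for the Riemann genus, as `GenusLE`. -/
theorem genusLE_genusR (h : RR.Hyp K F) : GenusLE K F (PHyp.genusR K F) :=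
  fun D => PHyp.le_ell h D

/-- `GenusLE` is monotone (upwards) in the constant. -/
theorem genusLE_mono {g g' : ℤ} (h : GenusLE K F g) (hg : g ≤ g') : GenusLE K F g' :=
  fun D => le_trans (by linarith) (h D)

/-- `GenusLE K F g` for every `g` above the Riemann genus. -/
theorem genusLE_of_le (h : RR.Hyp K F) {g : ℤ} (hg : PHyp.genusR K F ≤ g) : GenusLE K F g :=
  genusLE_mono (genusLE_genusR h) hg

/-- `GenusLE` from a Riemann inequality with a rational constant `q ≤ g`. -/
theorem genusLE_of_rat {q : ℚ}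
    (hq : ∀ D : Divisor K F,
      (Divisor.degree D : ℚ) + 1 - q ≤ (Module.finrank K ↥(riemannRochSpace D) : ℚ))
    {g : ℤ} (hqg : q ≤ (g : ℚ)) : GenusLE K F g := by
  intro D
  have h1 := hq D
  have h2 : ((Divisor.degree D + 1 - g : ℤ) : ℚ) ≤ ((RR.ell D : ℤ) : ℚ) := by
    push_cast
    unfold RR.ell
    linarith
  exact_mod_cast h2

/-- The converse direction of `GenusGE`: a `GenusGE` bound is a lower bound for the Riemann
genus. -/
theorem le_genusR_of_genusGE (h : RR.Hyp K F) {g : ℤ} (hg : GenusGE K F g) :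
    g ≤ PHyp.genusR K F := by
  obtain ⟨D₀, hD₀⟩ := hg
  refine PHyp.le_genusR_of h fun c => ?_
  -- an effective divisor of large degree: a multiple of the divisor `B` of `RR.Hyp`
  obtain ⟨B, -, hB0, hBpos, -⟩ := h.bound
  refine ⟨D₀ + (c - Divisor.degree D₀).toNat • B, ?_, hD₀ _ ?_⟩
  · rw [map_add, map_nsmul, nsmul_eq_mul]
    have h1 : c - Divisor.degree D₀ ≤ ((c - Divisor.degree D₀).toNat : ℤ) := Int.self_le_toNat _
    have h2 : (0 : ℤ) ≤ ((c - Divisor.degree D₀).toNat : ℤ) := Int.natCast_nonneg _
    nlinarith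
  · exact le_add_of_nonneg_right (nsmul_nonneg hB0 _)

/-- The Riemann genus dominates `dim_K Omega` for a separating element (`SQO.omega_le_genus`). -/
theorem omega_le_genusR [IsAlgClosed K] (x : F) (hx : Transcendental K x)
    [FiniteDimensional K⟮x⟯ F] [Algebra.IsSeparable K⟮x⟯ F] :
    letI := Wrap.polyAlgebra (K := K) x
    letI := Wrap.ratAlgebra x hx
    haveI := Wrap.tower_poly (K := K) x
    haveI := (Wrap.tower_rat x hx).1
    haveI := (Wrap.tower_rat x hx).2
    (Module.finrank K (Omega K F) : ℤ) ≤ PHyp.genusR K F := by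
  obtain ⟨-, c, hc⟩ := PHyp.genusR_spec (PHyp.hyp_of_finite x hx)
  exact SQO.omega_le_genus x hx (PHyp.genusR K F) c hc

end Generic

/-- **The genus squeeze from the chain outputs**: `RR.Hyp` of the special fibre, a rational
constant `q` (the genus formula) with Riemann's inequality on the generic fibre, and `q` at most
the Riemann genus of the special fibre. -/
theorem genusSqueeze_of (A : ValuationSubring Qb) (M : ℕ)
    (hmod : RR.Hyp (Kb A) ↥(FbN A M)) (q : ℚ)
    (h1 : ∀ D : Divisor Qb ↥(FN M),
      (Divisor.degree D : ℚ) + 1 - q ≤ (Module.finrank Qb ↥(riemannRochSpace D) : ℚ))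
    (h2 : q ≤ (PHyp.genusR (Kb A) ↥(FbN A M) : ℚ)) : GenusSqueeze A M :=
  ⟨PHyp.genusR (Kb A) ↥(FbN A M), genusLE_of_rat h1 h2, genusGE_genusR hmod⟩

/-- The genus squeeze, with the lower bound on the special fibre given as `q ≤ dim Omega` for a
separating element `x` of `F̄_M` (the output of Theorem A and the point counts). -/
theorem genusSqueeze_of_omega (A : ValuationSubring Qb) (M : ℕ) [IsAlgClosed (Kb A)]
    (x : ↥(FbN A M)) (hx : Transcendental (Kb A) x)
    [FiniteDimensional (Kb A)⟮x⟯ ↥(FbN A M)] [Algebra.IsSeparable (Kb A)⟮x⟯ ↥(FbN A M)] (q : ℚ)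
    (h1 : ∀ D : Divisor Qb ↥(FN M),
      (Divisor.degree D : ℚ) + 1 - q ≤ (Module.finrank Qb ↥(riemannRochSpace D) : ℚ))
    (h2 :
      letI := Wrap.polyAlgebra (K := Kb A) x
      letI := Wrap.ratAlgebra x hx
      haveI := Wrap.tower_poly (K := Kb A) x
      haveI := (Wrap.tower_rat x hx).1
      haveI := (Wrap.tower_rat x hx).2
      q ≤ (Module.finrank (Kb A) (Omega (Kb A) ↥(FbN A M)) : ℚ)) : GenusSqueeze A M := by
  refine genusSqueeze_of A M (PHyp.hyp_of_finite x hx) q h1 (h2.trans ?_)
  exact_mod_cast omega_le_genusR x hx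

end Fermat.Agent.S18.GSA

end
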