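/-
S18 (wave 7), chains C0 + CL + SQ: the core of the genus squeeze (helper16).

`GS.genusSqueeze_of`: the squeeze `GenusSqueeze A M` of `Defs.lean` from
* Riemann's inequality with the constant `genusFormula M` in characteristic zero (chain C0),
* `RR.Hyp` for the reduced function field, and
* the lower bound `genusFormula M ≤ genusR` for the Riemann genus of the reduced function field
  (chains CL + SQ).
The integer of the squeeze is the Riemann genus `PHyp.genusR` of `F_M`.
-/
import Fermat.Agent.S18.Iface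
import Fermat.Agent.S18.PHyp

set_option autoImplicit false
set_option synthInstance.maxHeartbeats 400000

noncomputable section

open HahnSeries IntermediateField AlgebraicCurve ModularCurve
open Fermat.Agent.S20

namespace Fermat.Agent.S18.GS

section Generic

variable {K F : Type*} [Field K] [Field F] [Algebra K F]

/-- The degree is monotone. -/
theorem degree_mono {D D' : Divisor K F} (h : D ≤ D') :
    Divisor.degree D ≤ Divisor.degree D' := by
  have h1 : 0 ≤ D' - D := sub_nonneg.mpr h
  have h2 := RR.degree_nonneg h1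
  rw [map_sub] at h2
  linarith

/-- A lower bound for the Riemann genus gives `GenusGE`. -/
theorem genusGE_of (h : RR.Hyp K F) {g : ℤ} (hg : g ≤ PHyp.genusR K F) : GenusGE K F g := by
  obtain ⟨-, c, hc⟩ := PHyp.genusR_spec h
  obtain ⟨D₀, hD₀⟩ := PHyp.exists_degree_ge h c
  refine ⟨D₀, fun D hD => ?_⟩
  have h1 := degree_mono hD
  have h2 := hc D (hD₀.trans h1)
  rw [h2]
  linarith

/-- Riemann's inequality with a rational constant bounds the Riemann genus. -/
theorem genusR_le_of_rat (h : RR.Hyp K F) {γ : ℚ}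
    (hγ : ∀ D : Divisor K F, (Divisor.degree D : ℚ) + 1 - γ ≤ (RR.ell D : ℚ)) :
    (PHyp.genusR K F : ℚ) ≤ γ := by
  obtain ⟨-, c, hc⟩ := PHyp.genusR_spec h
  obtain ⟨D, hD⟩ := PHyp.exists_degree_ge h c
  have h1 := hc D hD
  have h2 := hγ D
  have h3 : (RR.ell D : ℚ) = (Divisor.degree D : ℚ) + 1 - (PHyp.genusR K F : ℚ) := by
    exact_mod_cast h1
  rw [h3] at h2
  linarith

end Generic

/-- **The genus squeeze from its two halves.** -/
theorem genusSqueeze_of (A : ValuationSubring Qb) (M : ℕ) [NeZero M]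
    (hC0 : ∀ D : Divisor Qb (FN M),
      (Divisor.degree D : ℚ) + 1 - genusFormula M ≤ (RR.ell D : ℚ))
    (hk : RR.Hyp (Kb A) (FbN A M))
    (hSQ : genusFormula M ≤ (PHyp.genusR (Kb A) (FbN A M) : ℚ)) :
    GenusSqueeze A M := by
  have h0 : RR.Hyp Qb (FN M) := PHyp.hyp_bar M
  refine ⟨PHyp.genusR Qb (FN M), PHyp.le_ell h0, genusGE_of hk ?_⟩
  have h1 := genusR_le_of_rat h0 hC0
  have h2 : (PHyp.genusR Qb (FN M) : ℚ) ≤ (PHyp.genusR (Kb A) (FbN A M) : ℚ) := h1.trans hSQ
  exact_mod_cast h2

end Fermat.Agent.S18.GS
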