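import Fermat.Agent.S18.GenPts
import Fermat.Agent.S18.PHyp0
import Fermat.Agent.S18.Tube
import Fermat.Agent.S18.PModC
import Fermat.Agent.S18.ResAlgClosed
import Fermat.Agent.S18.RNormal

/-!
# S18, chain U: generic points on `X₀(N)`

The abstract `Gen.exists_points` instantiated for the function field `modularFunctionFieldBar N`
of `X₀(N)` over `ℚ̄`, its characteristic-`ℓ` companion `modularFunctionFieldFullC k N`
(`k` the residue field of the valuation ring `A` over `ℓ`), a place reduction `r` in the frozen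
sense, and the coordinate functions `j - a`, `a ∈ A`.
-/

set_option autoImplicit false
set_option synthInstance.maxHeartbeats 400000

noncomputable section

namespace Fermat.Agent.S18.GenMod

open ModularCurve AlgebraicCurve HahnSeries IntermediateField Fermat.Agent.S20

variable (N : ℕ) [NeZero N] (A : ValuationSubring (AlgebraicClosure ℚ))

theorem jq_mem_bar : jqModC (AlgebraicClosure ℚ) ∈ modularFunctionFieldBar N := by
  have h1 : qExpand ℚ 1 jq ∈ modularFunctionFieldFull N := jqd_mem_full N (one_dvd N)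
  rw [qExpand_one_apply] at h1
  have h2 := coeffEmb_mem_laurentBaseChange (AlgebraicClosure ℚ) h1
  rwa [← jqModC_rat, coeffEmb, coeffMap_jqModC] at h2

/-- The function `j` as an element of the function field of `X₀(N)` over `ℚ̄`. -/
def jBar : ↥(modularFunctionFieldBar N) := ⟨jqModC (AlgebraicClosure ℚ), jq_mem_bar N⟩

/-- `jBar N` is the element `S24.jElt ℚ̄ N`. -/
theorem jBar_eq_jElt : jBar N = S24.jElt (AlgebraicClosure ℚ) N := by
  apply Subtype.ext
  show jqModC (AlgebraicClosure ℚ) =
    coeffEmb (AlgebraicClosure ℚ) (S24.jqd (⟨1, one_dvd N⟩ : S24.Dv N))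
  have h : S24.jqd (⟨1, one_dvd N⟩ : S24.Dv N) = jq := qExpand_one_apply jq
  rw [h, ← jqModC_rat, coeffEmb, coeffMap_jqModC]

/-- The function `J̄` as an element of the function field in characteristic `ℓ`
(`= PModC.xJ k N`). -/
abbrev jBarC : ↥(modularFunctionFieldFullC (IsLocalRing.ResidueField ↥A) N) :=
  PModC.xJ (IsLocalRing.ResidueField ↥A) N

theorem jBar_ne_const (a : AlgebraicClosure ℚ) :
    jBar N ≠ algebraMap (AlgebraicClosure ℚ) ↥(modularFunctionFieldBar N) a := by
  intro h
  have h1 : jqModC (AlgebraicClosure ℚ) =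
      algebraMap (AlgebraicClosure ℚ) (LaurentSeries (AlgebraicClosure ℚ)) a :=
    congrArg Subtype.val h
  have h2 := congrArg (fun z => z.coeff (-1)) h1
  simp only [coeff_jqModC_neg_one, algebraMap_laurentSeries_eq_single, HahnSeries.coeff_single] at h2
  norm_num at h2

theorem jBarC_ne_const (c : IsLocalRing.ResidueField ↥A) :
    jBarC N A ≠ algebraMap (IsLocalRing.ResidueField ↥A)
      ↥(modularFunctionFieldFullC (IsLocalRing.ResidueField ↥A) N) c := by
  intro h
  have h1 : jqModC (IsLocalRing.ResidueField ↥A) =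
      algebraMap (IsLocalRing.ResidueField ↥A) (LaurentSeries (IsLocalRing.ResidueField ↥A)) c :=
    congrArg Subtype.val h
  have h2 := congrArg (fun z => z.coeff (-1)) h1
  simp only [coeff_jqModC_neg_one, algebraMap_laurentSeries_eq_single, HahnSeries.coeff_single] at h2
  norm_num at h2

variable {N A}

/-- The reduction property of the frozen hypothesis for the functions `j - a`, `a ∈ A`. -/
theorem star_jBar
    {r : Place (AlgebraicClosure ℚ) ↥(modularFunctionFieldBar N) →
      Place (IsLocalRing.ResidueField ↥A)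
        ↥(modularFunctionFieldFullC (IsLocalRing.ResidueField ↥A) N)}
    (hr : IsPlaceReductionModL A N r) (a : ↥A)
    (D : Divisor (AlgebraicClosure ℚ) ↥(modularFunctionFieldBar N))
    (hD : ∀ P, D P = P.ord (jBar N - algebraMap (AlgebraicClosure ℚ)
      ↥(modularFunctionFieldBar N) (a : AlgebraicClosure ℚ)))
    (Q : Place (IsLocalRing.ResidueField ↥A)
      ↥(modularFunctionFieldFullC (IsLocalRing.ResidueField ↥A) N)) :
    Finsupp.mapDomain r D Q = Q.ord (jBarC N A - algebraMap (IsLocalRing.ResidueField ↥A)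
      ↥(modularFunctionFieldFullC (IsLocalRing.ResidueField ↥A) N) (IsLocalRing.residue ↥A a)) := by
  set y : LaurentSeries ↥A := jqModC ↥A - HahnSeries.C a with hy
  have hincl : coeffMap A.subtype y = jqModC (AlgebraicClosure ℚ) -
      algebraMap (AlgebraicClosure ℚ) (LaurentSeries (AlgebraicClosure ℚ))
        (a : AlgebraicClosure ℚ) := by
    rw [hy, map_sub, coeffMap_jqModC]
    congr 1
    exact Tube.incl_C a
  have hred : coeffMap (IsLocalRing.residue ↥A) y = jqModC (IsLocalRing.ResidueField ↥A) -
      algebraMap (IsLocalRing.ResidueField ↥A) (LaurentSeries (IsLocalRing.ResidueField ↥A))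
        (IsLocalRing.residue ↥A a) := by
    rw [hy, map_sub, coeffMap_jqModC]
    congr 1
    exact Tube.red_C a
  have hyF : coeffMap A.subtype y ∈ modularFunctionFieldBar N := by
    rw [hincl]
    exact sub_mem (jq_mem_bar N) (IntermediateField.algebraMap_mem _ _)
  have hyk : coeffMap (IsLocalRing.residue ↥A) y ∈
      modularFunctionFieldFullC (IsLocalRing.ResidueField ↥A) N := by
    rw [hred]
    exact sub_mem (jqModC_mem_full _ N) (IntermediateField.algebraMap_mem _ _)
  have hne : coeffMap (IsLocalRing.residue ↥A) y ≠ 0 := by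
    rw [hred]
    intro h0
    exact jBarC_ne_const N A (IsLocalRing.residue ↥A a) (Subtype.ext (sub_eq_zero.mp h0))
  have e1 : (⟨coeffMap A.subtype y, hyF⟩ : ↥(modularFunctionFieldBar N)) =
      jBar N - algebraMap (AlgebraicClosure ℚ) ↥(modularFunctionFieldBar N)
        (a : AlgebraicClosure ℚ) := Subtype.ext hincl
  have e2 : (⟨coeffMap (IsLocalRing.residue ↥A) y, hyk⟩ :
        ↥(modularFunctionFieldFullC (IsLocalRing.ResidueField ↥A) N)) =
      jBarC N A - algebraMap (IsLocalRing.ResidueField ↥A)
        ↥(modularFunctionFieldFullC (IsLocalRing.ResidueField ↥A) N)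
        (IsLocalRing.residue ↥A a) := Subtype.ext hred
  have h := hr.2 y hyF hyk hne D (fun P => by rw [hD P, e1]) Q
  rw [h, e2]

set_option maxHeartbeats 1600000 in
/-- **Generic points on `X₀(N)`**, with the hypotheses on the characteristic-`ℓ` function field
left explicit. -/
theorem exists_points_of [Infinite (IsLocalRing.ResidueField ↥A)]
    {r : Place (AlgebraicClosure ℚ) ↥(modularFunctionFieldBar N) →
      Place (IsLocalRing.ResidueField ↥A)
        ↥(modularFunctionFieldFullC (IsLocalRing.ResidueField ↥A) N)}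
    (hr : IsPlaceReductionModL A N r)
    (h0b : RR.Hyp0 (IsLocalRing.ResidueField ↥A)
      ↥(modularFunctionFieldFullC (IsLocalRing.ResidueField ↥A) N))
    (hsimple : ∃ S : Finset (IsLocalRing.ResidueField ↥A), ∀ c, c ∉ S →
      ∀ Q : Place (IsLocalRing.ResidueField ↥A)
        ↥(modularFunctionFieldFullC (IsLocalRing.ResidueField ↥A) N),
        0 < Q.ord (jBarC N A - algebraMap (IsLocalRing.ResidueField ↥A)
          ↥(modularFunctionFieldFullC (IsLocalRing.ResidueField ↥A) N) c) →
        Q.ord (jBarC N A - algebraMap (IsLocalRing.ResidueField ↥A)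
          ↥(modularFunctionFieldFullC (IsLocalRing.ResidueField ↥A) N) c) = 1)
    (T : Finset (Place (AlgebraicClosure ℚ) ↥(modularFunctionFieldBar N)))
    (Tb : Finset (Place (IsLocalRing.ResidueField ↥A)
      ↥(modularFunctionFieldFullC (IsLocalRing.ResidueField ↥A) N))) (n : ℕ) :
    ∃ (P : Fin n → Place (AlgebraicClosure ℚ) ↥(modularFunctionFieldBar N)) (a : Fin n → ↥A),
      Function.Injective (fun i => r (P i)) ∧ (∀ i, r (P i) ∉ Tb) ∧
      (∀ i, ∀ P' ∈ T, r P' ≠ r (P i)) ∧
      (∀ i, (P i).ord (jBar N - algebraMap (AlgebraicClosure ℚ) ↥(modularFunctionFieldBar N)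
        (a i : AlgebraicClosure ℚ)) = 1) ∧
      (∀ i P', r P' = r (P i) → P' ≠ P i →
        P'.ord (jBar N - algebraMap (AlgebraicClosure ℚ) ↥(modularFunctionFieldBar N)
          (a i : AlgebraicClosure ℚ)) = 0) ∧
      (∀ i P', r P' = r (P i) → 0 ≤ P'.ord (jBar N)) ∧
      (∀ i, (r (P i)).ord (jBarC N A - algebraMap (IsLocalRing.ResidueField ↥A)
        ↥(modularFunctionFieldFullC (IsLocalRing.ResidueField ↥A) N)
        (IsLocalRing.residue ↥A (a i))) = 1) := by
  have hdiv : ∀ f : ↥(modularFunctionFieldBar N), f ≠ 0 →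
      ∃ D : Divisor (AlgebraicClosure ℚ) ↥(modularFunctionFieldBar N), ∀ P, D P = P.ord f := by
    intro f hf
    obtain ⟨D, hD, -⟩ := (PHyp.hyp0_bar N).principal f hf
    exact ⟨D, hD⟩
  exact Gen.exists_points (L := AlgebraicClosure ℚ) (F := ↥(modularFunctionFieldBar N))
    (k := IsLocalRing.ResidueField ↥A)
    (Fb := ↥(modularFunctionFieldFullC (IsLocalRing.ResidueField ↥A) N))
    A (IsLocalRing.residue ↥A) IsLocalRing.residue_surjective r (jBar N)
    (jBarC N A) hdiv h0b (jBar_ne_const N) (jBarC_ne_const N A)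
    (fun a D hD Q => star_jBar hr a D hD Q) hsimple T Tb n

set_option maxHeartbeats 1600000 in
/-- **Generic points on `X₀(N)`.** For a place reduction `r` in the frozen sense (`A` a valuation
subring of `ℚ̄` over `ℓ`), every `n` and all finite sets of places to avoid, there are `n` places
`P i` of `F_N` with pairwise distinct reductions and constants `a i ∈ A` such that `j - a i` has a
simple zero at `P i`, no other zero in the tube of `r (P i)`, `j` has no pole in that tube, and
`J̄ - res (a i)` has a simple zero at `r (P i)`. -/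
theorem exists_points {ℓ : ℕ} [Fact ℓ.Prime] (hA : A.LiesOverPrime ℓ)
    {r : Place (AlgebraicClosure ℚ) ↥(modularFunctionFieldBar N) →
      Place (IsLocalRing.ResidueField ↥A)
        ↥(modularFunctionFieldFullC (IsLocalRing.ResidueField ↥A) N)}
    (hr : IsPlaceReductionModL A N r)
    (T : Finset (Place (AlgebraicClosure ℚ) ↥(modularFunctionFieldBar N)))
    (Tb : Finset (Place (IsLocalRing.ResidueField ↥A)
      ↥(modularFunctionFieldFullC (IsLocalRing.ResidueField ↥A) N))) (n : ℕ) :
    ∃ (P : Fin n → Place (AlgebraicClosure ℚ) ↥(modularFunctionFieldBar N)) (a : Fin n → ↥A),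
      Function.Injective (fun i => r (P i)) ∧ (∀ i, r (P i) ∉ Tb) ∧
      (∀ i, ∀ P' ∈ T, r P' ≠ r (P i)) ∧
      (∀ i, (P i).ord (jBar N - algebraMap (AlgebraicClosure ℚ) ↥(modularFunctionFieldBar N)
        (a i : AlgebraicClosure ℚ)) = 1) ∧
      (∀ i P', r P' = r (P i) → P' ≠ P i →
        P'.ord (jBar N - algebraMap (AlgebraicClosure ℚ) ↥(modularFunctionFieldBar N)
          (a i : AlgebraicClosure ℚ)) = 0) ∧
      (∀ i P', r P' = r (P i) → 0 ≤ P'.ord (jBar N)) ∧
      (∀ i, (r (P i)).ord (jBarC N A - algebraMap (IsLocalRing.ResidueField ↥A)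
        ↥(modularFunctionFieldFullC (IsLocalRing.ResidueField ↥A) N)
        (IsLocalRing.residue ↥A (a i))) = 1) := by
  haveI : IsAlgClosed (IsLocalRing.ResidueField ↥A) := ResAC.isAlgClosed_residueField_ratBar A
  haveI : CharP (IsLocalRing.ResidueField ↥A) ℓ := RN.charP_residueField A hA
  haveI := PModC.finiteDimensional_xJ (IsLocalRing.ResidueField ↥A) N ℓ
  haveI := PModC.isSeparable_xJ (IsLocalRing.ResidueField ↥A) N ℓ
  exact exists_points_of hr (PModC.hyp0_modC (IsLocalRing.ResidueField ↥A) N ℓ)
    (Gen.exists_finset_simple (PModC.xJ (IsLocalRing.ResidueField ↥A) N)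
      (PModC.transcendental_xJ (IsLocalRing.ResidueField ↥A) N)) T Tb n

end Fermat.Agent.S18.GenMod
end
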