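import Fermat.Agent.S18.PSep
import Fermat.Agent.S18.Tube

/-!
# S18, chain U: generic coordinate points

* `finite_ramified` (generic, any characteristic): for `F / K(x)` finite separable, only finitely
  many places of `F` are ramified over `K(x)` (primes dividing the different of the integral
  closure of `K[x]`).
* `exists_good_point`, `exists_good_points`: formal consequences of the frozen reduction
  property `ModularCurve.IsPlaceReductionAlong`: outside any finite set of places of the residual
  function field there are reductions `r P` of points `P` for which `t = j - a` (`a ∈ A`) is a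
  coordinate on the whole tube of `r P` — exactly the hypotheses of `Tube.coord_step` — and whose
  reduction `j̄ - ā` is a uniformizer at `r P`.
-/

set_option autoImplicit false
set_option maxSynthPendingDepth 3
set_option synthInstance.maxHeartbeats 400000

open AlgebraicCurve IsDedekindDomain IntermediateField ModularCurve HahnSeries
open scoped IntermediateField.algebraAdjoinAdjoin

namespace Fermat.Agent.S18.GenPt

open Fermat.Agent.S24.Places Fermat.Agent.S18 Fermat.Agent.S18.Tube

noncomputable section

section Generic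

attribute [local instance] FractionRing.liftAlgebra FractionRing.isScalarTower_liftAlgebra

variable {K F : Type*} [Field K] [Field F] [Algebra K F]

section Ram

variable (x : F)

/-- Every element of `K[x]` is a constant modulo `x - c`. -/
theorem exists_const_sub_mem_span (c : K) (a : polyRing (K := K) x) :
    ∃ d : K, a - algebraMap K (polyRing (K := K) x) d ∈
      Ideal.span {gen (K := K) x - algebraMap K (polyRing (K := K) x) c} := by
  obtain ⟨a, ha⟩ := a
  have ha' : a ∈ (Polynomial.aeval x : Polynomial K →ₐ[K] F).range := by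
    rw [← Algebra.adjoin_singleton_eq_range_aeval K x]; exact ha
  obtain ⟨f, rfl⟩ := ha'
  obtain ⟨q, hq⟩ := Polynomial.X_sub_C_dvd_sub_C_eval (a := c) (p := f)
  have hmem : Polynomial.aeval x q ∈ polyRing (K := K) x := by
    show _ ∈ Algebra.adjoin K {x}
    rw [Algebra.adjoin_singleton_eq_range_aeval K x]; exact ⟨_, rfl⟩
  refine ⟨f.eval c, ?_⟩
  rw [Ideal.mem_span_singleton']
  refine ⟨⟨Polynomial.aeval x q, hmem⟩, ?_⟩
  apply Subtype.ext
  have h := congrArg (Polynomial.aeval x) hq
  simp only [map_sub, map_mul, Polynomial.aeval_X, Polynomial.aeval_C] at h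
  show Polynomial.aeval x q * (x - algebraMap K F c) = Polynomial.aeval x f - algebraMap K F (f.eval c)
  rw [h, mul_comm]

variable [FiniteDimensional K⟮x⟯ F] [Algebra.IsSeparable K⟮x⟯ F]

attribute [local instance] PSep.isDedekindDomain_intRing isFractionRing_intRing PSep.finite_intRing

theorem isSeparable_fractionRing :
    Algebra.IsSeparable (FractionRing (polyRing (K := K) x)) (FractionRing (intRing (K := K) x)) := by
  refine Algebra.IsSeparable.of_equiv_equiv
    (FractionRing.algEquiv (polyRing (K := K) x) K⟮x⟯).symm.toRingEquiv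
    (FractionRing.algEquiv (intRing (K := K) x) F).symm.toRingEquiv ?_
  ext _
  exact IsFractionRing.algEquiv_commutes (FractionRing.algEquiv (polyRing (K := K) x) K⟮x⟯).symm
    (FractionRing.algEquiv (intRing (K := K) x) F).symm _

attribute [local instance] isSeparable_fractionRing

set_option synthInstance.maxHeartbeats 400000 in
set_option maxHeartbeats 1600000 in
/-- **Only finitely many places are ramified over `K(x)`** when `F / K(x)` is finite separable. -/
theorem finite_ramified (hx : Transcendental K x) :
    {v : Place K F | ∃ c : K, 2 ≤ v.ord (x - algebraMap K F c)}.Finite := by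
  classical
  have hdiff : differentIdeal (polyRing (K := K) x) (intRing (K := K) x) ≠ 0 :=
    differentIdeal_ne_bot
  have hfin := Ideal.finite_factors hdiff
  refine (hfin.image (ofPrime (K := K) (F := F) (hK x))).subset ?_
  rintro v ⟨c, hc⟩
  -- `x` is regular at `v`
  have hxc : x - algebraMap K F c ∈ v.toValuationSubring :=
    Fermat.Agent.S24.Places.mem_of_ord_pos v (by omega)
  have hxv : x ∈ v.toValuationSubring := by
    have := v.toValuationSubring.add_mem _ _ hxc (v.algebraMap_mem' c)
    simpa using this
  obtain ⟨P, rfl⟩ := exists_eq_ofPrime (hK x) v (intRing_le x v hxv)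
  refine ⟨P, ?_, rfl⟩
  -- the element `x - c` of `K[x]` and of its integral closure
  set a : polyRing (K := K) x := gen (K := K) x - algebraMap K (polyRing (K := K) x) c with ha
  set b : intRing (K := K) x := algebraMap (polyRing (K := K) x) (intRing (K := K) x) a with hb
  have hbF : algebraMap (intRing (K := K) x) F b = x - algebraMap K F c := rfl
  have hb0 : b ≠ 0 := by
    intro h0
    have h1 : x - algebraMap K F c = 0 := by rw [← hbF, h0, map_zero]
    apply hx
    rw [sub_eq_zero.mp h1]
    exact isAlgebraic_algebraMap c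
  have ha0 : a ≠ 0 := by
    intro h0
    apply hb0
    rw [hb, h0, map_zero]
  have hmult : 2 ≤ multiplicity P.asIdeal (Ideal.span {b}) := by
    have h := ord_algebraMap_eq_multiplicity (K := K) (F := F) (hK x) P hb0
    rw [hbF] at h
    omega
  have hdvd : P.asIdeal ^ 2 ∣ Ideal.span {b} := pow_dvd_of_le_multiplicity hmult
  -- the prime of `K[x]` below `P`
  set p : Ideal (polyRing (K := K) x) := P.asIdeal.comap
    (algebraMap (polyRing (K := K) x) (intRing (K := K) x)) with hp
  have hbP : b ∈ P.asIdeal := by
    have h1 : Ideal.span {b} ≤ P.asIdeal ^ 2 := Ideal.le_of_dvd hdvd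
    exact Ideal.pow_le_self two_ne_zero (h1 (Ideal.mem_span_singleton_self b))
  have hap : a ∈ p := hbP
  have hpprime : p.IsPrime := Ideal.comap_isPrime _ _
  have hpbot : p ≠ ⊥ := fun h => ha0 (by rw [h] at hap; exact hap)
  have hpmax : p.IsMaximal := Ideal.IsPrime.isMaximal hpprime hpbot
  have hpeq : p = Ideal.span {a} := by
    apply le_antisymm
    · intro y hy
      obtain ⟨d, hd⟩ := exists_const_sub_mem_span (K := K) x c y
      have hd' : y - algebraMap K (polyRing (K := K) x) d ∈ p :=
        (Ideal.span_singleton_le_iff_mem (I := p)).mpr hap hd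
      have hdp : algebraMap K (polyRing (K := K) x) d ∈ p := by
        have := p.sub_mem hy hd'
        simpa using this
      have hd0 : d = 0 := by
        by_contra hd0
        apply hpprime.ne_top
        rw [Ideal.eq_top_iff_one]
        have := p.mul_mem_left (algebraMap K (polyRing (K := K) x) d⁻¹) hdp
        rwa [← map_mul, inv_mul_cancel₀ hd0, map_one] at this
      rw [hd0, map_zero, sub_zero] at hd
      exact hd
    · exact (Ideal.span_singleton_le_iff_mem (I := p)).mpr hap
  have hmap : p.map (algebraMap (polyRing (K := K) x) (intRing (K := K) x)) = Ideal.span {b} := by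
    rw [hpeq, Ideal.map_span, Set.image_singleton]
  have hP : P.asIdeal ^ 2 ∣ p.map (algebraMap (polyRing (K := K) x) (intRing (K := K) x)) := by
    rw [hmap]; exact hdvd
  have h := pow_sub_one_dvd_differentIdeal (A := polyRing (K := K) x) P.asIdeal 2 hpbot hP
  simpa using h

end Ram

end Generic

variable {L : Type*} [Field L] [Algebra ℚ L] {A : ValuationSubring L} {N : ℕ}

section Coord

/-- `j` lies in the characteristic-zero function field. -/
theorem jq_mem (L : Type*) [Field L] [Algebra ℚ L] (N : ℕ) :
    jqModC L ∈ laurentBaseChange L (modularFunctionFieldFull N) := by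
  have h : coeffEmb L (jqModC ℚ) = jqModC L := coeffMap_jqModC (algebraMap ℚ L)
  rw [← h]
  exact coeffEmb_mem_laurentBaseChange L (jqModC_mem_full ℚ N)

/-- The coordinate `j - a` as a Laurent series over `A`. -/
def tA (a : A) : LaurentSeries A := jqModC A - HahnSeries.C a

omit [Algebra ℚ L] in
theorem incl_tA (a : A) :
    incl A (tA a) = jqModC L - algebraMap L (LaurentSeries L) (a : L) := by
  rw [tA, map_sub, incl_C, coeffMap_jqModC]

omit [Algebra ℚ L] in
theorem red_tA (a : A) :
    red A (tA a) = jqModC (IsLocalRing.ResidueField A) -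
      algebraMap (IsLocalRing.ResidueField A) (LaurentSeries (IsLocalRing.ResidueField A))
        (IsLocalRing.residue A a) := by
  rw [tA, map_sub, red_C, coeffMap_jqModC]

theorem tA_mem (a : A) : incl A (tA a) ∈ laurentBaseChange L (modularFunctionFieldFull N) := by
  rw [incl_tA]
  exact sub_mem (jq_mem L N) ((laurentBaseChange L (modularFunctionFieldFull N)).algebraMap_mem _)

omit [Algebra ℚ L] in
theorem red_tA_mem (a : A) :
    red A (tA a) ∈ modularFunctionFieldFullC (IsLocalRing.ResidueField A) N := by
  rw [red_tA]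
  exact sub_mem (jqModC_mem_full _ N)
    ((modularFunctionFieldFullC (IsLocalRing.ResidueField A) N).algebraMap_mem _)

omit [Algebra ℚ L] in
theorem red_tA_ne_zero (a : A) : red A (tA a) ≠ 0 := by
  intro h
  have h1 := congrArg (fun z => z.coeff (-1)) h
  simp only [red_tA, HahnSeries.coeff_sub, HahnSeries.coeff_zero,
    algebraMap_laurentSeries_eq_single] at h1
  rw [coeff_jqModC_neg_one, HahnSeries.coeff_single_of_ne (by norm_num)] at h1
  simp at h1

omit [Algebra ℚ L] in
/-- `j - a` is a unit of `A((q))`. -/
theorem isUnit_tA (a : A) : IsUnit (tA a) := by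
  set u : PowerSeries A :=
    jNum.map (Int.castRingHom A) - PowerSeries.C a * PowerSeries.X with hu
  have hu1 : IsUnit u := by
    rw [PowerSeries.isUnit_iff_constantCoeff]
    have : PowerSeries.constantCoeff u = 1 := by
      rw [hu, map_sub, map_mul, PowerSeries.constantCoeff_X, mul_zero, sub_zero,
        ← PowerSeries.coeff_zero_eq_constantCoeff, PowerSeries.coeff_map,
        PowerSeries.coeff_zero_eq_constantCoeff, constantCoeff_jNum, map_one]
    rw [this]
    exact isUnit_one
  have hs : IsUnit (HahnSeries.single (-1 : ℤ) (1 : A)) := by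
    refine IsUnit.of_mul_eq_one (HahnSeries.single (1 : ℤ) (1 : A)) ?_
    rw [HahnSeries.single_mul_single]
    simp
  have heq : tA a = HahnSeries.single (-1 : ℤ) (1 : A) * HahnSeries.ofPowerSeries ℤ A u := by
    rw [hu, map_sub, map_mul, mul_sub, tA, jqModC, HahnSeries.ofPowerSeries_C,
      HahnSeries.ofPowerSeries_X]
    congr 1
    rw [mul_comm (HahnSeries.C a), ← mul_assoc, HahnSeries.single_mul_single]
    simp
  rw [heq]
  exact hs.mul (hu1.map _)

end Coord

section Good

variable {r : Place L (FF L N) → Place (IsLocalRing.ResidueField A) (FFb A N)}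

/-- A sum of nonnegative integers equal to one has exactly one term equal to one. -/
theorem exists_unique_one_of_sum_eq_one {ι : Type*} (s : Finset ι) (f : ι → ℤ)
    (h0 : ∀ i ∈ s, 0 ≤ f i) (h1 : ∑ i ∈ s, f i = 1) :
    ∃ i₀ ∈ s, f i₀ = 1 ∧ ∀ i ∈ s, i ≠ i₀ → f i = 0 := by
  classical
  obtain ⟨i₀, hi₀, hpos⟩ : ∃ i ∈ s, 0 < f i := by
    by_contra hcon
    push Not at hcon
    have : ∑ i ∈ s, f i = 0 :=
      Finset.sum_eq_zero fun i hi => le_antisymm (hcon i hi) (h0 i hi)
    omega
  have hsplit : f i₀ + ∑ i ∈ s.erase i₀, f i = 1 := by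
    rw [Finset.add_sum_erase s f hi₀, h1]
  have hrest : 0 ≤ ∑ i ∈ s.erase i₀, f i :=
    Finset.sum_nonneg fun i hi => h0 i (Finset.mem_of_mem_erase hi)
  have hrest0 : ∑ i ∈ s.erase i₀, f i = 0 := by omega
  refine ⟨i₀, hi₀, by omega, fun i hi hne => ?_⟩
  exact (Finset.sum_eq_zero_iff_of_nonneg
    (fun i hi => h0 i (Finset.mem_of_mem_erase hi))).mp hrest0 i
    (Finset.mem_erase.mpr ⟨hne, hi⟩)

/-- The property of a point `P` and a constant `a ∈ A` that we need: `j - a` is a coordinate at
`P` which has no other zero or pole in the tube of `r P`, and `j` has neither zero nor pole in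
this tube. -/
def Good (r : Place L (FF L N) → Place (IsLocalRing.ResidueField A) (FFb A N))
    (P : Place L (FF L N)) (a : A) : Prop :=
  P.ord (⟨incl A (tA a), tA_mem a⟩ : FF L N) = 1 ∧
    (∀ P', r P' = r P → P' ≠ P → P'.ord (⟨incl A (tA a), tA_mem a⟩ : FF L N) = 0) ∧
    (∀ P', r P' = r P → P'.ord (⟨jqModC L, jq_mem L N⟩ : FF L N) = 0) ∧
    (r P).ord (⟨red A (tA a), red_tA_mem a⟩ : FFb A N) = 1

/-- **Generic coordinate points**: outside any finite set of places of the residual function
field there is the reduction of a point `P` at which `j - a` (for a suitable `a ∈ A`) is a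
coordinate on the whole tube. -/
theorem exists_good_point (hr : IsPlaceReductionAlong A (IsLocalRing.residue A) N r)
    (hdiv : ∀ f : FF L N, f ≠ 0 → ∃ D : Divisor L (FF L N), ∀ v, D v = v.ord f)
    (hram : {Q : Place (IsLocalRing.ResidueField A) (FFb A N) | ∃ c : IsLocalRing.ResidueField A,
      2 ≤ Q.ord ((⟨jqModC _, jqModC_mem_full _ N⟩ : FFb A N) - algebraMap _ (FFb A N) c)}.Finite)
    (hvalb : ∀ Q : Place (IsLocalRing.ResidueField A) (FFb A N),
      0 ≤ Q.ord (⟨jqModC _, jqModC_mem_full _ N⟩ : FFb A N) →
      ∃ c : IsLocalRing.ResidueField A,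
        0 < Q.ord ((⟨jqModC _, jqModC_mem_full _ N⟩ : FFb A N) - algebraMap _ (FFb A N) c))
    [hinf : Infinite (Place (IsLocalRing.ResidueField A) (FFb A N))]
    (S : Finset (Place (IsLocalRing.ResidueField A) (FFb A N))) :
    ∃ (P : Place L (FF L N)) (a : A), r P ∉ S ∧ Good r P a := by
  classical
  -- the divisor of `j`
  have hjA : incl A (jqModC A) = jqModC L := coeffMap_jqModC _
  have hjAk : red A (jqModC A) = jqModC (IsLocalRing.ResidueField A) := coeffMap_jqModC _
  have hjmem : incl A (jqModC A) ∈ laurentBaseChange L (modularFunctionFieldFull N) := by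
    rw [hjA]; exact jq_mem L N
  have hjkmem : red A (jqModC A) ∈ modularFunctionFieldFullC (IsLocalRing.ResidueField A) N := by
    rw [hjAk]; exact jqModC_mem_full _ N
  have hjFeq : (⟨incl A (jqModC A), hjmem⟩ : FF L N) = ⟨jqModC L, jq_mem L N⟩ :=
    Subtype.ext hjA
  have hjbeq : (⟨red A (jqModC A), hjkmem⟩ : FFb A N) = ⟨jqModC _, jqModC_mem_full _ N⟩ :=
    Subtype.ext hjAk
  have hj0 : (⟨jqModC L, jq_mem L N⟩ : FF L N) ≠ 0 := by
    intro h
    have h1 := congrArg (fun z : FF L N => (z : LaurentSeries L).coeff (-1)) h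
    simp only [ZeroMemClass.coe_zero, HahnSeries.coeff_zero] at h1
    rw [coeff_jqModC_neg_one] at h1
    exact one_ne_zero h1
  obtain ⟨Dj, hDj⟩ := hdiv _ hj0
  -- a place of the residual field outside the bad finite set
  obtain ⟨Q, hQ⟩ := Infinite.exists_notMem_finset (S ∪ Dj.support.image r ∪ hram.toFinset)
  have hQS : Q ∉ S := fun h => hQ (Finset.mem_union_left _ (Finset.mem_union_left _ h))
  have hQj : ∀ P', r P' = Q → P'.ord (⟨jqModC L, jq_mem L N⟩ : FF L N) = 0 := by
    intro P' hP'
    by_contra hne
    apply hQ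
    refine Finset.mem_union_left _ (Finset.mem_union_right _ ?_)
    rw [Finset.mem_image]
    exact ⟨P', by rw [Finsupp.mem_support_iff, hDj]; exact hne, hP'⟩
  have hQram : ∀ c : IsLocalRing.ResidueField A,
      ¬ 2 ≤ Q.ord ((⟨jqModC _, jqModC_mem_full _ N⟩ : FFb A N) - algebraMap _ (FFb A N) c) := by
    intro c hc
    apply hQ
    refine Finset.mem_union_right _ ?_
    rw [Set.Finite.mem_toFinset]
    exact ⟨c, hc⟩
  -- `j̄` is regular at `Q`
  have hQreg : 0 ≤ Q.ord (⟨jqModC _, jqModC_mem_full _ N⟩ : FFb A N) := by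
    rw [← hjbeq]
    refine ord_red_nonneg hr hdiv (jqModC A) hjmem hjkmem Q fun P' hP' => ?_
    rw [hjFeq, hQj P' hP']
  obtain ⟨c, hc⟩ := hvalb Q hQreg
  have hc1 : Q.ord ((⟨jqModC _, jqModC_mem_full _ N⟩ : FFb A N) - algebraMap _ (FFb A N) c) = 1 := by
    have := hQram c
    omega
  obtain ⟨a, rfl⟩ := IsLocalRing.residue_surjective c
  -- the coordinate `t = j - a`
  have htFeq : (⟨incl A (tA a), tA_mem a⟩ : FF L N) =
      (⟨jqModC L, jq_mem L N⟩ : FF L N) - algebraMap L (FF L N) (a : L) :=
    Subtype.ext (incl_tA a)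
  have htbeq : (⟨red A (tA a), red_tA_mem a⟩ : FFb A N) =
      (⟨jqModC _, jqModC_mem_full _ N⟩ : FFb A N) -
        algebraMap _ (FFb A N) (IsLocalRing.residue A a) :=
    Subtype.ext (red_tA a)
  have htF0 : (⟨incl A (tA a), tA_mem a⟩ : FF L N) ≠ 0 := fun h =>
    incl_ne_zero_of_red_ne_zero (red_tA_ne_zero a) (congrArg Subtype.val h)
  obtain ⟨D, hD⟩ := hdiv _ htF0
  have hstar := hr.2 (tA a) (tA_mem a) (red_tA_mem a) (red_tA_ne_zero a) D hD Q
  rw [mapDomain_apply_eq, htbeq, hc1] at hstar
  have hnonneg : ∀ P ∈ D.support, 0 ≤ (if r P = Q then D P else 0) := by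
    intro P _
    split_ifs with h
    · rw [hD, htFeq]
      rcases ord_sub_const_nonneg P (a : L) (le_of_eq (hQj P h).symm) with h0 | h0
      · rw [h0, Place.ord_zero]
      · exact h0
    · exact le_rfl
  obtain ⟨P₀, hP₀s, hP₀1, hP₀other⟩ := exists_unique_one_of_sum_eq_one D.support _ hnonneg hstar
  have hrP₀ : r P₀ = Q := by
    by_contra hne
    rw [if_neg hne] at hP₀1
    exact zero_ne_one hP₀1
  rw [if_pos hrP₀, hD] at hP₀1
  refine ⟨P₀, a, by rw [hrP₀]; exact hQS, hP₀1, ?_, ?_, ?_⟩
  · intro P' hP' hne
    rw [hrP₀] at hP'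
    by_cases hs : P' ∈ D.support
    · have := hP₀other P' hs hne
      rw [if_pos hP', hD] at this
      exact this
    · rw [Finsupp.notMem_support_iff, hD] at hs
      exact hs
  · intro P' hP'
    rw [hrP₀] at hP'
    exact hQj P' hP'
  · rw [hrP₀, htbeq, hc1]

/-- Any number of good points with pairwise distinct reductions outside a finite set. -/
theorem exists_good_points (hr : IsPlaceReductionAlong A (IsLocalRing.residue A) N r)
    (hdiv : ∀ f : FF L N, f ≠ 0 → ∃ D : Divisor L (FF L N), ∀ v, D v = v.ord f)
    (hram : {Q : Place (IsLocalRing.ResidueField A) (FFb A N) | ∃ c : IsLocalRing.ResidueField A,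
      2 ≤ Q.ord ((⟨jqModC _, jqModC_mem_full _ N⟩ : FFb A N) - algebraMap _ (FFb A N) c)}.Finite)
    (hvalb : ∀ Q : Place (IsLocalRing.ResidueField A) (FFb A N),
      0 ≤ Q.ord (⟨jqModC _, jqModC_mem_full _ N⟩ : FFb A N) →
      ∃ c : IsLocalRing.ResidueField A,
        0 < Q.ord ((⟨jqModC _, jqModC_mem_full _ N⟩ : FFb A N) - algebraMap _ (FFb A N) c))
    [hinf : Infinite (Place (IsLocalRing.ResidueField A) (FFb A N))]
    (S : Finset (Place (IsLocalRing.ResidueField A) (FFb A N))) (n : ℕ) :
    ∃ (P : Fin n → Place L (FF L N)) (a : Fin n → A),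
      Function.Injective (fun i => r (P i)) ∧ ∀ i, r (P i) ∉ S ∧ Good r (P i) (a i) := by
  classical
  induction n with
  | zero => exact ⟨Fin.elim0, Fin.elim0, fun i => i.elim0, fun i => i.elim0⟩
  | succ n ih =>
    obtain ⟨P, a, hinj, hP⟩ := ih
    obtain ⟨P₀, a₀, hP₀S, hgood⟩ := exists_good_point hr hdiv hram hvalb
      (S ∪ Finset.univ.image fun i => r (P i))
    have hP₀S' : r P₀ ∉ S := fun h => hP₀S (Finset.mem_union_left _ h)
    have hP₀new : ∀ i, r (P i) ≠ r P₀ := by
      intro i h
      apply hP₀S
      refine Finset.mem_union_right _ ?_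
      rw [Finset.mem_image]
      exact ⟨i, Finset.mem_univ _, h⟩
    refine ⟨Fin.snoc P P₀, Fin.snoc a a₀, ?_, ?_⟩
    · intro i j hij
      induction i using Fin.lastCases with
      | last =>
        induction j using Fin.lastCases with
        | last => rfl
        | cast j =>
          simp only [Fin.snoc_last, Fin.snoc_castSucc] at hij
          exact absurd hij.symm (hP₀new j)
      | cast i =>
        induction j using Fin.lastCases with
        | last =>
          simp only [Fin.snoc_last, Fin.snoc_castSucc] at hij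
          exact absurd hij (hP₀new i)
        | cast j =>
          simp only [Fin.snoc_castSucc] at hij
          rw [hinj hij]
    · intro i
      induction i using Fin.lastCases with
      | last =>
        simp only [Fin.snoc_last]
        exact ⟨hP₀S', hgood⟩
      | cast i =>
        simp only [Fin.snoc_castSucc]
        exact hP i

end Good

end

end Fermat.Agent.S18.GenPt
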