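import Fermat.Agent.S18.PSep

/-!
# S18, chain U: generic points

* `Gen.exists_finset_simple`: for a separating element `x` of a function field `F / K`
  (`K` algebraically closed), for all but finitely many `c : K` every zero of `x - c` is simple
  (only finitely many primes of the integral closure of `K[x]` divide the different).
* `Gen.exists_zero`, `Gen.eq_of_ord_pos`: a non-constant function takes every value, at
  different places for different values.
* `Gen.exists_point`, `Gen.exists_points`: for an abstract place-reduction map `r` satisfying the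
  divisor compatibility for the functions `x - a` (`a` in the valuation ring), existence of `n`
  places with pairwise distinct reductions, avoiding given finite sets, at which `x - a i` is a
  coordinate: a simple zero, no other zero and no pole of `x` in the tube, and the reduction
  `xb - res (a i)` has a simple zero at the reduced place.
-/

set_option autoImplicit false

open AlgebraicCurve IsDedekindDomain IntermediateField
open scoped IntermediateField.algebraAdjoinAdjoin nonZeroDivisors

namespace Fermat.Agent.S18.Gen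

open Fermat.Agent.S24.Places

noncomputable section

attribute [local instance] FractionRing.liftAlgebra FractionRing.isScalarTower_liftAlgebra

section Abstract

/-- Separability of the fraction fields, transported to `FractionRing`. -/
theorem isSeparable_fractionRing (A K' B L : Type*) [CommRing A] [IsDomain A] [Field K']
    [CommRing B] [IsDomain B] [Field L] [Algebra A K'] [Algebra B L] [Algebra A B] [Algebra K' L]
    [Algebra A L] [IsScalarTower A K' L] [IsScalarTower A B L] [IsFractionRing A K']
    [IsFractionRing B L] [Module.IsTorsionFree A B] [Algebra.IsSeparable K' L] :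
    Algebra.IsSeparable (FractionRing A) (FractionRing B) := by
  have H : RingHom.comp (algebraMap (FractionRing A) (FractionRing B))
      ↑(FractionRing.algEquiv A K').symm.toRingEquiv =
        RingHom.comp ↑(FractionRing.algEquiv B L).symm.toRingEquiv (algebraMap K' L) := by
    apply IsLocalization.ringHom_ext A⁰
    ext
    simp only [RingHom.coe_comp, RingHom.coe_coe,
      AlgEquiv.coe_ringEquiv, Function.comp_apply, AlgEquiv.commutes,
      ← IsScalarTower.algebraMap_apply]
    rw [IsScalarTower.algebraMap_apply A B L, AlgEquiv.commutes, ← IsScalarTower.algebraMap_apply]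
  exact Algebra.IsSeparable.of_equiv_equiv _ _ H

variable {K F : Type*} [Field K] [Field F] [Algebra K F]
variable {A B : Type*} [CommRing A] [IsDomain A] [IsDedekindDomain A] [CommRing B]
  [IsDedekindDomain B] [Algebra A B] [Module.IsTorsionFree A B] [Module.Finite A B]
  [Algebra.IsSeparable (FractionRing A) (FractionRing B)] [Algebra B F] [IsFractionRing B F]

/-- Abstract form: all but finitely many members of a family of maximal ideals `(t c)` of `A`
are unramified in `B`, i.e. every place where `t c` vanishes is a simple zero. -/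
theorem exists_finset_simple_abstract
    (hK : ∀ a : K, ∃ b : B, algebraMap B F b = algebraMap K F a)
    (t : K → A) (hmax : ∀ c, (Ideal.span {t c}).IsMaximal) (ht0 : ∀ c, t c ≠ 0)
    (hne : ∀ c c', c ≠ c' → ∀ P : Ideal B, P.IsPrime → algebraMap A B (t c) ∈ P →
      algebraMap A B (t c') ∉ P)
    (hle : ∀ c, ∀ v : Place K F, algebraMap B F (algebraMap A B (t c)) ∈ v.toValuationSubring →
      ∀ b : B, algebraMap B F b ∈ v.toValuationSubring) :
    ∃ S : Finset K, ∀ c, c ∉ S → ∀ v : Place K F,
      0 < v.ord (algebraMap B F (algebraMap A B (t c))) →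
        v.ord (algebraMap B F (algebraMap A B (t c))) = 1 := by
  classical
  have hD : differentIdeal A B ≠ ⊥ := differentIdeal_ne_bot
  have hfin : {v : HeightOneSpectrum B | v.asIdeal ∣ differentIdeal A B}.Finite :=
    Ideal.finite_factors hD
  let pick : HeightOneSpectrum B → Finset K := fun P =>
    if h : ∃ c, algebraMap A B (t c) ∈ P.asIdeal then {h.choose} else ∅
  refine ⟨hfin.toFinset.biUnion pick, fun c hc v hv => ?_⟩
  have hinj : Function.Injective (algebraMap A B) := FaithfulSMul.algebraMap_injective A B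
  have htB0 : algebraMap A B (t c) ≠ 0 := fun h => ht0 c (hinj (by rw [h, map_zero]))
  have hmem : algebraMap B F (algebraMap A B (t c)) ∈ v.toValuationSubring := mem_of_ord_pos v hv
  obtain ⟨P, rfl⟩ := exists_eq_ofPrime hK v (hle c v hmem)
  have hP : algebraMap A B (t c) ∈ P.asIdeal := (ord_pos_iff_mem hK P htB0).mp hv
  rw [ord_algebraMap_eq_multiplicity hK P htB0] at hv ⊢
  have hle1 : multiplicity P.asIdeal (Ideal.span {algebraMap A B (t c)}) ≤ 1 := by
    by_contra hgt
    push Not at hgt
    apply hc
    have hdvd : P.asIdeal ^ 2 ∣ (Ideal.span {t c}).map (algebraMap A B) := by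
      rw [Ideal.map_span, Set.image_singleton]
      exact (pow_dvd_pow _ hgt).trans (pow_multiplicity_dvd _ _)
    haveI := hmax c
    have hp0 : Ideal.span {t c} ≠ ⊥ := by
      rw [Ne, Ideal.span_singleton_eq_bot]; exact ht0 c
    have h1 := pow_sub_one_dvd_differentIdeal A P.asIdeal 2 hp0 hdvd
    simp only [Nat.add_one_sub_one, pow_one] at h1
    rw [Finset.mem_biUnion]
    refine ⟨P, by simpa using h1, ?_⟩
    have hex : ∃ c, algebraMap A B (t c) ∈ P.asIdeal := ⟨c, hP⟩
    have hch : hex.choose = c := by
      by_contra hne'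
      exact hne _ _ hne' P.asIdeal P.isPrime hex.choose_spec hP
    simp only [pick, dif_pos hex, Finset.mem_singleton]
    exact hch.symm
  have hpos : 0 < multiplicity P.asIdeal (Ideal.span {algebraMap A B (t c)}) := by
    exact_mod_cast hv
  have : multiplicity P.asIdeal (Ideal.span {algebraMap A B (t c)}) = 1 := by omega
  rw [this]; rfl

end Abstract

section Specific

variable {K F : Type*} [Field K] [Field F] [Algebra K F]
variable (x : F)

/-- The element `x - c` of `K[x]`. -/
def tc (c : K) : polyRing (K := K) x := gen (K := K) x - algebraMap K (polyRing (K := K) x) c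

@[simp] theorem coe_tc (c : K) : ((tc x c : polyRing (K := K) x) : F) = x - algebraMap K F c := rfl

theorem exists_const_sub_mem_tc (c : K) (a : polyRing (K := K) x) :
    ∃ d : K, a - algebraMap K (polyRing (K := K) x) d ∈ Ideal.span {tc x c} := by
  obtain ⟨a, ha⟩ := a
  have ha' : a ∈ (Polynomial.aeval x : Polynomial K →ₐ[K] F).range := by
    rw [← Algebra.adjoin_singleton_eq_range_aeval K x]; exact ha
  obtain ⟨f, rfl⟩ := ha'
  have key : Polynomial.aeval x f - algebraMap K F (f.eval c) =
      Polynomial.aeval x (f /ₘ (Polynomial.X - Polynomial.C c)) * (x - algebraMap K F c) := by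
    have h1 : f = (Polynomial.X - Polynomial.C c) * (f /ₘ (Polynomial.X - Polynomial.C c)) +
        Polynomial.C (f.eval c) := by
      conv_lhs => rw [← Polynomial.modByMonic_add_div f (Polynomial.X - Polynomial.C c),
        Polynomial.modByMonic_X_sub_C_eq_C_eval]
      ring
    conv_lhs => rw [h1]
    simp
    ring
  have hmem : Polynomial.aeval x (f /ₘ (Polynomial.X - Polynomial.C c)) ∈ polyRing (K := K) x := by
    show _ ∈ Algebra.adjoin K {x}
    rw [Algebra.adjoin_singleton_eq_range_aeval K x]; exact ⟨_, rfl⟩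
  refine ⟨f.eval c, ?_⟩
  rw [Ideal.mem_span_singleton']
  refine ⟨⟨Polynomial.aeval x (f /ₘ (Polynomial.X - Polynomial.C c)), hmem⟩, ?_⟩
  apply Subtype.ext
  exact key.symm

theorem tc_not_isUnit (hx : Transcendental K x) (c : K) : ¬ IsUnit (tc x c) := by
  intro hu
  obtain ⟨g, hg⟩ := hu.exists_right_inv
  obtain ⟨g, hgmem⟩ := g
  have hg' : g ∈ (Polynomial.aeval x : Polynomial K →ₐ[K] F).range := by
    rw [← Algebra.adjoin_singleton_eq_range_aeval K x]; exact hgmem
  obtain ⟨q, rfl⟩ := hg'
  have h1 : (x - algebraMap K F c) * Polynomial.aeval x q = 1 := by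
    have := congrArg Subtype.val hg
    exact this
  have h2 : Polynomial.aeval x ((Polynomial.X - Polynomial.C c) * q - 1) = 0 := by
    simp [h1]
  have h3 := (transcendental_iff.mp hx) _ h2
  have h4 := congrArg (fun r => Polynomial.eval c r) h3
  simp at h4

theorem tc_ne_zero (hx : Transcendental K x) (c : K) : tc x c ≠ 0 := by
  intro h
  apply hx
  have hx0 : x - algebraMap K F c = 0 := congrArg Subtype.val h
  rw [sub_eq_zero.mp hx0]
  exact isAlgebraic_algebraMap c

theorem span_tc_isMaximal (hx : Transcendental K x) (c : K) :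
    (Ideal.span {tc x c}).IsMaximal := by
  rw [Ideal.isMaximal_iff]
  refine ⟨?_, ?_⟩
  · intro h1
    rw [Ideal.mem_span_singleton'] at h1
    obtain ⟨g, hg⟩ := h1
    exact tc_not_isUnit x hx c (IsUnit.of_mul_eq_one g (by rw [mul_comm]; exact hg))
  · intro J a hJ ha haJ
    obtain ⟨d, hd⟩ := exists_const_sub_mem_tc (K := K) x c a
    have hd0 : d ≠ 0 := by
      rintro rfl
      apply ha
      simpa using hd
    have hdJ : algebraMap K (polyRing (K := K) x) d ∈ J := by
      have := J.sub_mem haJ (hJ hd)
      simpa using this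
    have := J.mul_mem_left (algebraMap K (polyRing (K := K) x) d⁻¹) hdJ
    rwa [← map_mul, inv_mul_cancel₀ hd0, map_one] at this

variable [FiniteDimensional K⟮x⟯ F] [Algebra.IsSeparable K⟮x⟯ F]

attribute [local instance] PSep.isDedekindDomain_intRing isFractionRing_intRing PSep.finite_intRing

set_option synthInstance.maxHeartbeats 400000 in
set_option maxHeartbeats 1600000 in
/-- **Generic fibres are unramified**: for a separating element `x`, for all but finitely many
`c : K` every zero of `x - c` is simple. -/
theorem exists_finset_simple (hx : Transcendental K x) :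
    ∃ S : Finset K, ∀ c, c ∉ S → ∀ Q : Place K F,
      0 < Q.ord (x - algebraMap K F c) → Q.ord (x - algebraMap K F c) = 1 := by
  haveI : Algebra.IsSeparable (FractionRing (polyRing (K := K) x))
      (FractionRing (intRing (K := K) x)) :=
    isSeparable_fractionRing (polyRing (K := K) x) K⟮x⟯ (intRing (K := K) x) F
  have h := exists_finset_simple_abstract (K := K) (F := F) (A := polyRing (K := K) x)
    (B := intRing (K := K) x) (hK x) (tc x) (span_tc_isMaximal x hx) (tc_ne_zero x hx)
    (fun c c' hcc P hP h1 h2 => by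
      have h3 : algebraMap (polyRing (K := K) x) (intRing (K := K) x) (tc x c') -
          algebraMap (polyRing (K := K) x) (intRing (K := K) x) (tc x c) ∈ P := P.sub_mem h2 h1
      have h4 : algebraMap (polyRing (K := K) x) (intRing (K := K) x) (tc x c') -
          algebraMap (polyRing (K := K) x) (intRing (K := K) x) (tc x c) =
          algebraMap (polyRing (K := K) x) (intRing (K := K) x)
            (algebraMap K (polyRing (K := K) x) (c - c')) := by
        rw [← map_sub]
        congr 1
        simp only [tc, map_sub]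
        ring
      rw [h4] at h3
      have hu : IsUnit (algebraMap (polyRing (K := K) x) (intRing (K := K) x)
            (algebraMap K (polyRing (K := K) x) (c - c'))) :=
        ((isUnit_iff_ne_zero.mpr (sub_ne_zero.mpr hcc)).map _).map _
      exact hP.ne_top (Ideal.eq_top_of_isUnit_mem _ h3 hu))
    (fun c v hv b => by
      refine intRing_le x v ?_ b
      have h1 : x - algebraMap K F c ∈ v.toValuationSubring := hv
      have h2 := v.toValuationSubring.add_mem _ _ h1 (v.algebraMap_mem' c)
      simpa using h2)
  exact h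

end Specific

section Points

open Fermat.Agent.S20

variable {L F k Fb : Type*} [Field L] [Field F] [Algebra L F] [Field k] [Field Fb] [Algebra k Fb]

open Classical in
theorem mapDomain_apply_eq {α β : Type*} (r : α → β) (D : α →₀ ℤ) (Q : β) :
    Finsupp.mapDomain r D Q = ∑ P ∈ D.support, if r P = Q then D P else 0 := by
  rw [Finsupp.mapDomain, Finsupp.sum_apply, Finsupp.sum]
  refine Finset.sum_congr rfl fun P _ => ?_
  rw [Finsupp.single_apply]

theorem exists_eq_one_of_sum_eq_one {ι : Type*} (s : Finset ι) (f : ι → ℤ)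
    (h0 : ∀ i ∈ s, 0 ≤ f i) (h1 : ∑ i ∈ s, f i = 1) :
    ∃ i ∈ s, f i = 1 ∧ ∀ j ∈ s, j ≠ i → f j = 0 := by
  classical
  have hex : ∃ i ∈ s, 0 < f i := by
    by_contra hcon
    push Not at hcon
    have : ∑ i ∈ s, f i = 0 :=
      Finset.sum_eq_zero fun i hi => le_antisymm (hcon i hi) (h0 i hi)
    omega
  obtain ⟨i, hi, hpos⟩ := hex
  have hsplit : f i + ∑ j ∈ s.erase i, f j = 1 := by
    rw [Finset.add_sum_erase s f hi]; exact h1
  have hnn : 0 ≤ ∑ j ∈ s.erase i, f j :=
    Finset.sum_nonneg fun j hj => h0 j (Finset.mem_of_mem_erase hj)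
  have hz : ∑ j ∈ s.erase i, f j = 0 := by omega
  refine ⟨i, hi, by omega, fun j hj hji => ?_⟩
  exact (Finset.sum_eq_zero_iff_of_nonneg
    fun j hj => h0 j (Finset.mem_of_mem_erase hj)).mp hz j (Finset.mem_erase.mpr ⟨hji, hj⟩)

/-- A non-constant function takes every value. -/
theorem exists_zero (h0b : RR.Hyp0 k Fb) (xb : Fb) (hxb : ∀ c : k, xb ≠ algebraMap k Fb c)
    (c : k) : ∃ Q : Place k Fb, 0 < Q.ord (xb - algebraMap k Fb c) := by
  by_contra hcon
  push Not at hcon
  have hne : xb - algebraMap k Fb c ≠ 0 := sub_ne_zero.mpr (hxb c)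
  obtain ⟨d, hd⟩ := h0b.const (xb - algebraMap k Fb c)⁻¹ (fun Q => by
    rw [Place.ord_inv]; have := hcon Q; omega)
  have hd0 : d ≠ 0 := by
    rintro rfl
    rw [map_zero] at hd
    exact inv_ne_zero hne hd
  apply hxb (c + d⁻¹)
  rw [map_add, map_inv₀, ← hd, inv_inv]
  ring

/-- A place is a zero of `xb - c` for at most one constant `c`. -/
theorem eq_of_ord_pos (Q : Place k Fb) (xb : Fb) {c c' : k}
    (h : 0 < Q.ord (xb - algebraMap k Fb c)) (h' : 0 < Q.ord (xb - algebraMap k Fb c')) :
    c = c' := by
  by_contra hne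
  have hm : xb - algebraMap k Fb c ∈ Q.toValuationSubring := Fermat.Agent.S24.Places.mem_of_ord_pos Q h
  have hm' : xb - algebraMap k Fb c' ∈ Q.toValuationSubring := Fermat.Agent.S24.Places.mem_of_ord_pos Q h'
  have h1 : IsLocalRing.residue Q.toValuationSubring ⟨_, hm⟩ = 0 :=
    (RR.residue_eq_zero_iff Q ⟨_, hm⟩).mpr (Or.inr h)
  have h2 : IsLocalRing.residue Q.toValuationSubring ⟨_, hm'⟩ = 0 :=
    (RR.residue_eq_zero_iff Q ⟨_, hm'⟩).mpr (Or.inr h')
  have h3 : IsLocalRing.residue Q.toValuationSubring
      ((⟨_, hm⟩ : Q.toValuationSubring) - ⟨_, hm'⟩) = 0 := by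
    rw [map_sub, h1, h2, sub_zero]
  have h4 := (RR.residue_eq_zero_iff Q _).mp h3
  have hcoe : (((⟨_, hm⟩ : Q.toValuationSubring) - ⟨_, hm'⟩ : Q.toValuationSubring) : Fb) =
      algebraMap k Fb (c' - c) := by
    rw [map_sub]
    show xb - algebraMap k Fb c - (xb - algebraMap k Fb c') = _
    ring
  rw [hcoe] at h4
  rcases h4 with h4 | h4
  · rw [map_eq_zero, sub_eq_zero] at h4
    exact hne h4.symm
  · rw [Fermat.Agent.S24.Places.ord_algebraMap] at h4
    exact lt_irrefl _ h4

/-- One generic point: if `xb - res a` has a simple zero at `Q` and no zero or pole of `x`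
reduces to `Q`, then `x - a` has exactly one zero in the tube of `Q`, and it is simple. -/
theorem exists_point (A : ValuationSubring L) (res : A →+* k) (r : Place L F → Place k Fb)
    (x : F) (xb : Fb) (hdiv : ∀ f : F, f ≠ 0 → ∃ D : Divisor L F, ∀ v, D v = v.ord f)
    (hx : ∀ a : L, x ≠ algebraMap L F a)
    (hstar : ∀ a : A, ∀ D : Divisor L F, (∀ P, D P = P.ord (x - algebraMap L F (a : L))) →
      ∀ Q, Finsupp.mapDomain r D Q = Q.ord (xb - algebraMap k Fb (res a)))
    (Q : Place k Fb) (a : A) (hQ1 : Q.ord (xb - algebraMap k Fb (res a)) = 1)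
    (hQx : ∀ P, r P = Q → 0 ≤ P.ord x) :
    ∃ P, r P = Q ∧ P.ord (x - algebraMap L F (a : L)) = 1 ∧
      ∀ P', r P' = Q → P' ≠ P → P'.ord (x - algebraMap L F (a : L)) = 0 := by
  classical
  have hne : x - algebraMap L F (a : L) ≠ 0 := sub_ne_zero.mpr (hx _)
  obtain ⟨D, hD⟩ := hdiv _ hne
  have hsum := hstar a D hD Q
  rw [hQ1, mapDomain_apply_eq] at hsum
  have hnn : ∀ P ∈ D.support, 0 ≤ (if r P = Q then D P else 0) := by
    intro P _
    split_ifs with hP
    · rw [hD]
      have h1 : x ∈ P.toValuationSubring :=
        (RR.mem_valuationSubring_iff P).mpr (Or.inr (hQx P hP))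
      have h2 : x - algebraMap L F (a : L) ∈ P.toValuationSubring :=
        P.toValuationSubring.sub_mem h1 (P.algebraMap_mem' _)
      exact (Fermat.Agent.S24.Places.mem_iff_ord_nonneg P hne).mp h2
    · exact le_rfl
  obtain ⟨P, hPs, hP1, hPo⟩ := exists_eq_one_of_sum_eq_one _ _ hnn hsum
  have hrP : r P = Q := by
    by_contra hcon
    rw [if_neg hcon] at hP1
    exact zero_ne_one hP1
  rw [if_pos hrP, hD] at hP1
  refine ⟨P, hrP, hP1, fun P' hP' hne' => ?_⟩
  by_cases hs : P' ∈ D.support
  · have := hPo P' hs hne'
    rw [if_pos hP', hD] at this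
    exact this
  · rw [← hD]
    exact Finsupp.notMem_support_iff.mp hs

/-- **Generic points.** For every `n` and all finite sets of places to avoid there are `n`
places `P i` with pairwise distinct reductions and constants `a i` in the valuation ring such
that `x - a i` is a coordinate at `P i`: a simple zero at `P i`, no other zero and no pole of `x`
in the tube of `r (P i)`, and its reduction `xb - res (a i)` has a simple zero at `r (P i)`. -/
theorem exists_points [Infinite k] (A : ValuationSubring L) (res : A →+* k)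
    (hres : Function.Surjective res) (r : Place L F → Place k Fb) (x : F) (xb : Fb)
    (hdiv : ∀ f : F, f ≠ 0 → ∃ D : Divisor L F, ∀ v, D v = v.ord f)
    (h0b : RR.Hyp0 k Fb)
    (hx : ∀ a : L, x ≠ algebraMap L F a) (hxb : ∀ c : k, xb ≠ algebraMap k Fb c)
    (hstar : ∀ a : A, ∀ D : Divisor L F, (∀ P, D P = P.ord (x - algebraMap L F (a : L))) →
      ∀ Q, Finsupp.mapDomain r D Q = Q.ord (xb - algebraMap k Fb (res a)))
    (hsimple : ∃ S : Finset k, ∀ c, c ∉ S → ∀ Q : Place k Fb,
      0 < Q.ord (xb - algebraMap k Fb c) → Q.ord (xb - algebraMap k Fb c) = 1)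
    (T : Finset (Place L F)) (Tb : Finset (Place k Fb)) (n : ℕ) :
    ∃ (P : Fin n → Place L F) (a : Fin n → A),
      Function.Injective (fun i => r (P i)) ∧ (∀ i, r (P i) ∉ Tb) ∧
      (∀ i, ∀ P' ∈ T, r P' ≠ r (P i)) ∧
      (∀ i, (P i).ord (x - algebraMap L F (a i : L)) = 1) ∧
      (∀ i P', r P' = r (P i) → P' ≠ P i → P'.ord (x - algebraMap L F (a i : L)) = 0) ∧
      (∀ i P', r P' = r (P i) → 0 ≤ P'.ord x) ∧
      (∀ i, (r (P i)).ord (xb - algebraMap k Fb (res (a i))) = 1) := by
  classical
  obtain ⟨S, hS⟩ := hsimple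
  have hx0 : x ≠ 0 := fun h => hx 0 (by rw [h, map_zero])
  obtain ⟨Dx, hDx⟩ := hdiv x hx0
  set Tb' : Finset (Place k Fb) := Tb ∪ T.image r ∪ Dx.support.image r with hTb'
  let pick : Place k Fb → Finset k := fun Q =>
    if h : ∃ c, 0 < Q.ord (xb - algebraMap k Fb c) then {h.choose} else ∅
  set bad : Finset k := S ∪ Tb'.biUnion pick with hbad
  have hbadQ : ∀ c, c ∉ bad → ∀ Q ∈ Tb', ¬ 0 < Q.ord (xb - algebraMap k Fb c) := by
    intro c hc Q hQ hpos
    apply hc
    rw [hbad, Finset.mem_union, Finset.mem_biUnion]
    right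
    refine ⟨Q, hQ, ?_⟩
    have hex : ∃ c, 0 < Q.ord (xb - algebraMap k Fb c) := ⟨c, hpos⟩
    simp only [pick, dif_pos hex, Finset.mem_singleton]
    exact eq_of_ord_pos Q xb hpos hex.choose_spec
  have hinf : ((bad : Set k)ᶜ).Infinite := Set.Finite.infinite_compl (Finset.finite_toSet bad)
  let emb := hinf.natEmbedding
  let c : Fin n → k := fun i => ((emb (i : ℕ)) : k)
  have hcbad : ∀ i, c i ∉ bad := fun i => (emb (i : ℕ)).2
  have hcinj : Function.Injective c := by
    intro i j hij
    have : emb (i : ℕ) = emb (j : ℕ) := Subtype.ext hij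
    exact Fin.ext (emb.injective this)
  choose Q hQ using fun i : Fin n => exists_zero h0b xb hxb (c i)
  choose a ha using fun i : Fin n => hres (c i)
  have hQ1 : ∀ i, (Q i).ord (xb - algebraMap k Fb (res (a i))) = 1 := by
    intro i
    rw [ha i]
    exact hS (c i) (fun h => hcbad i (by rw [hbad]; exact Finset.mem_union_left _ h)) (Q i) (hQ i)
  have hQT : ∀ i, Q i ∉ Tb' := fun i h => hbadQ (c i) (hcbad i) (Q i) h (hQ i)
  have hQinj : Function.Injective Q := by
    intro i j hij
    have h1 := hQ i
    rw [hij] at h1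
    exact hcinj (eq_of_ord_pos (Q j) xb h1 (hQ j))
  have hQx : ∀ i P, r P = Q i → 0 ≤ P.ord x := by
    intro i P hP
    have hns : P ∉ Dx.support := by
      intro hs
      apply hQT i
      rw [hTb', ← hP]
      exact Finset.mem_union_right _ (Finset.mem_image_of_mem r hs)
    rw [← hDx, Finsupp.notMem_support_iff.mp hns]
  choose P hP using fun i : Fin n =>
    exists_point A res r x xb hdiv hx hstar (Q i) (a i) (hQ1 i) (hQx i)
  refine ⟨P, a, ?_, ?_, ?_, ?_, ?_, ?_, ?_⟩
  · intro i j hij
    simp only [(hP i).1, (hP j).1] at hij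
    exact hQinj hij
  · intro i h
    rw [(hP i).1] at h
    apply hQT i
    rw [hTb']
    exact Finset.mem_union_left _ (Finset.mem_union_left _ h)
  · intro i P' hP' h
    rw [(hP i).1] at h
    apply hQT i
    rw [hTb', ← h]
    exact Finset.mem_union_left _ (Finset.mem_union_right _ (Finset.mem_image_of_mem r hP'))
  · exact fun i => (hP i).2.1
  · intro i P' h hne
    rw [(hP i).1] at h
    exact (hP i).2.2 P' h hne
  · intro i P' h
    rw [(hP i).1] at h
    exact hQx i P' h
  · intro i
    rw [(hP i).1]
    exact hQ1 i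

end Points

end
end Fermat.Agent.S18.Gen
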