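import Fermat.Statements.S18

/-!
# S18 glue, top level: from the divisor-form core to the frozen statement

`GlueTop.result_of_core` unpacks the `Pic0` quotients: a class `z = [D]` with `m • z = 0`
and `reductionModL z = 0` is a degree-zero divisor `D` with `m • D` principal and
`r_* D` principal (for the place-reduction map `r` chosen by `reductionModL`), and `z = 0`
means `D` principal.
-/

set_option autoImplicit false
set_option synthInstance.maxHeartbeats 400000

open AlgebraicCurve ModularCurve

namespace Fermat.Agent.S18.GlueTop

/-- The divisor-form core statement of S18 for a fixed place-reduction map `r`. -/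
def CoreFor (A : ValuationSubring (AlgebraicClosure ℚ)) (N : ℕ) (m : ℕ)
    (r : Place (AlgebraicClosure ℚ) (modularFunctionFieldBar N) →
      Place (IsLocalRing.ResidueField A)
        (modularFunctionFieldFullC (IsLocalRing.ResidueField A) N)) : Prop :=
  ∀ D : Divisor (AlgebraicClosure ℚ) (modularFunctionFieldBar N),
    Divisor.degree D = 0 → Divisor.IsPrincipal (m • D) →
      Divisor.IsPrincipal (Finsupp.mapDomain r D) → Divisor.IsPrincipal D

/-- Top glue: the frozen S18 conclusion from the divisor-form core. -/
theorem result_of_core (N : ℕ) [NeZero N] (A : ValuationSubring (AlgebraicClosure ℚ))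
    (m : ℕ)
    (core : ∀ r, IsPlaceReductionModL A N r →
      PrincipalGeneratedByIntegral A (IsLocalRing.residue A) N → CoreFor A N m r)
    (h : ModularCurve.ReductionInputsModL A N) (z : ModularCurve.JZero N)
    (hmz : m • z = 0) (hz : ModularCurve.reductionModL A N z = 0) :
    z = 0 := by
  obtain ⟨D, rfl⟩ := Pic0.mk_surjective z
  have hcore := core (placeReductionModL h) (isPlaceReductionModL_placeReductionModL h)
    h.choose_spec.2 (D : Divisor (AlgebraicClosure ℚ) (modularFunctionFieldBar N))
    (Divisor.mem_degZero.mp D.2)
  -- `m • [D] = 0` means `m • D` principal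
  have h1 : Divisor.IsPrincipal
      (m • (D : Divisor (AlgebraicClosure ℚ) (modularFunctionFieldBar N))) := by
    have h0 : ((m • D : Divisor.degZero (K := AlgebraicClosure ℚ)
        (F := modularFunctionFieldBar N)) : Pic0 (AlgebraicClosure ℚ)
          (modularFunctionFieldBar N)) = 0 := by
      rw [QuotientAddGroup.mk_nsmul]
      exact hmz
    rw [QuotientAddGroup.eq_zero_iff, AddSubgroup.mem_addSubgroupOf] at h0
    have h0' : m • (D : Divisor (AlgebraicClosure ℚ) (modularFunctionFieldBar N)) ∈
        Divisor.principal (K := AlgebraicClosure ℚ) (F := modularFunctionFieldBar N) := by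
      simpa using h0
    exact h0'
  -- `reductionModL [D] = 0` means `r_* D` principal
  have h2 : Divisor.IsPrincipal (Finsupp.mapDomain (placeReductionModL h)
      (D : Divisor (AlgebraicClosure ℚ) (modularFunctionFieldBar N))) := by
    rw [reductionModL_mk h D] at hz
    have h0 := (QuotientAddGroup.eq_zero_iff _).mp hz
    rw [AddSubgroup.mem_addSubgroupOf, coe_reductionDegZeroAlong] at h0
    exact h0
  have h3 := hcore h1 h2
  exact (QuotientAddGroup.eq_zero_iff _).mpr
    (by rw [AddSubgroup.mem_addSubgroupOf]; exact h3)

end Fermat.Agent.S18.GlueTop
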