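/-
S18, chain CL, piece CL1 (explicit route): the four integral `q`-series identities behind the
Hauptmoduln of `X₀(4)` (odd residue characteristic) and `X₀(9)` (residue characteristic two).

With `E = E₄ = 1 + 240 ∑ σ₃(n) qⁿ`, `D = Δ = q ∏ (1 - qⁿ)²⁴` and `f⟨d⟩ = f(q^d)`, the four series
`P1 .. P4 : ℤ⟦X⟧` below are the differences of the two sides of

* `E³ · D · D⟨2⟩ = (D + 256 D⟨2⟩)³`,
* `E⟨2⟩³ · D · D⟨2⟩ = (D + 16 D⟨2⟩)³`                                     (weight 36 on `Γ₀(2)`),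
* `D · D⟨3⟩ · (E³ - 756 D - 19131876 D⟨3⟩)² = (D² + 196830 D D⟨3⟩ + 387420489 D⟨3⟩²)²`,
* `D · D⟨3⟩ · (E⟨3⟩³ - 36 D - 756 D⟨3⟩)² = (D² + 270 D D⟨3⟩ + 729 D⟨3⟩²)²`   (weight 48 on `Γ₀(3)`).

This file only fixes the literal terms, so that the three sub-pieces (numerics `X ^ m ∣ Pi`,
Sturm `X ^ m ∣ Pi → Pi = 0`, algebra `Pi = 0 → Hauptmodul`) can be written independently.
-/
import Mathlib
import Fermat.Prelude.Def_ModularCurve_X0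

set_option autoImplicit false

noncomputable section

namespace Fermat.Agent.S18.Haupt

open PowerSeries ModularCurve

/-- `Δ = q ∏ (1 - qⁿ)²⁴` as an integral power series. -/
def Dl : PowerSeries ℤ := X * dedekindEtaUnit

/-- `f ↦ f(q^d)` on integral power series. -/
def dil (d : ℕ) [NeZero d] (f : PowerSeries ℤ) : PowerSeries ℤ := expand d (NeZero.ne d) f

/-- `E₄³ Δ Δ⟨2⟩ - (Δ + 256 Δ⟨2⟩)³`. -/
def P1 : PowerSeries ℤ :=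
  eisenstein4 ^ 3 * Dl * dil 2 Dl - (Dl + 256 * dil 2 Dl) ^ 3

/-- `E₄⟨2⟩³ Δ Δ⟨2⟩ - (Δ + 16 Δ⟨2⟩)³`. -/
def P2 : PowerSeries ℤ :=
  dil 2 eisenstein4 ^ 3 * Dl * dil 2 Dl - (Dl + 16 * dil 2 Dl) ^ 3

/-- `Δ Δ⟨3⟩ (E₄³ - 756 Δ - 19131876 Δ⟨3⟩)² - (Δ² + 196830 Δ Δ⟨3⟩ + 387420489 Δ⟨3⟩²)²`. -/
def P3 : PowerSeries ℤ :=
  Dl * dil 3 Dl * (eisenstein4 ^ 3 - 756 * Dl - 19131876 * dil 3 Dl) ^ 2
    - (Dl ^ 2 + 196830 * Dl * dil 3 Dl + 387420489 * dil 3 Dl ^ 2) ^ 2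

/-- `Δ Δ⟨3⟩ (E₄⟨3⟩³ - 36 Δ - 756 Δ⟨3⟩)² - (Δ² + 270 Δ Δ⟨3⟩ + 729 Δ⟨3⟩²)²`. -/
def P4 : PowerSeries ℤ :=
  Dl * dil 3 Dl * (dil 3 eisenstein4 ^ 3 - 36 * Dl - 756 * dil 3 Dl) ^ 2
    - (Dl ^ 2 + 270 * Dl * dil 3 Dl + 729 * dil 3 Dl ^ 2) ^ 2

theorem dil_apply (d : ℕ) [NeZero d] (f : PowerSeries ℤ) :
    dil d f = expand d (NeZero.ne d) f := rfl

theorem coeff_dil (d : ℕ) [NeZero d] (f : PowerSeries ℤ) (n : ℕ) :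
    coeff n (dil d f) = if d ∣ n then coeff (n / d) f else 0 := by
  rw [dil, coeff_expand]

end Fermat.Agent.S18.Haupt
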