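/-
S18, chain CL, piece CL1 (explicit route), base file: integral power series as Laurent series over
a field, orders of `Δ(q^d)`, and the degree lemma that turns a rational parametrisation of the
generators into an equality of fields.
-/
import Mathlib
import Fermat.Agent.S18.HauptDefs
import Fermat.Agent.S28.EtaNormL
import Fermat.Prelude.Def_ModularCurve_X0ModL

set_option autoImplicit false

noncomputable section

namespace Fermat.Agent.S18.Haupt

open ModularCurve IntermediateField

universe u

section Series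

variable (k : Type*) [Field k]

/-- Integral power series as Laurent series over `k`. -/
def toL : PowerSeries ℤ →+* LaurentSeries k :=
  (HahnSeries.ofPowerSeries ℤ k).comp (PowerSeries.map (Int.castRingHom k))

theorem toL_apply (f : PowerSeries ℤ) :
    toL k f = HahnSeries.ofPowerSeries ℤ k (f.map (Int.castRingHom k)) := rfl

theorem toL_dil (d : ℕ) [NeZero d] (f : PowerSeries ℤ) :
    toL k (dil d f) = qExpand k d (toL k f) := by
  rw [toL_apply, toL_apply, dil, PowerSeries.map_expand, S28.EtaNormL.ofPowerSeries_expand]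

theorem toL_X : toL k PowerSeries.X = HahnSeries.single (1 : ℤ) (1 : k) := by
  rw [toL_apply, PowerSeries.map_X, HahnSeries.ofPowerSeries_X]

/-- `j Δ = E₄³`. -/
theorem jq_mul_toL_Dl : jqModC k * toL k Dl = toL k eisenstein4 ^ 3 := by
  have h := S28.EtaNormL.jqModC_mul_DelL k
  rw [S28.EtaNormL.DelL_def, S28.EtaNorm.delR_eq_map_dedekindEtaUnit] at h
  rw [toL_apply, toL_apply, Dl, map_mul, PowerSeries.map_X, h, map_pow, map_pow]

theorem coeff_toL_nat (f : PowerSeries ℤ) (n : ℕ) :
    (toL k f).coeff (n : ℤ) = ((PowerSeries.coeff n f : ℤ) : k) := by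
  rw [toL_apply, HahnSeries.ofPowerSeries_apply_coeff, PowerSeries.coeff_map]
  rfl

theorem coeff_toL_neg (f : PowerSeries ℤ) {m : ℤ} (hm : m < 0) : (toL k f).coeff m = 0 := by
  rw [toL_apply]
  exact ModularCurve.ofPowerSeries_coeff_of_neg _ hm

variable {k}

theorem order_eq_of_coeff' {x : LaurentSeries k} {n : ℤ} (h1 : x.coeff n ≠ 0)
    (h2 : ∀ m < n, x.coeff m = 0) : x.order = n :=
  le_antisymm (HahnSeries.order_le_of_coeff_ne_zero h1)
    ((HahnSeries.le_order_iff_forall (HahnSeries.ne_zero_of_coeff_ne_zero h1)).mpr h2)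

variable (k)

/-- A power series with constant coefficient `1` has order `0` as a Laurent series. -/
theorem order_toL_of_constantCoeff (u : PowerSeries ℤ) (hu : PowerSeries.constantCoeff u = 1) :
    (toL k u).order = 0 := by
  refine order_eq_of_coeff' ?_ fun m hm => coeff_toL_neg k u hm
  have := coeff_toL_nat k u 0
  rw [Nat.cast_zero] at this
  rw [this, PowerSeries.coeff_zero_eq_constantCoeff_apply, hu]
  simp

theorem toL_ne_zero_of_constantCoeff (u : PowerSeries ℤ) (hu : PowerSeries.constantCoeff u = 1) :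
    toL k u ≠ 0 := by
  apply HahnSeries.ne_zero_of_coeff_ne_zero (g := (0 : ℤ))
  have := coeff_toL_nat k u 0
  rw [Nat.cast_zero] at this
  rw [this, PowerSeries.coeff_zero_eq_constantCoeff_apply, hu]
  simp

variable {k}

theorem qExpand_ne_zero (d : ℕ) [NeZero d] {x : LaurentSeries k} (hx : x ≠ 0) :
    qExpand k d x ≠ 0 := fun h =>
  hx (qExpand_injective (R := k) d (by rw [h, map_zero]))

theorem order_qExpand (d : ℕ) [NeZero d] (x : LaurentSeries k) :
    (qExpand k d x).order = (d : ℤ) * x.order := by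
  rcases eq_or_ne x 0 with rfl | hx
  · simp
  have hd : (0 : ℤ) < d := by exact_mod_cast Nat.pos_of_ne_zero (NeZero.ne d)
  refine order_eq_of_coeff' ?_ fun m hm => ?_
  · rw [qExpand_coeff_mul, ← HahnSeries.leadingCoeff_eq]
    exact HahnSeries.leadingCoeff_ne_zero.mpr hx
  · by_cases hdm : (d : ℤ) ∣ m
    · obtain ⟨j, rfl⟩ := hdm
      rw [qExpand_coeff_mul]
      apply HahnSeries.coeff_eq_zero_of_lt_order
      exact lt_of_mul_lt_mul_left hm hd.le
    · exact qExpand_coeff_of_not_dvd d _ hdm

theorem order_inv' (x : LaurentSeries k) : x⁻¹.order = -x.order := by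
  rcases eq_or_ne x 0 with rfl | hx
  · simp
  have h := HahnSeries.order_mul hx (inv_ne_zero hx)
  rw [mul_inv_cancel₀ hx, HahnSeries.order_one] at h
  omega

theorem order_div' {x y : LaurentSeries k} (hx : x ≠ 0) (hy : y ≠ 0) :
    (x / y).order = x.order - y.order := by
  rw [div_eq_mul_inv, HahnSeries.order_mul hx (inv_ne_zero hy), order_inv']
  ring

theorem order_natCast (n : ℕ) : ((n : LaurentSeries k)).order = 0 := by
  have : (n : LaurentSeries k) = HahnSeries.C (n : k) := by
    rw [map_natCast]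
  rw [this, HahnSeries.order_C]

theorem order_ofNat (n : ℕ) [n.AtLeastTwo] : ((OfNat.ofNat n : LaurentSeries k)).order = 0 := by
  rw [← Nat.cast_ofNat (R := LaurentSeries k), order_natCast]

/-- A Laurent series of nonzero order is not a natural number. -/
theorem ne_natCast_of_order {x : LaurentSeries k} (hx : x.order ≠ 0) (n : ℕ) :
    x ≠ (n : LaurentSeries k) := fun h => hx (by rw [h, order_natCast])

theorem ne_neg_natCast_of_order {x : LaurentSeries k} (hx : x.order ≠ 0) (n : ℕ) :
    x + (n : LaurentSeries k) ≠ 0 := fun h => hx (by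
  have : x = -(n : LaurentSeries k) := eq_neg_of_add_eq_zero_left h
  rw [this, HahnSeries.order_neg, order_natCast])

variable (k)

/-- `Δ` as a Laurent series over `k`. -/
def DelK : LaurentSeries k := toL k Dl

theorem DelK_ne_zero : DelK k ≠ 0 := by
  rw [DelK, Dl, map_mul, toL_X]
  refine mul_ne_zero ?_ (toL_ne_zero_of_constantCoeff k _ constantCoeff_dedekindEtaUnit)
  exact HahnSeries.single_ne_zero one_ne_zero

theorem order_DelK : (DelK k).order = 1 := by
  rw [DelK, Dl, map_mul, toL_X, HahnSeries.order_mul (HahnSeries.single_ne_zero one_ne_zero)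
    (toL_ne_zero_of_constantCoeff k _ constantCoeff_dedekindEtaUnit),
    order_toL_of_constantCoeff k _ constantCoeff_dedekindEtaUnit,
    HahnSeries.order_single one_ne_zero]
  rfl

end Series

/-! ### The degree lemma -/

section Degree

variable {K : Type*} {E : Type u} [Field K] [Field E] [Algebra K E]

/-- If `F ≤ K(t)`, `J ∈ F`, `t` is a root of a monic polynomial of degree `n` over `K(J)` and
`[F : K(J)] = n`, then `F = K(t)`. -/
theorem adjoin_eq_of_relfinrank (F : IntermediateField K E) (J t : E) (hJF : J ∈ F)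
    (hF : F ≤ K⟮t⟯) (n : ℕ) (hdeg : relfinrank K⟮J⟯ F = n)
    (p : Polynomial ↥(K⟮J⟯)) (hp : p.Monic) (hpn : p.natDegree = n)
    (hroot : Polynomial.aeval t p = 0) : K⟮t⟯ = F := by
  have hAF : K⟮J⟯ ≤ F := adjoin_simple_le_iff.mpr hJF
  have hint : IsIntegral ↥(K⟮J⟯) t := ⟨p, hp, hroot⟩
  have : FiniteDimensional ↥(K⟮J⟯) ↥((K⟮J⟯)⟮t⟯) := adjoin.finiteDimensional hint
  have hfin : Module.finrank ↥(K⟮J⟯) ↥((K⟮J⟯)⟮t⟯) ≤ n := by
    rw [adjoin.finrank hint, ← hpn]
    exact Polynomial.natDegree_le_natDegree (minpoly.min _ t hp hroot)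
  have hle : extendScalars hAF ≤ (K⟮J⟯)⟮t⟯ := by
    intro x hx
    have hx' : x ∈ K⟮t⟯ := hF hx
    have hsub : K⟮t⟯ ≤ ((K⟮J⟯)⟮t⟯).restrictScalars K := by
      rw [adjoin_simple_le_iff]
      exact mem_adjoin_simple_self _ t
    exact hsub hx'
  have hFfin : Module.finrank ↥(K⟮J⟯) ↥(extendScalars hAF) = n := by
    rw [← relfinrank_eq_finrank_of_le hAF, hdeg]
  have heq : extendScalars hAF = (K⟮J⟯)⟮t⟯ :=
    eq_of_le_of_finrank_le hle (by rw [hFfin]; exact hfin)
  apply le_antisymm
  · intro x hx
    have hsub : K⟮t⟯ ≤ ((K⟮J⟯)⟮t⟯).restrictScalars K := by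
      rw [adjoin_simple_le_iff]
      exact mem_adjoin_simple_self _ t
    have h2 : x ∈ (K⟮J⟯)⟮t⟯ := hsub hx
    rw [← heq] at h2
    exact h2
  · exact hF

end Degree

end Fermat.Agent.S18.Haupt
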