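/-
S18, chain CL, piece CL1 (explicit route), level 4: from the two level-2 identities `P1 = 0`,
`P2 = 0` of `HauptDefs.lean`, the function field `k(j(q), j(q²), j(q⁴))` over a field `k` of
characteristic `ℓ ≠ 2` is `k(t)` for an explicit `t = q⁻¹ + …` with

  `j · t⁴ · (t + 16) = (t² + 256 t + 4096)³`.

With `h = Δ(q)/Δ(q²)` and `h' = h(q²)` one has `j h² = (h + 256)³`, `j(q²) h = (h + 16)³`, hence
`(h + 16)³ h'² = h (h' + 256)³`, which factors as `(h h' - 4096) · Q = 0`; on the component `Q = 0`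
the function `t = (h' - 16 h)/(h + 16)` satisfies `h (t + 16) = t²`, `h' = t (t + 16)`.  All three
generators are then rational in `t`, and `[k(t) : k(j)] ≤ 6 = ψ(4)` forces equality.
-/
import Fermat.Agent.S18.HauptBase
import Fermat.Agent.S18.LiftDeg

set_option autoImplicit false

noncomputable section

namespace Fermat.Agent.S18.Haupt

open ModularCurve IntermediateField

universe u

/-! ### Pure algebra -/

section Abstract4

variable {E : Type*} [Field E]

theorem alg4 {J J2 h h' : E}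
    (R1 : J * h ^ 2 = (h + 256) ^ 3) (R2 : J2 * h = (h + 16) ^ 3)
    (R3 : J2 * h' ^ 2 = (h' + 256) ^ 3) (N1 : h * h' ≠ 4096) (N2 : h + 16 ≠ 0) :
    h * ((h' - 16 * h) / (h + 16) + 16) = ((h' - 16 * h) / (h + 16)) ^ 2 ∧
    h' = (h' - 16 * h) / (h + 16) * ((h' - 16 * h) / (h + 16) + 16) ∧
    J * ((h' - 16 * h) / (h + 16)) ^ 4 * ((h' - 16 * h) / (h + 16) + 16) =
      (((h' - 16 * h) / (h + 16)) ^ 2 + 256 * ((h' - 16 * h) / (h + 16)) + 4096) ^ 3 := by
  have hQ0 : (h * h' - 4096) * (h' ^ 2 - (h ^ 2 + 48 * h) * h' - 4096 * h) = 0 := by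
    linear_combination h' ^ 2 * R2 - h * R3
  have hQ : h' ^ 2 - (h ^ 2 + 48 * h) * h' - 4096 * h = 0 := by
    rcases mul_eq_zero.mp hQ0 with h0 | h0
    · exact absurd (sub_eq_zero.mp h0) N1
    · exact h0
  set t := (h' - 16 * h) / (h + 16) with ht
  have A : h * (t + 16) = t ^ 2 := by
    rw [ht]
    field_simp
    linear_combination -hQ
  have B : h' = t * (t + 16) := by
    rw [ht]
    field_simp
    linear_combination -hQ
  refine ⟨A, B, ?_⟩
  linear_combination (-J * (t + 16) * (t ^ 2 + h * (t + 16))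
    + ((h * (t + 16) + 256 * (t + 16)) ^ 2 + (h * (t + 16) + 256 * (t + 16)) * (t ^ 2 + 256 * (t + 16))
      + (t ^ 2 + 256 * (t + 16)) ^ 2)) * A + (t + 16) ^ 3 * R1

end Abstract4

/-! ### The series -/

section Concrete4

variable (k : Type u) [Field k]

/-- `h = Δ(q) / Δ(q²)`. -/
def hTwo : LaurentSeries k := DelK k / qExpand k 2 (DelK k)

theorem hTwo_ne_zero : hTwo k ≠ 0 :=
  div_ne_zero (DelK_ne_zero k) (qExpand_ne_zero 2 (DelK_ne_zero k))

theorem order_hTwo : (hTwo k).order = -1 := by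
  rw [hTwo, order_div' (DelK_ne_zero k) (qExpand_ne_zero 2 (DelK_ne_zero k)), order_qExpand,
    order_DelK]
  norm_num

/-- `j h² = (h + 256)³`. -/
theorem rel_one (h1 : P1 = 0) : jqModC k * hTwo k ^ 2 = (hTwo k + 256) ^ 3 := by
  have e := congrArg (toL k) h1
  rw [P1, map_sub, map_mul, map_mul, map_pow, map_pow, map_add, map_mul, toL_dil, map_ofNat,
    map_zero] at e
  have hj := jq_mul_toL_Dl k
  have h2 : qExpand k 2 (DelK k) ≠ 0 := qExpand_ne_zero 2 (DelK_ne_zero k)
  rw [hTwo]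
  unfold DelK at h2 ⊢
  field_simp
  linear_combination toL k Dl * qExpand k 2 (toL k Dl) * hj + e

/-- `j(q²) h = (h + 16)³`. -/
theorem rel_two (h2 : P2 = 0) : qExpand k 2 (jqModC k) * hTwo k = (hTwo k + 16) ^ 3 := by
  have e := congrArg (toL k) h2
  rw [P2, map_sub, map_mul, map_mul, map_pow, map_pow, map_add, map_mul, toL_dil, toL_dil,
    map_ofNat, map_zero] at e
  have hj := congrArg (qExpand k 2) (jq_mul_toL_Dl k)
  rw [map_mul, map_pow] at hj
  have h2 : qExpand k 2 (DelK k) ≠ 0 := qExpand_ne_zero 2 (DelK_ne_zero k)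
  rw [hTwo]
  unfold DelK at h2 ⊢
  field_simp
  linear_combination toL k Dl * qExpand k 2 (toL k Dl) * hj + e

/-- The Hauptmodul of level 4: `t = (h(q²) - 16 h)/(h + 16) = q⁻¹ - 8 + 20 q - …`. -/
def tFour : LaurentSeries k :=
  (qExpand k 2 (hTwo k) - 16 * hTwo k) / (hTwo k + 16)

theorem hTwo_add_ne_zero : hTwo k + 16 ≠ 0 := by
  have := ne_neg_natCast_of_order (x := hTwo k) (by rw [order_hTwo]; norm_num) 16
  simpa using this

theorem hTwo_mul_ne : hTwo k * qExpand k 2 (hTwo k) ≠ 4096 := by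
  have h0 : (hTwo k * qExpand k 2 (hTwo k)).order ≠ 0 := by
    rw [HahnSeries.order_mul (hTwo_ne_zero k) (qExpand_ne_zero 2 (hTwo_ne_zero k)), order_qExpand,
      order_hTwo]
    norm_num
  have := ne_natCast_of_order h0 4096
  simpa using this

variable {k}

theorem four_relations (h1 : P1 = 0) (h2 : P2 = 0) :
    hTwo k * (tFour k + 16) = tFour k ^ 2 ∧
    qExpand k 2 (hTwo k) = tFour k * (tFour k + 16) ∧
    jqModC k * tFour k ^ 4 * (tFour k + 16) = (tFour k ^ 2 + 256 * tFour k + 4096) ^ 3 := by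
  have R3 := congrArg (qExpand k 2) (rel_one k h1)
  rw [map_mul, map_pow, map_pow, map_add, map_ofNat] at R3
  exact alg4 (rel_one k h1) (rel_two k h2) R3 (hTwo_mul_ne k) (hTwo_add_ne_zero k)

theorem tFour_ne_zero (h1 : P1 = 0) (h2 : P2 = 0) : tFour k ≠ 0 := by
  obtain ⟨-, B, -⟩ := four_relations (k := k) h1 h2
  intro h0
  rw [h0, zero_mul] at B
  exact qExpand_ne_zero 2 (hTwo_ne_zero k) B

theorem tFour_add_ne_zero (h1 : P1 = 0) (h2 : P2 = 0) : tFour k + 16 ≠ 0 := by
  obtain ⟨-, B, -⟩ := four_relations (k := k) h1 h2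
  intro h0
  rw [h0, mul_zero] at B
  exact qExpand_ne_zero 2 (hTwo_ne_zero k) B

theorem order_tFour (h1 : P1 = 0) (h2 : P2 = 0) : (tFour k).order = -1 := by
  obtain ⟨A, B, -⟩ := four_relations (k := k) h1 h2
  have ht := tFour_ne_zero (k := k) h1 h2
  have ht' := tFour_add_ne_zero (k := k) h1 h2
  have oA := congrArg HahnSeries.order A
  have oB := congrArg HahnSeries.order B
  rw [HahnSeries.order_mul (hTwo_ne_zero k) ht', order_hTwo, pow_two,
    HahnSeries.order_mul ht ht] at oA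
  rw [order_qExpand, order_hTwo, HahnSeries.order_mul ht ht'] at oB
  push_cast at oB
  omega

theorem dedekindPsi_four : dedekindPsi 4 = 6 := by
  rw [dedekindPsi]
  decide +kernel

/-- The three generators of the level-4 field are rational functions of `t`. -/
theorem fullC_four_le (h1 : P1 = 0) (h2 : P2 = 0) :
    modularFunctionFieldFullC k 4 ≤ k⟮tFour k⟯ := by
  obtain ⟨A, B, C⟩ := four_relations (k := k) h1 h2
  have ht := tFour_ne_zero (k := k) h1 h2
  have ht' := tFour_add_ne_zero (k := k) h1 h2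
  set t := tFour k with htdef
  have htm : t ∈ k⟮t⟯ := mem_adjoin_simple_self k t
  have h16 : t + 16 ∈ k⟮t⟯ := add_mem htm (ofNat_mem _ 16)
  -- `h`, `h'`
  have hh : hTwo k ∈ k⟮t⟯ := by
    have : hTwo k = t ^ 2 / (t + 16) := by
      rw [eq_div_iff ht']
      exact A
    rw [this]
    exact div_mem (pow_mem htm 2) h16
  have hh' : qExpand k 2 (hTwo k) ∈ k⟮t⟯ := by
    rw [B]
    exact mul_mem htm h16
  -- `J`, `J₂`, `J₄`
  have hJ : jqModC k ∈ k⟮t⟯ := by
    have : jqModC k = (t ^ 2 + 256 * t + 4096) ^ 3 / (t ^ 4 * (t + 16)) := by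
      rw [eq_div_iff (mul_ne_zero (pow_ne_zero 4 ht) ht'), ← mul_assoc]
      exact C
    rw [this]
    exact div_mem (pow_mem (add_mem (add_mem (pow_mem htm 2) (mul_mem (ofNat_mem _ 256) htm))
      (ofNat_mem _ 4096)) 3) (mul_mem (pow_mem htm 4) h16)
  have hJ2 : qExpand k 2 (jqModC k) ∈ k⟮t⟯ := by
    have : qExpand k 2 (jqModC k) = (hTwo k + 16) ^ 3 / hTwo k := by
      rw [eq_div_iff (hTwo_ne_zero k)]
      exact rel_two k h2
    rw [this]
    exact div_mem (pow_mem (add_mem hh (ofNat_mem _ 16)) 3) hh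
  have hJ4 : qExpand k 4 (jqModC k) ∈ k⟮t⟯ := by
    have e := congrArg (qExpand k 2) (rel_two k h2)
    rw [map_mul, map_pow, map_add, map_ofNat, qExpand_qExpand] at e
    have e4 : qExpand k (2 * 2) (jqModC k) = qExpand k 4 (jqModC k) :=
      qExpand_congr (by norm_num) _
    rw [e4] at e
    have : qExpand k 4 (jqModC k) = (qExpand k 2 (hTwo k) + 16) ^ 3 / qExpand k 2 (hTwo k) := by
      rw [eq_div_iff (qExpand_ne_zero 2 (hTwo_ne_zero k))]
      exact e
    rw [this]
    exact div_mem (pow_mem (add_mem hh' (ofNat_mem _ 16)) 3) hh'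
  rw [modularFunctionFieldFullC, adjoin_le_iff]
  rintro x ⟨d, hd, hd4, rfl⟩
  have hd' : d = 1 ∨ d = 2 ∨ d = 4 := by
    have hle : d ≤ 4 := Nat.le_of_dvd (by norm_num) hd4
    have h0 : d ≠ 0 := NeZero.ne d
    interval_cases d
    · exact absurd rfl h0
    · exact Or.inl rfl
    · exact Or.inr (Or.inl rfl)
    · exact absurd hd4 (by decide)
    · exact Or.inr (Or.inr rfl)
  rcases hd' with rfl | rfl | rfl
  · rw [qExpand_one_apply]
    exact hJ
  · exact hJ2
  · exact hJ4

/-- **Level 4.** Over a field `k` of characteristic `ℓ ≠ 2`, the function field of `X₀(4)` is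
`k(t)` for a `t` with a simple pole at `q = 0` and `j t⁴ (t + 16) = (t² + 256 t + 4096)³`. -/
theorem exists_generator_four (k : Type u) [Field k] (ℓ : ℕ) [Fact ℓ.Prime] [CharP k ℓ]
    (hℓ : ℓ ≠ 2) (h1 : P1 = 0) (h2 : P2 = 0) :
    ∃ y : LaurentSeries k, y.order < 0 ∧
      IntermediateField.adjoin k {y} = modularFunctionFieldFullC k 4 ∧
      jqModC k * y ^ 4 * (y + 16) = (y ^ 2 + 256 * y + 4096) ^ 3 := by
  obtain ⟨A, B, C⟩ := four_relations (k := k) h1 h2
  refine ⟨tFour k, by rw [order_tFour h1 h2]; norm_num, ?_, C⟩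
  have hℓ4 : ¬ ℓ ∣ 4 := by
    intro hd
    have h2' : ℓ ∣ 2 := by
      have : ℓ ∣ 2 ^ 2 := by simpa using hd
      exact (Fact.out : ℓ.Prime).dvd_of_dvd_pow this
    exact hℓ ((Nat.prime_dvd_prime_iff_eq Fact.out Nat.prime_two).mp h2')
  have hdeg := LiftD.relfinrank_fullC k ℓ 4 hℓ4
  rw [dedekindPsi_four] at hdeg
  have hJF : jqModC k ∈ modularFunctionFieldFullC k 4 := by
    have := subset_adjoin k (divisorExpansionsC k 4) (mem_divisorExpansionsC k 4 (d := 1) (by norm_num))
    rwa [qExpand_one_apply] at this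
  -- the polynomial `(X² + 256 X + 4096)³ - J X⁴ (X + 16)` over `k(J)`
  let Jg : ↥(k⟮jqModC k⟯) := ⟨jqModC k, mem_adjoin_simple_self k _⟩
  let p : Polynomial ↥(k⟮jqModC k⟯) :=
    (Polynomial.X ^ 2 + 256 * Polynomial.X + 4096) ^ 3
      - Polynomial.C Jg * (Polynomial.X ^ 4 * (Polynomial.X + 16))
  have hp_root : Polynomial.aeval (tFour k) p = 0 := by
    simp only [p, map_sub, map_mul, map_pow, map_add, Polynomial.aeval_X, Polynomial.aeval_C,
      map_ofNat]
    have : algebraMap ↥(k⟮jqModC k⟯) (LaurentSeries k) Jg = jqModC k := rfl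
    rw [this]
    linear_combination -C
  have hp_monic : p.Monic := by
    simp only [p]
    monicity!
  have hp_deg : p.natDegree = 6 := by
    simp only [p]
    compute_degree!
  exact adjoin_eq_of_relfinrank (modularFunctionFieldFullC k 4) (jqModC k) (tFour k) hJF
    (fullC_four_le h1 h2) 6 hdeg p hp_monic hp_deg hp_root

end Concrete4

end Fermat.Agent.S18.Haupt
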