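/-
S18, chain CL, piece CL1 (explicit route), level 9: from the two level-3 identities `P3 = 0`,
`P4 = 0` of `HauptDefs.lean`, the function field `k(j(q), j(q³), j(q⁹))` over a field `k` of
characteristic `2` is `k(t)` for an explicit `t = q⁻¹ + …` with

  `j · t⁹ · (t² + 9 t + 27) = (t + 9)³ (t³ + 243 t² + 2187 t + 6561)³`.

With `a = η¹²`, `b = q η(q³)¹²` (so `Δ = q a²`, `Δ(q³) = q b²`), `h = a / b` and `h' = h(q³)` one has
`j h³ = (h + 27)(h + 243)³`, `j(q³) h = (h + 27)(h + 3)³`, hence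
`(h + 27)(h + 3)³ h'³ = h (h' + 27)(h' + 243)³`, which factors as `(h h' - 729) · Q = 0`; on the
component `Q = 0` the function `t = (h² h' + 18 h h' + 27 h' + 1458 h)/((h + 9) h' - 243 h + 729)`
satisfies `h (t² + 9 t + 27) = t³`, `h' = t (t² + 9 t + 27)`.
-/
import Fermat.Agent.S18.HauptBase
import Fermat.Agent.S18.LiftDeg

set_option autoImplicit false

noncomputable section

namespace Fermat.Agent.S18.Haupt

open ModularCurve IntermediateField

universe u

/-! ### Pure algebra -/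

section Abstract9

variable {E : Type*} [Field E]

theorem alg9 {J J3 h h' t : E}
    (R1 : J * h ^ 3 = (h + 27) * (h + 243) ^ 3) (R2 : J3 * h = (h + 27) * (h + 3) ^ 3)
    (R3 : J3 * h' ^ 3 = (h' + 27) * (h' + 243) ^ 3) (N1 : h * h' ≠ 729)
    (N2 : (h + 9) * h' - 243 * h + 729 ≠ 0)
    (ht : t = (h ^ 2 * h' + 18 * h * h' + 27 * h' + 1458 * h) / ((h + 9) * h' - 243 * h + 729)) :
    h * (t ^ 2 + 9 * t + 27) = t ^ 3 ∧ h' = t * (t ^ 2 + 9 * t + 27) ∧
    J * t ^ 9 * (t ^ 2 + 9 * t + 27) =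
      (t + 9) ^ 3 * (t ^ 3 + 243 * t ^ 2 + 2187 * t + 6561) ^ 3 := by
  have hQ0 : (h * h' - 729) * (h ^ 3 * h' ^ 2 + 36 * h ^ 2 * h' ^ 2 + 729 * h ^ 2 * h'
      + 270 * h * h' ^ 2 + 26244 * h * h' + 531441 * h - h' ^ 3) = 0 := by
    linear_combination -h' ^ 3 * R2 + h * R3
  have hQ : h ^ 3 * h' ^ 2 + 36 * h ^ 2 * h' ^ 2 + 729 * h ^ 2 * h'
      + 270 * h * h' ^ 2 + 26244 * h * h' + 531441 * h - h' ^ 3 = 0 := by
    rcases mul_eq_zero.mp hQ0 with h0 | h0
    · exact absurd (sub_eq_zero.mp h0) N1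
    · exact h0
  have htd : t * ((h + 9) * h' - 243 * h + 729) = (h ^ 2 * h' + 18 * h * h' + 27 * h' + 1458 * h) := by
    rw [ht, div_mul_cancel₀ _ N2]
  have A : h * (t ^ 2 + 9 * t + 27) = t ^ 3 := by
    apply mul_right_cancel₀ (pow_ne_zero 3 N2)
    linear_combination (-243 * h ^ 3 - 5103 * h ^ 2 - 6561 * h + 19683) * hQ
      + (h * ((h + 9) * h' - 243 * h + 729) * (t * ((h + 9) * h' - 243 * h + 729) + (h ^ 2 * h' + 18 * h * h' + 27 * h' + 1458 * h) + 9 * ((h + 9) * h' - 243 * h + 729))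
        - ((t * ((h + 9) * h' - 243 * h + 729)) ^ 2 + (t * ((h + 9) * h' - 243 * h + 729)) * (h ^ 2 * h' + 18 * h * h' + 27 * h' + 1458 * h) + (h ^ 2 * h' + 18 * h * h' + 27 * h' + 1458 * h) ^ 2)) * htd
  have B : h' = t * (t ^ 2 + 9 * t + 27) := by
    apply mul_right_cancel₀ (pow_ne_zero 3 N2)
    linear_combination
      (-h ^ 3 * h' - 27 * h ^ 2 * h' - 1458 * h ^ 2 - 243 * h * h' - 729 * h' - 39366) * hQ
      - ((t * ((h + 9) * h' - 243 * h + 729)) ^ 2 + (t * ((h + 9) * h' - 243 * h + 729)) * (h ^ 2 * h' + 18 * h * h' + 27 * h' + 1458 * h) + (h ^ 2 * h' + 18 * h * h' + 27 * h' + 1458 * h) ^ 2 + 9 * ((h + 9) * h' - 243 * h + 729) * (t * ((h + 9) * h' - 243 * h + 729) + (h ^ 2 * h' + 18 * h * h' + 27 * h' + 1458 * h))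
        + 27 * ((h + 9) * h' - 243 * h + 729) ^ 2) * htd
  refine ⟨A, B, ?_⟩
  have e1 : J * (h * (t ^ 2 + 9 * t + 27)) ^ 3 * (t ^ 2 + 9 * t + 27)
      = (h * (t ^ 2 + 9 * t + 27) + 27 * (t ^ 2 + 9 * t + 27))
        * (h * (t ^ 2 + 9 * t + 27) + 243 * (t ^ 2 + 9 * t + 27)) ^ 3 := by
    linear_combination (t ^ 2 + 9 * t + 27) ^ 4 * R1
  rw [A] at e1
  linear_combination e1

theorem rel_of_key_one {J a b : E} (hb : b ≠ 0)
    (key : J * a ^ 3 * b = (a + 27 * b) * (a + 243 * b) ^ 3) :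
    J * (a / b) ^ 3 = (a / b + 27) * (a / b + 243) ^ 3 := by
  field_simp
  linear_combination key

theorem rel_of_key_two {J a b : E} (hb : b ≠ 0)
    (key : J * a * b ^ 3 = (a + 27 * b) * (a + 3 * b) ^ 3) :
    J * (a / b) = (a / b + 27) * (a / b + 3) ^ 3 := by
  field_simp
  linear_combination key

end Abstract9

/-! ### The series -/

section Concrete9

/-- `η¹²` as an integral power series. -/
def A12 : PowerSeries ℤ := etaProd ^ 12

/-- `q η(q³)¹²` as an integral power series. -/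
def B12 : PowerSeries ℤ := PowerSeries.X * dil 3 A12

theorem Dl_eq_A12 : Dl = PowerSeries.X * A12 ^ 2 := by
  rw [Dl, dedekindEtaUnit, A12]
  ring

theorem dil_three_Dl : dil 3 Dl = PowerSeries.X * B12 ^ 2 := by
  rw [Dl_eq_A12, B12, dil, dil, map_mul, map_pow, PowerSeries.expand_X]
  ring

theorem constantCoeff_A12 : PowerSeries.constantCoeff A12 = 1 := by
  rw [A12, map_pow, constantCoeff_etaProd, one_pow]

variable (k : Type u) [Field k]

/-- `a = η¹²`. -/
def aK : LaurentSeries k := toL k A12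

/-- `b = q η(q³)¹²`. -/
def bK : LaurentSeries k := toL k B12

theorem aK_ne_zero : aK k ≠ 0 := toL_ne_zero_of_constantCoeff k _ constantCoeff_A12

theorem order_aK : (aK k).order = 0 := order_toL_of_constantCoeff k _ constantCoeff_A12

theorem bK_eq : bK k = HahnSeries.single (1 : ℤ) (1 : k) * qExpand k 3 (aK k) := by
  rw [bK, B12, map_mul, toL_X, toL_dil, aK]

theorem bK_ne_zero : bK k ≠ 0 := by
  rw [bK_eq]
  exact mul_ne_zero (HahnSeries.single_ne_zero one_ne_zero) (qExpand_ne_zero 3 (aK_ne_zero k))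

theorem order_bK : (bK k).order = 1 := by
  rw [bK_eq, HahnSeries.order_mul (HahnSeries.single_ne_zero one_ne_zero)
    (qExpand_ne_zero 3 (aK_ne_zero k)), order_qExpand, order_aK,
    HahnSeries.order_single one_ne_zero]
  norm_num

theorem toL_Dl_eq : toL k Dl = HahnSeries.single (1 : ℤ) (1 : k) * aK k ^ 2 := by
  rw [Dl_eq_A12, map_mul, map_pow, toL_X, aK]

theorem toL_dil_Dl_eq : toL k (dil 3 Dl) = HahnSeries.single (1 : ℤ) (1 : k) * bK k ^ 2 := by
  rw [dil_three_Dl, map_mul, map_pow, toL_X, bK]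

/-- `h = a / b = η(q)¹² / (q η(q³)¹²)`. -/
def hThree : LaurentSeries k := aK k / bK k

theorem hThree_ne_zero : hThree k ≠ 0 := div_ne_zero (aK_ne_zero k) (bK_ne_zero k)

theorem order_hThree : (hThree k).order = -1 := by
  rw [hThree, order_div' (aK_ne_zero k) (bK_ne_zero k), order_aK, order_bK]
  norm_num

variable [CharP k 2]

theorem two_eq_zero_laurent : (2 : LaurentSeries k) = 0 := by
  have h : ((2 : ℕ) : LaurentSeries k) = HahnSeries.C ((2 : ℕ) : k) := (map_natCast _ 2).symm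
  rw [CharP.cast_eq_zero k 2, map_zero] at h
  exact_mod_cast h

theorem eq_of_sq_eq {x y : LaurentSeries k} (h : x ^ 2 = y ^ 2) : x = y := by
  have h2 := two_eq_zero_laurent k
  have : (x - y) ^ 2 = 0 := by linear_combination h + (y ^ 2 - x * y) * h2
  exact sub_eq_zero.mp (pow_eq_zero_iff (two_ne_zero) |>.mp this)

/-- `j h³ = (h + 27)(h + 243)³`. -/
theorem rel_three (h3 : P3 = 0) :
    jqModC k * hThree k ^ 3 = (hThree k + 27) * (hThree k + 243) ^ 3 := by
  have e := congrArg (toL k) h3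
  rw [P3] at e
  simp only [map_sub, map_mul, map_pow, map_add, map_ofNat, map_zero, toL_dil_Dl_eq] at e
  have hj := jq_mul_toL_Dl k
  rw [toL_Dl_eq] at e hj
  set q : LaurentSeries k := HahnSeries.single (1 : ℤ) (1 : k) with hq
  have hq0 : q ≠ 0 := HahnSeries.single_ne_zero one_ne_zero
  have ha := aK_ne_zero k
  have hb := bK_ne_zero k
  set a := aK k
  set b := bK k
  set E3 := toL k eisenstein4 ^ 3 with hE3
  have hsq : (q * a * b * (E3 - 756 * (q * a ^ 2) - 19131876 * (q * b ^ 2))) ^ 2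
      = ((q * a ^ 2) ^ 2 + 196830 * (q * a ^ 2) * (q * b ^ 2) + 387420489 * (q * b ^ 2) ^ 2) ^ 2 := by
    linear_combination e
  have hlin := eq_of_sq_eq k hsq
  have key : jqModC k * a ^ 3 * b = (a + 27 * b) * (a + 243 * b) ^ 3 := by
    have : q ^ 2 * (jqModC k * a ^ 3 * b - (a + 27 * b) * (a + 243 * b) ^ 3) = 0 := by
      linear_combination hlin + q * a * b * hj
    rcases mul_eq_zero.mp this with h0 | h0
    · exact absurd (pow_eq_zero_iff (two_ne_zero) |>.mp h0) hq0
    · exact sub_eq_zero.mp h0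
  exact rel_of_key_one hb key

/-- `j(q³) h = (h + 27)(h + 3)³`. -/
theorem rel_four (h4 : P4 = 0) :
    qExpand k 3 (jqModC k) * hThree k = (hThree k + 27) * (hThree k + 3) ^ 3 := by
  have e := congrArg (toL k) h4
  rw [P4] at e
  simp only [map_sub, map_mul, map_pow, map_add, map_ofNat, map_zero, toL_dil_Dl_eq] at e
  rw [toL_dil] at e
  have hj := congrArg (qExpand k 3) (jq_mul_toL_Dl k)
  rw [map_mul, map_pow, ← toL_dil, toL_dil_Dl_eq] at hj
  rw [toL_Dl_eq] at e
  set q : LaurentSeries k := HahnSeries.single (1 : ℤ) (1 : k) with hq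
  have hq0 : q ≠ 0 := HahnSeries.single_ne_zero one_ne_zero
  have ha := aK_ne_zero k
  have hb := bK_ne_zero k
  set a := aK k
  set b := bK k
  set E3 := qExpand k 3 (toL k eisenstein4) ^ 3 with hE3
  have hsq : (q * a * b * (E3 - 36 * (q * a ^ 2) - 756 * (q * b ^ 2))) ^ 2
      = ((q * a ^ 2) ^ 2 + 270 * (q * a ^ 2) * (q * b ^ 2) + 729 * (q * b ^ 2) ^ 2) ^ 2 := by
    linear_combination e
  have hlin := eq_of_sq_eq k hsq
  have key : qExpand k 3 (jqModC k) * a * b ^ 3 = (a + 27 * b) * (a + 3 * b) ^ 3 := by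
    have : q ^ 2 * (qExpand k 3 (jqModC k) * a * b ^ 3 - (a + 27 * b) * (a + 3 * b) ^ 3) = 0 := by
      linear_combination hlin + q * a * b * hj
    rcases mul_eq_zero.mp this with h0 | h0
    · exact absurd (pow_eq_zero_iff (two_ne_zero) |>.mp h0) hq0
    · exact sub_eq_zero.mp h0
  exact rel_of_key_two hb key

/-- The Hauptmodul of level 9: `t = q⁻¹ - 3 + 5 q² - 7 q⁵ + …`. -/
def tNine : LaurentSeries k :=
  (hThree k ^ 2 * qExpand k 3 (hThree k) + 18 * hThree k * qExpand k 3 (hThree k)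
      + 27 * qExpand k 3 (hThree k) + 1458 * hThree k)
    / ((hThree k + 9) * qExpand k 3 (hThree k) - 243 * hThree k + 729)

omit [CharP k 2] in
theorem hThree_mul_ne : hThree k * qExpand k 3 (hThree k) ≠ 729 := by
  have h0 : (hThree k * qExpand k 3 (hThree k)).order ≠ 0 := by
    rw [HahnSeries.order_mul (hThree_ne_zero k) (qExpand_ne_zero 3 (hThree_ne_zero k)),
      order_qExpand, order_hThree]
    norm_num
  have := ne_natCast_of_order h0 729
  simpa using this

theorem den_ne_zero :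
    (hThree k + 9) * qExpand k 3 (hThree k) - 243 * hThree k + 729 ≠ 0 := by
  have h2 := two_eq_zero_laurent k
  have e : (hThree k + 9) * qExpand k 3 (hThree k) - 243 * hThree k + 729
      = (hThree k + 9) * (qExpand k 3 (hThree k) - 243) := by
    linear_combination 1458 * h2
  rw [e]
  refine mul_ne_zero ?_ (sub_ne_zero.mpr ?_)
  · have := ne_neg_natCast_of_order (x := hThree k) (by rw [order_hThree]; norm_num) 9
    simpa using this
  · have h0 : (qExpand k 3 (hThree k)).order ≠ 0 := by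
      rw [order_qExpand, order_hThree]
      norm_num
    have := ne_natCast_of_order h0 243
    simpa using this

variable {k}

theorem nine_relations (h3 : P3 = 0) (h4 : P4 = 0) :
    hThree k * (tNine k ^ 2 + 9 * tNine k + 27) = tNine k ^ 3 ∧
    qExpand k 3 (hThree k) = tNine k * (tNine k ^ 2 + 9 * tNine k + 27) ∧
    jqModC k * tNine k ^ 9 * (tNine k ^ 2 + 9 * tNine k + 27) =
      (tNine k + 9) ^ 3 * (tNine k ^ 3 + 243 * tNine k ^ 2 + 2187 * tNine k + 6561) ^ 3 := by
  have R3 := congrArg (qExpand k 3) (rel_three k h3)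
  rw [map_mul, map_pow, map_mul, map_pow, map_add, map_add, map_ofNat, map_ofNat] at R3
  exact alg9 (rel_three k h3) (rel_four k h4) R3 (hThree_mul_ne k) (den_ne_zero k) rfl

theorem tNine_ne_zero (h3 : P3 = 0) (h4 : P4 = 0) : tNine k ≠ 0 := by
  obtain ⟨-, B, -⟩ := nine_relations (k := k) h3 h4
  intro h0
  rw [h0, zero_mul] at B
  exact qExpand_ne_zero 3 (hThree_ne_zero k) B

theorem sNine_ne_zero (h3 : P3 = 0) (h4 : P4 = 0) : tNine k ^ 2 + 9 * tNine k + 27 ≠ 0 := by
  obtain ⟨-, B, -⟩ := nine_relations (k := k) h3 h4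
  intro h0
  rw [h0, mul_zero] at B
  exact qExpand_ne_zero 3 (hThree_ne_zero k) B

theorem order_tNine (h3 : P3 = 0) (h4 : P4 = 0) : (tNine k).order = -1 := by
  obtain ⟨A, B, -⟩ := nine_relations (k := k) h3 h4
  have ht := tNine_ne_zero (k := k) h3 h4
  have hs := sNine_ne_zero (k := k) h3 h4
  have oA := congrArg HahnSeries.order A
  have oB := congrArg HahnSeries.order B
  have e3 : tNine k ^ 3 = tNine k * tNine k * tNine k := by ring
  rw [HahnSeries.order_mul (hThree_ne_zero k) hs, order_hThree, e3,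
    HahnSeries.order_mul (mul_ne_zero ht ht) ht, HahnSeries.order_mul ht ht] at oA
  rw [order_qExpand, order_hThree, HahnSeries.order_mul ht hs] at oB
  push_cast at oB
  omega

theorem dedekindPsi_nine : dedekindPsi 9 = 12 := by
  rw [dedekindPsi]
  decide +kernel

/-- The three generators of the level-9 field are rational functions of `t`. -/
theorem fullC_nine_le (h3 : P3 = 0) (h4 : P4 = 0) :
    modularFunctionFieldFullC k 9 ≤ k⟮tNine k⟯ := by
  obtain ⟨A, B, C⟩ := nine_relations (k := k) h3 h4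
  have ht := tNine_ne_zero (k := k) h3 h4
  have hs := sNine_ne_zero (k := k) h3 h4
  set t := tNine k with htdef
  have htm : t ∈ k⟮t⟯ := mem_adjoin_simple_self k t
  have hsm : t ^ 2 + 9 * t + 27 ∈ k⟮t⟯ :=
    add_mem (add_mem (pow_mem htm 2) (mul_mem (ofNat_mem _ 9) htm)) (ofNat_mem _ 27)
  have hh : hThree k ∈ k⟮t⟯ := by
    have : hThree k = t ^ 3 / (t ^ 2 + 9 * t + 27) := by
      rw [eq_div_iff hs]
      exact A
    rw [this]
    exact div_mem (pow_mem htm 3) hsm
  have hh' : qExpand k 3 (hThree k) ∈ k⟮t⟯ := by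
    rw [B]
    exact mul_mem htm hsm
  have hJ : jqModC k ∈ k⟮t⟯ := by
    have : jqModC k = (t + 9) ^ 3 * (t ^ 3 + 243 * t ^ 2 + 2187 * t + 6561) ^ 3
        / (t ^ 9 * (t ^ 2 + 9 * t + 27)) := by
      rw [eq_div_iff (mul_ne_zero (pow_ne_zero 9 ht) hs), ← mul_assoc]
      exact C
    rw [this]
    exact div_mem (mul_mem (pow_mem (add_mem htm (ofNat_mem _ 9)) 3)
      (pow_mem (add_mem (add_mem (add_mem (pow_mem htm 3) (mul_mem (ofNat_mem _ 243)
        (pow_mem htm 2))) (mul_mem (ofNat_mem _ 2187) htm)) (ofNat_mem _ 6561)) 3))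
      (mul_mem (pow_mem htm 9) hsm)
  have hJ3 : qExpand k 3 (jqModC k) ∈ k⟮t⟯ := by
    have : qExpand k 3 (jqModC k) = (hThree k + 27) * (hThree k + 3) ^ 3 / hThree k := by
      rw [eq_div_iff (hThree_ne_zero k)]
      exact rel_four k h4
    rw [this]
    exact div_mem (mul_mem (add_mem hh (ofNat_mem _ 27)) (pow_mem (add_mem hh (ofNat_mem _ 3)) 3)) hh
  have hJ9 : qExpand k 9 (jqModC k) ∈ k⟮t⟯ := by
    have e := congrArg (qExpand k 3) (rel_four k h4)
    rw [map_mul, map_mul, map_pow, map_add, map_add, map_ofNat, map_ofNat, qExpand_qExpand] at e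
    have e9 : qExpand k (3 * 3) (jqModC k) = qExpand k 9 (jqModC k) :=
      qExpand_congr (by norm_num) _
    rw [e9] at e
    have : qExpand k 9 (jqModC k) = (qExpand k 3 (hThree k) + 27)
        * (qExpand k 3 (hThree k) + 3) ^ 3 / qExpand k 3 (hThree k) := by
      rw [eq_div_iff (qExpand_ne_zero 3 (hThree_ne_zero k))]
      exact e
    rw [this]
    exact div_mem (mul_mem (add_mem hh' (ofNat_mem _ 27))
      (pow_mem (add_mem hh' (ofNat_mem _ 3)) 3)) hh'
  rw [modularFunctionFieldFullC, adjoin_le_iff]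
  rintro x ⟨d, hd, hd9, rfl⟩
  have hd' : d = 1 ∨ d = 3 ∨ d = 9 := by
    have hmem : d ∈ Nat.divisors 9 := Nat.mem_divisors.mpr ⟨hd9, by norm_num⟩
    have hdiv : Nat.divisors 9 = {1, 3, 9} := by decide
    rw [hdiv] at hmem
    simpa using hmem
  rcases hd' with rfl | rfl | rfl
  · rw [qExpand_one_apply]
    exact hJ
  · exact hJ3
  · exact hJ9

variable (k) in
/-- **Level 9.** Over a field `k` of characteristic `2`, the function field of `X₀(9)` is `k(t)`
for a `t` with a simple pole at `q = 0` and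
`j t⁹ (t² + 9 t + 27) = (t + 9)³ (t³ + 243 t² + 2187 t + 6561)³`. -/
theorem exists_generator_nine (h3 : P3 = 0) (h4 : P4 = 0) :
    ∃ y : LaurentSeries k, y.order < 0 ∧
      IntermediateField.adjoin k {y} = modularFunctionFieldFullC k 9 ∧
      jqModC k * y ^ 9 * (y ^ 2 + 9 * y + 27) =
        (y + 9) ^ 3 * (y ^ 3 + 243 * y ^ 2 + 2187 * y + 6561) ^ 3 := by
  obtain ⟨A, B, C⟩ := nine_relations (k := k) h3 h4
  refine ⟨tNine k, by rw [order_tNine h3 h4]; norm_num, ?_, C⟩
  have hdeg := LiftD.relfinrank_fullC k 2 9 (by norm_num)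
  rw [dedekindPsi_nine] at hdeg
  have hJF : jqModC k ∈ modularFunctionFieldFullC k 9 := by
    have := subset_adjoin k (divisorExpansionsC k 9) (mem_divisorExpansionsC k 9 (d := 1) (by norm_num))
    rwa [qExpand_one_apply] at this
  let Jg : ↥(k⟮jqModC k⟯) := ⟨jqModC k, mem_adjoin_simple_self k _⟩
  let p : Polynomial ↥(k⟮jqModC k⟯) :=
    (Polynomial.X + 9) ^ 3 * (Polynomial.X ^ 3 + 243 * Polynomial.X ^ 2 + 2187 * Polynomial.X + 6561) ^ 3
      - Polynomial.C Jg * (Polynomial.X ^ 9 * (Polynomial.X ^ 2 + 9 * Polynomial.X + 27))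
  have hp_root : Polynomial.aeval (tNine k) p = 0 := by
    simp only [p, map_sub, map_mul, map_pow, map_add, Polynomial.aeval_X, Polynomial.aeval_C,
      map_ofNat]
    have : algebraMap ↥(k⟮jqModC k⟯) (LaurentSeries k) Jg = jqModC k := rfl
    rw [this]
    linear_combination -C
  have hp_monic : p.Monic := by
    simp only [p]
    monicity!
  have hp_deg : p.natDegree = 12 := by
    simp only [p]
    compute_degree!
  exact adjoin_eq_of_relfinrank (modularFunctionFieldFullC k 9) (jqModC k) (tNine k) hJF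
    (fullC_nine_le h3 h4) 12 hdeg p hp_monic hp_deg hp_root

end Concrete9

end Fermat.Agent.S18.Haupt
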