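/-
S18, chain CL, piece CL1-NUM: the four integral `q`-series `P1 .. P4` of `HauptDefs.lean` vanish to
the order required by the Sturm bounds:

* `dvd_P1 : X ^ 10 ∣ P1`, `dvd_P2 : X ^ 10 ∣ P2`   (weight 36 on `Γ₀(2)`, bound 9),
* `dvd_P3 : X ^ 17 ∣ P3`, `dvd_P4 : X ^ 17 ∣ P4`   (weight 48 on `Γ₀(3)`, bound 16).

Method: exact truncated arithmetic on lists of integers, checked by the kernel.  `Approx n f L`
says that `L` lists the first `n` coefficients of `f`; it is stable under `+`, `-`, `*`, `^`,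
numeral multiples, `X * ·` and `dil d`.  The infinite product `etaProd` agrees with its `n`-th
partial product up to `X ^ n`.  For every `n` the theorems `approx_P1 n .. approx_P4 n` give the
coefficient lists, so `(approx_P1 n).X_pow_dvd (by decide +kernel) : X ^ n ∣ P1` works for any
other bound as well.
-/
import Mathlib
import Fermat.Agent.S18.HauptDefs

set_option autoImplicit false

namespace Fermat.Agent.S18.HauptNum

open PowerSeries ModularCurve Fermat.Agent.S18.Haupt
open scoped PowerSeries.WithPiTopology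

/-- `i`-th entry of a list of integers, `0` beyond the end. -/
def nth : List ℤ → ℕ → ℤ
  | [], _ => 0
  | a :: _, 0 => a
  | _ :: l, (i + 1) => nth l i

/-- The list `[f k, f (k+1), …, f (k+n-1)]`. -/
def tab (f : ℕ → ℤ) : ℕ → ℕ → List ℤ
  | _, 0 => []
  | k, (n + 1) => f k :: tab f (k + 1) n

theorem nth_tab (f : ℕ → ℤ) : ∀ (n k i : ℕ), i < n → nth (tab f k n) i = f (k + i)
  | 0, _, _, h => absurd h (Nat.not_lt_zero _)
  | _ + 1, _, 0, _ => rfl
  | n + 1, k, i + 1, h => by
      show nth (tab f (k + 1) n) i = _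
      rw [nth_tab f n (k + 1) i (by omega)]
      congr 1
      omega

theorem nth_tab_zero (f : ℕ → ℤ) (n i : ℕ) (h : i < n) : nth (tab f 0 n) i = f i := by
  rw [nth_tab f n 0 i h, Nat.zero_add]

/-- `f 0 + f 1 + ⋯ + f (k-1)`. -/
def sumTo (f : ℕ → ℤ) : ℕ → ℤ
  | 0 => 0
  | k + 1 => sumTo f k + f k

theorem sumTo_eq (f : ℕ → ℤ) (k : ℕ) : sumTo f k = ∑ j ∈ Finset.range k, f j := by
  induction k with
  | zero => rfl
  | succ k ih => rw [Finset.sum_range_succ, ← ih]; rfl

/-- `L` lists the first `n` coefficients of `f`. -/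
def Approx (n : ℕ) (f : PowerSeries ℤ) (L : List ℤ) : Prop :=
  ∀ i, i < n → coeff i f = nth L i

def addL (n : ℕ) (L M : List ℤ) : List ℤ := tab (fun i => nth L i + nth M i) 0 n

def subL (n : ℕ) (L M : List ℤ) : List ℤ := tab (fun i => nth L i - nth M i) 0 n

def smulL (n : ℕ) (c : ℤ) (L : List ℤ) : List ℤ := tab (fun i => c * nth L i) 0 n

def mulL (n : ℕ) (L M : List ℤ) : List ℤ :=
  tab (fun i => sumTo (fun j => nth L j * nth M (i - j)) (i + 1)) 0 n

def dilL (n d : ℕ) (L : List ℤ) : List ℤ :=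
  tab (fun i => if d ∣ i then nth L (i / d) else 0) 0 n

def powL (n : ℕ) (L : List ℤ) : ℕ → List ℤ
  | 0 => [1]
  | k + 1 => mulL n (powL n L k) L

namespace Approx

variable {n : ℕ} {f g : PowerSeries ℤ} {L M : List ℤ}

theorem congr (h : Approx n f L) (hLM : L = M) : Approx n f M := hLM ▸ h

theorem mono {m : ℕ} (hmn : m ≤ n) (h : Approx n f L) : Approx m f L :=
  fun i hi => h i (lt_of_lt_of_le hi hmn)

theorem add (hf : Approx n f L) (hg : Approx n g M) : Approx n (f + g) (addL n L M) := by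
  intro i hi
  rw [addL, nth_tab_zero _ _ _ hi, map_add, hf i hi, hg i hi]

theorem sub (hf : Approx n f L) (hg : Approx n g M) : Approx n (f - g) (subL n L M) := by
  intro i hi
  rw [subL, nth_tab_zero _ _ _ hi, map_sub, hf i hi, hg i hi]

theorem mul (hf : Approx n f L) (hg : Approx n g M) : Approx n (f * g) (mulL n L M) := by
  intro i hi
  rw [mulL, nth_tab_zero _ _ _ hi, sumTo_eq, coeff_mul,
    Finset.Nat.sum_antidiagonal_eq_sum_range_succ_mk]
  refine Finset.sum_congr rfl fun j hj => ?_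
  rw [Finset.mem_range] at hj
  rw [hf j (by omega), hg (i - j) (by omega)]

theorem one : Approx n 1 [1] := by
  intro i _
  rw [coeff_one]
  cases i with
  | zero => rfl
  | succ i => rfl

theorem pow (hf : Approx n f L) : ∀ k : ℕ, Approx n (f ^ k) (powL n L k)
  | 0 => by rw [pow_zero]; exact one
  | k + 1 => by rw [pow_succ]; exact (pow hf k).mul hf

theorem ofNat_mul (c : ℕ) [c.AtLeastTwo] (hf : Approx n f L) :
    Approx n (OfNat.ofNat c * f) (smulL n (OfNat.ofNat c) L) := by
  intro i hi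
  rw [smulL, nth_tab_zero _ _ _ hi, ← hf i hi, ← map_ofNat (C (R := ℤ)) c, coeff_C_mul]

theorem X_mul (hf : Approx n f L) : Approx n (X * f) (0 :: L) := by
  intro i hi
  cases i with
  | zero => rw [coeff_zero_X_mul]; rfl
  | succ i => rw [coeff_succ_X_mul, hf i (by omega)]; rfl

theorem dil (d : ℕ) [NeZero d] (hf : Approx n f L) : Approx n (dil d f) (dilL n d L) := by
  intro i hi
  rw [dilL, nth_tab_zero _ _ _ hi, coeff_dil]
  split_ifs with h
  · exact hf _ (lt_of_le_of_lt (Nat.div_le_self i d) hi)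
  · rfl

theorem X_pow_dvd (hf : Approx n f L) (h0 : ∀ i, i < n → nth L i = 0) : X ^ n ∣ f := by
  rw [X_pow_dvd_iff]
  intro i hi
  rw [hf i hi, h0 i hi]

end Approx

/-! ### The Eisenstein series -/

def e4c (i : ℕ) : ℤ := if i = 0 then 1 else 240 * ∑ d ∈ i.divisors, (d : ℤ) ^ 3

theorem approx_e4 (n : ℕ) : Approx n eisenstein4 (tab e4c 0 n) := by
  intro i hi
  rw [nth_tab_zero _ _ _ hi, eisenstein4, coeff_mk, e4c]

/-! ### The eta product -/

theorem coeff_partial_succ (i m : ℕ) (h : i ≤ m) :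
    coeff i (∏ k ∈ Finset.range (m + 1), (1 - (X : PowerSeries ℤ) ^ (k + 1)))
      = coeff i (∏ k ∈ Finset.range m, (1 - (X : PowerSeries ℤ) ^ (k + 1))) := by
  rw [Finset.prod_range_succ, mul_sub, mul_one, map_sub, coeff_mul_X_pow', if_neg (by omega),
    sub_zero]

theorem coeff_partial_of_le (i n : ℕ) (h : i ≤ n) :
    ∀ m, n ≤ m → coeff i (∏ k ∈ Finset.range m, (1 - (X : PowerSeries ℤ) ^ (k + 1)))
      = coeff i (∏ k ∈ Finset.range n, (1 - (X : PowerSeries ℤ) ^ (k + 1))) := by
  intro m hm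
  induction m, hm using Nat.le_induction with
  | base => rfl
  | succ m hm ih => rw [coeff_partial_succ i m (by omega), ih]

theorem coeff_etaProd_eq (i n : ℕ) (h : i ≤ n) :
    coeff i etaProd = coeff i (∏ k ∈ Finset.range n, (1 - (X : PowerSeries ℤ) ^ (k + 1))) := by
  have h1 := (PowerSeries.WithPiTopology.multipliable_one_sub_X_pow ℤ).hasProd.tendsto_prod_nat
  have h2 := ((PowerSeries.WithPiTopology.continuous_coeff ℤ i).tendsto _).comp h1
  have h3 : Filter.Tendsto (fun m : ℕ => coeff i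
      (∏ k ∈ Finset.range m, (1 - (X : PowerSeries ℤ) ^ (k + 1))))
      Filter.atTop (nhds (coeff i (∏ k ∈ Finset.range n, (1 - (X : PowerSeries ℤ) ^ (k + 1))))) := by
    refine tendsto_const_nhds.congr' ?_
    filter_upwards [Filter.eventually_ge_atTop n] with m hm
    exact (coeff_partial_of_le i n h m hm).symm
  exact tendsto_nhds_unique h2 h3

/-- The coefficient list of `1 - X ^ (m + 1)`. -/
def oneSubL (n m : ℕ) : List ℤ :=
  tab (fun i => (if i = 0 then 1 else 0) - (if i = m + 1 then 1 else 0)) 0 n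

theorem approx_oneSub (n m : ℕ) : Approx n (1 - (X : PowerSeries ℤ) ^ (m + 1)) (oneSubL n m) := by
  intro i hi
  rw [oneSubL, nth_tab_zero _ _ _ hi, map_sub, coeff_one, coeff_X_pow]

/-- The coefficient list of `∏_{k < m} (1 - X ^ (k + 1))`. -/
def etaL (n : ℕ) : ℕ → List ℤ
  | 0 => [1]
  | m + 1 => mulL n (etaL n m) (oneSubL n m)

theorem approx_partial (n : ℕ) :
    ∀ m, Approx n (∏ k ∈ Finset.range m, (1 - (X : PowerSeries ℤ) ^ (k + 1))) (etaL n m)
  | 0 => by rw [Finset.prod_range_zero]; exact Approx.one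
  | m + 1 => by
      rw [Finset.prod_range_succ]
      exact (approx_partial n m).mul (approx_oneSub n m)

theorem approx_etaProd (n : ℕ) : Approx n etaProd (etaL n n) := by
  intro i hi
  rw [coeff_etaProd_eq i n hi.le]
  exact approx_partial n n i hi


/-! ### The four identities, truncated -/

/-- Coefficients of `E₄`. -/
def EL (n : ℕ) : List ℤ := tab e4c 0 n

/-- Coefficients of `Δ = X * etaProd ^ 24`. -/
def DL (n : ℕ) : List ℤ := 0 :: powL n (etaL n n) 24

theorem approx_E (n : ℕ) : Approx n eisenstein4 (EL n) := approx_e4 n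

theorem approx_D (n : ℕ) : Approx n Dl (DL n) :=
  ((approx_etaProd n).pow 24).X_mul

def LP1 (n : ℕ) : List ℤ :=
  subL n (mulL n (mulL n (powL n (EL n) 3) (DL n)) (dilL n 2 (DL n)))
    (powL n (addL n (DL n) (smulL n 256 (dilL n 2 (DL n)))) 3)

theorem approx_P1 (n : ℕ) : Approx n P1 (LP1 n) :=
  ((((approx_E n).pow 3).mul (approx_D n)).mul ((approx_D n).dil 2)).sub
    (((approx_D n).add (((approx_D n).dil 2).ofNat_mul 256)).pow 3)

def LP2 (n : ℕ) : List ℤ :=
  subL n (mulL n (mulL n (powL n (dilL n 2 (EL n)) 3) (DL n)) (dilL n 2 (DL n)))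
    (powL n (addL n (DL n) (smulL n 16 (dilL n 2 (DL n)))) 3)

theorem approx_P2 (n : ℕ) : Approx n P2 (LP2 n) :=
  (((((approx_E n).dil 2).pow 3).mul (approx_D n)).mul ((approx_D n).dil 2)).sub
    (((approx_D n).add (((approx_D n).dil 2).ofNat_mul 16)).pow 3)

def LP3 (n : ℕ) : List ℤ :=
  subL n
    (mulL n (mulL n (DL n) (dilL n 3 (DL n)))
      (powL n (subL n (subL n (powL n (EL n) 3) (smulL n 756 (DL n)))
        (smulL n 19131876 (dilL n 3 (DL n)))) 2))
    (powL n (addL n (addL n (powL n (DL n) 2) (mulL n (smulL n 196830 (DL n)) (dilL n 3 (DL n))))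
      (smulL n 387420489 (powL n (dilL n 3 (DL n)) 2))) 2)

theorem approx_P3 (n : ℕ) : Approx n P3 (LP3 n) :=
  (((approx_D n).mul ((approx_D n).dil 3)).mul
    (((((approx_E n).pow 3).sub ((approx_D n).ofNat_mul 756)).sub
      (((approx_D n).dil 3).ofNat_mul 19131876)).pow 2)).sub
    (((((approx_D n).pow 2).add (((approx_D n).ofNat_mul 196830).mul ((approx_D n).dil 3))).add
      ((((approx_D n).dil 3).pow 2).ofNat_mul 387420489)).pow 2)

def LP4 (n : ℕ) : List ℤ :=
  subL n
    (mulL n (mulL n (DL n) (dilL n 3 (DL n)))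
      (powL n (subL n (subL n (powL n (dilL n 3 (EL n)) 3) (smulL n 36 (DL n)))
        (smulL n 756 (dilL n 3 (DL n)))) 2))
    (powL n (addL n (addL n (powL n (DL n) 2) (mulL n (smulL n 270 (DL n)) (dilL n 3 (DL n))))
      (smulL n 729 (powL n (dilL n 3 (DL n)) 2))) 2)

theorem approx_P4 (n : ℕ) : Approx n P4 (LP4 n) :=
  (((approx_D n).mul ((approx_D n).dil 3)).mul
    ((((((approx_E n).dil 3).pow 3).sub ((approx_D n).ofNat_mul 36)).sub
      (((approx_D n).dil 3).ofNat_mul 756)).pow 2)).sub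
    (((((approx_D n).pow 2).add (((approx_D n).ofNat_mul 270).mul ((approx_D n).dil 3))).add
      ((((approx_D n).dil 3).pow 2).ofNat_mul 729)).pow 2)

theorem dvd_P1 : X ^ 10 ∣ P1 := (approx_P1 10).X_pow_dvd (by decide +kernel)

theorem dvd_P2 : X ^ 10 ∣ P2 := (approx_P2 10).X_pow_dvd (by decide +kernel)

theorem dvd_P3 : X ^ 17 ∣ P3 := (approx_P3 17).X_pow_dvd (by decide +kernel)

theorem dvd_P4 : X ^ 17 ∣ P4 := (approx_P4 17).X_pow_dvd (by decide +kernel)

end Fermat.Agent.S18.HauptNum
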