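/-
S18, chain CL, piece CL1-STURM (explicit Hauptmodul route): the four integral `q`-series
`P1 .. P4` of `S18/HauptDefs.lean` vanish as soon as they vanish to the order of the Sturm bound.

`P1`, `P2` are the `q`-expansions of modular forms of weight `36` on `Γ₀(2)` (index `3`, Sturm
bound `36 · 3 / 12 = 9`), and `P3`, `P4` of modular forms of weight `48` on `Γ₀(3)` (index `4`,
Sturm bound `48 · 4 / 12 = 16`). The forms are built from `E₄³`, `Δ` (restricted from level one)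
and their dilates `E₄(dz)³`, `Δ(dz)` (`S23.UV.uForm`, `S23.UV.vForm`); the `q`-expansions are
computed with the `HasQ` calculus of S23/S24, and the vanishing is the Prelude's
`ModularForm.sturm_bound_Gamma0` with `[SL₂(ℤ) : Γ₀(N)] = ψ(N)` (S24).

Main results: `P1_eq_zero`, `P2_eq_zero` (`X ^ 10 ∣ Pi → Pi = 0`) and `P3_eq_zero`, `P4_eq_zero`
(`X ^ 17 ∣ Pi → Pi = 0`); the general tool is `eq_zero_of_hasQ`.
-/
import Mathlib
import Fermat.Prelude.Thm_ModularForm_sturm_bound_Gamma0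
import Fermat.Agent.S23.UV
import Fermat.Agent.S24.JqBridge
import Fermat.Agent.S24.CombIndex
import Fermat.Agent.S18.HauptDefs

set_option autoImplicit false

noncomputable section

open UpperHalfPlane ModularForm ModularFormClass Matrix.SpecialLinearGroup CongruenceSubgroup
open scoped MatrixGroups ModularForm Manifold

namespace Fermat.Agent.S18.HauptSturm

open Fermat.Agent.S23 Fermat.Agent.S23.QCalc Fermat.Agent.S24.JqBridge

/-- `HasQ` for a dilate `z ↦ f (d z)`: the series is spread out by `PowerSeries.expand`. -/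
theorem hasQ_dilate {f : ℍ → ℂ} {P : PowerSeries ℂ} (d : ℕ) [NeZero d] (hd : d ≠ 0)
    (hf : HasQ f P) :
    HasQ (fun z => f (heckeDiagMatrix d • z)) (PowerSeries.expand d hd P) := by
  intro z
  have h1 := hf (heckeDiagMatrix d • z)
  rw [Dilate.qParam_heckeDiagMatrix_smul] at h1
  have hinj : Function.Injective (fun m : ℕ => d * m) := fun a b hab =>
    Nat.eq_of_mul_eq_mul_left (Nat.pos_of_ne_zero hd) hab
  rw [← hinj.hasSum_iff]
  · refine h1.congr_fun ?_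
    intro m
    simp only [Function.comp_apply]
    rw [PowerSeries.coeff_expand_mul, pow_mul]
  · intro m hm
    have hnd : ¬ d ∣ m := by
      rintro ⟨j, rfl⟩
      exact hm ⟨j, rfl⟩
    rw [PowerSeries.coeff_expand_of_not_dvd d hd P hnd, zero_mul]

/-- `Γ₀(d)` inside `GL₂(ℝ)`. -/
abbrev G0 (d : ℕ) : Subgroup (GL (Fin 2) ℝ) := Subgroup.map (mapGL ℝ) (Gamma0 d)

theorem G0_le (d : ℕ) : G0 d ≤ 𝒮ℒ := by
  rintro x ⟨γ, -, rfl⟩
  exact ⟨γ, rfl⟩

/-- `E₄³` as a form of weight 12 on `Γ₀(d)`. -/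
def eForm (d : ℕ) : ModularForm (G0 d) 12 := Dilate.restrict (G0_le d) UV.E4cube

/-- `Δ` as a form of weight 12 on `Γ₀(d)`. -/
def dForm (d : ℕ) : ModularForm (G0 d) 12 := Dilate.restrict (G0_le d) UV.DeltaMF

theorem toC_Dl : toC Haupt.Dl = PowerSeries.X * toC ModularCurve.dedekindEtaUnit := by
  rw [Haupt.Dl, map_mul, PowerSeries.map_X]

theorem hasQ_eForm (d : ℕ) : HasQ (eForm d) (toC (ModularCurve.eisenstein4 ^ 3)) := by
  rw [map_pow]
  refine (hasQ_E₄.pow 3).congr fun z => ?_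
  show (E₄ z) ^ 3 = UV.E4cube z
  rw [UV.E4cube_apply]

theorem hasQ_dForm (d : ℕ) : HasQ (dForm d) (toC Haupt.Dl) := by
  rw [toC_Dl]
  exact hasQ_discriminant.congr fun z => rfl

theorem hasQ_uForm (d : ℕ) [NeZero d] :
    HasQ (UV.uForm d) (toC (Haupt.dil d ModularCurve.eisenstein4 ^ 3)) := by
  rw [map_pow, Haupt.dil_apply, PowerSeries.map_expand]
  refine ((hasQ_dilate d (NeZero.ne d) hasQ_E₄).pow 3).congr fun z => ?_
  rw [UV.uForm_apply]
  rfl

theorem hasQ_vForm (d : ℕ) [NeZero d] :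
    HasQ (UV.vForm d) (toC (Haupt.dil d Haupt.Dl)) := by
  rw [Haupt.dil_apply, PowerSeries.map_expand, toC_Dl]
  refine (hasQ_dilate d (NeZero.ne d) hasQ_discriminant).congr fun z => ?_
  rw [UV.vForm_apply]

/-- **Sturm for integral `q`-series**: if a modular form of weight `k` on `Γ₀(N)` is the sum of
the integral series `P`, and `P` is divisible by `X ^ m` with `m` above the Sturm bound
`k · [SL₂(ℤ) : Γ₀(N)] / 12`, then `P = 0`. -/
theorem eq_zero_of_hasQ (N : ℕ) [NeZero N] {k : ℤ} (F : ModularForm (G0 N) k)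
    (P : PowerSeries ℤ) (hF : HasQ F (toC P)) (m : ℕ)
    (hm : (k * (Gamma0 N).index).toNat / 12 < m) (hP : PowerSeries.X ^ m ∣ P) : P = 0 := by
  have hq : toC P = qExpansion 1 F :=
    HasQ.eq_qExpansion (CongruenceSubgroup.one_mem_strictPeriods_Gamma0 N) F hF
  have hF0 : F = 0 := by
    refine ModularForm.sturm_bound_Gamma0 N F fun n hn => ?_
    rw [← hq, PowerSeries.coeff_map, (PowerSeries.X_pow_dvd_iff.mp hP) n (lt_of_le_of_lt hn hm),
      map_zero]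
  have h0 : toC P = 0 := by
    refine HasQ.series_eq_zero (hF.congr fun z => ?_)
    rw [hF0]
    rfl
  ext n
  have h1 := congrArg (PowerSeries.coeff n) h0
  rw [PowerSeries.coeff_map] at h1
  simpa using h1

theorem index_two : (Gamma0 2).index = 3 := by
  rw [Fermat.Agent.S24.Comb.index_Gamma0]
  have h1 : ModularCurve.dedekindPsi (1 * 2) = ModularCurve.dedekindPsi 1 * (2 + 1) :=
    Fermat.Agent.S24.Comb.dedekindPsi_mul_of_not_dvd one_ne_zero Nat.prime_two (by decide)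
  rw [ModularCurve.dedekindPsi_one] at h1
  exact h1

theorem index_three : (Gamma0 3).index = 4 := by
  rw [Fermat.Agent.S24.Comb.index_Gamma0]
  have h1 : ModularCurve.dedekindPsi (1 * 3) = ModularCurve.dedekindPsi 1 * (3 + 1) :=
    Fermat.Agent.S24.Comb.dedekindPsi_mul_of_not_dvd one_ne_zero Nat.prime_three (by decide)
  rw [ModularCurve.dedekindPsi_one] at h1
  exact h1

section forms

local notation "E" => ModularCurve.eisenstein4

/-- the cube of a weight 12 form, of weight `12 + 12 + 12` -/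
def cube {d : ℕ} (g : ModularForm (G0 d) 12) : ModularForm (G0 d) (12 + 12 + 12) :=
  (g.mul g).mul g

theorem hasQ_cube {d : ℕ} {g : ModularForm (G0 d) 12} {P : PowerSeries ℂ} (hg : HasQ g P) :
    HasQ (cube g) (P ^ 3) := by
  have h := (hg.mul hg).mul hg
  rw [show P * P * P = P ^ 3 by ring] at h
  exact h

/-- the square of a weight 24 form, of weight `(12 + 12) + (12 + 12)` -/
def sq {d : ℕ} (g : ModularForm (G0 d) (12 + 12)) : ModularForm (G0 d) (12 + 12 + (12 + 12)) :=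
  g.mul g

theorem hasQ_sq {d : ℕ} {g : ModularForm (G0 d) (12 + 12)} {P : PowerSeries ℂ} (hg : HasQ g P) :
    HasQ (sq g) (P ^ 2) := by
  have h := hg.mul hg
  rw [show P * P = P ^ 2 by ring] at h
  exact h

theorem hasQ_smul {Γ : Subgroup (GL (Fin 2) ℝ)} [Γ.HasDetOne] {k : ℤ} (a : ℂ)
    {g : ModularForm Γ k} {P : PowerSeries ℂ} (hg : HasQ g P) :
    HasQ (⇑(a • g : ModularForm Γ k)) (PowerSeries.C a * P) :=
  (hg.const_mul a).congr fun _ => rfl

theorem hasQ_mul {Γ : Subgroup (GL (Fin 2) ℝ)} [Γ.HasDetPlusMinusOne] {k l : ℤ}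
    {f : ModularForm Γ k} {g : ModularForm Γ l} {P Q : PowerSeries ℂ} (hf : HasQ f P)
    (hg : HasQ g Q) : HasQ (f.mul g) (P * Q) :=
  hf.mul hg

theorem hasQ_add {Γ : Subgroup (GL (Fin 2) ℝ)} {k : ℤ}
    {f g : ModularForm Γ k} {P Q : PowerSeries ℂ} (hf : HasQ f P)
    (hg : HasQ g Q) : HasQ (⇑(f + g : ModularForm Γ k)) (P + Q) :=
  hf.add hg

theorem hasQ_sub {Γ : Subgroup (GL (Fin 2) ℝ)} {k : ℤ}
    {f g : ModularForm Γ k} {P Q : PowerSeries ℂ} (hf : HasQ f P)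
    (hg : HasQ g Q) : HasQ (⇑(f - g : ModularForm Γ k)) (P - Q) :=
  hf.sub hg

/-- The weight 36 form on `Γ₀(2)` with `q`-expansion `P1`. -/
def F1 : ModularForm (G0 2) (12 + 12 + 12) :=
  ((eForm 2).mul (dForm 2)).mul (UV.vForm 2) - cube (dForm 2 + (256 : ℂ) • UV.vForm 2)

theorem hasQ_F1 : HasQ F1 (toC Haupt.P1) := by
  have h := hasQ_sub (hasQ_mul (hasQ_mul (hasQ_eForm 2) (hasQ_dForm 2)) (hasQ_vForm 2))
    (hasQ_cube (hasQ_add (hasQ_dForm 2) (hasQ_smul 256 (hasQ_vForm 2))))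
  have e : toC Haupt.P1 = toC (E ^ 3) * toC Haupt.Dl * toC (Haupt.dil 2 Haupt.Dl)
      - (toC Haupt.Dl + PowerSeries.C (256 : ℂ) * toC (Haupt.dil 2 Haupt.Dl)) ^ 3 := by
    simp only [Haupt.P1, map_sub, map_mul, map_pow, map_add, map_ofNat]
  rw [e]
  exact h

/-- **CL1-STURM, first identity**: `E₄³ Δ Δ⟨2⟩ = (Δ + 256 Δ⟨2⟩)³` holds as soon as it holds
modulo `X ^ 10`. -/
theorem P1_eq_zero (h : PowerSeries.X ^ 10 ∣ Haupt.P1) : Haupt.P1 = 0 := by
  refine eq_zero_of_hasQ 2 F1 Haupt.P1 hasQ_F1 10 ?_ h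
  rw [index_two]
  decide

/-- The weight 36 form on `Γ₀(2)` with `q`-expansion `P2`. -/
def F2 : ModularForm (G0 2) (12 + 12 + 12) :=
  ((UV.uForm 2).mul (dForm 2)).mul (UV.vForm 2) - cube (dForm 2 + (16 : ℂ) • UV.vForm 2)

theorem hasQ_F2 : HasQ F2 (toC Haupt.P2) := by
  have h := hasQ_sub
    (hasQ_mul (hasQ_mul (hasQ_uForm 2) (hasQ_dForm 2)) (hasQ_vForm 2))
    (hasQ_cube (hasQ_add (hasQ_dForm 2) (hasQ_smul 16 (hasQ_vForm 2))))
  have e : toC Haupt.P2 = toC (Haupt.dil 2 E ^ 3) * toC Haupt.Dl * toC (Haupt.dil 2 Haupt.Dl)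
      - (toC Haupt.Dl + PowerSeries.C (16 : ℂ) * toC (Haupt.dil 2 Haupt.Dl)) ^ 3 := by
    simp only [Haupt.P2, map_sub, map_mul, map_pow, map_add, map_ofNat]
  rw [e]
  exact h

/-- **CL1-STURM, second identity**: `E₄⟨2⟩³ Δ Δ⟨2⟩ = (Δ + 16 Δ⟨2⟩)³` holds as soon as it holds
modulo `X ^ 10`. -/
theorem P2_eq_zero (h : PowerSeries.X ^ 10 ∣ Haupt.P2) : Haupt.P2 = 0 := by
  refine eq_zero_of_hasQ 2 F2 Haupt.P2 hasQ_F2 10 ?_ h
  rw [index_two]
  decide

/-- The weight 48 form on `Γ₀(3)` with `q`-expansion `P3`. -/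
def F3 : ModularForm (G0 3) (12 + 12 + (12 + 12)) :=
  ((dForm 3).mul (UV.vForm 3)).mul
      ((eForm 3 - (756 : ℂ) • dForm 3 - (19131876 : ℂ) • UV.vForm 3).mul
        (eForm 3 - (756 : ℂ) • dForm 3 - (19131876 : ℂ) • UV.vForm 3))
    - sq ((dForm 3).mul (dForm 3) + (196830 : ℂ) • (dForm 3).mul (UV.vForm 3)
        + (387420489 : ℂ) • (UV.vForm 3).mul (UV.vForm 3))

theorem hasQ_F3 : HasQ F3 (toC Haupt.P3) := by
  have hd := hasQ_dForm 3
  have hv := hasQ_vForm 3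
  have hi := hasQ_sub (hasQ_sub (hasQ_eForm 3) (hasQ_smul 756 hd)) (hasQ_smul 19131876 hv)
  have h := hasQ_sub (hasQ_mul (hasQ_mul hd hv) (hasQ_mul hi hi))
    (hasQ_sq (hasQ_add (hasQ_add (hasQ_mul hd hd) (hasQ_smul 196830 (hasQ_mul hd hv)))
      (hasQ_smul 387420489 (hasQ_mul hv hv))))
  have e : toC Haupt.P3 = toC Haupt.Dl * toC (Haupt.dil 3 Haupt.Dl)
        * ((toC (E ^ 3) - PowerSeries.C (756 : ℂ) * toC Haupt.Dl
            - PowerSeries.C (19131876 : ℂ) * toC (Haupt.dil 3 Haupt.Dl))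
          * (toC (E ^ 3) - PowerSeries.C (756 : ℂ) * toC Haupt.Dl
            - PowerSeries.C (19131876 : ℂ) * toC (Haupt.dil 3 Haupt.Dl)))
      - (toC Haupt.Dl * toC Haupt.Dl
          + PowerSeries.C (196830 : ℂ) * (toC Haupt.Dl * toC (Haupt.dil 3 Haupt.Dl))
          + PowerSeries.C (387420489 : ℂ) * (toC (Haupt.dil 3 Haupt.Dl)
              * toC (Haupt.dil 3 Haupt.Dl))) ^ 2 := by
    simp only [Haupt.P3, map_sub, map_mul, map_pow, map_add, map_ofNat]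
    ring
  rw [e]
  exact h

/-- **CL1-STURM, third identity**:
`Δ Δ⟨3⟩ (E₄³ - 756 Δ - 19131876 Δ⟨3⟩)² = (Δ² + 196830 Δ Δ⟨3⟩ + 387420489 Δ⟨3⟩²)²` holds as soon
as it holds modulo `X ^ 17`. -/
theorem P3_eq_zero (h : PowerSeries.X ^ 17 ∣ Haupt.P3) : Haupt.P3 = 0 := by
  refine eq_zero_of_hasQ 3 F3 Haupt.P3 hasQ_F3 17 ?_ h
  rw [index_three]
  decide

/-- The weight 48 form on `Γ₀(3)` with `q`-expansion `P4`. -/
def F4 : ModularForm (G0 3) (12 + 12 + (12 + 12)) :=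
  ((dForm 3).mul (UV.vForm 3)).mul
      ((UV.uForm 3 - (36 : ℂ) • dForm 3 - (756 : ℂ) • UV.vForm 3).mul
        (UV.uForm 3 - (36 : ℂ) • dForm 3 - (756 : ℂ) • UV.vForm 3))
    - sq ((dForm 3).mul (dForm 3) + (270 : ℂ) • (dForm 3).mul (UV.vForm 3)
        + (729 : ℂ) • (UV.vForm 3).mul (UV.vForm 3))

theorem hasQ_F4 : HasQ F4 (toC Haupt.P4) := by
  have hd := hasQ_dForm 3
  have hv := hasQ_vForm 3
  have hi := hasQ_sub (hasQ_sub (hasQ_uForm 3) (hasQ_smul 36 hd)) (hasQ_smul 756 hv)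
  have h := hasQ_sub (hasQ_mul (hasQ_mul hd hv) (hasQ_mul hi hi))
    (hasQ_sq (hasQ_add (hasQ_add (hasQ_mul hd hd) (hasQ_smul 270 (hasQ_mul hd hv)))
      (hasQ_smul 729 (hasQ_mul hv hv))))
  have e : toC Haupt.P4 = toC Haupt.Dl * toC (Haupt.dil 3 Haupt.Dl)
        * ((toC (Haupt.dil 3 E ^ 3) - PowerSeries.C (36 : ℂ) * toC Haupt.Dl
            - PowerSeries.C (756 : ℂ) * toC (Haupt.dil 3 Haupt.Dl))
          * (toC (Haupt.dil 3 E ^ 3) - PowerSeries.C (36 : ℂ) * toC Haupt.Dl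
            - PowerSeries.C (756 : ℂ) * toC (Haupt.dil 3 Haupt.Dl)))
      - (toC Haupt.Dl * toC Haupt.Dl
          + PowerSeries.C (270 : ℂ) * (toC Haupt.Dl * toC (Haupt.dil 3 Haupt.Dl))
          + PowerSeries.C (729 : ℂ) * (toC (Haupt.dil 3 Haupt.Dl)
              * toC (Haupt.dil 3 Haupt.Dl))) ^ 2 := by
    simp only [Haupt.P4, map_sub, map_mul, map_pow, map_add, map_ofNat]
    ring
  rw [e]
  exact h

/-- **CL1-STURM, fourth identity**:
`Δ Δ⟨3⟩ (E₄⟨3⟩³ - 36 Δ - 756 Δ⟨3⟩)² = (Δ² + 270 Δ Δ⟨3⟩ + 729 Δ⟨3⟩²)²` holds as soon as it holds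
modulo `X ^ 17`. -/
theorem P4_eq_zero (h : PowerSeries.X ^ 17 ∣ Haupt.P4) : Haupt.P4 = 0 := by
  refine eq_zero_of_hasQ 3 F4 Haupt.P4 hasQ_F4 17 ?_ h
  rw [index_three]
  decide

end forms

end Fermat.Agent.S18.HauptSturm
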