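/-
S18, chain CL, piece CL1 (explicit route): the four integral `q`-series identities
`P1 = 0`, `P2 = 0`, `P3 = 0`, `P4 = 0` of `HauptDefs.lean`, obtained by combining the numerical
vanishing `HauptNum.dvd_Pi` with the Sturm bounds `HauptSturm.Pi_eq_zero`.
-/
import Fermat.Agent.S18.HauptNum
import Fermat.Agent.S18.HauptSturm

set_option autoImplicit false

namespace Fermat.Agent.S18.HauptZero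

open Fermat.Agent.S18

/-- `E₄³ Δ Δ⟨2⟩ = (Δ + 256 Δ⟨2⟩)³`. -/
theorem P1_eq_zero : Haupt.P1 = 0 := HauptSturm.P1_eq_zero HauptNum.dvd_P1

/-- `E₄⟨2⟩³ Δ Δ⟨2⟩ = (Δ + 16 Δ⟨2⟩)³`. -/
theorem P2_eq_zero : Haupt.P2 = 0 := HauptSturm.P2_eq_zero HauptNum.dvd_P2

/-- `Δ Δ⟨3⟩ (E₄³ - 756 Δ - 19131876 Δ⟨3⟩)² = (Δ² + 196830 Δ Δ⟨3⟩ + 387420489 Δ⟨3⟩²)²`. -/
theorem P3_eq_zero : Haupt.P3 = 0 := HauptSturm.P3_eq_zero HauptNum.dvd_P3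

/-- `Δ Δ⟨3⟩ (E₄⟨3⟩³ - 36 Δ - 756 Δ⟨3⟩)² = (Δ² + 270 Δ Δ⟨3⟩ + 729 Δ⟨3⟩²)²`. -/
theorem P4_eq_zero : Haupt.P4 = 0 := HauptSturm.P4_eq_zero HauptNum.dvd_P4

end Fermat.Agent.S18.HauptZero
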