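/-
S18, chain CL, piece CL1 (explicit route), unconditional form: the reduced function fields of
`X₀(4)` (characteristic `ℓ ≠ 2`) and `X₀(9)` (characteristic `2`) are rational, with explicit
Hauptmoduln.  No input from characteristic zero (no genus-zero / Gauss-valuation argument): the
proof is the four `q`-series identities `HauptZero.P1_eq_zero .. P4_eq_zero` (numerics + Sturm),
the algebra of `Haupt4.lean` / `Haupt9.lean`, and the degree `[F̄_M : k(j)] = ψ(M)` (S28 / LiftDeg).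

* `Haupt.generator_four`, `Haupt.generator_nine`: `∃ y, ord y < 0 ∧ k(y) = F̄_{M₀} ∧ (relation)`.
* `Haupt.exists_generator`: the literal input `hR` of `SQA.genusFormula_le_genusR`.
-/
import Fermat.Agent.S18.Haupt4
import Fermat.Agent.S18.Haupt9
import Fermat.Agent.S18.HauptZero

set_option autoImplicit false

noncomputable section

namespace Fermat.Agent.S18.Haupt

open ModularCurve IntermediateField

universe u

/-- **Level 4, characteristic `ℓ ≠ 2`.** `F̄₄ = k(t)`, `t = q⁻¹ + …`,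
`j t⁴ (t + 16) = (t² + 256 t + 4096)³`. -/
theorem generator_four (k : Type u) [Field k] (ℓ : ℕ) [Fact ℓ.Prime] [CharP k ℓ] (hℓ : ℓ ≠ 2) :
    ∃ y : LaurentSeries k, y.order < 0 ∧
      IntermediateField.adjoin k {y} = modularFunctionFieldFullC k 4 ∧
      jqModC k * y ^ 4 * (y + 16) = (y ^ 2 + 256 * y + 4096) ^ 3 :=
  exists_generator_four k ℓ hℓ HauptZero.P1_eq_zero HauptZero.P2_eq_zero

/-- **Level 9, characteristic `2`.** `F̄₉ = k(t)`, `t = q⁻¹ + …`,
`j t⁹ (t² + 9 t + 27) = (t + 9)³ (t³ + 243 t² + 2187 t + 6561)³`. -/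
theorem generator_nine (k : Type u) [Field k] [CharP k 2] :
    ∃ y : LaurentSeries k, y.order < 0 ∧
      IntermediateField.adjoin k {y} = modularFunctionFieldFullC k 9 ∧
      jqModC k * y ^ 9 * (y ^ 2 + 9 * y + 27) =
        (y + 9) ^ 3 * (y ^ 3 + 243 * y ^ 2 + 2187 * y + 6561) ^ 3 :=
  exists_generator_nine k HauptZero.P3_eq_zero HauptZero.P4_eq_zero

/-- The base level of the genus squeeze in characteristic `ℓ`: `4` for odd `ℓ`, `9` for `ℓ = 2`. -/
theorem exists_generator (k : Type u) [Field k] (ℓ : ℕ) [Fact ℓ.Prime] [CharP k ℓ] (M0 : ℕ)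
    [NeZero M0] (h : (ℓ ≠ 2 ∧ M0 = 4) ∨ (ℓ = 2 ∧ M0 = 9)) :
    ∃ y : LaurentSeries k, y.order < 0 ∧ k⟮y⟯ = modularFunctionFieldFullC k M0 := by
  rcases h with ⟨hℓ, rfl⟩ | ⟨rfl, rfl⟩
  · obtain ⟨y, hy, hgen, -⟩ := generator_four k ℓ hℓ
    exact ⟨y, hy, hgen⟩
  · obtain ⟨y, hy, hgen, -⟩ := generator_nine k
    exact ⟨y, hy, hgen⟩

/-- The literal hypothesis `hR` of `SQA.genusFormula_le_genusR` at the base level. -/
theorem exists_adjoin_eq (k : Type u) [Field k] (ℓ : ℕ) [Fact ℓ.Prime] [CharP k ℓ] (M0 : ℕ)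
    [NeZero M0] (h : (ℓ ≠ 2 ∧ M0 = 4) ∨ (ℓ = 2 ∧ M0 = 9)) :
    ∃ y : LaurentSeries k, k⟮y⟯ = modularFunctionFieldFullC k M0 := by
  obtain ⟨y, -, hy⟩ := exists_generator k ℓ M0 h
  exact ⟨y, hy⟩

end Fermat.Agent.S18.Haupt
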