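/-
S18, chain C0, Theorem B (the reverse of RR-lite's Theorem A), part (a):
`dim_K (Binf / X⁻² Binf) ≥ 2 n`, hence `= 2 n` (the bound `≤` is `RRLite.relDim_shift_le`).
-/
import Mathlib
import Fermat.Agent.S20.RRLite.Main

set_option autoImplicit false

noncomputable section

open Polynomial Module

namespace Fermat.Agent.S18.RRShift

open Fermat.Agent.S20.RRLite

variable (K : Type*) {F : Type*} [Field K] [Field F] [Algebra K F] [Algebra K[X] F]
  [Algebra (RatFunc K) F] [IsScalarTower K K[X] F] [IsScalarTower K[X] (RatFunc K) F]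
  [IsScalarTower K (RatFunc K) F]

variable {ι : Type*}

omit [Algebra K[X] F] [IsScalarTower K K[X] F] [IsScalarTower K[X] (RatFunc K) F] in
/-- `Binf / X⁻² Binf` is finite-dimensional over `K`. -/
theorem finite_shift [Fintype ι] (u : Basis ι (RatFunc K) F) :
    Module.Finite K (↥(Linf K u) ⧸ (Linf K (shift u)).submoduleOf (Linf K u)) := by
  let ψ : ↥(Linf K u) →ₗ[K] (ι → K × K) :=
    (LinearMap.pi fun i => ((coeffInf K 0).prod (coeffInf K 1)) ∘ₗ
      ((Finsupp.lapply i ∘ₗ u.repr.toLinearMap).restrictScalars K)) ∘ₗ (Linf K u).subtype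
  have hψ : ∀ (f : Linf K u) (i : ι), ψ f i =
      ((expInf K (u.repr (f : F) i)).coeff 0, (expInf K (u.repr (f : F) i)).coeff 1) :=
    fun f i => rfl
  exact (relDim_le_of_ker_le (Linf K (shift u)) (Linf K u) ψ (by
    intro f hf
    rw [mem_Linf_shift]
    intro i
    rw [X_pow_mul_mem_Oinf_iff]
    intro m hm
    have hi := congrFun hf i
    rw [hψ] at hi
    have hf' := (mem_Linf K).mp f.2 i
    rcases lt_trichotomy m 0 with h | h | h
    · exact hf' m h
    · subst h; exact (Prod.ext_iff.mp hi).1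
    · have : m = 1 := by push_cast at hm; omega
      subst this; exact (Prod.ext_iff.mp hi).2)).1

omit [Algebra K[X] F] [IsScalarTower K K[X] F] [IsScalarTower K[X] (RatFunc K) F] in
/-- **Theorem B, part (a)**: `dim_K (Binf / X⁻² Binf) ≥ 2 n`. -/
theorem le_relDim_shift [Fintype ι] [DecidableEq ι] (u : Basis ι (RatFunc K) F) :
    2 * Fintype.card ι ≤ relDim (Linf K (shift u)) (Linf K u) := by
  have := finite_shift K u
  have key := card_le_relDim (Linf K (shift u)) (Linf K u)
    (J := Fin 2 × ι) (fun j => ((RatFunc.X : RatFunc K)⁻¹ ^ (j.1 : ℕ)) • u j.2) ?_ ?_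
  · simpa [Fintype.card_prod] using key
  · rintro ⟨k, i⟩
    rw [mem_Linf]
    intro j
    rw [map_smul, Basis.repr_self, Finsupp.smul_apply, Finsupp.single_apply, smul_eq_mul]
    split_ifs
    · rw [mul_one]
      exact X_inv_pow_mem_Oinf K _
    · rw [mul_zero]
      exact (Oinf K).zero_mem
  · intro c hc
    set h : ι → RatFunc K := fun i =>
      ∑ k : Fin 2, RatFunc.C (c (k, i)) * (RatFunc.X : RatFunc K)⁻¹ ^ (k : ℕ) with hh
    have hsum : ∑ j : Fin 2 × ι, c j • (((RatFunc.X : RatFunc K)⁻¹ ^ (j.1 : ℕ)) • u j.2) =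
        ∑ i, h i • u i := by
      rw [Fintype.sum_prod_type, Finset.sum_comm]
      refine Finset.sum_congr rfl fun i _ => ?_
      rw [hh, Finset.sum_smul]
      refine Finset.sum_congr rfl fun k _ => ?_
      rw [← algebraMap_smul (RatFunc K) (c (k, i)), smul_smul, RatFunc.algebraMap_eq_C]
    rw [hsum, mem_Linf_shift] at hc
    funext ⟨k, i⟩
    have h1 := hc i
    rw [Basis.repr_sum_self, X_pow_mul_mem_Oinf_iff] at h1
    have h2 := h1 ((k : ℕ) : ℤ) (by have := k.2; omega)
    rw [hh, map_sum, HahnSeries.coeff_sum] at h2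
    rw [Finset.sum_eq_single k] at h2
    · rw [coeff_expInf_C_mul, expInf_X_inv_pow, HahnSeries.coeff_single_same, mul_one] at h2
      exact h2
    · intro k' _ hk'
      rw [coeff_expInf_C_mul, expInf_X_inv_pow, HahnSeries.coeff_single_of_ne, mul_zero]
      intro hkk
      apply hk'
      apply Fin.ext
      exact_mod_cast hkk.symm
    · intro hk
      exact absurd (Finset.mem_univ k) hk

omit [Algebra K[X] F] [IsScalarTower K K[X] F] [IsScalarTower K[X] (RatFunc K) F] in
/-- `dim_K (Binf / X⁻² Binf) = 2 n`. -/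
theorem relDim_shift_eq [Fintype ι] [DecidableEq ι] (u : Basis ι (RatFunc K) F) :
    relDim (Linf K (shift u)) (Linf K u) = 2 * Fintype.card ι :=
  le_antisymm (relDim_shift_le u) (le_relDim_shift K u)

end Fermat.Agent.S18.RRShift

end
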