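import Fermat.Agent.S20.RRLite.Main
import Fermat.Agent.S20.LB.Tame

/-!
# S18, chain C0: the tame upper bound ("Theorem B"), independent second seat

The reverse of `RRLite.theoremA` for tamely ramified (characteristic zero) extensions
`F / K(X)`:
`2 dim_K Omega + 2 n + ∑_{a ∈ T} r_a + r_∞ ≤ 2 + (#T + 1) n`
whenever `F / K(X)` is unramified over all finite `a ∉ T`.

* `exists_prod_mul_eq`: the tame different, global form: if every maximal ideal of `A` is either
  one of the `(π t)`, `t ∈ T`, or unramified in `B`, then `∏_{t ∈ T} π t · h ∈ ⋂_T rad(π t B)`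
  for every `h` in the trace dual of `B`.
* `relDim_add_sum_le`: the reverse of `LB.Radical.sum_le_finrank_quotient`.
-/

set_option autoImplicit false

noncomputable section

namespace Fermat.Agent.S18.RRTame

open Module Polynomial Function
open Fermat.Agent.S20.RRLite Fermat.Agent.S20.LB

section Generic

variable (A K L B : Type*) [CommRing A] [IsDedekindDomain A] [Field K]
    [Algebra A K] [IsFractionRing A K] [Field L] [Algebra K L] [Algebra A L] [IsScalarTower A K L]
    [FiniteDimensional K L] [Algebra.IsSeparable K L] [CommRing B] [Algebra A B] [Algebra B L]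
    [IsScalarTower A B L] [IsIntegralClosure B A L]

omit [IsDedekindDomain A] [Field K] [Algebra A K] [IsFractionRing A K] [Field L] [Algebra K L]
  [Algebra A L] [IsScalarTower A K L] [FiniteDimensional K L] [Algebra.IsSeparable K L]
  [Algebra B L] [IsScalarTower A B L] [IsIntegralClosure B A L] in
/-- An element of `B` divisible by each of the pairwise coprime `π t` is divisible by their
product. -/
theorem exists_eq_prod_mul {ι : Type*} [DecidableEq ι] (T : Finset ι) (π : ι → A)
    (hmax : ∀ t ∈ T, (Ideal.span {π t}).IsMaximal)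
    (hdist : ∀ s ∈ T, ∀ t ∈ T, s ≠ t → Ideal.span {π s} ≠ Ideal.span {π t})
    (g : B) (hg : ∀ t ∈ T, g ∈ (Ideal.span {π t}).map (algebraMap A B)) :
    ∃ b : B, g = algebraMap A B (∏ t ∈ T, π t) * b := by
  have hcop : (T : Set ι).Pairwise (IsCoprime on fun t => algebraMap A B (π t)) := by
    intro s hs t ht hst
    have h1 : IsCoprime (Ideal.span {π s}) (Ideal.span {π t}) := by
      have := hmax s hs
      have := hmax t ht
      exact Ideal.isCoprime_of_isMaximal (hdist s hs t ht hst)
    rw [Ideal.isCoprime_span_singleton_iff] at h1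
    exact h1.map (algebraMap A B)
  have hdvd : ∀ t ∈ T, algebraMap A B (π t) ∣ g := by
    intro t ht
    have := hg t ht
    rw [Ideal.map_span, Set.image_singleton, Ideal.mem_span_singleton] at this
    exact this
  obtain ⟨b, hb⟩ := Finset.prod_dvd_of_coprime hcop hdvd
  exact ⟨b, by rw [hb, map_prod]⟩

/-- **The tame different, global form.** If every maximal ideal of `A` is either one of the
`(π t)`, `t ∈ T`, or is principal and unramified in `B`, then for every `h` in the trace dual of
`B` the product `∏_{t ∈ T} π t · h` lies in `⋂_{t ∈ T} rad(π t B)`. -/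
theorem exists_prod_mul_eq {ι : Type*} [DecidableEq ι] (T : Finset ι) (π : ι → A)
    (hne : ∀ t ∈ T, π t ≠ 0)
    (hchar : ∀ n : ℕ, n ≠ 0 → IsUnit (n : A))
    (hall : ∀ p : Ideal A, p.IsMaximal → (∃ t ∈ T, p = Ideal.span {π t}) ∨
      ∃ ϖ : A, ϖ ≠ 0 ∧ p = Ideal.span {ϖ} ∧
        (p.map (algebraMap A B)).radical ≤ p.map (algebraMap A B))
    (h : L) (hh : ∀ b : B, Algebra.trace K L (h * algebraMap B L b) ∈ (algebraMap A K).range) :
    ∃ g : B, (∀ t ∈ T, g ∈ ((Ideal.span {π t}).map (algebraMap A B)).radical) ∧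
      algebraMap A L (∏ t ∈ T, π t) * h = algebraMap B L g := by
  classical
  set P : A := ∏ t ∈ T, π t with hP
  -- the ideal of denominators
  let I : Ideal A :=
    { carrier := {s | ∃ g : B, (∀ t ∈ T, g ∈ ((Ideal.span {π t}).map (algebraMap A B)).radical) ∧
        algebraMap A L (s * P) * h = algebraMap B L g}
      add_mem' := by
        rintro s₁ s₂ ⟨g₁, hg₁, e₁⟩ ⟨g₂, hg₂, e₂⟩
        exact ⟨g₁ + g₂, fun t ht => Ideal.add_mem _ (hg₁ t ht) (hg₂ t ht), by
          rw [add_mul, map_add, add_mul, e₁, e₂, map_add]⟩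
      zero_mem' := ⟨0, fun t _ => Ideal.zero_mem _, by simp⟩
      smul_mem' := by
        rintro c s ⟨g, hg, e⟩
        exact ⟨algebraMap A B c * g, fun t ht => Ideal.mul_mem_left _ _ (hg t ht), by
          rw [smul_eq_mul, mul_assoc, map_mul, mul_assoc, e, map_mul,
            ← IsScalarTower.algebraMap_apply]⟩ }
  have hinjA : Function.Injective (algebraMap A L) := by
    rw [IsScalarTower.algebraMap_eq A K L]
    exact (algebraMap K L).injective.comp (IsFractionRing.injective A K)
  have hI : I = ⊤ := by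
    by_contra hne'
    obtain ⟨p, hp, hIp⟩ := Ideal.exists_le_maximal I hne'
    rcases hall p hp with ⟨t₀, ht₀, rfl⟩ | ⟨ϖ, hϖ0, rfl, hrad⟩
    · -- ramified point
      have hp0 : Ideal.span {π t₀} ≠ ⊥ := by
        rw [Ne, Ideal.span_singleton_eq_bot]; exact hne t₀ ht₀
      obtain ⟨s, hs, hsπ⟩ := Tame.exists_smul_mem_radical A K L B (Ideal.span {π t₀}) hp0
        (fun n hn hmem => hp.ne_top (Ideal.eq_top_of_isUnit_mem _ hmem (hchar n hn))) h hh
      obtain ⟨b, hb, e⟩ := hsπ (π t₀) (Ideal.mem_span_singleton_self _)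
      apply hs
      apply hIp
      refine ⟨algebraMap A B (∏ t ∈ T.erase t₀, π t) * b, fun t ht => ?_, ?_⟩
      · by_cases htt : t = t₀
        · subst htt
          exact Ideal.mul_mem_left _ _ hb
        · apply Ideal.le_radical
          apply Ideal.mul_mem_right
          apply Ideal.mem_map_of_mem
          rw [Ideal.mem_span_singleton]
          exact Finset.dvd_prod_of_mem π (Finset.mem_erase.mpr ⟨htt, ht⟩)
      · have hPe : P = π t₀ * ∏ t ∈ T.erase t₀, π t := by
          rw [hP, Finset.mul_prod_erase T π ht₀]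
        calc algebraMap A L (s * P) * h
            = algebraMap A L (∏ t ∈ T.erase t₀, π t) * (algebraMap A L (s * π t₀) * h) := by
              rw [hPe, show s * (π t₀ * ∏ t ∈ T.erase t₀, π t)
                = (∏ t ∈ T.erase t₀, π t) * (s * π t₀) by ring, map_mul, mul_assoc]
          _ = _ := by rw [e, map_mul, ← IsScalarTower.algebraMap_apply]
    · -- unramified point
      have hp0 : Ideal.span {ϖ} ≠ ⊥ := by
        rw [Ne, Ideal.span_singleton_eq_bot]; exact hϖ0
      obtain ⟨s, hs, hsπ⟩ := Tame.exists_smul_mem_radical A K L B (Ideal.span {ϖ}) hp0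
        (fun n hn hmem => hp.ne_top (Ideal.eq_top_of_isUnit_mem _ hmem (hchar n hn))) h hh
      obtain ⟨b, hb, e⟩ := hsπ ϖ (Ideal.mem_span_singleton_self _)
      have hb' := hrad hb
      rw [Ideal.map_span, Set.image_singleton, Ideal.mem_span_singleton] at hb'
      obtain ⟨b', rfl⟩ := hb'
      have hϖL : algebraMap A L ϖ ≠ 0 := fun h0 => hϖ0 (hinjA (by rw [h0, map_zero]))
      have e' : algebraMap A L s * h = algebraMap B L b' := by
        apply mul_left_cancel₀ hϖL
        rw [← mul_assoc, ← map_mul, mul_comm ϖ s, e, map_mul, ← IsScalarTower.algebraMap_apply]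
      apply hs
      apply hIp
      refine ⟨algebraMap A B P * b', fun t ht => ?_, ?_⟩
      · apply Ideal.le_radical
        apply Ideal.mul_mem_right
        apply Ideal.mem_map_of_mem
        rw [Ideal.mem_span_singleton]
        exact Finset.dvd_prod_of_mem π ht
      · calc algebraMap A L (s * P) * h = algebraMap A L P * (algebraMap A L s * h) := by
              rw [map_mul]
              ring
          _ = _ := by rw [e', map_mul, ← IsScalarTower.algebraMap_apply]
  have h1 : (1 : A) ∈ I := by rw [hI]; exact Submodule.mem_top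
  obtain ⟨g, hg, e⟩ := h1
  exact ⟨g, hg, by rw [← e, one_mul]⟩

end Generic

section Count

variable (K₀ A K L B : Type*) [Field K₀] [CommRing A] [IsDedekindDomain A] [Field K]
    [Algebra A K] [IsFractionRing A K] [Field L] [Algebra K L] [Algebra A L] [IsScalarTower A K L]
    [FiniteDimensional K L] [Algebra.IsSeparable K L] [CommRing B] [Algebra A B] [Algebra B L]
    [IsScalarTower A B L] [IsIntegralClosure B A L]
    [Algebra K₀ A] [Algebra K₀ B] [IsScalarTower K₀ A B] [Algebra K₀ L] [IsScalarTower K₀ B L]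

/-- **Radical bound, reverse direction.** If `M` is the image of `B` in `L` and every element
`x` of the `K₀`-subspace `M2` satisfies `∏_{t ∈ T} π t · x ∈ ⋂_{t ∈ T} rad(π t B)` (pairwise
distinct maximal ideals `(π t)` with residue field `K₀`), then
`dim_{K₀} M2 / M + ∑_{t ∈ T} r_t ≤ #T · n`. -/
theorem relDim_add_sum_le {ι : Type*} [DecidableEq ι] (T : Finset ι) (π : ι → A)
    (hmax : ∀ t ∈ T, (Ideal.span {π t}).IsMaximal)
    (hdist : ∀ s ∈ T, ∀ t ∈ T, s ≠ t → Ideal.span {π s} ≠ Ideal.span {π t})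
    (hne : ∀ t ∈ T, π t ≠ 0)
    (hres : ∀ t ∈ T, ∀ a : A, ∃ c : K₀, a - algebraMap K₀ A c ∈ Ideal.span {π t})
    (M M2 : Submodule K₀ L) (hM : ∀ x : L, x ∈ M ↔ ∃ b : B, algebraMap B L b = x)
    (hM2 : ∀ x ∈ M2, ∃ g : B,
      (∀ t ∈ T, g ∈ ((Ideal.span {π t}).map (algebraMap A B)).radical) ∧
        algebraMap A L (∏ t ∈ T, π t) * x = algebraMap B L g) :
    Module.Finite K₀ (↥M2 ⧸ M.submoduleOf M2) ∧
    relDim M M2 + ∑ t ∈ T, finrank K₀ (B ⧸ ((Ideal.span {π t}).map (algebraMap A B)).radical)
      ≤ T.card * finrank K L := by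
  classical
  have hinjA : Function.Injective (algebraMap A L) := by
    rw [IsScalarTower.algebraMap_eq A K L]
    exact (algebraMap K L).injective.comp (IsFractionRing.injective A K)
  have hinjB : Function.Injective (algebraMap B L) := IsIntegralClosure.algebraMap_injective B A L
  set P : A := ∏ t ∈ T, π t with hP
  have hP0 : algebraMap A L P ≠ 0 := by
    intro h0
    have : P = 0 := hinjA (by rw [h0, map_zero])
    rw [hP, Finset.prod_eq_zero_iff] at this
    obtain ⟨t, ht, h0⟩ := this
    exact hne t ht h0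
  -- the ideals
  let I : ι → Ideal B := fun t => (Ideal.span {π t}).map (algebraMap A B)
  -- the embedding of `B`
  let f : B →ₗ[K₀] L := (IsScalarTower.toAlgHom K₀ B L).toLinearMap
  have hf : Function.Injective f := hinjB
  let ef := LinearEquiv.ofInjective f hf
  -- multiplication by `P`, landing in the image of `B`
  have hmul : ∀ x : M2, (LinearMap.mulLeft K₀ (algebraMap A L P) ∘ₗ M2.subtype) x
      ∈ LinearMap.range f := by
    intro x
    obtain ⟨g, -, e⟩ := hM2 x x.2
    exact ⟨g, e.symm⟩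
  let μ : ↥M2 →ₗ[K₀] B := ef.symm.toLinearMap ∘ₗ
    LinearMap.codRestrict (LinearMap.range f)
      (LinearMap.mulLeft K₀ (algebraMap A L P) ∘ₗ M2.subtype) hmul
  have hμ : ∀ x : M2, algebraMap B L (μ x) = algebraMap A L P * (x : L) := by
    intro x
    have := congrArg Subtype.val (ef.apply_symm_apply
      (LinearMap.codRestrict (LinearMap.range f)
        (LinearMap.mulLeft K₀ (algebraMap A L P) ∘ₗ M2.subtype) hmul x))
    exact this
  have hμrad : ∀ x : M2, ∀ t ∈ T, μ x ∈ (I t).radical := by
    intro x t ht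
    obtain ⟨g, hg, e⟩ := hM2 x x.2
    have : μ x = g := hinjB (by rw [hμ, e])
    rw [this]
    exact hg t ht
  -- the target
  have hn : ∀ t ∈ T, finrank K₀ (B ⧸ I t) = finrank K L := fun t ht => by
    have := hmax t ht
    exact Radical.finrank_quotient_map_eq K₀ A K L B (Ideal.span {π t}) (hres t ht)
  have hfinI : ∀ t : T, Module.Finite K₀ (B ⧸ I t) := fun t =>
    Module.finite_of_finrank_pos (by rw [hn t t.2]; exact Module.finrank_pos)
  let qt : ∀ t : T, (B ⧸ I t) →ₗ[K₀] (B ⧸ (I t).radical) := fun t =>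
    (Ideal.Quotient.factorₐ K₀ (Ideal.le_radical (I := I t))).toLinearMap
  have hqt : ∀ t : T, Function.Surjective (qt t) := fun t =>
    Ideal.Quotient.factor_surjective (Ideal.le_radical (I := I t))
  have hfinR : ∀ t : T, Module.Finite K₀ (B ⧸ (I t).radical) := fun t =>
    Module.Finite.of_surjective (qt t) (hqt t)
  let q : ((t : T) → B ⧸ I t) →ₗ[K₀] ((t : T) → B ⧸ (I t).radical) :=
    LinearMap.pi fun t => qt t ∘ₗ LinearMap.proj t
  have hq : Function.Surjective q := by
    intro w
    choose v hv using fun t => hqt t (w t)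
    exact ⟨v, funext hv⟩
  let ψ₀ : ↥M2 →ₗ[K₀] ((t : T) → B ⧸ I t) :=
    LinearMap.pi fun t => (Ideal.Quotient.mkₐ K₀ (I t)).toLinearMap ∘ₗ μ
  have hψ₀ : ∀ x, ψ₀ x ∈ LinearMap.ker q := by
    intro x
    rw [LinearMap.mem_ker]
    funext t
    show Ideal.Quotient.mk (I t).radical (μ x) = 0
    exact Ideal.Quotient.eq_zero_iff_mem.mpr (hμrad x t t.2)
  let ψ : ↥M2 →ₗ[K₀] LinearMap.ker q := LinearMap.codRestrict _ ψ₀ hψ₀
  have hker : ∀ x : M2, ψ x = 0 → (x : L) ∈ M := by
    intro x hx
    have hx0 : ψ₀ x = 0 := congrArg Subtype.val hx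
    have hmem : ∀ t ∈ T, μ x ∈ (Ideal.span {π t}).map (algebraMap A B) := fun t ht => by
      have := congrFun hx0 ⟨t, ht⟩
      exact Ideal.Quotient.eq_zero_iff_mem.mp this
    obtain ⟨b, hb⟩ := exists_eq_prod_mul A B T π hmax hdist (μ x) hmem
    rw [hM]
    refine ⟨b, ?_⟩
    apply mul_left_cancel₀ hP0
    rw [← hμ, hb, map_mul, ← IsScalarTower.algebraMap_apply]
  obtain ⟨hfin, hle⟩ := relDim_le_of_ker_le M M2 ψ hker
  refine ⟨hfin, ?_⟩
  -- dimension count
  have e1 := LinearMap.finrank_range_add_finrank_ker q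
  rw [LinearMap.range_eq_top.mpr hq, finrank_top] at e1
  have e2 : finrank K₀ ((t : T) → B ⧸ I t) = T.card * finrank K L := by
    rw [Module.finrank_pi_fintype, Finset.sum_congr rfl (fun t _ => hn t.1 t.2)]
    simp
  have e3 : finrank K₀ ((t : T) → B ⧸ (I t).radical)
      = ∑ t ∈ T, finrank K₀ (B ⧸ (I t).radical) := by
    rw [Module.finrank_pi_fintype,
      Finset.sum_coe_sort T (fun t => finrank K₀ (B ⧸ (I t).radical))]
  have e4 : ∑ t ∈ T, finrank K₀ (B ⧸ ((Ideal.span {π t}).map (algebraMap A B)).radical)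
      = ∑ t ∈ T, finrank K₀ (B ⧸ (I t).radical) := rfl
  omega

end Count

section Lite

variable {K F : Type*} [Field K] [Field F] [Algebra K F] [Algebra K[X] F] [Algebra (RatFunc K) F]
  [IsScalarTower K K[X] F] [IsScalarTower K[X] (RatFunc K) F] [IsScalarTower K (RatFunc K) F]

variable {ι : Type*} [Fintype ι] [DecidableEq ι]

omit [Algebra K[X] F] [IsScalarTower K K[X] F] [IsScalarTower K[X] (RatFunc K) F]
  [DecidableEq ι] in
/-- `dim_K (Binf / X⁻² Binf) = 2 n`. -/
theorem relDim_shift_eq (u : Basis ι (RatFunc K) F) :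
    relDim (Linf K (shift u)) (Linf K u) = 2 * Fintype.card ι := by
  let ψ : ↥(Linf K u) →ₗ[K] (ι → K × K) :=
    (LinearMap.pi fun i => ((coeffInf K 0).prod (coeffInf K 1)) ∘ₗ
      ((Finsupp.lapply i ∘ₗ u.repr.toLinearMap).restrictScalars K)) ∘ₗ (Linf K u).subtype
  have hψ : ∀ (f : Linf K u) (i : ι), ψ f i =
      ((expInf K (u.repr (f : F) i)).coeff 0, (expInf K (u.repr (f : F) i)).coeff 1) :=
    fun f i => rfl
  have hsurj : Function.Surjective ψ := by
    intro w
    have hc : ∀ i, RatFunc.C (w i).1 + RatFunc.C (w i).2 * (RatFunc.X)⁻¹ ∈ Oinf K := fun i =>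
      (Oinf K).add_mem (by rw [← RatFunc.algebraMap_eq_C]; exact (Oinf K).algebraMap_mem _)
        ((Oinf K).mul_mem (by rw [← RatFunc.algebraMap_eq_C]; exact (Oinf K).algebraMap_mem _)
          (X_inv_mem_Oinf K))
    have hrepr : ∀ i, u.repr (∑ j, (RatFunc.C (w j).1 + RatFunc.C (w j).2 * (RatFunc.X)⁻¹) • u j) i
        = RatFunc.C (w i).1 + RatFunc.C (w i).2 * (RatFunc.X)⁻¹ := by
      intro i
      rw [map_sum, Finsupp.finsetSum_apply, Finset.sum_eq_single i]
      · rw [map_smul, Basis.repr_self, Finsupp.smul_apply, Finsupp.single_eq_same, smul_eq_mul,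
          mul_one]
      · intro j _ hji
        rw [map_smul, Basis.repr_self, Finsupp.smul_apply, Finsupp.single_eq_of_ne hji.symm,
          smul_zero]
      · intro hi
        exact absurd (Finset.mem_univ i) hi
    have hmem : ∑ j, (RatFunc.C (w j).1 + RatFunc.C (w j).2 * (RatFunc.X)⁻¹) • u j ∈ Linf K u := by
      rw [mem_Linf]
      intro i
      rw [hrepr]
      exact hc i
    refine ⟨⟨_, hmem⟩, funext fun i => ?_⟩
    rw [hψ]
    simp only [hrepr]
    rw [map_add, HahnSeries.coeff_add, HahnSeries.coeff_add, expInf_C, coeff_expInf_C_mul,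
      coeff_expInf_C_mul, expInf_X_inv]
    simp [HahnSeries.C_apply]
  have hker : ∀ f : Linf K u, ψ f = 0 ↔ (f : F) ∈ Linf K (shift u) := by
    intro f
    rw [mem_Linf_shift]
    constructor
    · intro hf i
      rw [X_pow_mul_mem_Oinf_iff]
      intro m hm
      have hi := congrFun hf i
      rw [hψ] at hi
      have hf' := (mem_Linf K).mp f.2 i
      rcases lt_trichotomy m 0 with h | h | h
      · exact hf' m h
      · subst h; exact (Prod.ext_iff.mp hi).1
      · have : m = 1 := by push_cast at hm; omega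
        subst this; exact (Prod.ext_iff.mp hi).2
    · intro hf
      funext i
      rw [hψ]
      have := (X_pow_mul_mem_Oinf_iff K 2 _).mp (hf i)
      exact Prod.ext (this 0 (by norm_num)) (this 1 (by norm_num))
  rw [relDim_eq_of_surjective (Linf K (shift u)) (Linf K u) ψ hsurj hker,
    Module.finrank_pi_fintype]
  simp [mul_comm]

section Charts

variable [FiniteDimensional (RatFunc K) F] [Algebra.IsSeparable (RatFunc K) F]

omit [Algebra K F] [Algebra K[X] F] [Algebra (RatFunc K) F] [IsScalarTower K K[X] F]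
  [IsScalarTower K[X] (RatFunc K) F] [IsScalarTower K (RatFunc K) F]
  [FiniteDimensional (RatFunc K) F] [Algebra.IsSeparable (RatFunc K) F] in
/-- Over an algebraically closed field every maximal ideal of `K[X]` is of the form `(X - a)`. -/
theorem exists_eq_span_X_sub_C [IsAlgClosed K] (p : Ideal K[X]) (hp : p.IsMaximal) :
    ∃ a : K, p = Ideal.span {X - C a} := by
  obtain ⟨q, rfl⟩ : ∃ q : K[X], p = Ideal.span {q} :=
    ⟨_, (Submodule.IsPrincipal.span_singleton_generator p).symm⟩
  have hq : q.degree ≠ 0 := by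
    intro h0
    apply hp.ne_top
    rw [Ideal.span_singleton_eq_top]
    exact Polynomial.isUnit_iff_degree_eq_zero.mpr h0
  obtain ⟨a, ha⟩ := IsAlgClosed.exists_root q hq
  refine ⟨a, ?_⟩
  have hle : Ideal.span {q} ≤ Ideal.span {X - C a} := by
    rw [Ideal.span_singleton_le_iff_mem, Ideal.mem_span_singleton]
    exact Polynomial.dvd_iff_isRoot.mpr ha
  have hne : Ideal.span {X - C a} ≠ (⊤ : Ideal K[X]) := by
    rw [Ne, Ideal.span_singleton_eq_top]
    exact Polynomial.not_isUnit_X_sub_C a
  exact hp.eq_of_le hne hle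

/-- The tame upper bound on the finite chart. -/
theorem relDim_L0_add_sum_le [IsAlgClosed K] [CharZero K] {n : ℕ}
    (e : Basis (Fin n) (RatFunc K) F) (he : L0 K e = B0K K F) (T : Finset K)
    (hT : ∀ a : K, a ∉ T → rFin K F a = finrank (RatFunc K) F) :
    Module.Finite K (↥(L0 K e.traceDual) ⧸ (L0 K e).submoduleOf (L0 K e.traceDual)) ∧
    relDim (L0 K e) (L0 K e.traceDual) + ∑ a ∈ T, rFin K F a
      ≤ T.card * finrank (RatFunc K) F := by
  classical
  have hmaxa : ∀ a : K, (Ideal.span {(X - C a : K[X])}).IsMaximal := fun a =>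
    PrincipalIdealRing.isMaximal_of_irreducible (Polynomial.irreducible_X_sub_C a)
  have hmax : ∀ a ∈ T, (Ideal.span {(X - C a : K[X])}).IsMaximal := fun a _ => hmaxa a
  have hdist : ∀ a ∈ T, ∀ b ∈ T, a ≠ b →
      Ideal.span {(X - C a : K[X])} ≠ Ideal.span {(X - C b : K[X])} := by
    intro a _ b _ hab h
    have h1 : (X - C b : K[X]) ∈ Ideal.span {(X - C a : K[X])} := by
      rw [h]; exact Ideal.mem_span_singleton_self _
    rw [Ideal.mem_span_singleton, Polynomial.dvd_iff_isRoot] at h1
    simp only [IsRoot.def, eval_sub, eval_X, eval_C] at h1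
    exact hab (sub_eq_zero.mp h1)
  have hne : ∀ a ∈ T, (X - C a : K[X]) ≠ 0 := fun a _ => Polynomial.X_sub_C_ne_zero a
  have hresa : ∀ a : K, ∀ p : K[X], ∃ c : K, p - algebraMap K K[X] c ∈
      Ideal.span {(X - C a : K[X])} := by
    intro a p
    refine ⟨p.eval a, ?_⟩
    rw [Ideal.mem_span_singleton, Polynomial.dvd_iff_isRoot]
    simp
  have hres : ∀ a ∈ T, ∀ p : K[X], ∃ c : K, p - algebraMap K K[X] c ∈
      Ideal.span {(X - C a : K[X])} := fun a _ => hresa a
  have hM : ∀ x : F, x ∈ L0 K e ↔ ∃ b : integralClosure K[X] F,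
      algebraMap (integralClosure K[X] F) F b = x := by
    intro x
    rw [he, mem_B0K]
    constructor
    · intro hx
      exact ⟨⟨x, hx⟩, rfl⟩
    · rintro ⟨b, rfl⟩
      exact b.2
  have hchar : ∀ k : ℕ, k ≠ 0 → IsUnit ((k : ℕ) : K[X]) := by
    intro k hk
    rw [← Polynomial.C_eq_natCast]
    exact Polynomial.isUnit_C.mpr (IsUnit.mk0 _ (Nat.cast_ne_zero.mpr hk))
  have hall : ∀ p : Ideal K[X], p.IsMaximal → (∃ a ∈ T, p = Ideal.span {X - C a}) ∨
      ∃ ϖ : K[X], ϖ ≠ 0 ∧ p = Ideal.span {ϖ} ∧
        (p.map (algebraMap K[X] (integralClosure K[X] F))).radical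
          ≤ p.map (algebraMap K[X] (integralClosure K[X] F)) := by
    intro p hp
    obtain ⟨a, rfl⟩ := exists_eq_span_X_sub_C p hp
    by_cases ha : a ∈ T
    · exact Or.inl ⟨a, ha, rfl⟩
    · refine Or.inr ⟨X - C a, Polynomial.X_sub_C_ne_zero a, rfl, ?_⟩
      set I := (Ideal.span {(X - C a : K[X])}).map (algebraMap K[X] (integralClosure K[X] F))
        with hI
      have h1 : finrank K (↥(integralClosure K[X] F) ⧸ I) = finrank (RatFunc K) F := by
        have := hmaxa a
        exact Radical.finrank_quotient_map_eq K K[X] (RatFunc K) F (integralClosure K[X] F)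
          (Ideal.span {(X - C a : K[X])}) (hresa a)
      have h2 : finrank K (↥(integralClosure K[X] F) ⧸ I.radical) = finrank (RatFunc K) F := by
        rw [← hT a ha, rFin_eq]
      have hfree1 : Module.Free K (↥(integralClosure K[X] F) ⧸ I) :=
        Module.Free.of_divisionRing K _
      have hfin1 : Module.Finite K (↥(integralClosure K[X] F) ⧸ I) :=
        Module.finite_of_finrank_pos (by rw [h1]; exact Module.finrank_pos)
      let q : (↥(integralClosure K[X] F) ⧸ I) →ₗ[K] (↥(integralClosure K[X] F) ⧸ I.radical) :=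
        (Ideal.Quotient.factorₐ K (Ideal.le_radical (I := I))).toLinearMap
      have hq : Function.Surjective q := Ideal.Quotient.factor_surjective Ideal.le_radical
      have hfin2 : Module.Finite K (↥(integralClosure K[X] F) ⧸ I.radical) :=
        Module.Finite.of_surjective q hq
      have hfree2 : Module.Free K (↥(integralClosure K[X] F) ⧸ I.radical) :=
        Module.Free.of_divisionRing K _
      have hinj : Function.Injective q :=
        (LinearMap.injective_iff_surjective_of_finrank_eq_finrank (h1.trans h2.symm)).mpr hq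
      intro g hg
      have h0 : q (Ideal.Quotient.mk I g) = 0 := by
        show Ideal.Quotient.mk I.radical g = 0
        exact Ideal.Quotient.eq_zero_iff_mem.mpr hg
      have := hinj (h0.trans (map_zero q).symm)
      exact Ideal.Quotient.eq_zero_iff_mem.mp this
  have hM2 : ∀ x ∈ L0 K e.traceDual, ∃ g : integralClosure K[X] F,
      (∀ a ∈ T, g ∈ ((Ideal.span {(X - C a : K[X])}).map
        (algebraMap K[X] (integralClosure K[X] F))).radical) ∧
      algebraMap K[X] F (∏ a ∈ T, (X - C a)) * x = algebraMap (integralClosure K[X] F) F g := by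
    intro x hx
    refine exists_prod_mul_eq K[X] (RatFunc K) F (integralClosure K[X] F) T (fun a => X - C a)
      hne hchar hall x ?_
    intro b
    have hb : algebraMap (integralClosure K[X] F) F b ∈ L0 K e := (hM _).mpr ⟨b, rfl⟩
    exact trace_mem_of_mem_L0 K e hx hb
  obtain ⟨hfin, hle⟩ := relDim_add_sum_le K K[X] (RatFunc K) F (integralClosure K[X] F) T
    (fun a => X - C a) hmax hdist hne hres (L0 K e) (L0 K e.traceDual) hM hM2
  refine ⟨hfin, ?_⟩
  simp_rw [rFin_eq]
  exact hle

omit [Algebra K[X] F] [IsScalarTower K K[X] F] [IsScalarTower K[X] (RatFunc K) F] in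
theorem trace_mem_Oinf_of_mem_Linf (u : Basis ι (RatFunc K) F) {g f : F}
    (hg : g ∈ Linf K u.traceDual) (hf : f ∈ Linf K u) :
    Algebra.trace (RatFunc K) F (g * f) ∈ Oinf K := by
  rw [trace_mul_eq_sum K u]
  rw [mem_Linf] at hg hf
  refine Subalgebra.sum_mem _ fun i _ => (Oinf K).mul_mem (hf i) ?_
  rw [← traceDual_repr]
  exact hg i

/-- The tame upper bound on the chart at infinity. -/
theorem relDim_Linf_add_le [CharZero K] {m : ℕ} (u : Basis (Fin m) (RatFunc K) F)
    (hu : Linf K u = BinfK K F) :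
    Module.Finite K (↥(Linf K u.traceDual) ⧸ (Linf K u).submoduleOf (Linf K u.traceDual)) ∧
    relDim (Linf K u) (Linf K u.traceDual) + rInf K F ≤ finrank (RatFunc K) F := by
  classical
  have hirr := irreducible_XinvO K
  have hmax0 : (Ideal.span {XinvO K}).IsMaximal :=
    PrincipalIdealRing.isMaximal_of_irreducible hirr
  have hmax : ∀ t ∈ ({()} : Finset Unit), (Ideal.span {XinvO K}).IsMaximal := fun _ _ => hmax0
  have hM : ∀ x : F, x ∈ Linf K u ↔ ∃ b : integralClosure (Oinf K) F,
      algebraMap (integralClosure (Oinf K) F) F b = x := by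
    intro x
    rw [hu, mem_BinfK]
    constructor
    · intro hx
      exact ⟨⟨x, hx⟩, rfl⟩
    · rintro ⟨b, rfl⟩
      exact b.2
  have hchar : ∀ k : ℕ, k ≠ 0 → IsUnit ((k : ℕ) : Oinf K) := by
    intro k hk
    have h1 : IsUnit (algebraMap K (Oinf K) (k : K)) :=
      (IsUnit.mk0 (k : K) (Nat.cast_ne_zero.mpr hk)).map _
    rwa [map_natCast] at h1
  have hall : ∀ p : Ideal (Oinf K), p.IsMaximal →
      (∃ t ∈ ({()} : Finset Unit), p = Ideal.span {XinvO K}) ∨
      ∃ ϖ : Oinf K, ϖ ≠ 0 ∧ p = Ideal.span {ϖ} ∧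
        (p.map (algebraMap (Oinf K) (integralClosure (Oinf K) F))).radical
          ≤ p.map (algebraMap (Oinf K) (integralClosure (Oinf K) F)) := by
    intro p hp
    refine Or.inl ⟨(), Finset.mem_singleton_self _, ?_⟩
    rw [IsLocalRing.eq_maximalIdeal hp, hirr.maximalIdeal_eq]
  have hM2 : ∀ x ∈ Linf K u.traceDual, ∃ g : integralClosure (Oinf K) F,
      (∀ t ∈ ({()} : Finset Unit), g ∈ ((Ideal.span {XinvO K}).map
        (algebraMap (Oinf K) (integralClosure (Oinf K) F))).radical) ∧
      algebraMap (Oinf K) F (∏ _t ∈ ({()} : Finset Unit), XinvO K) * x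
        = algebraMap (integralClosure (Oinf K) F) F g := by
    intro x hx
    refine exists_prod_mul_eq (Oinf K) (RatFunc K) F (integralClosure (Oinf K) F)
      ({()} : Finset Unit) (fun _ => XinvO K) (fun _ _ => XinvO_ne_zero K) hchar hall x ?_
    intro b
    have hb : algebraMap (integralClosure (Oinf K) F) F b ∈ Linf K u := (hM _).mpr ⟨b, rfl⟩
    exact ⟨⟨_, trace_mem_Oinf_of_mem_Linf u hx hb⟩, rfl⟩
  obtain ⟨hfin, hle⟩ := relDim_add_sum_le K (Oinf K) (RatFunc K) F
    (integralClosure (Oinf K) F) ({()} : Finset Unit) (fun _ => XinvO K) hmax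
    (fun s _ t _ hst => absurd (Subsingleton.elim s t) hst) (fun _ _ => XinvO_ne_zero K)
    (fun _ _ a => exists_sub_mem_span_XinvO K a) (Linf K u) (Linf K u.traceDual) hM hM2
  refine ⟨hfin, ?_⟩
  rw [Finset.sum_singleton, Finset.card_singleton, one_mul] at hle
  rw [rInf_eq]
  exact hle

omit [Algebra K[X] F] [IsScalarTower K K[X] F] [IsScalarTower K[X] (RatFunc K) F] in
/-- Scaling by `X²` compares the pair `(X⁻² Binf, X⁻² Binf^∨)` with `(Binf, Binf^∨)`. -/
theorem relDim_shift_twist_le (u : Basis ι (RatFunc K) F)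
    [Module.Finite K (↥(Linf K u.traceDual) ⧸ (Linf K u).submoduleOf (Linf K u.traceDual))] :
    relDim (Linf K (shift u)) (Linf K (twist K u)) ≤ relDim (Linf K u) (Linf K u.traceDual) := by
  let ψ : F →ₗ[K] F :=
    (((RatFunc.X : RatFunc K) ^ 2) • (LinearMap.id : F →ₗ[RatFunc K] F)).restrictScalars K
  have hψ : ∀ f, ψ f = ((RatFunc.X : RatFunc K) ^ 2) • f := fun f => rfl
  refine (relDim_le_relDim (Linf K (shift u)) (Linf K (twist K u)) (Linf K u)
    (Linf K u.traceDual) ψ ?_ ?_).2
  · intro f hf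
    rw [mem_Linf_twist] at hf
    rw [hψ, mem_Linf]
    intro i
    rw [traceDual_repr, smul_mul_assoc, map_smul, smul_eq_mul]
    exact hf i
  · intro f _ hf
    rw [hψ, mem_Linf] at hf
    rw [mem_Linf_shift]
    intro i
    have := hf i
    rwa [map_smul, Finsupp.smul_apply, smul_eq_mul] at this

variable (K F)

/-- **THEOREM B** (tame upper bound, the reverse of `RRLite.theoremA`): if `F / K(X)` is
unramified over every finite `a ∉ T` (characteristic zero), then
`2 dim_K Omega + 2 n + ∑_{a ∈ T} r_a + r_∞ ≤ 2 + (#T + 1) n`. -/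
theorem theoremB [IsAlgClosed K] [CharZero K] (T : Finset K)
    (hT : ∀ a : K, a ∉ T → rFin K F a = finrank (RatFunc K) F) :
    2 * finrank K (Omega K F) + 2 * finrank (RatFunc K) F + ∑ a ∈ T, rFin K F a + rInf K F
      ≤ 2 + (T.card + 1) * finrank (RatFunc K) F := by
  obtain ⟨n, e, he⟩ := exists_basis_B0 K F
  obtain ⟨m, u, hu⟩ := exists_basis_Binf K F
  obtain ⟨hΩ, g1, g3, hid⟩ := main_identity e u he hu
  have hm : finrank (RatFunc K) F = m := by
    rw [Module.finrank_eq_card_basis u, Fintype.card_fin]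
  have ha := relDim_shift_eq u
  rw [Fintype.card_fin] at ha
  obtain ⟨-, hb⟩ := relDim_L0_add_sum_le e he T hT
  obtain ⟨hfin, hc⟩ := relDim_Linf_add_le u hu
  have hc' := relDim_shift_twist_le u
  have hmul : (T.card + 1) * finrank (RatFunc K) F
      = T.card * finrank (RatFunc K) F + finrank (RatFunc K) F := by ring
  omega

end Charts

end Lite

end Fermat.Agent.S18.RRTame

end
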