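import Mathlib
import Fermat.Agent.S18.CLCentre
import Fermat.Agent.S18.CLOrbitB
import Fermat.Agent.S18.CLCentreM0
import Fermat.Agent.S18.SQOmega
import Fermat.Agent.S18.PHyp
import Fermat.Agent.S18.Num
import Fermat.Agent.S18.LiftDeg
import Fermat.Agent.S18.PFrob
import Fermat.Agent.S24.Comb.Count
import Fermat.Agent.S28.A0Poly
import Fermat.Agent.S28.A0Theta

set_option autoImplicit false

open ModularCurve IntermediateField AlgebraicCurve Module
open scoped MatrixGroups

namespace Fermat.Agent.S18.SQAsmB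

open Fermat.Agent.S24 Fermat.Agent.S20 Fermat.Agent.S20.RRLite

noncomputable section

/-! ### The literal input statement -/

/-- helper16's E2 (board #913, literal): a complete rotation-stable family of reduced cusp
embeddings of `k(X₀(N))` into `k((u))`. -/
def HasSigma (k : Type) [Field k] (N : ℕ) [NeZero N] : Prop :=
  ∃ (σ : SL(2, ℤ) ⧸ CongruenceSubgroup.Gamma0 N →
      ↥(modularFunctionFieldFullC k N) →+* LaurentSeries k) (ζ : k),
    IsPrimitiveRoot ζ N ∧
    (∀ i (c : k), σ i (algebraMap k ↥(modularFunctionFieldFullC k N) c) = HahnSeries.C c) ∧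
    Function.Injective σ ∧
    (∀ i (f : ↥(modularFunctionFieldFullC k N)) (n : ℤ),
      (σ (cosetPerm N ModularGroup.T⁻¹ i) f).coeff n = ζ ^ n * (σ i f).coeff n) ∧
    (∀ i, σ i ⟨jqModC k, jqModC_mem_full k N⟩ = qExpand k N (jqModC k))

/-! ### Laurent series lemmas -/

section Laurent

variable {R : Type*} [CommRing R]

theorem order_qExpand (N : ℕ) [NeZero N] (f : LaurentSeries R) :
    (qExpand R N f).order = (N : ℤ) * f.order := by
  by_cases hf : f = 0
  · rw [hf, map_zero, HahnSeries.order_zero, mul_zero]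
  have hg : qExpand R N f ≠ 0 := fun h => hf (qExpand_injective N (by rw [h, map_zero]))
  have hN : (0 : ℤ) < N := by exact_mod_cast Nat.pos_of_ne_zero (NeZero.ne N)
  apply le_antisymm
  · apply HahnSeries.order_le_of_coeff_ne_zero
    rw [qExpand_coeff_mul]
    exact fun h => hf (HahnSeries.coeff_order_eq_zero.mp h)
  · have h1 : (qExpand R N f).coeff (qExpand R N f).order ≠ 0 :=
      fun h => hg (HahnSeries.coeff_order_eq_zero.mp h)
    have hdvd : (N : ℤ) ∣ (qExpand R N f).order := by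
      by_contra hnd
      exact h1 (qExpand_coeff_of_not_dvd N f hnd)
    obtain ⟨m, hm⟩ := hdvd
    rw [hm, qExpand_coeff_mul] at h1
    have := HahnSeries.order_le_of_coeff_ne_zero h1
    rw [hm]
    exact mul_le_mul_of_nonneg_left this hN.le

end Laurent

section Frob

variable (k : Type*) [Field k] (ℓ : ℕ) [Fact ℓ.Prime] [CharP k ℓ]

omit [Fact ℓ.Prime] in
/-- `J` is not an `ℓ`-th power in `k((q))` (apply `θ = q d/dq`). -/
theorem jqModC_ne_pow (z : LaurentSeries k) : z ^ ℓ ≠ jqModC k := by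
  intro h
  have h1 : S28.A0Theta.theta (z ^ ℓ) = 0 := by
    rw [Derivation.leibniz_pow]
    have : (ℓ : LaurentSeries k) = 0 := by
      have h0 : ((ℓ : ℕ) : k) = 0 := CharP.cast_eq_zero k ℓ
      rw [← map_natCast (algebraMap k (LaurentSeries k)), h0, map_zero]
    rw [← Nat.cast_smul_eq_nsmul (LaurentSeries k), this, zero_smul]
  rw [h] at h1
  have h2 := congrArg (fun f : LaurentSeries k => f.coeff (-1)) h1
  simp only [S28.A0Theta.theta_coeff, HahnSeries.coeff_zero] at h2
  rw [coeff_jqModC_neg_one] at h2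
  simp at h2

end Frob


/-! ### Generic intermediate-field glue -/

section Glue

variable {K E : Type*} [Field K] [Field E] [Algebra K E]

theorem mem_adjoin_simple_iff_coe (B : IntermediateField K E) (x a : ↥B) :
    a ∈ K⟮x⟯ ↔ (a : E) ∈ K⟮(x : E)⟯ := by
  have h1 : (K⟮x⟯).map B.val = K⟮(x : E)⟯ := by
    rw [IntermediateField.adjoin_map]
    simp
  rw [← h1, IntermediateField.mem_map]
  constructor
  · intro h
    exact ⟨a, h, rfl⟩
  · rintro ⟨b, hb, hba⟩
    have : b = a := Subtype.ext hba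
    rwa [← this]

/-- separability passes to the top of a tower of simple subextensions -/
theorem isSeparable_of_mem_adjoin {F : Type*} [Field F] [Algebra K F] (J x : F)
    (hJ : J ∈ K⟮x⟯) [Algebra.IsSeparable K⟮J⟯ F] : Algebra.IsSeparable K⟮x⟯ F := by
  have hle : K⟮J⟯ ≤ K⟮x⟯ := IntermediateField.adjoin_simple_le_iff.mpr hJ
  let _ : Algebra K⟮J⟯ K⟮x⟯ := (IntermediateField.inclusion hle).toRingHom.toAlgebra
  have : IsScalarTower K⟮J⟯ K⟮x⟯ F := IsScalarTower.of_algebraMap_eq fun _ => rfl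
  exact Algebra.isSeparable_tower_top_of_isSeparable K⟮J⟯ K⟮x⟯ F

end Glue

/-! ### Base setup at level `M` -/

section Base

variable (k : Type) [Field k] (ℓ : ℕ) [Fact ℓ.Prime] [CharP k ℓ] (M : ℕ) [NeZero M]

/-- `J` as an element of `k(X₀(M))`. -/
def xJ : ↥(modularFunctionFieldFullC k M) := ⟨jqModC k, jqModC_mem_full k M⟩

omit [Fact ℓ.Prime] [CharP k ℓ] [NeZero M] in
theorem coe_xJ : ((xJ k M : ↥(modularFunctionFieldFullC k M)) : LaurentSeries k) = jqModC k := rfl

omit [Fact ℓ.Prime] [CharP k ℓ] [NeZero M] in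
theorem transcendental_xJ : Transcendental k (xJ k M) := by
  intro h
  apply S28.LevelData.transcendental_jqModC k
  have := h.algHom (modularFunctionFieldFullC k M).val
  exact this

theorem finrank_xJ (hℓM : ¬ ℓ ∣ M) :
    finrank k⟮xJ k M⟯ ↥(modularFunctionFieldFullC k M) = dedekindPsi M := by
  rw [LiftD.finrank_adjoin_eq_relfinrank]
  exact LiftD.relfinrank_fullC k ℓ M hℓM

theorem finiteDimensional_xJ (hℓM : ¬ ℓ ∣ M) :
    FiniteDimensional k⟮xJ k M⟯ ↥(modularFunctionFieldFullC k M) :=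
  Module.finite_of_finrank_pos (by
    rw [finrank_xJ k ℓ M hℓM]
    exact LiftD.dedekindPsi_pos M)

theorem isSeparable_xJ [IsAlgClosed k] (hℓM : ¬ ℓ ∣ M) :
    Algebra.IsSeparable k⟮xJ k M⟯ ↥(modularFunctionFieldFullC k M) := by
  have := finiteDimensional_xJ k ℓ M hℓM
  have : CharP ↥(modularFunctionFieldFullC k M) ℓ :=
    charP_of_injective_algebraMap (algebraMap k ↥(modularFunctionFieldFullC k M)).injective ℓ
  refine PFrob.isSeparable_of_not_mem ℓ (xJ k M) (g := xJ k M) ?_
  intro h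
  obtain ⟨z, hz⟩ := (PFrob.mem_Fpn ℓ).mp h
  apply jqModC_ne_pow k ℓ (z : LaurentSeries k)
  have h2 := congrArg (fun a : ↥(modularFunctionFieldFullC k M) => (a : LaurentSeries k)) hz
  simp only [pow_one, SubmonoidClass.coe_pow, coe_xJ] at h2
  exact h2

omit [Fact ℓ.Prime] [CharP k ℓ] [NeZero M] in
theorem transcendental_of_order_neg [IsAlgClosed k] (x : ↥(modularFunctionFieldFullC k M))
    (hx : (x : LaurentSeries k).order < 0) : Transcendental k x := by
  intro halg
  obtain ⟨c, hc⟩ := Places.exists_algebraMap_eq_of_isAlgebraic halg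
  have h1 : (x : LaurentSeries k) = HahnSeries.C c := by
    rw [← hc]
    show algebraMap k (LaurentSeries k) c = _
    rw [algebraMap_laurentSeries_eq_single]
    rfl
  rw [h1, HahnSeries.order_C] at hx
  exact lt_irrefl _ hx

end Base


/-! ### Transfer of embeddings from level `M₀` to level `M` -/

section Transfer

variable (k : Type) [Field k] [IsAlgClosed k] (ℓ : ℕ) [Fact ℓ.Prime] [CharP k ℓ]
variable (M₀ M : ℕ) [NeZero M₀] [NeZero M]

/-- **Transfer.**  A `k`-embedding `τ` of `k(X₀(M₀))` into `k((u))` with `τ J = J(u^M₀)`,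
reparametrised by `u ↦ u^e` (`e M₀ = M`), is the restriction of a member of any complete family
of embeddings of `k(X₀(M))` with `σ i J = J(u^M)`. -/
theorem exists_extension (h0 : M₀ ∣ M) (hℓM : ¬ ℓ ∣ M)
    (σ : SL(2, ℤ) ⧸ CongruenceSubgroup.Gamma0 M →
      ↥(modularFunctionFieldFullC k M) →+* LaurentSeries k)
    (hσinj : Function.Injective σ)
    (hσK : ∀ i c, σ i (algebraMap k ↥(modularFunctionFieldFullC k M) c) = HahnSeries.C c)
    (hσJ : ∀ i, σ i (xJ k M) = qExpand k M (jqModC k))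
    (e : ℕ) [NeZero e] (he : e * M₀ = M)
    (τ : ↥(modularFunctionFieldFullC k M₀) →+* LaurentSeries k)
    (hτK : ∀ c, τ (algebraMap k ↥(modularFunctionFieldFullC k M₀) c) = HahnSeries.C c)
    (hτJ : τ (xJ k M₀) = qExpand k M₀ (jqModC k)) :
    ∃ i, ∀ (f : ↥(modularFunctionFieldFullC k M)) (f₀ : ↥(modularFunctionFieldFullC k M₀)),
      (f : LaurentSeries k) = (f₀ : LaurentSeries k) → σ i f = qExpand k e (τ f₀) := by
  classical
  have : Fintype (SL(2, ℤ) ⧸ CongruenceSubgroup.Gamma0 M) := Fintype.ofFinite _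
  have hcard : Fintype.card (SL(2, ℤ) ⧸ CongruenceSubgroup.Gamma0 M) =
      finrank k⟮xJ k M⟯ ↥(modularFunctionFieldFullC k M) := by
    rw [finrank_xJ k ℓ M hℓM, ← Comb.card_coset M, Nat.card_eq_fintype_card]
  have := finiteDimensional_xJ k ℓ M hℓM
  have := isSeparable_xJ k ℓ M hℓM
  have hle : modularFunctionFieldFullC k M₀ ≤ modularFunctionFieldFullC k M :=
    full_degeneracyC_le k h0
  let _ : Algebra ↥(modularFunctionFieldFullC k M₀) ↥(modularFunctionFieldFullC k M) :=
    (IntermediateField.inclusion hle).toRingHom.toAlgebra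
  have hck : ∀ a : ↥(modularFunctionFieldFullC k M₀),
      ((algebraMap ↥(modularFunctionFieldFullC k M₀) ↥(modularFunctionFieldFullC k M) a :
        ↥(modularFunctionFieldFullC k M)) : LaurentSeries k) = a := fun _ => rfl
  have hfin : Module.Finite ↥(modularFunctionFieldFullC k M₀) ↥(modularFunctionFieldFullC k M) :=
    LiftD.finite_fullC k ℓ h0 hℓM hck
  have halg : Algebra.IsAlgebraic ↥(modularFunctionFieldFullC k M₀)
      ↥(modularFunctionFieldFullC k M) := Algebra.IsAlgebraic.of_finite _ _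
  let Ω := AlgebraicClosure (LaurentSeries k)
  let τΩ : ↥(modularFunctionFieldFullC k M₀) →+* Ω :=
    (algebraMap (LaurentSeries k) Ω).comp ((qExpand k e).comp τ)
  let _ : Algebra ↥(modularFunctionFieldFullC k M₀) Ω := τΩ.toAlgebra
  let ψA : ↥(modularFunctionFieldFullC k M) →ₐ[↥(modularFunctionFieldFullC k M₀)] Ω :=
    IsAlgClosed.lift
  have hψ : ∀ f₀ : ↥(modularFunctionFieldFullC k M₀),
      ψA (algebraMap ↥(modularFunctionFieldFullC k M₀) ↥(modularFunctionFieldFullC k M) f₀) =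
        algebraMap (LaurentSeries k) Ω (qExpand k e (τ f₀)) := fun f₀ => ψA.commutes f₀
  have hψK : ∀ c : k, ψA.toRingHom (algebraMap k ↥(modularFunctionFieldFullC k M) c) =
      algebraMap (LaurentSeries k) Ω (HahnSeries.C c) := by
    intro c
    have h1 : algebraMap k ↥(modularFunctionFieldFullC k M) c =
        algebraMap ↥(modularFunctionFieldFullC k M₀) ↥(modularFunctionFieldFullC k M)
          (algebraMap k ↥(modularFunctionFieldFullC k M₀) c) := Subtype.ext rfl
    rw [h1]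
    show ψA _ = _
    rw [hψ, hτK, qExpand_C]
  let i₀ : SL(2, ℤ) ⧸ CongruenceSubgroup.Gamma0 M := QuotientGroup.mk 1
  have hψJ : ψA.toRingHom (xJ k M) = algebraMap (LaurentSeries k) Ω (σ i₀ (xJ k M)) := by
    have h1 : xJ k M =
        algebraMap ↥(modularFunctionFieldFullC k M₀) ↥(modularFunctionFieldFullC k M)
          (xJ k M₀) := Subtype.ext rfl
    rw [h1]
    show ψA _ = _
    rw [hψ, hτJ, qExpand_qExpand, ← h1, hσJ]
    rw [qExpand_congr he]
  obtain ⟨i, hi⟩ := CLO.exists_eq_of_ringHom σ hσinj hσK (xJ k M)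
    (fun i j => by rw [hσJ, hσJ]) hcard i₀ ψA.toRingHom hψK hψJ
  refine ⟨i, fun f f₀ hff => ?_⟩
  have h1 : f = algebraMap ↥(modularFunctionFieldFullC k M₀) ↥(modularFunctionFieldFullC k M) f₀ :=
    Subtype.ext hff
  have h2 := hi f
  rw [h1] at h2 ⊢
  have h3 : ψA.toRingHom (algebraMap ↥(modularFunctionFieldFullC k M₀)
      ↥(modularFunctionFieldFullC k M) f₀) = algebraMap (LaurentSeries k) Ω (qExpand k e (τ f₀)) :=
    hψ f₀
  rw [h3] at h2
  exact ((algebraMap (LaurentSeries k) Ω).injective h2).symm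

end Transfer


/-! ### Theorem A with the cusp count, in terms of `x` -/

section Wrapped

variable {K F : Type*} [Field K] [IsAlgClosed K] [Field F] [Algebra K F]

theorem two_add_card_mul_le_wrap (x : F) (hx : Transcendental K x)
    [FiniteDimensional K⟮x⟯ F] [Algebra.IsSeparable K⟮x⟯ F]
    {I : Type*} [Fintype I] (σ : I → F →+* LaurentSeries K) (hσ : Function.Injective σ)
    (hK : ∀ i (c : K), σ i (algebraMap K F c) = HahnSeries.C c)
    (ρ : Equiv.Perm I) (ζ : K) (hζ : ζ ≠ 0)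
    (hrot : ∀ (i : I) (f : F) (n : ℤ), (σ (ρ i) f).coeff n = ζ ^ n * (σ i f).coeff n)
    (J : F) (hJ : J ∈ K⟮x⟯) (hagree : ∀ i j, σ i J = σ j J)
    [FiniteDimensional K⟮J⟯ F] [Algebra.IsSeparable K⟮J⟯ F]
    (hcard : Fintype.card I = finrank K⟮J⟯ F)
    (T : Finset K) (hT : ∀ a ∈ T, ∃ i, 0 < (σ i (x - algebraMap K F a)).order) :
    letI := Wrap.polyAlgebra (K := K) x
    letI := Wrap.ratAlgebra x hx
    haveI := Wrap.tower_poly (K := K) x
    haveI := (Wrap.tower_rat x hx).1
    haveI := (Wrap.tower_rat x hx).2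
    2 + T.card * finrank K⟮x⟯ F ≤ 2 * finrank K (Omega K F) + 2 * finrank K⟮x⟯ F + cyc ρ := by
  let _ := Wrap.polyAlgebra (K := K) x
  let _ := Wrap.ratAlgebra x hx
  have := Wrap.tower_poly (K := K) x
  have := (Wrap.tower_rat x hx).1
  have := (Wrap.tower_rat x hx).2
  have := (Wrap.finrank_eq x hx).1
  have := SQO.isSeparable_rat x hx
  have hJr : J ∈ Set.range (algebraMap (RatFunc K) F) := by
    refine ⟨(RatFunc.algEquivOfTranscendental x hx).symm ⟨J, hJ⟩, ?_⟩
    show Wrap.ratHom x hx _ = J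
    rw [Wrap.ratHom_eq_algEquiv, AlgEquiv.apply_symm_apply]
  have h := CLOB.two_add_card_mul_le K F σ hσ hK ρ ζ hζ hrot J hJr hagree hcard T (fun a ha => by
    obtain ⟨i, hi⟩ := hT a ha
    refine ⟨i, ?_⟩
    have h1 : algebraMap (Polynomial K) F (Polynomial.X - Polynomial.C a) = x - algebraMap K F a := by
      show Polynomial.aeval x (Polynomial.X - Polynomial.C a) = _
      simp
    rwa [h1])
  rwa [(Wrap.finrank_eq x hx).2] at h

end Wrapped

/-! ### Assembly -/

section Assembly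

variable (k : Type) [Field k] [IsAlgClosed k] (ℓ : ℕ) [Fact ℓ.Prime] [CharP k ℓ]
variable (M₀ M : ℕ) [NeZero M₀] [NeZero M]

omit [IsAlgClosed k] [Fact ℓ.Prime] [CharP k ℓ] [NeZero M₀] [NeZero M] in
/-- A generator of `k(X₀(M₀))` over `k` is transcendental. -/
theorem transcendental_of_adjoin_eq (x : ↥(modularFunctionFieldFullC k M))
    (hx : k⟮(x : LaurentSeries k)⟯ = modularFunctionFieldFullC k M₀) : Transcendental k x := by
  intro halg
  have halg' : IsAlgebraic k (x : LaurentSeries k) :=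
    halg.algHom (modularFunctionFieldFullC k M).val
  have := IntermediateField.isAlgebraic_adjoin_simple halg'.isIntegral
  have hJ : jqModC k ∈ k⟮(x : LaurentSeries k)⟯ := by
    rw [hx]
    exact jqModC_mem_full k M₀
  have h2 : IsAlgebraic k (⟨jqModC k, hJ⟩ : k⟮(x : LaurentSeries k)⟯) :=
    Algebra.IsAlgebraic.isAlgebraic _
  exact S28.LevelData.transcendental_jqModC k (h2.algHom (k⟮(x : LaurentSeries k)⟯).val)

/-- **Transfer of a centre** from level `M₀` to level `M`. -/
theorem exists_centre_transfer (h0 : M₀ ∣ M) (hℓM : ¬ ℓ ∣ M)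
    (σ : SL(2, ℤ) ⧸ CongruenceSubgroup.Gamma0 M →
      ↥(modularFunctionFieldFullC k M) →+* LaurentSeries k)
    (hσinj : Function.Injective σ)
    (hσK : ∀ i c, σ i (algebraMap k ↥(modularFunctionFieldFullC k M) c) = HahnSeries.C c)
    (hσJ : ∀ i, σ i (xJ k M) = qExpand k M (jqModC k))
    (τ : ↥(modularFunctionFieldFullC k M₀) →+* LaurentSeries k)
    (hτK : ∀ c, τ (algebraMap k ↥(modularFunctionFieldFullC k M₀) c) = HahnSeries.C c)
    (hτJ : τ (xJ k M₀) = qExpand k M₀ (jqModC k))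
    (x : ↥(modularFunctionFieldFullC k M)) (y : ↥(modularFunctionFieldFullC k M₀))
    (hxy : (x : LaurentSeries k) = (y : LaurentSeries k)) (a : k)
    (ha : 0 < (τ (y - algebraMap k ↥(modularFunctionFieldFullC k M₀) a)).order) :
    ∃ i, 0 < (σ i (x - algebraMap k ↥(modularFunctionFieldFullC k M) a)).order := by
  have hM : M ≠ 0 := NeZero.ne M
  have he : M / M₀ * M₀ = M := Nat.div_mul_cancel h0
  have : NeZero (M / M₀) := ⟨fun h => hM (by rw [← he, h, zero_mul])⟩
  obtain ⟨i, hi⟩ := exists_extension k ℓ M₀ M h0 hℓM σ hσinj hσK hσJ (M / M₀) he τ hτK hτJ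
  refine ⟨i, ?_⟩
  rw [hi (x - algebraMap k ↥(modularFunctionFieldFullC k M) a)
    (y - algebraMap k ↥(modularFunctionFieldFullC k M₀) a) (by
      show (x : LaurentSeries k) - _ = (y : LaurentSeries k) - _
      rw [hxy]
      rfl), order_qExpand]
  exact mul_pos (by exact_mod_cast Nat.pos_of_ne_zero (NeZero.ne (M / M₀))) ha

/-- **SQ-A.**  The genus formula is a lower bound for the Riemann genus of the reduced modular
function field `k(X₀(M))` (`k` algebraically closed of characteristic `ℓ ∤ M`, `M₀ ∣ M` with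
`M₀ ∈ {4, 9}`), given the families of reduced cusp embeddings at the levels `M₀` and `M` and the
rationality of `k(X₀(M₀))`. -/
theorem genusFormula_le_genusR (h0 : M₀ ∣ M) (hℓM : ¬ ℓ ∣ M) (hM₀ : M₀ = 4 ∨ M₀ = 9)
    (hσ0 : HasSigma k M₀) (hσ : HasSigma k M)
    (hR : ∃ y : LaurentSeries k, k⟮y⟯ = modularFunctionFieldFullC k M₀) :
    (genusFormula M : ℚ) ≤ (PHyp.genusR k ↥(modularFunctionFieldFullC k M) : ℚ) := by
  classical
  have hℓM₀ : ¬ ℓ ∣ M₀ := fun h => hℓM (h.trans h0)
  obtain ⟨σ0, ζ0, hζ0, hK0, hinj0, hrot0, hJ0⟩ := hσ0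
  obtain ⟨σ, ζ, hζ, hK, hinj, hrot, hJ⟩ := hσ
  obtain ⟨y, hy⟩ := hR
  have hymem : y ∈ modularFunctionFieldFullC k M₀ := by
    rw [← hy]
    exact IntermediateField.mem_adjoin_simple_self k y
  have : Fintype (SL(2, ℤ) ⧸ CongruenceSubgroup.Gamma0 M₀) := Fintype.ofFinite _
  have : Fintype (SL(2, ℤ) ⧸ CongruenceSubgroup.Gamma0 M) := Fintype.ofFinite _
  obtain ⟨y', S, hy', hS, hc⟩ := CLCentreM0.exists_centres_finite_level ℓ σ0 hℓM₀ ζ0 hζ0 hK0
    hinj0 hrot0 hJ0 ⟨y, hymem⟩ hy
  have hle : modularFunctionFieldFullC k M₀ ≤ modularFunctionFieldFullC k M :=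
    full_degeneracyC_le k h0
  obtain ⟨x, hxy⟩ : ∃ x : ↥(modularFunctionFieldFullC k M),
      (x : LaurentSeries k) = (y' : LaurentSeries k) := ⟨⟨(y' : LaurentSeries k), hle y'.2⟩, rfl⟩
  have hxgen : k⟮(x : LaurentSeries k)⟯ = modularFunctionFieldFullC k M₀ := by rw [hxy, hy']
  have hx : Transcendental k x := transcendental_of_adjoin_eq k M₀ M x hxgen
  have hJx : xJ k M ∈ k⟮x⟯ := by
    rw [mem_adjoin_simple_iff_coe, hxgen]
    exact jqModC_mem_full k M₀
  have := finiteDimensional_xJ k ℓ M hℓM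
  have := isSeparable_xJ k ℓ M hℓM
  have : FiniteDimensional k⟮x⟯ ↥(modularFunctionFieldFullC k M) :=
    Places.finiteDimensional_of_transcendental (xJ k M) hx
  have : Algebra.IsSeparable k⟮x⟯ ↥(modularFunctionFieldFullC k M) :=
    isSeparable_of_mem_adjoin (xJ k M) x hJx
  have hdeg : dedekindPsi M₀ * finrank k⟮x⟯ ↥(modularFunctionFieldFullC k M) = dedekindPsi M := by
    rw [LiftD.finrank_adjoin_eq_relfinrank, hxgen]
    exact LiftD.relfinrank_fullC_mul k ℓ h0 hℓM
  have hT : ∀ a ∈ S, ∃ i,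
      0 < (σ i (x - algebraMap k ↥(modularFunctionFieldFullC k M) a)).order := by
    intro a ha
    obtain ⟨i0, hi0⟩ := hc a ha
    exact exists_centre_transfer k ℓ M₀ M h0 hℓM σ hinj hK hJ (σ0 i0) (hK0 i0) (hJ0 i0) x y' hxy a
      hi0
  have hcard : Fintype.card (SL(2, ℤ) ⧸ CongruenceSubgroup.Gamma0 M) =
      finrank k⟮xJ k M⟯ ↥(modularFunctionFieldFullC k M) := by
    rw [finrank_xJ k ℓ M hℓM, ← Comb.card_coset M, Nat.card_eq_fintype_card]
  have key := two_add_card_mul_le_wrap x hx σ hinj hK (cosetPerm M ModularGroup.T⁻¹) ζ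
    (hζ.ne_zero (NeZero.ne M)) hrot (xJ k M) hJx (fun i j => (hJ i).trans (hJ j).symm) hcard S hT
  rw [CLCentreM0.cyc_T_inv M] at key
  obtain ⟨c, hcg⟩ := (PHyp.genusR_spec (PHyp.hyp_of_finite x hx)).2
  have hΩ := SQO.omega_le_genus x hx (PHyp.genusR k ↥(modularFunctionFieldFullC k M)) c hcg
  have hΩ' := (Int.cast_le (R := ℚ)).mpr hΩ
  rw [Int.cast_natCast] at hΩ'
  refine le_trans ?_ hΩ'
  rcases hM₀ with rfl | rfl
  · refine Num.genusFormula_le_of_four h0 (by rw [← hdeg, Num.dedekindPsi_four]) ?_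
    rw [Num.cuspCount_four] at hS
    have := Nat.mul_le_mul_right (finrank k⟮x⟯ ↥(modularFunctionFieldFullC k M)) hS
    omega
  · refine Num.genusFormula_le_of_nine h0 (by rw [← hdeg, Num.dedekindPsi_nine]) ?_
    rw [Num.cuspCount_nine] at hS
    have := Nat.mul_le_mul_right (finrank k⟮x⟯ ↥(modularFunctionFieldFullC k M)) hS
    omega

end Assembly

end

end Fermat.Agent.S18.SQAsmB
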