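import Mathlib
import Fermat.Prelude.Def_ModularCurve_GenusNumerics

/-!
# S18, chain SQ: numerics of the genus formula at the auxiliary levels

At a level `M` divisible by `4` (or by `9`) there are no elliptic points, so the classical genus
formula is `1 + ψ(M)/12 - c(M)/2`; this is the number produced by the Riemann–Hurwitz inequality
(RR-lite Theorem A) over `X₀(4)` (three cusps, `ψ(4) = 6`) resp. `X₀(9)` (four cusps,
`ψ(9) = 12`).
-/

set_option autoImplicit false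

namespace Fermat.Agent.S18.SQNum

open ModularCurve

theorem nuTwo_eq_zero_of_four_dvd {M : ℕ} (h : 4 ∣ M) : nuTwo M = 0 := by
  unfold nuTwo
  rw [Nat.card_eq_zero]
  left
  refine ⟨fun ⟨x, hx⟩ => ?_⟩
  have h1 := congrArg (ZMod.castHom h (ZMod 4)) hx
  simp only [map_add, map_pow, map_one, map_zero] at h1
  revert h1
  generalize ZMod.castHom h (ZMod 4) x = y
  revert y
  decide

theorem nuTwo_eq_zero_of_three_dvd {M : ℕ} (h : 3 ∣ M) : nuTwo M = 0 := by
  unfold nuTwo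
  rw [Nat.card_eq_zero]
  left
  refine ⟨fun ⟨x, hx⟩ => ?_⟩
  have h1 := congrArg (ZMod.castHom h (ZMod 3)) hx
  simp only [map_add, map_pow, map_one, map_zero] at h1
  revert h1
  generalize ZMod.castHom h (ZMod 3) x = y
  revert y
  decide

theorem nuThree_eq_zero_of_two_dvd {M : ℕ} (h : 2 ∣ M) : nuThree M = 0 := by
  unfold nuThree
  rw [Nat.card_eq_zero]
  left
  refine ⟨fun ⟨x, hx⟩ => ?_⟩
  have h1 := congrArg (ZMod.castHom h (ZMod 2)) hx
  simp only [map_add, map_pow, map_one, map_zero] at h1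
  revert h1
  generalize ZMod.castHom h (ZMod 2) x = y
  revert y
  decide

theorem nuThree_eq_zero_of_nine_dvd {M : ℕ} (h : 9 ∣ M) : nuThree M = 0 := by
  unfold nuThree
  rw [Nat.card_eq_zero]
  left
  refine ⟨fun ⟨x, hx⟩ => ?_⟩
  have h1 := congrArg (ZMod.castHom h (ZMod 9)) hx
  simp only [map_add, map_pow, map_one, map_zero] at h1
  revert h1
  generalize ZMod.castHom h (ZMod 9) x = y
  revert y
  decide

/-- No elliptic points at a level divisible by `4`. -/
theorem genusFormula_of_four_dvd {M : ℕ} (h : 4 ∣ M) :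
    genusFormula M = 1 + (dedekindPsi M : ℚ) / 12 - (cuspCount M : ℚ) / 2 := by
  unfold genusFormula
  rw [nuTwo_eq_zero_of_four_dvd h, nuThree_eq_zero_of_two_dvd (Dvd.dvd.trans (by norm_num) h)]
  simp

/-- No elliptic points at a level divisible by `9`. -/
theorem genusFormula_of_nine_dvd {M : ℕ} (h : 9 ∣ M) :
    genusFormula M = 1 + (dedekindPsi M : ℚ) / 12 - (cuspCount M : ℚ) / 2 := by
  unfold genusFormula
  rw [nuTwo_eq_zero_of_three_dvd (Dvd.dvd.trans (by norm_num) h), nuThree_eq_zero_of_nine_dvd h]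
  simp

/-- The Riemann–Hurwitz inequality over a genus-`0` base with `s` branch points, all of them
cusps, of degree `b = 6 (s - 2)` over the `j`-line (`s = 3`, `b = ψ(4) = 6` for `X₀(4)`; `s = 4`,
`b = ψ(9) = 12` for `X₀(9)`), in the shape produced by RR-lite Theorem A:
`2 + S ≤ 2 Ω + 2 n` where `S = Σ_{branch points} (n - r_a) ≥ s n - c` (at most `c` points in total
over the branch points) and `ψ = b n` is the degree over the `j`-line. -/
theorem le_omega_of_theoremA {n Ω c S ψ b s : ℕ} (hA : 2 + S ≤ 2 * Ω + 2 * n)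
    (hS : (s : ℤ) * n - c ≤ S) (hψ : b * n = ψ) (hb : (b : ℤ) = 6 * ((s : ℤ) - 2)) :
    1 + (ψ : ℚ) / 12 - (c : ℚ) / 2 ≤ Ω := by
  have h1 : (2 : ℤ) + ((s : ℤ) * n - c) ≤ 2 * Ω + 2 * n := by
    have : ((2 + S : ℕ) : ℤ) ≤ ((2 * Ω + 2 * n : ℕ) : ℤ) := by exact_mod_cast hA
    push_cast at this
    linarith
  have h2 : (2 : ℚ) + ((s : ℚ) * n - c) ≤ 2 * Ω + 2 * n := by exact_mod_cast h1
  have h3 : (ψ : ℚ) = b * n := by exact_mod_cast hψ.symm
  have h4 : (b : ℚ) = 6 * ((s : ℚ) - 2) := by exact_mod_cast hb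
  rw [h3, h4]
  have h5 : 6 * ((s : ℚ) - 2) * n / 12 = ((s : ℚ) * n - 2 * n) / 2 := by ring
  rw [h5]
  linarith

/-- Level `4`: three cusps, `ψ(4) = 6`. -/
theorem le_omega_four {n Ω c S ψ : ℕ} (hA : 2 + S ≤ 2 * Ω + 2 * n)
    (hS : (3 : ℤ) * n - c ≤ S) (hψ : 6 * n = ψ) : 1 + (ψ : ℚ) / 12 - (c : ℚ) / 2 ≤ Ω :=
  le_omega_of_theoremA (s := 3) (b := 6) hA (by exact_mod_cast hS) hψ (by norm_num)

/-- Level `9`: four cusps, `ψ(9) = 12`. -/
theorem le_omega_nine {n Ω c S ψ : ℕ} (hA : 2 + S ≤ 2 * Ω + 2 * n)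
    (hS : (4 : ℤ) * n - c ≤ S) (hψ : 12 * n = ψ) : 1 + (ψ : ℚ) / 12 - (c : ℚ) / 2 ≤ Ω :=
  le_omega_of_theoremA (s := 4) (b := 12) hA (by exact_mod_cast hS) hψ (by norm_num)

end Fermat.Agent.S18.SQNum
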