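import Fermat.Agent.S18.Iface
import Fermat.Agent.S18.Num
import Fermat.Agent.S18.LiftDeg

/-!
# S18: level bookkeeping (`LevelStmt`), independent second seat

`levelDeg_mul`: `ψ(N) · [F_M : F_N] = ψ(M)` for `N ∣ M`.
`levelStmt`: for `ℓ ∤ N` there are levels `N ∣ M ∣ M'` with `M'` admissible, `[F_M' : F_M]`
prime to `ℓ` and `[F_M : F_N]` a power of `ℓ`.
-/

set_option autoImplicit false
set_option synthInstance.maxHeartbeats 400000

noncomputable section

open HahnSeries IntermediateField AlgebraicCurve ModularCurve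

namespace Fermat.Agent.S18.TopLevelB

open Fermat.Agent.S18

/-- `ψ(N) · [F_M : F_N] = ψ(M)`. -/
theorem levelDeg_mul {N M : ℕ} [NeZero N] [NeZero M] (h : N ∣ M) :
    dedekindPsi N * levelDeg h = dedekindPsi M := by
  have h1 : levelDeg h = relfinrank (FN N) (FN M) :=
    @LiftD.finrank_eq_relfinrank_of_algebra _ _ _ _ _ (FN N) (FN M) (algOfLE (bar_mono h))
      (fun a => algOfLE_algebraMap (bar_mono h) a)
  rw [h1]
  exact LiftD.relfinrank_bar_mul h

/-- **[chain LEVEL]** the level bookkeeping. -/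
theorem levelStmt : LevelStmt := by
  intro ℓ N _ _ hℓN
  obtain ⟨M, M', hNM, hMM', hℓM', h4, h9, ⟨e, he⟩, d, hd, hℓd⟩ :=
    Num.exists_levels ℓ N Fact.out (NeZero.ne N) hℓN
  have hM'0 : M' ≠ 0 := by
    rintro rfl
    exact hℓM' (dvd_zero ℓ)
  have hM0 : M ≠ 0 := by
    rintro rfl
    exact hM'0 (Nat.eq_zero_of_zero_dvd hMM')
  have : NeZero M := ⟨hM0⟩
  have : NeZero M' := ⟨hM'0⟩
  refine ⟨M, M', hNM, hMM', hM'0, ⟨hℓM', h4, h9⟩, ?_, e, ?_⟩
  · have h1 := levelDeg_mul hMM'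
    have h2 : levelDeg hMM' = d :=
      Nat.eq_of_mul_eq_mul_left (LiftD.dedekindPsi_pos M) (by rw [h1, hd, mul_comm])
    rw [h2]
    exact hℓd
  · have h1 := levelDeg_mul hNM
    exact Nat.eq_of_mul_eq_mul_left (LiftD.dedekindPsi_pos N) (by rw [h1, he, mul_comm])

end Fermat.Agent.S18.TopLevelB

end
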