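/-
S18 (wave 7), chain LIFT, integration (second seat, helper2): the lifting property
`LiftOfSqueezeStmtV` of `Iface2.lean` from the genus squeeze, given the inclusion
"reduction maps the Gauss-integral part of `L_M(π^* G)` into `L̄_M(π̄^* r_* G)`" (`IncStmt`).

Proof: for `N ∣ M`, `ℓ ∤ M` and a divisor `G` of `F_N` of large degree,
* `dim_ℚ̄ L_M(π^* G) ≥ d · deg G + 1 - g` (Riemann's inequality `GenusLE` at level `M` for the
  pulled back divisor, `d = [F_M : F_N]`);
* `dim_k L̄_M(π̄^* r_* G) ≤ d̄ · deg G + 1 - g` (`GenusGE` in the special fibre for the pulled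
  back divisor, `d̄ = [F̄_M : F̄_N] = d`, `deg r_* G = deg G`);
* `L_M(π^* G)` has a basis in the Gauss valuation ring with `k`-linearly independent reductions
  (`ROR.exists_basis`), and these reductions lie in `L̄_M(π̄^* r_* G)` (`IncStmt`);
hence the reductions form a basis of `L̄_M(π̄^* r_* G)` and every element of it lifts.
-/
import Fermat.Agent.S18.Iface2
import Fermat.Agent.S18.ROrthoRel
import Fermat.Agent.S18.GSTop
import Fermat.Agent.S18.SepLevel
import Fermat.Agent.S18.PModCB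
import Fermat.Agent.S18.UAdapt

set_option autoImplicit false
set_option synthInstance.maxHeartbeats 400000
set_option linter.style.haveILetI false

noncomputable section

open ModularCurve AlgebraicCurve IntermediateField

namespace Fermat.Agent.S18.TopLiftB

open Fermat.Agent.S18 Fermat.Agent.S20

/-- **[chain LIFT, INC]** reduction maps the Gauss-integral part of the relative Riemann–Roch
space of `G` into the relative Riemann–Roch space of `r_* G`. -/
def IncStmt : Prop :=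
  ∀ (ℓ : ℕ) [Fact ℓ.Prime] (A : ValuationSubring Qb) (hA : A.LiesOverPrime ℓ)
    (N M : ℕ) [NeZero N] [NeZero M] (h : N ∣ M) (hℓM : ¬ ℓ ∣ M)
    (r : Place Qb (FN N) → Place (Kb A) (FbN A N)), IsPlaceReductionModL A N r →
    letI := algOfLE (bar_mono h)
    letI := algOfLE (fullC_mono (Kb A) h)
    ∀ (G : Divisor Qb (FN N)) (x : RGB.V M A), UpN.RelIntegral G (x : FN M) →
      UpN.RelIntegral (Finsupp.mapDomain r G) (RGB.rho M hℓM A hA x)

/-! ### The squeeze in `V` / `rho` form -/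

/-- **dimension squeeze**: if `rho` maps `W ∩ V` into `W̄` and `dim W̄ ≤ dim W`, then every
element of `W̄` is `rho x` for some `x ∈ W ∩ V`. -/
theorem exists_rho_eq_of_finrank_le (N : ℕ) [NeZero N] (A : ValuationSubring Qb) {ℓ : ℕ}
    [Fact ℓ.Prime] (hℓN : ¬ ℓ ∣ N) (hA : A.LiesOverPrime ℓ)
    (W : Submodule Qb ↥(FN N)) [Module.Finite Qb W]
    (Wbar : Submodule (Kb A) ↥(FbN A N)) [Module.Finite (Kb A) Wbar]
    (hincl : ∀ x : ↥(RGB.V N A), (x : ↥(FN N)) ∈ W → RGB.rho N hℓN A hA x ∈ Wbar)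
    (hdim : Module.finrank (Kb A) Wbar ≤ Module.finrank Qb W) :
    ∀ y ∈ Wbar, ∃ x : ↥(RGB.V N A), (x : ↥(FN N)) ∈ W ∧ RGB.rho N hℓN A hA x = y := by
  intro y hy
  obtain ⟨x, hxW, hred⟩ := ROV.exists_isRed_of_finrank_le N A hℓN hA W Wbar hincl hdim y hy
  obtain ⟨hxV, hrho⟩ := (ROV.isRed_iff' N A hℓN hA x y).mp hred
  exact ⟨⟨x, hxV⟩, hxW, hrho⟩

/-! ### The dimension count -/

section Count

variable {ℓ : ℕ} [Fact ℓ.Prime] (A : ValuationSubring Qb) (hA : A.LiesOverPrime ℓ)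
  {N M : ℕ} [NeZero N] [NeZero M] (h : N ∣ M) (hℓM : ¬ ℓ ∣ M)

include hA hℓM in
/-- `[F_M : F_N] = [F̄_M : F̄_N]`. -/
theorem finrank_eq :
    letI := algOfLE (bar_mono h)
    letI := algOfLE (fullC_mono (Kb A) h)
    Module.finrank ↥(FN N) ↥(FN M) = Module.finrank ↥(FbN A N) ↥(FbN A M) := by
  letI := algOfLE (bar_mono h)
  letI := algOfLE (fullC_mono (Kb A) h)
  haveI := GST.charP_Kb A hA
  exact LiftD.finrank_bar_eq_finrank_fullC (Kb A) ℓ h hℓM
    (fun a => algOfLE_algebraMap (bar_mono h) a)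
    (fun a => algOfLE_algebraMap (fullC_mono (Kb A) h) a)

/-- lower bound upstairs: `d · deg G + 1 - g ≤ dim L_M(π^* G)` -/
theorem le_finrank_relSpace {g : ℤ} (hg : GenusLE Qb ↥(FN M) g) (G : Divisor Qb ↥(FN N)) :
    letI := algOfLE (bar_mono h)
    (Module.finrank ↥(FN N) ↥(FN M) : ℤ) * Divisor.degree G + 1 - g ≤
      (Module.finrank Qb (ROR.relSpace (F' := ↥(FN M)) G) : ℤ) := by
  letI := algOfLE (bar_mono h)
  haveI := isScalarTower_algOfLE (bar_mono h)
  haveI := ROR.finite_bar h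
  haveI := ROR.hasPrincipalDivisors_bar (M := M)
  rw [ROR.relSpace_eq, ← FundId.degree_pullback (PHyp.hyp0_bar N).deg_one
    (PHyp.hyp0_bar M).deg_one G]
  exact hg _

include hA in
theorem hasPrincipalDivisors_Kb : HasPrincipalDivisors (Kb A) ↥(FbN A M) :=
  ⟨(GST.hyp0_Kb A hA M).principal⟩

include hA in
theorem finite_rr_Kb (D : Divisor (Kb A) ↥(FbN A M)) :
    Module.Finite (Kb A) (riemannRochSpace D) :=
  RR.finite (GST.hyp0_Kb A hA M) D

set_option maxHeartbeats 2000000 in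
include hA hℓM in
/-- the degree of a pulled back divisor in the special fibre -/
theorem degree_pullback_Kb (Gb : Divisor (Kb A) ↥(FbN A N)) :
    letI := algOfLE (fullC_mono (Kb A) h)
    haveI := isScalarTower_algOfLE (fullC_mono (Kb A) h)
    haveI := PModCB.finite_FbN A hA h hℓM
    haveI := hasPrincipalDivisors_Kb A hA (M := M)
    Divisor.degree (Divisor.pullback ↥(FbN A M) Gb) =
      (Module.finrank ↥(FbN A N) ↥(FbN A M) : ℤ) * Divisor.degree Gb := by
  letI := algOfLE (fullC_mono (Kb A) h)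
  haveI := isScalarTower_algOfLE (fullC_mono (Kb A) h)
  haveI := PModCB.finite_FbN A hA h hℓM
  haveI := SepLevel.isSeparable_FbN A hA h hℓM
  haveI := GST.isAlgClosed_Kb A
  haveI := hasPrincipalDivisors_Kb A hA (M := M)
  exact FundId.degree_pullback (F' := ↥(FbN A M)) (GST.hyp0_Kb A hA N).deg_one
    (GST.hyp0_Kb A hA M).deg_one Gb

set_option maxHeartbeats 4000000 in
include hA hℓM in
/-- upper bound downstairs: `dim L̄_M(π̄^* Ḡ) ≤ d̄ · deg Ḡ + 1 - g` for `deg Ḡ` large -/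
theorem finrank_relSpace_le {g : ℤ} (hg : GenusGE (Kb A) ↥(FbN A M) g) :
    letI := algOfLE (fullC_mono (Kb A) h)
    haveI := isScalarTower_algOfLE (fullC_mono (Kb A) h)
    ∃ c : ℤ, ∀ Gb : Divisor (Kb A) ↥(FbN A N), c ≤ Divisor.degree Gb →
      Module.Finite (Kb A) (ROR.relSpace (F' := ↥(FbN A M)) Gb) ∧
      (Module.finrank (Kb A) (ROR.relSpace (F' := ↥(FbN A M)) Gb) : ℤ) ≤
        (Module.finrank ↥(FbN A N) ↥(FbN A M) : ℤ) * Divisor.degree Gb + 1 - g := by
  letI := algOfLE (fullC_mono (Kb A) h)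
  haveI := isScalarTower_algOfLE (fullC_mono (Kb A) h)
  haveI := PModCB.finite_FbN A hA h hℓM
  haveI := SepLevel.isSeparable_FbN A hA h hℓM
  haveI := hasPrincipalDivisors_Kb A hA (M := M)
  obtain ⟨c₀, hc₀⟩ := GST.exists_bound_Kb A hA M hg
  refine ⟨max c₀ 0, fun Gb hGb => ?_⟩
  have hdeg := degree_pullback_Kb A hA h hℓM Gb
  have hd1 : (1 : ℤ) ≤ (Module.finrank ↥(FbN A N) ↥(FbN A M) : ℤ) := by
    exact_mod_cast Module.finrank_pos
  have hb := hc₀ (Divisor.pullback ↥(FbN A M) Gb) (by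
    rw [hdeg]
    nlinarith [le_max_left c₀ 0, le_max_right c₀ 0])
  rw [hdeg] at hb
  rw [ROR.relSpace_eq]
  exact ⟨finite_rr_Kb A hA _, hb⟩

end Count

/-! ### The lifting property -/

theorem int_aux {a b d d' e g : ℤ} (hub : a ≤ d' * e + 1 - g) (hlb : d * e + 1 - g ≤ b)
    (hd : d = d') : a ≤ b := by
  subst hd
  exact le_trans hub hlb

set_option maxHeartbeats 4000000 in
/-- **`LiftOfSqueezeStmtV` from the inclusion statement.** -/
theorem liftOfSqueezeStmtV_of (hINC : IncStmt) : LiftOfSqueezeStmtV := by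
  intro ℓ _ A hA N M _ _ h hℓM r hr _ hsq
  obtain ⟨g, hLE, hGE⟩ := hsq
  unfold LiftPropV
  letI := algOfLE (bar_mono h)
  letI := algOfLE (fullC_mono (Kb A) h)
  haveI := isScalarTower_algOfLE (bar_mono h)
  haveI := isScalarTower_algOfLE (fullC_mono (Kb A) h)
  obtain ⟨c, hc⟩ := finrank_relSpace_le A hA h hℓM hGE
  refine ⟨c, fun G hG y hy => ?_⟩
  have hdegG : Divisor.degree (Finsupp.mapDomain r G) = Divisor.degree G :=
    degree_mapDomain_of_deg_eq hr.1 G
  obtain ⟨hfinb, hub⟩ := hc (Finsupp.mapDomain r G) (le_of_le_of_eq hG hdegG.symm)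
  have hlb := le_finrank_relSpace h hLE G
  haveI := ROR.finite_relSpace_bar h G
  have hdim : Module.finrank (Kb A) (ROR.relSpace (F' := ↥(FbN A M)) (Finsupp.mapDomain r G)) ≤
      Module.finrank Qb (ROR.relSpace (F' := ↥(FN M)) G) := by
    have hd := finrank_eq A hA h hℓM
    have h1 := int_aux (hdegG ▸ hub) hlb (congrArg (Nat.cast (R := ℤ)) hd)
    exact_mod_cast h1
  obtain ⟨x, hxW, hx⟩ := exists_rho_eq_of_finrank_le M A hℓM hA
    (ROR.relSpace (F' := ↥(FN M)) G) (ROR.relSpace (F' := ↥(FbN A M)) (Finsupp.mapDomain r G))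
    (fun x hx => hINC ℓ A hA N M h hℓM r hr G x hx) hdim y hy
  exact ⟨x, hxW, hx⟩

/-- The inclusion statement (helper26's `UAd.relIntegral_rho`). -/
theorem incStmt : IncStmt := fun _ _ A hA _ _ _ _ h hℓM _ hr G x hx =>
  UAd.relIntegral_rho h hℓM A hA hr G x hx

/-- **[chain LIFT, TOP]** the lifting property from the genus squeeze (`Iface2.LiftOfSqueezeStmtV`),
unconditionally. -/
theorem liftOfSqueezeStmtV : LiftOfSqueezeStmtV := liftOfSqueezeStmtV_of incStmt

end Fermat.Agent.S18.TopLiftB
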