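/-
S18 (wave 7), chain U, leaf `hconstb` (helper11): an element of an extension `Fb'` of a function
field `Fb / k` which is integral over the valuation ring of every place of `Fb`
(`UpN.RelIntegral 0`) is a constant, `k` algebraically closed.

No finiteness of `Fb' / Fb` is needed: integrality over one place makes the element algebraic
over `Fb`; its minimal polynomial has coefficients regular at all places, hence constant; so the
element is algebraic over `k`.
-/
import Mathlib
import Fermat.Agent.S18.UpNorm
import Fermat.Agent.S18.PModC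
import Fermat.Agent.S18.Defs
import Fermat.Agent.S18.ResAlgClosed
import Fermat.Agent.S18.RNormal

set_option autoImplicit false
set_option synthInstance.maxHeartbeats 400000

noncomputable section

namespace Fermat.Agent.S18.UConst

open AlgebraicCurve Polynomial ModularCurve

section Generic

variable {k Fb Fb' : Type*} [Field k] [Field Fb] [Algebra k Fb] [Field Fb'] [Algebra Fb Fb']
  [Algebra k Fb'] [IsScalarTower k Fb Fb']

/-- An element integral over the valuation rings of all places of `Fb` is a constant. -/
theorem exists_const_of_forall_isIntegral [IsAlgClosed k]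
    (hconst : ∀ f : Fb, (∀ v : Place k Fb, 0 ≤ v.ord f) → ∃ c : k, f = algebraMap k Fb c)
    (v₀ : Place k Fb) (y : Fb') (hy : ∀ v : Place k Fb, IsIntegral v.toValuationSubring y) :
    ∃ c : k, y = algebraMap k Fb' c := by
  have hyF : IsIntegral Fb y := (hy v₀).tower_top
  have hcoeff : ∀ n, (minpoly Fb y).coeff n ∈ Set.range (algebraMap k Fb) := by
    intro n
    obtain ⟨c, hc⟩ := hconst ((minpoly Fb y).coeff n) (fun v => by
      have h := minpoly.isIntegrallyClosed_eq_field_fractions' Fb (hy v)
      have hmem : (minpoly Fb y).coeff n ∈ v.toValuationSubring := by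
        rw [h, coeff_map]
        exact Subtype.property _
      rcases (Fermat.Agent.S20.RR.mem_valuationSubring_iff v).mp hmem with h0 | h0
      · rw [h0, Place.ord_zero]
      · exact h0)
    exact ⟨c, hc.symm⟩
  have hlift : minpoly Fb y ∈ Polynomial.lifts (algebraMap k Fb) :=
    (lifts_iff_coeff_lifts _).mpr hcoeff
  obtain ⟨q, hq, -, hqm⟩ := lifts_and_degree_eq_and_monic hlift (minpoly.monic hyF)
  have hint : IsIntegral k y := by
    refine ⟨q, hqm, ?_⟩
    have h1 : aeval y q = aeval y (q.map (algebraMap k Fb)) := (aeval_map_algebraMap Fb y q).symm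
    rw [← aeval_def, h1, hq, minpoly.aeval]
  have hdeg := IsAlgClosed.degree_eq_one_of_irreducible k (minpoly.irreducible hint)
  obtain ⟨c, hc⟩ := minpoly.mem_range_of_degree_eq_one k y hdeg
  exact ⟨c, hc.symm⟩

/-- **`hconstb`.** A section of the relative Riemann–Roch space of the zero divisor is a
constant. -/
theorem exists_const [IsAlgClosed k]
    (hconst : ∀ f : Fb, (∀ v : Place k Fb, 0 ≤ v.ord f) → ∃ c : k, f = algebraMap k Fb c)
    (v₀ : Place k Fb) (y : Fb') (hy : UpN.RelIntegral (0 : Divisor k Fb) y) :
    ∃ c : k, y = algebraMap k Fb' c := by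
  refine exists_const_of_forall_isIntegral hconst v₀ y fun v => ?_
  have h := hy v 1 (by rw [Place.ord_one]; rfl)
  rwa [map_one, mul_one] at h

/-- Conversely constants are sections of the relative Riemann–Roch space of the zero divisor. -/
theorem relIntegral_zero_algebraMap (c : k) :
    UpN.RelIntegral (0 : Divisor k Fb) (algebraMap k Fb' c) := by
  intro P t ht
  have ht' : t ∈ P.toValuationSubring := by
    rw [Fermat.Agent.S20.RR.mem_valuationSubring_iff]
    right
    rw [ht]
    rfl
  have hmem : algebraMap k Fb c * t ∈ P.toValuationSubring :=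
    P.toValuationSubring.mul_mem _ _ (P.algebraMap_mem' c) ht'
  have h : algebraMap k Fb' c * algebraMap Fb Fb' t =
      algebraMap P.toValuationSubring Fb' ⟨algebraMap k Fb c * t, hmem⟩ := by
    rw [IsScalarTower.algebraMap_apply k Fb Fb', ← map_mul]
    rfl
  rw [h]
  exact isIntegral_algebraMap

/-- A function field satisfying the Riemann hypotheses has a place. -/
theorem nonempty_place_of_hyp (h : Fermat.Agent.S20.RR.Hyp k Fb) : Nonempty (Place k Fb) := by
  obtain ⟨B, c, -, hB, -⟩ := h.bound
  by_contra hne
  rw [not_nonempty_iff] at hne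
  have : B = 0 := Finsupp.ext fun v => (hne.false v).elim
  rw [this] at hB
  simp [Divisor.degree] at hB

/-- `hconstb` from the Riemann hypotheses of the base. -/
theorem exists_const_of_hyp [IsAlgClosed k] (h : Fermat.Agent.S20.RR.Hyp k Fb)
    (y : Fb') (hy : UpN.RelIntegral (0 : Divisor k Fb) y) :
    ∃ c : k, y = algebraMap k Fb' c := by
  obtain ⟨v₀⟩ := nonempty_place_of_hyp h
  exact exists_const h.const v₀ y hy

end Generic

/-- **`hconstb` for the modular function fields in characteristic `ℓ`**, any field `k`
algebraically closed of characteristic `ℓ`, `N ∣ M`. -/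
theorem exists_const_fullC (k : Type) [Field k] [IsAlgClosed k] (ℓ : ℕ) [Fact ℓ.Prime]
    [CharP k ℓ] {N M : ℕ} [NeZero N] (h : N ∣ M) :
    letI := algOfLE (fullC_mono k h)
    ∀ y : ↥(modularFunctionFieldFullC k M),
      UpN.RelIntegral (0 : Divisor k ↥(modularFunctionFieldFullC k N)) y →
        ∃ c : k, y = algebraMap k ↥(modularFunctionFieldFullC k M) c := by
  letI := algOfLE (fullC_mono k h)
  haveI := isScalarTower_algOfLE (fullC_mono k h)
  intro y hy
  exact exists_const_of_hyp (PModC.hyp_modC k N ℓ) y hy

/-- **`hconstb` at `F̄_N ⊂ F̄_M`** in the notation of `S18/Defs.lean`. -/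
theorem exists_const_FbN (A : ValuationSubring Qb) {ℓ : ℕ} [Fact ℓ.Prime]
    (hA : A.LiesOverPrime ℓ) {N M : ℕ} [NeZero N] (h : N ∣ M) :
    letI := algOfLE (fullC_mono (Kb A) h)
    ∀ y : ↥(FbN A M), UpN.RelIntegral (0 : Divisor (Kb A) ↥(FbN A N)) y →
      ∃ c : Kb A, y = algebraMap (Kb A) ↥(FbN A M) c := by
  haveI : IsAlgClosed (Kb A) := ResAC.isAlgClosed_residueField_ratBar A
  haveI : CharP (Kb A) ℓ := RN.charP_residueField A hA
  exact exists_const_fullC (Kb A) ℓ h

end Fermat.Agent.S18.UConst
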