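import Mathlib
import Fermat.Agent.S18.URel
import Fermat.Agent.S18.LiftTrace
import Fermat.Agent.S18.UMulti
import Fermat.Agent.S20.RRBasic

/-!
# S18, chain U: Theorem U at an auxiliary level, integrator's form

`UMainRel.exists_relIntegral` is the statement consumed by `TopTorsion`: in the setting of a
pair of Gauss valuation rings `V ⊂ F`, `V' ⊂ F'` (`LiftT.RedPair`), a place reduction `r` of the
base field `F` with the extended property (*), the lifting property for relative Riemann–Roch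
spaces and evaluation data `URel.EvalPt` at arbitrarily many generic points, a degree-zero
divisor `D` of `F` with `m • D` and `r_* D` principal (`m` a unit of `A`) has a nonzero element in
its relative Riemann–Roch space.  The proof is a reduction to `URel.false_of_isEval'`.
-/

set_option autoImplicit false
set_option linter.unusedSectionVars false

noncomputable section

namespace Fermat.Agent.S18.UMainRel

open AlgebraicCurve IsLocalRing
open Fermat.Agent.S20
open Fermat.Agent.S18.UMain (ptDiv)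

section Aux

variable {K F : Type*} [Field K] [Field F] [Algebra K F]

theorem ord_algebraMap (v : Place K F) {c : K} (hc : c ≠ 0) : v.ord (algebraMap K F c) = 0 := by
  have h1 := UMain.adicValuation_algebraMap_eq_one (v := v) hc
  have h0 : algebraMap K F c ≠ 0 := by simpa using hc
  rw [v.adicValuation_eq_exp_neg_ord h0, ← WithZero.exp_zero, WithZero.exp_inj] at h1
  omega

theorem mapDomain_apply_eq_zero {k Fb : Type*} [Field k] [Field Fb] [Algebra k Fb]
    (r : Place K F → Place k Fb) (D : Divisor K F) (Q : Place k Fb)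
    (h : ∀ P ∈ D.support, r P ≠ Q) : Finsupp.mapDomain r D Q = 0 := by
  classical
  by_contra hne
  have h1 : Q ∈ (Finsupp.mapDomain r D).support := Finsupp.mem_support_iff.mpr hne
  obtain ⟨P, hP, hPQ⟩ := Finset.mem_image.mp (Finsupp.mapDomain_support h1)
  exact h P hP hPQ

end Aux

variable {L F F' k Fb Fb' : Type*} [Field L] [Field F] [Field F'] [Algebra L F] [Algebra F F']
  [Algebra L F'] [IsScalarTower L F F']
  [Field k] [Field Fb] [Field Fb'] [Algebra k Fb] [Algebra Fb Fb'] [Algebra k Fb']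
  [IsScalarTower k Fb Fb']

section EvalPt

variable {A : ValuationSubring L} {res : A →+* k} {V : ValuationSubring F} {rho : V →+* Fb}
  {V' : ValuationSubring F'} {rho' : V' →+* Fb'} {r : Place L F → Place k Fb}
  {hk : ∀ Q : Place k Fb, Function.Surjective (algebraMap k Q.ResidueField)} {d : ℕ}

/-- Evaluation data at a point force `0 < d`. -/
theorem pos_of_evalPt {P : Place L F} {t : V} {vP : F' → Fin d → L} {vQ : Fb' → Fin d → k}
    (h : URel.EvalPt A res V rho V' rho' r hk d P t vP vQ) : 0 < d := by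
  by_contra hd
  have hd0 : d = 0 := by omega
  subst hd0
  have h1 : vP 1 = 0 := funext fun i => i.elim0
  obtain ⟨y', hy', hy⟩ := h.vP_detect 1 isIntegral_one h1
  have ht0 : (t : F) ≠ 0 := RR.ne_zero_of_ord_ne_zero P (by rw [h.ord_t]; exact one_ne_zero)
  have hy'' : y' = algebraMap F F' (t : F)⁻¹ := by
    have ht0' : algebraMap F F' (t : F) ≠ 0 := by simpa using ht0
    rw [map_inv₀]
    exact eq_inv_of_mul_eq_one_right hy.symm
  rw [hy''] at hy'
  have h2 : IsIntegral P.toValuationSubring ((t : F)⁻¹) :=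
    (isIntegral_algebraMap_iff (algebraMap F F').injective).mp hy'
  have h3 := (RR.mem_valuationSubring_iff P).mp (UpN.mem_of_isIntegral P h2)
  rcases h3 with h3 | h3
  · exact inv_ne_zero ht0 h3
  · rw [P.ord_inv, h.ord_t] at h3
    omega

variable {ι : Type*} {P : ι → Place L F} {t : ι → V} {vP : ι → F' → Fin d → L}
  {vQ : ι → Fb' → Fin d → k}

/-- The evaluation package in characteristic zero obtained from `EvalPt`. -/
theorem isEval_of_evalPt
    (h : ∀ p, URel.EvalPt A res V rho V' rho' r hk d (P p) (t p) (vP p) (vQ p)) (hd : 0 < d) :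
    URel.IsEval P (fun p => (t p : F))
      (fun p α y a => IsIntegral (P p).toValuationSubring y ∧ vP p y α = a) := by
  refine ⟨?_, ?_, ?_, ?_, ?_, ?_⟩
  · rintro p α y y' a a' ⟨hy, rfl⟩ ⟨hy', rfl⟩
    exact ⟨hy.add hy', by rw [(h p).vP_add y y' hy hy']; rfl⟩
  · rintro p α y y' a a' ⟨hy, rfl⟩ ⟨hy', rfl⟩
    exact ⟨hy.mul hy', by rw [(h p).vP_mul y y' hy hy']; rfl⟩
  · rintro p α y a a' ⟨_, rfl⟩ ⟨_, rfl⟩
    rfl
  · intro p α f c hfc
    have hdec : algebraMap F F' f =
        algebraMap F F' (f - algebraMap L F c) + algebraMap L F' c := by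
      rw [IsScalarTower.algebraMap_apply L F F', ← map_add, sub_add_cancel]
    have hint1 : IsIntegral (P p).toValuationSubring (algebraMap F F' (f - algebraMap L F c)) := by
      refine URel.isIntegral_base (P p) ?_
      rcases hfc with hfc | hfc
      · exact Or.inl (sub_eq_zero.mpr hfc)
      · exact Or.inr hfc.le
    have hint2 : IsIntegral (P p).toValuationSubring (algebraMap L F' c) :=
      URel.isIntegral_algebraMap_const (P p) c
    refine ⟨hdec ▸ hint1.add hint2, ?_⟩
    rw [hdec, (h p).vP_add _ _ hint1 hint2, Pi.add_apply, (h p).vP_const]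
    rcases hfc with hfc | hfc
    · have h0 : algebraMap F F' (f - algebraMap L F c) = algebraMap L F' 0 := by
        rw [sub_eq_zero.mpr hfc, map_zero, map_zero]
      rw [h0, (h p).vP_const, zero_add]
    · rw [(h p).vP_zero_of_ord_pos _ hfc, Pi.zero_apply, zero_add]
  · intro p α y hy
    exact ⟨vP p y α, hy, rfl⟩
  · intro p x hx
    have hint : IsIntegral (P p).toValuationSubring (algebraMap F F' (t p : F) * x) :=
      (hx ⟨0, hd⟩).1
    have hv : vP p (algebraMap F F' (t p : F) * x) = 0 := funext fun α => (hx α).2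
    obtain ⟨y', hy', hy⟩ := (h p).vP_detect _ hint hv
    have ht0 : (t p : F) ≠ 0 :=
      RR.ne_zero_of_ord_ne_zero (P p) (by rw [(h p).ord_t]; exact one_ne_zero)
    have ht0' : algebraMap F F' (t p : F) ≠ 0 := by simpa using ht0
    rw [mul_left_cancel₀ ht0' hy]
    exact hy'

/-- The (multiplicative) evaluation package on the special fibre obtained from `EvalPt`. -/
theorem isEvalMul_of_evalPt
    (h : ∀ p, URel.EvalPt A res V rho V' rho' r hk d (P p) (t p) (vP p) (vQ p)) (hd : 0 < d) :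
    URel.IsEvalMul (fun p => r (P p)) (fun p => rho (t p))
      (fun p α y a => IsIntegral (r (P p)).toValuationSubring y ∧ vQ p y α = a) := by
  refine ⟨?_, ?_, ?_, ?_, ?_⟩
  · rintro p α y y' a a' ⟨hy, rfl⟩ ⟨hy', rfl⟩
    exact ⟨hy.mul hy', by rw [(h p).vQ_mul y y' hy hy']; rfl⟩
  · rintro p α y a a' ⟨_, rfl⟩ ⟨_, rfl⟩
    rfl
  · intro p α f c hfc
    have h1 : f - algebraMap k Fb c ∈ (r (P p)).toValuationSubring := by
      refine URel.mem_of_ord_nonneg (r (P p)) ?_
      rcases hfc with hfc | hfc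
      · exact Or.inl (sub_eq_zero.mpr hfc)
      · exact Or.inr hfc.le
    have h2 : algebraMap k Fb c ∈ (r (P p)).toValuationSubring := (r (P p)).algebraMap_mem' c
    have hf : f ∈ (r (P p)).toValuationSubring := by
      have h3 := add_mem h1 h2
      rwa [sub_add_cancel] at h3
    refine ⟨isIntegral_algebraMap (R := (r (P p)).toValuationSubring) (A := Fb') (x := ⟨f, hf⟩),
      ?_⟩
    have h4 := (h p).vQ_algebraMap ⟨f, hf⟩ α
    rw [(UpB.evalHom_eq_iff_ord (r (P p)) (hk (r (P p))) hf c).mpr hfc] at h4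
    exact h4
  · intro p α y hy
    exact ⟨vQ p y α, hy, rfl⟩
  · intro p x hx
    have hint : IsIntegral (r (P p)).toValuationSubring (algebraMap Fb Fb' (rho (t p)) * x) :=
      (hx ⟨0, hd⟩).1
    have hv : vQ p (algebraMap Fb Fb' (rho (t p)) * x) = 0 := funext fun α => (hx α).2
    obtain ⟨y', hy', hy⟩ := (h p).vQ_detect _ hint hv
    have ht0 : rho (t p) ≠ 0 :=
      RR.ne_zero_of_ord_ne_zero (r (P p)) (by rw [(h p).ord_rho_t]; exact one_ne_zero)
    have ht0' : algebraMap Fb Fb' (rho (t p)) ≠ 0 := by simpa using ht0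
    rw [mul_left_cancel₀ ht0' hy]
    exact hy'

end EvalPt

/-- **Theorem U at an auxiliary level** (integrator's form): a degree-zero divisor `D` of `F`
with `m • D` principal (`m` a unit of `A`) and principal reduction `r_* D` has a nonzero element
in its relative Riemann–Roch space `{x : F' | UpN.RelIntegral D x}`. -/
theorem exists_relIntegral
    (A : ValuationSubring L) (res : A →+* k) (hres : Function.Surjective res)
    (V : ValuationSubring F) (rho : V →+* Fb) (V' : ValuationSubring F') (rho' : V' →+* Fb')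
    (hRP : LiftT.RedPair V V' rho rho')
    (hVA : ∀ a : A, algebraMap L F (a : L) ∈ V)
    (hrho : ∀ a : A, rho ⟨algebraMap L F (a : L), hVA a⟩ = algebraMap k Fb (res a))
    (hscale : ∀ f : F, f ≠ 0 → ∃ (c : L) (h : algebraMap L F c * f ∈ V), c ≠ 0 ∧ rho ⟨_, h⟩ ≠ 0)
    (r : Place L F → Place k Fb)
    (hstar : ∀ x : V, rho x ≠ 0 → ∀ D : Divisor L F, (∀ P, D P = P.ord (x : F)) →
      ∀ Q, Finsupp.mapDomain r D Q = Q.ord (rho x))
    (h0 : RR.Hyp0 L F) (h0b : RR.Hyp0 k Fb)
    (hk : ∀ Q : Place k Fb, Function.Surjective (algebraMap k Q.ResidueField))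
    (hfin : ∀ G : Divisor L F, Module.Finite A (URel.lat A V' G))
    (hcart : ∀ x : V', rho' x = 0 → ∃ c : A, c ∈ IsLocalRing.maximalIdeal A ∧
      ∃ x' : V', (x : F') = algebraMap L F' (c : L) * (x' : F'))
    (c : ℤ) (hlift : ∀ G : Divisor L F, c ≤ Divisor.degree G → ∀ y : Fb',
      UpN.RelIntegral (Finsupp.mapDomain r G) y → ∃ x : V', UpN.RelIntegral G (x : F') ∧ rho' x = y)
    (hincl : ∀ (G : Divisor L F) (x : V'), UpN.RelIntegral G (x : F') →
      UpN.RelIntegral (Finsupp.mapDomain r G) (rho' x))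
    (hconst : ∀ y : Fb', UpN.RelIntegral (0 : Divisor k Fb) y → ∃ c : k, y = algebraMap k Fb' c)
    (d : ℕ)
    (hpts : ∀ (T : Finset (Place L F)) (n : ℕ), ∃ (P : Fin n → Place L F) (t : Fin n → V)
      (vP : Fin n → F' → Fin d → L) (vQ : Fin n → Fb' → Fin d → k),
      Function.Injective (fun i => r (P i)) ∧ (∀ i, ∀ P' ∈ T, r P' ≠ r (P i)) ∧
      ∀ i, URel.EvalPt A res V rho V' rho' r hk d (P i) (t i) (vP i) (vQ i))
    (m : ℕ) (hm : (m : A) ∉ IsLocalRing.maximalIdeal A)
    (D : Divisor L F) (hD : Divisor.degree D = 0)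
    (φ : F) (hφ0 : φ ≠ 0) (hφ : ∀ P, (m • D) P = P.ord φ)
    (ψb : Fb) (hψ0 : ψb ≠ 0) (hψ : ∀ Q, Finsupp.mapDomain r D Q = Q.ord ψb) :
    ∃ x : F', x ≠ 0 ∧ UpN.RelIntegral D x := by
  classical
  refine URel.exists_ne_zero_of_false D fun hLD => ?_
  have hmem_res : ∀ a : A, res a = 0 ↔ a ∈ maximalIdeal A := UMain.res_eq_zero_iff res hres
  -- `m` is invertible in `k`, and positive
  have hmk : (m : k) ≠ 0 := by
    intro h
    apply hm
    rw [← hmem_res, map_natCast]
    exact h
  have hm1 : 1 ≤ m := by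
    rcases Nat.eq_zero_or_pos m with h | h
    · exact absurd (by rw [h, Nat.cast_zero]; exact zero_mem _) hm
    · exact h
  -- compatibility of the scalars with `V'`, `rho'`
  have hAV : ∀ a : A, algebraMap L F' (a : L) ∈ V' := fun a => by
    rw [IsScalarTower.algebraMap_apply L F F']
    exact (hRP.mem_iff _).mpr (hVA a)
  have hrho' : ∀ a : A, rho' ⟨algebraMap L F' (a : L), hAV a⟩ = algebraMap k Fb' (res a) := by
    intro a
    have h1 := hRP.compat ⟨algebraMap L F (a : L), hVA a⟩ ((hRP.mem_iff _).mpr (hVA a))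
    have h2 : (⟨algebraMap L F' (a : L), hAV a⟩ : V') =
        ⟨algebraMap F F' (algebraMap L F (a : L)), (hRP.mem_iff _).mpr (hVA a)⟩ :=
      Subtype.ext (IsScalarTower.algebraMap_apply L F F' _)
    rw [h2, h1, hrho, ← IsScalarTower.algebraMap_apply]
  -- the normalised generator of `m • D`
  obtain ⟨c₁, hc₁V, hc₁0, hρ0⟩ := hscale φ hφ0
  set xφ : V := ⟨algebraMap L F c₁ * φ, hc₁V⟩ with hxφ
  have hxφ0 : (xφ : F) ≠ 0 := mul_ne_zero (by simpa using hc₁0) hφ0
  have hordφ : ∀ v : Place L F, v.ord (xφ : F) = m * D v := by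
    intro v
    have h1 : v.ord (algebraMap L F c₁ * φ) = v.ord (algebraMap L F c₁) + v.ord φ :=
      v.ord_mul (by simpa using hc₁0) hφ0
    show v.ord (algebraMap L F c₁ * φ) = m * D v
    rw [h1, ord_algebraMap v hc₁0, zero_add, ← hφ v, Finsupp.smul_apply, nsmul_eq_mul]
  have hstar1 := hstar xφ hρ0 (m • D) (fun v => by
    rw [hordφ v, Finsupp.smul_apply, nsmul_eq_mul])
  have hordρ : ∀ Q : Place k Fb, Q.ord (rho xφ) = Q.ord (ψb ^ m) := by
    intro Q
    rw [← hstar1 Q, Finsupp.mapDomain_smul, Finsupp.smul_apply, hψ Q,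
      Fermat.Agent.S24.Places.ord_pow, nsmul_eq_mul]
  have hψm0 : ψb ^ m ≠ 0 := pow_ne_zero _ hψ0
  obtain ⟨c0b, hc0b'⟩ := h0b.const (rho xφ / ψb ^ m) (fun Q => by
    rw [div_eq_mul_inv, Q.ord_mul hρ0 (inv_ne_zero hψm0), Q.ord_inv, hordρ Q, add_neg_cancel])
  have hρφ : rho xφ = algebraMap k Fb c0b * ψb ^ m := by
    rw [← hc0b', div_mul_cancel₀ _ hψm0]
  have hc0b : c0b ≠ 0 := by
    rintro rfl
    rw [map_zero, zero_mul] at hρφ
    exact hρ0 hρφ
  have hφb : rho' (hRP.incl xφ) = algebraMap k Fb' c0b * (algebraMap Fb Fb' ψb) ^ m := by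
    rw [hRP.rho'_incl, hρφ, map_mul, map_pow, ← IsScalarTower.algebraMap_apply]
  -- the points
  set e : ℕ := (max c 1).toNat with he
  have he1 : 1 ≤ e := by
    rw [he]
    have : (1 : ℤ) ≤ max c 1 := le_max_right _ _
    omega
  have hec : c ≤ (e : ℤ) := by
    rw [he]
    have : c ≤ max c 1 := le_max_left _ _
    omega
  obtain ⟨P₀, t₀, vP₀, vQ₀, hinj, havoid, hev⟩ := hpts D.support (m * e)
  set eqv : Fin m × Fin e ≃ Fin (m * e) := finProdFinEquiv with heqv
  set P : Fin m × Fin e → Place L F := fun p => P₀ (eqv p) with hP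
  set Q : Fin m × Fin e → Place k Fb := fun p => r (P p) with hQ
  have hevp : ∀ p : Fin m × Fin e,
      URel.EvalPt A res V rho V' rho' r hk d (P p) (t₀ (eqv p)) (vP₀ (eqv p)) (vQ₀ (eqv p)) :=
    fun p => hev (eqv p)
  have hd : 0 < d := pos_of_evalPt (hevp (⟨0, hm1⟩, ⟨0, he1⟩))
  have hQinj : Function.Injective Q := fun p p' hpp => eqv.injective (hinj hpp)
  have hPinj : Function.Injective P := fun p p' hpp => hQinj (by rw [hQ]; exact congrArg r hpp)
  have hDsupp : ∀ (p : Fin m × Fin e) (v : Place L F), r v = r (P p) → D v = 0 := by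
    intro p v hv
    by_contra hne
    exact havoid (eqv p) v (Finsupp.mem_support_iff.mpr hne) hv
  have hE := isEval_of_evalPt hevp hd
  have hEb := isEvalMul_of_evalPt hevp hd
  have hdegP : ∀ T : Finset (Fin m × Fin e),
      Divisor.degree (D + ptDiv P T) = (T.card : ℤ) := by
    intro T
    rw [map_add, hD, zero_add, URel.degree_ptDiv P (fun p => h0.deg_one _) T]
  have hmd : ∀ T : Finset (Fin m × Fin e), Finsupp.mapDomain r (D + ptDiv P T) =
      Finsupp.mapDomain r D + ptDiv Q T := by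
    intro T
    rw [Finsupp.mapDomain_add, URel.mapDomain_ptDiv]
  have hfg : ∀ G : Divisor L F, ∃ (n : ℕ) (b : Fin n → F'),
      (∀ s, b s ∈ V' ∧ UpN.RelIntegral G (b s)) ∧
      ∀ x ∈ V', UpN.RelIntegral G x →
        ∃ a : Fin n → A, x = ∑ s, algebraMap L F' (a s : L) * b s := by
    intro G
    have := hfin G
    obtain ⟨n, f, hf⟩ := Module.Finite.exists_fin' A (URel.lat A V' G)
    refine ⟨n, fun s => ((f fun j => if s = j then 1 else 0 : URel.lat A V' G) : F'),
      fun s => (URel.mem_lat hAV).mp (f fun j => if s = j then 1 else 0).2, fun x hxV hxG => ?_⟩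
    obtain ⟨a, ha⟩ := hf ⟨x, (URel.mem_lat hAV).mpr ⟨hxV, hxG⟩⟩
    refine ⟨a, ?_⟩
    have h1 := congrArg (fun z : URel.lat A V' G => (z : F')) ha
    simp only [] at h1
    rw [← h1, LinearMap.pi_apply_eq_sum_univ f a, Submodule.coe_sum]
    refine Finset.sum_congr rfl fun s _ => ?_
    rw [Submodule.coe_smul, URel.smul_eq_mul]
  refine URel.false_of_isEval' (I₁ := Fin e) (R := Fin d) (P := P) (Q := Q)
    (tube := fun p => {v | r v = r (P p)}) hres hAV hrho' hcart hmk hPinj hQinj
    (fun p => h0b.deg_one _) hconst D (Finsupp.mapDomain r D) (hRP.incl xφ) (xφ : F) rfl hordφ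
    ψb hψ0 (fun w => (hψ w).symm) c0b hc0b hφb ?_
    (fun p => (t₀ (eqv p) : F)) (fun p => rho (t₀ (eqv p))) (fun p => hRP.incl (t₀ (eqv p)))
    (fun p => rfl) (fun p => hRP.rho'_incl _) (fun p => (hevp p).ord_t)
    (fun p => (hevp p).ord_rho_t) (fun p => rfl) ?_ ?_ ?_
    (fun p α y a => IsIntegral (P p).toValuationSubring y ∧ vP₀ (eqv p) y α = a)
    (fun p α y a => IsIntegral (Q p).toValuationSubring y ∧ vQ₀ (eqv p) y α = a)
    hE hEb ?_ ?_ ?_ ?_ ?_ (hfg _) (hfg _) hLD
  · -- `Db (Q p) = 0`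
    intro p
    refine mapDomain_apply_eq_zero r D (Q p) fun v hv hvQ => ?_
    exact Finsupp.mem_support_iff.mp hv (hDsupp p v hvQ)
  · -- `D` vanishes on the tubes
    intro p v hv
    exact hDsupp p v hv
  · -- the other points are outside the tube
    intro p p' hpp hmem
    exact hpp (hQinj hmem)
  · -- the coordinate is regular on the tube
    intro p v hv
    refine URel.mem_of_ord_nonneg v ?_
    by_cases hvP : v = P p
    · right
      rw [hvP, (hevp p).ord_t]
      exact zero_le_one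
    · right
      rw [(hevp p).ord_t_tube v hv hvP]
  · -- the tube property
    intro p y hy α
    obtain ⟨hint, hval⟩ := (hevp p).compat y hy
    obtain ⟨b, hb1, hb2⟩ := hval α
    exact ⟨b, ⟨hy (P p) rfl, hb1⟩, ⟨hint, hb2⟩⟩
  · -- inclusion for `D + E`
    intro x hx
    have h1 := hincl _ x hx
    rwa [hmd] at h1
  · -- inclusion for `E`
    intro x hx
    have h1 := hincl _ x hx
    rwa [URel.mapDomain_ptDiv] at h1
  · -- lifting for `D + E`
    intro yb hyb
    refine hlift _ ?_ yb (by rw [hmd]; exact hyb)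
    rw [hdegP, Finset.card_univ, Fintype.card_prod, Fintype.card_fin, Fintype.card_fin]
    have h1 : (e : ℤ) ≤ ((m * e : ℕ) : ℤ) := by
      exact_mod_cast Nat.le_mul_of_pos_left e hm1
    exact hec.trans h1
  · -- lifting inside the blocks
    intro j yb hyb
    refine hlift _ ?_ yb (by rw [hmd]; exact hyb)
    rw [hdegP, URel.card_filter_fst, Fintype.card_fin]
    exact hec

end Fermat.Agent.S18.UMainRel
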