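import Fermat.Agent.S18.Iface2
import Fermat.Agent.S18.UMainRel
import Fermat.Agent.S18.UAdapt
import Fermat.Agent.S18.ROrthoRel
import Fermat.Agent.S18.UConst
import Fermat.Agent.S18.UPhiB

/-!
# S18, chain U: the torsion statement from the existence of generic points with evaluation data

`TopTorsionPre.torsionOfLiftStmtV_of_pts` proves the interface statement `TorsionOfLiftStmtV`
(`Iface2.lean`) from the single proposition `PtsStmt`: at levels `N ∣ M`, `ℓ ∤ M`, there are
arbitrarily many generic points of `F_N` with evaluation data `URel.EvalPt` for `F_M / F_N`.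
Everything else (reduction pair, extended reduction property, Riemann hypotheses of the base,
finiteness of the integral lattices, cartesian property, inclusion, lifting, constants) is
discharged here from the landed chains.
-/

set_option autoImplicit false
set_option synthInstance.maxHeartbeats 400000
set_option linter.style.haveILetI false

noncomputable section

namespace Fermat.Agent.S18.TopTorsionPre

open AlgebraicCurve ModularCurve IsLocalRing
open Fermat.Agent.S20

/-- **Generic points with evaluation data** at the levels `N ∣ M` (the hypothesis `hpts` of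
`UMainRel.exists_relIntegral` in the concrete setting). -/
def PtsStmt : Prop :=
  ∀ (ℓ : ℕ) [Fact ℓ.Prime] (A : ValuationSubring Qb) (hA : A.LiesOverPrime ℓ)
    (N M : ℕ) [NeZero N] [NeZero M] (h : N ∣ M) (hℓM : ¬ ℓ ∣ M) (hℓN : ¬ ℓ ∣ N)
    (r : Place Qb (FN N) → Place (Kb A) (FbN A N)), IsPlaceReductionModL A N r →
    ∀ hk : ∀ Q : Place (Kb A) (FbN A N), Function.Surjective (algebraMap (Kb A) Q.ResidueField),
    letI := algOfLE (bar_mono h)
    letI := algOfLE (fullC_mono (Kb A) h)
    haveI := isScalarTower_algOfLE (bar_mono h)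
    ∃ d : ℕ, ∀ (T : Finset (Place Qb (FN N))) (n : ℕ),
      ∃ (P : Fin n → Place Qb (FN N)) (t : Fin n → RGB.V N A)
        (vP : Fin n → FN M → Fin d → Qb) (vQ : Fin n → FbN A M → Fin d → Kb A),
        Function.Injective (fun i => r (P i)) ∧ (∀ i, ∀ P' ∈ T, r P' ≠ r (P i)) ∧
        ∀ i, URel.EvalPt A (IsLocalRing.residue A) (RGB.V N A) (RGB.rho N hℓN A hA)
          (RGB.V M A) (RGB.rho M hℓM A hA) r hk d (P i) (t i) (vP i) (vQ i)

/-- At a place of degree one the constants fill the residue field. -/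
theorem surjective_of_deg_one {K F : Type*} [Field K] [Field F] [Algebra K F] (v : Place K F)
    (hv : v.deg = 1) : Function.Surjective (algebraMap K v.ResidueField) := by
  intro w
  have h1 : Module.finrank K v.ResidueField = 1 := hv
  obtain ⟨c, hc⟩ := (finrank_eq_one_iff_of_nonzero' (1 : v.ResidueField) one_ne_zero).mp h1 w
  exact ⟨c, by rw [← hc, Algebra.smul_def, mul_one]⟩

/-- A natural number prime to `ℓ` is a unit of a valuation ring over `ℓ`. -/
theorem natCast_not_mem_maximalIdeal (A : ValuationSubring Qb) {ℓ : ℕ} [Fact ℓ.Prime]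
    (hA : A.LiesOverPrime ℓ) {m : ℕ} (hm : ¬ ℓ ∣ m) : (m : A) ∉ maximalIdeal A := by
  have : CharP (Kb A) ℓ := RN.charP_residueField A hA
  intro hmem
  have h1 : IsLocalRing.residue A (m : A) = 0 := (IsLocalRing.residue_eq_zero_iff _).mpr hmem
  rw [map_natCast] at h1
  exact hm ((CharP.cast_eq_zero_iff (Kb A) ℓ m).mp h1)

/-- Finiteness of the integral lattices at the levels `N ∣ M`. -/
theorem finite_lat {N M : ℕ} [NeZero N] [NeZero M] (h : N ∣ M) {ℓ : ℕ} [Fact ℓ.Prime]
    (hℓM : ¬ ℓ ∣ M) (A : ValuationSubring Qb) (hA : A.LiesOverPrime ℓ)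
    (G : Divisor Qb (FN N)) :
    letI := algOfLE (bar_mono h)
    haveI := isScalarTower_algOfLE (bar_mono h)
    Module.Finite A (URel.lat A (RGB.V M A) G) := by
  letI := algOfLE (bar_mono h)
  haveI := isScalarTower_algOfLE (bar_mono h)
  have hAV : ∀ a : A, algebraMap Qb (FN M) (a : Qb) ∈ RGB.V M A := RG.algebraMap_mem_V A M
  obtain ⟨n, b, hb, hspan⟩ := ROR.exists_fg h hℓM A hA G
  refine Module.Finite.of_surjective
    (Fintype.linearCombination A
      (fun s => (⟨b s, (URel.mem_lat hAV).mpr (hb s)⟩ : URel.lat A (RGB.V M A) G))) ?_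
  intro x
  obtain ⟨hxV, hxG⟩ := (URel.mem_lat hAV).mp x.2
  obtain ⟨a, ha⟩ := hspan x hxV hxG
  refine ⟨a, Subtype.ext ?_⟩
  rw [Fintype.linearCombination_apply, ha, Submodule.coe_sum]
  refine Finset.sum_congr rfl fun s _ => ?_
  rw [Submodule.coe_smul, URel.smul_eq_mul]

/-- **The torsion statement from generic points with evaluation data.** -/
theorem torsionOfLiftStmtV_of_pts (hpts : PtsStmt) : TorsionOfLiftStmtV := by
  intro ℓ _ A hA N M _ _ h hℓM r hr _hgen hlift m hm D hD hmD hrD
  have hℓN : ¬ ℓ ∣ N := fun hd => hℓM (hd.trans h)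
  letI := algOfLE (bar_mono h)
  letI := algOfLE (fullC_mono (Kb A) h)
  haveI := isScalarTower_algOfLE (bar_mono h)
  haveI := isScalarTower_algOfLE (fullC_mono (Kb A) h)
  have h0 : RR.Hyp0 Qb (FN N) := PHyp.hyp0_bar N
  have h0b : RR.Hyp0 (Kb A) (FbN A N) := UPhiB.hyp0_FbN A hA N
  have hk : ∀ Q : Place (Kb A) (FbN A N),
      Function.Surjective (algebraMap (Kb A) Q.ResidueField) := fun Q =>
    surjective_of_deg_one Q (h0b.deg_one Q)
  obtain ⟨d, hp⟩ := hpts ℓ A hA N M h hℓM hℓN r hr hk
  obtain ⟨c, hc⟩ := hlift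
  obtain ⟨φ, hφ0, hφ⟩ := hmD
  obtain ⟨ψb, hψ0, hψ⟩ := hrD
  obtain ⟨x, hx0, hx⟩ := UMainRel.exists_relIntegral A (IsLocalRing.residue A)
    IsLocalRing.residue_surjective (RGB.V N A) (RGB.rho N hℓN A hA) (RGB.V M A)
    (RGB.rho M hℓM A hA) (UAd.redPair h hℓM A hA hℓN) (RG.algebraMap_mem_V A N)
    (RGB.rho_algebraMap N hℓN A hA) (RGB.exists_smul_mem N hℓN A hA) r
    (fun x hx D hD Q => RGB.mapDomain_eq_ord_rho N hℓN A hA hr x hx D hD Q) h0 h0b hk
    (fun G => finite_lat h hℓM A hA G) (UAd.hcart hℓM A hA) c hc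
    (fun G x hx => UAd.relIntegral_rho h hℓM A hA hr G x hx) (UConst.exists_const_FbN A hA h)
    d hp m (natCast_not_mem_maximalIdeal A hA hm) D hD φ hφ0 hφ ψb hψ0 hψ
  haveI := ROR.finite_bar h
  exact UpN.isPrincipal_nsmul_of_relIntegral (fun P => by rw [h0.deg_one P]; exact one_pos)
    h0.principal D hD hx0 hx

end Fermat.Agent.S18.TopTorsionPre
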