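/-
S18 (wave 7), integrator row TOP-TR, independent second seat (helper9): the lifting property
descends from level `M'` to level `M ∣ M'` when `[F_M' : F_M]` is prime to `ℓ`
(`TraceDescentStmtV` of `Iface2.lean`), in the native shapes `UpN.RelIntegral`, `RGB.V`, `RGB.rho`.

* `redPair`: the Gauss valuation rings at levels `N ∣ M` with their residue maps form a reduction
  pair in the sense of `LiftT.RedPair`.
* `trace_mem_and_red`: the trace of an element of `V_M` lies in `V_N`, and `rho` commutes with the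
  trace.
* `traceDescentStmtV`: the statement, by `x := d⁻¹ · Tr_{F_M'/F_M} x'`.
-/
import Fermat.Agent.S18.Iface2
import Fermat.Agent.S18.LiftTrace
import Fermat.Agent.S18.LiftDeg

set_option autoImplicit false
set_option synthInstance.maxHeartbeats 400000

noncomputable section

open HahnSeries IntermediateField AlgebraicCurve ModularCurve

namespace Fermat.Agent.S18.TopTrB

variable (A : ValuationSubring Qb) {ℓ : ℕ} [Fact ℓ.Prime] (hA : A.LiesOverPrime ℓ)

/-- The inclusion of levels does not change the `q`-expansion. -/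
theorem coe_algebraMap_bar {N M : ℕ} (h : N ∣ M) (x : FN N) :
    letI := algOfLE (bar_mono h)
    ((algebraMap (FN N) (FN M) x : FN M) : LaurentSeries Qb) = (x : LaurentSeries Qb) :=
  algOfLE_algebraMap (bar_mono h) x

/-- The inclusion of levels does not change the `q`-expansion (characteristic `ℓ`). -/
theorem coe_algebraMap_fullC {N M : ℕ} (h : N ∣ M) (x : FbN A N) :
    letI := algOfLE (fullC_mono (Kb A) h)
    ((algebraMap (FbN A N) (FbN A M) x : FbN A M) : LaurentSeries (Kb A))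
      = (x : LaurentSeries (Kb A)) :=
  algOfLE_algebraMap (fullC_mono (Kb A) h) x

theorem mem_V_iff {N M : ℕ} [NeZero N] [NeZero M] (h : N ∣ M) (x : FN N) :
    letI := algOfLE (bar_mono h)
    algebraMap (FN N) (FN M) x ∈ RGB.V M A ↔ x ∈ RGB.V N A := by
  letI := algOfLE (bar_mono h)
  constructor
  · intro hx
    have h1 := (RG.mem_V A M).mp hx
    rw [coe_algebraMap_bar h x] at h1
    exact (RG.mem_V A N).mpr h1
  · intro hx
    have h1 := (RG.mem_V A N).mp hx
    rw [← coe_algebraMap_bar h x] at h1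
    exact (RG.mem_V A M).mpr h1

/-- **(B1)** The Gauss valuation rings at levels `N ∣ M`, with their residue maps, form a
reduction pair. -/
theorem redPair {N M : ℕ} [NeZero N] [NeZero M] (h : N ∣ M) (hℓN : ¬ ℓ ∣ N) (hℓM : ¬ ℓ ∣ M) :
    letI := algOfLE (bar_mono h)
    letI := algOfLE (fullC_mono (Kb A) h)
    LiftT.RedPair (RGB.V N A) (RGB.V M A) (RGB.rho N hℓN A hA) (RGB.rho M hℓM A hA) := by
  letI := algOfLE (bar_mono h)
  letI := algOfLE (fullC_mono (Kb A) h)
  refine ⟨fun x => mem_V_iff A h x, RGB.rho_surjective M hℓM A hA, fun x hx => ?_⟩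
  apply Subtype.ext
  rw [coe_algebraMap_fullC A h, RGB.coe_rho, RGB.coe_rho]
  obtain ⟨a, b, hb, hab⟩ := (RG.mem_V A N).mp x.2
  have h1 := RG.rhoL_eq A N x hb hab
  have hab' : (((⟨algebraMap (FN N) (FN M) (x : FN N), hx⟩ : RGB.V M A) : FN M) :
      LaurentSeries Qb) * coeffMap A.subtype b = coeffMap A.subtype a := by
    show ((algebraMap (FN N) (FN M) (x : FN N) : FN M) : LaurentSeries Qb) * _ = _
    rw [coe_algebraMap_bar h]
    exact hab
  rw [h1, RG.rhoL_eq A M _ hb hab']

include hA in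
/-- `[F_M : F_N] = [F̄_M : F̄_N]`. -/
theorem finrank_eq {N M : ℕ} [NeZero N] [NeZero M] (h : N ∣ M) (hℓM : ¬ ℓ ∣ M) :
    letI := algOfLE (bar_mono h)
    letI := algOfLE (fullC_mono (Kb A) h)
    Module.finrank (FN N) (FN M) = Module.finrank (FbN A N) (FbN A M) := by
  letI := algOfLE (bar_mono h)
  letI := algOfLE (fullC_mono (Kb A) h)
  haveI : CharP (Kb A) ℓ := RN.charP_residueField A hA
  exact LiftD.finrank_bar_eq_finrank_fullC (Kb A) ℓ h hℓM
    (fun a => algOfLE_algebraMap (bar_mono h) a)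
    (fun a => algOfLE_algebraMap (fullC_mono (Kb A) h) a)

theorem finite_bar {N M : ℕ} [NeZero N] [NeZero M] (h : N ∣ M) :
    letI := algOfLE (bar_mono h)
    Module.Finite (FN N) (FN M) := by
  letI := algOfLE (bar_mono h)
  exact LiftD.finite_bar h (fun a => algOfLE_algebraMap (bar_mono h) a)

/-- **(B2)** The trace of an element of `V_M` lies in `V_N`, and `rho` commutes with the trace. -/
theorem trace_mem_and_red {N M : ℕ} [NeZero N] [NeZero M] (h : N ∣ M) (hℓN : ¬ ℓ ∣ N)
    (hℓM : ¬ ℓ ∣ M) (x : RGB.V M A) :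
    letI := algOfLE (bar_mono h)
    letI := algOfLE (fullC_mono (Kb A) h)
    ∃ hx : Algebra.trace (FN N) (FN M) (x : FN M) ∈ RGB.V N A,
      RGB.rho N hℓN A hA ⟨_, hx⟩ = Algebra.trace (FbN A N) (FbN A M) (RGB.rho M hℓM A hA x) := by
  letI := algOfLE (bar_mono h)
  letI := algOfLE (fullC_mono (Kb A) h)
  haveI : Module.Finite (FN N) (FN M) := finite_bar h
  exact (redPair A hA h hℓN hℓM).trace_mem_and_red (le_of_eq (finrank_eq A hA h hℓM)) x

/-! ### The generic descent -/

section Generic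

variable {K F F₁ F₂ k E E₁ E₂ : Type*} [Field K] [Field F] [Algebra K F] [Field F₁] [Field F₂]
  [Algebra F F₁] [Algebra F₁ F₂] [Algebra F F₂] [IsScalarTower F F₁ F₂] [FiniteDimensional F₁ F₂]
  [Field k] [Field E] [Algebra k E] [Field E₁] [Field E₂] [Algebra E E₁] [Algebra E₁ E₂]
  [Algebra E E₂] [IsScalarTower E E₁ E₂]

omit [FiniteDimensional F₁ F₂] in
/-- The relative Riemann–Roch space (integral form) is stable under passing to a larger field. -/
theorem relIntegral_algebraMap (G : Divisor K F) {y : F₁} (hy : UpN.RelIntegral G y) :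
    UpN.RelIntegral G (algebraMap F₁ F₂ y) := by
  intro P t ht
  have h1 := hy P t ht
  have h2 : algebraMap F₁ F₂ y * algebraMap F F₂ t = algebraMap F₁ F₂ (y * algebraMap F F₁ t) := by
    rw [map_mul, ← IsScalarTower.algebraMap_apply F F₁ F₂]
  rw [h2]
  exact h1.algebraMap

/-- The trace maps the relative Riemann–Roch space of the big field into that of the
intermediate field. -/
theorem relIntegral_trace (G : Divisor K F) {x : F₂} (hx : UpN.RelIntegral G x) :
    UpN.RelIntegral G (Algebra.trace F₁ F₂ x) := by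
  intro P t ht
  have h1 := hx P t ht
  have h2 : Algebra.trace F₁ F₂ x * algebraMap F F₁ t
      = Algebra.trace F₁ F₂ (x * algebraMap F F₂ t) := by
    rw [IsScalarTower.algebraMap_apply F F₁ F₂, mul_comm x, ← Algebra.smul_def, map_smul,
      smul_eq_mul, mul_comm]
  rw [h2]
  exact Algebra.isIntegral_trace h1

omit [IsScalarTower F F₁ F₂] [FiniteDimensional F₁ F₂] [Algebra F₁ F₂] [Algebra F F₂] in
/-- Multiplication by an element of `F` which is integral at all places preserves the relative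
Riemann–Roch space. -/
theorem relIntegral_mul (G : Divisor K F) {x : F₁} (hx : UpN.RelIntegral G x) (u₀ : F)
    (hu₀ : ∀ P : Place K F, u₀ ∈ P.toValuationSubring) :
    UpN.RelIntegral G (algebraMap F F₁ u₀ * x) := by
  intro P t ht
  have h1 := hx P t ht
  have h2 : IsIntegral P.toValuationSubring (algebraMap F F₁ u₀) :=
    isIntegral_algebraMap (R := P.toValuationSubring) (x := (⟨u₀, hu₀ P⟩ : P.toValuationSubring))
  rw [mul_assoc]
  exact h2.mul h1

/-- **Trace descent, generic form.** -/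
theorem descent_generic
    (V₁ : ValuationSubring F₁) (V₂ : ValuationSubring F₂) (ρ₁ : V₁ →+* E₁) (ρ₂ : V₂ →+* E₂)
    (htr : ∀ x : V₂, ∃ hx : Algebra.trace F₁ F₂ (x : F₂) ∈ V₁,
      ρ₁ ⟨_, hx⟩ = Algebra.trace E₁ E₂ (ρ₂ x))
    (u : V₁) (u₀ : F) (hu₀ : (u : F₁) = algebraMap F F₁ u₀)
    (hu₀int : ∀ P : Place K F, u₀ ∈ P.toValuationSubring)
    (hu : ρ₁ u * (Module.finrank E₁ E₂ : E₁) = 1)
    (G : Divisor K F) (Gb : Divisor k E)
    (htop : ∀ y : E₂, UpN.RelIntegral Gb y → ∃ x : V₂, UpN.RelIntegral G (x : F₂) ∧ ρ₂ x = y) :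
    ∀ y : E₁, UpN.RelIntegral Gb y → ∃ x : V₁, UpN.RelIntegral G (x : F₁) ∧ ρ₁ x = y := by
  intro y hy
  obtain ⟨x', hx', hρ⟩ := htop (algebraMap E₁ E₂ y) (relIntegral_algebraMap Gb hy)
  obtain ⟨hx, hred⟩ := htr x'
  refine ⟨u * ⟨_, hx⟩, ?_, ?_⟩
  · show UpN.RelIntegral G ((u : F₁) * Algebra.trace F₁ F₂ (x' : F₂))
    rw [hu₀]
    exact relIntegral_mul G (relIntegral_trace G hx') u₀ hu₀int
  · rw [map_mul, hred, hρ, Algebra.trace_algebraMap, nsmul_eq_mul, ← mul_assoc, hu, one_mul]

end Generic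

/-- Towers of inclusions of intermediate fields. -/
theorem isScalarTower_algOfLE₃ {K E : Type*} [Field K] [Field E] [Algebra K E]
    {S T U : IntermediateField K E} (h1 : S ≤ T) (h2 : T ≤ U) :
    @IsScalarTower S T U (algOfLE h1).toSMul (algOfLE h2).toSMul (algOfLE (h1.trans h2)).toSMul :=
  letI := algOfLE h1
  letI := algOfLE h2
  letI := algOfLE (h1.trans h2)
  IsScalarTower.of_algebraMap_eq fun _ => rfl

include hA in
/-- A natural number prime to `ℓ` is invertible in `A`. -/
theorem exists_inv_natCast {d : ℕ} (hd : ¬ ℓ ∣ d) :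
    ∃ c : A, (c : Qb) * (d : Qb) = 1 ∧ IsLocalRing.residue A c * (d : Kb A) = 1 := by
  haveI : CharP (Kb A) ℓ := RN.charP_residueField A hA
  have h1 : (d : Kb A) ≠ 0 := fun h0 => hd ((CharP.cast_eq_zero_iff (Kb A) ℓ d).mp h0)
  have h2 : IsLocalRing.residue A (d : A) ≠ 0 := by
    rw [map_natCast]
    exact h1
  have h3 : IsUnit (d : A) := by
    by_contra hnu
    exact h2 ((IsLocalRing.residue_eq_zero_iff _).mpr ((IsLocalRing.mem_maximalIdeal _).mpr hnu))
  obtain ⟨v, hv⟩ := h3
  have h4 : ((v⁻¹ : (↥A)ˣ) : A) * (d : A) = 1 := by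
    rw [← hv]
    exact v.inv_mul
  refine ⟨((v⁻¹ : (↥A)ˣ) : A), ?_, ?_⟩
  · have h5 := congrArg A.subtype h4
    rw [map_mul, map_natCast, map_one] at h5
    exact h5
  · have h5 := congrArg (IsLocalRing.residue A) h4
    rw [map_mul, map_natCast, map_one] at h5
    exact h5

/-- **TOP-TR**: the lifting property descends from level `M'` to level `M ∣ M'` when
`[F_M' : F_M]` is prime to `ℓ`. -/
theorem traceDescentStmtV : TraceDescentStmtV := by
  intro ℓ _ A hA N M M' _ _ _ h h' hℓM hℓM' hdeg r hr hgen hlift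
  letI : Algebra (FN N) (FN M) := algOfLE (bar_mono h)
  letI : Algebra (FN M) (FN M') := algOfLE (bar_mono h')
  letI : Algebra (FN N) (FN M') := algOfLE (bar_mono (h.trans h'))
  letI : Algebra (FbN A N) (FbN A M) := algOfLE (fullC_mono (Kb A) h)
  letI : Algebra (FbN A M) (FbN A M') := algOfLE (fullC_mono (Kb A) h')
  letI : Algebra (FbN A N) (FbN A M') := algOfLE (fullC_mono (Kb A) (h.trans h'))
  haveI : IsScalarTower (FN N) (FN M) (FN M') :=
    isScalarTower_algOfLE₃ (bar_mono h) (bar_mono h')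
  haveI : IsScalarTower (FbN A N) (FbN A M) (FbN A M') :=
    isScalarTower_algOfLE₃ (fullC_mono (Kb A) h) (fullC_mono (Kb A) h')
  haveI : Module.Finite (FN M) (FN M') := finite_bar h'
  haveI : IsScalarTower Qb (FN N) (FN M) := isScalarTower_algOfLE (bar_mono h)
  unfold LiftPropV at hlift ⊢
  obtain ⟨c, hc⟩ := hlift
  refine ⟨c, fun G hG => ?_⟩
  obtain ⟨u, -, hu2⟩ := exists_inv_natCast A hA hdeg
  have hfr : Module.finrank (FbN A M) (FbN A M') = levelDeg h' :=
    (finrank_eq A hA h' hℓM').symm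
  refine descent_generic (RGB.V M A) (RGB.V M' A) (RGB.rho M hℓM A hA) (RGB.rho M' hℓM' A hA)
    (trace_mem_and_red A hA h' hℓM hℓM')
    ⟨algebraMap Qb (FN M) (u : Qb), RG.algebraMap_mem_V A M u⟩
    (algebraMap Qb (FN N) (u : Qb)) ?_ ?_ ?_ G (Finsupp.mapDomain r G) (hc G hG)
  · exact IsScalarTower.algebraMap_apply Qb (FN N) (FN M) (u : Qb)
  · intro P
    exact P.algebraMap_mem' _
  · rw [RGB.rho_algebraMap M hℓM A hA u, hfr,
      ← map_natCast (algebraMap (Kb A) (FbN A M)) (levelDeg h'), ← map_mul, hu2, map_one]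

end Fermat.Agent.S18.TopTrB

end
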