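/-
S18, chain U: the evaluation maps on the fibre over ONE good place (generic, one-sided).

`F ⊆ F'` finite, `O` a valuation subring of `F` with residue map `ev : O →+* K` whose kernel is
generated by `t`, `θ ∈ F'` with `UpK.Good O ev θ g` (minimal polynomial `g` over `O`, separable
split reduction) and `α : Fin d → K` an enumeration of the roots of the reduction of `g`
(`d = [F' : F]`).  Then `val α y i := ∑ ev(a_s) α_i ^ s` for `y = ∑ a_s θ ^ s` is, on the integral
closure of `O` in `F'`, additive, multiplicative, equal to `ev` on `O`, and the `d` values detect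
divisibility by `t`.  Both evaluation families `vP` (characteristic `0`) and `vQ`
(characteristic `ℓ`) of the torsion argument are instances (`exists_eval_place`).
-/
import Mathlib
import Fermat.Agent.S18.UpBase
import Fermat.Agent.S18.UpKummer
import Fermat.Agent.S24.Places

set_option autoImplicit false

open AlgebraicCurve Polynomial

namespace Fermat.Agent.S18.UEvOne

noncomputable section

section Abstract

variable {F F' K : Type*} [Field F] [Field F'] [Algebra F F'] [FiniteDimensional F F'] [Field K]
  {O : ValuationSubring F} {ev : O →+* K} {θ : F'} {g : O[X]}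

/-- The value at the `i`-th root of the element `∑ a_s θ ^ s` (`0` if there is no such
expression with coefficients in `O`). -/
def val (ev : O →+* K) (θ : F') (α : Fin (Module.finrank F F') → K) (y : F')
    (i : Fin (Module.finrank F F')) : K := by
  classical
  exact if hy : ∃ a : Fin (Module.finrank F F') → O,
      y = ∑ s, algebraMap F F' (a s : F) * θ ^ (s : ℕ)
    then ∑ s, ev (hy.choose s) * α i ^ (s : ℕ) else 0

theorem val_eq (h : UpK.Good O ev θ g) (α : Fin (Module.finrank F F') → K)
    (a : Fin (Module.finrank F F') → O) (i : Fin (Module.finrank F F')) :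
    val ev θ α (∑ s, algebraMap F F' (a s : F) * θ ^ (s : ℕ)) i = ∑ s, ev (a s) * α i ^ (s : ℕ) := by
  classical
  have hex : ∃ a' : Fin (Module.finrank F F') → O,
      (∑ s, algebraMap F F' (a s : F) * θ ^ (s : ℕ))
        = ∑ s, algebraMap F F' (a' s : F) * θ ^ (s : ℕ) := ⟨a, rfl⟩
  have hval : val ev θ α (∑ s, algebraMap F F' (a s : F) * θ ^ (s : ℕ)) i
      = ∑ s, ev (hex.choose s) * α i ^ (s : ℕ) := by
    unfold val
    rw [dif_pos hex]
  rw [hval]
  have huniq := h.coeffs_unique (fun s => (hex.choose s : F)) (fun s => (a s : F))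
    hex.choose_spec.symm
  refine Finset.sum_congr rfl fun s _ => ?_
  have hs : hex.choose s = a s := Subtype.ext (congrFun huniq s)
  rw [hs]

omit [FiniteDimensional F F'] in
theorem isIntegral_theta (h : UpK.Good O ev θ g) : IsIntegral O θ :=
  ⟨g, h.monic, h.root⟩

omit [FiniteDimensional F F'] in
theorem isIntegral_sum (h : UpK.Good O ev θ g) (a : Fin (Module.finrank F F') → O) :
    IsIntegral O (∑ s, algebraMap F F' (a s : F) * θ ^ (s : ℕ)) := by
  refine IsIntegral.sum _ fun s _ => ?_
  have h1 : IsIntegral O (algebraMap F F' (a s : F)) :=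
    (isIntegral_algebraMap (R := O) (A := F') (x := a s))
  exact h1.mul ((isIntegral_theta h).pow _)

theorem val_mul (h : UpK.Good O ev θ g) (t : O) (ht : ∀ a : O, ev a = 0 → ∃ b : O, a = t * b)
    (ht0 : ev t = 0) (ht' : t ≠ 0) (α : Fin (Module.finrank F F') → K)
    (hα : ∀ i, (g.map ev).IsRoot (α i)) (y z : F') (hy : IsIntegral O y) (hz : IsIntegral O z) :
    val ev θ α (y * z) = val ev θ α y * val ev θ α z := by
  obtain ⟨a, ha⟩ := h.exists_coeffs t ht ht0 ht' hy
  obtain ⟨b, hb⟩ := h.exists_coeffs t ht ht0 ht' hz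
  obtain ⟨c, hc⟩ := h.exists_coeffs t ht ht0 ht' (hy.mul hz)
  funext i
  rw [Pi.mul_apply, hc]
  conv_rhs => rw [ha, hb]
  rw [val_eq h, val_eq h, val_eq h]
  refine (h.eval_mul (hα i) a b c ?_).symm
  rw [← ha, ← hb, hc]

theorem val_add (h : UpK.Good O ev θ g) (t : O) (ht : ∀ a : O, ev a = 0 → ∃ b : O, a = t * b)
    (ht0 : ev t = 0) (ht' : t ≠ 0) (α : Fin (Module.finrank F F') → K)
    (y z : F') (hy : IsIntegral O y) (hz : IsIntegral O z) :
    val ev θ α (y + z) = val ev θ α y + val ev θ α z := by
  obtain ⟨a, ha⟩ := h.exists_coeffs t ht ht0 ht' hy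
  obtain ⟨b, hb⟩ := h.exists_coeffs t ht ht0 ht' hz
  funext i
  have hsum : y + z = ∑ s, algebraMap F F' ((a s + b s : O) : F) * θ ^ (s : ℕ) := by
    rw [ha, hb, ← Finset.sum_add_distrib]
    refine Finset.sum_congr rfl fun s _ => ?_
    rw [← add_mul, ← map_add]
    rfl
  rw [Pi.add_apply, hsum]
  conv_rhs => rw [ha, hb]
  rw [val_eq h, val_eq h, val_eq h, ← Finset.sum_add_distrib]
  refine Finset.sum_congr rfl fun s _ => ?_
  rw [map_add, add_mul]

theorem val_algebraMap (h : UpK.Good O ev θ g) (α : Fin (Module.finrank F F') → K) (f : O)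
    (i : Fin (Module.finrank F F')) : val ev θ α (algebraMap F F' (f : F)) i = ev f := by
  classical
  have hd : 0 < Module.finrank F F' := Module.finrank_pos
  let i0 : Fin (Module.finrank F F') := ⟨0, hd⟩
  have hsum : algebraMap F F' (f : F)
      = ∑ s, algebraMap F F' (((if s = i0 then f else 0 : O)) : F) * θ ^ (s : ℕ) := by
    rw [Finset.sum_eq_single i0]
    · rw [if_pos rfl]
      show _ = _ * θ ^ 0
      rw [pow_zero, mul_one]
    · intro s _ hs
      rw [if_neg hs]
      show algebraMap F F' (0 : F) * _ = 0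
      rw [map_zero, zero_mul]
    · intro hi
      exact absurd (Finset.mem_univ i0) hi
  rw [hsum, val_eq h, Finset.sum_eq_single i0]
  · rw [if_pos rfl]
    show _ * α i ^ 0 = _
    rw [pow_zero, mul_one]
  · intro s _ hs
    rw [if_neg hs, map_zero, zero_mul]
  · intro hi
    exact absurd (Finset.mem_univ i0) hi

theorem val_detect (h : UpK.Good O ev θ g) (t : O) (ht : ∀ a : O, ev a = 0 → ∃ b : O, a = t * b)
    (ht0 : ev t = 0) (ht' : t ≠ 0) (α : Fin (Module.finrank F F') → K)
    (hα : ∀ z : K, (g.map ev).IsRoot z → ∃ i, z = α i) (y : F') (hy : IsIntegral O y)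
    (h0 : val ev θ α y = 0) :
    ∃ y' : F', IsIntegral O y' ∧ y = algebraMap F F' (t : F) * y' := by
  obtain ⟨a, ha⟩ := h.exists_coeffs t ht ht0 ht' hy
  have hev : ∀ s, ev (a s) = 0 := by
    refine h.coeffs_ev_eq_zero a fun z hz => ?_
    obtain ⟨i, rfl⟩ := hα z hz
    have := congrFun h0 i
    rw [ha, val_eq h] at this
    exact this
  choose b hb using fun s => ht (a s) (hev s)
  refine ⟨∑ s, algebraMap F F' (b s : F) * θ ^ (s : ℕ), isIntegral_sum h b, ?_⟩
  rw [ha, Finset.mul_sum]
  refine Finset.sum_congr rfl fun s _ => ?_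
  rw [hb s, ← mul_assoc, ← map_mul]
  rfl

/-- **The evaluation package at one good place (abstract form).** -/
theorem exists_eval (h : UpK.Good O ev θ g) (t : O) (ht : ∀ a : O, ev a = 0 → ∃ b : O, a = t * b)
    (ht0 : ev t = 0) (ht' : t ≠ 0) (α : Fin (Module.finrank F F') → K)
    (hα : ∀ z : K, (g.map ev).IsRoot z ↔ ∃ i, z = α i) :
    ∃ v : F' → Fin (Module.finrank F F') → K,
      (∀ y z : F', IsIntegral O y → IsIntegral O z → v (y * z) = v y * v z) ∧
      (∀ y z : F', IsIntegral O y → IsIntegral O z → v (y + z) = v y + v z) ∧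
      (∀ (f : O) (i : Fin (Module.finrank F F')), v (algebraMap F F' (f : F)) i = ev f) ∧
      (∀ y : F', IsIntegral O y → v y = 0 →
        ∃ y' : F', IsIntegral O y' ∧ y = algebraMap F F' (t : F) * y') ∧
      (∀ (a : Fin (Module.finrank F F') → O) (i : Fin (Module.finrank F F')),
        v (∑ s, algebraMap F F' (a s : F) * θ ^ (s : ℕ)) i = ∑ s, ev (a s) * α i ^ (s : ℕ)) :=
  ⟨val ev θ α,
    val_mul h t ht ht0 ht' α fun i => (hα (α i)).mpr ⟨i, rfl⟩,
    val_add h t ht ht0 ht' α,
    val_algebraMap h α,
    val_detect h t ht ht0 ht' α fun z hz => (hα z).mp hz,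
    val_eq h α⟩

end Abstract

section AtPlace

variable {K F F' : Type*} [Field K] [Field F] [Field F'] [Algebra K F] [Algebra F F']
  [Algebra K F'] [IsScalarTower K F F'] [FiniteDimensional F F']

/-- **The evaluation package at one good place** of a function field: the fields `vP_mul`,
`vP_add`, `vP_const`, `vP_zero_of_ord_pos`, `vP_detect` (resp. `vQ_mul`, `vQ_algebraMap`,
`vQ_detect`) of the evaluation data of the torsion argument, together with the explicit formula
on `∑ a_s θ ^ s`. -/
theorem exists_eval_place (P : Place K F) (hP : Function.Surjective (algebraMap K P.ResidueField))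
    (θ : F') (g : P.toValuationSubring[X])
    (h : UpK.Good P.toValuationSubring (UpB.evalHom P hP) θ g)
    (t : F) (ht : P.ord t = 1) (α : Fin (Module.finrank F F') → K)
    (hα : ∀ z : K, (g.map (UpB.evalHom P hP)).IsRoot z ↔ ∃ i, z = α i) :
    ∃ v : F' → Fin (Module.finrank F F') → K,
      (∀ y z : F', IsIntegral P.toValuationSubring y → IsIntegral P.toValuationSubring z →
        v (y * z) = v y * v z) ∧
      (∀ y z : F', IsIntegral P.toValuationSubring y → IsIntegral P.toValuationSubring z →
        v (y + z) = v y + v z) ∧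
      (∀ (f : P.toValuationSubring) (i : Fin (Module.finrank F F')),
        v (algebraMap F F' (f : F)) i = UpB.evalHom P hP f) ∧
      (∀ (c : K) (i : Fin (Module.finrank F F')), v (algebraMap K F' c) i = c) ∧
      (∀ f : F, 0 < P.ord f → v (algebraMap F F' f) = 0) ∧
      (∀ y : F', IsIntegral P.toValuationSubring y → v y = 0 →
        ∃ y' : F', IsIntegral P.toValuationSubring y' ∧ y = algebraMap F F' t * y') ∧
      (∀ (a : Fin (Module.finrank F F') → P.toValuationSubring) (i : Fin (Module.finrank F F')),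
        v (∑ s, algebraMap F F' (a s : F) * θ ^ (s : ℕ)) i
          = ∑ s, UpB.evalHom P hP (a s) * α i ^ (s : ℕ)) := by
  have htmem : t ∈ P.toValuationSubring :=
    Fermat.Agent.S24.Places.mem_of_ord_pos P (by rw [ht]; exact one_pos)
  have ht' : (⟨t, htmem⟩ : P.toValuationSubring) ≠ 0 := by
    intro h0
    have h1 : t = 0 := congrArg Subtype.val h0
    rw [h1, Place.ord_zero] at ht
    exact zero_ne_one ht
  obtain ⟨v, hmul, hadd, halg, hdet, hform⟩ := exists_eval h ⟨t, htmem⟩
    (fun a ha => UpB.exists_eq_mul_of_evalHom_eq_zero P hP ⟨t, htmem⟩ ht a ha)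
    (UpB.evalHom_uniformizer P hP ⟨t, htmem⟩ ht) ht' α hα
  refine ⟨v, hmul, hadd, halg, ?_, ?_, hdet, hform⟩
  · intro c i
    have h1 : algebraMap K F' c
        = algebraMap F F' ((algebraMap K P.toValuationSubring c : P.toValuationSubring) : F) := by
      rw [IsScalarTower.algebraMap_apply K F F']
      rfl
    rw [h1, halg, UpB.evalHom_algebraMap]
  · intro f hf
    have hfmem : f ∈ P.toValuationSubring := Fermat.Agent.S24.Places.mem_of_ord_pos P hf
    funext i
    have h1 := halg ⟨f, hfmem⟩ i
    rw [h1, Pi.zero_apply, UpB.evalHom_eq_iff_ord P hP hfmem 0]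
    right
    rwa [map_zero, sub_zero]

end AtPlace

end

end Fermat.Agent.S18.UEvOne
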