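/-
S18, chain U: generic points with evaluation data (second seat of the `hpts` input of the
relative torsion theorem, in the shape of `URel.EvalPt`).

Setting: `F ⊂ F'` over `L` and `Fb ⊂ Fb'` over `k` (both algebraically closed), `A ⊂ L` with
residue map `res`, Gauss valuation rings `V ⊂ F`, `V' ⊂ F'` forming a `LiftT.RedPair`, a reduction
map `r` on places of `F` with the extended divisor compatibility `hstar`, equal degrees
`[F' : F] = [Fb' : Fb] = d`, `Fb'/Fb` separable, and a coordinate function `x ∈ V`.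

* `exists_theta` : a lift `θ ∈ V'` of a primitive element of `Fb'/Fb` and its minimal polynomial
  `g ∈ V[X]`, whose reduction is the separable minimal polynomial of the reduction of `θ`;
* `exists_model` : over a tube on which the coefficients of `g` are regular, `g` specialises to a
  polynomial over `A` whose reduction is the specialisation of the reduction of `g`;
* `exists_good` : such a place is good (`UpK.Good`) on both sides, with roots `α i ∈ A`;
* `evalPt_of_good` : the evaluation data `URel.EvalPt` at such a place;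
* `exists_pts` : `n` generic points with evaluation data, avoiding a given finite set.
-/
import Mathlib
import Fermat.Agent.S18.URel
import Fermat.Agent.S18.UEvOne
import Fermat.Agent.S18.UBad
import Fermat.Agent.S18.TubeV
import Fermat.Agent.S18.GenPts
import Fermat.Agent.S18.LiftTrace

set_option autoImplicit false

open AlgebraicCurve Polynomial IntermediateField

namespace Fermat.Agent.S18.UEvPts

noncomputable section

open Fermat.Agent.S20

section Theta

variable {F F' κ κ' : Type*} [Field F] [Field F'] [Algebra F F'] [Field κ] [Field κ']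
  [Algebra κ κ'] {V : ValuationSubring F} {V' : ValuationSubring F'} {ρ : V →+* κ}
  {ρ' : V' →+* κ'}

/-- A primitive element of the residue extension, a lift of it, and its minimal polynomial over
the valuation ring downstairs: the reduction of the polynomial is the (separable) minimal
polynomial of the reduction. -/
theorem exists_theta (h : LiftT.RedPair V V' ρ ρ') [FiniteDimensional F F']
    [FiniteDimensional κ κ'] [Algebra.IsSeparable κ κ']
    (hd : Module.finrank F F' = Module.finrank κ κ') :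
    ∃ (θ : V') (g : V[X]), g.Monic ∧ g.map V.subtype = minpoly F (θ : F') ∧
      g.map ρ = minpoly κ (ρ' θ) ∧ g.natDegree = Module.finrank F F' ∧
      (g.map ρ).Separable := by
  obtain ⟨θb, hθb⟩ := Field.exists_primitive_element κ κ'
  obtain ⟨θ, rfl⟩ := h.surj' θb
  obtain ⟨g, hg, hgmin, hgev⟩ := h.exists_monic_map_eq_minpoly hd.le θ
  have hdegb : (minpoly κ (ρ' θ)).natDegree = Module.finrank κ κ' :=
    (Field.primitive_element_iff_minpoly_natDegree_eq κ (ρ' θ)).mp hθb
  have hbint : IsIntegral κ (ρ' θ) := Algebra.IsIntegral.isIntegral _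
  have hroot : aeval (ρ' θ) (g.map ρ) = 0 := by
    rw [aeval_def, eval₂_map]
    exact hgev
  have hdvd : minpoly κ (ρ' θ) ∣ g.map ρ := minpoly.dvd κ _ hroot
  have hdeg1 : g.natDegree = (minpoly F (θ : F')).natDegree := by
    rw [← hgmin, hg.natDegree_map]
  have hle : (g.map ρ).natDegree ≤ (minpoly κ (ρ' θ)).natDegree := by
    rw [hg.natDegree_map, hdeg1, hdegb, ← hd]
    exact minpoly.natDegree_le (θ : F')
  have heq : g.map ρ = minpoly κ (ρ' θ) :=
    Polynomial.eq_of_monic_of_dvd_of_natDegree_le (minpoly.monic hbint) (hg.map ρ) hdvd hle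
  refine ⟨θ, g, hg, hgmin, heq, ?_, ?_⟩
  · rw [← hg.natDegree_map ρ, heq, hdegb, hd]
  · rw [heq]
    exact Algebra.IsSeparable.isSeparable κ (ρ' θ)

end Theta

section Wrappers

variable {K F F' : Type*} [Field K] [Field F] [Field F'] [Algebra K F] [Algebra F F']
  [Algebra K F'] [IsScalarTower K F F'] [FiniteDimensional F F']

/-- `UEvOne.exists_eval_place` with the index type `Fin d`. -/
theorem exists_eval_place' {d : ℕ} (hd : Module.finrank F F' = d) (P : Place K F)
    (hP : Function.Surjective (algebraMap K P.ResidueField))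
    (θ : F') (g : P.toValuationSubring[X])
    (h : UpK.Good P.toValuationSubring (UpB.evalHom P hP) θ g)
    (t : F) (ht : P.ord t = 1) (α : Fin d → K)
    (hα : ∀ z : K, (g.map (UpB.evalHom P hP)).IsRoot z ↔ ∃ i, z = α i) :
    ∃ v : F' → Fin d → K,
      (∀ y z : F', IsIntegral P.toValuationSubring y → IsIntegral P.toValuationSubring z →
        v (y * z) = v y * v z) ∧
      (∀ y z : F', IsIntegral P.toValuationSubring y → IsIntegral P.toValuationSubring z →
        v (y + z) = v y + v z) ∧
      (∀ (f : P.toValuationSubring) (i : Fin d),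
        v (algebraMap F F' (f : F)) i = UpB.evalHom P hP f) ∧
      (∀ (c : K) (i : Fin d), v (algebraMap K F' c) i = c) ∧
      (∀ f : F, 0 < P.ord f → v (algebraMap F F' f) = 0) ∧
      (∀ y : F', IsIntegral P.toValuationSubring y → v y = 0 →
        ∃ y' : F', IsIntegral P.toValuationSubring y' ∧ y = algebraMap F F' t * y') ∧
      (∀ (a : Fin d → P.toValuationSubring) (i : Fin d),
        v (∑ s, algebraMap F F' (a s : F) * θ ^ (s : ℕ)) i
          = ∑ s, UpB.evalHom P hP (a s) * α i ^ (s : ℕ)) := by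
  subst hd
  exact UEvOne.exists_eval_place P hP θ g h t ht α hα

omit [Algebra K F'] [IsScalarTower K F F'] in
/-- At a good place, an integral element is a combination of the powers of `θ` with
coefficients in the valuation ring. -/
theorem exists_coeffs_place {d : ℕ} (hd : Module.finrank F F' = d) (P : Place K F)
    (hP : Function.Surjective (algebraMap K P.ResidueField))
    (θ : F') (g : P.toValuationSubring[X])
    (h : UpK.Good P.toValuationSubring (UpB.evalHom P hP) θ g) {y : F'}
    (hy : IsIntegral P.toValuationSubring y) :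
    ∃ a : Fin d → P.toValuationSubring, y = ∑ s, algebraMap F F' (a s : F) * θ ^ (s : ℕ) := by
  subst hd
  obtain ⟨π, hπ⟩ := IsDiscreteValuationRing.exists_irreducible P.toValuationSubring
  have hord : P.ord (π : F) = 1 := P.ord_coe_irreducible hπ
  exact h.exists_coeffs π (fun a ha => UpB.exists_eq_mul_of_evalHom_eq_zero P hP π hord a ha)
    (UpB.evalHom_uniformizer P hP π hord) hπ.ne_zero hy

omit [Algebra K F] [Algebra K F'] [IsScalarTower K F F'] in
theorem coeffs_unique' {d : ℕ} (hd : Module.finrank F F' = d) {K' : Type*} [Field K']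
    {O : ValuationSubring F} {ev : O →+* K'} {θ : F'} {g : O[X]} (h : UpK.Good O ev θ g)
    (a b : Fin d → F)
    (hab : ∑ s, algebraMap F F' (a s) * θ ^ (s : ℕ) = ∑ s, algebraMap F F' (b s) * θ ^ (s : ℕ)) :
    a = b := by
  subst hd
  exact h.coeffs_unique a b hab

end Wrappers


section Model

variable {L F k Fb : Type*} [Field L] [Field F] [Algebra L F] [Field k] [Field Fb] [Algebra k Fb]

/-- **Model of a polynomial over a tube.** If the coefficients of `g ∈ V[X]` are regular on the
whole tube of `r P`, then `g` has models over the valuation rings of `P` and of `r P`, and the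
specialisation at `P` comes from a polynomial over `A` whose reduction is the specialisation of
the reduction of `g` at `r P`. -/
theorem exists_model (A : ValuationSubring L) (res : A →+* k)
    (hres : ∀ a : A, res a = 0 ↔ a ∈ IsLocalRing.maximalIdeal A)
    (V : ValuationSubring F) (rho : V →+* Fb)
    (hVA : ∀ c : L, algebraMap L F c ∈ V ↔ c ∈ A)
    (hrho : ∀ (a : A) (h : algebraMap L F (a : L) ∈ V), rho ⟨_, h⟩ = algebraMap k Fb (res a))
    (r : Place L F → Place k Fb)
    (hstar : ∀ x : V, rho x ≠ 0 → ∀ D : Divisor L F, (∀ P, D P = P.ord (x : F)) →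
      ∀ Q, Finsupp.mapDomain r D Q = Q.ord (rho x))
    (hdiv : ∀ f : F, f ≠ 0 → ∃ D : Divisor L F, ∀ v, D v = v.ord f)
    (hL : ∀ P : Place L F, Function.Surjective (algebraMap L P.ResidueField))
    (hk : ∀ Q : Place k Fb, Function.Surjective (algebraMap k Q.ResidueField))
    (g : V[X]) (hg : g.Monic) (P : Place L F)
    (hreg : ∀ P', r P' = r P → ∀ i, ((g.coeff i : V) : F) ∈ P'.toValuationSubring) :
    ∃ (gP : P.toValuationSubring[X]) (gQ : (r P).toValuationSubring[X]) (gA : A[X]),
      gP.Monic ∧ gP.map P.toValuationSubring.subtype = g.map V.subtype ∧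
      gQ.Monic ∧ gQ.map (r P).toValuationSubring.subtype = g.map rho ∧
      gA.Monic ∧ gA.natDegree = g.natDegree ∧
      gP.map (UpB.evalHom P (hL P)) = gA.map A.subtype ∧
      gQ.map (UpB.evalHom (r P) (hk (r P))) = gA.map res := by
  classical
  have hval := fun i => TubeV.value A res hres V rho hVA hrho r hstar hdiv hL hk (g.coeff i) P
    (fun P' hP' => hreg P' hP' i)
  choose b hq hb1 hb2 using hval
  have hP1 : g.map V.subtype ∈ Polynomial.lifts P.toValuationSubring.subtype := by
    rw [Polynomial.lifts_iff_coeff_lifts]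
    intro i
    rw [Polynomial.coeff_map]
    exact ⟨⟨_, hreg P rfl i⟩, rfl⟩
  obtain ⟨gP, hgP, hgPdeg, hgPm⟩ := Polynomial.lifts_and_natDegree_eq_and_monic hP1 (hg.map _)
  have hQ1 : g.map rho ∈ Polynomial.lifts (r P).toValuationSubring.subtype := by
    rw [Polynomial.lifts_iff_coeff_lifts]
    intro i
    rw [Polynomial.coeff_map]
    exact ⟨⟨_, hq i⟩, rfl⟩
  obtain ⟨gQ, hgQ, hgQdeg, hgQm⟩ := Polynomial.lifts_and_natDegree_eq_and_monic hQ1 (hg.map _)
  have hcP : ∀ i, gP.coeff i = ⟨((g.coeff i : V) : F), hreg P rfl i⟩ := by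
    intro i
    apply Subtype.ext
    have h1 := congrArg (fun p => p.coeff i) hgP
    simp only [Polynomial.coeff_map] at h1
    exact h1
  have hcQ : ∀ i, gQ.coeff i = ⟨rho (g.coeff i), hq i⟩ := by
    intro i
    apply Subtype.ext
    have h1 := congrArg (fun p => p.coeff i) hgQ
    simp only [Polynomial.coeff_map] at h1
    exact h1
  have hA1 : gP.map (UpB.evalHom P (hL P)) ∈ Polynomial.lifts A.subtype := by
    rw [Polynomial.lifts_iff_coeff_lifts]
    intro i
    rw [Polynomial.coeff_map, hcP i, hb1 i]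
    exact ⟨b i, rfl⟩
  obtain ⟨gA, hgA, hgAdeg, hgAm⟩ := Polynomial.lifts_and_natDegree_eq_and_monic hA1 (hgPm.map _)
  have hcA : ∀ i, gA.coeff i = b i := by
    intro i
    apply Subtype.ext
    have h1 := congrArg (fun p => p.coeff i) hgA
    simp only [Polynomial.coeff_map] at h1
    rw [hcP i, hb1 i] at h1
    exact h1
  refine ⟨gP, gQ, gA, hgPm, hgP, hgQm, hgQ, hgAm, ?_, hgA.symm, ?_⟩
  · rw [hgAdeg, hgPm.natDegree_map, hgPdeg, hg.natDegree_map]
  · ext i
    rw [Polynomial.coeff_map, Polynomial.coeff_map, hcQ i, hcA i, hb2 i]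

end Model


section Good

variable {L F F' k Fb Fb' : Type*} [Field L] [Field F] [Field F'] [Algebra L F] [Algebra F F']
  [Field k] [Field Fb] [Field Fb'] [Algebra k Fb] [Algebra Fb Fb']

omit [Algebra L F] in
theorem aeval_eq_of_map {O : ValuationSubring F} (θ : F') (q : O[X]) :
    aeval θ q = aeval θ (q.map O.subtype) := by
  rw [aeval_def, aeval_def, eval₂_map]
  rfl

/-- **Good places.** If the coefficients of `g` are regular on the tube of `r P` and the
specialisation of the reduction of `g` at `r P` is separable, then `θ` is good at `P`, its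
reduction is good at `r P`, and the roots of the two specialisations are enumerated by one family
`α : Fin d → A` and its reduction. -/
theorem exists_good [IsAlgClosed L] [IsAlgClosed k] (A : ValuationSubring L) (res : A →+* k)
    (hres : ∀ a : A, res a = 0 ↔ a ∈ IsLocalRing.maximalIdeal A)
    (V : ValuationSubring F) (rho : V →+* Fb)
    (hVA : ∀ c : L, algebraMap L F c ∈ V ↔ c ∈ A)
    (hrho : ∀ (a : A) (h : algebraMap L F (a : L) ∈ V), rho ⟨_, h⟩ = algebraMap k Fb (res a))
    (r : Place L F → Place k Fb)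
    (hstar : ∀ x : V, rho x ≠ 0 → ∀ D : Divisor L F, (∀ P, D P = P.ord (x : F)) →
      ∀ Q, Finsupp.mapDomain r D Q = Q.ord (rho x))
    (hdiv : ∀ f : F, f ≠ 0 → ∃ D : Divisor L F, ∀ v, D v = v.ord f)
    (hL : ∀ P : Place L F, Function.Surjective (algebraMap L P.ResidueField))
    (hk : ∀ Q : Place k Fb, Function.Surjective (algebraMap k Q.ResidueField))
    (θ : F') (θb : Fb') (g : V[X]) (hg : g.Monic)
    (hmin : g.map V.subtype = minpoly F θ) (hminb : g.map rho = minpoly Fb θb)
    {d : ℕ} (hdF : Module.finrank F F' = d) (hdFb : Module.finrank Fb Fb' = d)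
    (hdg : g.natDegree = d) (P : Place L F)
    (hreg : ∀ P', r P' = r P → ∀ i, ((g.coeff i : V) : F) ∈ P'.toValuationSubring)
    (hsep : ∀ q : (r P).toValuationSubring[X],
      q.map (r P).toValuationSubring.subtype = g.map rho →
        (q.map (UpB.evalHom (r P) (hk (r P)))).Separable) :
    ∃ (gP : P.toValuationSubring[X]) (gQ : (r P).toValuationSubring[X]) (α : Fin d → A),
      UpK.Good P.toValuationSubring (UpB.evalHom P (hL P)) θ gP ∧
      UpK.Good (r P).toValuationSubring (UpB.evalHom (r P) (hk (r P))) θb gQ ∧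
      (∀ z : L, (gP.map (UpB.evalHom P (hL P))).IsRoot z ↔ ∃ i, z = (α i : L)) ∧
      (∀ z : k, (gQ.map (UpB.evalHom (r P) (hk (r P)))).IsRoot z ↔ ∃ i, z = res (α i)) := by
  classical
  obtain ⟨gP, gQ, gA, hgPm, hgP, hgQm, hgQ, hgAm, hgAdeg, hPA, hQA⟩ :=
    exists_model A res hres V rho hVA hrho r hstar hdiv hL hk g hg P hreg
  have hsepA : (gA.map res).Separable := by
    rw [← hQA]
    exact hsep gQ hgQ
  obtain ⟨α, hαinj, hαL, hαk, hprod⟩ := UpB.exists_roots A res gA hgAm hsepA
  have hdA : gA.natDegree = d := hgAdeg.trans hdg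
  have hsepL : (gA.map A.subtype).Separable := by
    have h1 : gA.map A.subtype = ∏ i, (X - C ((α i : A) : L)) := by
      conv_lhs => rw [hprod]
      rw [Polynomial.map_prod]
      refine Finset.prod_congr rfl fun i _ => ?_
      rw [Polynomial.map_sub, Polynomial.map_X, Polynomial.map_C]
      rfl
    rw [h1, separable_prod_X_sub_C_iff]
    intro i j hij
    exact hαinj (congrArg res (Subtype.ext hij))
  refine ⟨gP, gQ, fun i => α (Fin.cast hdA.symm i), ?_, ?_, ?_, ?_⟩
  · refine ⟨hgPm, ?_, ?_, hgP.trans hmin, ?_, IsAlgClosed.splits _⟩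
    · rw [aeval_eq_of_map, hgP, hmin, minpoly.aeval]
    · rw [← hgPm.natDegree_map P.toValuationSubring.subtype, hgP, hg.natDegree_map, hdg, hdF]
    · rw [hPA]
      exact hsepL
  · refine ⟨hgQm, ?_, ?_, hgQ.trans hminb, hsep gQ hgQ, IsAlgClosed.splits _⟩
    · rw [aeval_eq_of_map, hgQ, hminb, minpoly.aeval]
    · rw [← hgQm.natDegree_map (r P).toValuationSubring.subtype, hgQ, hg.natDegree_map, hdg, hdFb]
  · intro z
    rw [hPA, hαL z]
    constructor
    · rintro ⟨i, rfl⟩
      exact ⟨Fin.cast hdA i, rfl⟩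
    · rintro ⟨i, rfl⟩
      exact ⟨Fin.cast hdA.symm i, rfl⟩
  · intro z
    rw [hQA, hαk z]
    constructor
    · rintro ⟨i, rfl⟩
      exact ⟨Fin.cast hdA i, rfl⟩
    · rintro ⟨i, rfl⟩
      exact ⟨Fin.cast hdA.symm i, rfl⟩

end Good


section Main

variable {L F F' k Fb Fb' : Type*} [Field L] [Field F] [Field F'] [Algebra L F] [Algebra F F']
  [Algebra L F'] [IsScalarTower L F F']
  [Field k] [Field Fb] [Field Fb'] [Algebra k Fb] [Algebra Fb Fb'] [Algebra k Fb']
  [IsScalarTower k Fb Fb']

/-- **The evaluation data at one generic point.** -/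
theorem evalPt_of_good [IsAlgClosed L] [IsAlgClosed k] [FiniteDimensional F F']
    [FiniteDimensional Fb Fb'] (A : ValuationSubring L) (res : A →+* k)
    (hres : ∀ a : A, res a = 0 ↔ a ∈ IsLocalRing.maximalIdeal A)
    (V : ValuationSubring F) (rho : V →+* Fb) (V' : ValuationSubring F') (rho' : V' →+* Fb')
    (hRP : LiftT.RedPair V V' rho rho')
    (hVA : ∀ c : L, algebraMap L F c ∈ V ↔ c ∈ A)
    (hrho : ∀ (a : A) (h : algebraMap L F (a : L) ∈ V), rho ⟨_, h⟩ = algebraMap k Fb (res a))
    (r : Place L F → Place k Fb)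
    (hstar : ∀ x : V, rho x ≠ 0 → ∀ D : Divisor L F, (∀ P, D P = P.ord (x : F)) →
      ∀ Q, Finsupp.mapDomain r D Q = Q.ord (rho x))
    (hdiv : ∀ f : F, f ≠ 0 → ∃ D : Divisor L F, ∀ v, D v = v.ord f)
    (hL : ∀ P : Place L F, Function.Surjective (algebraMap L P.ResidueField))
    (hk : ∀ Q : Place k Fb, Function.Surjective (algebraMap k Q.ResidueField))
    (θ : V') (g : V[X]) (hg : g.Monic)
    (hmin : g.map V.subtype = minpoly F (θ : F')) (hminb : g.map rho = minpoly Fb (rho' θ))
    {d : ℕ} (hdF : Module.finrank F F' = d) (hdFb : Module.finrank Fb Fb' = d)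
    (hdg : g.natDegree = d) (P : Place L F) (t : V) (ht : P.ord (t : F) = 1)
    (ht_tube : ∀ P', r P' = r P → P' ≠ P → P'.ord (t : F) = 0)
    (htb : (r P).ord (rho t) = 1)
    (hreg : ∀ P', r P' = r P → ∀ i, ((g.coeff i : V) : F) ∈ P'.toValuationSubring)
    (hsep : ∀ Q, Q = r P → ∀ q : Q.toValuationSubring[X],
      q.map Q.toValuationSubring.subtype = g.map rho →
        (q.map (UpB.evalHom Q (hk Q))).Separable) :
    ∃ (vP : F' → Fin d → L) (vQ : Fb' → Fin d → k),
      URel.EvalPt A res V rho V' rho' r hk d P t vP vQ := by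
  classical
  obtain ⟨gP, gQ, α, hgoodP, hgoodQ, hαP, hαQ⟩ := exists_good A res hres V rho hVA hrho r hstar
    hdiv hL hk (θ : F') (rho' θ) g hg hmin hminb hdF hdFb hdg P hreg (hsep (r P) rfl)
  obtain ⟨vP, hPmul, hPadd, hPalg, hPconst, hPzero, hPdet, hPform⟩ := exists_eval_place' hdF P
    (hL P) (θ : F') gP hgoodP (t : F) ht (fun i => ((α i : A) : L)) hαP
  obtain ⟨vQ, hQmul, hQadd, hQalg, hQconst, hQzero, hQdet, hQform⟩ := exists_eval_place' hdFb
    (r P) (hk (r P)) (rho' θ) gQ hgoodQ (rho t) htb (fun i => res (α i)) hαQ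
  refine ⟨vP, vQ, ⟨ht, ht_tube, htb, hPmul, hPadd, hPconst, hPzero, hPdet, hQmul, hQalg, hQdet,
    ?_⟩⟩
  intro y hy
  -- the coefficients of `y` in the basis `θ ^ s`, at `P`
  obtain ⟨aP, haP⟩ := exists_coeffs_place hdF P (hL P) (θ : F') gP hgoodP (hy P rfl)
  -- they are regular on the whole tube
  have hregc : ∀ s, ∀ P', r P' = r P → ((aP s : P.toValuationSubring) : F) ∈ P'.toValuationSubring := by
    intro s P' hP'
    obtain ⟨gP', gQ', α', hgoodP', -, -, -⟩ := exists_good A res hres V rho hVA hrho r hstar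
      hdiv hL hk (θ : F') (rho' θ) g hg hmin hminb hdF hdFb hdg P'
      (fun P'' hP'' => hreg P'' (hP''.trans hP')) (hsep (r P') hP')
    obtain ⟨a', ha'⟩ := exists_coeffs_place hdF P' (hL P') (θ : F') gP' hgoodP' (hy P' hP')
    have huniq := coeffs_unique' hdF hgoodP (fun s => ((aP s : P.toValuationSubring) : F))
      (fun s => ((a' s : P'.toValuationSubring) : F)) (haP.symm.trans ha')
    have h1 : ((aP s : P.toValuationSubring) : F) = ((a' s : P'.toValuationSubring) : F) :=
      congrFun huniq s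
    rw [h1]
    exact (a' s).2
  -- they lie in `V`
  have hnd : (minpoly Fb (rho' θ)).natDegree = d := by
    rw [← hminb, hg.natDegree_map, hdg]
  have hli : LinearIndependent Fb (fun s : Fin d => rho' (θ ^ (s : ℕ))) := by
    have h1 := linearIndependent_pow (K := Fb) (rho' θ)
    have h2 := h1.comp (Fin.cast hnd.symm) (Fin.cast_injective _)
    have h3 : (fun s : Fin d => rho' (θ ^ (s : ℕ)))
        = (fun i : Fin (minpoly Fb (rho' θ)).natDegree => rho' θ ^ (i : ℕ)) ∘ Fin.cast hnd.symm := by
      funext s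
      rw [map_pow]
      rfl
    rw [h3]
    exact h2
  have hcV : ∀ s, ((aP s : P.toValuationSubring) : F) ∈ V := by
    refine hRP.coeff_mem (fun s : Fin d => θ ^ (s : ℕ)) hli
      (fun s => ((aP s : P.toValuationSubring) : F)) ?_
    have h1 : ∑ s : Fin d, ((aP s : P.toValuationSubring) : F) • (((θ ^ (s : ℕ) : V')) : F')
        = (y : F') := by
      rw [haP]
      refine Finset.sum_congr rfl fun s _ => ?_
      rw [Algebra.smul_def]
      rfl
    rw [h1]
    exact y.2
  -- their values
  have hval := fun s => TubeV.value A res hres V rho hVA hrho r hstar hdiv hL hk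
    ⟨((aP s : P.toValuationSubring) : F), hcV s⟩ P (hregc s)
  choose b hq hb1 hb2 using hval
  have hb1' : ∀ s, UpB.evalHom P (hL P) (aP s) = ((b s : A) : L) := fun s => hb1 s
  -- the reduction of `y`
  have hyV : y = ∑ s : Fin d, hRP.incl ⟨((aP s : P.toValuationSubring) : F), hcV s⟩ * θ ^ (s : ℕ) := by
    apply Subtype.ext
    rw [haP, AddSubmonoidClass.coe_finsetSum]
    refine Finset.sum_congr rfl fun s _ => ?_
    rw [MulMemClass.coe_mul, LiftT.RedPair.coe_incl, SubmonoidClass.coe_pow]
  have hrhoy : rho' y = ∑ s : Fin d,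
      algebraMap Fb Fb' (((⟨rho ⟨((aP s : P.toValuationSubring) : F), hcV s⟩, hq s⟩ :
        (r P).toValuationSubring)) : Fb) * (rho' θ) ^ (s : ℕ) := by
    conv_lhs => rw [hyV]
    rw [map_sum]
    refine Finset.sum_congr rfl fun s _ => ?_
    rw [map_mul, map_pow, hRP.rho'_incl]
  refine ⟨?_, fun i => ⟨∑ s : Fin d, b s * α i ^ (s : ℕ), ?_, ?_⟩⟩
  · rw [hrhoy]
    refine IsIntegral.sum _ fun s _ => ?_
    have h1 : IsIntegral (r P).toValuationSubring (algebraMap Fb Fb'
        (((⟨rho ⟨((aP s : P.toValuationSubring) : F), hcV s⟩, hq s⟩ :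
          (r P).toValuationSubring)) : Fb)) :=
      (isIntegral_algebraMap (R := (r P).toValuationSubring) (A := Fb')
        (x := ⟨rho ⟨((aP s : P.toValuationSubring) : F), hcV s⟩, hq s⟩))
    exact h1.mul ((UEvOne.isIntegral_theta hgoodQ).pow _)
  · rw [haP, hPform, AddSubmonoidClass.coe_finsetSum]
    refine Finset.sum_congr rfl fun s _ => ?_
    rw [MulMemClass.coe_mul, SubmonoidClass.coe_pow, hb1' s]
  · rw [hrhoy, hQform, map_sum]
    refine Finset.sum_congr rfl fun s _ => ?_
    rw [map_mul, map_pow, hb2 s]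

/-- **Generic points with evaluation data** (the hypothesis `hpts` of the relative torsion
theorem): for every finite set `T` of places to avoid and every `n` there are `n` places with
pairwise distinct reductions outside `r T`, coordinates `t i ∈ V` and evaluation maps on the
fibres of `F'/F` and `Fb'/Fb` over them forming `URel.EvalPt`. -/
theorem exists_pts [IsAlgClosed L] [IsAlgClosed k] [FiniteDimensional F F']
    [FiniteDimensional Fb Fb'] [Algebra.IsSeparable Fb Fb'] (A : ValuationSubring L)
    (res : A →+* k) (hres : Function.Surjective res)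
    (hres0 : ∀ a : A, res a = 0 ↔ a ∈ IsLocalRing.maximalIdeal A)
    (V : ValuationSubring F) (rho : V →+* Fb) (V' : ValuationSubring F') (rho' : V' →+* Fb')
    (hRP : LiftT.RedPair V V' rho rho')
    (hVA : ∀ c : L, algebraMap L F c ∈ V ↔ c ∈ A)
    (hrho : ∀ (a : A) (h : algebraMap L F (a : L) ∈ V), rho ⟨_, h⟩ = algebraMap k Fb (res a))
    (r : Place L F → Place k Fb)
    (hstar : ∀ x : V, rho x ≠ 0 → ∀ D : Divisor L F, (∀ P, D P = P.ord (x : F)) →
      ∀ Q, Finsupp.mapDomain r D Q = Q.ord (rho x))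
    (hdiv : ∀ f : F, f ≠ 0 → ∃ D : Divisor L F, ∀ v, D v = v.ord f)
    (h0b : RR.Hyp0 k Fb)
    (hL : ∀ P : Place L F, Function.Surjective (algebraMap L P.ResidueField))
    (hk : ∀ Q : Place k Fb, Function.Surjective (algebraMap k Q.ResidueField))
    {d : ℕ} (hdF : Module.finrank F F' = d) (hdFb : Module.finrank Fb Fb' = d)
    (x : V) (hx : ∀ a : L, (x : F) ≠ algebraMap L F a)
    (hxb : ∀ c : k, rho x ≠ algebraMap k Fb c)
    (hsimple : ∃ S : Finset k, ∀ c, c ∉ S → ∀ Q : Place k Fb,
      0 < Q.ord (rho x - algebraMap k Fb c) → Q.ord (rho x - algebraMap k Fb c) = 1)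
    (T : Finset (Place L F)) (n : ℕ) :
    ∃ (P : Fin n → Place L F) (t : Fin n → V) (vP : Fin n → F' → Fin d → L)
      (vQ : Fin n → Fb' → Fin d → k),
      Function.Injective (fun i => r (P i)) ∧ (∀ i, ∀ P' ∈ T, r P' ≠ r (P i)) ∧
      ∀ i, URel.EvalPt A res V rho V' rho' r hk d (P i) (t i) (vP i) (vQ i) := by
  classical
  obtain ⟨θ, g, hg, hmin, hminb, hgdeg, hgsep⟩ := exists_theta hRP (hdF.trans hdFb.symm)
  obtain ⟨T1, hT1⟩ := UBad.exists_finset_coeff_mem_of_subring hdiv V g
  obtain ⟨Tb1, hTb1⟩ := UBad.exists_finset_forall_separable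
    (fun f hf => (h0b.principal f hf).imp fun D hD => hD.1) hk (g.map rho) hgsep
  have hxa : ∀ a : A, algebraMap L F (a : L) ∈ V := fun a => (hVA _).mpr a.2
  have hstar' : ∀ a : A, ∀ D : Divisor L F,
      (∀ P, D P = P.ord ((x : F) - algebraMap L F (a : L))) →
      ∀ Q, Finsupp.mapDomain r D Q = Q.ord (rho x - algebraMap k Fb (res a)) := by
    intro a D hD Q
    have hne : rho (x - ⟨algebraMap L F (a : L), hxa a⟩) ≠ 0 := by
      rw [map_sub, hrho a, sub_ne_zero]
      exact hxb _
    have h1 := hstar (x - ⟨algebraMap L F (a : L), hxa a⟩) hne D hD Q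
    rw [map_sub, hrho a] at h1
    exact h1
  have hinf : Infinite k := IsAlgClosed.instInfinite
  obtain ⟨P, a, hinj, hPTb, hPT, hP1, hPtube, -, hQ1⟩ := Gen.exists_points A res hres r (x : F)
    (rho x) hdiv h0b hx hxb hstar' hsimple (T ∪ T1) Tb1 n
  have key : ∀ i, ∃ (vP : F' → Fin d → L) (vQ : Fb' → Fin d → k),
      URel.EvalPt A res V rho V' rho' r hk d (P i)
        (x - ⟨algebraMap L F (a i : L), hxa (a i)⟩) vP vQ := by
    intro i
    refine evalPt_of_good A res hres0 V rho V' rho' hRP hVA hrho r hstar hdiv hL hk θ g hg hmin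
      hminb hdF hdFb (hgdeg.trans hdF) (P i) _ (hP1 i) (hPtube i) ?_ ?_ ?_
    · rw [map_sub, hrho]
      exact hQ1 i
    · intro P' hP' j
      refine hT1 P' (fun hmem => ?_) j
      exact hPT i P' (Finset.mem_union_right _ hmem) hP'
    · intro Q hQ
      refine hTb1 Q ?_
      rw [hQ]
      exact hPTb i
  choose vP vQ hev using key
  exact ⟨P, fun i => x - ⟨algebraMap L F (a i : L), hxa (a i)⟩, vP, vQ, hinj,
    fun i P' hP' => hPT i P' (Finset.mem_union_left _ hP'), hev⟩

end Main

end

end Fermat.Agent.S18.UEvPts
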