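import Mathlib

/-!
# S18, Theorem U: abstract linear algebra over a local / valuation ring

* `exists_retraction`: element-form criterion for a split injection over a local ring.
* `exists_split`: if `ker (P mod 𝔪)` is the line spanned by `e₀`, then `M = A e₀ ⊕ ker φ` and
  `P` has a retraction on `ker φ`.
* `exists_eq_smul_add_smul` (Lemma C): `P g ∈ c • N` implies `g = c₀ • e₀ + c • g'`.
* `exists_critical` (the Smith-normal-form step of Theorem U, without Smith normal form).
-/

set_option autoImplicit false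

namespace Fermat.Agent.S18.ULin

open IsLocalRing

section general

variable {A : Type*} [CommRing A]
variable {M N : Type*} [AddCommGroup M] [Module A M] [AddCommGroup N] [Module A N]

theorem apply_mem_smul_top (I : Ideal A) (f : M →ₗ[A] N) {x : M}
    (hx : x ∈ I • (⊤ : Submodule A M)) : f x ∈ I • (⊤ : Submodule A N) := by
  have h1 : f x ∈ (I • (⊤ : Submodule A M)).map f := Submodule.mem_map_of_mem hx
  rw [Submodule.map_smul''] at h1
  exact Submodule.smul_mono le_rfl le_top h1

theorem mem_smul_top_pi {ι : Type*} [Finite ι] (I : Ideal A) (v : ι → A) :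
    v ∈ I • (⊤ : Submodule A (ι → A)) ↔ ∀ i, v i ∈ I := by
  classical
  constructor
  · intro hv i
    refine Submodule.smul_induction_on (p := fun w => w i ∈ I) hv ?_ ?_
    · intro a ha w _
      exact I.mul_mem_right _ ha
    · intro x y hx hy
      exact I.add_mem hx hy
  · intro hv
    cases nonempty_fintype ι
    have h1 : v = ∑ i, v i • (Pi.single i (1 : A) : ι → A) := by
      ext j
      simp [Finset.sum_apply, Pi.single_apply]
    rw [h1]
    exact Submodule.sum_mem _ fun i _ => Submodule.smul_mem_smul (hv i) Submodule.mem_top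

end general

section local_

variable {A : Type*} [CommRing A] [IsLocalRing A]
variable {M N : Type*} [AddCommGroup M] [Module A M] [AddCommGroup N] [Module A N]

/-- Element-form criterion for a split injection over a local ring: if `T x ∈ 𝔪 N` forces
`x ∈ 𝔪 M`, then `T` has a retraction. -/
theorem exists_retraction [Module.Finite A M] [Module.Finite A N] [Module.Free A N]
    (T : M →ₗ[A] N)
    (hT : ∀ x, T x ∈ maximalIdeal A • (⊤ : Submodule A N) →
      x ∈ maximalIdeal A • (⊤ : Submodule A M)) :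
    ∃ S : N →ₗ[A] M, S ∘ₗ T = LinearMap.id := by
  rw [IsLocalRing.split_injective_iff_lTensor_residueField_injective]
  rw [injective_iff_map_eq_zero]
  intro z hz
  obtain ⟨x, rfl⟩ := TensorProduct.mk_surjective A M (ResidueField A)
    Ideal.Quotient.mk_surjective z
  have h1 : T.lTensor (ResidueField A) (TensorProduct.mk A (ResidueField A) M 1 x) =
      TensorProduct.mk A (ResidueField A) N 1 (T x) := by
    simp
  rw [h1] at hz
  have h2 : T x ∈ LinearMap.ker (TensorProduct.mk A (A ⧸ maximalIdeal A) N 1) := hz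
  rw [LinearMap.ker_tensorProductMk] at h2
  have h3 := hT x h2
  rw [← LinearMap.ker_tensorProductMk] at h3
  exact h3

/-- If the kernel of `P` modulo `𝔪` is the line spanned by `e₀ ∉ 𝔪 M`, then there are a functional
`φ` with `φ e₀ = 1` and a map `s : N → ker φ` which inverts `P` on `ker φ`. -/
theorem exists_split [Module.Finite A M] [Module.Free A M] [Module.Finite A N] [Module.Free A N]
    (P : M →ₗ[A] N) (e₀ : M) (he₀ : e₀ ∉ maximalIdeal A • (⊤ : Submodule A M))
    (hker : ∀ x, P x ∈ maximalIdeal A • (⊤ : Submodule A N) →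
      ∃ a : A, x - a • e₀ ∈ maximalIdeal A • (⊤ : Submodule A M)) :
    ∃ (φ : M →ₗ[A] A) (s : N →ₗ[A] M), φ e₀ = 1 ∧ (∀ y, φ (s y) = 0) ∧
      ∀ b, φ b = 0 → s (P b) = b := by
  classical
  -- the functional `φ`
  let b := Module.Free.chooseBasis A M
  have hex : ∃ j, IsUnit (b.repr e₀ j) := by
    by_contra hcon
    push Not at hcon
    apply he₀
    rw [← b.sum_repr e₀]
    refine Submodule.sum_mem _ fun j _ => Submodule.smul_mem_smul ?_ Submodule.mem_top
    exact (IsLocalRing.mem_maximalIdeal _).mpr (hcon j)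
  obtain ⟨j, hj⟩ := hex
  obtain ⟨φ, hφ⟩ : ∃ φ : M →ₗ[A] A, φ e₀ = 1 := by
    refine ⟨(hj.unit⁻¹ : Aˣ) • b.coord j, ?_⟩
    simp only [LinearMap.smul_apply, Module.Basis.coord_apply, Units.smul_def, smul_eq_mul]
    exact hj.val_inv_mul
  have hφm : ∀ x, x ∈ maximalIdeal A • (⊤ : Submodule A M) → φ x ∈ maximalIdeal A := by
    intro x hx
    have h := apply_mem_smul_top (maximalIdeal A) φ hx
    rwa [smul_eq_mul, Ideal.mul_top] at h
  -- the complement `B = ker φ` and the projection onto it
  let B : Submodule A M := LinearMap.ker φ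
  let πB : M →ₗ[A] B := (LinearMap.id - φ.smulRight e₀).codRestrict B (by
    intro x
    show φ (x - φ x • e₀) = 0
    rw [map_sub, map_smul, hφ, smul_eq_mul, mul_one, sub_self])
  have hπB : ∀ x : B, πB x = x := by
    intro x
    apply Subtype.ext
    show (x : M) - φ x • e₀ = x
    have hx : φ (x : M) = 0 := x.2
    rw [hx, zero_smul, sub_zero]
  have hfin : Module.Finite A B :=
    Module.Finite.of_surjective πB (fun x => ⟨x, hπB x⟩)
  -- the restriction of `P` to `B` is injective modulo `𝔪`
  have hT : ∀ x : B, (P ∘ₗ B.subtype) x ∈ maximalIdeal A • (⊤ : Submodule A N) →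
      x ∈ maximalIdeal A • (⊤ : Submodule A B) := by
    intro x hx
    obtain ⟨a, ha⟩ := hker (x : M) hx
    have h1 := hφm _ ha
    have hx0 : φ (x : M) = 0 := x.2
    rw [map_sub, map_smul, hφ, hx0, smul_eq_mul, mul_one, zero_sub, neg_mem_iff] at h1
    have h2 : (x : M) ∈ maximalIdeal A • (⊤ : Submodule A M) := by
      have : (x : M) = ((x : M) - a • e₀) + a • e₀ := by abel
      rw [this]
      exact Submodule.add_mem _ ha (Submodule.smul_mem_smul h1 Submodule.mem_top)
    have h3 := apply_mem_smul_top (maximalIdeal A) πB h2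
    rwa [hπB] at h3
  obtain ⟨S, hS⟩ := exists_retraction (P ∘ₗ B.subtype) hT
  refine ⟨φ, B.subtype ∘ₗ S, hφ, fun y => (S y).2, fun x hx => ?_⟩
  have h := LinearMap.congr_fun hS ⟨x, hx⟩
  exact congrArg Subtype.val h

/-- **Lemma C** (abstract form): if `ker (P mod 𝔪)` is the line spanned by `e₀`, `P e₀ = 0` and
`P g ∈ c N`, then `g = c₀ • e₀ + c • g'`. -/
theorem exists_eq_smul_add_smul [Module.Finite A M] [Module.Free A M] [Module.Finite A N]
    [Module.Free A N] (P : M →ₗ[A] N) (e₀ : M)
    (he₀ : e₀ ∉ maximalIdeal A • (⊤ : Submodule A M)) (hP0 : P e₀ = 0)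
    (hker : ∀ x, P x ∈ maximalIdeal A • (⊤ : Submodule A N) →
      ∃ a : A, x - a • e₀ ∈ maximalIdeal A • (⊤ : Submodule A M))
    (c : A) (g : M) (hg : ∃ y : N, P g = c • y) :
    ∃ (c₀ : A) (g' : M), g = c₀ • e₀ + c • g' := by
  obtain ⟨φ, s, hφ, -, hs⟩ := exists_split P e₀ he₀ hker
  obtain ⟨y, hy⟩ := hg
  have hb : φ (g - φ g • e₀) = 0 := by
    rw [map_sub, map_smul, hφ, smul_eq_mul, mul_one, sub_self]
  have h1 := hs _ hb
  rw [map_sub, map_smul, hP0, smul_zero, sub_zero, hy, map_smul] at h1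
  refine ⟨φ g, s y, ?_⟩
  rw [h1]
  abel

end local_

section valuation

variable {A : Type*} [CommRing A] [IsDomain A] [ValuationRing A]

/-- In a valuation ring, a nonzero finite family has a nonzero member dividing all the others. -/
theorem exists_dvd_all {ι : Type*} [Finite ι] (w : ι → A) (hw : w ≠ 0) :
    ∃ i₀, w i₀ ≠ 0 ∧ ∀ i, w i₀ ∣ w i := by
  classical
  cases nonempty_fintype ι
  have key : ∀ s : Finset ι, s.Nonempty → ∃ i₀ ∈ s, ∀ i ∈ s, w i₀ ∣ w i := by
    intro s hs
    induction hs using Finset.Nonempty.cons_induction with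
    | singleton a => exact ⟨a, Finset.mem_singleton_self a, fun i hi => by
        rw [Finset.mem_singleton.mp hi]⟩
    | cons a s ha hs ih =>
      obtain ⟨i₀, hi₀, h⟩ := ih
      rcases ValuationRing.dvd_total (w a) (w i₀) with h1 | h1
      · refine ⟨a, Finset.mem_cons_self a s, fun i hi => ?_⟩
        rcases Finset.mem_cons.mp hi with rfl | hi
        · exact dvd_rfl
        · exact h1.trans (h i hi)
      · refine ⟨i₀, Finset.mem_cons.mpr (Or.inr hi₀), fun i hi => ?_⟩
        rcases Finset.mem_cons.mp hi with rfl | hi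
        · exact h1
        · exact h i hi
  have hne : (Finset.univ : Finset ι).Nonempty := by
    by_contra hcon
    rw [Finset.not_nonempty_iff_eq_empty, Finset.univ_eq_empty_iff] at hcon
    exact hw (funext fun i => (hcon.false i).elim)
  obtain ⟨i₀, -, h⟩ := key Finset.univ hne
  refine ⟨i₀, fun h0 => hw (funext fun i => ?_), fun i => h i (Finset.mem_univ i)⟩
  have := h i (Finset.mem_univ i)
  rw [h0] at this
  exact zero_dvd_iff.mp this

variable {M : Type*} [AddCommGroup M] [Module A M]

/-- **The Smith-normal-form step of Theorem U** (no Smith normal form needed): an injective map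
`ρ : M → A^ι` of a finite free module over a valuation ring whose reduction has the
one-dimensional kernel spanned by `f₀` has `f ≡ f₀`, `c ∈ 𝔪 ∖ {0}` and `u` with `ρ f = c • u`
and `u` not in the image of `ρ` modulo `𝔪`. -/
theorem exists_critical {ι : Type*} [Finite ι] [Module.Finite A M] [Module.Free A M]
    (ρ : M →ₗ[A] (ι → A)) (hinj : Function.Injective ρ) (f₀ : M)
    (hf₀ : f₀ ∉ maximalIdeal A • (⊤ : Submodule A M)) (hρf₀ : ∀ i, ρ f₀ i ∈ maximalIdeal A)
    (hker : ∀ x, (∀ i, ρ x i ∈ maximalIdeal A) →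
      ∃ a : A, x - a • f₀ ∈ maximalIdeal A • (⊤ : Submodule A M)) :
    ∃ (f : M) (c : A) (u : ι → A), f - f₀ ∈ maximalIdeal A • (⊤ : Submodule A M) ∧
      c ∈ maximalIdeal A ∧ c ≠ 0 ∧ ρ f = c • u ∧ ∀ h : M, ∃ i, ρ h i - u i ∉ maximalIdeal A := by
  classical
  cases nonempty_fintype ι
  have hker' : ∀ x, ρ x ∈ maximalIdeal A • (⊤ : Submodule A (ι → A)) →
      ∃ a : A, x - a • f₀ ∈ maximalIdeal A • (⊤ : Submodule A M) := fun x hx =>
    hker x ((mem_smul_top_pi _ _).mp hx)
  obtain ⟨φ, s, hφ, hφs, hs⟩ := exists_split ρ f₀ hf₀ hker'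
  have hρm : ∀ x, x ∈ maximalIdeal A • (⊤ : Submodule A M) → ∀ i, ρ x i ∈ maximalIdeal A :=
    fun x hx => (mem_smul_top_pi _ _).mp (apply_mem_smul_top _ ρ hx)
  have hsm : ∀ y : ι → A, (∀ i, y i ∈ maximalIdeal A) →
      s y ∈ maximalIdeal A • (⊤ : Submodule A M) :=
    fun y hy => apply_mem_smul_top _ s ((mem_smul_top_pi _ _).mpr hy)
  -- the corrected vector
  set t : M := s (ρ f₀) with ht
  have htm : t ∈ maximalIdeal A • (⊤ : Submodule A M) := hsm _ hρf₀
  set f : M := f₀ - t with hf
  have hff₀ : f - f₀ ∈ maximalIdeal A • (⊤ : Submodule A M) := by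
    have : f - f₀ = -t := by rw [hf]; abel
    rw [this]
    exact Submodule.neg_mem _ htm
  have hfne : f ≠ 0 := by
    intro h0
    apply hf₀
    have : f₀ = t := by
      rw [hf, sub_eq_zero] at h0
      exact h0
    rw [this]
    exact htm
  set w : ι → A := ρ f with hw
  have hw0 : w ≠ 0 := by
    intro h0
    exact hfne (hinj (h0.trans (map_zero ρ).symm))
  have hwm : ∀ i, w i ∈ maximalIdeal A := by
    intro i
    rw [hw, hf, map_sub, Pi.sub_apply]
    exact Ideal.sub_mem _ (hρf₀ i) (hρm t htm i)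
  have hsw : s w = 0 := by
    rw [hw, hf, map_sub, map_sub, ← ht, hs t (hφs _), sub_self]
  obtain ⟨i₀, hi₀, hdvd⟩ := exists_dvd_all w hw0
  choose u hu using hdvd
  have hu1 : u i₀ = 1 := by
    have h := hu i₀
    have h2 : w i₀ * 1 = w i₀ * u i₀ := by rw [mul_one]; exact h
    exact (mul_left_cancel₀ hi₀ h2).symm
  have hwu : w = w i₀ • u := by
    funext i
    rw [Pi.smul_apply, smul_eq_mul]
    exact hu i
  have hsu : s u = 0 := by
    have h := hsw
    rw [hwu, map_smul] at h
    exact (smul_eq_zero.mp h).resolve_left hi₀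
  refine ⟨f, w i₀, u, hff₀, hwm i₀, hi₀, hwu, ?_⟩
  intro h
  by_contra hcon
  push Not at hcon
  -- `h = φ h • f₀ + b` with `b ∈ ker φ`
  set b : M := h - φ h • f₀ with hb
  have hφb : φ b = 0 := by
    rw [hb, map_sub, map_smul, hφ, smul_eq_mul, mul_one, sub_self]
  have h1 : ∀ i, (ρ b - u) i ∈ maximalIdeal A := by
    intro i
    have : (ρ b - u) i = (ρ h i - u i) - φ h * ρ f₀ i := by
      rw [hb, map_sub, map_smul]
      simp only [Pi.sub_apply, Pi.smul_apply, smul_eq_mul]
      ring
    rw [this]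
    exact Ideal.sub_mem _ (hcon i) (Ideal.mul_mem_left _ _ (hρf₀ i))
  have h2 := hsm _ h1
  rw [map_sub, hs b hφb, hsu, sub_zero] at h2
  have h3 := hρm b h2
  have h4 : u i₀ ∈ maximalIdeal A := by
    have : u i₀ = ρ b i₀ - (ρ b - u) i₀ := by
      simp only [Pi.sub_apply]
      ring
    rw [this]
    exact Ideal.sub_mem _ (h3 i₀) (h1 i₀)
  rw [hu1] at h4
  exact (IsLocalRing.maximalIdeal A).ne_top_iff_one.mp (IsLocalRing.maximalIdeal.isMaximal A).ne_top h4

end valuation

end Fermat.Agent.S18.ULin
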