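/-
S18 (wave 7), chain U, leaf U-PHI (helper11): the functions `φ`, `ψ̄` and the constant `c̄₀` of
the torsion step.

If `m • D` is principal, say `div φ₁ = m • D`, and the reduction `r_* D` is principal, say
`div ψ̄ = r_* D`, then after scaling `φ₁` by a constant to a unit `φ₀` of the Gauss valuation ring
the extended reduction property gives `div (rho φ₀) = r_* (m • D) = div (ψ̄ ^ m)`, hence
`rho φ₀ = c̄₀ ψ̄ ^ m` with a nonzero constant `c̄₀`.
-/
import Mathlib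
import Fermat.Agent.S18.RGaussBar
import Fermat.Agent.S18.Tube
import Fermat.Agent.S18.PModC
import Fermat.Agent.S18.Defs
import Fermat.Agent.S18.ResAlgClosed
import Fermat.Agent.S24.Alg.Places

set_option autoImplicit false
set_option synthInstance.maxHeartbeats 400000

noncomputable section

namespace Fermat.Agent.S18.UPhi

open AlgebraicCurve ModularCurve

section Generic

variable {L F k Fb : Type*} [Field L] [Field F] [Algebra L F] [Field k] [Field Fb] [Algebra k Fb]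

/-- **U-PHI, abstract form.**  `V ⊂ F` a valuation ring with reduction `rho : V →+* Fb`, every
nonzero function a constant times an element of `V` with nonzero reduction, `r` a map on places
with the divisor compatibility `(*)` for such elements; functions of `Fb` without poles are
constant.  If `m • D` and `r_* D` are principal there are `φ₀ ∈ V` with divisor `m • D`, `ψ̄` with
divisor `r_* D` and a nonzero constant `c̄₀` with `rho φ₀ = c̄₀ ψ̄ ^ m`. -/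
theorem exists_phi (V : ValuationSubring F) (rho : V →+* Fb)
    (hscale : ∀ g : F, g ≠ 0 → ∃ (c : L) (h : algebraMap L F c * g ∈ V),
      c ≠ 0 ∧ rho ⟨_, h⟩ ≠ 0)
    (r : Place L F → Place k Fb)
    (hstar : ∀ x : V, rho x ≠ 0 → ∀ D : Divisor L F, (∀ P, D P = P.ord (x : F)) →
      ∀ Q, Finsupp.mapDomain r D Q = Q.ord (rho x))
    (hconstb : ∀ f : Fb, (∀ v : Place k Fb, 0 ≤ v.ord f) → ∃ c : k, f = algebraMap k Fb c)
    (m : ℕ) (D : Divisor L F) (hmD : Divisor.IsPrincipal (m • D))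
    (hrD : Divisor.IsPrincipal (Finsupp.mapDomain r D)) :
    ∃ (φ₀ : V) (ψb : Fb) (c0b : k), (φ₀ : F) ≠ 0 ∧
      (∀ v : Place L F, v.ord (φ₀ : F) = m * D v) ∧ ψb ≠ 0 ∧
      (∀ w : Place k Fb, w.ord ψb = Finsupp.mapDomain r D w) ∧ c0b ≠ 0 ∧
      rho φ₀ = algebraMap k Fb c0b * ψb ^ m := by
  obtain ⟨φ₁, hφ₁0, hφ₁⟩ := hmD
  obtain ⟨ψb, hψ0, hψ⟩ := hrD
  obtain ⟨c, hmem, hc0, hne⟩ := hscale φ₁ hφ₁0
  have hord : ∀ v : Place L F, v.ord (algebraMap L F c * φ₁) = m * D v := by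
    intro v
    rw [Tube.ord_const_mul v hc0, ← hφ₁ v, Finsupp.smul_apply, nsmul_eq_mul]
  have hstar' := hstar ⟨_, hmem⟩ hne (m • D) (fun P => by
    rw [Finsupp.smul_apply, nsmul_eq_mul]
    exact (hord P).symm)
  have hQ : ∀ Q : Place k Fb, Q.ord (rho ⟨_, hmem⟩) = m * Q.ord ψb := by
    intro Q
    rw [← hstar' Q, Finsupp.mapDomain_smul, Finsupp.smul_apply, hψ Q, nsmul_eq_mul]
  have hpow0 : ψb ^ m ≠ 0 := pow_ne_zero _ hψ0
  have hg0 : rho ⟨_, hmem⟩ * (ψb ^ m)⁻¹ ≠ 0 := mul_ne_zero hne (inv_ne_zero hpow0)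
  have hgord : ∀ Q : Place k Fb, Q.ord (rho ⟨_, hmem⟩ * (ψb ^ m)⁻¹) = 0 := by
    intro Q
    rw [Q.ord_mul hne (inv_ne_zero hpow0), Q.ord_inv, Fermat.Agent.S24.Places.ord_pow, hQ]
    ring
  obtain ⟨c0b, hc0b⟩ := hconstb _ (fun v => (hgord v).ge)
  refine ⟨⟨_, hmem⟩, ψb, c0b, ?_, hord, hψ0, fun w => (hψ w).symm, ?_, ?_⟩
  · exact mul_ne_zero (by simpa using hc0) hφ₁0
  · rintro rfl
    rw [map_zero] at hc0b
    exact hg0 hc0b
  · rw [← hc0b, mul_assoc, inv_mul_cancel₀ hpow0, mul_one]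

end Generic

/-- Level inclusions of intermediate fields are the identity on constants. -/
theorem algOfLE_algebraMap_const {K E : Type*} [Field K] [Field E] [Algebra K E]
    {S T : IntermediateField K E} (h : S ≤ T) (c : K) :
    @algebraMap S T _ _ (algOfLE h) (algebraMap K S c) = algebraMap K T c :=
  rfl

/-! ### The modular instance -/

section Modular

variable (A : ValuationSubring Qb) {ℓ : ℕ} [Fact ℓ.Prime] (hA : A.LiesOverPrime ℓ)

/-- **U-PHI at level `N`** (`ℓ ∤ N`): the abstract statement for the Gauss valuation ring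
`RGB.V N A` and its reduction `RGB.rho`. -/
theorem exists_phi_bar (N : ℕ) [NeZero N] (hℓN : ¬ ℓ ∣ N)
    {r : Place Qb ↥(FN N) → Place (Kb A) ↥(FbN A N)} (hr : IsPlaceReductionModL A N r)
    (m : ℕ) (D : Divisor Qb ↥(FN N)) (hmD : Divisor.IsPrincipal (m • D))
    (hrD : Divisor.IsPrincipal (Finsupp.mapDomain r D)) :
    ∃ (φ₀ : ↥(RGB.V N A)) (ψb : ↥(FbN A N)) (c0b : Kb A), (φ₀ : ↥(FN N)) ≠ 0 ∧
      (∀ v : Place Qb ↥(FN N), v.ord (φ₀ : ↥(FN N)) = m * D v) ∧ ψb ≠ 0 ∧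
      (∀ w : Place (Kb A) ↥(FbN A N), w.ord ψb = Finsupp.mapDomain r D w) ∧ c0b ≠ 0 ∧
      RGB.rho N hℓN A hA φ₀ = algebraMap (Kb A) ↥(FbN A N) c0b * ψb ^ m := by
  haveI : IsAlgClosed (Kb A) := ResAC.isAlgClosed_residueField_ratBar A
  haveI : CharP (Kb A) ℓ := RN.charP_residueField A hA
  exact exists_phi (RGB.V N A) (RGB.rho N hℓN A hA)
    (fun g hg => RGB.exists_smul_mem N hℓN A hA g hg) r
    (fun x hx D hD Q => RGB.mapDomain_eq_ord_rho N hℓN A hA hr x hx D hD Q)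
    (PModC.hyp0_modC (Kb A) N ℓ).const m D hmD hrD

/-- The Gauss valuation rings are compatible with the level inclusions. -/
theorem algebraMap_mem_V {N M : ℕ} [NeZero N] [NeZero M] (h : N ∣ M) (x : ↥(RGB.V N A)) :
    letI := algOfLE (bar_mono h)
    algebraMap ↥(FN N) ↥(FN M) (x : ↥(FN N)) ∈ RGB.V M A := by
  letI := algOfLE (bar_mono h)
  obtain ⟨a, b, hb, hab⟩ := (RG.mem_V A N).mp x.2
  have h1 : ((algebraMap ↥(FN N) ↥(FN M) (x : ↥(FN N)) : ↥(FN M)) : LaurentSeries Qb) =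
      ((x : ↥(FN N)) : LaurentSeries Qb) := algOfLE_algebraMap (bar_mono h) _
  refine (RG.mem_V A M).mpr ⟨a, b, hb, ?_⟩
  rw [h1]
  exact hab

/-- The reductions of the Gauss valuation rings are compatible with the level inclusions. -/
theorem rho_algebraMap {N M : ℕ} [NeZero N] [NeZero M] (h : N ∣ M) (hℓN : ¬ ℓ ∣ N)
    (hℓM : ¬ ℓ ∣ M) (x : ↥(RGB.V N A)) :
    letI := algOfLE (bar_mono h)
    letI := algOfLE (fullC_mono (Kb A) h)
    RGB.rho M hℓM A hA ⟨algebraMap ↥(FN N) ↥(FN M) (x : ↥(FN N)), algebraMap_mem_V A h x⟩ =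
      algebraMap ↥(FbN A N) ↥(FbN A M) (RGB.rho N hℓN A hA x) := by
  letI := algOfLE (bar_mono h)
  letI := algOfLE (fullC_mono (Kb A) h)
  obtain ⟨a, b, hb, hab⟩ := (RG.mem_V A N).mp x.2
  have h1 : ((algebraMap ↥(FN N) ↥(FN M) (x : ↥(FN N)) : ↥(FN M)) : LaurentSeries Qb) =
      ((x : ↥(FN N)) : LaurentSeries Qb) := algOfLE_algebraMap (bar_mono h) _
  have h2 : ((algebraMap ↥(FbN A N) ↥(FbN A M) (RGB.rho N hℓN A hA x) : ↥(FbN A M)) :
      LaurentSeries (Kb A)) = ((RGB.rho N hℓN A hA x : ↥(FbN A N)) : LaurentSeries (Kb A)) :=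
    algOfLE_algebraMap (fullC_mono (Kb A) h) _
  apply Subtype.ext
  rw [h2, RGB.coe_rho, RGB.coe_rho, RG.rhoL_eq A N x hb hab]
  exact RG.rhoL_eq A M _ hb (by rw [h1]; exact hab)

/-- **U-PHI in the shape consumed by `URel`**: levels `N ∣ M`, `ℓ ∤ M`; `φ` in the Gauss valuation
ring of level `M` is the image of `φ₀ ∈ F_N` with divisor `m • D`, and
`rho' φ = c̄₀ · ψ̄ ^ m` in `F̄_M` with `ψ̄ ∈ F̄_N` of divisor `r_* D`. -/
theorem exists_phi_level {N M : ℕ} [NeZero N] [NeZero M] (h : N ∣ M) (hℓM : ¬ ℓ ∣ M)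
    {r : Place Qb ↥(FN N) → Place (Kb A) ↥(FbN A N)} (hr : IsPlaceReductionModL A N r)
    (m : ℕ) (D : Divisor Qb ↥(FN N)) (hmD : Divisor.IsPrincipal (m • D))
    (hrD : Divisor.IsPrincipal (Finsupp.mapDomain r D)) :
    letI := algOfLE (bar_mono h)
    letI := algOfLE (fullC_mono (Kb A) h)
    ∃ (φ : ↥(RGB.V M A)) (φ₀ : ↥(FN N)) (ψb : ↥(FbN A N)) (c0b : Kb A),
      ((φ : ↥(RGB.V M A)) : ↥(FN M)) = algebraMap ↥(FN N) ↥(FN M) φ₀ ∧ φ₀ ≠ 0 ∧
      (∀ v : Place Qb ↥(FN N), v.ord φ₀ = m * D v) ∧ ψb ≠ 0 ∧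
      (∀ w : Place (Kb A) ↥(FbN A N), w.ord ψb = Finsupp.mapDomain r D w) ∧ c0b ≠ 0 ∧
      RGB.rho M hℓM A hA φ =
        algebraMap (Kb A) ↥(FbN A M) c0b * (algebraMap ↥(FbN A N) ↥(FbN A M) ψb) ^ m := by
  have hℓN : ¬ ℓ ∣ N := fun hN => hℓM (hN.trans h)
  obtain ⟨φ₀, ψb, c0b, hφ0, hφ, hψ0, hψ, hc0, hrho⟩ :=
    exists_phi_bar A hA N hℓN hr m D hmD hrD
  refine ⟨⟨_, algebraMap_mem_V A h φ₀⟩, φ₀, ψb, c0b, rfl, hφ0, hφ, hψ0, hψ, hc0, ?_⟩
  refine (rho_algebraMap A hA h hℓN hℓM φ₀).trans ?_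
  rw [hrho, map_mul, map_pow, algOfLE_algebraMap_const]

end Modular

end Fermat.Agent.S18.UPhi
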