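import Fermat.Agent.S18.TopTorsionPre

/-!
# S18, chain U: the torsion step at levels `N ∣ M` from generic points (hole H1 of `TopTorsion`)

`UTop.torsion_of_pts` is the literal statement requested by the integrator of the torsion step:
everything of `TorsionOfLiftStmtV` except the existence of the generic points with evaluation
data, which is the hypothesis `hpts` (with `d = [F_M : F_N]`).
-/

set_option autoImplicit false
set_option synthInstance.maxHeartbeats 400000
set_option linter.style.haveILetI false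

noncomputable section

namespace Fermat.Agent.S18.UTop

open HahnSeries IntermediateField AlgebraicCurve ModularCurve
open Fermat.Agent.S20

/-- The torsion step with an arbitrary number `d` of evaluation coordinates. -/
theorem torsion_of_pts' {ℓ : ℕ} [Fact ℓ.Prime] (A : ValuationSubring Qb)
    (hA : A.LiesOverPrime ℓ) {N M : ℕ} [NeZero N] [NeZero M] (h : N ∣ M) (hℓM : ¬ ℓ ∣ M)
    (hℓN : ¬ ℓ ∣ N) (r : Place Qb (FN N) → Place (Kb A) (FbN A N))
    (hr : IsPlaceReductionModL A N r) (hlift : LiftPropV A hA h hℓM r)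
    (hk : ∀ Q : Place (Kb A) (FbN A N), Function.Surjective (algebraMap (Kb A) Q.ResidueField))
    (d : ℕ)
    (hpts : letI := algOfLE (bar_mono h)
      letI := algOfLE (fullC_mono (Kb A) h)
      haveI := isScalarTower_algOfLE (bar_mono h)
      ∀ (T : Finset (Place Qb (FN N))) (n : ℕ),
      ∃ (P : Fin n → Place Qb (FN N)) (t : Fin n → RGB.V N A)
        (vP : Fin n → FN M → Fin d → Qb) (vQ : Fin n → FbN A M → Fin d → Kb A),
        Function.Injective (fun i => r (P i)) ∧ (∀ i, ∀ P' ∈ T, r P' ≠ r (P i)) ∧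
        ∀ i, URel.EvalPt A (IsLocalRing.residue A) (RGB.V N A) (RGB.rho N hℓN A hA) (RGB.V M A)
          (RGB.rho M hℓM A hA) r hk d (P i) (t i) (vP i) (vQ i))
    (m : ℕ) (hm : ¬ ℓ ∣ m) (D : Divisor Qb (FN N)) (hD : Divisor.degree D = 0)
    (hmD : Divisor.IsPrincipal (m • D)) (hrD : Divisor.IsPrincipal (Finsupp.mapDomain r D)) :
    Divisor.IsPrincipal (levelDeg h • D) := by
  letI := algOfLE (bar_mono h)
  letI := algOfLE (fullC_mono (Kb A) h)
  haveI := isScalarTower_algOfLE (bar_mono h)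
  haveI := isScalarTower_algOfLE (fullC_mono (Kb A) h)
  have h0 : RR.Hyp0 Qb (FN N) := PHyp.hyp0_bar N
  have h0b : RR.Hyp0 (Kb A) (FbN A N) := UPhiB.hyp0_FbN A hA N
  obtain ⟨c, hc⟩ := hlift
  obtain ⟨φ, hφ0, hφ⟩ := hmD
  obtain ⟨ψb, hψ0, hψ⟩ := hrD
  obtain ⟨x, hx0, hx⟩ := UMainRel.exists_relIntegral A (IsLocalRing.residue A)
    IsLocalRing.residue_surjective (RGB.V N A) (RGB.rho N hℓN A hA) (RGB.V M A)
    (RGB.rho M hℓM A hA) (UAd.redPair h hℓM A hA hℓN) (RG.algebraMap_mem_V A N)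
    (RGB.rho_algebraMap N hℓN A hA) (RGB.exists_smul_mem N hℓN A hA) r
    (fun x hx D hD Q => RGB.mapDomain_eq_ord_rho N hℓN A hA hr x hx D hD Q) h0 h0b hk
    (fun G => TopTorsionPre.finite_lat h hℓM A hA G) (UAd.hcart hℓM A hA) c hc
    (fun G x hx => UAd.relIntegral_rho h hℓM A hA hr G x hx) (UConst.exists_const_FbN A hA h)
    d hpts m (TopTorsionPre.natCast_not_mem_maximalIdeal A hA hm) D hD φ hφ0 hφ ψb hψ0 hψ
  haveI := ROR.finite_bar h
  exact UpN.isPrincipal_nsmul_of_relIntegral (fun P => by rw [h0.deg_one P]; exact one_pos)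
    h0.principal D hD hx0 hx

/-- **H1**: the torsion step at levels `N ∣ M` from generic points with evaluation data
(`d = [F_M : F_N]`). -/
theorem torsion_of_pts {ℓ : ℕ} [Fact ℓ.Prime] (A : ValuationSubring Qb)
    (hA : A.LiesOverPrime ℓ) {N M : ℕ} [NeZero N] [NeZero M] (h : N ∣ M) (hℓM : ¬ ℓ ∣ M)
    (hℓN : ¬ ℓ ∣ N) (r : Place Qb (FN N) → Place (Kb A) (FbN A N))
    (hr : IsPlaceReductionModL A N r) (hlift : LiftPropV A hA h hℓM r)
    (hk : ∀ Q : Place (Kb A) (FbN A N), Function.Surjective (algebraMap (Kb A) Q.ResidueField))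
    (hpts : letI := algOfLE (bar_mono h)
      letI := algOfLE (fullC_mono (Kb A) h)
      ∀ (T : Finset (Place Qb (FN N))) (n : ℕ),
      ∃ (P : Fin n → Place Qb (FN N)) (t : Fin n → RGB.V N A)
        (vP : Fin n → FN M → Fin (Module.finrank (FN N) (FN M)) → Qb)
        (vQ : Fin n → FbN A M → Fin (Module.finrank (FN N) (FN M)) → Kb A),
        Function.Injective (fun i => r (P i)) ∧ (∀ i, ∀ P' ∈ T, r P' ≠ r (P i)) ∧
        ∀ i, URel.EvalPt A (IsLocalRing.residue A) (RGB.V N A) (RGB.rho N hℓN A hA) (RGB.V M A)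
          (RGB.rho M hℓM A hA) r hk (Module.finrank (FN N) (FN M)) (P i) (t i) (vP i) (vQ i))
    (m : ℕ) (hm : ¬ ℓ ∣ m) (D : Divisor Qb (FN N)) (hD : Divisor.degree D = 0)
    (hmD : Divisor.IsPrincipal (m • D)) (hrD : Divisor.IsPrincipal (Finsupp.mapDomain r D)) :
    Divisor.IsPrincipal (levelDeg h • D) := by
  letI := algOfLE (bar_mono h)
  letI := algOfLE (fullC_mono (Kb A) h)
  exact torsion_of_pts' A hA h hℓM hℓN r hr hlift hk (Module.finrank (FN N) (FN M)) hpts
    m hm D hD hmD hrD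

end Fermat.Agent.S18.UTop
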