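import Fermat.Agent.S18.Iface2
import Fermat.Agent.S18.URel
import Fermat.Agent.S18.UpEval
import Fermat.Agent.S18.UAdapt
import Fermat.Agent.S18.UPts
import Fermat.Agent.S18.GSTop
import Fermat.Agent.S18.ROrthoRel
import Fermat.Agent.S18.PModCB
import Fermat.Agent.S18.SepLevel

/-!
# S18, chain U, piece H2: generic points with evaluation data at the levels `N ∣ M`

`UTopPts.exists_pts_level` instantiates the abstract `UpE.exists_pts` at
`L, F, F', k, Fb, Fb' = ℚ̄, F_N, F_M, κ(A), F̄_N, F̄_M` (`N ∣ M`, `ℓ ∤ M`), with the Gauss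
valuation rings `RGB.V N A ⊆ RGB.V M A` and their residue maps, the coordinate `x = j`, and
`GenMod.exists_points` for the generic points.  The result is the hypothesis `hpts` of
`UMainRel.exists_relIntegral` at these levels, for every place reduction `r` of `F_N` in the
frozen sense (`IsPlaceReductionModL A N r`) with residue fields `κ(A)` on the special fibre.
-/

set_option autoImplicit false
set_option synthInstance.maxHeartbeats 400000
set_option linter.style.haveILetI false

noncomputable section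

namespace Fermat.Agent.S18.UTopPts

open HahnSeries IntermediateField AlgebraicCurve ModularCurve Fermat.Agent.S20

/-- **Generic points with evaluation data at the levels `N ∣ M`.** -/
theorem exists_pts_level {ℓ : ℕ} [Fact ℓ.Prime] (A : ValuationSubring Qb)
    (hA : A.LiesOverPrime ℓ) {N M : ℕ} [NeZero N] [NeZero M] (h : N ∣ M) (hℓM : ¬ ℓ ∣ M)
    (hℓN : ¬ ℓ ∣ N) (r : Place Qb (FN N) → Place (Kb A) (FbN A N))
    (hr : IsPlaceReductionModL A N r)
    (hk : ∀ Q : Place (Kb A) (FbN A N), Function.Surjective (algebraMap (Kb A) Q.ResidueField))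
    (T : Finset (Place Qb (FN N))) (n : ℕ) :
    letI := algOfLE (bar_mono h)
    letI := algOfLE (fullC_mono (Kb A) h)
    ∃ (P : Fin n → Place Qb (FN N)) (t : Fin n → RGB.V N A)
      (vP : Fin n → FN M → Fin (Module.finrank (FN N) (FN M)) → Qb)
      (vQ : Fin n → FbN A M → Fin (Module.finrank (FN N) (FN M)) → Kb A),
      Function.Injective (fun i => r (P i)) ∧ (∀ i, ∀ P' ∈ T, r P' ≠ r (P i)) ∧
      ∀ i, URel.EvalPt A (IsLocalRing.residue A) (RGB.V N A) (RGB.rho N hℓN A hA) (RGB.V M A)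
        (RGB.rho M hℓM A hA) r hk (Module.finrank (FN N) (FN M)) (P i) (t i) (vP i) (vQ i) := by
  letI := algOfLE (bar_mono h)
  letI := algOfLE (fullC_mono (Kb A) h)
  haveI : IsScalarTower Qb (FN N) (FN M) := isScalarTower_algOfLE (bar_mono h)
  haveI : IsScalarTower (Kb A) (FbN A N) (FbN A M) := isScalarTower_algOfLE (fullC_mono (Kb A) h)
  haveI : IsAlgClosed (Kb A) := GST.isAlgClosed_Kb A
  haveI : CharP (Kb A) ℓ := GST.charP_Kb A hA
  haveI : Module.Finite (FN N) (FN M) := ROR.finite_bar h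
  haveI : Module.Finite (FbN A N) (FbN A M) := PModCB.finite_FbN A hA h hℓM
  haveI : Algebra.IsSeparable (FbN A N) (FbN A M) := SepLevel.isSeparable_FbN A hA h hℓM
  haveI := PHyp.finiteDimensional_bar N
  obtain ⟨x, hx, hρ⟩ := UPts.exists_j A hA hℓN
  refine UpE.exists_pts A (IsLocalRing.residue A) IsLocalRing.residue_surjective
    (RGB.V N A) (RGB.rho N hℓN A hA) (RGB.V M A) (RGB.rho M hℓM A hA)
    (UAd.redPair h hℓM A hA hℓN)
    (fun a => RG.algebraMap_mem_V A N a)
    (RGB.rho_algebraMap N hℓN A hA)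
    r
    (fun y hy D hD Q => RGB.mapDomain_eq_ord_rho N hℓN A hA hr y hy D hD Q)
    (fun f hf => ?_) (fun f hf => ?_)
    (fun P => S24.Places.algebraMap_residueField_surjective (S24.jElt Qb N) P)
    hk
    (LiftD.finrank_bar_eq_finrank_fullC (Kb A) ℓ h hℓM
      (fun a => algOfLE_algebraMap (bar_mono h) a)
      (fun a => algOfLE_algebraMap (fullC_mono (Kb A) h) a))
    x ?_ T n
  · obtain ⟨D, hD, -⟩ := (PHyp.hyp0_bar N).principal f hf
    exact ⟨D, hD⟩
  · obtain ⟨D, hD, -⟩ := (GST.hyp0_Kb A hA N).principal f hf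
    exact ⟨D, hD⟩
  · intro T' Tb m
    obtain ⟨P, a, h1, h2, h3, h4, h5, -, h7⟩ := GenMod.exists_points hA hr T' Tb m
    refine ⟨P, a, h1, h2, h3, ?_, ?_, ?_⟩
    · intro i
      rw [hx]
      exact h4 i
    · intro i P' hP' hne
      rw [hx]
      exact h5 i P' hP' hne
    · intro i
      rw [hρ]
      exact h7 i

/-- The residue field of every place of the special fibre `F̄_N` is `κ(A)` (the hypothesis `hk`
of `exists_pts_level`, `UMainRel.exists_relIntegral`, `URel.EvalPt`, at every level `N ≠ 0`). -/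
theorem hk_level {ℓ : ℕ} [Fact ℓ.Prime] (A : ValuationSubring Qb) (hA : A.LiesOverPrime ℓ)
    (N : ℕ) [NeZero N] (Q : Place (Kb A) (FbN A N)) :
    Function.Surjective (algebraMap (Kb A) Q.ResidueField) := by
  haveI : IsAlgClosed (Kb A) := GST.isAlgClosed_Kb A
  haveI : CharP (Kb A) ℓ := GST.charP_Kb A hA
  haveI := PModC.finiteDimensional_xJ (Kb A) N ℓ
  exact S24.Places.algebraMap_residueField_surjective (PModC.xJ (Kb A) N) Q

/-- The residue field of every place of `F_N` is `ℚ̄`. -/
theorem hL_level (N : ℕ) [NeZero N] (P : Place Qb (FN N)) :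
    Function.Surjective (algebraMap Qb P.ResidueField) := by
  haveI := PHyp.finiteDimensional_bar N
  exact S24.Places.algebraMap_residueField_surjective (S24.jElt Qb N) P

/-- `exists_pts_level` with `hk := hk_level A hA N`. -/
theorem exists_pts_level' {ℓ : ℕ} [Fact ℓ.Prime] (A : ValuationSubring Qb)
    (hA : A.LiesOverPrime ℓ) {N M : ℕ} [NeZero N] [NeZero M] (h : N ∣ M) (hℓM : ¬ ℓ ∣ M)
    (hℓN : ¬ ℓ ∣ N) (r : Place Qb (FN N) → Place (Kb A) (FbN A N))
    (hr : IsPlaceReductionModL A N r) (T : Finset (Place Qb (FN N))) (n : ℕ) :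
    letI := algOfLE (bar_mono h)
    letI := algOfLE (fullC_mono (Kb A) h)
    ∃ (P : Fin n → Place Qb (FN N)) (t : Fin n → RGB.V N A)
      (vP : Fin n → FN M → Fin (Module.finrank (FN N) (FN M)) → Qb)
      (vQ : Fin n → FbN A M → Fin (Module.finrank (FN N) (FN M)) → Kb A),
      Function.Injective (fun i => r (P i)) ∧ (∀ i, ∀ P' ∈ T, r P' ≠ r (P i)) ∧
      ∀ i, URel.EvalPt A (IsLocalRing.residue A) (RGB.V N A) (RGB.rho N hℓN A hA) (RGB.V M A)
        (RGB.rho M hℓM A hA) r (hk_level A hA N) (Module.finrank (FN N) (FN M)) (P i) (t i)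
        (vP i) (vQ i) :=
  exists_pts_level A hA h hℓM hℓN r hr (hk_level A hA N) T n

end Fermat.Agent.S18.UTopPts
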